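/-
Program P (S36), chapter (G) of NUM-P (S36_NOTE1 §G4–§G6), brick "approximation toolkit for THREE
valuation subrings", helper9.  Mathlib + `RED/PUR/UniqueExt20` + `ES/N34/TwoExt22` only.

`F` a field, `O₁ O₂ O₃` pairwise incomparable valuation subrings of `F` (`Incomp3`; e.g. three
distinct extensions of one valuation subring of a subfield `E` with `F / E` algebraic:
`Incomp3.of_ne_of_comap_eq`).  General rank, no completion, no discreteness.

* `Incomp3.exists_idem`   : `e ≡ 1 mod 𝔪₁`, `e ∈ 𝔪₂ ∩ 𝔪₃`.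
* (A2) `Incomp3.exists_approx` : for `ηᵢ ∈ Oᵢ` there is `H` with `H ≡ ηᵢ mod 𝔪ᵢ` (`i = 1,2,3`);
  `Incomp3.exists_approx_unit` : if the `ηᵢ` are units then moreover `vᵢ H = 1`.
* (A1) `Incomp3.exists_unif` : if `ϖ` generates `𝔪₁` (elementwise form) there is `T` with
  `v₁ T = v₁ ϖ`, `v₂ T = 1`, `v₃ T = 1`;  `Incomp3.exists_val_zpow` : prescribed integral powers
  of three such generators at the three places simultaneously.
  (For an ARBITRARY `ϖ ∈ 𝔪₁` the statement is false when `O₁`, `O₂` are dependent: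
  `Incomp3.exists_same_val_mem` is what survives: `v₁ y = v₁ x`, `y ∈ O₂ ∩ O₃`.)
* (A2 mod π) `Incomp3.exists_idem_mod`, `Incomp3.exists_approx_mod` : if `𝔪ᵢ ^ N ⊆ π Oᵢ` and
  `ηᵢ ∈ O₁ ⊓ O₂ ⊓ O₃` there is `H ≡ ηᵢ mod π Oᵢ` (`i = 1,2,3`)  (S36_SS27 §4(f)).
* (A3) `val_one_add_pow_prime_sub_one_le` : `q` prime, `v q ≤ v π`, `x ∈ 𝔪`, `v x ^ q ≤ v π`
  ⟹ `v ((1 + x) ^ q - 1) ≤ v π`;  `Incomp3`-free 3-fold corollary
  `exists_one_add_pow_prime_eq` : `(1 + x)^q = 1 + π c` with `c ∈ O₁ ⊓ O₂ ⊓ O₃`.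
-/
import Mathlib
import Fermat.Agent.RED.PUR.UniqueExt20
import Fermat.Agent.ES.N34.TwoExt22

set_option autoImplicit false

namespace Fermat.Agent.ES.P36.Approx3v9

open Fermat.Agent.RED.PUR.UniqueExt20 Fermat.Agent.ES.N34.TwoExt22

variable {F : Type*} [Field F]

/-! ### One-valuation bookkeeping -/

section One

variable {O : ValuationSubring F}

theorem val_one_sub_lt_symm {x : F} (h : O.valuation (1 - x) < 1) :
    O.valuation (x - 1) < 1 := by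
  rwa [← Valuation.map_neg, neg_sub]

/-- `x / (1 + x w)` at a place where `x` is a pole and `w ≡ 1`: a unit. -/
theorem val_div_one_add_mul_of_one_lt {x w : F} (hx : 1 < O.valuation x)
    (hw : O.valuation (1 - w) < 1) : O.valuation (x / (1 + x * w)) = 1 := by
  have hw1 : O.valuation w = 1 := val_eq_one_of_one_sub_lt hw
  have hxw : O.valuation (x * w) = O.valuation x := by rw [map_mul, hw1, mul_one]
  have h2 : O.valuation (1 + x * w) = O.valuation x := by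
    rw [Valuation.map_add_eq_of_lt_right _ (by rw [map_one, hxw]; exact hx), hxw]
  have hx0 : x ≠ 0 := by
    rintro rfl; rw [map_zero] at hx; exact not_lt_of_ge zero_le hx
  rw [map_div₀, h2, div_self (val_pos O hx0).ne']

/-- `x / (1 + x w)` at a place where `x` is integral and `w ∈ 𝔪`: same valuation as `x`. -/
theorem val_div_one_add_mul_of_le_one {x w : F} (hx : O.valuation x ≤ 1)
    (hw : O.valuation w < 1) : O.valuation (x / (1 + x * w)) = O.valuation x := by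
  have h1 : O.valuation (1 + x * w) = 1 := by
    refine Valuation.map_one_add_of_lt _ ?_
    rw [map_mul]
    exact (mul_le_of_le_one_left' hx).trans_lt hw
  rw [map_div₀, h1, div_one]

end One

/-! ### Pairwise incomparability -/

/-- Three pairwise incomparable valuation subrings. -/
def Incomp3 (O₁ O₂ O₃ : ValuationSubring F) : Prop :=
  (¬ O₁ ≤ O₂ ∧ ¬ O₂ ≤ O₁) ∧ (¬ O₁ ≤ O₃ ∧ ¬ O₃ ≤ O₁) ∧ (¬ O₂ ≤ O₃ ∧ ¬ O₃ ≤ O₂)

namespace Incomp3

variable {O₁ O₂ O₃ : ValuationSubring F}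

theorem mk' (h12 : ¬ O₁ ≤ O₂) (h21 : ¬ O₂ ≤ O₁) (h13 : ¬ O₁ ≤ O₃) (h31 : ¬ O₃ ≤ O₁)
    (h23 : ¬ O₂ ≤ O₃) (h32 : ¬ O₃ ≤ O₂) : Incomp3 O₁ O₂ O₃ :=
  ⟨⟨h12, h21⟩, ⟨h13, h31⟩, ⟨h23, h32⟩⟩

/-- Three distinct extensions of one valuation subring of `E`, `F / E` algebraic. -/
theorem of_ne_of_comap_eq {E : Type*} [Field E] [Algebra E F] [Algebra.IsAlgebraic E F]
    (h12 : O₁ ≠ O₂) (h13 : O₁ ≠ O₃) (h23 : O₂ ≠ O₃)
    (hc12 : O₁.comap (algebraMap E F) = O₂.comap (algebraMap E F))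
    (hc13 : O₁.comap (algebraMap E F) = O₃.comap (algebraMap E F)) : Incomp3 O₁ O₂ O₃ :=
  ⟨⟨not_le_of_ne_of_comap_eq h12 hc12, not_le_of_ne_of_comap_eq h12.symm hc12.symm⟩,
    ⟨not_le_of_ne_of_comap_eq h13 hc13, not_le_of_ne_of_comap_eq h13.symm hc13.symm⟩,
    ⟨not_le_of_ne_of_comap_eq h23 (hc12.symm.trans hc13),
      not_le_of_ne_of_comap_eq h23.symm (hc13.symm.trans hc12)⟩⟩

/-- Cyclic rotation `(1,2,3) ↦ (2,3,1)`. -/
theorem rotate (h : Incomp3 O₁ O₂ O₃) : Incomp3 O₂ O₃ O₁ :=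
  ⟨⟨h.2.2.1, h.2.2.2⟩, ⟨h.1.2, h.1.1⟩, ⟨h.2.1.2, h.2.1.1⟩⟩

/-- Swap of the last two. -/
theorem swap23 (h : Incomp3 O₁ O₂ O₃) : Incomp3 O₁ O₃ O₂ :=
  ⟨⟨h.2.1.1, h.2.1.2⟩, ⟨h.1.1, h.1.2⟩, ⟨h.2.2.2, h.2.2.1⟩⟩

/-- Swap of the first two. -/
theorem swap12 (h : Incomp3 O₁ O₂ O₃) : Incomp3 O₂ O₁ O₃ :=
  ⟨⟨h.1.2, h.1.1⟩, ⟨h.2.2.1, h.2.2.2⟩, ⟨h.2.1.1, h.2.1.2⟩⟩

/-- An element `≡ 1 mod 𝔪₁` lying in `𝔪₂ ∩ 𝔪₃`. -/
theorem exists_idem (h : Incomp3 O₁ O₂ O₃) :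
    ∃ e : F, O₁.valuation (1 - e) < 1 ∧ O₂.valuation e < 1 ∧ O₃.valuation e < 1 :=
  exists_approx3 h.1.1 h.1.2 h.2.1.1 h.2.1.2

/-- An element of `O₁` can be moved into `𝔪₂ ∩ 𝔪₃` without changing its residue at `O₁`. -/
theorem exists_adjust (h : Incomp3 O₁ O₂ O₃) {η : F} (hη : O₁.valuation η ≤ 1) :
    ∃ c : F, O₁.valuation (c - η) < 1 ∧ O₂.valuation c < 1 ∧ O₃.valuation c < 1 := by
  obtain ⟨e, he1, he2, he3⟩ := h.exists_idem
  exact exists_adjust3 he1 he2 he3 hη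

/-- **(A2)**  Simultaneous approximation of residues at three pairwise incomparable valuation
subrings: for `ηᵢ ∈ Oᵢ` there is `H` with `H ≡ ηᵢ mod 𝔪ᵢ` for `i = 1, 2, 3`. -/
theorem exists_approx (h : Incomp3 O₁ O₂ O₃) {η₁ η₂ η₃ : F} (h₁ : O₁.valuation η₁ ≤ 1)
    (h₂ : O₂.valuation η₂ ≤ 1) (h₃ : O₃.valuation η₃ ≤ 1) :
    ∃ H : F, O₁.valuation (H - η₁) < 1 ∧ O₂.valuation (H - η₂) < 1 ∧
      O₃.valuation (H - η₃) < 1 := by
  obtain ⟨c₁, hc11, hc12, hc13⟩ := h.exists_adjust h₁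
  obtain ⟨c₂, hc22, hc23, hc21⟩ := h.rotate.exists_adjust h₂
  obtain ⟨c₃, hc33, hc31, hc32⟩ := h.rotate.rotate.exists_adjust h₃
  refine ⟨c₁ + c₂ + c₃, ?_, ?_, ?_⟩
  · have : c₁ + c₂ + c₃ - η₁ = (c₁ - η₁) + c₂ + c₃ := by ring
    rw [this]
    exact Valuation.map_add_lt _ (Valuation.map_add_lt _ hc11 hc21) hc31
  · have : c₁ + c₂ + c₃ - η₂ = c₁ + (c₂ - η₂) + c₃ := by ring
    rw [this]
    exact Valuation.map_add_lt _ (Valuation.map_add_lt _ hc12 hc22) hc32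
  · have : c₁ + c₂ + c₃ - η₃ = c₁ + c₂ + (c₃ - η₃) := by ring
    rw [this]
    exact Valuation.map_add_lt _ (Valuation.map_add_lt _ hc13 hc23) hc33

/-- (A2) for units: the approximating element is a unit at the three places. -/
theorem exists_approx_unit (h : Incomp3 O₁ O₂ O₃) {η₁ η₂ η₃ : F} (h₁ : O₁.valuation η₁ = 1)
    (h₂ : O₂.valuation η₂ = 1) (h₃ : O₃.valuation η₃ = 1) :
    ∃ H : F, H ≠ 0 ∧ (O₁.valuation H = 1 ∧ O₂.valuation H = 1 ∧ O₃.valuation H = 1) ∧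
      O₁.valuation (H - η₁) < 1 ∧ O₂.valuation (H - η₂) < 1 ∧ O₃.valuation (H - η₃) < 1 := by
  obtain ⟨H, hH1, hH2, hH3⟩ := h.exists_approx h₁.le h₂.le h₃.le
  have key : ∀ (O : ValuationSubring F) (η : F), O.valuation η = 1 → O.valuation (H - η) < 1 →
      O.valuation H = 1 := by
    intro O η hη hH
    have : H = η + (H - η) := by ring
    rw [this, Valuation.map_add_eq_of_lt_left _ (by rw [hη]; exact hH), hη]
  have hv1 := key O₁ η₁ h₁ hH1
  refine ⟨H, ?_, ⟨hv1, key O₂ η₂ h₂ hH2, key O₃ η₃ h₃ hH3⟩, hH1, hH2, hH3⟩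
  rintro rfl
  rw [map_zero] at hv1
  exact zero_ne_one hv1

/-- An element of `𝔪₁` can be moved into `O₂ ∩ O₃` without changing its `O₁`-valuation. -/
theorem exists_same_val_mem (h : Incomp3 O₁ O₂ O₃) {x : F} (hx : O₁.valuation x < 1) :
    ∃ y : F, O₁.valuation y = O₁.valuation x ∧ O₂.valuation y ≤ 1 ∧ O₃.valuation y ≤ 1 := by
  classical
  obtain ⟨e₂, h22, h23, h21⟩ := h.rotate.exists_idem
  obtain ⟨e₃, h33, h31, h32⟩ := h.rotate.rotate.exists_idem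
  by_cases hx2 : O₂.valuation x ≤ 1
  · by_cases hx3 : O₃.valuation x ≤ 1
    · exact ⟨x, rfl, hx2, hx3⟩
    · rw [not_le] at hx3
      exact ⟨x / (1 + x * e₃), val_div_one_add_mul_of_le_one hx.le h31,
        (val_div_one_add_mul_of_le_one hx2 h32).le.trans hx2,
        (val_div_one_add_mul_of_one_lt hx3 h33).le⟩
  · rw [not_le] at hx2
    by_cases hx3 : O₃.valuation x ≤ 1
    · exact ⟨x / (1 + x * e₂), val_div_one_add_mul_of_le_one hx.le h21,
        (val_div_one_add_mul_of_one_lt hx2 h22).le,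
        (val_div_one_add_mul_of_le_one hx3 h23).le.trans hx3⟩
    · rw [not_le] at hx3
      have h2 : O₂.valuation (1 - (e₂ + e₃)) < 1 := by
        have : 1 - (e₂ + e₃) = (1 - e₂) - e₃ := by ring
        rw [this]
        exact Valuation.map_sub_lt _ h22 h32
      have h3 : O₃.valuation (1 - (e₂ + e₃)) < 1 := by
        have : 1 - (e₂ + e₃) = (1 - e₃) - e₂ := by ring
        rw [this]
        exact Valuation.map_sub_lt _ h33 h23
      exact ⟨x / (1 + x * (e₂ + e₃)),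
        val_div_one_add_mul_of_le_one hx.le (Valuation.map_add_lt _ h21 h31),
        (val_div_one_add_mul_of_one_lt hx2 h2).le, (val_div_one_add_mul_of_one_lt hx3 h3).le⟩

/-- **(A1)**  If `ϖ` generates `𝔪₁` (every element of `𝔪₁` has valuation at most that of `ϖ`),
there is `T` with the `O₁`-valuation of `ϖ` which is a unit at `O₂` and at `O₃`. -/
theorem exists_unif (h : Incomp3 O₁ O₂ O₃) {ϖ : F} (hϖ : O₁.valuation ϖ < 1)
    (hgen : ∀ x : F, O₁.valuation x < 1 → O₁.valuation x ≤ O₁.valuation ϖ) :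
    ∃ T : F, T ≠ 0 ∧ O₁.valuation T = O₁.valuation ϖ ∧ O₂.valuation T = 1 ∧
      O₃.valuation T = 1 := by
  obtain ⟨e, he1, he2, he3⟩ := h.exists_idem
  obtain ⟨y, hy1, hy2, hy3⟩ := h.exists_same_val_mem hϖ
  have he1v : O₁.valuation e = 1 := val_eq_one_of_one_sub_lt he1
  -- `ϖ ≠ 0`: otherwise `𝔪₁ = 0`, `O₁ = ⊤ ≥ O₂`
  have hϖ0 : ϖ ≠ 0 := by
    rintro rfl
    apply h.1.2
    intro z _
    by_contra hz
    have hz0 : z ≠ 0 := fun h0 => hz (h0 ▸ O₁.zero_mem)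
    have hz1 : O₁.valuation z⁻¹ < 1 := by
      rw [val_lt_one_iff]; right; rwa [inv_inv]
    have := hgen _ hz1
    rw [map_zero] at this
    exact (inv_ne_zero hz0) ((Valuation.zero_iff _).mp (le_antisymm this zero_le))
  have hpos : 0 < O₁.valuation ϖ := val_pos O₁ hϖ0
  have hsq : O₁.valuation ((1 - e) ^ 2) < O₁.valuation ϖ := by
    rw [map_pow, pow_two]
    calc O₁.valuation (1 - e) * O₁.valuation (1 - e)
        ≤ O₁.valuation ϖ * O₁.valuation (1 - e) := mul_le_mul_left (hgen _ he1) _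
      _ < O₁.valuation ϖ * 1 := (mul_lt_mul_iff_of_pos_left hpos).mpr he1
      _ = O₁.valuation ϖ := mul_one _
  have key : ∀ O : ValuationSubring F, O.valuation e < 1 → O.valuation y ≤ 1 →
      O.valuation (y * e + (1 - e) ^ 2) = 1 := by
    intro O he hy
    have h1 : O.valuation ((1 - e) ^ 2) = 1 := by
      rw [map_pow, Valuation.map_one_sub_of_lt _ he, one_pow]
    have h2 : O.valuation (y * e) < 1 := by
      rw [map_mul]; exact (mul_le_of_le_one_left' hy).trans_lt he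
    rw [Valuation.map_add_eq_of_lt_right _ (by rw [h1]; exact h2), h1]
  have hT1 : O₁.valuation (y * e + (1 - e) ^ 2) = O₁.valuation ϖ := by
    have h1 : O₁.valuation (y * e) = O₁.valuation ϖ := by rw [map_mul, he1v, mul_one, hy1]
    rw [Valuation.map_add_eq_of_lt_left _ (by rw [h1]; exact hsq), h1]
  refine ⟨y * e + (1 - e) ^ 2, ?_, hT1, key O₂ he2 hy2, key O₃ he3 hy3⟩
  intro h0
  rw [h0, map_zero] at hT1
  exact hpos.ne hT1

/-- (A1), all three places at once with prescribed integral exponents: if `ϖᵢ` generates `𝔪ᵢ`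
(`i = 1, 2, 3`) then for all `n₁ n₂ n₃ : ℤ` there is `H ≠ 0` with `vᵢ H = vᵢ ϖᵢ ^ nᵢ`. -/
theorem exists_val_zpow (h : Incomp3 O₁ O₂ O₃) {ϖ₁ ϖ₂ ϖ₃ : F}
    (hϖ₁ : O₁.valuation ϖ₁ < 1)
    (hgen₁ : ∀ x : F, O₁.valuation x < 1 → O₁.valuation x ≤ O₁.valuation ϖ₁)
    (hϖ₂ : O₂.valuation ϖ₂ < 1)
    (hgen₂ : ∀ x : F, O₂.valuation x < 1 → O₂.valuation x ≤ O₂.valuation ϖ₂)
    (hϖ₃ : O₃.valuation ϖ₃ < 1)
    (hgen₃ : ∀ x : F, O₃.valuation x < 1 → O₃.valuation x ≤ O₃.valuation ϖ₃)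
    (n₁ n₂ n₃ : ℤ) :
    ∃ H : F, H ≠ 0 ∧ O₁.valuation H = O₁.valuation ϖ₁ ^ n₁ ∧
      O₂.valuation H = O₂.valuation ϖ₂ ^ n₂ ∧ O₃.valuation H = O₃.valuation ϖ₃ ^ n₃ := by
  obtain ⟨T₁, hT10, hT11, hT12, hT13⟩ := h.exists_unif hϖ₁ hgen₁
  obtain ⟨T₂, hT20, hT22, hT23, hT21⟩ := h.rotate.exists_unif hϖ₂ hgen₂
  obtain ⟨T₃, hT30, hT33, hT31, hT32⟩ := h.rotate.rotate.exists_unif hϖ₃ hgen₃
  refine ⟨T₁ ^ n₁ * T₂ ^ n₂ * T₃ ^ n₃,
    mul_ne_zero (mul_ne_zero (zpow_ne_zero _ hT10) (zpow_ne_zero _ hT20)) (zpow_ne_zero _ hT30),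
    ?_, ?_, ?_⟩
  · rw [map_mul, map_mul, map_zpow₀, map_zpow₀, map_zpow₀, hT11, hT21, hT31, one_zpow, one_zpow,
      mul_one, mul_one]
  · rw [map_mul, map_mul, map_zpow₀, map_zpow₀, map_zpow₀, hT12, hT22, hT32, one_zpow, one_zpow,
      one_mul, mul_one]
  · rw [map_mul, map_mul, map_zpow₀, map_zpow₀, map_zpow₀, hT13, hT23, hT33, one_zpow, one_zpow,
      one_mul, one_mul]

/-- Idempotent-like elements MODULO `π`: if `𝔪ᵢ ^ N ⊆ π Oᵢ` (elementwise form, `i = 1, 2, 3`)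
there is `E` with `E ≡ 1 mod π O₁` and `E ∈ π O₂ ∩ π O₃`. -/
theorem exists_idem_mod (h : Incomp3 O₁ O₂ O₃) {π : F} {N : ℕ}
    (hN₁ : ∀ y : F, O₁.valuation y < 1 → O₁.valuation y ^ N ≤ O₁.valuation π)
    (hN₂ : ∀ y : F, O₂.valuation y < 1 → O₂.valuation y ^ N ≤ O₂.valuation π)
    (hN₃ : ∀ y : F, O₃.valuation y < 1 → O₃.valuation y ^ N ≤ O₃.valuation π) :
    ∃ E : F, O₁.valuation (1 - E) ≤ O₁.valuation π ∧ O₂.valuation E ≤ O₂.valuation π ∧
      O₃.valuation E ≤ O₃.valuation π := by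
  obtain ⟨e, he1, he2, he3⟩ := h.exists_idem
  have key : ∀ O : ValuationSubring F, O.valuation e < 1 →
      (∀ y : F, O.valuation y < 1 → O.valuation y ^ N ≤ O.valuation π) →
      O.valuation (1 - (1 - e ^ N) ^ N) ≤ O.valuation π := by
    intro O he hN
    have ha : O.valuation (e ^ N) ≤ O.valuation π := by rw [map_pow]; exact hN e he
    have ha1 : O.valuation (e ^ N) ≤ 1 := by
      rw [map_pow]; exact pow_le_one₀ zero_le he.le
    have hb : O.valuation (1 - e ^ N) ≤ 1 :=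
      (Valuation.map_sub _ _ _).trans (max_le (by rw [map_one]) ha1)
    have hsum : O.valuation (∑ i ∈ Finset.range N, (1 - e ^ N) ^ i) ≤ 1 := by
      refine Valuation.map_sum_le _ fun i _ => ?_
      rw [map_pow]; exact pow_le_one₀ zero_le hb
    have hgeom : 1 - (1 - e ^ N) ^ N = e ^ N * ∑ i ∈ Finset.range N, (1 - e ^ N) ^ i := by
      have := mul_neg_geom_sum (1 - e ^ N) N
      rw [← this]; ring
    rw [hgeom, map_mul]
    exact (mul_le_of_le_one_right' hsum).trans ha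
  refine ⟨1 - (1 - e ^ N) ^ N, ?_, key O₂ he2 hN₂, key O₃ he3 hN₃⟩
  have : 1 - (1 - (1 - e ^ N) ^ N) = (1 - e ^ N) ^ N := by ring
  rw [this, map_pow]
  exact hN₁ _ (val_one_sub_pow_lt he1 N)

/-- **(A2) modulo `π`**  (strong form, for elements integral at the three places, e.g. constants):
if `𝔪ᵢ ^ N ⊆ π Oᵢ` (`i = 1, 2, 3`) and `η₁ η₂ η₃ ∈ O₁ ⊓ O₂ ⊓ O₃`, there is `H` with
`H ≡ ηᵢ mod π Oᵢ` for `i = 1, 2, 3`. -/
theorem exists_approx_mod (h : Incomp3 O₁ O₂ O₃) {π : F} {N : ℕ}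
    (hN₁ : ∀ y : F, O₁.valuation y < 1 → O₁.valuation y ^ N ≤ O₁.valuation π)
    (hN₂ : ∀ y : F, O₂.valuation y < 1 → O₂.valuation y ^ N ≤ O₂.valuation π)
    (hN₃ : ∀ y : F, O₃.valuation y < 1 → O₃.valuation y ^ N ≤ O₃.valuation π)
    {η₁ η₂ η₃ : F}
    (h₁ : O₁.valuation η₁ ≤ 1 ∧ O₂.valuation η₁ ≤ 1 ∧ O₃.valuation η₁ ≤ 1)
    (h₂ : O₁.valuation η₂ ≤ 1 ∧ O₂.valuation η₂ ≤ 1 ∧ O₃.valuation η₂ ≤ 1)
    (h₃ : O₁.valuation η₃ ≤ 1 ∧ O₂.valuation η₃ ≤ 1 ∧ O₃.valuation η₃ ≤ 1) :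
    ∃ H : F, O₁.valuation (H - η₁) ≤ O₁.valuation π ∧ O₂.valuation (H - η₂) ≤ O₂.valuation π ∧
      O₃.valuation (H - η₃) ≤ O₃.valuation π := by
  obtain ⟨E₁, hE11, hE12, hE13⟩ := h.exists_idem_mod hN₁ hN₂ hN₃
  obtain ⟨E₂, hE22, hE23, hE21⟩ := h.rotate.exists_idem_mod hN₂ hN₃ hN₁
  obtain ⟨E₃, hE33, hE31, hE32⟩ := h.rotate.rotate.exists_idem_mod hN₃ hN₁ hN₂
  -- the one-place estimate
  have key : ∀ (O : ValuationSubring F) (a b c A B C : F), O.valuation a ≤ 1 →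
      O.valuation b ≤ 1 → O.valuation c ≤ 1 → O.valuation (1 - A) ≤ O.valuation π →
      O.valuation B ≤ O.valuation π → O.valuation C ≤ O.valuation π →
      O.valuation (a * A + b * B + c * C - a) ≤ O.valuation π := by
    intro O a b c A B C ha hb hc hA hB hC
    have : a * A + b * B + c * C - a = -(a * (1 - A)) + b * B + c * C := by ring
    rw [this]
    refine (Valuation.map_add _ _ _).trans (max_le
      ((Valuation.map_add _ _ _).trans (max_le ?_ ?_)) ?_)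
    · rw [Valuation.map_neg, map_mul]; exact (mul_le_of_le_one_left' ha).trans hA
    · rw [map_mul]; exact (mul_le_of_le_one_left' hb).trans hB
    · rw [map_mul]; exact (mul_le_of_le_one_left' hc).trans hC
  refine ⟨η₁ * E₁ + η₂ * E₂ + η₃ * E₃, key O₁ η₁ η₂ η₃ E₁ E₂ E₃ h₁.1 h₂.1 h₃.1 hE11 hE21 hE31,
    ?_, ?_⟩
  · have : η₁ * E₁ + η₂ * E₂ + η₃ * E₃ - η₂ = η₂ * E₂ + η₃ * E₃ + η₁ * E₁ - η₂ := by ring
    rw [this]
    exact key O₂ η₂ η₃ η₁ E₂ E₃ E₁ h₂.2.1 h₃.2.1 h₁.2.1 hE22 hE32 hE12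
  · have : η₁ * E₁ + η₂ * E₂ + η₃ * E₃ - η₃ = η₃ * E₃ + η₁ * E₁ + η₂ * E₂ - η₃ := by ring
    rw [this]
    exact key O₃ η₃ η₁ η₂ E₃ E₁ E₂ h₃.2.2 h₁.2.2 h₂.2.2 hE33 hE13 hE23

end Incomp3

/-! ### (A3): `q`-th powers of principal units -/

/-- **(A3)**, one valuation: `q` prime with `v q ≤ v π`, `x ∈ 𝔪` with `v x ^ q ≤ v π`
⟹ `v ((1 + x) ^ q - 1) ≤ v π`. -/
theorem val_one_add_pow_prime_sub_one_le (O : ValuationSubring F) {q : ℕ} (hq : q.Prime)
    {π x : F} (hqπ : O.valuation (q : F) ≤ O.valuation π) (hx : O.valuation x < 1)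
    (hxq : O.valuation x ^ q ≤ O.valuation π) :
    O.valuation ((1 + x) ^ q - 1) ≤ O.valuation π := by
  have hxO : x ∈ O := (O.valuation_le_one_iff x).mp hx.le
  obtain ⟨r, hr⟩ := exists_add_pow_prime_eq hq (1 : O) (⟨x, hxO⟩ : O)
  have hr' : (1 + x) ^ q = 1 ^ q + x ^ q + (q : F) * 1 * x * (r : F) := by
    have := congrArg (fun z : O => (z : F)) hr
    simpa using this
  have hrv : O.valuation (r : F) ≤ 1 := (O.valuation_le_one_iff _).mpr r.2
  have : (1 + x) ^ q - 1 = x ^ q + (q : F) * (x * (r : F)) := by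
    rw [hr']; ring
  rw [this]
  refine (Valuation.map_add _ _ _).trans (max_le ?_ ?_)
  · rw [map_pow]; exact hxq
  · rw [map_mul]
    refine (mul_le_of_le_one_right' ?_).trans hqπ
    rw [map_mul]
    exact mul_le_one' hx.le hrv

/-! ### The congruence subgroup `1 + π O` (stability of (U1)) -/

section PrincipalUnits

variable (O : ValuationSubring F) {π : F}

theorem val_le_one_of_sub_one_le (hπ : O.valuation π ≤ 1) {y : F}
    (hy : O.valuation (y - 1) ≤ O.valuation π) : O.valuation y ≤ 1 := by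
  have : y = (y - 1) + 1 := by ring
  rw [this]
  exact (Valuation.map_add _ _ _).trans (max_le (hy.trans hπ) (by rw [map_one]))

theorem val_eq_one_of_sub_one_le (hπ : O.valuation π < 1) {y : F}
    (hy : O.valuation (y - 1) ≤ O.valuation π) : O.valuation y = 1 := by
  have : y = 1 + (y - 1) := by ring
  rw [this]
  exact Valuation.map_one_add_of_lt _ (hy.trans_lt hπ)

/-- `1 + π O` is closed under products. -/
theorem val_mul_sub_one_le (hπ : O.valuation π ≤ 1) {y z : F}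
    (hy : O.valuation (y - 1) ≤ O.valuation π) (hz : O.valuation (z - 1) ≤ O.valuation π) :
    O.valuation (y * z - 1) ≤ O.valuation π := by
  have : y * z - 1 = (y - 1) * z + (z - 1) := by ring
  rw [this]
  refine (Valuation.map_add _ _ _).trans (max_le ?_ hz)
  rw [map_mul]
  exact (mul_le_of_le_one_right' (val_le_one_of_sub_one_le O hπ hz)).trans hy

/-- `1 + π O` is closed under powers. -/
theorem val_pow_sub_one_le (hπ : O.valuation π ≤ 1) {y : F}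
    (hy : O.valuation (y - 1) ≤ O.valuation π) (k : ℕ) :
    O.valuation (y ^ k - 1) ≤ O.valuation π := by
  rw [← geom_sum_mul, map_mul]
  refine (mul_le_of_le_one_left' ?_).trans hy
  refine Valuation.map_sum_le _ fun i _ => ?_
  rw [map_pow]
  exact pow_le_one₀ zero_le (val_le_one_of_sub_one_le O hπ hy)

/-- `1 + π O` is closed under inverses (`π` a non-unit). -/
theorem val_inv_sub_one_le (hπ : O.valuation π < 1) {y : F}
    (hy : O.valuation (y - 1) ≤ O.valuation π) : O.valuation (y⁻¹ - 1) ≤ O.valuation π := by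
  have hy1 := val_eq_one_of_sub_one_le O hπ hy
  have hy0 : y ≠ 0 := by
    rintro rfl; rw [map_zero] at hy1; exact zero_ne_one hy1
  have : y⁻¹ - 1 = -(y - 1) / y := by field_simp; ring
  rw [this, map_div₀, hy1, div_one, Valuation.map_neg]
  exact hy

/-- (A3) iterated: `(1 + x) ^ (q * k) ≡ 1 mod π O`. -/
theorem val_one_add_pow_prime_mul_sub_one_le {q : ℕ} (hq : q.Prime) {x : F}
    (hπ : O.valuation π ≤ 1) (hqπ : O.valuation (q : F) ≤ O.valuation π)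
    (hx : O.valuation x < 1) (hxq : O.valuation x ^ q ≤ O.valuation π) (k : ℕ) :
    O.valuation ((1 + x) ^ (q * k) - 1) ≤ O.valuation π := by
  rw [pow_mul]
  exact val_pow_sub_one_le O hπ (val_one_add_pow_prime_sub_one_le O hq hqπ hx hxq) k

end PrincipalUnits

/-- (A3), three valuations, product form: `(1 + x) ^ q = 1 + π c` with `c ∈ O₁ ⊓ O₂ ⊓ O₃`. -/
theorem exists_one_add_pow_prime_eq (O₁ O₂ O₃ : ValuationSubring F) {q : ℕ} (hq : q.Prime)
    {π x : F} (hπ : π ≠ 0)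
    (hqπ₁ : O₁.valuation (q : F) ≤ O₁.valuation π) (hx₁ : O₁.valuation x < 1)
    (hxq₁ : O₁.valuation x ^ q ≤ O₁.valuation π)
    (hqπ₂ : O₂.valuation (q : F) ≤ O₂.valuation π) (hx₂ : O₂.valuation x < 1)
    (hxq₂ : O₂.valuation x ^ q ≤ O₂.valuation π)
    (hqπ₃ : O₃.valuation (q : F) ≤ O₃.valuation π) (hx₃ : O₃.valuation x < 1)
    (hxq₃ : O₃.valuation x ^ q ≤ O₃.valuation π) :
    ∃ c : F, (1 + x) ^ q = 1 + π * c ∧ O₁.valuation c ≤ 1 ∧ O₂.valuation c ≤ 1 ∧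
      O₃.valuation c ≤ 1 := by
  have key : ∀ O : ValuationSubring F, O.valuation ((1 + x) ^ q - 1) ≤ O.valuation π →
      O.valuation (((1 + x) ^ q - 1) / π) ≤ 1 := by
    intro O hO
    rw [map_div₀]
    exact (div_le_one₀ (val_pos O hπ)).mpr hO
  refine ⟨((1 + x) ^ q - 1) / π, ?_,
    key O₁ (val_one_add_pow_prime_sub_one_le O₁ hq hqπ₁ hx₁ hxq₁),
    key O₂ (val_one_add_pow_prime_sub_one_le O₂ hq hqπ₂ hx₂ hxq₂),
    key O₃ (val_one_add_pow_prime_sub_one_le O₃ hq hqπ₃ hx₃ hxq₃)⟩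
  field_simp
  ring

end Fermat.Agent.ES.P36.Approx3v9
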