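/-
Program P (S36), brick G1 (helper20): **the norm commutes with reduction at one unramified and one
totally ramified extension** — `NormRed20` generalised to ramification (Mathlib + `UniqueExt20` +
`TwoExt22` + `NormRed20` only).

`F / E` finite of degree `≤ k + 2`, `O₁ ≠ O₂` valuation subrings of `F` with the same restriction
`O_E` to `E`; `t ∈ F`, `t ≠ 0`, `v₂ t < 1` and **(RAM)** every element of `𝔪_E` has `v₂ ≤ v₂ t ^ (k + 1)`
(i.e. `e(O₂ / O_E) ≥ k + 1`).  Then both residue extensions have degree one, `e(O₁ / O_E) = 1`,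
`e(O₂ / O_E) = k + 1`, and for `h ∈ O₁ ⊓ O₂`, `x₁ x₂ ∈ O_E` with `h ≡ x₁ mod 𝔪₁`, `h ≡ x₂ mod 𝔪₂`:

  `N_{F/E} h ≡ x₁ · x₂ ^ (k + 1)  mod 𝔪_E`      (`norm_congr_ram`).

Proof: on the basis `1, s, s t, …, s t ^ k` (`s ∈ 𝔪₁`, `s ≡ 1 mod 𝔪₂`) of `F / E` the elements of
`O₁ ⊓ O₂` have integral coordinates and the matrix of `h` is lower triangular modulo `𝔪_E` with
diagonal `x₁, x₂, …, x₂`.

Also: `norm_val_le_one` (`N h ∈ O_E`), `norm_val_eq_one` (units), `norm_val_lt_one` (non-units), and
the single-extension versions `norm_congr_single`, `norm_congr_single_insep`.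
-/
import Mathlib
import Fermat.Agent.RED.PUR.UniqueExt20
import Fermat.Agent.ES.N34.TwoExt22
import Fermat.Agent.ES.N35.NormRed20

set_option autoImplicit false
set_option linter.unusedSectionVars false

namespace Fermat.Agent.ES.P36.NormRam20

open Fermat.Agent.RED.PUR.UniqueExt20 Fermat.Agent.ES.N34.TwoExt22 Fermat.Agent.ES.N35.NormRed20

open scoped Classical

/-! ### Sums whose nonzero terms have pairwise distinct valuations -/

section Val

variable {F : Type*} [Field F]

/-- if the nonzero terms of a finite sum have pairwise distinct valuations, every term is bounded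
by the valuation of the sum. -/
theorem term_le_val_sum (V : ValuationSubring F) {ι : Type*} (s : Finset ι) (f : ι → F)
    (hdist : ∀ i ∈ s, ∀ j ∈ s, i ≠ j → f i ≠ 0 → V.valuation (f i) ≠ V.valuation (f j)) :
    ∀ i ∈ s, V.valuation (f i) ≤ V.valuation (∑ j ∈ s, f j) := by
  intro i hi
  obtain ⟨j₀, hj₀s, hj₀⟩ := Finset.exists_max_image s (fun j => V.valuation (f j)) ⟨i, hi⟩
  by_cases h0 : f j₀ = 0
  · have := hj₀ i hi
    rw [h0, map_zero] at this
    exact this.trans zero_le
  have hsum : V.valuation (∑ j ∈ s, f j) = V.valuation (f j₀) := by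
    refine Valuation.map_sum_eq_of_lt _ hj₀s fun l hl => ?_
    rw [Finset.mem_sdiff, Finset.mem_singleton] at hl
    refine lt_of_le_of_ne (hj₀ l hl.1) ?_
    by_cases hl0 : f l = 0
    · rw [hl0, map_zero]
      exact (val_pos V h0).ne
    · exact hdist l hl.1 j₀ hj₀s hl.2 hl0
  rw [hsum]
  exact hj₀ i hi

end Val

/-! ### Determinants of matrices that are triangular modulo the maximal ideal -/

section Det

variable {E : Type*} [Field E]

theorem residue_eq_iff (V : ValuationSubring E) (a b : ↥V) :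
    IsLocalRing.residue ↥V a = IsLocalRing.residue ↥V b ↔ V.valuation ((a : E) - (b : E)) < 1 := by
  rw [← sub_eq_zero, ← map_sub, IsLocalRing.residue_eq_zero_iff, V.valuation_lt_one_iff]
  rfl

/-- a matrix over a valuation subring whose strictly upper part lies in the maximal ideal has
determinant congruent to the product of its diagonal. -/
theorem det_congr_prod_diag {n : ℕ} (V : ValuationSubring E) (A : Matrix (Fin n) (Fin n) ↥V)
    (hA : ∀ i j, i < j → V.valuation (A i j : E) < 1) :
    V.valuation ((A.det : E) - ((∏ i, A i i : ↥V) : E)) < 1 := by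
  set Bl : Matrix (Fin n) (Fin n) ↥V := Matrix.of fun i j => if i < j then 0 else A i j with hBl
  have hlow : Bl.IsLowerTriangular := by
    intro i j hij
    have hij' : i < j := hij
    rw [hBl, Matrix.of_apply, if_pos hij']
  have hdet : Bl.det = ∏ i, A i i := by
    rw [Matrix.det_of_isLowerTriangular Bl hlow]
    refine Finset.prod_congr rfl fun i _ => ?_
    rw [hBl, Matrix.of_apply, if_neg (lt_irrefl i)]
  have h := det_congr V A Bl (fun i j => by
    rw [hBl, Matrix.of_apply]
    split_ifs with hij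
    · rw [ZeroMemClass.coe_zero, sub_zero]; exact hA i j hij
    · rw [sub_self, map_zero]; exact zero_lt_one)
  rw [hdet] at h
  exact h

end Det

/-! ### The ramified family -/

section Ram

variable (E : Type*) {F : Type*} [Field E] [Field F] [Algebra E F]

/-- the hypotheses on `O₁`, `O₂`, `s`, `t`. -/
structure RamData (O₁ O₂ : ValuationSubring F) (k : ℕ) (s t : F) : Prop where
  hcomap₂ : O₁.comap (algebraMap E F) = O₂.comap (algebraMap E F)
  ht0 : t ≠ 0
  ht1 : O₁.valuation t ≤ 1
  ht2 : O₂.valuation t < 1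
  hram : ∀ a : E, (O₁.comap (algebraMap E F)).valuation a < 1 →
    O₂.valuation (algebraMap E F a) ≤ O₂.valuation t ^ (k + 1)
  hs1 : O₁.valuation s < 1
  hs2 : O₂.valuation (1 - s) < 1

variable {E}

/-- the family `1, s, s t, …, s t ^ k`. -/
def ramFamily (s t : F) (k : ℕ) : Fin (k + 2) → F :=
  Fin.cons 1 (fun l : Fin (k + 1) => s * t ^ (l : ℕ))

@[simp] theorem ramFamily_zero (s t : F) (k : ℕ) : ramFamily s t k 0 = 1 := rfl

@[simp] theorem ramFamily_succ (s t : F) (k : ℕ) (l : Fin (k + 1)) :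
    ramFamily s t k l.succ = s * t ^ (l : ℕ) := by
  simp [ramFamily]

variable {O₁ O₂ : ValuationSubring F} {k : ℕ} {s t : F}

namespace RamData

variable (D : RamData E O₁ O₂ k s t)
include D

theorem le1 {x : E} (hx : (O₁.comap (algebraMap E F)).valuation x ≤ 1) :
    O₁.valuation (algebraMap E F x) ≤ 1 := (comap_val_le_one_iff O₁ _).mp hx

theorem le2 {x : E} (hx : (O₁.comap (algebraMap E F)).valuation x ≤ 1) :
    O₂.valuation (algebraMap E F x) ≤ 1 := by
  rw [← comap_val_le_one_iff, ← D.hcomap₂]; exact hx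

theorem lt1 {x : E} (hx : O₁.valuation (algebraMap E F x) < 1) :
    (O₁.comap (algebraMap E F)).valuation x < 1 := (comap_val_lt_one_iff O₁ _).mpr hx

theorem lt2 {x : E} (hx : O₂.valuation (algebraMap E F x) < 1) :
    (O₁.comap (algebraMap E F)).valuation x < 1 := by
  rw [D.hcomap₂]; exact (comap_val_lt_one_iff O₂ _).mpr hx

theorem hs2one : O₂.valuation s = 1 := val_eq_one_of_one_sub_lt D.hs2

theorem tpow_pos (j : ℕ) : 0 < O₂.valuation t ^ j := pow_pos (val_pos O₂ D.ht0) j

theorem tpow_lt {i j : ℕ} (hij : i < j) : O₂.valuation t ^ j < O₂.valuation t ^ i :=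
  pow_lt_pow_right_of_lt_one₀ (val_pos O₂ D.ht0) D.ht2 hij

theorem tpow_le_one (j : ℕ) : O₂.valuation t ^ j ≤ 1 := pow_le_one₀ zero_le D.ht2.le

theorem fam_val1 (i : Fin (k + 2)) : O₁.valuation (ramFamily s t k i) ≤ 1 := by
  refine Fin.cases ?_ (fun l => ?_) i
  · rw [ramFamily_zero, map_one]
  · rw [ramFamily_succ, map_mul, map_pow]
    exact mul_le_one' D.hs1.le (pow_le_one₀ zero_le D.ht1)

theorem fam_val2 (i : Fin (k + 2)) : O₂.valuation (ramFamily s t k i) ≤ 1 := by
  refine Fin.cases ?_ (fun l => ?_) i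
  · rw [ramFamily_zero, map_one]
  · rw [ramFamily_succ, map_mul, map_pow, D.hs2one, one_mul]
    exact D.tpow_le_one _

/-- the tail of a combination lies in `𝔪₁`. -/
theorem tail_val1 (a : Fin (k + 2) → E)
    (ha : ∀ i, (O₁.comap (algebraMap E F)).valuation (a i) ≤ 1) :
    O₁.valuation (∑ l : Fin (k + 1), algebraMap E F (a l.succ) * (s * t ^ (l : ℕ))) < 1 := by
  refine Valuation.map_sum_lt _ one_ne_zero fun l _ => ?_
  rw [map_mul, map_mul, map_pow]
  refine (mul_le_of_le_one_left' (D.le1 (ha _))).trans_lt ?_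
  exact (mul_le_of_le_one_right' (pow_le_one₀ zero_le D.ht1)).trans_lt D.hs1

/-- **first coordinate**: a combination in `𝔪₁` has its first coefficient in `𝔪_E`. -/
theorem key_zero (a : Fin (k + 2) → E)
    (ha : ∀ i, (O₁.comap (algebraMap E F)).valuation (a i) ≤ 1)
    (h1 : O₁.valuation (∑ i, algebraMap E F (a i) * ramFamily s t k i) < 1) :
    (O₁.comap (algebraMap E F)).valuation (a 0) < 1 := by
  rw [Fin.sum_univ_succ] at h1
  simp only [ramFamily_zero, ramFamily_succ, mul_one] at h1
  refine D.lt1 ?_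
  have : algebraMap E F (a 0) =
      (algebraMap E F (a 0) + ∑ l : Fin (k + 1), algebraMap E F (a l.succ) * (s * t ^ (l : ℕ))) -
        ∑ l : Fin (k + 1), algebraMap E F (a l.succ) * (s * t ^ (l : ℕ)) := by ring
  rw [this]
  exact Valuation.map_sub_lt _ h1 (D.tail_val1 a ha)

/-- **graded residual independence**: a combination in `𝔪₁` with `v₂ < v₂ t ^ J` has its
coefficients of index `≤ J + 1` in `𝔪_E`. -/
theorem key (a : Fin (k + 2) → E)
    (ha : ∀ i, (O₁.comap (algebraMap E F)).valuation (a i) ≤ 1) (J : ℕ) (hJ : J ≤ k)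
    (h1 : O₁.valuation (∑ i, algebraMap E F (a i) * ramFamily s t k i) < 1)
    (h2 : O₂.valuation (∑ i, algebraMap E F (a i) * ramFamily s t k i) < O₂.valuation t ^ J) :
    ∀ l : Fin (k + 1), (l : ℕ) ≤ J → (O₁.comap (algebraMap E F)).valuation (a l.succ) < 1 := by
  have ha0 := D.key_zero a ha h1
  rw [Fin.sum_univ_succ] at h2
  simp only [ramFamily_zero, ramFamily_succ, mul_one] at h2
  have ha0' : O₂.valuation (algebraMap E F (a 0)) < O₂.valuation t ^ J :=
    (D.hram _ ha0).trans_lt (D.tpow_lt (by omega))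
  have hz2 : O₂.valuation
      (∑ l : Fin (k + 1), algebraMap E F (a l.succ) * (s * t ^ (l : ℕ))) < O₂.valuation t ^ J := by
    have : ∑ l : Fin (k + 1), algebraMap E F (a l.succ) * (s * t ^ (l : ℕ)) =
      (algebraMap E F (a 0) + ∑ l : Fin (k + 1), algebraMap E F (a l.succ) * (s * t ^ (l : ℕ))) -
        algebraMap E F (a 0) := by ring
    rw [this]
    exact Valuation.map_sub_lt _ h2 ha0'
  have hterm : ∀ l : Fin (k + 1), O₂.valuation (algebraMap E F (a l.succ) * (s * t ^ (l : ℕ))) =
      O₂.valuation (algebraMap E F (a l.succ)) * O₂.valuation t ^ (l : ℕ) := by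
    intro l
    rw [map_mul, map_mul, map_pow, D.hs2one, one_mul]
  -- pairwise distinct valuations
  have hcoset : ∀ c : E, c ≠ 0 → ∀ d : ℕ, 0 < d → d ≤ k →
      O₂.valuation (algebraMap E F c) ≠ O₂.valuation t ^ d := by
    intro c _ d hd hdk heq
    have hlt : O₂.valuation (algebraMap E F c) < 1 := by
      rw [heq]; exact pow_lt_one₀ zero_le D.ht2 hd.ne'
    have := (D.hram c (D.lt2 hlt)).trans_lt (D.tpow_lt (show d < k + 1 by omega))
    rw [heq] at this
    exact lt_irrefl _ this
  have hdist' : ∀ l l' : Fin (k + 1), (l : ℕ) < (l' : ℕ) → a l.succ ≠ 0 → a l'.succ ≠ 0 →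
      O₂.valuation (algebraMap E F (a l.succ)) * O₂.valuation t ^ (l : ℕ) ≠
        O₂.valuation (algebraMap E F (a l'.succ)) * O₂.valuation t ^ (l' : ℕ) := by
    intro l l' hll hl0 hl'0 heq
    have heq2 : O₂.valuation (algebraMap E F (a l.succ)) * O₂.valuation t ^ (l : ℕ) =
        (O₂.valuation (algebraMap E F (a l'.succ)) * O₂.valuation t ^ ((l' : ℕ) - (l : ℕ))) *
          O₂.valuation t ^ (l : ℕ) := by
      rw [heq, mul_assoc, ← pow_add, Nat.sub_add_cancel hll.le]
    have heq' := mul_right_cancel₀ (D.tpow_pos (l : ℕ)).ne' heq2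
    have hpos : 0 < O₂.valuation (algebraMap E F (a l'.succ)) :=
      val_pos O₂ ((map_ne_zero _).mpr hl'0)
    refine hcoset (a l.succ / a l'.succ) (div_ne_zero hl0 hl'0) ((l' : ℕ) - (l : ℕ)) (by omega)
      (by have := l'.is_le; omega) ?_
    rw [map_div₀, map_div₀, heq', mul_comm, mul_div_assoc, div_self hpos.ne', mul_one]
  have hdist : ∀ l ∈ (Finset.univ : Finset (Fin (k + 1))), ∀ l' ∈ (Finset.univ : Finset (Fin (k + 1))),
      l ≠ l' → algebraMap E F (a l.succ) * (s * t ^ (l : ℕ)) ≠ 0 →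
      O₂.valuation (algebraMap E F (a l.succ) * (s * t ^ (l : ℕ))) ≠
        O₂.valuation (algebraMap E F (a l'.succ) * (s * t ^ (l' : ℕ))) := by
    intro l _ l' _ hne hl0
    rw [hterm, hterm]
    have hal0 : a l.succ ≠ 0 := by
      rintro h0
      rw [h0, map_zero, zero_mul] at hl0
      exact hl0 rfl
    by_cases hal'0 : a l'.succ = 0
    · rw [hal'0, map_zero, map_zero, zero_mul]
      exact (mul_pos (val_pos O₂ ((map_ne_zero _).mpr hal0)) (D.tpow_pos _)).ne'
    have hne' : (l : ℕ) ≠ (l' : ℕ) := fun h => hne (Fin.ext h)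
    rcases lt_or_gt_of_ne hne' with hlt | hgt
    · exact hdist' l l' hlt hal0 hal'0
    · exact (hdist' l' l hgt hal'0 hal0).symm
  have hle := term_le_val_sum O₂ Finset.univ
    (fun l : Fin (k + 1) => algebraMap E F (a l.succ) * (s * t ^ (l : ℕ))) hdist
  intro l hl
  have h3 := (hle l (Finset.mem_univ _)).trans_lt hz2
  rw [hterm] at h3
  have hJl : J = (J - (l : ℕ)) + (l : ℕ) := by omega
  rw [hJl, pow_add] at h3
  have h4 : O₂.valuation (algebraMap E F (a l.succ)) < O₂.valuation t ^ (J - (l : ℕ)) := by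
    by_contra hcon
    rw [not_lt] at hcon
    exact absurd h3 (not_lt.mpr (mul_le_mul_left hcon _))
  exact D.lt2 (h4.trans_le (D.tpow_le_one _))

/-- all coefficients, `J = k`. -/
theorem key_all (a : Fin (k + 2) → E)
    (ha : ∀ i, (O₁.comap (algebraMap E F)).valuation (a i) ≤ 1)
    (h1 : O₁.valuation (∑ i, algebraMap E F (a i) * ramFamily s t k i) < 1)
    (h2 : O₂.valuation (∑ i, algebraMap E F (a i) * ramFamily s t k i) < O₂.valuation t ^ k) :
    ∀ i, (O₁.comap (algebraMap E F)).valuation (a i) < 1 := by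
  intro i
  refine Fin.cases ?_ (fun l => ?_) i
  · exact D.key_zero a ha h1
  · exact D.key a ha k le_rfl h1 h2 l l.is_le

/-- the family is linearly independent over `E`. -/
theorem linearIndependent : LinearIndependent E (ramFamily s t k) := by
  rw [Fintype.linearIndependent_iff]
  intro g hg
  by_contra hex
  push Not at hex
  obtain ⟨j, hj0, hj⟩ := exists_scale (O₁.comap (algebraMap E F)) g hex
  have hrel : ∑ o, algebraMap E F (g o / g j) * ramFamily s t k o = 0 := by
    rw [sum_div_mul]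
    have : ∑ o, algebraMap E F (g o) * ramFamily s t k o = ∑ o, g o • ramFamily s t k o :=
      Finset.sum_congr rfl fun o _ => (Algebra.smul_def _ _).symm
    rw [this, hg, mul_zero]
  have := D.key_all (fun o => g o / g j) hj (by rw [hrel, map_zero]; exact zero_lt_one)
    (by rw [hrel, map_zero]; exact D.tpow_pos k) j
  rw [div_self hj0, map_one] at this
  exact lt_irrefl _ this

/-- the coordinates of an element of `O₁ ⊓ O₂` in the family are integral. -/
theorem coeff_le_one (g : Fin (k + 2) → E)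
    (h1 : O₁.valuation (∑ o, algebraMap E F (g o) * ramFamily s t k o) ≤ 1)
    (h2 : O₂.valuation (∑ o, algebraMap E F (g o) * ramFamily s t k o) ≤ 1) :
    ∀ o, (O₁.comap (algebraMap E F)).valuation (g o) ≤ 1 := by
  by_contra hcon
  push Not at hcon
  obtain ⟨o₀, ho₀⟩ := hcon
  have hex : ∃ i, g i ≠ 0 := ⟨o₀, fun h0 => by
    rw [h0, map_zero] at ho₀; exact not_lt_of_ge zero_le ho₀⟩
  obtain ⟨j, hj0, hj⟩ := exists_scale (O₁.comap (algebraMap E F)) g hex
  have hjbig : 1 < (O₁.comap (algebraMap E F)).valuation (g j) := by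
    have h3 := hj o₀
    rw [map_div₀] at h3
    have hpos : 0 < (O₁.comap (algebraMap E F)).valuation (g j) := val_pos _ hj0
    exact lt_of_lt_of_le ho₀ ((div_le_one₀ hpos).mp h3)
  have hinvE : (O₁.comap (algebraMap E F)).valuation (g j)⁻¹ < 1 := by
    rw [map_inv₀]; exact inv_lt_one_of_one_lt₀ hjbig
  have hinv1 : O₁.valuation ((algebraMap E F (g j))⁻¹) < 1 := by
    rw [← map_inv₀]; exact (comap_val_lt_one_iff O₁ _).mp hinvE
  have hinv2 : O₂.valuation ((algebraMap E F (g j))⁻¹) < O₂.valuation t ^ k := by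
    rw [← map_inv₀]; exact (D.hram _ hinvE).trans_lt (D.tpow_lt (Nat.lt_succ_self k))
  have := D.key_all (fun o => g o / g j) hj
    (by rw [sum_div_mul, map_mul]; exact (mul_le_of_le_one_right' h1).trans_lt hinv1)
    (by rw [sum_div_mul, map_mul]; exact (mul_le_of_le_one_right' h2).trans_lt hinv2) j
  rw [div_self hj0, map_one] at this
  exact lt_irrefl _ this

/-- coordinates of `z * (s t ^ j)` for `z ∈ O₁ ⊓ O₂`: strictly upper part in `𝔪_E`, and the diagonal
entry too when `z ∈ 𝔪₂`. -/
theorem col_succ {z : F} (hz1 : O₁.valuation z ≤ 1) (hz2 : O₂.valuation z ≤ 1)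
    (a : Fin (k + 2) → E) (ha : ∀ i, (O₁.comap (algebraMap E F)).valuation (a i) ≤ 1)
    (j : Fin (k + 1))
    (hza : z * ramFamily s t k j.succ = ∑ i, algebraMap E F (a i) * ramFamily s t k i) :
    (O₁.comap (algebraMap E F)).valuation (a 0) < 1 ∧
      (∀ l : Fin (k + 1), (l : ℕ) < (j : ℕ) →
        (O₁.comap (algebraMap E F)).valuation (a l.succ) < 1) ∧
      (O₂.valuation z < 1 → (O₁.comap (algebraMap E F)).valuation (a j.succ) < 1) := by
  have hv1 : O₁.valuation (∑ i, algebraMap E F (a i) * ramFamily s t k i) < 1 := by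
    rw [← hza, ramFamily_succ, map_mul, map_mul, map_pow]
    refine (mul_le_of_le_one_left' hz1).trans_lt ?_
    exact (mul_le_of_le_one_right' (pow_le_one₀ zero_le D.ht1)).trans_lt D.hs1
  have hv2 : O₂.valuation (∑ i, algebraMap E F (a i) * ramFamily s t k i) =
      O₂.valuation z * O₂.valuation t ^ (j : ℕ) := by
    rw [← hza, ramFamily_succ, map_mul, map_mul, map_pow, D.hs2one, one_mul]
  refine ⟨D.key_zero a ha hv1, fun l hl => ?_, fun hz => ?_⟩
  · have hj1 : (j : ℕ) - 1 ≤ k := by have := j.is_le; omega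
    refine D.key a ha ((j : ℕ) - 1) hj1 hv1 ?_ l (by omega)
    rw [hv2]
    exact (mul_le_of_le_one_left' hz2).trans_lt (D.tpow_lt (by omega))
  · refine D.key a ha (j : ℕ) j.is_le hv1 ?_ j le_rfl
    rw [hv2]
    exact mul_lt_of_lt_one_left (D.tpow_pos _) hz

/-- **the integral matrix** of multiplication by `h ∈ O₁ ⊓ O₂`: determinant `N h`, lower triangular
modulo `𝔪_E`, diagonal `≡ (h mod 𝔪₁), (h mod 𝔪₂), …, (h mod 𝔪₂)`. -/
theorem exists_matrix [FiniteDimensional E F] (hn : Module.finrank E F ≤ k + 2) {h : F}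
    (h1 : h ∈ O₁) (h2 : h ∈ O₂) :
    ∃ H : Matrix (Fin (k + 2)) (Fin (k + 2)) ↥(O₁.comap (algebraMap E F)),
      ((H.det : ↥(O₁.comap (algebraMap E F))) : E) = Algebra.norm E h ∧
      (∀ i j, i < j → (O₁.comap (algebraMap E F)).valuation (H i j : E) < 1) ∧
      (∀ x : E, (O₁.comap (algebraMap E F)).valuation x ≤ 1 →
        O₁.valuation (h - algebraMap E F x) < 1 →
        (O₁.comap (algebraMap E F)).valuation ((H 0 0 : E) - x) < 1) ∧
      (∀ x : E, (O₁.comap (algebraMap E F)).valuation x ≤ 1 →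
        O₂.valuation (h - algebraMap E F x) < 1 →
        ∀ l : Fin (k + 1), (O₁.comap (algebraMap E F)).valuation ((H l.succ l.succ : E) - x) < 1) := by
  have hv1 : O₁.valuation h ≤ 1 := (O₁.valuation_le_one_iff h).mpr h1
  have hv2 : O₂.valuation h ≤ 1 := (O₂.valuation_le_one_iff h).mpr h2
  have hli := D.linearIndependent
  have hcard : Fintype.card (Fin (k + 2)) = Module.finrank E F := by
    refine le_antisymm hli.fintype_card_le_finrank ?_
    rw [Fintype.card_fin]
    exact hn
  set B := basisOfLinearIndependentOfCardEqFinrank hli hcard with hBdef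
  have hB : ∀ o, B o = ramFamily s t k o := fun o => by
    rw [hBdef, coe_basisOfLinearIndependentOfCardEqFinrank]
  have hnorm := Algebra.norm_eq_matrix_det B h
  set H := Algebra.leftMulMatrix B h with hH
  have hF1 : ∀ j, h * ramFamily s t k j = ∑ i, algebraMap E F (H i j) * ramFamily s t k i := by
    intro j
    conv_lhs => rw [← B.sum_repr (h * ramFamily s t k j)]
    refine Finset.sum_congr rfl fun i _ => ?_
    rw [hH, Algebra.leftMulMatrix_eq_repr_mul, hB, hB, Algebra.smul_def]
  have hF2 : ∀ i j, (O₁.comap (algebraMap E F)).valuation (H i j) ≤ 1 := fun i j =>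
    D.coeff_le_one (fun i => H i j)
      (by rw [← hF1, map_mul]; exact mul_le_one' hv1 (D.fam_val1 j))
      (by rw [← hF1, map_mul]; exact mul_le_one' hv2 (D.fam_val2 j)) i
  set H' : Matrix (Fin (k + 2)) (Fin (k + 2)) ↥(O₁.comap (algebraMap E F)) :=
    fun i j => ⟨H i j, ((O₁.comap (algebraMap E F)).valuation_le_one_iff _).mp (hF2 i j)⟩ with hH'
  have hdetH : (H'.det : E) = H.det := by
    have e1 : H = H'.map (O₁.comap (algebraMap E F)).subtype := by
      ext i j; rfl
    rw [e1]
    exact (RingHom.map_det (O₁.comap (algebraMap E F)).subtype H')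
  refine ⟨H', by rw [hdetH, hnorm], ?_, ?_, ?_⟩
  · -- strictly upper part
    intro i j hij
    show (O₁.comap (algebraMap E F)).valuation (H i j) < 1
    obtain ⟨j', rfl⟩ : ∃ j' : Fin (k + 1), j = j'.succ :=
      ⟨j.pred (by rintro rfl; exact absurd hij (Fin.not_lt_zero _)), (Fin.succ_pred _ _).symm⟩
    obtain ⟨c0, cl, -⟩ := D.col_succ hv1 hv2 (fun i => H i j'.succ) (fun i => hF2 i _) j' (hF1 _)
    refine Fin.cases ?_ (fun l hl => ?_) i hij
    · intro _; exact c0
    · exact cl l (Fin.lt_def.mp (Fin.succ_lt_succ_iff.mp hl))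
  · -- the first diagonal entry
    intro x hx hc
    show (O₁.comap (algebraMap E F)).valuation (H 0 0 - x) < 1
    refine D.key_zero (fun i => H i 0 - if i = 0 then x else 0) (fun i => ?_) ?_
    · refine (Valuation.map_sub _ _ _).trans (max_le (hF2 i 0) ?_)
      split_ifs
      · exact hx
      · rw [map_zero]; exact zero_le_one
    · have e : ∑ i, algebraMap E F (H i 0 - if i = 0 then x else 0) * ramFamily s t k i =
          h - algebraMap E F x := by
        simp only [map_sub, sub_mul, Finset.sum_sub_distrib]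
        rw [← hF1 0, ramFamily_zero, mul_one]
        congr 1
        rw [Finset.sum_eq_single 0]
        · simp
        · intro b _ hb; simp [hb]
        · intro h0; exact absurd (Finset.mem_univ _) h0
      rw [e]
      exact hc
  · -- the other diagonal entries
    intro x hx hc l
    show (O₁.comap (algebraMap E F)).valuation (H l.succ l.succ - x) < 1
    have hz1 : O₁.valuation (h - algebraMap E F x) ≤ 1 :=
      (Valuation.map_sub _ _ _).trans (max_le hv1 (D.le1 hx))
    have ha : ∀ i, (O₁.comap (algebraMap E F)).valuation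
        ((fun i => H i l.succ - if i = l.succ then x else 0) i) ≤ 1 := by
      intro i
      refine (Valuation.map_sub _ _ _).trans (max_le (hF2 i _) ?_)
      split_ifs
      · exact hx
      · rw [map_zero]; exact zero_le_one
    have hza : (h - algebraMap E F x) * ramFamily s t k l.succ =
        ∑ i, algebraMap E F ((fun i => H i l.succ - if i = l.succ then x else 0) i) *
          ramFamily s t k i := by
      simp only [map_sub, sub_mul, Finset.sum_sub_distrib]
      rw [← hF1 l.succ]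
      congr 1
      rw [Finset.sum_eq_single l.succ]
      · simp
      · intro b _ hb; simp [hb]
      · intro h0; exact absurd (Finset.mem_univ _) h0
    obtain ⟨-, -, cd⟩ := D.col_succ hz1 hc.le _ ha l hza
    have := cd hc
    simpa using this

/-- **residue degree one at both rings**: every `h ∈ O₁ ⊓ O₂` is congruent to an element of `O_E`
modulo `𝔪₁` and to an element of `O_E` modulo `𝔪₂`. -/
theorem exists_residue [FiniteDimensional E F] (hn : Module.finrank E F ≤ k + 2) {h : F}
    (h1 : h ∈ O₁) (h2 : h ∈ O₂) :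
    ∃ x₁ x₂ : E, (O₁.comap (algebraMap E F)).valuation x₁ ≤ 1 ∧
      (O₁.comap (algebraMap E F)).valuation x₂ ≤ 1 ∧
      O₁.valuation (h - algebraMap E F x₁) < 1 ∧ O₂.valuation (h - algebraMap E F x₂) < 1 := by
  have hv1 : O₁.valuation h ≤ 1 := (O₁.valuation_le_one_iff h).mpr h1
  have hv2 : O₂.valuation h ≤ 1 := (O₂.valuation_le_one_iff h).mpr h2
  have hli := D.linearIndependent
  have hcard : Fintype.card (Fin (k + 2)) = Module.finrank E F := by
    refine le_antisymm hli.fintype_card_le_finrank ?_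
    rw [Fintype.card_fin]
    exact hn
  set B := basisOfLinearIndependentOfCardEqFinrank hli hcard with hBdef
  have hB : ∀ o, B o = ramFamily s t k o := fun o => by
    rw [hBdef, coe_basisOfLinearIndependentOfCardEqFinrank]
  set a : Fin (k + 2) → E := fun i => B.repr h i with ha
  have hsum : h = ∑ i, algebraMap E F (a i) * ramFamily s t k i := by
    conv_lhs => rw [← B.sum_repr h]
    refine Finset.sum_congr rfl fun i _ => ?_
    rw [hB, Algebra.smul_def]
  have hint := D.coeff_le_one a (by rw [← hsum]; exact hv1) (by rw [← hsum]; exact hv2)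
  refine ⟨a 0, a 0 + a (Fin.succ 0), hint 0,
    (Valuation.map_add _ _ _).trans (max_le (hint 0) (hint _)), ?_, ?_⟩
  · -- modulo `𝔪₁`
    have e : h - algebraMap E F (a 0) =
        ∑ l : Fin (k + 1), algebraMap E F (a l.succ) * (s * t ^ (l : ℕ)) := by
      conv_lhs => rw [hsum, Fin.sum_univ_succ]
      simp only [ramFamily_zero, ramFamily_succ, mul_one]
      ring
    rw [e]
    exact D.tail_val1 a hint
  · -- modulo `𝔪₂`
    have e : h - algebraMap E F (a 0 + a (Fin.succ 0)) =
        algebraMap E F (a (Fin.succ 0)) * (s - 1) +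
          ∑ l : Fin k, algebraMap E F (a l.succ.succ) * (s * t ^ ((l : ℕ) + 1)) := by
      conv_lhs => rw [hsum, Fin.sum_univ_succ, Fin.sum_univ_succ]
      simp only [ramFamily_zero, ramFamily_succ, mul_one, Fin.val_zero, pow_zero, Fin.val_succ,
        map_add]
      ring
    rw [e]
    refine Valuation.map_add_lt _ ?_ ?_
    · rw [map_mul]
      refine (mul_le_of_le_one_left' (D.le2 (hint _))).trans_lt ?_
      rw [← Valuation.map_neg, neg_sub]
      exact D.hs2
    · refine Valuation.map_sum_lt _ one_ne_zero fun l _ => ?_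
      rw [map_mul, map_mul, map_pow, D.hs2one, one_mul]
      refine (mul_le_of_le_one_left' (D.le2 (hint _))).trans_lt ?_
      exact pow_lt_one₀ zero_le D.ht2 (Nat.succ_ne_zero _)

/-- `N h ∈ O_E`. -/
theorem norm_val_le_one [FiniteDimensional E F] (hn : Module.finrank E F ≤ k + 2) {h : F}
    (h1 : h ∈ O₁) (h2 : h ∈ O₂) :
    (O₁.comap (algebraMap E F)).valuation (Algebra.norm E h) ≤ 1 := by
  obtain ⟨H, hdet, -, -, -⟩ := D.exists_matrix hn h1 h2
  rw [← hdet]
  exact ((O₁.comap (algebraMap E F)).valuation_le_one_iff _).mpr (Subtype.mem _)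

/-- **(NORM-RED), ramified form.** -/
theorem norm_congr [FiniteDimensional E F] (hn : Module.finrank E F ≤ k + 2) {h : F}
    (h1 : h ∈ O₁) (h2 : h ∈ O₂) {x₁ x₂ : E}
    (hx₁ : (O₁.comap (algebraMap E F)).valuation x₁ ≤ 1)
    (hx₂ : (O₁.comap (algebraMap E F)).valuation x₂ ≤ 1)
    (hc1 : O₁.valuation (h - algebraMap E F x₁) < 1)
    (hc2 : O₂.valuation (h - algebraMap E F x₂) < 1) :
    (O₁.comap (algebraMap E F)).valuation (Algebra.norm E h - x₁ * x₂ ^ (k + 1)) < 1 := by
  obtain ⟨H, hdet, hup, hd0, hd1⟩ := D.exists_matrix hn h1 h2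
  have hx₁' : x₁ ∈ O₁.comap (algebraMap E F) := ((O₁.comap _).valuation_le_one_iff _).mp hx₁
  have hx₂' : x₂ ∈ O₁.comap (algebraMap E F) := ((O₁.comap _).valuation_le_one_iff _).mp hx₂
  have e0 := (residue_eq_iff _ H.det (∏ i, H i i)).mpr (det_congr_prod_diag _ H hup)
  have e1 : IsLocalRing.residue _ (H 0 0) =
      IsLocalRing.residue ↥(O₁.comap (algebraMap E F)) ⟨x₁, hx₁'⟩ :=
    (residue_eq_iff _ _ _).mpr (hd0 x₁ hx₁ hc1)
  have e2 : ∀ l : Fin (k + 1), IsLocalRing.residue _ (H l.succ l.succ) =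
      IsLocalRing.residue ↥(O₁.comap (algebraMap E F)) ⟨x₂, hx₂'⟩ := fun l =>
    (residue_eq_iff _ _ _).mpr (hd1 x₂ hx₂ hc2 l)
  have e3 : IsLocalRing.residue ↥(O₁.comap (algebraMap E F)) H.det =
      IsLocalRing.residue _ ((⟨x₁, hx₁'⟩ : ↥(O₁.comap (algebraMap E F))) * ⟨x₂, hx₂'⟩ ^ (k + 1)) := by
    rw [e0, map_prod, Fin.prod_univ_succ, e1, map_mul, map_pow]
    congr 1
    rw [Finset.prod_congr rfl fun l _ => e2 l, Finset.prod_const, Finset.card_univ,
      Fintype.card_fin]
  have := (residue_eq_iff _ _ _).mp e3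
  rw [hdet] at this
  exact this

/-- `N h ∈ 𝔪_E` for `h ∈ O₁ ⊓ O₂` in `𝔪₁`. -/
theorem norm_val_lt_one_of_left [FiniteDimensional E F] (hn : Module.finrank E F ≤ k + 2) {h : F}
    (h1 : O₁.valuation h < 1) (h2 : h ∈ O₂) :
    (O₁.comap (algebraMap E F)).valuation (Algebra.norm E h) < 1 := by
  obtain ⟨H, hdet, hup, hd0, -⟩ :=
    D.exists_matrix hn ((O₁.valuation_le_one_iff h).mp h1.le) h2
  have e0 := (residue_eq_iff _ H.det (∏ i, H i i)).mpr (det_congr_prod_diag _ H hup)
  have e1 : IsLocalRing.residue ↥(O₁.comap (algebraMap E F)) (H 0 0) = 0 := by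
    rw [IsLocalRing.residue_eq_zero_iff, ValuationSubring.valuation_lt_one_iff]
    have := hd0 0 (by rw [map_zero]; exact zero_le_one) (by rw [map_zero, sub_zero]; exact h1)
    rwa [sub_zero] at this
  rw [map_prod, Finset.prod_eq_zero (Finset.mem_univ 0) e1, IsLocalRing.residue_eq_zero_iff,
    ValuationSubring.valuation_lt_one_iff, hdet] at e0
  exact e0

/-- `N h ∈ 𝔪_E` for `h ∈ O₁ ⊓ O₂` in `𝔪₂`. -/
theorem norm_val_lt_one_of_right [FiniteDimensional E F] (hn : Module.finrank E F ≤ k + 2) {h : F}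
    (h1 : h ∈ O₁) (h2 : O₂.valuation h < 1) :
    (O₁.comap (algebraMap E F)).valuation (Algebra.norm E h) < 1 := by
  obtain ⟨H, hdet, hup, -, hd1⟩ :=
    D.exists_matrix hn h1 ((O₂.valuation_le_one_iff h).mp h2.le)
  have e0 := (residue_eq_iff _ H.det (∏ i, H i i)).mpr (det_congr_prod_diag _ H hup)
  have e1 : IsLocalRing.residue ↥(O₁.comap (algebraMap E F)) (H (Fin.succ 0) (Fin.succ 0)) = 0 := by
    rw [IsLocalRing.residue_eq_zero_iff, ValuationSubring.valuation_lt_one_iff]
    have := hd1 0 (by rw [map_zero]; exact zero_le_one) (by rw [map_zero, sub_zero]; exact h2) 0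
    rwa [sub_zero] at this
  rw [map_prod, Finset.prod_eq_zero (Finset.mem_univ (Fin.succ 0)) e1,
    IsLocalRing.residue_eq_zero_iff, ValuationSubring.valuation_lt_one_iff, hdet] at e0
  exact e0

/-- `N h` is a unit of `O_E` for `h` a unit of `O₁ ⊓ O₂`. -/
theorem norm_val_eq_one [FiniteDimensional E F] (hn : Module.finrank E F ≤ k + 2) {h : F}
    (h1 : O₁.valuation h = 1) (h2 : O₂.valuation h = 1) :
    (O₁.comap (algebraMap E F)).valuation (Algebra.norm E h) = 1 := by
  have hh0 : h ≠ 0 := by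
    rintro rfl; rw [map_zero] at h1; exact zero_ne_one h1
  have ha := D.norm_val_le_one hn ((O₁.valuation_le_one_iff h).mp h1.le)
    ((O₂.valuation_le_one_iff h).mp h2.le)
  have hb := D.norm_val_le_one hn (h := h⁻¹)
    ((O₁.valuation_le_one_iff _).mp (by rw [map_inv₀, h1, inv_one]))
    ((O₂.valuation_le_one_iff _).mp (by rw [map_inv₀, h2, inv_one]))
  have hmul : (O₁.comap (algebraMap E F)).valuation (Algebra.norm E h) *
      (O₁.comap (algebraMap E F)).valuation (Algebra.norm E h⁻¹) = 1 := by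
    rw [← map_mul, ← map_mul, mul_inv_cancel₀ hh0, map_one, map_one]
  refine le_antisymm ha ?_
  by_contra hlt
  rw [not_le] at hlt
  have : (O₁.comap (algebraMap E F)).valuation (Algebra.norm E h) *
      (O₁.comap (algebraMap E F)).valuation (Algebra.norm E h⁻¹) < 1 :=
    (mul_le_of_le_one_right' hb).trans_lt hlt
  rw [hmul] at this
  exact lt_irrefl _ this

end RamData

/-- the data exist: `s` by approximation, `t` moved into `O₁` without changing `v₂ t`. -/
theorem exists_ramData [FiniteDimensional E F] (h12 : O₁ ≠ O₂)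
    (hcomap₂ : O₁.comap (algebraMap E F) = O₂.comap (algebraMap E F))
    (ht0 : t ≠ 0) (ht2 : O₂.valuation t < 1)
    (hram : ∀ a : E, (O₁.comap (algebraMap E F)).valuation a < 1 →
      O₂.valuation (algebraMap E F a) ≤ O₂.valuation t ^ (k + 1)) :
    ∃ s t' : F, O₂.valuation t' = O₂.valuation t ∧ RamData E O₁ O₂ k s t' := by
  have : Algebra.IsAlgebraic E F := Algebra.IsAlgebraic.of_finite E F
  have n12 := not_le_of_ne_of_comap_eq h12 hcomap₂
  have n21 := not_le_of_ne_of_comap_eq (Ne.symm h12) hcomap₂.symm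
  obtain ⟨s, hs2, hs1⟩ := exists_approx n21 n12
  obtain ⟨w, hw1, hw2⟩ := exists_approx n12 n21
  obtain ⟨t', ht'2, ht'1⟩ := exists_same_val_mem (O₁ := O₂) (O₂ := O₁) hw1 hw2 ht2
  refine ⟨s, t', ht'2, ⟨hcomap₂, ?_, ht'1, by rw [ht'2]; exact ht2, by rw [ht'2]; exact hram,
    hs1, hs2⟩⟩
  rintro rfl
  rw [map_zero] at ht'2
  exact (val_pos O₂ ht0).ne ht'2

end Ram

/-! ### User-facing forms -/

section Main

variable {E F : Type*} [Field E] [Field F] [Algebra E F] [FiniteDimensional E F]
  {k : ℕ} (hn : Module.finrank E F ≤ k + 2) (O₁ O₂ : ValuationSubring F) (h12 : O₁ ≠ O₂)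
  (hcomap₂ : O₁.comap (algebraMap E F) = O₂.comap (algebraMap E F))
  {t : F} (ht0 : t ≠ 0) (ht2 : O₂.valuation t < 1)
  (hram : ∀ a : E, (O₁.comap (algebraMap E F)).valuation a < 1 →
    O₂.valuation (algebraMap E F a) ≤ O₂.valuation t ^ (k + 1))
include hn h12 hcomap₂ ht0 ht2 hram

/-- **(NORM-RED), one unramified extension of residue degree one and one totally ramified extension
of ramification index `k + 1`, `[F : E] ≤ k + 2`**: `h ≡ x₁ mod 𝔪₁`, `h ≡ x₂ mod 𝔪₂` with
`x₁, x₂ ∈ O_E` ⊢ `N_{F/E} h ≡ x₁ x₂ ^ (k + 1) mod 𝔪_E`. -/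
theorem norm_congr_ram {h : F} (h1 : h ∈ O₁) (h2 : h ∈ O₂) {x₁ x₂ : E}
    (hx₁ : (O₁.comap (algebraMap E F)).valuation x₁ ≤ 1)
    (hx₂ : (O₁.comap (algebraMap E F)).valuation x₂ ≤ 1)
    (hc1 : O₁.valuation (h - algebraMap E F x₁) < 1)
    (hc2 : O₂.valuation (h - algebraMap E F x₂) < 1) :
    (O₁.comap (algebraMap E F)).valuation (Algebra.norm E h - x₁ * x₂ ^ (k + 1)) < 1 := by
  obtain ⟨s, t', -, D⟩ := exists_ramData h12 hcomap₂ ht0 ht2 hram
  exact D.norm_congr hn h1 h2 hx₁ hx₂ hc1 hc2

/-- residue degree one at `O₁`: every `h ∈ O₁` is congruent modulo `𝔪₁` to an element of `O_E`. -/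
theorem exists_residue_left {h : F} (h1 : h ∈ O₁) :
    ∃ x : E, (O₁.comap (algebraMap E F)).valuation x ≤ 1 ∧
      O₁.valuation (h - algebraMap E F x) < 1 := by
  obtain ⟨s, t', -, D⟩ := exists_ramData h12 hcomap₂ ht0 ht2 hram
  have : Algebra.IsAlgebraic E F := Algebra.IsAlgebraic.of_finite E F
  have n12 := not_le_of_ne_of_comap_eq h12 hcomap₂
  have n21 := not_le_of_ne_of_comap_eq (Ne.symm h12) hcomap₂.symm
  obtain ⟨w, hw1, hw2⟩ := exists_approx n12 n21
  -- move `h` into `O₂` without changing its residue at `O₁`: `h' ≡ h mod 𝔪₁`, `h' ∈ 𝔪₂`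
  obtain ⟨h', hh'1, hh'2⟩ := exists_adjust hw1 hw2 ((O₁.valuation_le_one_iff h).mpr h1)
  have hh'O1 : h' ∈ O₁ := by
    rw [← O₁.valuation_le_one_iff]
    have : h' = (h' - h) + h := by ring
    rw [this]
    exact (Valuation.map_add _ _ _).trans
      (max_le hh'1.le ((O₁.valuation_le_one_iff h).mpr h1))
  obtain ⟨x₁, -, hx₁, -, hc, -⟩ :=
    D.exists_residue hn hh'O1 ((O₂.valuation_le_one_iff _).mp hh'2.le)
  refine ⟨x₁, hx₁, ?_⟩
  have : h - algebraMap E F x₁ = (h' - algebraMap E F x₁) - (h' - h) := by ring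
  rw [this]
  exact Valuation.map_sub_lt _ hc hh'1

/-- residue degree one at `O₂`: every `h ∈ O₂` is congruent modulo `𝔪₂` to an element of `O_E`. -/
theorem exists_residue_right {h : F} (h2 : h ∈ O₂) :
    ∃ x : E, (O₁.comap (algebraMap E F)).valuation x ≤ 1 ∧
      O₂.valuation (h - algebraMap E F x) < 1 := by
  obtain ⟨s, t', -, D⟩ := exists_ramData h12 hcomap₂ ht0 ht2 hram
  have : Algebra.IsAlgebraic E F := Algebra.IsAlgebraic.of_finite E F
  have n12 := not_le_of_ne_of_comap_eq h12 hcomap₂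
  have n21 := not_le_of_ne_of_comap_eq (Ne.symm h12) hcomap₂.symm
  obtain ⟨w, hw2, hw1⟩ := exists_approx n21 n12
  obtain ⟨h', hh'2, hh'1⟩ := exists_adjust hw2 hw1 ((O₂.valuation_le_one_iff h).mpr h2)
  have hh'O2 : h' ∈ O₂ := by
    rw [← O₂.valuation_le_one_iff]
    have : h' = (h' - h) + h := by ring
    rw [this]
    exact (Valuation.map_add _ _ _).trans
      (max_le hh'2.le ((O₂.valuation_le_one_iff h).mpr h2))
  obtain ⟨-, x₂, -, hx₂, -, hc⟩ :=
    D.exists_residue hn ((O₁.valuation_le_one_iff _).mp hh'1.le) hh'O2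
  refine ⟨x₂, hx₂, ?_⟩
  have : h - algebraMap E F x₂ = (h' - algebraMap E F x₂) - (h' - h) := by ring
  rw [this]
  exact Valuation.map_sub_lt _ hc hh'2

/-- `N h ∈ O_E` for `h ∈ O₁ ⊓ O₂`. -/
theorem norm_ram_val_le_one {h : F} (h1 : h ∈ O₁) (h2 : h ∈ O₂) :
    (O₁.comap (algebraMap E F)).valuation (Algebra.norm E h) ≤ 1 := by
  obtain ⟨s, t', -, D⟩ := exists_ramData h12 hcomap₂ ht0 ht2 hram
  exact D.norm_val_le_one hn h1 h2

/-- `N h ∈ O_E^×` for `h` a unit at both rings. -/
theorem norm_ram_val_eq_one {h : F} (h1 : O₁.valuation h = 1) (h2 : O₂.valuation h = 1) :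
    (O₁.comap (algebraMap E F)).valuation (Algebra.norm E h) = 1 := by
  obtain ⟨s, t', -, D⟩ := exists_ramData h12 hcomap₂ ht0 ht2 hram
  exact D.norm_val_eq_one hn h1 h2

/-- `N h ∈ 𝔪_E` for `h ∈ 𝔪₁ ∩ O₂`. -/
theorem norm_ram_val_lt_one_of_left {h : F} (h1 : O₁.valuation h < 1) (h2 : h ∈ O₂) :
    (O₁.comap (algebraMap E F)).valuation (Algebra.norm E h) < 1 := by
  obtain ⟨s, t', -, D⟩ := exists_ramData h12 hcomap₂ ht0 ht2 hram
  exact D.norm_val_lt_one_of_left hn h1 h2

/-- `N h ∈ 𝔪_E` for `h ∈ O₁ ∩ 𝔪₂`. -/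
theorem norm_ram_val_lt_one_of_right {h : F} (h1 : h ∈ O₁) (h2 : O₂.valuation h < 1) :
    (O₁.comap (algebraMap E F)).valuation (Algebra.norm E h) < 1 := by
  obtain ⟨s, t', -, D⟩ := exists_ramData h12 hcomap₂ ht0 ht2 hram
  exact D.norm_val_lt_one_of_right hn h1 h2

/-- **the norms of the two uniformisers**: `ϖ ∈ E` generates `𝔪_E`; `T₂` a unit at `O₁` with
`v₂ T₂ ^ (k + 1) = v₂ ϖ`.  Then `N T₂` and `N (ϖ / T₂ ^ (k + 1))` both generate `𝔪_E`. -/
theorem norm_unif_val {ϖ : E}
    (hϖ : ∀ a : E, (O₁.comap (algebraMap E F)).valuation a < 1 →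
      (O₁.comap (algebraMap E F)).valuation a ≤ (O₁.comap (algebraMap E F)).valuation ϖ)
    (hϖ1 : (O₁.comap (algebraMap E F)).valuation ϖ < 1) (hϖ0 : ϖ ≠ 0)
    {T₂ : F} (hT1 : O₁.valuation T₂ = 1)
    (hT2 : O₂.valuation T₂ ^ (k + 1) = O₂.valuation (algebraMap E F ϖ))
    (hdeg : Module.finrank E F = k + 2) :
    (O₁.comap (algebraMap E F)).valuation (Algebra.norm E T₂) =
        (O₁.comap (algebraMap E F)).valuation ϖ ∧
      (O₁.comap (algebraMap E F)).valuation
        (Algebra.norm E (algebraMap E F ϖ / T₂ ^ (k + 1))) =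
        (O₁.comap (algebraMap E F)).valuation ϖ := by
  have hϖ2 : O₂.valuation (algebraMap E F ϖ) < 1 := by
    rw [← comap_val_lt_one_iff, ← hcomap₂]; exact hϖ1
  have hϖ1' : O₁.valuation (algebraMap E F ϖ) < 1 := (comap_val_lt_one_iff O₁ _).mp hϖ1
  have hT0 : T₂ ≠ 0 := by
    rintro rfl; rw [map_zero] at hT1; exact zero_ne_one hT1
  have hT2lt : O₂.valuation T₂ < 1 := by
    by_contra hcon
    rw [not_lt] at hcon
    have : (1 : O₂.ValueGroup) ≤ O₂.valuation T₂ ^ (k + 1) := one_le_pow₀ hcon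
    rw [hT2] at this
    exact absurd hϖ2 (not_lt.mpr this)
  set T₁ := algebraMap E F ϖ / T₂ ^ (k + 1) with hT₁
  have hT₁1 : O₁.valuation T₁ < 1 := by
    rw [hT₁, map_div₀, map_pow, hT1, one_pow, div_one]; exact hϖ1'
  have hT₁2 : O₂.valuation T₁ = 1 := by
    rw [hT₁, map_div₀, map_pow, hT2, div_self]
    exact (val_pos O₂ ((map_ne_zero _).mpr hϖ0)).ne'
  have hN1 := norm_ram_val_lt_one_of_left hn O₁ O₂ h12 hcomap₂ ht0 ht2 hram hT₁1
    ((O₂.valuation_le_one_iff _).mp hT₁2.le)
  have hN2 := norm_ram_val_lt_one_of_right hn O₁ O₂ h12 hcomap₂ ht0 ht2 hram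
    ((O₁.valuation_le_one_iff _).mp hT1.le) hT2lt
  have hprod : Algebra.norm E T₁ * Algebra.norm E T₂ ^ (k + 1) = ϖ ^ (k + 2) := by
    rw [← map_pow, ← map_mul, hT₁, div_mul_cancel₀ _ (pow_ne_zero _ hT0), Algebra.norm_algebraMap,
      hdeg]
  have hv := congrArg (O₁.comap (algebraMap E F)).valuation hprod
  rw [map_mul, map_pow, map_pow] at hv
  have hle1 := hϖ _ hN1
  have hle2 := hϖ _ hN2
  have hpos : 0 < (O₁.comap (algebraMap E F)).valuation ϖ := val_pos _ hϖ0
  have hpowle : (O₁.comap (algebraMap E F)).valuation (Algebra.norm E T₂) ^ (k + 1) ≤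
      (O₁.comap (algebraMap E F)).valuation ϖ ^ (k + 1) := pow_le_pow_left₀ zero_le hle2 _
  constructor
  · refine le_antisymm hle2 ?_
    by_contra hcon
    rw [not_le] at hcon
    have hlt : (O₁.comap (algebraMap E F)).valuation (Algebra.norm E T₂) ^ (k + 1) <
        (O₁.comap (algebraMap E F)).valuation ϖ ^ (k + 1) :=
      pow_lt_pow_left₀ hcon zero_le (Nat.succ_ne_zero k)
    have : (O₁.comap (algebraMap E F)).valuation (Algebra.norm E T₁) *
        (O₁.comap (algebraMap E F)).valuation (Algebra.norm E T₂) ^ (k + 1) <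
        (O₁.comap (algebraMap E F)).valuation ϖ ^ (k + 2) := by
      rw [pow_succ' _ (k + 1)]
      exact mul_lt_mul_of_le_of_lt_of_nonneg_of_pos hle1 hlt zero_le hpos
    rw [hv] at this
    exact lt_irrefl _ this
  · refine le_antisymm hle1 ?_
    by_contra hcon
    rw [not_le] at hcon
    have : (O₁.comap (algebraMap E F)).valuation (Algebra.norm E T₁) *
        (O₁.comap (algebraMap E F)).valuation (Algebra.norm E T₂) ^ (k + 1) <
        (O₁.comap (algebraMap E F)).valuation ϖ ^ (k + 2) := by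
      rw [pow_succ' _ (k + 1)]
      exact mul_lt_mul_of_lt_of_le_of_nonneg_of_pos hcon hpowle zero_le (pow_pos hpos _)
    rw [hv] at this
    exact lt_irrefl _ this

end Main

/-! ### A single extension with `f = [F : E]` -/

section Single

variable {E F : Type*} [Field E] [Field F] [Algebra E F] [FiniteDimensional E F]

/-- **the integral matrix at a single extension**: `V` a valuation subring of `F`, `b` a family of
`n ≥ [F : E]` elements of `V` residually independent over `O_E = V ∩ E`.  For `h ∈ V` there is a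
matrix over `O_E` of determinant `N h` representing `h` on `b` exactly. -/
theorem exists_matrix_single {n : ℕ} (hn : Module.finrank E F ≤ n) (V : ValuationSubring F)
    (b : Fin n → F) (hbO : ∀ i, b i ∈ V)
    (hb : ∀ a : Fin n → E, (∀ i, (V.comap (algebraMap E F)).valuation (a i) ≤ 1) →
      V.valuation (∑ i, algebraMap E F (a i) * b i) < 1 →
      ∀ i, (V.comap (algebraMap E F)).valuation (a i) < 1)
    {h : F} (hV : h ∈ V) :
    ∃ M : Matrix (Fin n) (Fin n) ↥(V.comap (algebraMap E F)),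
      ((M.det : ↥(V.comap (algebraMap E F))) : E) = Algebra.norm E h ∧
      ∀ i, h * b i = ∑ k, (toF (V.comap (algebraMap E F)) (M i k) : F) * b k := by
  have hv : V.valuation h ≤ 1 := (V.valuation_le_one_iff h).mpr hV
  have hbv : ∀ i, V.valuation (b i) ≤ 1 := fun i => (V.valuation_le_one_iff _).mpr (hbO i)
  -- linear independence
  have hli : LinearIndependent E b := by
    rw [Fintype.linearIndependent_iff]
    intro g hg
    by_contra hex
    push Not at hex
    obtain ⟨j, hj0, hj⟩ := exists_scale (V.comap (algebraMap E F)) g hex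
    have hrel : ∑ o, algebraMap E F (g o / g j) * b o = 0 := by
      rw [sum_div_mul]
      have : ∑ o, algebraMap E F (g o) * b o = ∑ o, g o • b o :=
        Finset.sum_congr rfl fun o _ => (Algebra.smul_def _ _).symm
      rw [this, hg, mul_zero]
    have := hb (fun o => g o / g j) hj (by rw [hrel, map_zero]; exact zero_lt_one) j
    rw [div_self hj0, map_one] at this
    exact lt_irrefl _ this
  -- integrality of coordinates
  have hint : ∀ g : Fin n → E, V.valuation (∑ o, algebraMap E F (g o) * b o) ≤ 1 →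
      ∀ o, (V.comap (algebraMap E F)).valuation (g o) ≤ 1 := by
    intro g h1
    by_contra hcon
    push Not at hcon
    obtain ⟨o₀, ho₀⟩ := hcon
    have hex : ∃ i, g i ≠ 0 := ⟨o₀, fun h0 => by
      rw [h0, map_zero] at ho₀; exact not_lt_of_ge zero_le ho₀⟩
    obtain ⟨j, hj0, hj⟩ := exists_scale (V.comap (algebraMap E F)) g hex
    have hjbig : 1 < (V.comap (algebraMap E F)).valuation (g j) := by
      have h3 := hj o₀
      rw [map_div₀] at h3
      have hpos : 0 < (V.comap (algebraMap E F)).valuation (g j) := val_pos _ hj0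
      exact lt_of_lt_of_le ho₀ ((div_le_one₀ hpos).mp h3)
    have hinv : V.valuation ((algebraMap E F (g j))⁻¹) < 1 := by
      rw [← map_inv₀, ← comap_val_lt_one_iff, map_inv₀]
      exact inv_lt_one_of_one_lt₀ hjbig
    have := hb (fun o => g o / g j) hj
      (by rw [sum_div_mul, map_mul]; exact (mul_le_of_le_one_right' h1).trans_lt hinv) j
    rw [div_self hj0, map_one] at this
    exact lt_irrefl _ this
  have hcard : Fintype.card (Fin n) = Module.finrank E F := by
    refine le_antisymm hli.fintype_card_le_finrank ?_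
    rw [Fintype.card_fin]
    exact hn
  have hne : Nonempty (Fin n) := by
    rw [← Fintype.card_pos_iff, hcard]
    exact Module.finrank_pos
  set B := basisOfLinearIndependentOfCardEqFinrank hli hcard with hBdef
  have hB : ∀ o, B o = b o := fun o => by
    rw [hBdef, coe_basisOfLinearIndependentOfCardEqFinrank]
  have hnorm := Algebra.norm_eq_matrix_det B h
  set H := Algebra.leftMulMatrix B h with hH
  have hF1 : ∀ j, h * b j = ∑ i, algebraMap E F (H i j) * b i := by
    intro j
    conv_lhs => rw [← B.sum_repr (h * b j)]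
    refine Finset.sum_congr rfl fun i _ => ?_
    rw [hH, Algebra.leftMulMatrix_eq_repr_mul, hB, hB, Algebra.smul_def]
  have hF2 : ∀ i j, (V.comap (algebraMap E F)).valuation (H i j) ≤ 1 := fun i j =>
    hint (fun i => H i j) (by rw [← hF1, map_mul]; exact mul_le_one' hv (hbv j)) i
  set H' : Matrix (Fin n) (Fin n) ↥(V.comap (algebraMap E F)) :=
    fun i j => ⟨H i j, ((V.comap (algebraMap E F)).valuation_le_one_iff _).mp (hF2 i j)⟩ with hH'
  have hdetH : (H'.det : E) = H.det := by
    have e1 : H = H'.map (V.comap (algebraMap E F)).subtype := by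
      ext i j; rfl
    rw [e1]
    exact (RingHom.map_det (V.comap (algebraMap E F)).subtype H')
  refine ⟨H'.transpose, by rw [Matrix.det_transpose, hdetH, hnorm], fun i => ?_⟩
  rw [hF1 i]
  rfl

/-- **(NORM-RED), a single extension**: `N h ≡ det M` for every matrix `M` representing `h ∈ V` on a
residually independent family of `n ≥ [F : E]` elements modulo `𝔪_V`. -/
theorem norm_congr_single {n : ℕ} (hn : Module.finrank E F ≤ n) (V : ValuationSubring F)
    (b : Fin n → F) (hbO : ∀ i, b i ∈ V)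
    (hb : ∀ a : Fin n → E, (∀ i, (V.comap (algebraMap E F)).valuation (a i) ≤ 1) →
      V.valuation (∑ i, algebraMap E F (a i) * b i) < 1 →
      ∀ i, (V.comap (algebraMap E F)).valuation (a i) < 1)
    {h : F} (hV : h ∈ V) (M : Matrix (Fin n) (Fin n) ↥(V.comap (algebraMap E F)))
    (hM : RepMod (V.comap (algebraMap E F)) V b h M) :
    (V.comap (algebraMap E F)).valuation (Algebra.norm E h - (M.det : E)) < 1 := by
  obtain ⟨M₀, hdet, hrep⟩ := exists_matrix_single hn V b hbO hb hV
  rw [← hdet]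
  refine det_congr _ M₀ M fun i k => ?_
  refine hb (fun k => (M₀ i k : E) - (M i k : E)) (fun k => ?_) ?_ k
  · have : (M₀ i k : E) - (M i k : E) = ((M₀ i k - M i k : ↥(V.comap (algebraMap E F))) : E) := by
      push_cast; rfl
    rw [this]
    exact ((V.comap (algebraMap E F)).valuation_le_one_iff _).mpr (Subtype.mem _)
  · have e : ∑ k, algebraMap E F ((M₀ i k : E) - (M i k : E)) * b k =
        h * b i - ∑ k, (toF (V.comap (algebraMap E F)) (M i k) : F) * b k := by
      rw [hrep i]
      simp only [map_sub, sub_mul, Finset.sum_sub_distrib, toF_apply]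
    rw [e]
    exact hM i

/-- **(NORM-RED), a single extension with purely inseparable residue extension of degree `q`**:
`[F : E] ≤ q`, `q ∈ 𝔪_E`, `h ^ q ≡ x mod 𝔪_V` with `x ∈ O_E` ⊢ `N h ≡ x mod 𝔪_E`. -/
theorem norm_congr_single_insep (q : ℕ) [Fact q.Prime] (hn : Module.finrank E F ≤ q)
    (V : ValuationSubring F) (hqE : (V.comap (algebraMap E F)).valuation (q : E) < 1)
    (b : Fin q → F) (hbO : ∀ i, b i ∈ V)
    (hb : ∀ a : Fin q → E, (∀ i, (V.comap (algebraMap E F)).valuation (a i) ≤ 1) →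
      V.valuation (∑ i, algebraMap E F (a i) * b i) < 1 →
      ∀ i, (V.comap (algebraMap E F)).valuation (a i) < 1)
    {h : F} (hV : h ∈ V) {x : E} (hx : (V.comap (algebraMap E F)).valuation x ≤ 1)
    (hc : V.valuation (h ^ q - algebraMap E F x) < 1) :
    (V.comap (algebraMap E F)).valuation (Algebra.norm E h - x) < 1 := by
  obtain ⟨M₀, hdet, hrep⟩ := exists_matrix_single hn V b hbO hb hV
  have hx' : x ∈ V.comap (algebraMap E F) := ((V.comap _).valuation_le_one_iff _).mp hx
  have hle : ∀ y : ↥(V.comap (algebraMap E F)),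
      V.valuation (toF (V.comap (algebraMap E F)) y : F) ≤ 1 := fun y => by
    rw [toF_apply, ← comap_val_le_one_iff]
    exact ((V.comap _).valuation_le_one_iff _).mpr y.2
  have hM : RepMod (V.comap (algebraMap E F)) V b h M₀ := fun i => by
    rw [hrep i, sub_self, map_zero]; exact zero_lt_one
  have := det_congr_of_pow q hqE hle (fun i => (V.valuation_le_one_iff _).mpr (hbO i)) hb
    ((V.valuation_le_one_iff h).mpr hV) hM ⟨x, hx'⟩ hc
  rw [hdet] at this
  exact this

end Single

end Fermat.Agent.ES.P36.NormRam20
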