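/-
Program P (S36), brick S5b, ABSTRACT part (helper15): **the inputs of the branch relation**
(`S36_SS27.md` v2, §4 (a),(b) and §4′ S5b; Mathlib + helper20's `NormRam20` / `UniqueExt20` only).

* `exists_lift_of_integral` : `V` a valuation subring of `E`, `j : C' → V`, `𝔭 = j⁻¹ 𝔪_V`, `C' ⧸ 𝔭` integrally
  closed, the residue field of `V` generated by fractions of `C'` (`hfrac`).  An element of `V` whose
  residue is a root of a monic polynomial over `C'` is congruent modulo `𝔪_V` to an element of `C'`.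
* `surj_of_residue` : the residue surjectivities (S₁), (S₂) (`n = 1`) and (S₃) (`n = q`) of
  `branch_relation`, from "every `y ∈ O` has `y ^ n ≡ x ∈ O ∩ E`" + integrality of `C` over `C'`.
* `exists_Gamma` : `u = ε f ^ m`, `N u = κ G ^ m` ⊢ `N f = Γ G` with `Γ ∈ C'` (`C` integral over `C'`,
  `C'` integrally closed in `E`).
* `norm_congr_one_pair`, `norm_congr_one_single` : (U1) ⇒ `N u ≡ 1` at the two valuation rings below.
* `exists_root_of_unity_congr` : `π ∣ γ₁ ^ m - γ₂ ^ m`, `π` prime, `ζ` a primitive `m`-th root of unity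
  ⊢ `π ∣ γ₁ - Θ γ₂` for some `Θ` with `Θ ^ m = 1`.
* `rel_of_branch_relation` : `G₂ e₁ e₂^(q-1) ≡ G₁ e₃^q`, `G₁ ≡ θ G₂`, `G₂` a unit ⊢ `e₁ e₂^(q-1) ≡ θ e₃^q`
  (the shape of `GlobMult18.branch_data_mul`'s hypotheses `hα`, `hβ`).
-/
import Mathlib
import Fermat.Agent.ES.P36.NormRam20

set_option autoImplicit false

namespace Fermat.Agent.ES.P36.BranchInputs15

open Polynomial IsLocalRing
open Fermat.Agent.ES.P36.NormRam20 Fermat.Agent.RED.PUR.UniqueExt20

/-! ### Lifting residues that are integral over an integrally closed quotient -/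

section Lift

variable {E : Type*} [Field E] {C' : Type*} [CommRing C']

/-- **(L1)** see the file header. -/
theorem exists_lift_of_integral (V : ValuationSubring E) (j : C' →+* E) (hj : ∀ a, j a ∈ V)
    (𝔭 : Ideal C') [𝔭.IsPrime] [IsIntegrallyClosed (C' ⧸ 𝔭)]
    (h𝔭 : ∀ a, a ∈ 𝔭 ↔ V.valuation (j a) < 1)
    (hfrac : ∀ x ∈ V, ∃ a s : C', V.valuation (j s) = 1 ∧ V.valuation (x * j s - j a) < 1)
    {x : E} (hx : x ∈ V) (P : C'[X]) (hP : P.Monic) (hPx : V.valuation (P.eval₂ j x) < 1) :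
    ∃ d : C', V.valuation (x - j d) < 1 := by
  classical
  let jV : C' →+* ↥V := j.codRestrict V hj
  have hjV : ∀ a, ((jV a : ↥V) : E) = j a := fun a => rfl
  let ρ : C' →+* ResidueField ↥V := (residue ↥V).comp jV
  have hres0 : ∀ y : ↥V, residue ↥V y = 0 ↔ V.valuation (y : E) < 1 := by
    intro y
    rw [residue_eq_zero_iff, V.valuation_lt_one_iff]
  have hρ : ∀ a, ρ a = 0 ↔ a ∈ 𝔭 := by
    intro a
    rw [h𝔭, ← hjV, ← hres0]
    rfl
  let ψ : C' ⧸ 𝔭 →+* ResidueField ↥V :=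
    Ideal.Quotient.lift 𝔭 ρ (fun a ha => (hρ a).mpr ha)
  have hψmk : ∀ a, ψ (Ideal.Quotient.mk 𝔭 a) = ρ a := fun a => Ideal.Quotient.lift_mk 𝔭 ρ _
  have hψinj : Function.Injective ψ := by
    rw [injective_iff_map_eq_zero]
    intro y hy
    obtain ⟨a, rfl⟩ := Ideal.Quotient.mk_surjective y
    rw [hψmk, hρ] at hy
    exact Ideal.Quotient.eq_zero_iff_mem.mpr hy
  let _ : Algebra (C' ⧸ 𝔭) (ResidueField ↥V) := ψ.toAlgebra
  have halg : ∀ y, algebraMap (C' ⧸ 𝔭) (ResidueField ↥V) y = ψ y := fun y => rfl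
  have : FaithfulSMul (C' ⧸ 𝔭) (ResidueField ↥V) :=
    (faithfulSMul_iff_algebraMap_injective _ _).mpr hψinj
  have : IsFractionRing (C' ⧸ 𝔭) (ResidueField ↥V) := by
    refine IsFractionRing.of_field _ _ fun z => ?_
    obtain ⟨y, rfl⟩ := residue_surjective z
    obtain ⟨a, s, hs, has⟩ := hfrac (y : E) y.2
    have hρs : ρ s ≠ 0 := by
      rw [Ne, hρ, h𝔭, hs]
      exact lt_irrefl _
    refine ⟨Ideal.Quotient.mk 𝔭 a, Ideal.Quotient.mk 𝔭 s, ?_⟩
    rw [halg, halg, hψmk, hψmk, eq_div_iff hρs]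
    have : residue ↥V (y * jV s - jV a) = 0 := by
      rw [hres0]
      exact has
    rw [map_sub, map_mul, sub_eq_zero] at this
    exact this
  -- the residue of `x` is integral over `C' ⧸ 𝔭`
  have hint : IsIntegral (C' ⧸ 𝔭) (residue ↥V ⟨x, hx⟩) := by
    refine ⟨P.map (Ideal.Quotient.mk 𝔭), hP.map _, ?_⟩
    rw [eval₂_map]
    have hcomp : (algebraMap (C' ⧸ 𝔭) (ResidueField ↥V)).comp (Ideal.Quotient.mk 𝔭) =
        (residue ↥V).comp jV := by
      ext a
      exact hψmk a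
    rw [hcomp, ← hom_eval₂, hres0]
    have : ((P.eval₂ jV ⟨x, hx⟩ : ↥V) : E) = P.eval₂ j x := by
      have hsub : V.subtype.comp jV = j := RingHom.ext fun a => rfl
      have := hom_eval₂ P jV V.subtype ⟨x, hx⟩
      rw [hsub] at this
      exact this
    rw [this]
    exact hPx
  obtain ⟨y, hy⟩ := IsIntegrallyClosed.isIntegral_iff.mp hint
  obtain ⟨d, rfl⟩ := Ideal.Quotient.mk_surjective y
  refine ⟨d, ?_⟩
  rw [halg, hψmk] at hy
  have h0 : residue ↥V (⟨x, hx⟩ - jV d) = 0 := by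
    rw [map_sub, sub_eq_zero]
    exact hy.symm
  rw [hres0] at h0
  exact h0

end Lift

/-! ### The residue surjectivities (S₁), (S₂), (S₃) -/

section Surj

variable {E F : Type*} [Field E] [Field F] [Algebra E F]
  {C' C : Type*} [CommRing C'] [CommRing C]

/-- two elements of `O` congruent modulo `𝔪_O` have congruent values under a polynomial with
coefficients in `O`. -/
theorem val_eval₂_sub_lt (O : ValuationSubring F) (g : C' →+* F) (hg : ∀ a, g a ∈ O) (P : C'[X])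
    {x y : F} (hy : y ∈ O) (hxy : O.valuation (x - y) < 1) :
    O.valuation (P.eval₂ g x - P.eval₂ g y) < 1 := by
  have hx : x ∈ O := by
    have : x = (x - y) + y := by ring
    rw [this]
    exact O.add_mem _ _ ((O.valuation_le_one_iff _).mp hxy.le) hy
  let gO : C' →+* ↥O := g.codRestrict O hg
  have hcoe : ∀ z : F, ∀ hz : z ∈ O, ((P.eval₂ gO ⟨z, hz⟩ : ↥O) : F) = P.eval₂ g z := by
    intro z hz
    have hsub : O.subtype.comp gO = g := RingHom.ext fun a => rfl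
    have := hom_eval₂ P gO O.subtype ⟨z, hz⟩
    rw [hsub] at this
    exact this
  have hres : residue ↥O (⟨x, hx⟩ : ↥O) = residue ↥O (⟨y, hy⟩ : ↥O) := by
    rw [residue_eq_iff]
    exact hxy
  have h2 : residue ↥O (P.eval₂ gO ⟨x, hx⟩) = residue ↥O (P.eval₂ gO ⟨y, hy⟩) := by
    rw [hom_eval₂, hom_eval₂, hres]
  rw [residue_eq_iff, hcoe x hx, hcoe y hy] at h2
  exact h2

/-- **(S₁), (S₂) (`n = 1`), (S₃) (`n = q`)**: residue surjectivity of `C' → C` along `O`, for `n`-th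
powers. -/
theorem surj_of_residue (O : ValuationSubring F) (iC' : C' →+* E) (iC : C →+* F) (φ : C' →+* C)
    (hcomm : ∀ a : C', iC (φ a) = algebraMap E F (iC' a))
    (hC : ∀ c : C, iC c ∈ O) (hint : φ.IsIntegral)
    (𝔭 : Ideal C') [𝔭.IsPrime] [IsIntegrallyClosed (C' ⧸ 𝔭)]
    (h𝔭 : ∀ a, a ∈ 𝔭 ↔ (O.comap (algebraMap E F)).valuation (iC' a) < 1)
    (hfrac : ∀ x ∈ O.comap (algebraMap E F), ∃ a s : C',
      (O.comap (algebraMap E F)).valuation (iC' s) = 1 ∧
        (O.comap (algebraMap E F)).valuation (x * iC' s - iC' a) < 1)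
    (n : ℕ)
    (hres : ∀ y ∈ O, ∃ x : E, (O.comap (algebraMap E F)).valuation x ≤ 1 ∧
      O.valuation (y ^ n - algebraMap E F x) < 1) :
    ∀ e : C, ∃ a : C', O.valuation (iC e ^ n - algebraMap E F (iC' a)) < 1 := by
  intro e
  have hC' : ∀ a : C', iC' a ∈ O.comap (algebraMap E F) := by
    intro a
    rw [ValuationSubring.mem_comap, ← hcomm]
    exact hC _
  obtain ⟨P, hP, hPe⟩ := hint (e ^ n)
  obtain ⟨x, hx, hxy⟩ := hres (iC e) (hC e)
  have hxV : x ∈ O.comap (algebraMap E F) := ((O.comap _).valuation_le_one_iff _).mp hx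
  set g : C' →+* F := (algebraMap E F).comp iC' with hg
  have hgO : ∀ a, g a ∈ O := fun a => by
    rw [hg, RingHom.comp_apply, ← hcomm]; exact hC _
  -- `P (iC e ^ n) = 0`
  have hzero : P.eval₂ g (iC e ^ n) = 0 := by
    have h1 := hom_eval₂ P φ iC (e ^ n)
    rw [hPe, map_zero, map_pow] at h1
    have h2 : iC.comp φ = g := by
      ext a; exact hcomm a
    rw [h2] at h1
    exact h1.symm
  -- hence `P x ≡ 0`
  have hPx : (O.comap (algebraMap E F)).valuation (P.eval₂ iC' x) < 1 := by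
    rw [comap_val_lt_one_iff, hom_eval₂]
    have := val_eval₂_sub_lt O g hgO P (pow_mem (hC e) n)
      (by rw [← Valuation.map_neg, neg_sub]; exact hxy)
    rw [hzero, sub_zero] at this
    exact this
  obtain ⟨d, hd⟩ := exists_lift_of_integral (O.comap (algebraMap E F)) iC' hC' 𝔭 h𝔭 hfrac hxV P hP hPx
  refine ⟨d, ?_⟩
  have : iC e ^ n - algebraMap E F (iC' d) =
      (iC e ^ n - algebraMap E F x) + algebraMap E F (x - iC' d) := by
    rw [map_sub]; ring
  rw [this]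
  exact Valuation.map_add_lt _ hxy ((comap_val_lt_one_iff O _).mp hd)

/-- `n = 1`. -/
theorem surj_of_residue_one (O : ValuationSubring F) (iC' : C' →+* E) (iC : C →+* F) (φ : C' →+* C)
    (hcomm : ∀ a : C', iC (φ a) = algebraMap E F (iC' a))
    (hC : ∀ c : C, iC c ∈ O) (hint : φ.IsIntegral)
    (𝔭 : Ideal C') [𝔭.IsPrime] [IsIntegrallyClosed (C' ⧸ 𝔭)]
    (h𝔭 : ∀ a, a ∈ 𝔭 ↔ (O.comap (algebraMap E F)).valuation (iC' a) < 1)
    (hfrac : ∀ x ∈ O.comap (algebraMap E F), ∃ a s : C',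
      (O.comap (algebraMap E F)).valuation (iC' s) = 1 ∧
        (O.comap (algebraMap E F)).valuation (x * iC' s - iC' a) < 1)
    (hres : ∀ y ∈ O, ∃ x : E, (O.comap (algebraMap E F)).valuation x ≤ 1 ∧
      O.valuation (y - algebraMap E F x) < 1) :
    ∀ e : C, ∃ a : C', O.valuation (iC e - algebraMap E F (iC' a)) < 1 := by
  intro e
  obtain ⟨a, ha⟩ := surj_of_residue O iC' iC φ hcomm hC hint 𝔭 h𝔭 hfrac 1
    (fun y hy => by simpa using hres y hy) e
  exact ⟨a, by simpa using ha⟩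

end Surj

/-! ### The element `Γ` -/

section Gamma

variable {E F : Type*} [Field E] [Field F] [Algebra E F]
  {C' C : Type*} [CommRing C'] [CommRing C]

/-- the norm of an element of `C` lies in `C'` (`C` integral over `C'`, `C'` integrally closed in `E`). -/
theorem exists_norm_eq (iC' : C' →+* E) (iC : C →+* F) (φ : C' →+* C)
    (hcomm : ∀ a : C', iC (φ a) = algebraMap E F (iC' a)) (hint : φ.IsIntegral)
    (hic : ∀ x : E, iC'.IsIntegralElem x → ∃ a : C', iC' a = x) (c : C) :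
    ∃ a : C', iC' a = Algebra.norm E (iC c) := by
  let _ : Algebra C' E := iC'.toAlgebra
  let _ : Algebra C' F := ((algebraMap E F).comp iC').toAlgebra
  have : IsScalarTower C' E F := IsScalarTower.of_algebraMap_eq fun _ => rfl
  obtain ⟨P, hP, hPc⟩ := hint c
  have hc : IsIntegral C' (iC c) := by
    refine ⟨P, hP, ?_⟩
    have h1 := hom_eval₂ P φ iC c
    rw [hPc, map_zero] at h1
    have h2 : iC.comp φ = algebraMap C' F := by
      ext a; exact hcomm a
    rw [h2] at h1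
    exact h1.symm
  exact hic _ (Algebra.isIntegral_norm E hc)

/-- **the element `Γ`** (`S36_SS27` §4 (b)): `u = ε f ^ m` with `ε ∈ Cˣ`, `N u = κ G ^ m` with `κ ∈ C'`
⊢ `N f = Γ G` with `Γ ∈ C'`. -/
theorem exists_Gamma (iC' : C' →+* E) (iC : C →+* F) (φ : C' →+* C)
    (hcomm : ∀ a : C', iC (φ a) = algebraMap E F (iC' a)) (hint : φ.IsIntegral)
    (hic : ∀ x : E, iC'.IsIntegralElem x → ∃ a : C', iC' a = x)
    {m : ℕ} (hm : m ≠ 0) {u f : F} (ε : Cˣ) (huf : u = iC (ε : C) * f ^ m)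
    {G : E} (hG : G ≠ 0) (κ : C') (hN : Algebra.norm E u = iC' κ * G ^ m) :
    ∃ Γ : C', Algebra.norm E f = iC' Γ * G := by
  obtain ⟨a, ha⟩ := exists_norm_eq iC' iC φ hcomm hint hic ((ε⁻¹ : Cˣ) : C)
  have hunit : Algebra.norm E (iC ((ε⁻¹ : Cˣ) : C)) * Algebra.norm E (iC (ε : C)) = 1 := by
    rw [← map_mul, ← map_mul, ← Units.val_mul, inv_mul_cancel, Units.val_one, map_one, map_one]
  -- `(N f / G) ^ m = κ a`
  have hpow : (Algebra.norm E f / G) ^ m = iC' (κ * a) := by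
    have h1 : Algebra.norm E u = Algebra.norm E (iC (ε : C)) * Algebra.norm E f ^ m := by
      rw [huf, map_mul, map_pow]
    rw [div_pow, div_eq_iff (pow_ne_zero m hG), map_mul, ha]
    have : Algebra.norm E f ^ m =
        Algebra.norm E (iC ((ε⁻¹ : Cˣ) : C)) * Algebra.norm E u := by
      rw [h1, ← mul_assoc, hunit, one_mul]
    rw [this, hN]; ring
  have hx : iC'.IsIntegralElem (Algebra.norm E f / G) := by
    refine ⟨X ^ m - Polynomial.C (κ * a), monic_X_pow_sub_C _ hm, ?_⟩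
    rw [eval₂_sub, eval₂_pow, eval₂_X, eval₂_C, hpow, sub_self]
  obtain ⟨Γ, hΓ⟩ := hic _ hx
  exact ⟨Γ, by rw [hΓ, div_mul_cancel₀ _ hG]⟩

end Gamma

/-! ### (U1) ⇒ `N u ≡ 1` below -/

section NormOne

variable {E F : Type*} [Field E] [Field F] [Algebra E F] [FiniteDimensional E F]

/-- `u ≡ 1` at the pair `O₁, O₂` ⊢ `N u ≡ 1` at `O₁ ∩ E`. -/
theorem norm_congr_one_pair {k : ℕ} (hn : Module.finrank E F ≤ k + 2) (O₁ O₂ : ValuationSubring F)
    (h12 : O₁ ≠ O₂) (hcomap₂ : O₁.comap (algebraMap E F) = O₂.comap (algebraMap E F))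
    {t : F} (ht0 : t ≠ 0) (ht2 : O₂.valuation t < 1)
    (hram : ∀ a : E, (O₁.comap (algebraMap E F)).valuation a < 1 →
      O₂.valuation (algebraMap E F a) ≤ O₂.valuation t ^ (k + 1))
    {u : F} (hu1 : O₁.valuation (u - 1) < 1) (hu2 : O₂.valuation (u - 1) < 1) :
    (O₁.comap (algebraMap E F)).valuation (Algebra.norm E u - 1) < 1 := by
  have hmem : ∀ O : ValuationSubring F, O.valuation (u - 1) < 1 → u ∈ O := by
    intro O h
    have : u = (u - 1) + 1 := by ring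
    rw [this]
    exact O.add_mem _ _ ((O.valuation_le_one_iff _).mp h.le) O.one_mem
  have h1 : (O₁.comap (algebraMap E F)).valuation (1 : E) ≤ 1 := by rw [map_one]
  have := norm_congr_ram hn O₁ O₂ h12 hcomap₂ ht0 ht2 hram (hmem O₁ hu1) (hmem O₂ hu2) h1 h1
    (by rw [map_one]; exact hu1) (by rw [map_one]; exact hu2)
  rw [one_pow, mul_one] at this
  exact this

/-- `u ≡ 1` at the single extension `O₃` ⊢ `N u ≡ 1` at `O₃ ∩ E`. -/
theorem norm_congr_one_single (q : ℕ) [Fact q.Prime] (hn : Module.finrank E F ≤ q)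
    (O₃ : ValuationSubring F) (hqE : (O₃.comap (algebraMap E F)).valuation (q : E) < 1)
    (b : Fin q → F) (hbO : ∀ i, b i ∈ O₃)
    (hb : ∀ a : Fin q → E, (∀ i, (O₃.comap (algebraMap E F)).valuation (a i) ≤ 1) →
      O₃.valuation (∑ i, algebraMap E F (a i) * b i) < 1 →
      ∀ i, (O₃.comap (algebraMap E F)).valuation (a i) < 1)
    {u : F} (hu3 : O₃.valuation (u - 1) < 1) :
    (O₃.comap (algebraMap E F)).valuation (Algebra.norm E u - 1) < 1 := by
  have hu : u ∈ O₃ := by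
    have : u = (u - 1) + 1 := by ring
    rw [this]
    exact O₃.add_mem _ _ ((O₃.valuation_le_one_iff _).mp hu3.le) O₃.one_mem
  have h1 : (O₃.comap (algebraMap E F)).valuation (1 : E) ≤ 1 := by rw [map_one]
  refine norm_congr_single_insep q hn O₃ hqE b hbO hb hu h1 ?_
  rw [map_one]
  have hgeom : (∑ i ∈ Finset.range q, u ^ i * 1 ^ (q - 1 - i)) * (u - 1) = u ^ q - 1 ^ q :=
    (Commute.all u 1).geom_sum₂_mul q
  rw [one_pow] at hgeom
  have hS : (∑ i ∈ Finset.range q, u ^ i * 1 ^ (q - 1 - i)) ∈ O₃ :=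
    O₃.toSubring.sum_mem fun i _ => O₃.mul_mem _ _ (pow_mem hu i) (pow_mem O₃.one_mem _)
  rw [← hgeom, map_mul]
  exact mul_lt_one_of_nonneg_of_lt_one_right ((O₃.valuation_le_one_iff _).mpr hS) zero_le hu3

end NormOne

/-! ### The global constants are roots of unity -/

section Roots

variable {R : Type*} [CommRing R] [IsDomain R]

/-- **(L6)** `π` prime, `ζ` a primitive `m`-th root of unity, `π ∣ γ₁ ^ m - γ₂ ^ m`
⊢ `π ∣ γ₁ - Θ γ₂` for some `m`-th root of unity `Θ`. -/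
theorem exists_root_of_unity_congr {π ζ : R} (hπ : Prime π) {m : ℕ} (hm : 0 < m)
    (hζ : IsPrimitiveRoot ζ m) {γ₁ γ₂ : R} (h : π ∣ γ₁ ^ m - γ₂ ^ m) :
    ∃ Θ : R, Θ ^ m = 1 ∧ π ∣ γ₁ - Θ * γ₂ := by
  rw [hζ.pow_sub_pow_eq_prod_sub_mul γ₁ γ₂ hm] at h
  obtain ⟨Θ, hΘ, hdvd⟩ := (Prime.dvd_finsetProd_iff hπ _).mp h
  exact ⟨Θ, (mem_nthRootsFinset hm 1).mp hΘ, hdvd⟩

end Roots

/-! ### The shape of `GlobMult18.branch_data_mul` -/

section Shape

variable {C : Type*} [CommRing C] [IsLocalRing C]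

/-- **(L4)** from the branch relation with the constants `G₁, G₂` to the relation with `θ ≡ G₁ / G₂`. -/
theorem rel_of_branch_relation {q : ℕ} {e₁ e₂ e₃ G₁ G₂ θ : C} (hG₂ : IsUnit G₂)
    (hrel : G₂ * e₁ * e₂ ^ (q - 1) - G₁ * e₃ ^ q ∈ maximalIdeal C)
    (hθ : G₁ - θ * G₂ ∈ maximalIdeal C) :
    e₁ * e₂ ^ (q - 1) - θ * e₃ ^ q ∈ maximalIdeal C := by
  have h1 : G₂ * (e₁ * e₂ ^ (q - 1) - θ * e₃ ^ q) ∈ maximalIdeal C := by
    have : G₂ * (e₁ * e₂ ^ (q - 1) - θ * e₃ ^ q) =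
        (G₂ * e₁ * e₂ ^ (q - 1) - G₁ * e₃ ^ q) + (G₁ - θ * G₂) * e₃ ^ q := by ring
    rw [this]
    exact add_mem hrel (Ideal.mul_mem_right _ _ hθ)
  obtain ⟨w, rfl⟩ := hG₂
  have := Ideal.mul_mem_left (maximalIdeal C) ((w⁻¹ : Cˣ) : C) h1
  rwa [← mul_assoc, ← Units.val_mul, inv_mul_cancel, Units.val_one, one_mul] at this

end Shape

end Fermat.Agent.ES.P36.BranchInputs15
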