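/-
Program P (S36), brick S5a (helper15): **the BRANCH RELATION at a triple point, abstract form**
(`S36_SS27.md` v2, §4′ S5a; Mathlib + helper20's `NormRam20`).

`F / E` finite of degree `≤ q` (`q` a prime number).  `O₁ ≠ O₂` valuation subrings of `F` with the same
restriction `OE₁` to `E`, in the pattern `(1,1)`, `(q-1,1)` of `NormRam20` (`t`, (RAM) with exponent
`q - 1`); `O₃` a valuation subring of `F` with restriction `OE₂`, the only extension, with a residually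
independent family `b` of `q` elements (residue degree `q`; the purely inseparable shape enters through
the hypothesis (S₃)).  `C'`, `C` local rings with maps `iC' : C' → E`, `iC : C → F`, `φ : C' → C`
(the localised charts at the node `z'` and at the triple point `z''`), compatible with `E → F`, landing in
`OE₁ ⊓ OE₂` resp. `O₁ ⊓ O₂ ⊓ O₃`, such that the elements of `C'` (resp. `C`) lying in the maximal ideal of
one of the valuation rings are non-units, and `φ` is local.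

  (S₁), (S₂)  every `e ∈ C` is congruent modulo `𝔪_{O_i}` to some `a ∈ C'`  (`i = 1, 2`);
  (S₃)        for every `e ∈ C`, `e ^ q` is congruent modulo `𝔪_{O₃}` to some `a ∈ C'`;
  `h ∈ F` with `h ≡ e_i mod 𝔪_{O_i}`, `e_i ∈ C`;  `G ∈ E` with `G ≡ γ_j mod 𝔪_{OE_j}`, `γ_j ∈ C'`;
  `N_{F/E} h = Γ · G` with `Γ ∈ C'`.

CONCLUSION (`branch_relation`):  `γ₂ · e₁ · e₂ ^ (q - 1) - γ₁ · e₃ ^ q ∈ 𝔪_C`.

No unit hypothesis is needed for the congruence itself.
-/
import Mathlib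
import Fermat.Agent.ES.P36.NormRam20

set_option autoImplicit false

namespace Fermat.Agent.ES.P36.BranchRel15

open Fermat.Agent.ES.P36.NormRam20 IsLocalRing

section Aux

variable {F : Type*} [Field F]

/-- `x ≡ y mod 𝔪_V` with `x, y ∈ V` implies `x ^ n ≡ y ^ n mod 𝔪_V`. -/
theorem val_pow_sub_pow_lt (V : ValuationSubring F) {x y : F} (hy : y ∈ V)
    (hxy : V.valuation (x - y) < 1) (n : ℕ) : V.valuation (x ^ n - y ^ n) < 1 := by
  have hx : x ∈ V := by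
    have : x = (x - y) + y := by ring
    rw [this]
    exact V.add_mem _ _ ((V.valuation_le_one_iff _).mp hxy.le) hy
  have hgeom : (∑ i ∈ Finset.range n, x ^ i * y ^ (n - 1 - i)) * (x - y) = x ^ n - y ^ n :=
    (Commute.all x y).geom_sum₂_mul n
  have hS : (∑ i ∈ Finset.range n, x ^ i * y ^ (n - 1 - i)) ∈ V :=
    V.toSubring.sum_mem fun i _ => V.mul_mem _ _ (pow_mem hx i) (pow_mem hy _)
  rw [← hgeom, map_mul]
  exact mul_lt_one_of_nonneg_of_lt_one_right ((V.valuation_le_one_iff _).mpr hS) zero_le hxy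

end Aux

section Main

variable {E F : Type*} [Field E] [Field F] [Algebra E F] [FiniteDimensional E F]
  {C' C : Type*} [CommRing C'] [IsLocalRing C'] [CommRing C] [IsLocalRing C]

/-- **S5a, the branch relation (abstract form).**  See the file header. -/
theorem branch_relation (q : ℕ) [Fact q.Prime] (hn : Module.finrank E F ≤ q)
    (O₁ O₂ O₃ : ValuationSubring F) (h12 : O₁ ≠ O₂)
    (hcomap₂ : O₁.comap (algebraMap E F) = O₂.comap (algebraMap E F))
    {t : F} (ht0 : t ≠ 0) (ht2 : O₂.valuation t < 1)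
    (hram : ∀ a : E, (O₁.comap (algebraMap E F)).valuation a < 1 →
      O₂.valuation (algebraMap E F a) ≤ O₂.valuation t ^ (q - 1))
    (hqE : (O₃.comap (algebraMap E F)).valuation (q : E) < 1)
    (b : Fin q → F) (hbO : ∀ i, b i ∈ O₃)
    (hb : ∀ a : Fin q → E, (∀ i, (O₃.comap (algebraMap E F)).valuation (a i) ≤ 1) →
      O₃.valuation (∑ i, algebraMap E F (a i) * b i) < 1 →
      ∀ i, (O₃.comap (algebraMap E F)).valuation (a i) < 1)
    (iC' : C' →+* E) (iC : C →+* F) (φ : C' →+* C)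
    (hcomm : ∀ a : C', iC (φ a) = algebraMap E F (iC' a))
    (hC'1 : ∀ a : C', (O₁.comap (algebraMap E F)).valuation (iC' a) ≤ 1)
    (hC'2 : ∀ a : C', (O₃.comap (algebraMap E F)).valuation (iC' a) ≤ 1)
    (hC1 : ∀ c : C, iC c ∈ O₁) (hC2 : ∀ c : C, iC c ∈ O₂) (hC3 : ∀ c : C, iC c ∈ O₃)
    (hm'1 : ∀ a : C', (O₁.comap (algebraMap E F)).valuation (iC' a) < 1 → a ∈ maximalIdeal C')
    (hm'2 : ∀ a : C', (O₃.comap (algebraMap E F)).valuation (iC' a) < 1 → a ∈ maximalIdeal C')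
    (hloc : ∀ a : C', a ∈ maximalIdeal C' → φ a ∈ maximalIdeal C)
    (hm1 : ∀ c : C, O₁.valuation (iC c) < 1 → c ∈ maximalIdeal C)
    (hm2 : ∀ c : C, O₂.valuation (iC c) < 1 → c ∈ maximalIdeal C)
    (hm3 : ∀ c : C, O₃.valuation (iC c) < 1 → c ∈ maximalIdeal C)
    (hS1 : ∀ e : C, ∃ a : C', O₁.valuation (iC e - algebraMap E F (iC' a)) < 1)
    (hS2 : ∀ e : C, ∃ a : C', O₂.valuation (iC e - algebraMap E F (iC' a)) < 1)
    (hS3 : ∀ e : C, ∃ a : C', O₃.valuation (iC e ^ q - algebraMap E F (iC' a)) < 1)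
    {h : F} {e₁ e₂ e₃ : C}
    (he1 : O₁.valuation (h - iC e₁) < 1) (he2 : O₂.valuation (h - iC e₂) < 1)
    (he3 : O₃.valuation (h - iC e₃) < 1)
    {G : E} {γ₁ γ₂ Γ : C'}
    (hG1 : (O₁.comap (algebraMap E F)).valuation (G - iC' γ₁) < 1)
    (hG2 : (O₃.comap (algebraMap E F)).valuation (G - iC' γ₂) < 1)
    (hΓ : Algebra.norm E h = iC' Γ * G) :
    φ γ₂ * e₁ * e₂ ^ (q - 1) - φ γ₁ * e₃ ^ q ∈ maximalIdeal C := by
  have hq2 : 2 ≤ q := (Fact.out : q.Prime).two_le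
  obtain ⟨k, rfl⟩ : ∃ k, q = k + 2 := ⟨q - 2, by omega⟩
  have hk1 : k + 2 - 1 = k + 1 := by omega
  rw [hk1] at hram ⊢
  obtain ⟨a₁, ha₁⟩ := hS1 e₁
  obtain ⟨a₂, ha₂⟩ := hS2 e₂
  obtain ⟨a₃, ha₃⟩ := hS3 e₃
  -- `h` lies in the three valuation rings
  have hmem : ∀ (O : ValuationSubring F) (e : C), iC e ∈ O → O.valuation (h - iC e) < 1 → h ∈ O := by
    intro O e heO hlt
    have : h = (h - iC e) + iC e := by ring
    rw [this]
    exact O.add_mem _ _ ((O.valuation_le_one_iff _).mp hlt.le) heO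
  have hO1 : h ∈ O₁ := hmem O₁ e₁ (hC1 e₁) he1
  have hO2 : h ∈ O₂ := hmem O₂ e₂ (hC2 e₂) he2
  have hO3 : h ∈ O₃ := hmem O₃ e₃ (hC3 e₃) he3
  -- `h ≡ a₁ mod 𝔪₁`, `h ≡ a₂ mod 𝔪₂`, `h ^ q ≡ a₃ mod 𝔪₃`
  have hc1 : O₁.valuation (h - algebraMap E F (iC' a₁)) < 1 := by
    have : h - algebraMap E F (iC' a₁) = (h - iC e₁) + (iC e₁ - algebraMap E F (iC' a₁)) := by ring
    rw [this]
    exact Valuation.map_add_lt _ he1 ha₁
  have hc2 : O₂.valuation (h - algebraMap E F (iC' a₂)) < 1 := by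
    have : h - algebraMap E F (iC' a₂) = (h - iC e₂) + (iC e₂ - algebraMap E F (iC' a₂)) := by ring
    rw [this]
    exact Valuation.map_add_lt _ he2 ha₂
  have hc3 : O₃.valuation (h ^ (k + 2) - algebraMap E F (iC' a₃)) < 1 := by
    have : h ^ (k + 2) - algebraMap E F (iC' a₃) =
        (h ^ (k + 2) - iC e₃ ^ (k + 2)) + (iC e₃ ^ (k + 2) - algebraMap E F (iC' a₃)) := by ring
    rw [this]
    exact Valuation.map_add_lt _ (val_pow_sub_pow_lt O₃ (hC3 e₃) he3 _) ha₃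
  -- the two norm congruences
  have hN1 : (O₁.comap (algebraMap E F)).valuation
      (Algebra.norm E h - iC' a₁ * iC' a₂ ^ (k + 1)) < 1 :=
    norm_congr_ram hn O₁ O₂ h12 hcomap₂ ht0 ht2 hram hO1 hO2 (hC'1 a₁) (hC'1 a₂) hc1 hc2
  have hN2 : (O₃.comap (algebraMap E F)).valuation (Algebra.norm E h - iC' a₃) < 1 :=
    norm_congr_single_insep (k + 2) hn O₃ hqE b hbO hb hO3 (hC'2 a₃) hc3
  -- `Γ γ₁ ≡ a₁ a₂ ^ (k+1)` and `Γ γ₂ ≡ a₃` in `C'`
  have hA : Γ * γ₁ - a₁ * a₂ ^ (k + 1) ∈ maximalIdeal C' := by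
    refine hm'1 _ ?_
    have : iC' (Γ * γ₁ - a₁ * a₂ ^ (k + 1)) =
        (Algebra.norm E h - iC' a₁ * iC' a₂ ^ (k + 1)) - iC' Γ * (G - iC' γ₁) := by
      rw [hΓ]; simp only [map_sub, map_mul, map_pow]; ring
    rw [this]
    refine Valuation.map_sub_lt _ hN1 ?_
    rw [map_mul]
    exact mul_lt_one_of_nonneg_of_lt_one_right (hC'1 Γ) zero_le hG1
  have hB : Γ * γ₂ - a₃ ∈ maximalIdeal C' := by
    refine hm'2 _ ?_
    have : iC' (Γ * γ₂ - a₃) = (Algebra.norm E h - iC' a₃) - iC' Γ * (G - iC' γ₂) := by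
      rw [hΓ]; simp only [map_sub, map_mul]; ring
    rw [this]
    refine Valuation.map_sub_lt _ hN2 ?_
    rw [map_mul]
    exact mul_lt_one_of_nonneg_of_lt_one_right (hC'2 Γ) zero_le hG2
  -- eliminate `Γ`
  have hD : γ₂ * a₁ * a₂ ^ (k + 1) - γ₁ * a₃ ∈ maximalIdeal C' := by
    have : γ₂ * a₁ * a₂ ^ (k + 1) - γ₁ * a₃ =
        γ₁ * (Γ * γ₂ - a₃) - γ₂ * (Γ * γ₁ - a₁ * a₂ ^ (k + 1)) := by ring
    rw [this]
    exact sub_mem (Ideal.mul_mem_left _ _ hB) (Ideal.mul_mem_left _ _ hA)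
  have hD' := hloc _ hD
  -- the `e`'s are congruent to the `a`'s modulo `𝔪_C`
  have hE1 : e₁ - φ a₁ ∈ maximalIdeal C := hm1 _ (by rw [map_sub, hcomm]; exact ha₁)
  have hE2 : e₂ - φ a₂ ∈ maximalIdeal C := hm2 _ (by rw [map_sub, hcomm]; exact ha₂)
  have hE3 : e₃ ^ (k + 2) - φ a₃ ∈ maximalIdeal C :=
    hm3 _ (by rw [map_sub, map_pow, hcomm]; exact ha₃)
  -- conclude in the residue field
  rw [← Ideal.Quotient.eq_zero_iff_mem] at hD' hE1 hE2 hE3 ⊢
  simp only [map_sub, map_mul, map_pow, sub_eq_zero] at hD' hE1 hE2 hE3 ⊢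
  rw [hE1, hE2, hE3]
  exact hD'

end Main

end Fermat.Agent.ES.P36.BranchRel15
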