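/-
Program P (S36), brick S5b, ABSTRACT ASSEMBLY (helper15): **the branch relation in the shape of
`GlobMult18` / `TripleDecMul18`, from its inputs** (`S36_SS27.md` v2, §4 (a)–(d), §4′).

GLOBAL part (no closed point involved):
* `exists_normalised` : `κ₀ G ^ m ≡ 1` at two valuation rings `V₁, V₂` of `E` in which `π₀` has the same
  role (`κ₀ π₀ ^ a` a unit at both for some `a`, `G` of integral order at `V₁`) ⊢ after moving a power of
  `π₀`, `κ₀` and `G` are units at both.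
* `exists_theta` : `κ G ^ m ≡ 1` at `V₁, V₂`, `G ≡ γ_j mod 𝔪_{V_j}` with `γ_j ∈ R`, `π ∈ R` cutting out
  `𝔪_{V_j} ∩ R` ⊢ `∃ Θ ∈ R, π ∣ Θ ^ m - 1 ∧ π ∣ γ₁ - Θ γ₂` (`Θ := γ₁ κ γ₂ ^ (m-1)`; ruling p10: NO root of
  unity in `R` is needed).
LOCAL part (at a triple point):
* `branch_rel_at_point` : the hypotheses of `BranchRel15.branch_relation` on the rings, a factorisation
  `u = ε f ^ m` with branch representatives `r_j`, `N u = κ G ^ m`, `G ≡ γ_j`, `π ∣ γ₁ - Θ γ₂`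
  ⊢ `r₁ r₂ ^ (q-1) - Θ r₃ ^ q ∈ 𝔪_C`.
-/
import Mathlib
import Fermat.Agent.ES.P36.BranchRel15
import Fermat.Agent.ES.P36.BranchInputs15

set_option autoImplicit false

namespace Fermat.Agent.ES.P36.BranchAsm15

open IsLocalRing Fermat.Agent.ES.P36.BranchRel15 Fermat.Agent.ES.P36.BranchInputs15

/-! ### Global part -/

section Global

variable {E : Type*} [Field E]

theorem val_eq_one_of_sub_one_lt (V : ValuationSubring E) {x : E} (h : V.valuation (x - 1) < 1) :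
    V.valuation x = 1 := by
  have : x = 1 - (1 - x) := by ring
  rw [this]
  refine Valuation.map_one_sub_of_lt _ ?_
  rw [← Valuation.map_neg, neg_sub]
  exact h

/-- **normalisation of the constant** (`S36_SS27` §4 (a)). -/
theorem exists_normalised (V₁ V₂ : ValuationSubring E) {π₀ κ₀ G : E} {m : ℕ} (hm : m ≠ 0)
    (hπ0 : π₀ ≠ 0) (hπ1 : V₁.valuation π₀ < 1)
    (hκ : ∃ a : ℤ, V₁.valuation (κ₀ * π₀ ^ a) = 1 ∧ V₂.valuation (κ₀ * π₀ ^ a) = 1)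
    (hG : ∃ n : ℤ, V₁.valuation G = V₁.valuation π₀ ^ n)
    (h1 : V₁.valuation (κ₀ * G ^ m - 1) < 1) (h2 : V₂.valuation (κ₀ * G ^ m - 1) < 1) :
    ∃ n : ℤ, V₁.valuation (κ₀ * π₀ ^ (n * m)) = 1 ∧ V₂.valuation (κ₀ * π₀ ^ (n * m)) = 1 ∧
      V₁.valuation (G * π₀ ^ (-n)) = 1 ∧ V₂.valuation (G * π₀ ^ (-n)) = 1 ∧
      (κ₀ * π₀ ^ (n * m)) * (G * π₀ ^ (-n)) ^ m = κ₀ * G ^ m := by
  obtain ⟨a, ha1, ha2⟩ := hκ
  obtain ⟨n, hn⟩ := hG
  have hv1 := val_eq_one_of_sub_one_lt V₁ h1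
  have hv2 := val_eq_one_of_sub_one_lt V₂ h2
  have hπv : V₁.valuation π₀ ≠ 0 := (Valuation.ne_zero_iff _).mpr hπ0
  have hπpos : 0 < V₁.valuation π₀ := zero_lt_iff.mpr hπv
  -- `a = n * m`
  have hanm : a = n * m := by
    have e1 : V₁.valuation κ₀ * V₁.valuation π₀ ^ a = 1 := by
      rw [← map_zpow₀, ← map_mul]; exact ha1
    have e2 : V₁.valuation κ₀ * V₁.valuation π₀ ^ (n * m) = 1 := by
      rw [zpow_mul, zpow_natCast, ← hn, ← map_pow, ← map_mul]; exact hv1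
    have hκv : V₁.valuation κ₀ ≠ 0 := by
      intro h0
      rw [h0, zero_mul] at e1
      exact zero_ne_one e1
    have e3 : V₁.valuation π₀ ^ a = V₁.valuation π₀ ^ (n * m) :=
      mul_left_cancel₀ hκv (e1.trans e2.symm)
    by_contra hne
    rcases lt_or_gt_of_ne hne with hlt | hgt
    · have := zpow_lt_zpow_right_of_lt_one₀ hπpos hπ1 hlt
      rw [e3] at this
      exact lt_irrefl _ this
    · have := zpow_lt_zpow_right_of_lt_one₀ hπpos hπ1 hgt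
      rw [e3] at this
      exact lt_irrefl _ this
  have hprod : (κ₀ * π₀ ^ (n * m)) * (G * π₀ ^ (-n)) ^ m = κ₀ * G ^ m := by
    rw [mul_pow, ← zpow_natCast (π₀ ^ (-n)), ← zpow_mul]
    have : π₀ ^ (n * (m : ℤ)) * π₀ ^ (-n * (m : ℤ)) = 1 := by
      rw [← zpow_add₀ hπ0]
      have : n * (m : ℤ) + -n * (m : ℤ) = 0 := by ring
      rw [this, zpow_zero]
    calc κ₀ * π₀ ^ (n * (m : ℤ)) * (G ^ m * π₀ ^ (-n * (m : ℤ)))
        = κ₀ * G ^ m * (π₀ ^ (n * (m : ℤ)) * π₀ ^ (-n * (m : ℤ))) := by ring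
      _ = κ₀ * G ^ m := by rw [this, mul_one]
  have hG1 : V₁.valuation (G * π₀ ^ (-n)) = 1 := by
    rw [map_mul, map_zpow₀, hn, ← zpow_add₀ hπv, add_neg_cancel, zpow_zero]
  have ha1' : V₁.valuation (κ₀ * π₀ ^ (n * (m : ℤ))) = 1 := by rw [← hanm]; exact ha1
  have ha2' : V₂.valuation (κ₀ * π₀ ^ (n * (m : ℤ))) = 1 := by rw [← hanm]; exact ha2
  refine ⟨n, ha1', ha2', hG1, ?_, hprod⟩
  -- at `V₂`: `(G π₀^{-n})^m` has valuation one
  have h3 : V₂.valuation (G * π₀ ^ (-n)) ^ m = 1 := by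
    have e := congrArg V₂.valuation hprod
    rw [map_mul, ha2', one_mul, hv2, map_pow] at e
    exact e
  rcases lt_trichotomy (V₂.valuation (G * π₀ ^ (-n))) 1 with hlt | heq | hgt
  · have := pow_lt_one₀ zero_le hlt hm
    rw [h3] at this
    exact absurd this (lt_irrefl _)
  · exact heq
  · have := one_lt_pow₀ hgt hm
    rw [h3] at this
    exact absurd this (lt_irrefl _)

variable {R : Type*} [CommRing R]

/-- `κ G ^ m ≡ 1` and `G ≡ γ` modulo `𝔪_V`, `π` cutting out `𝔪_V ∩ R` ⊢ `π ∣ κ γ ^ m - 1`. -/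
theorem dvd_mul_pow_sub_one (iR : R →+* E) (V : ValuationSubring E) (hR : ∀ r, iR r ∈ V) {π : R}
    (hdvd : ∀ r, V.valuation (iR r) < 1 → π ∣ r) {m : ℕ} {κ γ : R} {G : E}
    (h : V.valuation (iR κ * G ^ m - 1) < 1) (hG : V.valuation (G - iR γ) < 1) :
    π ∣ κ * γ ^ m - 1 := by
  refine hdvd _ ?_
  have hpow : V.valuation (G ^ m - iR γ ^ m) < 1 := val_pow_sub_pow_lt V (hR γ) hG m
  have : iR (κ * γ ^ m - 1) = (iR κ * G ^ m - 1) - iR κ * (G ^ m - iR γ ^ m) := by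
    simp only [map_sub, map_mul, map_pow, map_one]; ring
  rw [this]
  refine Valuation.map_sub_lt _ h ?_
  rw [map_mul]
  exact mul_lt_one_of_nonneg_of_lt_one_right ((V.valuation_le_one_iff _).mpr (hR κ)) zero_le hpow

/-- **the global constant `Θ`** (`ϑ_α` resp. `ϑ_β` of `S36_SS27` §4 (a)), as an element of `R` which is an
`m`-th root of unity MODULO `π` (ruling p10: no roots of unity are adjoined): `Θ := γ₁ κ γ₂ ^ (m-1)`. -/
theorem exists_theta (iR : R →+* E) (V₁ V₂ : ValuationSubring E)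
    (hR₁ : ∀ r, iR r ∈ V₁) (hR₂ : ∀ r, iR r ∈ V₂) {π : R}
    (hdvd₁ : ∀ r, V₁.valuation (iR r) < 1 → π ∣ r) (hdvd₂ : ∀ r, V₂.valuation (iR r) < 1 → π ∣ r)
    {m : ℕ} (hm : 0 < m) {κ γ₁ γ₂ : R} {G : E}
    (h1 : V₁.valuation (iR κ * G ^ m - 1) < 1) (h2 : V₂.valuation (iR κ * G ^ m - 1) < 1)
    (hG₁ : V₁.valuation (G - iR γ₁) < 1) (hG₂ : V₂.valuation (G - iR γ₂) < 1) :
    ∃ Θ : R, π ∣ Θ ^ m - 1 ∧ π ∣ γ₁ - Θ * γ₂ ∧ π ∣ κ * γ₂ ^ m - 1 := by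
  obtain ⟨a, ha⟩ := dvd_mul_pow_sub_one iR V₁ hR₁ hdvd₁ h1 hG₁
  obtain ⟨c, hc⟩ := dvd_mul_pow_sub_one iR V₂ hR₂ hdvd₂ h2 hG₂
  obtain ⟨n, rfl⟩ : ∃ n, m = n + 1 := ⟨m - 1, by omega⟩
  refine ⟨γ₁ * κ * γ₂ ^ n, ?_, ⟨-(γ₁ * c), ?_⟩, ⟨c, hc⟩⟩
  · -- `Θ ^ m = (κ γ₁ ^ m) (κ γ₂ ^ m) ^ n ≡ 1`
    have e : (γ₁ * κ * γ₂ ^ n) ^ (n + 1) = (κ * γ₁ ^ (n + 1)) * (κ * γ₂ ^ (n + 1)) ^ n := by ring
    have e1 : κ * γ₁ ^ (n + 1) = 1 + π * a := by linear_combination ha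
    have e2 : κ * γ₂ ^ (n + 1) = 1 + π * c := by linear_combination hc
    obtain ⟨d, hd⟩ : π ∣ (1 + π * c) ^ n - 1 := by
      have := sub_dvd_pow_sub_pow (1 + π * c) 1 n
      rw [one_pow] at this
      exact dvd_trans ⟨c, by ring⟩ this
    refine ⟨a * (1 + π * c) ^ n + d, ?_⟩
    rw [e, e1, e2]
    linear_combination hd
  · linear_combination (-γ₁) * hc

end Global

/-! ### Local part -/

section Local

variable {E F : Type*} [Field E] [Field F] [Algebra E F] [FiniteDimensional E F]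
  {C' C : Type*} [CommRing C'] [IsLocalRing C'] [CommRing C] [IsLocalRing C]
  {R : Type*} [CommRing R]

/-- **S5, the branch relation at a triple point in `GlobMult18`'s shape.**  The first block of
hypotheses is that of `BranchRel15.branch_relation`; then: `C` integral over `C'`, `C'` integrally closed
in `E`; a factorisation `u = ε f ^ m` with branch representatives `r_j`; `N u = κ G ^ m` with
`G ≡ γ_j`, `κ, γ_j` coming from a ring `R` (`ρ' : R → C'`), `γ₂` a unit, `π ∣ γ₁ - Θ γ₂` and `π ∈ 𝔪_C`. -/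
theorem branch_rel_at_point (q : ℕ) [Fact q.Prime] (hn : Module.finrank E F ≤ q)
    (O₁ O₂ O₃ : ValuationSubring F) (h12 : O₁ ≠ O₂)
    (hcomap₂ : O₁.comap (algebraMap E F) = O₂.comap (algebraMap E F))
    {t : F} (ht0 : t ≠ 0) (ht2 : O₂.valuation t < 1)
    (hram : ∀ a : E, (O₁.comap (algebraMap E F)).valuation a < 1 →
      O₂.valuation (algebraMap E F a) ≤ O₂.valuation t ^ (q - 1))
    (hqE : (O₃.comap (algebraMap E F)).valuation (q : E) < 1)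
    (b : Fin q → F) (hbO : ∀ i, b i ∈ O₃)
    (hb : ∀ a : Fin q → E, (∀ i, (O₃.comap (algebraMap E F)).valuation (a i) ≤ 1) →
      O₃.valuation (∑ i, algebraMap E F (a i) * b i) < 1 →
      ∀ i, (O₃.comap (algebraMap E F)).valuation (a i) < 1)
    (iC' : C' →+* E) (iC : C →+* F) (φ : C' →+* C)
    (hcomm : ∀ a : C', iC (φ a) = algebraMap E F (iC' a))
    (hC'1 : ∀ a : C', (O₁.comap (algebraMap E F)).valuation (iC' a) ≤ 1)
    (hC'2 : ∀ a : C', (O₃.comap (algebraMap E F)).valuation (iC' a) ≤ 1)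
    (hC1 : ∀ c : C, iC c ∈ O₁) (hC2 : ∀ c : C, iC c ∈ O₂) (hC3 : ∀ c : C, iC c ∈ O₃)
    (hm'1 : ∀ a : C', (O₁.comap (algebraMap E F)).valuation (iC' a) < 1 → a ∈ maximalIdeal C')
    (hm'2 : ∀ a : C', (O₃.comap (algebraMap E F)).valuation (iC' a) < 1 → a ∈ maximalIdeal C')
    (hloc : ∀ a : C', a ∈ maximalIdeal C' → φ a ∈ maximalIdeal C)
    (hm1 : ∀ c : C, O₁.valuation (iC c) < 1 → c ∈ maximalIdeal C)
    (hm2 : ∀ c : C, O₂.valuation (iC c) < 1 → c ∈ maximalIdeal C)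
    (hm3 : ∀ c : C, O₃.valuation (iC c) < 1 → c ∈ maximalIdeal C)
    (hS1 : ∀ e : C, ∃ a : C', O₁.valuation (iC e - algebraMap E F (iC' a)) < 1)
    (hS2 : ∀ e : C, ∃ a : C', O₂.valuation (iC e - algebraMap E F (iC' a)) < 1)
    (hS3 : ∀ e : C, ∃ a : C', O₃.valuation (iC e ^ q - algebraMap E F (iC' a)) < 1)
    (hint : φ.IsIntegral) (hic : ∀ x : E, iC'.IsIntegralElem x → ∃ a : C', iC' a = x)
    {m : ℕ} (hm : m ≠ 0) {u f : F} (ε : Cˣ) (huf : u = iC (ε : C) * f ^ m)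
    {r₁ r₂ r₃ : C}
    (hr1 : O₁.valuation (f - iC r₁) < 1) (hr2 : O₂.valuation (f - iC r₂) < 1)
    (hr3 : O₃.valuation (f - iC r₃) < 1)
    (ρ' : R →+* C') {G : E} (hG : G ≠ 0) {κ γ₁ γ₂ Θ π : R}
    (hN : Algebra.norm E u = iC' (ρ' κ) * G ^ m)
    (hG1 : (O₁.comap (algebraMap E F)).valuation (G - iC' (ρ' γ₁)) < 1)
    (hG2 : (O₃.comap (algebraMap E F)).valuation (G - iC' (ρ' γ₂)) < 1)
    (hγ₂ : IsUnit γ₂) (hΘ : π ∣ γ₁ - Θ * γ₂) (hπ : φ (ρ' π) ∈ maximalIdeal C) :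
    r₁ * r₂ ^ (q - 1) - φ (ρ' Θ) * r₃ ^ q ∈ maximalIdeal C := by
  obtain ⟨Γ, hΓ⟩ := exists_Gamma iC' iC φ hcomm hint hic hm ε huf hG (ρ' κ) hN
  have hrel := branch_relation q hn O₁ O₂ O₃ h12 hcomap₂ ht0 ht2 hram hqE b hbO hb iC' iC φ hcomm
    hC'1 hC'2 hC1 hC2 hC3 hm'1 hm'2 hloc hm1 hm2 hm3 hS1 hS2 hS3 hr1 hr2 hr3 hG1 hG2 hΓ
  refine rel_of_branch_relation ((hγ₂.map ρ').map φ) hrel ?_
  obtain ⟨c, hc⟩ := hΘ
  have : φ (ρ' γ₁) - φ (ρ' Θ) * φ (ρ' γ₂) = φ (ρ' π) * φ (ρ' c) := by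
    rw [← map_mul, ← map_mul, ← map_sub, ← map_sub, hc, map_mul, map_mul]
  rw [this]
  exact Ideal.mul_mem_right _ _ hπ

end Local

end Fermat.Agent.ES.P36.BranchAsm15
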