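/-
Program P (S36), chapter (CL3) (helper13): the abstract Newton–Čech core for a two-chart model
whose special fibre has FINITELY MANY components, of ARBITRARY multiplicities.

`O : ι → ValuationSubring F` are the valuation rings of the generic points of the components of
the special fibre (the "vertical" valuations); `π` lies in the maximal ideal of each of them, with
no assumption on its valuation (for `X₀(q² M')` at `q`: `v₁(π) = 1`, `v₂(π) = q − 1`, `v₃(π) = 1`).

Contract `MultiChartModel` = `NodalCore13.NodalTwoChartModel` with the pair `O1, O2` replaced by the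
family, and WITHOUT the uniformiser fields (`1 + π c` is a unit of a valuation ring as soon as `π`
is a non-unit).  Saturation is w.r.t. `π · ⋂ᵢ Oᵢ` (true for a NORMAL chart whose vertical primes are
exactly the centres of the `Oᵢ`).  The local input of START is a HYPOTHESIS (`LocStartM`): at every
maximal ideal `𝔪 ∋ π` of a chart there is `g ∈ F` with `g ^ m * u ∈ (B)_𝔪` and, for each `i`,
either `g ≡ 1 mod π Oᵢ` or the component `i` does not pass through `𝔪`.

`multi_core_const`: if `u ≡ 1 mod π ⋂ᵢ Oᵢ` and the local starts exist, then `u = c⁻¹ · s ^ m` with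
`c ∈ K^×` (when `K` is algebraically closed in `F`).
Reuses `NewtonCech24.exists_global_root` (generic in the subring `Ov`), `Constants18`, and
`NodalCore13.exists_start_of_local` / `exists_multiplier`.
-/
import Mathlib
import Fermat.Agent.ES.N34.NodalCore13

set_option autoImplicit false

namespace Fermat.Agent.ES.P36.MultiCore13

open Polynomial Fermat.Agent.RED.CORE Fermat.Agent.ES.N34.NodalCore13

section Contract

variable (R F : Type*) [CommRing R] [Field F] [Algebra R F]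

/-- The multi-component two-chart model, as a list of elementary properties.
Compare `NodalCore13.NodalTwoChartModel`. -/
structure MultiChartModel (π : R) (t : F) (B0 B1 : Subalgebra R F) {ι : Type*}
    (O : ι → ValuationSubring F) : Prop where
  noethR : IsNoetherianRing R
  nonempty : Nonempty ι
  t_ne : t ≠ 0
  t_mem : t ∈ B0
  tinv_mem : t⁻¹ ∈ B1
  /-- the charts are integrally closed in `F` -/
  intcl0 : ∀ x : F, IsIntegral B0 x → x ∈ B0
  intcl1 : ∀ x : F, IsIntegral B1 x → x ∈ B1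
  /-- the charts are integral over `R[t]`, `R[t⁻¹]` -/
  int0 : ∀ x ∈ B0, IsIntegral (Algebra.adjoin R {t}) x
  int1 : ∀ x ∈ B1, IsIntegral (Algebra.adjoin R {t⁻¹}) x
  /-- `B0` is a finite `R[t]`-module -/
  fin0 : ∃ (r : ℕ) (e : Fin r → F), (∀ i, e i ∈ B0) ∧
    ∀ x ∈ B0, ∃ P : Fin r → R[X], x = ∑ i, aeval t (P i) * e i
  /-- overlap: `B0[1/t] = B1[t]` -/
  ov0 : ∀ x ∈ B1, ∃ k : ℕ, t ^ k * x ∈ B0
  ov1 : ∀ x ∈ B0, ∃ k : ℕ, t⁻¹ ^ k * x ∈ B1
  /-- the vertical valuation rings contain the charts, `t` is a unit, `π` a non-unit -/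
  le_O_0 : ∀ i, ∀ x ∈ B0, x ∈ O i
  le_O_1 : ∀ i, ∀ x ∈ B1, x ∈ O i
  tinv_mem_O : ∀ i, t⁻¹ ∈ O i
  pi_ne : algebraMap R F π ≠ 0
  pi_nonunit : ∀ i, (algebraMap R F π)⁻¹ ∉ O i
  /-- the valuations are of rank one -/
  arch : ∀ i, ∀ x : F, ∃ k : ℕ, algebraMap R F π ^ k * x ∈ O i
  /-- the charts are `π`-saturated in `⋂ᵢ Oᵢ` -/
  sat0 : ∀ b ∈ B0, ∀ c : F, (∀ i, c ∈ O i) → b = algebraMap R F π * c → c ∈ B0
  sat1 : ∀ b ∈ B1, ∀ c : F, (∀ i, c ∈ O i) → b = algebraMap R F π * c → c ∈ B1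

variable {R F}

/-- `x ∈ π ⋂ᵢ Oᵢ`. -/
def PiOM (π : R) {ι : Type*} (O : ι → ValuationSubring F) (x : F) : Prop :=
  ∃ c : F, (∀ i, c ∈ O i) ∧ x = algebraMap R F π * c

/-- The LOCAL START at a maximal ideal `𝔪` of the chart `B`: `g` with `g ^ m * u ∈ B_𝔪`
(denominator `d ∉ 𝔪`), and for each component `i` either `g ≡ 1 mod π Oᵢ` or the component
does not pass through `𝔪`. -/
def LocStartM (π : R) (B : Subalgebra R F) {ι : Type*} (O : ι → ValuationSubring F) (m : ℕ)
    (u : F) (𝔪 : Ideal B) : Prop :=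
  ∃ g : F, (∃ a d : B, d ∉ 𝔪 ∧ g ^ m * u * (d : F) = (a : F)) ∧
    ∀ i, (∃ c ∈ O i, g - 1 = algebraMap R F π * c) ∨ OffBranch π B (O i) 𝔪

end Contract

section OneChart

variable {R F : Type*} [CommRing R] [Field F] [Algebra R F]

/-- The intersection of the vertical valuation rings, as a subring. -/
def interO {ι : Type*} (O : ι → ValuationSubring F) : Subring F where
  carrier := {x | ∀ i, x ∈ O i}
  mul_mem' := fun ha hb i => (O i).mul_mem _ _ (ha i) (hb i)
  one_mem' := fun i => (O i).one_mem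
  add_mem' := fun ha hb i => (O i).add_mem _ _ (ha i) (hb i)
  zero_mem' := fun i => (O i).zero_mem
  neg_mem' := fun ha i => (O i).neg_mem _ (ha i)

theorem mem_interO {ι : Type*} (O : ι → ValuationSubring F) (x : F) :
    x ∈ interO O ↔ ∀ i, x ∈ O i := Iff.rfl

/-- **START on one chart**: from the local starts at all maximal ideals `𝔪 ∋ π`. -/
theorem start_chartM {ι : Type*} [Finite ι] (π : R) (B : Subalgebra R F)
    (O : ι → ValuationSubring F)
    (leO : ∀ i, ∀ x ∈ B, x ∈ O i)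
    (pi_ne : algebraMap R F π ≠ 0)
    (arch : ∀ i, ∀ x : F, ∃ k : ℕ, algebraMap R F π ^ k * x ∈ O i)
    {m : ℕ} (hm : 0 < m) (hroot : ∀ x : F, x ^ m ∈ B → x ∈ B) {u : F}
    (hloc : ∀ 𝔪 : Ideal B, 𝔪.IsMaximal → algebraMap R B π ∈ 𝔪 → LocStartM π B O m u 𝔪) :
    ∃ g : F, g ^ m * u ∈ B ∧ PiOM π O (g - 1) := by
  classical
  have := Fintype.ofFinite ι
  have key : ∀ y : F, y ∈ (algebraMap B F).range ↔ y ∈ B := by
    intro y
    constructor
    · rintro ⟨b, rfl⟩
      exact b.2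
    · intro hy
      exact ⟨⟨y, hy⟩, rfl⟩
  have hπ : algebraMap B F (algebraMap R B π) = algebraMap R F π := rfl
  obtain ⟨g, hg, o, ho, hgo⟩ := exists_start_of_local (B := B) (O := interO O)
    (π := algebraMap R B π) (fun b i => leO i b b.2) hm.ne'
    (fun y hy => (key y).mpr (hroot y ((key _).mp hy))) (u := u) (by
      intro 𝔪 h𝔪 hπ𝔪
      have h𝔪p : 𝔪.IsPrime := h𝔪.isPrime
      obtain ⟨g, ⟨a, d, hd, hgad⟩, hbr⟩ := hloc 𝔪 h𝔪 hπ𝔪
      have hmul : ∀ i, ∃ c : B, c ∉ 𝔪 ∧ ∃ o ∈ O i, (c : F) * (g - 1) = algebraMap R F π * o :=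
        fun i => exists_multiplier π B (O i) (arch i) 𝔪 (g - 1) (hbr i)
      choose c hc o ho hco using hmul
      obtain ⟨m', rfl⟩ : ∃ m', m = m' + 1 := ⟨m - 1, by omega⟩
      set C : B := ∏ i, c i with hC
      have hCnot : C ∉ 𝔪 := by
        intro h
        obtain ⟨i, -, hi⟩ := (h𝔪p.prod_mem_iff).mp h
        exact hc i hi
      have hCd : C * d ∉ 𝔪 := fun h => (h𝔪p.mem_or_mem h).elim hCnot hd
      refine ⟨((C * d : B) : F) * g, C * d, hCd, (key _).mpr ?_, ?_⟩
      · have : (((C * d : B) : F) * g) ^ (m' + 1) * u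
            = (C : F) ^ (m' + 1) * (d : F) ^ m' * (a : F) := by
          rw [← hgad]; push_cast; ring
        rw [this]
        exact B.mul_mem (B.mul_mem (B.pow_mem C.2 _) (B.pow_mem d.2 _)) a.2
      · -- `C d g - C d = C d (g - 1) ∈ π Oᵢ` for every `i`
        refine ⟨(C : F) * (d : F) * (g - 1) / algebraMap R F π, ?_, ?_⟩
        · intro i
          have hCi : C = c i * ∏ j ∈ Finset.univ.erase i, c j := by
            rw [hC, Finset.mul_prod_erase _ _ (Finset.mem_univ i)]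
          have : (C : F) * (d : F) * (g - 1) / algebraMap R F π
              = ((∏ j ∈ Finset.univ.erase i, c j : B) : F) * (d : F) * o i := by
            rw [hCi]
            push_cast
            field_simp
            have := hco i
            linear_combination
              ((∏ j ∈ Finset.univ.erase i, (c j : F)) * (d : F)) * this
          rw [this]
          exact (O i).mul_mem _ _
            ((O i).mul_mem _ _ (leO i _ (Subtype.coe_prop _)) (leO i _ d.2)) (ho i)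
        · rw [hπ]
          show ((C * d : B) : F) * g - ((C * d : B) : F) = _
          push_cast
          field_simp)
  exact ⟨g, (key _).mp hg, o, ho, by rw [← hπ]; exact hgo⟩

end OneChart

section Core

variable {R K F : Type*} [CommRing R] [Field K] [Field F] [Algebra R K] [Algebra K F]
  [Algebra R F] [IsScalarTower R K F]

/-- **The abstract multi-component core, chart form**: a global `m`-th root up to an element of
`B0 ⊓ B1`. -/
theorem multi_core_mem {ι : Type*} [Finite ι] (π : R) (t : F) (B0 B1 : Subalgebra R F)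
    (O : ι → ValuationSubring F)
    (M : MultiChartModel R F π t B0 B1 O) (m : ℕ) (hm : 0 < m) (minv : R)
    (hminv : (m : R) * minv = 1) (u : F) (hu1 : PiOM π O (u - 1))
    (hloc0 : ∀ 𝔪 : Ideal B0, 𝔪.IsMaximal → algebraMap R B0 π ∈ 𝔪 → LocStartM π B0 O m u 𝔪)
    (hloc1 : ∀ 𝔪 : Ideal B1, 𝔪.IsMaximal → algebraMap R B1 π ∈ 𝔪 → LocStartM π B1 O m u 𝔪) :
    ∃ s : F, s ≠ 0 ∧ s ^ m * u ∈ B0 ∧ s ^ m * u ∈ B1 ∧ PiOM π O (s - 1) := by
  have := M.noethR
  obtain ⟨i₀⟩ := M.nonempty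
  set p : F := algebraMap R F π with hp
  set Ov : Subring F := interO O with hOv
  have toO : ∀ {a : F}, PiOM π O a → ∃ c ∈ Ov, a = p * c := by
    rintro a ⟨c, h1, h⟩; exact ⟨c, h1, h⟩
  have ht0 := M.t_ne
  have htinv_pow : ∀ k : ℕ, t⁻¹ ^ k * t ^ k = 1 := fun k => by
    rw [← mul_pow, inv_mul_cancel₀ ht0, one_pow]
  set B01 := CoreB24.overlap t B0 M.t_mem with hB01
  have h0le : B0 ≤ B01 := fun x hx => ⟨0, by simpa using hx⟩
  have h1le : B1 ≤ B01 := fun x hx => M.ov0 x hx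
  have hroot0 := CoreB24.root_closed B0 M.intcl0 m hm
  have hroot1 := CoreB24.root_closed B1 M.intcl1 m hm
  have hroot01 : ∀ x : F, x ^ m ∈ B01 → x ∈ B01 := by
    rintro x ⟨k, hk⟩
    refine ⟨k, hroot0 _ ?_⟩
    obtain ⟨m', rfl⟩ : ∃ m', m = m' + 1 := ⟨m - 1, (Nat.sub_add_cancel hm).symm⟩
    have : (t ^ k * x) ^ (m' + 1) = (t ^ k) ^ m' * (t ^ k * x ^ (m' + 1)) := by ring
    rw [this]
    exact B0.mul_mem (B0.pow_mem (B0.pow_mem M.t_mem k) m') hk
  have hloc0' : ∀ x ∈ B01, ∃ k : ℕ, t ^ k * x ∈ B0 := fun x hx => hx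
  have hloc1' : ∀ x ∈ B01, ∃ k : ℕ, t⁻¹ ^ k * x ∈ B1 := by
    rintro x ⟨k, hk⟩
    obtain ⟨j, hj⟩ := M.ov1 _ hk
    refine ⟨j, ?_⟩
    have : t⁻¹ ^ j * x = t⁻¹ ^ k * (t⁻¹ ^ j * (t ^ k * x)) := by
      have h1 : t⁻¹ ^ k * (t⁻¹ ^ j * (t ^ k * x)) = (t⁻¹ ^ k * t ^ k) * (t⁻¹ ^ j * x) := by ring
      rw [h1, htinv_pow, one_mul]
    rw [this]
    exact B1.mul_mem (B1.pow_mem M.tinv_mem k) hj
  obtain ⟨r, e, he, hgen⟩ := M.fin0
  have hB01O : ∀ x ∈ B01, x ∈ Ov := by
    rintro x ⟨k, hk⟩ i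
    have : x = t⁻¹ ^ k * (t ^ k * x) := by rw [← mul_assoc, htinv_pow, one_mul]
    rw [this]
    exact (O i).mul_mem _ _ (pow_mem (M.tinv_mem_O i) k) (M.le_O_0 i _ hk)
  have hrootO : ∀ x : F, x ^ m ∈ Ov → x ∈ Ov := fun x hx i =>
    CoreB24.vs_root_closed (O i) m hm x (hx i)
  have hp0 : p ≠ 0 := M.pi_ne
  have hpnu : p⁻¹ ∉ Ov := fun h => M.pi_nonunit i₀ (h i₀)
  have hpO : ∀ i, p ∈ O i := fun i => M.le_O_0 i _ (B0.algebraMap_mem π)
  have hunit : ∀ c ∈ Ov, (1 + p * c)⁻¹ ∈ Ov := by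
    intro c hc i
    -- `1 + p c` or its inverse is in `O i`; in the second case we are done, in the first
    -- `(1 + p c)⁻¹ ∉ O i` would make `1 + p c` a non-unit, hence `1 = (1 + p c) - p c` a non-unit
    by_contra h
    have hmem : 1 + p * c ∈ O i :=
      (O i).add_mem _ _ (O i).one_mem ((O i).mul_mem _ _ (hpO i) (hc i))
    -- valuation argument
    have hv1 : (O i).valuation (1 + p * c) < 1 := by
      have hle := ((O i).valuation_le_one_iff _).mpr hmem
      rcases lt_or_eq_of_le hle with hlt | heq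
      · exact hlt
      · exfalso
        apply h
        have hne : 1 + p * c ≠ 0 := by
          intro h0
          rw [h0, map_zero] at heq
          exact zero_ne_one heq
        apply ((O i).valuation_le_one_iff _).mp
        rw [map_inv₀, heq, inv_one]
    have hv2 : (O i).valuation (p * c) < 1 := by
      have hpv : (O i).valuation p < 1 := by
        have hle := ((O i).valuation_le_one_iff _).mpr (hpO i)
        rcases lt_or_eq_of_le hle with hlt | heq
        · exact hlt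
        · exfalso
          apply M.pi_nonunit i
          apply ((O i).valuation_le_one_iff _).mp
          rw [map_inv₀, heq, inv_one]
      have hcv := ((O i).valuation_le_one_iff _).mpr (hc i)
      rw [map_mul]
      exact lt_of_le_of_lt (mul_le_of_le_one_right' hcv) hpv
    have : (O i).valuation (1 : F) < 1 := by
      have h1 : (1 : F) = (1 + p * c) - p * c := by ring
      rw [h1]
      exact lt_of_le_of_lt (Valuation.map_sub _ _ _) (max_lt hv1 hv2)
    rw [map_one] at this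
    exact lt_irrefl _ this
  have hsat0 : ∀ b ∈ B0, ∀ c ∈ Ov, b = p * c → c ∈ B0 := fun b hb c hc h =>
    M.sat0 b hb c hc h
  have hsat1 : ∀ b ∈ B1, ∀ c ∈ Ov, b = p * c → c ∈ B1 := fun b hb c hc h =>
    M.sat1 b hb c hc h
  have hsat01 : ∀ b ∈ B01, ∀ c ∈ Ov, b = p * c → c ∈ B01 := by
    rintro b ⟨k, hk⟩ c hc hbc
    refine ⟨k, hsat0 _ hk (t ^ k * c) ?_ ?_⟩
    · exact Ov.mul_mem (Ov.pow_mem (hB01O _ (h0le M.t_mem)) k) hc
    · rw [hbc]; ring
  -- START on both charts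
  obtain ⟨g0, hg0, hg0'⟩ := start_chartM π B0 O M.le_O_0 M.pi_ne M.arch hm hroot0 hloc0
  obtain ⟨g1, hg1, hg1'⟩ := start_chartM π B1 O M.le_O_1 M.pi_ne M.arch hm hroot1 hloc1
  obtain ⟨s, hs0, hsB0, hsB1, c, hc, hsc⟩ := NewtonCech24.exists_global_root π m hm minv hminv t ht0
    B0 B1 B01 h0le h1le M.t_mem M.tinv_mem hroot0 hroot1 hroot01 hloc0' hloc1' e he hgen
    Ov hB01O hrootO hpnu hunit hsat0 hsat1 hsat01 u (toO hu1)
    g0 g1 hg0 (toO hg0') hg1 (toO hg1')
  exact ⟨s, hs0, hsB0, hsB1, c, hc, hsc⟩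

/-- **The abstract multi-component core**: `s ^ m * u` is integral (algebraic) over `K`. -/
theorem multi_core {ι : Type*} [Finite ι] (π : R) (t : F) (B0 B1 : Subalgebra R F)
    (O : ι → ValuationSubring F)
    (M : MultiChartModel R F π t B0 B1 O) (m : ℕ) (hm : 0 < m) (minv : R)
    (hminv : (m : R) * minv = 1) (u : F) (hu1 : PiOM π O (u - 1))
    (hloc0 : ∀ 𝔪 : Ideal B0, 𝔪.IsMaximal → algebraMap R B0 π ∈ 𝔪 → LocStartM π B0 O m u 𝔪)
    (hloc1 : ∀ 𝔪 : Ideal B1, 𝔪.IsMaximal → algebraMap R B1 π ∈ 𝔪 → LocStartM π B1 O m u 𝔪) :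
    ∃ s : F, s ≠ 0 ∧ IsIntegral K (s ^ m * u) := by
  obtain ⟨s, hs0, hsB0, hsB1, -⟩ :=
    multi_core_mem π t B0 B1 O M m hm minv hminv u hu1 hloc0 hloc1
  exact ⟨s, hs0, isAlgebraic_iff_isIntegral.mp
    (Constants18.isAlgebraic_of_isIntegral_both (R₀ := R) t _ (M.int0 _ hsB0) (M.int1 _ hsB1))⟩

/-- Constant form: if `K` is algebraically closed in `F`, `u` is a constant times an `m`-th
power. -/
theorem multi_core_const {ι : Type*} [Finite ι] (π : R) (t : F) (B0 B1 : Subalgebra R F)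
    (O : ι → ValuationSubring F)
    (M : MultiChartModel R F π t B0 B1 O) (m : ℕ) (hm : 0 < m) (minv : R)
    (hminv : (m : R) * minv = 1) (u : F) (hu1 : PiOM π O (u - 1))
    (hloc0 : ∀ 𝔪 : Ideal B0, 𝔪.IsMaximal → algebraMap R B0 π ∈ 𝔪 → LocStartM π B0 O m u 𝔪)
    (hloc1 : ∀ 𝔪 : Ideal B1, 𝔪.IsMaximal → algebraMap R B1 π ∈ 𝔪 → LocStartM π B1 O m u 𝔪)
    (hKF : ∀ y : F, IsAlgebraic K y → ∃ c : K, algebraMap K F c = y) :
    ∃ s : F, s ≠ 0 ∧ ∃ c : K, c ≠ 0 ∧ s ^ m = algebraMap K F c * u := by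
  obtain ⟨s, hs0, hs⟩ := multi_core (K := K) π t B0 B1 O M m hm minv hminv u hu1 hloc0 hloc1
  obtain ⟨c, hc⟩ := hKF _ (isAlgebraic_iff_isIntegral.mpr hs)
  obtain ⟨i₀⟩ := M.nonempty
  have hu0 : u ≠ 0 := by
    rintro rfl
    obtain ⟨o, ho, h⟩ := hu1
    apply M.pi_nonunit i₀
    have hp0 := M.pi_ne
    have : (algebraMap R F π)⁻¹ = -o := by
      field_simp
      linear_combination -h
    rw [this]
    exact neg_mem (ho i₀)
  have hρ0 : s ^ m * u ≠ 0 := mul_ne_zero (pow_ne_zero m hs0) hu0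
  have hc0 : c ≠ 0 := by
    rintro rfl
    rw [map_zero] at hc
    exact hρ0 hc.symm
  refine ⟨s⁻¹, inv_ne_zero hs0, c⁻¹, inv_ne_zero hc0, ?_⟩
  rw [map_inv₀, hc, inv_pow]
  field_simp

end Core

end Fermat.Agent.ES.P36.MultiCore13
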