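/-
Program P (S36), chapter (CL3) (helper13): LOCAL START at a closed point lying on ONE component,
of ARBITRARY multiplicity, with a PRIME LOCAL EQUATION.

`B` a chart, `𝔪 ∋ π` a maximal ideal, `C := B_𝔪 ⊂ F` (`NodalSmooth13.locSub`).  Only the component
`i` passes through `𝔪` (witnesses `OffBranch π B (O j) 𝔪` for `j ≠ i`).  `x ∈ C` is a prime element
with `C ⧸ (x)` a principal ideal ring (a DVR: the local ring of the REDUCED component at the point)
and `O i = C_(x)` (`x` is a local equation of the reduced component; `π = unit · x ^ e`).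
Program H's local step `LocalStep15.local_step` and `LocalUFD15.ufd` are stated for an arbitrary
prime element of `C`, so they apply with `x` in place of `π`: from (U1') `u ≡ 1 mod x O_i` and (U2)
one gets `g` with `g ^ m * u ∈ C`, `g ≡ 1 mod x O_i`.  If `(1 + x c) ^ N ≡ 1 mod π O_i` for all
`c ∈ O_i` (`N = 1` when `e = 1`; `N = q` when `π = q` and `e ≤ q`), then `g ^ N` is a local start
for `u ^ N`.
-/
import Mathlib
import Fermat.Agent.RED.CORE.LocalStep15
import Fermat.Agent.RED.CORE.LocalUFD15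
import Fermat.Agent.ES.N34.NodalSmooth13
import Fermat.Agent.ES.P36.MultiCore13

set_option autoImplicit false

namespace Fermat.Agent.ES.P36.LocPrime13

open Fermat.Agent.RED.CORE Fermat.Agent.ES.N34.NodalCore13 Fermat.Agent.ES.N34.NodalSmooth13
  Fermat.Agent.ES.P36.MultiCore13

section Pow

variable {R F : Type*} [CommRing R] [Field F] [Algebra R F]

/-- The power hypothesis for `N = p` a prime number with `p ∈ π O` and `x ^ p ∈ π O`:
`(1 + x c) ^ p ≡ 1 mod π O`. -/
theorem pow_sub_one_mem (π : R) (O : ValuationSubring F) (x : F) (hx : x ∈ O) (p : ℕ)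
    (hp : p.Prime) (hpπ : ∃ a ∈ O, (p : F) = algebraMap R F π * a)
    (hxp : ∃ b ∈ O, x ^ p = algebraMap R F π * b) (c : F) (hc : c ∈ O) :
    ∃ c' ∈ O, (1 + x * c) ^ p - 1 = algebraMap R F π * c' := by
  obtain ⟨a, ha, hpa⟩ := hpπ
  obtain ⟨b, hb, hxb⟩ := hxp
  -- `(1 + y)^p = 1 + y^p + p * w`, `w ∈ O`
  have hy : x * c ∈ O := O.mul_mem _ _ hx hc
  obtain ⟨w, hw, hexp⟩ : ∃ w ∈ O, (1 + x * c) ^ p = 1 + (x * c) ^ p + (p : F) * w := by
    have h := add_pow (x * c) (1 : F) p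
    refine ⟨∑ k ∈ (Finset.range (p + 1)).filter (fun k => k ≠ 0 ∧ k ≠ p),
      (x * c) ^ k * ((p.choose k / p : ℕ) : F), ?_, ?_⟩
    · refine O.toSubring.sum_mem fun k _ => ?_
      exact O.mul_mem _ _ (pow_mem hy k) (natCast_mem O.toSubring _)
    · rw [add_comm (1 : F) (x * c), h]
      have hsplit : ∀ k ∈ Finset.range (p + 1),
          (x * c) ^ k * 1 ^ (p - k) * (p.choose k : F) =
          (if k = 0 then 1 else 0) + (if k = p then (x * c) ^ p else 0) +
          (if k ≠ 0 ∧ k ≠ p then (p : F) * ((x * c) ^ k * ((p.choose k / p : ℕ) : F)) else 0) := by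
        intro k hk
        have hk' : k ≤ p := Nat.lt_succ_iff.mp (Finset.mem_range.mp hk)
        by_cases h0 : k = 0
        · subst h0
          have hp0 : (0 : ℕ) ≠ p := hp.pos.ne
          simp [hp0]
        · by_cases hkp : k = p
          · subst hkp
            simp [h0]
          · have hdvd : p ∣ p.choose k :=
              hp.dvd_choose_self h0 (lt_of_le_of_ne hk' hkp)
            have hcast : (p.choose k : F) = (p : F) * ((p.choose k / p : ℕ) : F) := by
              rw [← Nat.cast_mul, Nat.mul_div_cancel' hdvd]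
            simp only [h0, hkp, if_false, ne_eq, not_false_eq_true, and_self, if_true, zero_add,
              one_pow, mul_one]
            rw [hcast]; ring
      rw [Finset.sum_congr rfl hsplit, Finset.sum_add_distrib, Finset.sum_add_distrib,
        Finset.sum_ite_eq', Finset.sum_ite_eq', ← Finset.sum_filter, Finset.mul_sum]
      simp
  refine ⟨c ^ p * b + a * w, O.add_mem _ _ (O.mul_mem _ _ (pow_mem hc p) hb) (O.mul_mem _ _ ha hw), ?_⟩
  rw [hexp, mul_pow, hxb, hpa]; ring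

end Pow

section Local

variable {R K F : Type*} [CommRing R] [Field K] [Field F] [Algebra R K] [Algebra K F]
  [Algebra R F] [IsScalarTower R K F]

omit [Algebra R K] [IsScalarTower R K F] in
/-- **LOCAL START at a point on one component with a prime local equation `x`.** -/
theorem locStartM_of_prime {ι : Type*} (π : R) (B : Subalgebra R F)
    (O : ι → ValuationSubring F) (i : ι)
    (noethB : IsNoetherianRing B)
    (frac : ∀ y : F, ∃ a ∈ B, ∃ b ∈ B, b ≠ 0 ∧ y * b = a)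
    (𝔪 : Ideal B) (h𝔪 : 𝔪.IsMaximal)
    (hoff : ∀ j, j ≠ i → OffBranch π B (O j) 𝔪)
    (x : ↥(@locSub R F _ _ _ B 𝔪 h𝔪.isPrime)) (hx : Prime x)
    (hpir : IsPrincipalIdealRing (↥(@locSub R F _ _ _ B 𝔪 h𝔪.isPrime) ⧸ Ideal.span {x}))
    (hC : ∀ c : ↥(@locSub R F _ _ _ B 𝔪 h𝔪.isPrime), (c : F) ∈ O i)
    (hinv : ∀ c : ↥(@locSub R F _ _ _ B 𝔪 h𝔪.isPrime), ¬ x ∣ c → ((c : F))⁻¹ ∈ O i)
    (hnu : ((x : F))⁻¹ ∉ O i)
    (hK : ∀ a : K, ∃ (c : ↥(@locSub R F _ _ _ B 𝔪 h𝔪.isPrime)) (n : ℕ),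
      algebraMap K F a * (x : F) ^ n = (c : F))
    (N : ℕ) (hN : ∀ c ∈ O i, ∃ c' ∈ O i, (1 + (x : F) * c) ^ N - 1 = algebraMap R F π * c')
    (m : ℕ) (hm : 0 < m) (u : F) (hu1 : ∃ c ∈ O i, u - 1 = (x : F) * c)
    (hu2 : ∀ v : AlgebraicCurve.Place K F, (m : ℤ) ∣ v.ord u) :
    LocStartM π B O m (u ^ N) 𝔪 := by
  classical
  have h𝔪p : 𝔪.IsPrime := h𝔪.isPrime
  have hnoethC : IsNoetherianRing ↥(locSub B 𝔪) := IsLocalization.isNoetherianRing 𝔪.primeCompl _ noethB
  have hfracC' : IsFractionRing ↥(locSub B 𝔪) F := by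
    refine IsFractionRing.of_field ↥(locSub B 𝔪) F fun z => ?_
    obtain ⟨a, ha, b, hb, hb0, hab⟩ := frac z
    refine ⟨⟨a, le_locSub B 𝔪 ha⟩, ⟨b, le_locSub B 𝔪 hb⟩, ?_⟩
    show z = a / b
    rw [eq_div_iff hb0, hab]
  have hdomC : IsDomain ↥(locSub B 𝔪) := inferInstance
  have hufd : UniqueFactorizationMonoid ↥(locSub B 𝔪) := LocalUFD15.ufd x hx
  have hdomQ : IsDomain (↥(locSub B 𝔪) ⧸ Ideal.span {x}) := by
    rw [Ideal.Quotient.isDomain_iff_prime, Ideal.span_singleton_prime hx.ne_zero]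
    exact hx
  have hicQ : IsIntegrallyClosed (↥(locSub B 𝔪) ⧸ Ideal.span {x}) := inferInstance
  obtain ⟨g, ⟨z, hgz⟩, c, hc, hgc⟩ :=
    LocalStep15.local_step (C := ↥(locSub B 𝔪)) (F := F) K hx (O i) hC hinv hnu hK m hm.ne' u hu1 hu2
  have hgz' : g ^ m * u = (z : F) := hgz
  have hgc' : g - 1 = (x : F) * c := hgc
  obtain ⟨c', hc', hgN⟩ := hN c hc
  obtain ⟨a, d, hd, had⟩ := (z ^ N).2
  refine ⟨g ^ N, ⟨a, d, hd, ?_⟩, fun j => ?_⟩
  · rw [← had]
    have : (g ^ N) ^ m * u ^ N = (g ^ m * u) ^ N := by ring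
    rw [this, hgz']
    push_cast
    rfl
  · by_cases hj : j = i
    · subst hj
      refine Or.inl ⟨c', hc', ?_⟩
      have : g = 1 + (x : F) * c := by linear_combination hgc'
      rw [this]
      exact hgN
    · exact Or.inr (hoff j hj)

end Local

end Fermat.Agent.ES.P36.LocPrime13
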