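/-
Program P (S36), chapter (CL3) (helper13): tools for the LOCAL STARTS of `MultiCore13`.

* `LocStartM.pow`  : a local start for `u` gives one for `u ^ k` (raise `g` to the `k`-th power);
  used to harmonise the exponents `N` of the different kinds of closed points.
* `locSat_of_offBranch` : LOCAL saturation at a closed point `𝔪` through which only the component
  `i` passes: `b ∈ B_𝔪`, `b = π c`, `c ∈ O i` ⇒ `c ∈ B_𝔪` (from the global saturation in `⋂ⱼ Oⱼ`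
  and the off-branch multipliers).
* `locStartM_of_smooth` : the port of `NodalSmooth13.locStart_of_smooth` to a finite family:
  a closed point on exactly ONE component, of multiplicity ONE (`π` a uniformiser of `O i`), at
  which the chart is smooth (`𝔪 B_𝔪 = (π, s)`).
-/
import Mathlib
import Fermat.Agent.RED.CORE.StartChart28
import Fermat.Agent.ES.N34.NodalSmooth13
import Fermat.Agent.ES.P36.MultiCore13

set_option autoImplicit false

namespace Fermat.Agent.ES.P36.LocTools13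

open Fermat.Agent.RED.CORE Fermat.Agent.ES.N34.NodalCore13 Fermat.Agent.ES.N34.NodalSmooth13
  Fermat.Agent.ES.P36.MultiCore13

section Pow

variable {R F : Type*} [CommRing R] [Field F] [Algebra R F]

/-- `(1 + π c) ^ k ≡ 1 mod π O`. -/
theorem pow_sub_one_mem_of_sub_one_mem (π : R) (O : ValuationSubring F)
    (hπ : algebraMap R F π ∈ O) {g : F}
    (hg : ∃ c ∈ O, g - 1 = algebraMap R F π * c) (k : ℕ) :
    ∃ c ∈ O, g ^ k - 1 = algebraMap R F π * c := by
  obtain ⟨c, hc, hgc⟩ := hg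
  have hgO : g ∈ O := by
    have : g = 1 + algebraMap R F π * c := by linear_combination hgc
    rw [this]
    exact O.add_mem _ _ O.one_mem (O.mul_mem _ _ hπ hc)
  induction k with
  | zero => exact ⟨0, O.zero_mem, by simp⟩
  | succ k ih =>
    obtain ⟨c', hc', h'⟩ := ih
    refine ⟨c' * g + c, O.add_mem _ _ (O.mul_mem _ _ hc' hgO) hc, ?_⟩
    have : g ^ (k + 1) - 1 = (g ^ k - 1) * g + (g - 1) := by ring
    rw [this, h', hgc]; ring

/-- A local start for `u` gives a local start for `u ^ k`. -/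
theorem LocStartM.pow {ι : Type*} {π : R} {B : Subalgebra R F} {O : ι → ValuationSubring F}
    (leO : ∀ i, ∀ x ∈ B, x ∈ O i) {m : ℕ} {u : F} {𝔪 : Ideal B} [h𝔪 : 𝔪.IsPrime]
    (h : LocStartM π B O m u 𝔪) (k : ℕ) : LocStartM π B O m (u ^ k) 𝔪 := by
  obtain ⟨g, ⟨a, d, hd, had⟩, hbr⟩ := h
  refine ⟨g ^ k, ⟨a ^ k, d ^ k, fun hh => hd (h𝔪.mem_of_pow_mem _ hh), ?_⟩, fun i => ?_⟩
  · push_cast
    rw [← had]; ring
  · rcases hbr i with hi | hi
    · exact Or.inl (pow_sub_one_mem_of_sub_one_mem π (O i) (leO i _ (B.algebraMap_mem π)) hi k)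
    · exact Or.inr hi

end Pow

section Sat

variable {R F : Type*} [CommRing R] [Field F] [Algebra R F]

/-- **Local saturation** at a closed point through which only the component `i` passes. -/
theorem locSat_of_offBranch {ι : Type*} [Finite ι] (π : R) (B : Subalgebra R F)
    (O : ι → ValuationSubring F) (i : ι)
    (leO : ∀ j, ∀ x ∈ B, x ∈ O j)
    (arch : ∀ j, ∀ x : F, ∃ k : ℕ, algebraMap R F π ^ k * x ∈ O j)
    (sat : ∀ b ∈ B, ∀ c : F, (∀ j, c ∈ O j) → b = algebraMap R F π * c → c ∈ B)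
    (𝔪 : Ideal B) [h𝔪 : 𝔪.IsPrime]
    (hoff : ∀ j, j ≠ i → OffBranch π B (O j) 𝔪)
    (b : F) (hb : b ∈ locSub B 𝔪) (c : F) (hc : c ∈ O i) (hbc : b = algebraMap R F π * c) :
    c ∈ locSub B 𝔪 := by
  classical
  have := Fintype.ofFinite ι
  obtain ⟨a, d, hd, had⟩ := hb
  set p : F := algebraMap R F π with hp
  -- multipliers `E j ∉ 𝔪` with `E j * (c d) ∈ O j`
  have hmul : ∀ j, ∃ E : B, E ∉ 𝔪 ∧ (E : F) * (c * (d : F)) ∈ O j := by
    intro j
    by_cases hj : j = i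
    · subst hj
      exact ⟨1, fun h1 => h𝔪.ne_top ((Ideal.eq_top_iff_one 𝔪).mpr h1), by
        simpa using (O j).mul_mem _ _ hc (leO j _ d.2)⟩
    · exact exists_multiplier_mem π B (O j) (arch j) 𝔪 _ (Or.inr (hoff j hj))
  choose E hE hEO using hmul
  set P : B := ∏ j, E j with hP
  have hPnot : P ∉ 𝔪 := by
    intro h
    obtain ⟨j, -, hj⟩ := (h𝔪.prod_mem_iff).mp h
    exact hE j hj
  have hmem : c * (d : F) * (P : F) ∈ B := by
    refine sat ((P : F) * (a : F)) (B.mul_mem P.2 a.2) _ (fun j => ?_) ?_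
    · have hPj : P = E j * ∏ l ∈ Finset.univ.erase j, E l := by
        rw [hP, Finset.mul_prod_erase _ _ (Finset.mem_univ j)]
      have : c * (d : F) * (P : F)
          = ((∏ l ∈ Finset.univ.erase j, E l : B) : F) * ((E j : F) * (c * (d : F))) := by
        rw [hPj]; push_cast; ring
      rw [this]
      exact (O j).mul_mem _ _ (leO j _ (Subtype.coe_prop _)) (hEO j)
    · rw [← had, hbc]; ring
  exact ⟨⟨_, hmem⟩, d * P, fun hh => (h𝔪.mem_or_mem hh).elim hd hPnot, by push_cast; ring⟩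

end Sat

section Smooth

variable {R K F : Type*} [CommRing R] [Field K] [Field F] [Algebra R K] [Algebra K F]
  [Algebra R F] [IsScalarTower R K F]

/-- **START at a smooth point on ONE component of multiplicity ONE.** -/
theorem locStartM_of_smooth {ι : Type*} [Finite ι] (π : R) (B : Subalgebra R F)
    (O : ι → ValuationSubring F) (i : ι)
    (noethB : IsNoetherianRing B) (fracR : IsFractionRing R K)
    (dvrR : ∀ r : R, r ≠ 0 → ∃ (k : ℕ) (v : Rˣ), r = π ^ k * v)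
    (intcl : ∀ x : F, IsIntegral B x → x ∈ B)
    (frac : ∀ x : F, ∃ a ∈ B, ∃ b ∈ B, b ≠ 0 ∧ x * b = a)
    (leO : ∀ j, ∀ x ∈ B, x ∈ O j)
    (pi_ne : algebraMap R F π ≠ 0) (pi_nonunit : (algebraMap R F π)⁻¹ ∉ O i)
    (unif : ∀ x ∈ O i, x⁻¹ ∉ O i → ∃ c ∈ O i, x = algebraMap R F π * c)
    (arch : ∀ j, ∀ x : F, ∃ k : ℕ, algebraMap R F π ^ k * x ∈ O j)
    (sat : ∀ b ∈ B, ∀ c : F, (∀ j, c ∈ O j) → b = algebraMap R F π * c → c ∈ B)
    (𝔪 : Ideal B) (h𝔪 : 𝔪.IsMaximal)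
    (hon : ∀ b : B, (∃ c ∈ O i, (b : F) = algebraMap R F π * c) → b ∈ 𝔪)
    (hoff : ∀ j, j ≠ i → OffBranch π B (O j) 𝔪)
    (hsm : ∃ s ∈ 𝔪, ∀ y ∈ 𝔪, ∃ d : B, d ∉ 𝔪 ∧ d * y ∈ Ideal.span {algebraMap R B π, s})
    (m : ℕ) (hm : 0 < m) (u : F) (hu1 : ∃ c ∈ O i, u - 1 = algebraMap R F π * c)
    (hu2 : ∀ v : AlgebraicCurve.Place K F, (m : ℤ) ∣ v.ord u) :
    LocStartM π B O m u 𝔪 := by
  classical
  have h𝔪p : 𝔪.IsPrime := h𝔪.isPrime
  set p : F := algebraMap R F π with hp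
  have hdomB : IsDomain ↥B := inferInstance
  -- `d ∉ 𝔪` is a unit of `O i`
  have hinvO : ∀ d : B, d ∉ 𝔪 → ((d : F))⁻¹ ∈ O i := by
    intro d hd
    by_contra hcon
    obtain ⟨c, hc, hdc⟩ := unif _ (leO i _ d.2) hcon
    exact hd (hon d ⟨c, hc, hdc⟩)
  -- `C ⊆ O i`
  have hCO : ∀ x ∈ locSub B 𝔪, x ∈ O i := by
    rintro x ⟨a, d, hd, h⟩
    have hd0 := coe_ne_zero_of_notMem B 𝔪 hd
    have : x = (a : F) * (d : F)⁻¹ := by rw [← h]; field_simp
    rw [this]
    exact (O i).mul_mem _ _ (leO i _ a.2) (hinvO d hd)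
  -- local saturation
  have hsatC : ∀ b ∈ locSub B 𝔪, ∀ c ∈ O i, b = p * c → c ∈ locSub B 𝔪 :=
    fun b hb c hc hbc => locSat_of_offBranch π B O i leO arch sat 𝔪 hoff b hb c hc hbc
  -- `C` noetherian, integrally closed
  have hnoethC : IsNoetherianRing ↥(locSub B 𝔪) :=
    IsLocalization.isNoetherianRing 𝔪.primeCompl _ noethB
  have hfracC : ∀ x : F, ∃ a ∈ locSub B 𝔪, ∃ b ∈ locSub B 𝔪, b ≠ 0 ∧ x * b = a := by
    intro x
    obtain ⟨a, ha, b, hb, hb0, hab⟩ := frac x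
    exact ⟨a, le_locSub B 𝔪 ha, b, le_locSub B 𝔪 hb, hb0, hab⟩
  have hfracB : IsFractionRing ↥B F := by
    refine IsFractionRing.of_field ↥B F fun z => ?_
    obtain ⟨a, ha, b, hb, hb0, hab⟩ := frac z
    refine ⟨⟨a, ha⟩, ⟨b, hb⟩, ?_⟩
    show z = a / b
    rw [eq_div_iff hb0, hab]
  have hfracC' : IsFractionRing ↥(locSub B 𝔪) F := by
    refine IsFractionRing.of_field ↥(locSub B 𝔪) F fun z => ?_
    obtain ⟨a, ha, b, hb, hb0, hab⟩ := hfracC z
    refine ⟨⟨a, ha⟩, ⟨b, hb⟩, ?_⟩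
    show z = a / b
    rw [eq_div_iff hb0, hab]
  have hicB : IsIntegrallyClosed ↥B := by
    refine (isIntegrallyClosed_iff F).mpr fun {x} hx => ?_
    exact ⟨⟨x, intcl x hx⟩, rfl⟩
  have hicC : IsIntegrallyClosed ↥(locSub B 𝔪) :=
    isIntegrallyClosed_of_isLocalization ↥(locSub B 𝔪) 𝔪.primeCompl
      𝔪.primeCompl_le_nonZeroDivisors
  have hintclC : ∀ x : F, IsIntegral ↥(locSub B 𝔪) x → x ∈ locSub B 𝔪 := by
    intro x hx
    obtain ⟨y, hy⟩ := (isIntegrallyClosed_iff F).mp hicC hx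
    rw [← hy]; exact y.2
  -- smoothness of `C`
  have hsmC : ∀ x : Ideal ↥(locSub B 𝔪), x.IsMaximal → algebraMap R ↥(locSub B 𝔪) π ∈ x →
      ∃ s ∈ x, ∀ y ∈ x, ∃ d : ↥(locSub B 𝔪), d ∉ x ∧
        d * y ∈ Ideal.span {algebraMap R ↥(locSub B 𝔪) π, s} := by
    intro x hx _
    obtain ⟨s, hs, hgen⟩ := hsm
    have hxmax : x = IsLocalRing.maximalIdeal ↥(locSub B 𝔪) := IsLocalRing.eq_maximalIdeal hx
    refine ⟨algebraMap ↥B ↥(locSub B 𝔪) s, ?_, ?_⟩
    · rw [hxmax, IsLocalRing.mem_maximalIdeal, mem_nonunits_iff]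
      exact not_isUnit_of_mem B 𝔪 hs
    · intro y hy
      have hynu : ¬ IsUnit y := by
        rw [hxmax, IsLocalRing.mem_maximalIdeal, mem_nonunits_iff] at hy
        exact hy
      obtain ⟨a, d, hd, had⟩ := y.2
      have ha𝔪 : a ∈ 𝔪 := num_mem_of_not_isUnit B 𝔪 hynu hd had
      obtain ⟨d', hd', hspan⟩ := hgen a ha𝔪
      obtain ⟨b₁, b₂, hb⟩ := Ideal.mem_span_pair.mp hspan
      have hd0 := coe_ne_zero_of_notMem B 𝔪 hd
      refine ⟨algebraMap ↥B ↥(locSub B 𝔪) d', ?_, ?_⟩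
      · rw [hxmax, IsLocalRing.mem_maximalIdeal, mem_nonunits_iff, not_not]
        exact (IsLocalization.AtPrime.isUnit_to_map_iff ↥(locSub B 𝔪) 𝔪 d').mpr hd'
      · rw [Ideal.mem_span_pair]
        refine ⟨⟨(b₁ : F) * (d : F)⁻¹, (locSub B 𝔪).mul_mem (le_locSub B 𝔪 b₁.2)
          (inv_mem_locSub B 𝔪 hd)⟩, ⟨(b₂ : F) * (d : F)⁻¹, (locSub B 𝔪).mul_mem
          (le_locSub B 𝔪 b₂.2) (inv_mem_locSub B 𝔪 hd)⟩, ?_⟩
        apply Subtype.ext
        show (b₁ : F) * (d : F)⁻¹ * p + (b₂ : F) * (d : F)⁻¹ * (s : F) = (d' : F) * (y : F)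
        have hbF : (b₁ : F) * p + (b₂ : F) * (s : F) = (d' : F) * (a : F) := by
          have := congrArg (Subtype.val) hb
          simpa using this
        have hyF : (y : F) = (a : F) * (d : F)⁻¹ := by rw [← had]; field_simp
        rw [hyF]
        field_simp
        linear_combination hbF
  -- Program H's START on the chart `C`
  obtain ⟨g, hgC, c, hc, hgc⟩ := StartChart28.start_chart (R := R) (K := K) (F := F) π
    (locSub B 𝔪) (O i) hnoethC fracR dvrR hintclC hfracC hCO pi_ne pi_nonunit unif hsatC hsmC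
    m hm u hu1 hu2
  obtain ⟨a, d, hd, had⟩ := hgC
  refine ⟨g, ⟨a, d, hd, had⟩, fun j => ?_⟩
  by_cases hj : j = i
  · subst hj
    exact Or.inl ⟨c, hc, hgc⟩
  · exact Or.inr (hoff j hj)

end Smooth

end Fermat.Agent.ES.P36.LocTools13
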