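/-
Program P (S36), chapter (CL3) (helper13): LOCAL START at a closed point on ONE component of
multiplicity `e ≥ 1`, in SUPPLIER form.

Data at the maximal ideal `𝔪 ∋ π` of the chart `B`: only the component `i` passes through `𝔪`;
`x, s ∈ 𝔪` with `𝔪 B_𝔪 = (x, s)`; `x` is a uniformiser of `O i`; `π = w · x ^ e` with `w` a unit of
`B_𝔪`.  Then `x` is a prime element of `B_𝔪`, `B_𝔪 ⧸ (x)` is a principal ideal domain, `O i = (B_𝔪)_(x)`
and `K ⊂ B_𝔪[1/x]`, so `LocPrime13.locStartM_of_prime` applies: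
(U1') `u ≡ 1 mod x O_i` + (U2) + the power hypothesis `(1 + x c) ^ N ≡ 1 mod π O_i`  ⊢
`LocStartM π B O m (u ^ N) 𝔪`.
-/
import Mathlib
import Fermat.Agent.ES.P36.LocPrime13
import Fermat.Agent.ES.P36.LocTools13

set_option autoImplicit false

namespace Fermat.Agent.ES.P36.LocBranch13

open Fermat.Agent.RED.CORE Fermat.Agent.ES.N34.NodalCore13 Fermat.Agent.ES.N34.NodalSmooth13
  Fermat.Agent.ES.P36.MultiCore13 Fermat.Agent.ES.P36.LocTools13

section Generic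

variable {C : Type*} [CommRing C] [IsDomain C] [IsNoetherianRing C] [IsLocalRing C]

omit [IsDomain C] in
/-- A noetherian local domain `C` with `𝔪_C = (x, s)`, `x` prime: `C ⧸ (x)` is a principal ideal
ring (a DVR or a field). -/
theorem isPrincipalIdealRing_quot_of_span_pair (x s : C) (hx : Prime x)
    (hmax : IsLocalRing.maximalIdeal C = Ideal.span {x, s}) :
    IsPrincipalIdealRing (C ⧸ Ideal.span {x}) := by
  have : IsDomain (C ⧸ Ideal.span {x}) := by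
    rw [Ideal.Quotient.isDomain_iff_prime, Ideal.span_singleton_prime hx.ne_zero]
    exact hx
  have hqs : Function.Surjective (Ideal.Quotient.mk (Ideal.span {x})) :=
    Ideal.Quotient.mk_surjective
  have : Nontrivial (C ⧸ Ideal.span {x}) := IsDomain.toNontrivial
  have : IsLocalRing (C ⧸ Ideal.span {x}) := IsLocalRing.of_surjective' _ hqs
  have hxm : x ∈ IsLocalRing.maximalIdeal C := by
    rw [hmax]; exact Ideal.subset_span (by simp)
  refine ((tfae_of_isNoetherianRing_of_isLocalRing_of_isDomain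
    (C ⧸ Ideal.span {x})).out 4 0).mp ?_
  refine ⟨⟨Ideal.Quotient.mk _ s, ?_⟩⟩
  have hmap : IsLocalRing.maximalIdeal (C ⧸ Ideal.span {x}) =
      (IsLocalRing.maximalIdeal C).map (Ideal.Quotient.mk (Ideal.span {x})) := by
    rcases Ideal.map_eq_top_or_isMaximal_of_surjective _ hqs
      (IsLocalRing.maximalIdeal.isMaximal C) with htop | hmax'
    · exfalso
      have h1 : (1 : C ⧸ Ideal.span {x}) ∈
          (IsLocalRing.maximalIdeal C).map (Ideal.Quotient.mk (Ideal.span {x})) := by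
        rw [htop]; trivial
      obtain ⟨y, hy, hy1⟩ := (Ideal.mem_map_iff_of_surjective _ hqs).mp h1
      have hker : y - 1 ∈ Ideal.span {x} :=
        Ideal.Quotient.eq.mp (hy1.trans (RingHom.map_one _).symm)
      have hle : Ideal.span {x} ≤ IsLocalRing.maximalIdeal C :=
        (Ideal.span_singleton_le_iff_mem _).mpr hxm
      have h1m : (1 : C) ∈ IsLocalRing.maximalIdeal C := by
        have := Ideal.sub_mem _ hy (hle hker)
        rwa [sub_sub_cancel] at this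
      exact (IsLocalRing.maximalIdeal.isMaximal C).ne_top ((Ideal.eq_top_iff_one _).mpr h1m)
    · exact (IsLocalRing.eq_maximalIdeal hmax').symm
  show (IsLocalRing.maximalIdeal (C ⧸ Ideal.span {x}) : Submodule _ _) = Submodule.span _ {_}
  rw [hmap, hmax, Ideal.map_span, Set.image_pair]
  have h0 : Ideal.Quotient.mk (Ideal.span {x}) x = 0 :=
    Ideal.Quotient.eq_zero_iff_mem.mpr (Ideal.mem_span_singleton_self _)
  rw [h0]
  apply le_antisymm
  · rw [Ideal.span_le]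
    rintro y (rfl | rfl)
    · exact Ideal.zero_mem _
    · exact Ideal.subset_span rfl
  · apply Ideal.span_mono
    intro y hy
    right; exact hy

end Generic

section Branch

variable {R K F : Type*} [CommRing R] [Field K] [Field F] [Algebra R K] [Algebra K F]
  [Algebra R F] [IsScalarTower R K F]

/-- **LOCAL START at a point on one component of multiplicity `e`, supplier form.** -/
theorem locStartM_of_branchEq {ι : Type*} [Finite ι] (π : R) (B : Subalgebra R F)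
    (O : ι → ValuationSubring F) (i : ι)
    (noethB : IsNoetherianRing B) (fracR : IsFractionRing R K)
    (dvrR : ∀ r : R, r ≠ 0 → ∃ (k : ℕ) (v : Rˣ), r = π ^ k * v)
    (frac : ∀ y : F, ∃ a ∈ B, ∃ b ∈ B, b ≠ 0 ∧ y * b = a)
    (leO : ∀ j, ∀ y ∈ B, y ∈ O j)
    (arch : ∀ j, ∀ y : F, ∃ k : ℕ, algebraMap R F π ^ k * y ∈ O j)
    (sat : ∀ b ∈ B, ∀ c : F, (∀ j, c ∈ O j) → b = algebraMap R F π * c → c ∈ B)
    (𝔪 : Ideal B) (h𝔪 : 𝔪.IsMaximal)
    (hoff : ∀ j, j ≠ i → OffBranch π B (O j) 𝔪)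
    (x s : B) (hx𝔪 : x ∈ 𝔪) (hs𝔪 : s ∈ 𝔪)
    (hgen : ∀ y ∈ 𝔪, ∃ d : B, d ∉ 𝔪 ∧ d * y ∈ Ideal.span {x, s})
    (unifx : ∀ y ∈ O i, y⁻¹ ∉ O i → ∃ c ∈ O i, y = (x : F) * c)
    (xnu : ((x : F))⁻¹ ∉ O i)
    (hon : ∀ b : B, (∃ c ∈ O i, (b : F) = (x : F) * c) → b ∈ 𝔪)
    (e : ℕ) (he : 0 < e)
    (hπx : ∃ w w' : F, w ∈ @locSub R F _ _ _ B 𝔪 h𝔪.isPrime ∧
      w' ∈ @locSub R F _ _ _ B 𝔪 h𝔪.isPrime ∧ w * w' = 1 ∧ algebraMap R F π = w * (x : F) ^ e)
    (N : ℕ) (hN : ∀ c ∈ O i, ∃ c' ∈ O i, (1 + (x : F) * c) ^ N - 1 = algebraMap R F π * c')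
    (m : ℕ) (hm : 0 < m) (u : F) (hu1 : ∃ c ∈ O i, u - 1 = (x : F) * c)
    (hu2 : ∀ v : AlgebraicCurve.Place K F, (m : ℤ) ∣ v.ord u) :
    LocStartM π B O m (u ^ N) 𝔪 := by
  classical
  have h𝔪p : 𝔪.IsPrime := h𝔪.isPrime
  set p : F := algebraMap R F π with hp
  obtain ⟨w, w', hw, hw', hww', hπw⟩ := hπx
  have hx0 : (x : F) ≠ 0 := by
    intro h0
    apply xnu
    rw [h0, inv_zero]
    exact (O i).zero_mem
  -- `d ∉ 𝔪` is a unit of `O i`
  have hinvO : ∀ d : B, d ∉ 𝔪 → ((d : F))⁻¹ ∈ O i := by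
    intro d hd
    by_contra hcon
    obtain ⟨c, hc, hdc⟩ := unifx _ (leO i _ d.2) hcon
    exact hd (hon d ⟨c, hc, hdc⟩)
  -- `C ⊆ O i`
  have hCO : ∀ y ∈ locSub B 𝔪, y ∈ O i := by
    rintro y ⟨a, d, hd, h⟩
    have hd0 := coe_ne_zero_of_notMem B 𝔪 hd
    have : y = (a : F) * (d : F)⁻¹ := by rw [← h]; field_simp
    rw [this]
    exact (O i).mul_mem _ _ (leO i _ a.2) (hinvO d hd)
  -- local `π`-saturation, then `x`-saturation
  have hsatC : ∀ b ∈ locSub B 𝔪, ∀ c ∈ O i, b = p * c → c ∈ locSub B 𝔪 :=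
    fun b hb c hc hbc => locSat_of_offBranch π B O i leO arch sat 𝔪 hoff b hb c hc hbc
  have hxC : (x : F) ∈ locSub B 𝔪 := le_locSub B 𝔪 x.2
  have hsatx : ∀ b ∈ locSub B 𝔪, ∀ c ∈ O i, b = (x : F) * c → c ∈ locSub B 𝔪 := by
    intro b hb c hc hbc
    obtain ⟨e', rfl⟩ : ∃ e', e = e' + 1 := ⟨e - 1, by omega⟩
    refine hsatC (w * (x : F) ^ e' * b)
      ((locSub B 𝔪).mul_mem ((locSub B 𝔪).mul_mem hw ((locSub B 𝔪).pow_mem hxC _)) hb) c hc ?_
    rw [hbc, hπw]; ring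
  -- `x` as an element of `C`, prime
  set xC : ↥(locSub B 𝔪) := ⟨(x : F), hxC⟩ with hxCdef
  have hxC0 : xC ≠ 0 := fun h => hx0 (congrArg Subtype.val h)
  have hdvd_iff : ∀ c : ↥(locSub B 𝔪), xC ∣ c ↔ ∃ o ∈ O i, (c : F) = (x : F) * o := by
    intro c
    constructor
    · rintro ⟨c', rfl⟩
      exact ⟨(c' : F), hCO _ c'.2, rfl⟩
    · rintro ⟨o, ho, hco⟩
      exact ⟨⟨o, hsatx _ c.2 o ho hco⟩, Subtype.ext hco⟩
  have hxprime : Prime xC := by
    refine ⟨hxC0, ?_, ?_⟩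
    · intro hu
      obtain ⟨v, hv⟩ := hu.exists_right_inv
      apply xnu
      have : ((x : F))⁻¹ = (v : F) := by
        have h1 : (x : F) * (v : F) = 1 := congrArg Subtype.val hv
        exact inv_eq_of_mul_eq_one_right h1
      rw [this]
      exact hCO _ v.2
    · intro a b hab
      obtain ⟨o, ho, habo⟩ := (hdvd_iff _).mp hab
      have habF : (a : F) * (b : F) = (x : F) * o := habo
      by_cases ha : ((a : F))⁻¹ ∈ O i
      · by_cases ha0 : (a : F) = 0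
        · left
          exact (hdvd_iff _).mpr ⟨0, (O i).zero_mem, by rw [ha0, mul_zero]⟩
        · right
          refine (hdvd_iff _).mpr ⟨o * (a : F)⁻¹, (O i).mul_mem _ _ ho ha, ?_⟩
          field_simp
          linear_combination habF
      · left
        obtain ⟨c', hc', hac'⟩ := unifx _ (hCO _ a.2) ha
        exact (hdvd_iff _).mpr ⟨c', hc', hac'⟩
  -- `𝔪_C = (x, s)`
  have hnoethC : IsNoetherianRing ↥(locSub B 𝔪) :=
    IsLocalization.isNoetherianRing 𝔪.primeCompl _ noethB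
  set sC : ↥(locSub B 𝔪) := ⟨(s : F), le_locSub B 𝔪 s.2⟩ with hsCdef
  have hxCalg : xC = algebraMap ↥B ↥(locSub B 𝔪) x := rfl
  have hsCalg : sC = algebraMap ↥B ↥(locSub B 𝔪) s := rfl
  have hmax : IsLocalRing.maximalIdeal ↥(locSub B 𝔪) = Ideal.span {xC, sC} := by
    apply le_antisymm
    · intro y hy
      have hynu : ¬ IsUnit y := by
        rwa [IsLocalRing.mem_maximalIdeal, mem_nonunits_iff] at hy
      obtain ⟨a, d, hd, had⟩ := y.2
      have ha𝔪 : a ∈ 𝔪 := num_mem_of_not_isUnit B 𝔪 hynu hd had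
      obtain ⟨d', hd', hspan⟩ := hgen a ha𝔪
      obtain ⟨b₁, b₂, hb⟩ := Ideal.mem_span_pair.mp hspan
      have hd0 := coe_ne_zero_of_notMem B 𝔪 hd
      have hd'0 := coe_ne_zero_of_notMem B 𝔪 hd'
      rw [Ideal.mem_span_pair]
      refine ⟨⟨(b₁ : F) * ((d : F)⁻¹ * (d' : F)⁻¹), (locSub B 𝔪).mul_mem (le_locSub B 𝔪 b₁.2)
        ((locSub B 𝔪).mul_mem (inv_mem_locSub B 𝔪 hd) (inv_mem_locSub B 𝔪 hd'))⟩,
        ⟨(b₂ : F) * ((d : F)⁻¹ * (d' : F)⁻¹), (locSub B 𝔪).mul_mem (le_locSub B 𝔪 b₂.2)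
        ((locSub B 𝔪).mul_mem (inv_mem_locSub B 𝔪 hd) (inv_mem_locSub B 𝔪 hd'))⟩, ?_⟩
      apply Subtype.ext
      show (b₁ : F) * ((d : F)⁻¹ * (d' : F)⁻¹) * (x : F)
        + (b₂ : F) * ((d : F)⁻¹ * (d' : F)⁻¹) * (s : F) = (y : F)
      have hbF : (b₁ : F) * (x : F) + (b₂ : F) * (s : F) = (d' : F) * (a : F) := by
        have := congrArg (Subtype.val) hb
        simpa using this
      have hyF : (y : F) = (a : F) * (d : F)⁻¹ := by rw [← had]; field_simp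
      rw [hyF]
      field_simp
      linear_combination hbF
    · rw [Ideal.span_le]
      rintro y (rfl | rfl)
      · rw [SetLike.mem_coe, IsLocalRing.mem_maximalIdeal, mem_nonunits_iff, hxCalg]
        exact not_isUnit_of_mem B 𝔪 hx𝔪
      · rw [SetLike.mem_coe, IsLocalRing.mem_maximalIdeal, mem_nonunits_iff, hsCalg]
        exact not_isUnit_of_mem B 𝔪 hs𝔪
  have hdomC : IsDomain ↥(locSub B 𝔪) := inferInstance
  have hpir : IsPrincipalIdealRing (↥(locSub B 𝔪) ⧸ Ideal.span {xC}) :=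
    isPrincipalIdealRing_quot_of_span_pair xC sC hxprime hmax
  -- `O i = C_(x)`
  have hinv : ∀ c : ↥(locSub B 𝔪), ¬ xC ∣ c → ((c : F))⁻¹ ∈ O i := by
    intro c hc
    by_contra hcon
    obtain ⟨c', hc', hcc'⟩ := unifx _ (hCO _ c.2) hcon
    exact hc ((hdvd_iff c).mpr ⟨c', hc', hcc'⟩)
  -- `K ⊂ C[1/x]`
  have hK : ∀ a : K, ∃ (c : ↥(locSub B 𝔪)) (n : ℕ), algebraMap K F a * (xC : F) ^ n = (c : F) := by
    intro a
    have := fracR
    obtain ⟨c₀, n₀, hc₀⟩ := LocalStep15.hK_of_dvr (R := R) (K := K) (C := ↥(locSub B 𝔪)) (F := F)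
      π dvrR a
    have hc₀' : algebraMap K F a * p ^ n₀ = (c₀ : F) := hc₀
    refine ⟨c₀ * ⟨w' ^ n₀, (locSub B 𝔪).pow_mem hw' _⟩, e * n₀, ?_⟩
    show algebraMap K F a * (x : F) ^ (e * n₀) = (c₀ : F) * w' ^ n₀
    rw [← hc₀', hπw]
    have h1 : (w * w') ^ n₀ = 1 := by rw [hww', one_pow]
    calc algebraMap K F a * (x : F) ^ (e * n₀)
        = algebraMap K F a * (x : F) ^ (e * n₀) * (w * w') ^ n₀ := by rw [h1, mul_one]
      _ = algebraMap K F a * (w * (x : F) ^ e) ^ n₀ * w' ^ n₀ := by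
        rw [pow_mul]; ring
  exact LocPrime13.locStartM_of_prime (K := K) π B O i noethB frac 𝔪 h𝔪 hoff xC hxprime hpir
    (fun c => hCO _ c.2) hinv xnu hK N hN m hm u hu1 hu2

end Branch

end Fermat.Agent.ES.P36.LocBranch13
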