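/-
Program P (S36), chapter (CL3) (helper13): LOCAL START at an ORDINARY TRIPLE POINT
(three pairwise transversal regular branches, arbitrary multiplicities), pure algebra.

`C` a local domain with fraction field `F` (the local ring `B_𝔪` of a chart at a supersingular
point), `x₁ x₂ x₃ ∈ C` local equations of the three (reduced) branches, pairwise transversal:
`𝔪_C = (x_j, x_l)` for `j ≠ l`.  `O_j ⊇ C` the three vertical valuation rings, `x_j`-saturated: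
`c ∈ C`, `c ∈ x_j O_j` ⇒ `x_j ∣ c`.

INPUT (N1): a local factorisation `u = ε f ^ m`, `ε ∈ Cˣ`, `f⁻¹ ∈ O_j`.
INPUT (N3): EQUAL BRANCH VALUES: there is `a ∈ C` such that for every `j` the reduction of `f`
along the branch `j` is the reduction of some `r_j ∈ C` with `r_j ≡ a mod 𝔪_C`.
INPUT (char): `q` a prime number with `x_j ∣ q` in `C`, and `(1 + x_j c) ^ q ≡ 1 mod p O_j`.

OUTPUT (N2): `g` with `g ^ m * u ^ (q ^ 2) ∈ C` and `g ≡ 1 mod p O_j` for `j = 1, 2, 3`.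

Proof: `b_j := r_j − a ∈ 𝔪_C`, `b_j ^ q ∈ 𝔪_C ^ 2`, and the conductor of `C/(x₁x₂x₃)` in the product
of the three branches contains `∏ 𝔪 ^ 2`: there is `β ∈ C` with `β ≡ b_j ^ q mod x_j` for all `j`
(`crt_triple`).  Then `w := a ^ q + β ≡ f ^ q mod x_j O_j` and `g := (w / f ^ q) ^ q`.
-/
import Mathlib

set_option autoImplicit false

namespace Fermat.Agent.ES.P36.LocTriple13

open IsLocalRing

section CRT

variable {C : Type*} [CommRing C] [IsLocalRing C]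

/-- An element of `𝔪 ^ 2`, `𝔪 = (x, y)`, is `≡ D * y ^ 2 mod x`. -/
theorem exists_sq_rep {x y : C} (hmax : maximalIdeal C = Ideal.span {x, y}) {b : C}
    (hb : b ∈ maximalIdeal C ^ 2) : ∃ D : C, x ∣ b - D * y ^ 2 := by
  rw [hmax, pow_two, Ideal.span_pair_mul_span_pair] at hb
  obtain ⟨c1, z1, hz1, h1⟩ := Ideal.mem_span_insert.mp hb
  obtain ⟨c2, z2, hz2, h2⟩ := Ideal.mem_span_insert.mp hz1
  obtain ⟨c3, z3, hz3, h3⟩ := Ideal.mem_span_insert.mp hz2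
  obtain ⟨c4, h4⟩ := Ideal.mem_span_singleton'.mp hz3
  refine ⟨c4, ⟨c1 * x + c2 * y + c3 * y, ?_⟩⟩
  rw [h1, h2, h3, ← h4]; ring

/-- **CRT at an ordinary triple point**: three elements of `𝔪 ^ 2` are simultaneously congruent,
modulo the three branch equations, to one element of `C`. -/
theorem crt_triple {x₁ x₂ x₃ : C}
    (h12 : maximalIdeal C = Ideal.span {x₁, x₂})
    (h13 : maximalIdeal C = Ideal.span {x₁, x₃})
    (h23 : maximalIdeal C = Ideal.span {x₂, x₃})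
    {b₁ b₂ b₃ : C} (hb₁ : b₁ ∈ maximalIdeal C ^ 2) (hb₂ : b₂ ∈ maximalIdeal C ^ 2)
    (hb₃ : b₃ ∈ maximalIdeal C ^ 2) :
    ∃ β : C, x₁ ∣ β - b₁ ∧ x₂ ∣ β - b₂ ∧ x₃ ∣ β - b₃ := by
  -- `x_l ≡ μ x_l' mod x_j`
  have hmem : ∀ {x y z : C}, maximalIdeal C = Ideal.span {x, y} →
      maximalIdeal C = Ideal.span {x, z} → ∃ μ : C, x ∣ y - μ * z := by
    intro x y z hxy hxz
    have hy : y ∈ maximalIdeal C := by rw [hxy]; exact Ideal.subset_span (by simp)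
    rw [hxz] at hy
    obtain ⟨c, d, h⟩ := Ideal.mem_span_pair.mp hy
    exact ⟨d, ⟨c, by rw [← h]; ring⟩⟩
  have h21 : maximalIdeal C = Ideal.span {x₂, x₁} := by rw [h12, Set.pair_comm]
  have h31 : maximalIdeal C = Ideal.span {x₃, x₁} := by rw [h13, Set.pair_comm]
  have h32 : maximalIdeal C = Ideal.span {x₃, x₂} := by rw [h23, Set.pair_comm]
  obtain ⟨D₁, hD₁⟩ := exists_sq_rep h12 hb₁
  obtain ⟨μ₁, hμ₁⟩ := hmem h12 h13
  obtain ⟨D₂, hD₂⟩ := exists_sq_rep h21 hb₂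
  obtain ⟨μ₂, hμ₂⟩ := hmem h21 h23
  obtain ⟨D₃, hD₃⟩ := exists_sq_rep h31 hb₃
  obtain ⟨μ₃, hμ₃⟩ := hmem h31 h32
  -- `b₁ ≡ D₁ x₂² ≡ D₁ μ₁ x₂ x₃ mod x₁`, etc.
  obtain ⟨e₁, he₁⟩ := hD₁
  obtain ⟨k₁, hk₁⟩ := hμ₁
  obtain ⟨e₂, he₂⟩ := hD₂
  obtain ⟨k₂, hk₂⟩ := hμ₂
  obtain ⟨e₃, he₃⟩ := hD₃
  obtain ⟨k₃, hk₃⟩ := hμ₃
  refine ⟨D₁ * μ₁ * (x₂ * x₃) + D₂ * μ₂ * (x₁ * x₃) + D₃ * μ₃ * (x₁ * x₂), ?_, ?_, ?_⟩
  · refine ⟨D₂ * μ₂ * x₃ + D₃ * μ₃ * x₂ - e₁ - D₁ * x₂ * k₁, ?_⟩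
    linear_combination (-1 : C) * he₁ - (D₁ * x₂) * hk₁
  · refine ⟨D₁ * μ₁ * x₃ + D₃ * μ₃ * x₁ - e₂ - D₂ * x₁ * k₂, ?_⟩
    linear_combination (-1 : C) * he₂ - (D₂ * x₁) * hk₂
  · refine ⟨D₁ * μ₁ * x₂ + D₂ * μ₂ * x₁ - e₃ - D₃ * x₁ * k₃, ?_⟩
    linear_combination (-1 : C) * he₃ - (D₃ * x₁) * hk₃

omit [IsLocalRing C] in
/-- `(a + b) ^ q ≡ a ^ q + b ^ q mod q` for a prime number `q`. -/
theorem add_pow_prime_sub (q : ℕ) (hq : q.Prime) (a b : C) :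
    ∃ w : C, (a + b) ^ q - (a ^ q + b ^ q) = (q : C) * w := by
  obtain ⟨r, hr⟩ := exists_add_pow_prime_eq hq a b
  exact ⟨a * b * r, by rw [hr]; ring⟩

end CRT

section Main

variable {C : Type*} [CommRing C] [IsLocalRing C] {F : Type*} [Field F] [Algebra C F]

omit [IsLocalRing C] in
/-- One branch: if `f ≡ r mod x O`, `r = a + b` and `β ≡ b ^ q mod x`, then
`f ^ q ≡ a ^ q + β mod x O` (`q` a prime number divisible by `x`). -/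
theorem branch_congr (O : ValuationSubring F) (x : C) (hC : ∀ c : C, algebraMap C F c ∈ O)
    (q : ℕ) (hq : q.Prime) (hqx : x ∣ (q : C)) (f : F) (r a β : C)
    (hfr : ∃ o ∈ O, f - algebraMap C F r = algebraMap C F x * o)
    (hβ : x ∣ β - (r - a) ^ q) :
    ∃ o ∈ O, f ^ q - algebraMap C F (a ^ q + β) = algebraMap C F x * o := by
  obtain ⟨o, ho, hfo⟩ := hfr
  have hrO : algebraMap C F r ∈ O := hC r
  have hfO : f ∈ O := by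
    have : f = algebraMap C F r + algebraMap C F x * o := by linear_combination hfo
    rw [this]
    exact O.add_mem _ _ hrO (O.mul_mem _ _ (hC x) ho)
  -- `f^q - r^q = (f - r) * S`
  set S : F := ∑ i ∈ Finset.range q, f ^ i * algebraMap C F r ^ (q - 1 - i) with hS
  have hSO : S ∈ O := by
    refine O.toSubring.sum_mem fun i _ => ?_
    exact O.mul_mem _ _ (pow_mem hfO i) (pow_mem hrO _)
  have hgeom : S * (f - algebraMap C F r) = f ^ q - algebraMap C F r ^ q :=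
    (Commute.all f (algebraMap C F r)).geom_sum₂_mul q
  -- `r^q = a^q + (r-a)^q + q w`
  obtain ⟨w, hw⟩ := add_pow_prime_sub q hq a (r - a)
  have hw' : r ^ q - (a ^ q + (r - a) ^ q) = (q : C) * w := by
    have : a + (r - a) = r := by ring
    rw [this] at hw
    exact hw
  obtain ⟨k, hk⟩ := hqx
  obtain ⟨l, hl⟩ := hβ
  refine ⟨S * o + algebraMap C F (k * w) - algebraMap C F l,
    sub_mem (O.add_mem _ _ (O.mul_mem _ _ hSO ho) (hC _)) (hC _), ?_⟩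
  have h1 : algebraMap C F r ^ q - (algebraMap C F a ^ q + (algebraMap C F r - algebraMap C F a) ^ q)
      = algebraMap C F x * algebraMap C F (k * w) := by
    have := congrArg (algebraMap C F) hw'
    rw [hk] at this
    simp only [map_sub, map_add, map_pow, map_mul] at this ⊢
    linear_combination this
  have h2 : algebraMap C F β - (algebraMap C F r - algebraMap C F a) ^ q
      = algebraMap C F x * algebraMap C F l := by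
    have := congrArg (algebraMap C F) hl
    simp only [map_sub, map_pow, map_mul] at this
    exact this
  rw [map_add, map_pow]
  linear_combination (-1 : F) * hgeom + S * hfo + h1 - h2

/-- **LOCAL START at an ordinary triple point** (see the file header). -/
theorem triple_start (O₁ O₂ O₃ : ValuationSubring F) (x₁ x₂ x₃ : C)
    (h12 : maximalIdeal C = Ideal.span {x₁, x₂})
    (h13 : maximalIdeal C = Ideal.span {x₁, x₃})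
    (h23 : maximalIdeal C = Ideal.span {x₂, x₃})
    (hC₁ : ∀ c : C, algebraMap C F c ∈ O₁) (hC₂ : ∀ c : C, algebraMap C F c ∈ O₂)
    (hC₃ : ∀ c : C, algebraMap C F c ∈ O₃)
    (q : ℕ) (hq : q.Prime)
    (hqx₁ : x₁ ∣ (q : C)) (hqx₂ : x₂ ∣ (q : C)) (hqx₃ : x₃ ∣ (q : C))
    (p : F)
    (hpow₁ : ∀ c ∈ O₁, ∃ c' ∈ O₁, (1 + algebraMap C F x₁ * c) ^ q - 1 = p * c')
    (hpow₂ : ∀ c ∈ O₂, ∃ c' ∈ O₂, (1 + algebraMap C F x₂ * c) ^ q - 1 = p * c')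
    (hpow₃ : ∀ c ∈ O₃, ∃ c' ∈ O₃, (1 + algebraMap C F x₃ * c) ^ q - 1 = p * c')
    (m : ℕ) (u : F) (ε : Cˣ) (f : F) (hf0 : f ≠ 0)
    (huf : u = algebraMap C F (ε : C) * f ^ m)
    (hfinv₁ : f⁻¹ ∈ O₁) (hfinv₂ : f⁻¹ ∈ O₂) (hfinv₃ : f⁻¹ ∈ O₃)
    (a : C)
    (hbr₁ : ∃ r : C, r - a ∈ maximalIdeal C ∧
      ∃ o ∈ O₁, f - algebraMap C F r = algebraMap C F x₁ * o)
    (hbr₂ : ∃ r : C, r - a ∈ maximalIdeal C ∧
      ∃ o ∈ O₂, f - algebraMap C F r = algebraMap C F x₂ * o)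
    (hbr₃ : ∃ r : C, r - a ∈ maximalIdeal C ∧
      ∃ o ∈ O₃, f - algebraMap C F r = algebraMap C F x₃ * o) :
    ∃ g : F, (∃ z : C, g ^ m * u ^ (q ^ 2) = algebraMap C F z) ∧
      (∃ c ∈ O₁, g - 1 = p * c) ∧ (∃ c ∈ O₂, g - 1 = p * c) ∧ (∃ c ∈ O₃, g - 1 = p * c) := by
  obtain ⟨r₁, hr₁, hfr₁⟩ := hbr₁
  obtain ⟨r₂, hr₂, hfr₂⟩ := hbr₂
  obtain ⟨r₃, hr₃, hfr₃⟩ := hbr₃
  -- `b_j ^ q ∈ 𝔪 ^ 2`
  have hsq : ∀ b : C, b ∈ maximalIdeal C → b ^ q ∈ maximalIdeal C ^ 2 := by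
    intro b hb
    exact Ideal.pow_le_pow_right hq.two_le (Ideal.pow_mem_pow hb q)
  obtain ⟨β, hβ₁, hβ₂, hβ₃⟩ := crt_triple h12 h13 h23 (hsq _ hr₁) (hsq _ hr₂) (hsq _ hr₃)
  set w : C := a ^ q + β with hw
  obtain ⟨o₁, ho₁, hwo₁⟩ := branch_congr O₁ x₁ hC₁ q hq hqx₁ f r₁ a β hfr₁ hβ₁
  obtain ⟨o₂, ho₂, hwo₂⟩ := branch_congr O₂ x₂ hC₂ q hq hqx₂ f r₂ a β hfr₂ hβ₂
  obtain ⟨o₃, ho₃, hwo₃⟩ := branch_congr O₃ x₃ hC₃ q hq hqx₃ f r₃ a β hfr₃ hβ₃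
  have hfq0 : f ^ q ≠ 0 := pow_ne_zero q hf0
  set g₀ : F := algebraMap C F w / f ^ q with hg₀
  -- `g₀ = 1 + x_j c_j`
  have hg₀j : ∀ (O : ValuationSubring F) (x : C) (o : F), o ∈ O → f⁻¹ ∈ O →
      f ^ q - algebraMap C F w = algebraMap C F x * o →
      g₀ = 1 + algebraMap C F x * (-(o * (f⁻¹) ^ q)) := by
    intro O x o _ _ h
    rw [hg₀, inv_pow]
    field_simp
    linear_combination (-1 : F) * h
  have hmemj : ∀ (O : ValuationSubring F) (o : F), o ∈ O → f⁻¹ ∈ O → -(o * (f⁻¹) ^ q) ∈ O :=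
    fun O o ho hf => O.neg_mem _ (O.mul_mem _ _ ho (pow_mem hf q))
  refine ⟨g₀ ^ q, ⟨w ^ (q * m) * ((ε : C)) ^ (q ^ 2), ?_⟩, ?_, ?_, ?_⟩
  · rw [huf, hg₀, map_mul, map_pow, map_pow, ← pow_mul, div_pow, mul_pow, ← pow_mul f,
      ← pow_mul f, div_mul_eq_mul_div, div_eq_iff (pow_ne_zero _ hf0)]
    ring
  · obtain ⟨c', hc', h⟩ := hpow₁ _ (hmemj O₁ o₁ ho₁ hfinv₁)
    exact ⟨c', hc', by rw [hg₀j O₁ x₁ o₁ ho₁ hfinv₁ hwo₁]; exact h⟩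
  · obtain ⟨c', hc', h⟩ := hpow₂ _ (hmemj O₂ o₂ ho₂ hfinv₂)
    exact ⟨c', hc', by rw [hg₀j O₂ x₂ o₂ ho₂ hfinv₂ hwo₂]; exact h⟩
  · obtain ⟨c', hc', h⟩ := hpow₃ _ (hmemj O₃ o₃ ho₃ hfinv₃)
    exact ⟨c', hc', by rw [hg₀j O₃ x₃ o₃ ho₃ hfinv₃ hwo₃]; exact h⟩

/-- **Triple-point decomposition with equal branch values** = the `u`-dependent input of
`triple_start`, as ONE proposition (what (N1)+(N3)+the global multiplier deliver at a triple point):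
`u = ε f ^ m` with `ε ∈ Cˣ`, `f` a unit of the three `O_j`, and branch representatives `r_j ∈ C`
of `f` (`f ≡ r_j mod x_j O_j`) which are all congruent to one `a ∈ C` modulo `𝔪_C`. -/
def TripleDec (O₁ O₂ O₃ : ValuationSubring F) (x₁ x₂ x₃ : C) (m : ℕ) (u : F) : Prop :=
  ∃ (ε : Cˣ) (f : F), f ≠ 0 ∧ u = algebraMap C F (ε : C) * f ^ m ∧
    f⁻¹ ∈ O₁ ∧ f⁻¹ ∈ O₂ ∧ f⁻¹ ∈ O₃ ∧
    ∃ a : C,
      (∃ r : C, r - a ∈ maximalIdeal C ∧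
        ∃ o ∈ O₁, f - algebraMap C F r = algebraMap C F x₁ * o) ∧
      (∃ r : C, r - a ∈ maximalIdeal C ∧
        ∃ o ∈ O₂, f - algebraMap C F r = algebraMap C F x₂ * o) ∧
      (∃ r : C, r - a ∈ maximalIdeal C ∧
        ∃ o ∈ O₃, f - algebraMap C F r = algebraMap C F x₃ * o)

/-- `triple_start` with the `u`-dependent input bundled as `TripleDec`. -/
theorem triple_start_of_dec (O₁ O₂ O₃ : ValuationSubring F) (x₁ x₂ x₃ : C)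
    (h12 : maximalIdeal C = Ideal.span {x₁, x₂})
    (h13 : maximalIdeal C = Ideal.span {x₁, x₃})
    (h23 : maximalIdeal C = Ideal.span {x₂, x₃})
    (hC₁ : ∀ c : C, algebraMap C F c ∈ O₁) (hC₂ : ∀ c : C, algebraMap C F c ∈ O₂)
    (hC₃ : ∀ c : C, algebraMap C F c ∈ O₃)
    (q : ℕ) (hq : q.Prime)
    (hqx₁ : x₁ ∣ (q : C)) (hqx₂ : x₂ ∣ (q : C)) (hqx₃ : x₃ ∣ (q : C))
    (p : F)
    (hpow₁ : ∀ c ∈ O₁, ∃ c' ∈ O₁, (1 + algebraMap C F x₁ * c) ^ q - 1 = p * c')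
    (hpow₂ : ∀ c ∈ O₂, ∃ c' ∈ O₂, (1 + algebraMap C F x₂ * c) ^ q - 1 = p * c')
    (hpow₃ : ∀ c ∈ O₃, ∃ c' ∈ O₃, (1 + algebraMap C F x₃ * c) ^ q - 1 = p * c')
    (m : ℕ) (u : F) (hdec : TripleDec O₁ O₂ O₃ x₁ x₂ x₃ m u) :
    ∃ g : F, (∃ z : C, g ^ m * u ^ (q ^ 2) = algebraMap C F z) ∧
      (∃ c ∈ O₁, g - 1 = p * c) ∧ (∃ c ∈ O₂, g - 1 = p * c) ∧ (∃ c ∈ O₃, g - 1 = p * c) := by
  obtain ⟨ε, f, hf0, huf, hf₁, hf₂, hf₃, a, hbr₁, hbr₂, hbr₃⟩ := hdec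
  exact triple_start O₁ O₂ O₃ x₁ x₂ x₃ h12 h13 h23 hC₁ hC₂ hC₃ q hq hqx₁ hqx₂ hqx₃ p
    hpow₁ hpow₂ hpow₃ m u ε f hf0 huf hf₁ hf₂ hf₃ a hbr₁ hbr₂ hbr₃

end Main

end Fermat.Agent.ES.P36.LocTriple13
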