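/-
Program P (S36), chapter (CL3) (helper13): LOCAL START at an ordinary TRIPLE POINT of a chart,
`MultiCore13.LocStartM` form (wrapper of `LocTriple13.triple_start` for `C := B_𝔪 ⊂ F`).

`B` a chart, `𝔪 ∋ π` a maximal ideal through which exactly the components `i₁ i₂ i₃` pass
(`OffBranch` for all other `j`), `C := B_𝔪` (`NodalSmooth13.locSub`), `x₁ x₂ x₃ ∈ C` local
equations of the three reduced branches, pairwise transversal (`𝔪_C = (x_j, x_l)`), `C ⊂ O i_k`,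
`x_k ∣ π` in `C`, `π ∣ q` in `R` (`q` a prime number: the residue characteristic; `R` unramified),
`x_k ^ q ∈ π O i_k` (multiplicity of the component `≤ q`).

The `u`-dependent input is `LocTriple13.TripleDec` ((N1) + (N3) + global multiplier).
Output: `LocStartM π B O m (u ^ (q ^ 2)) 𝔪`.

`pow_mem_of_fac`: `x_k ^ q ∈ π O_k` from `π = w x₁^{e₁} x₂^{e₂} x₃^{e₃}`, `e_k ≤ q`.
-/
import Mathlib
import Fermat.Agent.ES.N34.NodalSmooth13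
import Fermat.Agent.ES.P36.MultiCore13
import Fermat.Agent.ES.P36.LocPrime13
import Fermat.Agent.ES.P36.LocTriple13

set_option autoImplicit false

namespace Fermat.Agent.ES.P36.LocTripleM13

open Fermat.Agent.RED.CORE Fermat.Agent.ES.N34.NodalCore13 Fermat.Agent.ES.N34.NodalSmooth13
  Fermat.Agent.ES.P36.MultiCore13 Fermat.Agent.ES.P36.LocTriple13

section Mult

variable {F : Type*} [Field F]

/-- Multiplicity bound: if `p = w * x ^ e * y` with `w, y` units of `O`, `x ∈ O` and `e ≤ q`, then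
`x ^ q ∈ p O`. -/
theorem pow_mem_of_fac (O : ValuationSubring F) (p x w y : F) (hx : x ∈ O)
    (hw : w⁻¹ ∈ O) (hy : y⁻¹ ∈ O) (e q : ℕ) (heq : e ≤ q) (hp0 : p ≠ 0)
    (hfac : p = w * x ^ e * y) : ∃ b ∈ O, x ^ q = p * b := by
  have hw0 : w ≠ 0 := by rintro rfl; simp at hfac; exact hp0 hfac
  have hy0 : y ≠ 0 := by rintro rfl; simp at hfac; exact hp0 hfac
  refine ⟨x ^ (q - e) * w⁻¹ * y⁻¹, O.mul_mem _ _ (O.mul_mem _ _ (pow_mem hx _) hw) hy, ?_⟩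
  rw [hfac]
  have : x ^ q = x ^ e * x ^ (q - e) := by rw [← pow_add, Nat.add_sub_cancel' heq]
  rw [this]
  field_simp

end Mult

section Triple

variable {R F : Type*} [CommRing R] [Field F] [Algebra R F]

/-- **LOCAL START at an ordinary triple point of a chart.** -/
theorem locStartM_of_tripleDec {ι : Type*} (π : R) (B : Subalgebra R F)
    (O : ι → ValuationSubring F) (i₁ i₂ i₃ : ι)
    (𝔪 : Ideal B) (h𝔪 : 𝔪.IsMaximal)
    (hcover : ∀ j, j = i₁ ∨ j = i₂ ∨ j = i₃ ∨ OffBranch π B (O j) 𝔪)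
    (x₁ x₂ x₃ : ↥(@locSub R F _ _ _ B 𝔪 h𝔪.isPrime))
    (h12 : IsLocalRing.maximalIdeal ↥(@locSub R F _ _ _ B 𝔪 h𝔪.isPrime) = Ideal.span {x₁, x₂})
    (h13 : IsLocalRing.maximalIdeal ↥(@locSub R F _ _ _ B 𝔪 h𝔪.isPrime) = Ideal.span {x₁, x₃})
    (h23 : IsLocalRing.maximalIdeal ↥(@locSub R F _ _ _ B 𝔪 h𝔪.isPrime) = Ideal.span {x₂, x₃})
    (hC₁ : ∀ c : ↥(@locSub R F _ _ _ B 𝔪 h𝔪.isPrime), (c : F) ∈ O i₁)
    (hC₂ : ∀ c : ↥(@locSub R F _ _ _ B 𝔪 h𝔪.isPrime), (c : F) ∈ O i₂)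
    (hC₃ : ∀ c : ↥(@locSub R F _ _ _ B 𝔪 h𝔪.isPrime), (c : F) ∈ O i₃)
    (q : ℕ) (hq : q.Prime) (hqπ : ∃ r : R, (q : R) = π * r)
    (hπx₁ : ∃ w : ↥(@locSub R F _ _ _ B 𝔪 h𝔪.isPrime), algebraMap R F π = (x₁ : F) * (w : F))
    (hπx₂ : ∃ w : ↥(@locSub R F _ _ _ B 𝔪 h𝔪.isPrime), algebraMap R F π = (x₂ : F) * (w : F))
    (hπx₃ : ∃ w : ↥(@locSub R F _ _ _ B 𝔪 h𝔪.isPrime), algebraMap R F π = (x₃ : F) * (w : F))
    (hmult₁ : ∃ b ∈ O i₁, (x₁ : F) ^ q = algebraMap R F π * b)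
    (hmult₂ : ∃ b ∈ O i₂, (x₂ : F) ^ q = algebraMap R F π * b)
    (hmult₃ : ∃ b ∈ O i₃, (x₃ : F) ^ q = algebraMap R F π * b)
    (m : ℕ) (u : F)
    (hdec : TripleDec (C := ↥(@locSub R F _ _ _ B 𝔪 h𝔪.isPrime)) (O i₁) (O i₂) (O i₃)
      x₁ x₂ x₃ m u) :
    LocStartM π B O m (u ^ (q ^ 2)) 𝔪 := by
  classical
  have h𝔪p : 𝔪.IsPrime := h𝔪.isPrime
  obtain ⟨r, hr⟩ := hqπ
  -- `x_k ∣ q` in `C`
  have hqx : ∀ x : ↥(locSub B 𝔪),
      (∃ w : ↥(locSub B 𝔪), algebraMap R F π = (x : F) * (w : F)) → x ∣ (q : ↥(locSub B 𝔪)) := by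
    rintro x ⟨w, hw⟩
    refine ⟨w * algebraMap R ↥(locSub B 𝔪) r, Subtype.ext ?_⟩
    have h1 : ((q : ↥(locSub B 𝔪)) : F) = algebraMap R F (q : R) := by
      rw [map_natCast]; simp
    rw [h1, hr, map_mul, hw]
    show (x : F) * (w : F) * algebraMap R F r = (x : F) * ((w : F) * algebraMap R F r)
    ring
  -- `q ∈ π O`
  have hqO : ∀ (Ov : ValuationSubring F), (∀ c : ↥(locSub B 𝔪), (c : F) ∈ Ov) →
      ∃ a ∈ Ov, ((q : ℕ) : F) = algebraMap R F π * a := by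
    intro Ov hC
    refine ⟨algebraMap R F r, hC (algebraMap R ↥(locSub B 𝔪) r), ?_⟩
    rw [← map_mul, ← hr, map_natCast]
  have hpow : ∀ (Ov : ValuationSubring F) (x : ↥(locSub B 𝔪)),
      (∀ c : ↥(locSub B 𝔪), (c : F) ∈ Ov) → (∃ b ∈ Ov, (x : F) ^ q = algebraMap R F π * b) →
      ∀ c ∈ Ov, ∃ c' ∈ Ov, (1 + (x : F) * c) ^ q - 1 = algebraMap R F π * c' :=
    fun Ov x hC hmult c hc =>
      LocPrime13.pow_sub_one_mem π Ov (x : F) (hC x) q hq (hqO Ov hC) hmult c hc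
  obtain ⟨g, ⟨z, hgz⟩, hg₁, hg₂, hg₃⟩ :=
    triple_start_of_dec (C := ↥(locSub B 𝔪)) (F := F) (O i₁) (O i₂) (O i₃) x₁ x₂ x₃ h12 h13 h23
      hC₁ hC₂ hC₃ q hq (hqx x₁ hπx₁) (hqx x₂ hπx₂) (hqx x₃ hπx₃) (algebraMap R F π)
      (hpow (O i₁) x₁ hC₁ hmult₁) (hpow (O i₂) x₂ hC₂ hmult₂) (hpow (O i₃) x₃ hC₃ hmult₃)
      m u hdec
  have hgz' : g ^ m * u ^ (q ^ 2) = (z : F) := hgz
  obtain ⟨a, d, hd, had⟩ := z.2
  refine ⟨g, ⟨a, d, hd, ?_⟩, fun j => ?_⟩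
  · rw [hgz', had]
  · rcases hcover j with rfl | rfl | rfl | h
    · exact Or.inl hg₁
    · exact Or.inl hg₂
    · exact Or.inl hg₃
    · exact Or.inr h

end Triple

end Fermat.Agent.ES.P36.LocTripleM13
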