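/-
Program P (S36), chapter (CL3)/NUM-P (helper13): the ABSTRACT NUM-P ASSEMBLY.

`MultiCore13.MultiChartModel` + a classification of the closed points `𝔪 ∋ π` of both charts into
* `OneBranch` (types I and II of `S36_SS27`: exactly one component `i` passes through `𝔪`, local
  equation `x` of the reduced component, `𝔪 = (x, s)`, `π = unit · x ^ e`, `1 ≤ e ≤ q`), and
* `TriplePt` (type III: three pairwise transversal components, `LocTriple13.TripleDec` for `u`),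
together with (U1) `u ≡ 1 mod π ⋂ O_i` and (U2) `m ∣ ord_v u` at all places,
give `u ^ (q ^ 2) = c⁻¹ S ^ m` (`numAbsP`).

`q` is a prime number with `π ∣ q` in `R` (the base is unramified; `R` a DVR with uniformiser `π`).
-/
import Mathlib
import Fermat.Agent.ES.P36.MultiCore13
import Fermat.Agent.ES.P36.LocTools13
import Fermat.Agent.ES.P36.LocBranch13
import Fermat.Agent.ES.P36.LocTripleM13

set_option autoImplicit false

namespace Fermat.Agent.ES.P36.NumAbsP13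

open Fermat.Agent.RED.CORE Fermat.Agent.ES.N34.NodalCore13 Fermat.Agent.ES.N34.NodalSmooth13
  Fermat.Agent.ES.P36.MultiCore13 Fermat.Agent.ES.P36.LocTriple13

section Defs

variable {R F : Type*} [CommRing R] [Field F] [Algebra R F]

/-- **Single-branch closed point** (types I, II): only the component `i` passes through `𝔪`;
`x ∈ B` is a local equation of the reduced component (a uniformiser of `O i`), `𝔪 B_𝔪 = (x, s)`,
`π = w · x ^ e` with `w ∈ (B_𝔪)ˣ` and `1 ≤ e ≤ q`. -/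
def OneBranch (q : ℕ) (π : R) (B : Subalgebra R F) {ι : Type*} (O : ι → ValuationSubring F)
    (𝔪 : Ideal B) [𝔪.IsPrime] : Prop :=
  ∃ i : ι, (∀ j, j ≠ i → OffBranch π B (O j) 𝔪) ∧ ∃ x s : B, x ∈ 𝔪 ∧ s ∈ 𝔪 ∧
    (∀ y ∈ 𝔪, ∃ d : B, d ∉ 𝔪 ∧ d * y ∈ Ideal.span {x, s}) ∧
    (∀ y ∈ O i, y⁻¹ ∉ O i → ∃ c ∈ O i, y = (x : F) * c) ∧ ((x : F))⁻¹ ∉ O i ∧
    (∀ b : B, (∃ c ∈ O i, (b : F) = (x : F) * c) → b ∈ 𝔪) ∧
    ∃ e : ℕ, 0 < e ∧ e ≤ q ∧ ∃ w w' : F, w ∈ locSub B 𝔪 ∧ w' ∈ locSub B 𝔪 ∧ w * w' = 1 ∧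
      algebraMap R F π = w * (x : F) ^ e

/-- **Ordinary triple point, `u`-independent data**: the components `i₁ i₂ i₃` (and no other) pass
through `𝔪`; `x₁ x₂ x₃ ∈ B_𝔪` local equations of the reduced components, pairwise transversal,
`B_𝔪 ⊂ O i_k`, `x_k ∣ π`, `x_k ^ q ∈ π O i_k`. -/
def TripleData (q : ℕ) (π : R) (B : Subalgebra R F) {ι : Type*} (O : ι → ValuationSubring F)
    (𝔪 : Ideal B) [𝔪.IsPrime] (i₁ i₂ i₃ : ι) (x₁ x₂ x₃ : ↥(locSub B 𝔪)) : Prop :=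
  (∀ j, j = i₁ ∨ j = i₂ ∨ j = i₃ ∨ OffBranch π B (O j) 𝔪) ∧
  IsLocalRing.maximalIdeal ↥(locSub B 𝔪) = Ideal.span {x₁, x₂} ∧
  IsLocalRing.maximalIdeal ↥(locSub B 𝔪) = Ideal.span {x₁, x₃} ∧
  IsLocalRing.maximalIdeal ↥(locSub B 𝔪) = Ideal.span {x₂, x₃} ∧
  (∀ c : ↥(locSub B 𝔪), (c : F) ∈ O i₁) ∧ (∀ c : ↥(locSub B 𝔪), (c : F) ∈ O i₂) ∧
  (∀ c : ↥(locSub B 𝔪), (c : F) ∈ O i₃) ∧
  (∃ w : ↥(locSub B 𝔪), algebraMap R F π = (x₁ : F) * (w : F)) ∧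
  (∃ w : ↥(locSub B 𝔪), algebraMap R F π = (x₂ : F) * (w : F)) ∧
  (∃ w : ↥(locSub B 𝔪), algebraMap R F π = (x₃ : F) * (w : F)) ∧
  (∃ b ∈ O i₁, (x₁ : F) ^ q = algebraMap R F π * b) ∧
  (∃ b ∈ O i₂, (x₂ : F) ^ q = algebraMap R F π * b) ∧
  (∃ b ∈ O i₃, (x₃ : F) ^ q = algebraMap R F π * b)

/-- **Ordinary triple point with equal branch values for `u`** (`TripleData` + `TripleDec`). -/
def TriplePt (q : ℕ) (π : R) (B : Subalgebra R F) {ι : Type*} (O : ι → ValuationSubring F)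
    (𝔪 : Ideal B) [𝔪.IsPrime] (m : ℕ) (u : F) : Prop :=
  ∃ (i₁ i₂ i₃ : ι) (x₁ x₂ x₃ : ↥(locSub B 𝔪)), TripleData q π B O 𝔪 i₁ i₂ i₃ x₁ x₂ x₃ ∧
    TripleDec (C := ↥(locSub B 𝔪)) (O i₁) (O i₂) (O i₃) x₁ x₂ x₃ m u

end Defs

section Local

variable {R K F : Type*} [CommRing R] [Field K] [Field F] [Algebra R K] [Algebra K F]
  [Algebra R F] [IsScalarTower R K F]

/-- Local start at a single-branch point, exponent `q`. -/
theorem locStartM_of_oneBranch {ι : Type*} [Finite ι] (π : R) (B : Subalgebra R F)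
    (O : ι → ValuationSubring F)
    (noethB : IsNoetherianRing B) (fracR : IsFractionRing R K)
    (dvrR : ∀ r : R, r ≠ 0 → ∃ (k : ℕ) (v : Rˣ), r = π ^ k * v)
    (frac : ∀ y : F, ∃ a ∈ B, ∃ b ∈ B, b ≠ 0 ∧ y * b = a)
    (leO : ∀ j, ∀ y ∈ B, y ∈ O j)
    (arch : ∀ j, ∀ y : F, ∃ k : ℕ, algebraMap R F π ^ k * y ∈ O j)
    (sat : ∀ b ∈ B, ∀ c : F, (∀ j, c ∈ O j) → b = algebraMap R F π * c → c ∈ B)
    (q : ℕ) (hq : q.Prime) (hqπ : ∃ r : R, (q : R) = π * r)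
    (𝔪 : Ideal B) (h𝔪 : 𝔪.IsMaximal)
    (hpt : @OneBranch R F _ _ _ q π B ι O 𝔪 h𝔪.isPrime)
    (m : ℕ) (hm : 0 < m) (u : F) (hu1 : PiOM π O (u - 1))
    (hu2 : ∀ v : AlgebraicCurve.Place K F, (m : ℤ) ∣ v.ord u) :
    LocStartM π B O m (u ^ q) 𝔪 := by
  classical
  have h𝔪p : 𝔪.IsPrime := h𝔪.isPrime
  obtain ⟨i, hoff, x, s, hx𝔪, hs𝔪, hgen, unifx, xnu, hon, e, he, heq, w, w', hw, hw', hww', hπw⟩ := hpt
  obtain ⟨r, hr⟩ := hqπ
  -- `B_𝔪 ⊆ O i`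
  have hinvO : ∀ d : B, d ∉ 𝔪 → ((d : F))⁻¹ ∈ O i := by
    intro d hd
    by_contra hcon
    obtain ⟨c, hc, hdc⟩ := unifx _ (leO i _ d.2) hcon
    exact hd (hon d ⟨c, hc, hdc⟩)
  have hCO : ∀ y ∈ locSub B 𝔪, y ∈ O i := by
    rintro y ⟨a, d, hd, h⟩
    have hd0 := coe_ne_zero_of_notMem B 𝔪 hd
    have : y = (a : F) * (d : F)⁻¹ := by rw [← h]; field_simp
    rw [this]
    exact (O i).mul_mem _ _ (leO i _ a.2) (hinvO d hd)
  have hxO : (x : F) ∈ O i := leO i _ x.2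
  have hx0 : (x : F) ≠ 0 := by
    intro h0
    apply xnu
    rw [h0, inv_zero]
    exact (O i).zero_mem
  -- `x ^ q ∈ π O i`
  have hxq : ∃ b ∈ O i, (x : F) ^ q = algebraMap R F π * b := by
    refine ⟨w' * (x : F) ^ (q - e), (O i).mul_mem _ _ (hCO _ hw') (pow_mem hxO _), ?_⟩
    rw [hπw]
    have : (x : F) ^ q = (x : F) ^ e * (x : F) ^ (q - e) := by
      rw [← pow_add, Nat.add_sub_cancel' heq]
    rw [this]
    linear_combination (-((x : F) ^ e * (x : F) ^ (q - e))) * hww'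
  have hqO : ∃ a ∈ O i, ((q : ℕ) : F) = algebraMap R F π * a := by
    refine ⟨algebraMap R F r, leO i _ (B.algebraMap_mem r), ?_⟩
    rw [← map_mul, ← hr, map_natCast]
  have hN : ∀ c ∈ O i, ∃ c' ∈ O i, (1 + (x : F) * c) ^ q - 1 = algebraMap R F π * c' :=
    fun c hc => LocPrime13.pow_sub_one_mem π (O i) (x : F) hxO q hq hqO hxq c hc
  -- (U1) modulo `x`
  have hu1x : ∃ c ∈ O i, u - 1 = (x : F) * c := by
    obtain ⟨c, hc, huc⟩ := hu1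
    obtain ⟨e', rfl⟩ : ∃ e', e = e' + 1 := ⟨e - 1, by omega⟩
    refine ⟨w * (x : F) ^ e' * c, (O i).mul_mem _ _ ((O i).mul_mem _ _ (hCO _ hw) (pow_mem hxO _))
      (hc i), ?_⟩
    rw [huc, hπw]; ring
  exact LocBranch13.locStartM_of_branchEq (K := K) π B O i noethB fracR dvrR frac leO arch sat 𝔪 h𝔪
    hoff x s hx𝔪 hs𝔪 hgen unifx xnu hon e he ⟨w, w', hw, hw', hww', hπw⟩ q hN m hm u hu1x hu2

end Local

section Assembly

variable {R K F : Type*} [CommRing R] [Field K] [Field F] [Algebra R K] [Algebra K F]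
  [Algebra R F] [IsScalarTower R K F]

/-- **The abstract NUM-P assembly.** -/
theorem numAbsP {ι : Type*} [Finite ι] (π : R) (t : F) (B0 B1 : Subalgebra R F)
    (O : ι → ValuationSubring F) (M : MultiChartModel R F π t B0 B1 O)
    (fracR : IsFractionRing R K)
    (dvrR : ∀ r : R, r ≠ 0 → ∃ (k : ℕ) (v : Rˣ), r = π ^ k * v)
    (noeth0 : IsNoetherianRing B0) (noeth1 : IsNoetherianRing B1)
    (frac0 : ∀ y : F, ∃ a ∈ B0, ∃ b ∈ B0, b ≠ 0 ∧ y * b = a)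
    (frac1 : ∀ y : F, ∃ a ∈ B1, ∃ b ∈ B1, b ≠ 0 ∧ y * b = a)
    (q : ℕ) (hq : q.Prime) (hqπ : ∃ r : R, (q : R) = π * r)
    (m : ℕ) (hm : 0 < m) (minv : R) (hminv : (m : R) * minv = 1)
    (u : F) (hu1 : PiOM π O (u - 1))
    (hu2 : ∀ v : AlgebraicCurve.Place K F, (m : ℤ) ∣ v.ord u)
    (hpt0 : ∀ (𝔪 : Ideal B0) (h𝔪 : 𝔪.IsMaximal), algebraMap R B0 π ∈ 𝔪 →
      @OneBranch R F _ _ _ q π B0 ι O 𝔪 h𝔪.isPrime ∨
      @TriplePt R F _ _ _ q π B0 ι O 𝔪 h𝔪.isPrime m u)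
    (hpt1 : ∀ (𝔪 : Ideal B1) (h𝔪 : 𝔪.IsMaximal), algebraMap R B1 π ∈ 𝔪 →
      @OneBranch R F _ _ _ q π B1 ι O 𝔪 h𝔪.isPrime ∨
      @TriplePt R F _ _ _ q π B1 ι O 𝔪 h𝔪.isPrime m u)
    (hKF : ∀ y : F, IsAlgebraic K y → ∃ c : K, algebraMap K F c = y) :
    ∃ s : F, s ≠ 0 ∧ ∃ c : K, c ≠ 0 ∧ s ^ m = algebraMap K F c * u ^ (q ^ 2) := by
  classical
  -- local starts on a chart
  have hloc : ∀ (B : Subalgebra R F) (noethB : IsNoetherianRing B)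
      (frac : ∀ y : F, ∃ a ∈ B, ∃ b ∈ B, b ≠ 0 ∧ y * b = a)
      (leO : ∀ j, ∀ y ∈ B, y ∈ O j)
      (sat : ∀ b ∈ B, ∀ c : F, (∀ j, c ∈ O j) → b = algebraMap R F π * c → c ∈ B)
      (hpt : ∀ (𝔪 : Ideal B) (h𝔪 : 𝔪.IsMaximal), algebraMap R B π ∈ 𝔪 →
        @OneBranch R F _ _ _ q π B ι O 𝔪 h𝔪.isPrime ∨
        @TriplePt R F _ _ _ q π B ι O 𝔪 h𝔪.isPrime m u),
      ∀ 𝔪 : Ideal B, 𝔪.IsMaximal → algebraMap R B π ∈ 𝔪 → LocStartM π B O m (u ^ (q ^ 2)) 𝔪 := by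
    intro B noethB frac leO sat hpt 𝔪 h𝔪 hπ𝔪
    have h𝔪p : 𝔪.IsPrime := h𝔪.isPrime
    rcases hpt 𝔪 h𝔪 hπ𝔪 with h1 | h3
    · have h := locStartM_of_oneBranch (K := K) π B O noethB fracR dvrR frac leO M.arch sat q hq hqπ
        𝔪 h𝔪 h1 m hm u hu1 hu2
      have h' := LocTools13.LocStartM.pow leO h q
      rwa [← pow_mul, ← pow_two] at h'
    · obtain ⟨i₁, i₂, i₃, x₁, x₂, x₃,
        ⟨hcover, h12, h13, h23, hC₁, hC₂, hC₃, hπx₁, hπx₂, hπx₃, hmult₁, hmult₂, hmult₃⟩, hdec⟩ := h3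
      exact LocTripleM13.locStartM_of_tripleDec π B O i₁ i₂ i₃ 𝔪 h𝔪 hcover x₁ x₂ x₃ h12 h13 h23
        hC₁ hC₂ hC₃ q hq hqπ hπx₁ hπx₂ hπx₃ hmult₁ hmult₂ hmult₃ m u hdec
  -- (U1) for `u ^ (q ^ 2)`
  have hu1' : PiOM π O (u ^ (q ^ 2) - 1) := by
    obtain ⟨c, hc, huc⟩ := hu1
    have hπO : ∀ i, algebraMap R F π ∈ O i := fun i => M.le_O_0 i _ (B0.algebraMap_mem π)
    -- `u ^ k - 1 = π c_k` by induction, simultaneously for all `i`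
    have hu_mem : ∀ i, u ∈ O i := by
      intro i
      have : u = 1 + algebraMap R F π * c := by linear_combination huc
      rw [this]
      exact (O i).add_mem _ _ (O i).one_mem ((O i).mul_mem _ _ (hπO i) (hc i))
    have key : ∀ k : ℕ, ∃ c' : F, (∀ i, c' ∈ O i) ∧ u ^ k - 1 = algebraMap R F π * c' := by
      intro k
      induction k with
      | zero => exact ⟨0, fun i => (O i).zero_mem, by simp⟩
      | succ k ih =>
        obtain ⟨c', hc', h'⟩ := ih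
        refine ⟨c' * u + c, fun i => (O i).add_mem _ _ ((O i).mul_mem _ _ (hc' i) (hu_mem i)) (hc i), ?_⟩
        have : u ^ (k + 1) - 1 = (u ^ k - 1) * u + (u - 1) := by ring
        rw [this, h', huc]; ring
    exact key (q ^ 2)
  exact multi_core_const (K := K) π t B0 B1 O M m hm minv hminv (u ^ (q ^ 2)) hu1'
    (hloc B0 noeth0 frac0 M.le_O_0 M.sat0 hpt0) (hloc B1 noeth1 frac1 M.le_O_1 M.sat1 hpt1) hKF

end Assembly

end Fermat.Agent.ES.P36.NumAbsP13
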