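/-
Program P (S36), chapter (CL3) (helper13): LOCAL FACTORISATION `u = ε f ^ m` at a closed point with
SEVERAL vertical primes (variant of `PrimePlace15.exists_unit_mul_pow_of_places`, which has one
distinguished prime).

`C` a UFD with fraction field `F ⊇ K`; `V` a predicate on prime elements ("vertical").  If `u` is a
`p`-unit at every vertical prime (U1), every non-vertical prime `p` gives a place of `F / K`
(`K ⊂ C_(p)`), and `(m : ℤ) ∣ v.ord u` at all places (U2), then `u = ε f ^ m`, `ε ∈ Cˣ`; moreover `f` is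
a `p`-unit at every vertical prime.

`exists_unit_mul_pow_of_dvd`: the form used at the closed points of a model: vertical = dividing
`d₀` (the image of the uniformiser of the base), `K ⊂ C[1/d₀]`.
-/
import Mathlib
import Fermat.Agent.RED.CORE.LocalStep15

set_option autoImplicit false

namespace Fermat.Agent.ES.P36.FactorMulti13

open AlgebraicCurve Fermat.Agent.RED.CORE Fermat.Agent.RED.CORE.UnitPow15
  Fermat.Agent.RED.CORE.PrimePlace15

variable {C : Type*} [CommRing C] [IsDomain C] [UniqueFactorizationMonoid C] {F : Type*} [Field F]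
  [Algebra C F] [IsFractionRing C F] (K : Type*) [Field K] [Algebra K F]

/-- **Factorisation with several vertical primes.** -/
theorem exists_unit_mul_pow_of_places_multi (V : C → Prop)
    (m : ℕ) (hm : m ≠ 0) (u : F) (hu : u ≠ 0)
    (hV : ∀ p : C, Prime p → V p → IsPUnit F p u)
    (hK : ∀ (p : C) (hp : Prime p), ¬ V p → ∀ a : K, algebraMap K F a ∈ primeVS F p hp)
    (U2 : ∀ v : Place K F, (m : ℤ) ∣ v.ord u) :
    ∃ (ε : Cˣ) (f : F), f ≠ 0 ∧ u = algebraMap C F (ε : C) * f ^ m := by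
  refine exists_unit_mul_pow m hm u hu fun p hp => ?_
  by_cases hpV : V p
  · refine ⟨1, one_ne_zero, ?_⟩
    rw [one_pow, div_one]
    exact hV p hp hpV
  · have hKp := hK p hp hpV
    exact exists_isPUnit_div_pow_of_dvd_ord hp hKp u hu m (U2 (primePlace hp K hKp))

/-- `f ^ m` a `p`-unit (`m ≠ 0`) implies `f` a `p`-unit. -/
theorem isPUnit_of_pow {p : C} (hp : Prime p) {m : ℕ} (hm : m ≠ 0) {f : F} (hf0 : f ≠ 0)
    (hfm : IsPUnit F p (f ^ m)) : IsPUnit F p f := by
  have hm' : 0 < m := Nat.pos_of_ne_zero hm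
  have h1 := (isPUnit_iff_mem_and_inv_mem hp (pow_ne_zero m hf0)).mp hfm
  have root : ∀ x : F, x ^ m ∈ primeVS F p hp → x ∈ primeVS F p hp := by
    intro x hx
    rcases (primeVS F p hp).mem_or_inv_mem x with h | h
    · exact h
    · rcases eq_or_ne x 0 with rfl | hx0
      · exact (primeVS F p hp).zero_mem
      · obtain ⟨m', rfl⟩ : ∃ m', m = m' + 1 := ⟨m - 1, (Nat.sub_add_cancel hm').symm⟩
        have : x = x ^ (m' + 1) * (x⁻¹) ^ m' := by
          rw [pow_succ, inv_pow]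
          field_simp
        rw [this]
        exact (primeVS F p hp).mul_mem _ _ hx (pow_mem h m')
  refine (isPUnit_iff_mem_and_inv_mem hp hf0).mpr ⟨root f h1.1, root f⁻¹ ?_⟩
  rw [inv_pow]
  exact h1.2

/-- **Factorisation, divisor form**: vertical primes = prime divisors of `d₀`. -/
theorem exists_unit_mul_pow_of_dvd (d₀ : C)
    (hK : ∀ a : K, ∃ (c : C) (n : ℕ), algebraMap K F a * algebraMap C F d₀ ^ n = algebraMap C F c)
    (m : ℕ) (hm : m ≠ 0) (u : F) (hu : u ≠ 0)
    (hV : ∀ p : C, Prime p → p ∣ d₀ → IsPUnit F p u)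
    (U2 : ∀ v : Place K F, (m : ℤ) ∣ v.ord u) :
    ∃ (ε : Cˣ) (f : F), f ≠ 0 ∧ u = algebraMap C F (ε : C) * f ^ m ∧
      ∀ p : C, Prime p → p ∣ d₀ → IsPUnit F p f := by
  obtain ⟨ε, f, hf0, huf⟩ := exists_unit_mul_pow_of_places_multi K (fun p => p ∣ d₀) m hm u hu hV
    (fun p hp hpd a => by
      obtain ⟨c, n, hc⟩ := hK a
      refine ⟨c, d₀ ^ n, fun h => hpd (hp.dvd_of_dvd_pow h), ?_⟩
      rw [map_pow]; exact hc) U2
  refine ⟨ε, f, hf0, huf, fun p hp hpd => ?_⟩
  apply isPUnit_of_pow hp hm hf0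
  have hεF : algebraMap C F (ε : C) ≠ 0 := by
    rw [Ne, map_eq_zero_iff _ (FaithfulSMul.algebraMap_injective C F)]
    exact ε.ne_zero
  have hεP : IsPUnit F p (algebraMap C F (ε : C)) :=
    isPUnit_algebraMap (fun h => hp.not_isUnit (isUnit_of_dvd_unit h ε.isUnit)) hp.not_dvd_one
  have : f ^ m = u * (algebraMap C F (ε : C))⁻¹ := by
    rw [huf]; field_simp
  rw [this]
  exact (hV p hp hpd).mul hp hεP.inv

/-- **Branch representative.**  `x` a prime element with `C / x` integrally closed; `u = ε f ^ m` with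
`f` an `x`-unit and `u ≡ 1 mod x C_(x)`.  Then the reduction of `f` along the branch `x` is the
reduction of an element `r ∈ C`: `f ≡ r mod x C_(x)`, and `ε r ^ m ≡ 1 mod x` (so `r` is a unit
modulo `x`). -/
theorem exists_branch_rep {x : C} (hx : Prime x) [IsIntegrallyClosed (C ⧸ Ideal.span {x})]
    (m : ℕ) (hm : m ≠ 0) (u : F) (ε : Cˣ) (f : F) (hfP : IsPUnit F x f)
    (huf : u = algebraMap C F (ε : C) * f ^ m)
    (hu1 : ∃ c ∈ primeVS F x hx, u - 1 = algebraMap C F x * c) :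
    ∃ r : C, x ∣ (ε : C) * r ^ m - 1 ∧
      ∃ o ∈ primeVS F x hx, f - algebraMap C F r = algebraMap C F x * o := by
  obtain ⟨c₀, hc₀, hu⟩ := hu1
  obtain ⟨a, b, ha, hb, hab⟩ := hfP
  have ha0 : a ≠ 0 := fun h => ha (h ▸ dvd_zero x)
  have hb0 : b ≠ 0 := fun h => hb (h ▸ dvd_zero x)
  have haF : algebraMap C F a ≠ 0 := by
    rwa [Ne, map_eq_zero_iff _ (FaithfulSMul.algebraMap_injective C F)]
  have hbF : algebraMap C F b ≠ 0 := by
    rwa [Ne, map_eq_zero_iff _ (FaithfulSMul.algebraMap_injective C F)]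
  have hfab : f = algebraMap C F a / algebraMap C F b := by
    rw [eq_div_iff hbF, hab]
  -- `ε a ^ m - b ^ m ∈ x C`
  have hdvd : x ∣ (ε : C) * a ^ m - b ^ m := by
    apply LocalStep15.dvd_of_eq_mul_mem hx (o := algebraMap C F b ^ m * c₀)
    · exact (primeVS F x hx).mul_mem _ _ (pow_mem (algebraMap_mem_primeVS hx b) m) hc₀
    · have h1 : u * algebraMap C F b ^ m = algebraMap C F (ε : C) * algebraMap C F a ^ m := by
        rw [huf, hfab, div_pow]; field_simp
      rw [map_sub, map_mul, map_pow, map_pow]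
      have : u = 1 + algebraMap C F x * c₀ := by linear_combination hu
      rw [this] at h1
      linear_combination (-1 : F) * h1
  set D := C ⧸ Ideal.span {x} with hD
  set qm : C →+* D := Ideal.Quotient.mk (Ideal.span {x}) with hqm
  have : (Ideal.span {x} : Ideal C).IsPrime := (Ideal.span_singleton_prime hx.ne_zero).mpr hx
  have : IsDomain D := Ideal.Quotient.isDomain _
  have hqeq : qm ((ε : C) * a ^ m) = qm (b ^ m) := by
    rw [← sub_eq_zero, ← map_sub, hqm, Ideal.Quotient.eq_zero_iff_mem,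
      Ideal.mem_span_singleton]
    exact hdvd
  have hdiv : qm b ^ m ∣ qm a ^ m := by
    refine ⟨qm ((ε⁻¹ : Cˣ) : C), ?_⟩
    rw [← map_pow, ← map_pow, ← hqeq, ← map_mul]
    congr 1
    have : (ε : C) * ((ε⁻¹ : Cˣ) : C) = 1 := Units.mul_inv ε
    linear_combination (-(a ^ m)) * this
  have hdiv' : qm b ∣ qm a := (IsIntegrallyClosed.pow_dvd_pow_iff hm).mp hdiv
  obtain ⟨v', hv'⟩ := hdiv'
  obtain ⟨v, rfl⟩ := Ideal.Quotient.mk_surjective v'
  have hdvd2 : x ∣ a - b * v := by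
    rw [← Ideal.mem_span_singleton, ← Ideal.Quotient.eq_zero_iff_mem, map_sub, map_mul]
    rw [hqm] at hv'
    rw [hv', sub_self]
  obtain ⟨w, hw⟩ := hdvd2
  refine ⟨v, ?_, algebraMap C F w * (algebraMap C F b)⁻¹, ?_, ?_⟩
  · -- `b ^ m (ε v ^ m - 1) ≡ ε a ^ m - b ^ m ≡ 0 mod x`
    have h1 : x ∣ b ^ m * ((ε : C) * v ^ m - 1) := by
      have h2 : x ∣ (ε : C) * ((b * v) ^ m - a ^ m) := by
        refine Dvd.dvd.mul_left ?_ _
        have h3 : b * v - a ∣ (b * v) ^ m - a ^ m := sub_dvd_pow_sub_pow _ _ m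
        refine dvd_trans ?_ h3
        exact ⟨-w, by rw [mul_neg, ← hw]; ring⟩
      have h4 : b ^ m * ((ε : C) * v ^ m - 1) =
          (ε : C) * ((b * v) ^ m - a ^ m) + ((ε : C) * a ^ m - b ^ m) := by ring
      rw [h4]
      exact dvd_add h2 hdvd
    rcases hx.dvd_or_dvd h1 with h | h
    · exact absurd (hx.dvd_of_dvd_pow h) hb
    · exact h
  · exact (primeVS F x hx).mul_mem _ _ (algebraMap_mem_primeVS hx w)
      (inv_algebraMap_mem_primeVS hx hb)
  · have h1 : algebraMap C F a - algebraMap C F b * algebraMap C F v =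
        algebraMap C F x * algebraMap C F w := by
      rw [← map_mul, ← map_sub, hw, map_mul]
    rw [hfab]
    field_simp
    linear_combination h1

/-- **Local factorisation with branch representatives** ("LocFact"): `C` a UFD, `K ⊂ C[1/d₀]`,
(U1') `u ≡ 1 mod p C_(p)` at every prime `p ∣ d₀`, (U2) `m ∣ ord_v u` at all places of `F / K`.
Then `u = ε f ^ m` with `ε ∈ Cˣ`, `f` a `p`-unit at every prime `p ∣ d₀`, and at every such `p`
with `C / p` integrally closed, `f ≡ r mod p C_(p)` for some `r ∈ C` with `ε r ^ m ≡ 1 mod p`. -/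
theorem exists_dec_of_dvd (d₀ : C)
    (hK : ∀ a : K, ∃ (c : C) (n : ℕ), algebraMap K F a * algebraMap C F d₀ ^ n = algebraMap C F c)
    (m : ℕ) (hm : m ≠ 0) (u : F)
    (hU1 : ∀ (p : C) (hp : Prime p), p ∣ d₀ →
      ∃ c ∈ primeVS F p hp, u - 1 = algebraMap C F p * c)
    (U2 : ∀ v : Place K F, (m : ℤ) ∣ v.ord u) (hu0 : u ≠ 0) :
    ∃ (ε : Cˣ) (f : F), f ≠ 0 ∧ u = algebraMap C F (ε : C) * f ^ m ∧
      ∀ (p : C) (hp : Prime p), p ∣ d₀ → IsPUnit F p f ∧
        (IsIntegrallyClosed (C ⧸ Ideal.span {p}) →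
          ∃ r : C, p ∣ (ε : C) * r ^ m - 1 ∧
            ∃ o ∈ primeVS F p hp, f - algebraMap C F r = algebraMap C F p * o) := by
  obtain ⟨ε, f, hf0, huf, hfP⟩ := exists_unit_mul_pow_of_dvd K d₀ hK m hm u hu0
    (fun p hp hpd => by
      obtain ⟨c, hc, hcu⟩ := hU1 p hp hpd
      exact LocalStep15.isPUnit_of_sub_one hp hc hcu) U2
  refine ⟨ε, f, hf0, huf, fun p hp hpd => ⟨hfP p hp hpd, fun hic => ?_⟩⟩
  exact exists_branch_rep hp m hm u ε f (hfP p hp hpd) huf (hU1 p hp hpd)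

omit [IsDomain C] [UniqueFactorizationMonoid C] in
/-- In a local ring, a branch representative (`ε r ^ m ≡ 1` modulo a non-unit `x`, `m ≠ 0`) is a
unit. -/
theorem isUnit_of_dvd_mul_pow_sub_one [IsLocalRing C] {x : C} (hx : ¬ IsUnit x) {ε r : C} {m : ℕ}
    (hm : m ≠ 0) (h : x ∣ ε * r ^ m - 1) : IsUnit r := by
  by_contra hr
  have hxm : x ∈ IsLocalRing.maximalIdeal C := by
    rwa [IsLocalRing.mem_maximalIdeal, mem_nonunits_iff]
  have hrm : r ∈ IsLocalRing.maximalIdeal C := by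
    rwa [IsLocalRing.mem_maximalIdeal, mem_nonunits_iff]
  have h1 : ε * r ^ m ∈ IsLocalRing.maximalIdeal C :=
    Ideal.mul_mem_left _ _ (Ideal.pow_mem_of_mem _ hrm m (Nat.pos_of_ne_zero hm))
  have h2 : ε * r ^ m - 1 ∈ IsLocalRing.maximalIdeal C := by
    obtain ⟨c, hc⟩ := h
    rw [hc]
    exact Ideal.mul_mem_right _ _ hxm
  have h3 : (1 : C) ∈ IsLocalRing.maximalIdeal C := by
    have := Ideal.sub_mem _ h1 h2
    rwa [sub_sub_cancel] at this
  exact (IsLocalRing.maximalIdeal.isMaximal C).ne_top ((Ideal.eq_top_iff_one _).mpr h3)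

end Fermat.Agent.ES.P36.FactorMulti13
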