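/-
Program P (S36), chapter (CL3)/NUM-P (helper13): REGULAR ORDINARY TRIPLE POINTS.

`TripleReg` = the contract for the output of (N1) type III (`S36_SS27` §1): at a maximal ideal
`𝔪 ∋ π` of a chart `B`, with `C := B_𝔪`: `C` is a UFD, `x₁ x₂ x₃ ∈ C` are pairwise non-associated
prime elements with `C / x_k` integrally closed (DVRs), pairwise transversal (`𝔪_C = (x_j, x_l)`),
`O i_k = C_(x_k)` (in the `(hC, hinv, hnu)` form of `LocalStep15`), and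
`π = w · x₁ ^ e₁ · x₂ ^ e₂ · x₃ ^ e₃` with `w ∈ Cˣ`, `1 ≤ e_k ≤ q`.

* `tripleData_of_reg` : `TripleReg → NumAbsP13.TripleData` (the `u`-independent input of `numAbsP`).
* `exists_tripleRep` : LocFact at a regular triple point: (U1) + (U2) give `u = ε f ^ m`, `f` a unit
  of the three `O i_k`, with UNIT branch representatives `r_k ∈ C`, `ε r_k ^ m ≡ 1 mod x_k`,
  `f ≡ r_k mod x_k O i_k`.  This is where (N3) (`BranchRel27`, `GlobMult18`) starts.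
-/
import Mathlib
import Fermat.Agent.ES.P36.FactorMulti13
import Fermat.Agent.ES.P36.NumAbsP13

set_option autoImplicit false

namespace Fermat.Agent.ES.P36.TripleReg13

open Fermat.Agent.RED.CORE Fermat.Agent.RED.CORE.UnitPow15 Fermat.Agent.ES.N34.NodalCore13
  Fermat.Agent.ES.N34.NodalSmooth13 Fermat.Agent.ES.P36.MultiCore13
  Fermat.Agent.ES.P36.NumAbsP13

section Defs

variable {R F : Type*} [CommRing R] [Field F] [Algebra R F]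

/-- **Regular ordinary triple point** (see the file header). -/
def TripleReg (q : ℕ) (π : R) (B : Subalgebra R F) {ι : Type*} (O : ι → ValuationSubring F)
    (𝔪 : Ideal B) [𝔪.IsPrime] (i₁ i₂ i₃ : ι) (x₁ x₂ x₃ : ↥(locSub B 𝔪)) : Prop :=
  (∀ j, j = i₁ ∨ j = i₂ ∨ j = i₃ ∨ OffBranch π B (O j) 𝔪) ∧
  UniqueFactorizationMonoid ↥(locSub B 𝔪) ∧
  Prime x₁ ∧ Prime x₂ ∧ Prime x₃ ∧ ¬ x₁ ∣ x₂ ∧ ¬ x₁ ∣ x₃ ∧ ¬ x₂ ∣ x₃ ∧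
  IsIntegrallyClosed (↥(locSub B 𝔪) ⧸ Ideal.span {x₁}) ∧
  IsIntegrallyClosed (↥(locSub B 𝔪) ⧸ Ideal.span {x₂}) ∧
  IsIntegrallyClosed (↥(locSub B 𝔪) ⧸ Ideal.span {x₃}) ∧
  IsLocalRing.maximalIdeal ↥(locSub B 𝔪) = Ideal.span {x₁, x₂} ∧
  IsLocalRing.maximalIdeal ↥(locSub B 𝔪) = Ideal.span {x₁, x₃} ∧
  IsLocalRing.maximalIdeal ↥(locSub B 𝔪) = Ideal.span {x₂, x₃} ∧
  ((∀ c : ↥(locSub B 𝔪), (c : F) ∈ O i₁) ∧ (∀ c : ↥(locSub B 𝔪), ¬ x₁ ∣ c → ((c : F))⁻¹ ∈ O i₁) ∧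
    ((x₁ : F))⁻¹ ∉ O i₁) ∧
  ((∀ c : ↥(locSub B 𝔪), (c : F) ∈ O i₂) ∧ (∀ c : ↥(locSub B 𝔪), ¬ x₂ ∣ c → ((c : F))⁻¹ ∈ O i₂) ∧
    ((x₂ : F))⁻¹ ∉ O i₂) ∧
  ((∀ c : ↥(locSub B 𝔪), (c : F) ∈ O i₃) ∧ (∀ c : ↥(locSub B 𝔪), ¬ x₃ ∣ c → ((c : F))⁻¹ ∈ O i₃) ∧
    ((x₃ : F))⁻¹ ∉ O i₃) ∧
  ∃ (w : (↥(locSub B 𝔪))ˣ) (e₁ e₂ e₃ : ℕ), 0 < e₁ ∧ e₁ ≤ q ∧ 0 < e₂ ∧ e₂ ≤ q ∧ 0 < e₃ ∧ e₃ ≤ q ∧
    algebraMap R ↥(locSub B 𝔪) π = (w : ↥(locSub B 𝔪)) * x₁ ^ e₁ * x₂ ^ e₂ * x₃ ^ e₃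

end Defs

section Data

variable {R F : Type*} [CommRing R] [Field F] [Algebra R F]

/-- A regular triple point supplies the `u`-independent input `TripleData` of `numAbsP`. -/
theorem tripleData_of_reg (q : ℕ) (π : R) (B : Subalgebra R F) {ι : Type*}
    (O : ι → ValuationSubring F) (𝔪 : Ideal B) [h𝔪 : 𝔪.IsPrime] (i₁ i₂ i₃ : ι)
    (x₁ x₂ x₃ : ↥(locSub B 𝔪)) (pi_ne : algebraMap R F π ≠ 0)
    (h : TripleReg q π B O 𝔪 i₁ i₂ i₃ x₁ x₂ x₃) : TripleData q π B O 𝔪 i₁ i₂ i₃ x₁ x₂ x₃ := by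
  obtain ⟨hcover, hufd, hp₁, hp₂, hp₃, h12', h13', h23', -, -, -, h12, h13, h23,
    ⟨hC₁, hinv₁, -⟩, ⟨hC₂, hinv₂, -⟩, ⟨hC₃, hinv₃, -⟩, w, e₁, e₂, e₃, he₁, he₁q, he₂, he₂q,
    he₃, he₃q, hfac⟩ := h
  -- the reverse non-divisibilities
  have hrev : ∀ {a b : ↥(locSub B 𝔪)}, Prime a → Prime b → ¬ a ∣ b → ¬ b ∣ a := by
    intro a b ha hb hab hba
    obtain ⟨c, hc⟩ := hba
    rcases ha.irreducible.isUnit_or_isUnit hc with hu | hu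
    · exact hb.not_isUnit hu
    · apply hab
      obtain ⟨c', hc'⟩ := hu.exists_right_inv
      exact ⟨c', by rw [hc, mul_assoc, hc', mul_one]⟩
  have h21' := hrev hp₁ hp₂ h12'
  have h31' := hrev hp₁ hp₃ h13'
  have h32' := hrev hp₂ hp₃ h23'
  have hfacF : algebraMap R F π = ((w : ↥(locSub B 𝔪)) : F) * (x₁ : F) ^ e₁ * (x₂ : F) ^ e₂ *
      (x₃ : F) ^ e₃ := by
    have := congrArg (fun z : ↥(locSub B 𝔪) => (z : F)) hfac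
    simpa using this
  have hwinv : ∀ (Ov : ValuationSubring F), (∀ c : ↥(locSub B 𝔪), (c : F) ∈ Ov) →
      (((w : ↥(locSub B 𝔪)) : F))⁻¹ ∈ Ov := by
    intro Ov hC
    have h1 : ((w : ↥(locSub B 𝔪)) : F) * (((w⁻¹ : (↥(locSub B 𝔪))ˣ) : ↥(locSub B 𝔪)) : F) = 1 := by
      have h0 : ((w : ↥(locSub B 𝔪)) * ((w⁻¹ : (↥(locSub B 𝔪))ˣ) : ↥(locSub B 𝔪)) : ↥(locSub B 𝔪))
          = 1 := Units.mul_inv w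
      have := congrArg (fun z : ↥(locSub B 𝔪) => (z : F)) h0
      exact this
    rw [inv_eq_of_mul_eq_one_right h1]
    exact hC _
  obtain ⟨e₁', rfl⟩ : ∃ e', e₁ = e' + 1 := ⟨e₁ - 1, by omega⟩
  obtain ⟨e₂', rfl⟩ : ∃ e', e₂ = e' + 1 := ⟨e₂ - 1, by omega⟩
  obtain ⟨e₃', rfl⟩ : ∃ e', e₃ = e' + 1 := ⟨e₃ - 1, by omega⟩
  refine ⟨hcover, h12, h13, h23, hC₁, hC₂, hC₃, ?_, ?_, ?_, ?_, ?_, ?_⟩
  · refine ⟨(w : ↥(locSub B 𝔪)) * x₁ ^ e₁' * x₂ ^ (e₂' + 1) * x₃ ^ (e₃' + 1), ?_⟩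
    rw [hfacF]; push_cast; ring
  · refine ⟨(w : ↥(locSub B 𝔪)) * x₁ ^ (e₁' + 1) * x₂ ^ e₂' * x₃ ^ (e₃' + 1), ?_⟩
    rw [hfacF]; push_cast; ring
  · refine ⟨(w : ↥(locSub B 𝔪)) * x₁ ^ (e₁' + 1) * x₂ ^ (e₂' + 1) * x₃ ^ e₃', ?_⟩
    rw [hfacF]; push_cast; ring
  · refine LocTripleM13.pow_mem_of_fac (O i₁) _ (x₁ : F) ((w : ↥(locSub B 𝔪)) : F)
      ((x₂ : F) ^ (e₂' + 1) * (x₃ : F) ^ (e₃' + 1)) (hC₁ x₁) (hwinv _ hC₁) ?_ (e₁' + 1) q he₁q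
      pi_ne (by rw [hfacF]; ring)
    rw [mul_inv, ← inv_pow, ← inv_pow]
    exact (O i₁).mul_mem _ _ (pow_mem (hinv₁ x₂ h12') _) (pow_mem (hinv₁ x₃ h13') _)
  · refine LocTripleM13.pow_mem_of_fac (O i₂) _ (x₂ : F) ((w : ↥(locSub B 𝔪)) : F)
      ((x₁ : F) ^ (e₁' + 1) * (x₃ : F) ^ (e₃' + 1)) (hC₂ x₂) (hwinv _ hC₂) ?_ (e₂' + 1) q he₂q
      pi_ne (by rw [hfacF]; ring)
    rw [mul_inv, ← inv_pow, ← inv_pow]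
    exact (O i₂).mul_mem _ _ (pow_mem (hinv₂ x₁ h21') _) (pow_mem (hinv₂ x₃ h23') _)
  · refine LocTripleM13.pow_mem_of_fac (O i₃) _ (x₃ : F) ((w : ↥(locSub B 𝔪)) : F)
      ((x₁ : F) ^ (e₁' + 1) * (x₂ : F) ^ (e₂' + 1)) (hC₃ x₃) (hwinv _ hC₃) ?_ (e₃' + 1) q he₃q
      pi_ne (by rw [hfacF]; ring)
    rw [mul_inv, ← inv_pow, ← inv_pow]
    exact (O i₃).mul_mem _ _ (pow_mem (hinv₃ x₁ h31') _) (pow_mem (hinv₃ x₂ h32') _)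

end Data

section Rep

variable {R K F : Type*} [CommRing R] [Field K] [Field F] [Algebra R K] [Algebra K F]
  [Algebra R F] [IsScalarTower R K F]

/-- **LocFact at a regular triple point**: (U1) + (U2) give a local factorisation `u = ε f ^ m`
with UNIT branch representatives. -/
theorem exists_tripleRep (q : ℕ) (π : R) (B : Subalgebra R F) {ι : Type*}
    (O : ι → ValuationSubring F) (𝔪 : Ideal B) [h𝔪 : 𝔪.IsPrime] (i₁ i₂ i₃ : ι)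
    (x₁ x₂ x₃ : ↥(locSub B 𝔪)) (fracR : IsFractionRing R K)
    (dvrR : ∀ r : R, r ≠ 0 → ∃ (k : ℕ) (v : Rˣ), r = π ^ k * v)
    (frac : ∀ y : F, ∃ a ∈ B, ∃ b ∈ B, b ≠ 0 ∧ y * b = a)
    (h : TripleReg q π B O 𝔪 i₁ i₂ i₃ x₁ x₂ x₃)
    (m : ℕ) (hm : m ≠ 0) (u : F) (hu1 : PiOM π O (u - 1))
    (hu2 : ∀ v : AlgebraicCurve.Place K F, (m : ℤ) ∣ v.ord u) :
    ∃ (ε : (↥(locSub B 𝔪))ˣ) (f : F) (r₁ r₂ r₃ : ↥(locSub B 𝔪)), f ≠ 0 ∧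
      u = ((ε : ↥(locSub B 𝔪)) : F) * f ^ m ∧
      (f ∈ O i₁ ∧ f⁻¹ ∈ O i₁) ∧ (f ∈ O i₂ ∧ f⁻¹ ∈ O i₂) ∧ (f ∈ O i₃ ∧ f⁻¹ ∈ O i₃) ∧
      IsUnit r₁ ∧ IsUnit r₂ ∧ IsUnit r₃ ∧
      x₁ ∣ (ε : ↥(locSub B 𝔪)) * r₁ ^ m - 1 ∧ x₂ ∣ (ε : ↥(locSub B 𝔪)) * r₂ ^ m - 1 ∧
      x₃ ∣ (ε : ↥(locSub B 𝔪)) * r₃ ^ m - 1 ∧
      (∃ o ∈ O i₁, f - (r₁ : F) = (x₁ : F) * o) ∧ (∃ o ∈ O i₂, f - (r₂ : F) = (x₂ : F) * o) ∧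
      (∃ o ∈ O i₃, f - (r₃ : F) = (x₃ : F) * o) := by
  classical
  obtain ⟨-, hufd, hp₁, hp₂, hp₃, -, -, -, hic₁, hic₂, hic₃, -, -, -,
    ⟨hC₁, hinv₁, hnu₁⟩, ⟨hC₂, hinv₂, hnu₂⟩, ⟨hC₃, hinv₃, hnu₃⟩, w, e₁, e₂, e₃, he₁, -, he₂, -,
    he₃, -, hfac⟩ := h
  have hfracC : IsFractionRing ↥(locSub B 𝔪) F := by
    refine IsFractionRing.of_field ↥(locSub B 𝔪) F fun z => ?_
    obtain ⟨a, ha, b, hb, hb0, hab⟩ := frac z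
    refine ⟨⟨a, le_locSub B 𝔪 ha⟩, ⟨b, le_locSub B 𝔪 hb⟩, ?_⟩
    show z = a / b
    rw [eq_div_iff hb0, hab]
  set d₀ : ↥(locSub B 𝔪) := algebraMap R ↥(locSub B 𝔪) π with hd₀
  have hd₀F : ((d₀ : ↥(locSub B 𝔪)) : F) = algebraMap R F π := rfl
  have hK : ∀ a : K, ∃ (c : ↥(locSub B 𝔪)) (n : ℕ),
      algebraMap K F a * algebraMap ↥(locSub B 𝔪) F d₀ ^ n = algebraMap ↥(locSub B 𝔪) F c := by
    intro a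
    have := fracR
    exact LocalStep15.hK_of_dvr (R := R) (K := K) (C := ↥(locSub B 𝔪)) (F := F) π dvrR a
  -- `x_k ∣ d₀`
  obtain ⟨e₁', rfl⟩ : ∃ e', e₁ = e' + 1 := ⟨e₁ - 1, by omega⟩
  obtain ⟨e₂', rfl⟩ : ∃ e', e₂ = e' + 1 := ⟨e₂ - 1, by omega⟩
  obtain ⟨e₃', rfl⟩ : ∃ e', e₃ = e' + 1 := ⟨e₃ - 1, by omega⟩
  have hx₁d : x₁ ∣ d₀ :=
    ⟨(w : ↥(locSub B 𝔪)) * x₁ ^ e₁' * x₂ ^ (e₂' + 1) * x₃ ^ (e₃' + 1), by rw [hfac]; ring⟩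
  have hx₂d : x₂ ∣ d₀ :=
    ⟨(w : ↥(locSub B 𝔪)) * x₁ ^ (e₁' + 1) * x₂ ^ e₂' * x₃ ^ (e₃' + 1), by rw [hfac]; ring⟩
  have hx₃d : x₃ ∣ d₀ :=
    ⟨(w : ↥(locSub B 𝔪)) * x₁ ^ (e₁' + 1) * x₂ ^ (e₂' + 1) * x₃ ^ e₃', by rw [hfac]; ring⟩
  -- the vertical primes
  have hvert : ∀ p : ↥(locSub B 𝔪), Prime p → p ∣ d₀ → x₁ ∣ p ∨ x₂ ∣ p ∨ x₃ ∣ p := by
    intro p hp hpd
    have hass : ∀ {x : ↥(locSub B 𝔪)}, Prime x → p ∣ x → x ∣ p := by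
      intro x hx hpx
      obtain ⟨c, hc⟩ := hpx
      rcases hx.irreducible.isUnit_or_isUnit hc with hu | hu
      · exact absurd hu hp.not_isUnit
      · obtain ⟨c', hc'⟩ := hu.exists_right_inv
        exact ⟨c', by rw [hc, mul_assoc, hc', mul_one]⟩
    rw [hfac] at hpd
    rcases hp.dvd_or_dvd hpd with h123 | h3
    · rcases hp.dvd_or_dvd h123 with h12 | h2
      · rcases hp.dvd_or_dvd h12 with hw | h1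
        · exact absurd (isUnit_of_dvd_unit hw w.isUnit) hp.not_isUnit
        · exact Or.inl (hass hp₁ (hp.dvd_of_dvd_pow h1))
      · exact Or.inr (Or.inl (hass hp₂ (hp.dvd_of_dvd_pow h2)))
    · exact Or.inr (Or.inr (hass hp₃ (hp.dvd_of_dvd_pow h3)))
  obtain ⟨c₀, hc₀, huc⟩ := hu1
  -- transfer of membership between `O i_k` and `C_(p)` for `x_k ∣ p`
  have hmemp : ∀ (p x : ↥(locSub B 𝔪)) (hp : Prime p) (hx : Prime x) (Ov : ValuationSubring F),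
      (∀ c : ↥(locSub B 𝔪), (c : F) ∈ Ov) → (∀ c : ↥(locSub B 𝔪), ¬ x ∣ c → ((c : F))⁻¹ ∈ Ov) →
      ((x : F))⁻¹ ∉ Ov → x ∣ p → c₀ ∈ Ov → c₀ ∈ primeVS F p hp := by
    intro p x hp hx Ov hC hinv hnu hxp hc
    obtain ⟨a, b, hb, hab⟩ := LocalStep15.mem_primeVS_of_mem hx Ov hC hinv hnu hc
    exact ⟨a, b, fun hpb => hb (dvd_trans hxp hpb), hab⟩
  have hU1 : ∀ (p : ↥(locSub B 𝔪)) (hp : Prime p), p ∣ d₀ →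
      ∃ c ∈ primeVS F p hp, u - 1 = algebraMap ↥(locSub B 𝔪) F p * c := by
    intro p hp hpd
    obtain ⟨π', hπ'⟩ := hpd
    have hc₀p : c₀ ∈ primeVS F p hp := by
      rcases hvert p hp ⟨π', hπ'⟩ with h | h | h
      · exact hmemp p x₁ hp hp₁ (O i₁) hC₁ hinv₁ hnu₁ h (hc₀ i₁)
      · exact hmemp p x₂ hp hp₂ (O i₂) hC₂ hinv₂ hnu₂ h (hc₀ i₂)
      · exact hmemp p x₃ hp hp₃ (O i₃) hC₃ hinv₃ hnu₃ h (hc₀ i₃)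
    refine ⟨algebraMap ↥(locSub B 𝔪) F π' * c₀,
      (primeVS F p hp).mul_mem _ _ (algebraMap_mem_primeVS hp π') hc₀p, ?_⟩
    rw [huc, ← hd₀F, hπ']
    show ((p * π' : ↥(locSub B 𝔪)) : F) * c₀ = (p : F) * ((π' : F) * c₀)
    push_cast; ring
  -- `u ≠ 0`
  have hu0 : u ≠ 0 := by
    rintro rfl
    apply hnu₁
    obtain ⟨π', hπ'⟩ := hx₁d
    have hπF : algebraMap R F π = (x₁ : F) * (π' : F) := by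
      rw [← hd₀F, hπ']; push_cast; rfl
    have hx₁0 : (x₁ : F) ≠ 0 := fun h0 => hp₁.ne_zero (Subtype.ext h0)
    have : ((x₁ : F))⁻¹ = -((π' : F) * c₀) := by
      rw [hπF] at huc
      apply inv_eq_of_mul_eq_one_right
      linear_combination huc
    rw [this]
    exact neg_mem ((O i₁).mul_mem _ _ (hC₁ π') (hc₀ i₁))
  obtain ⟨ε, f, hf0, huf, hall⟩ :=
    FactorMulti13.exists_dec_of_dvd (C := ↥(locSub B 𝔪)) (F := F) K d₀ hK m hm u hU1 hu2 hu0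
  -- the three branches
  have hbranch : ∀ (x : ↥(locSub B 𝔪)) (hx : Prime x) (Ov : ValuationSubring F),
      (∀ c : ↥(locSub B 𝔪), (c : F) ∈ Ov) → (∀ c : ↥(locSub B 𝔪), ¬ x ∣ c → ((c : F))⁻¹ ∈ Ov) →
      x ∣ d₀ → IsIntegrallyClosed (↥(locSub B 𝔪) ⧸ Ideal.span {x}) →
      (f ∈ Ov ∧ f⁻¹ ∈ Ov) ∧ ∃ r : ↥(locSub B 𝔪), IsUnit r ∧ x ∣ (ε : ↥(locSub B 𝔪)) * r ^ m - 1 ∧
        ∃ o ∈ Ov, f - (r : F) = (x : F) * o := by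
    intro x hx Ov hC hinv hxd hic
    obtain ⟨hfP, hrep⟩ := hall x hx hxd
    obtain ⟨hf1, hf2⟩ := (isPUnit_iff_mem_and_inv_mem hx hf0).mp hfP
    refine ⟨⟨LocalStep15.mem_of_mem_primeVS hx Ov hC hinv hf1,
      LocalStep15.mem_of_mem_primeVS hx Ov hC hinv hf2⟩, ?_⟩
    obtain ⟨r, hr, o, ho, hfo⟩ := hrep hic
    exact ⟨r, FactorMulti13.isUnit_of_dvd_mul_pow_sub_one hx.not_isUnit hm hr, hr, o,
      LocalStep15.mem_of_mem_primeVS hx Ov hC hinv ho, hfo⟩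
  obtain ⟨hf₁, r₁, hr₁u, hr₁, ho₁⟩ := hbranch x₁ hp₁ (O i₁) hC₁ hinv₁ hx₁d hic₁
  obtain ⟨hf₂, r₂, hr₂u, hr₂, ho₂⟩ := hbranch x₂ hp₂ (O i₂) hC₂ hinv₂ hx₂d hic₂
  obtain ⟨hf₃, r₃, hr₃u, hr₃, ho₃⟩ := hbranch x₃ hp₃ (O i₃) hC₃ hinv₃ hx₃d hic₃
  exact ⟨ε, f, r₁, r₂, r₃, hf0, huf, hf₁, hf₂, hf₃, hr₁u, hr₂u, hr₃u, hr₁, hr₂, hr₃, ho₁, ho₂, ho₃⟩

end Rep

end Fermat.Agent.ES.P36.TripleReg13
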