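/-
Program P (S36), chapter NUM-P (helper13): the CONTRACT between MODEL-P/REG (M7) and the NUM-P
assembly (C2), in abstract form (generic in `R K F π t B0 B1 O`).

`NumInputP` = everything `u`-independent that `NumAbsP13.numAbsP` consumes:
* the multi-component two-chart model (`MultiCore13.MultiChartModel`),
* `R` a DVR with uniformiser `π` and fraction field `K`, `π ∣ q` (`q` the residue characteristic),
* `K` algebraically closed in `F`,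
* the charts are noetherian with fraction field `F`,
* every closed point `𝔪 ∋ π` of a chart is a single-branch point (`NumAbsP13.OneBranch`: types I, II)
  or a regular ordinary triple point (`TripleReg13.TripleReg`: type III) of the three FIXED
  components `j₁ j₂ j₃` (for `X₀(q² M')`: `O j₁ = O₁` (∞-branch, `e = 1`), `O j₂ = O₂` (middle,
  `e = q − 1`), `O j₃ = O₃` (Fricke branch, `e = 1`)).

`numP_of_input`: `NumInputP` + (U1) + (U2) + (N3) [`TripleDec` for `u` at every regular triple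
point] ⊢ `u ^ (q ^ 2) = c⁻¹ S ^ m`.
-/
import Mathlib
import Fermat.Agent.ES.P36.NumAbsP13
import Fermat.Agent.ES.P36.TripleReg13

set_option autoImplicit false

namespace Fermat.Agent.ES.P36.NumInputP13

open Fermat.Agent.ES.N34.NodalSmooth13 Fermat.Agent.ES.P36.MultiCore13
  Fermat.Agent.ES.P36.LocTriple13 Fermat.Agent.ES.P36.NumAbsP13 Fermat.Agent.ES.P36.TripleReg13

section Contract

variable (R K F : Type*) [CommRing R] [Field K] [Field F] [Algebra R K] [Algebra K F]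
  [Algebra R F] [IsScalarTower R K F]

/-- **The MODEL-P/REG contract of NUM-P** (see the file header). -/
structure NumInputP (q : ℕ) (π : R) (t : F) (B0 B1 : Subalgebra R F) {ι : Type*}
    (O : ι → ValuationSubring F) (j₁ j₂ j₃ : ι) : Prop where
  model : MultiChartModel R F π t B0 B1 O
  fracR : IsFractionRing R K
  dvrR : ∀ r : R, r ≠ 0 → ∃ (k : ℕ) (v : Rˣ), r = π ^ k * v
  noeth0 : IsNoetherianRing B0
  noeth1 : IsNoetherianRing B1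
  frac0 : ∀ y : F, ∃ a ∈ B0, ∃ b ∈ B0, b ≠ 0 ∧ y * b = a
  frac1 : ∀ y : F, ∃ a ∈ B1, ∃ b ∈ B1, b ≠ 0 ∧ y * b = a
  qprime : q.Prime
  qpi : ∃ r : R, (q : R) = π * r
  algClosed : ∀ y : F, IsAlgebraic K y → ∃ c : K, algebraMap K F c = y
  pts0 : ∀ (𝔪 : Ideal B0) (h𝔪 : 𝔪.IsMaximal), algebraMap R B0 π ∈ 𝔪 →
    @OneBranch R F _ _ _ q π B0 ι O 𝔪 h𝔪.isPrime ∨
    ∃ (x₁ x₂ x₃ : ↥(@locSub R F _ _ _ B0 𝔪 h𝔪.isPrime)),
      @TripleReg R F _ _ _ q π B0 ι O 𝔪 h𝔪.isPrime j₁ j₂ j₃ x₁ x₂ x₃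
  pts1 : ∀ (𝔪 : Ideal B1) (h𝔪 : 𝔪.IsMaximal), algebraMap R B1 π ∈ 𝔪 →
    @OneBranch R F _ _ _ q π B1 ι O 𝔪 h𝔪.isPrime ∨
    ∃ (x₁ x₂ x₃ : ↥(@locSub R F _ _ _ B1 𝔪 h𝔪.isPrime)),
      @TripleReg R F _ _ _ q π B1 ι O 𝔪 h𝔪.isPrime j₁ j₂ j₃ x₁ x₂ x₃

end Contract

section Assembly

variable {R K F : Type*} [CommRing R] [Field K] [Field F] [Algebra R K] [Algebra K F]
  [Algebra R F] [IsScalarTower R K F]

/-- (N3) as a hypothesis on one chart: equal branch values for `u` at every regular triple point. -/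
def BranchEqAt (q : ℕ) (π : R) (B : Subalgebra R F) {ι : Type*} (O : ι → ValuationSubring F)
    (j₁ j₂ j₃ : ι) (m : ℕ) (u : F) : Prop :=
  ∀ (𝔪 : Ideal B) (h𝔪 : 𝔪.IsMaximal), algebraMap R B π ∈ 𝔪 →
    ∀ (x₁ x₂ x₃ : ↥(@locSub R F _ _ _ B 𝔪 h𝔪.isPrime)),
      @TripleReg R F _ _ _ q π B ι O 𝔪 h𝔪.isPrime j₁ j₂ j₃ x₁ x₂ x₃ →
      TripleDec (C := ↥(@locSub R F _ _ _ B 𝔪 h𝔪.isPrime)) (O j₁) (O j₂) (O j₃) x₁ x₂ x₃ m u

/-- **NUM-P from the model contract**: (U1) + (U2) + (N3) ⊢ `u ^ (q ^ 2)` is a constant times an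
`m`-th power. -/
theorem numP_of_input {ι : Type*} [Finite ι] (q : ℕ) (π : R) (t : F) (B0 B1 : Subalgebra R F)
    (O : ι → ValuationSubring F) (j₁ j₂ j₃ : ι) (I : NumInputP R K F q π t B0 B1 O j₁ j₂ j₃)
    (m : ℕ) (hm : 0 < m) (minv : R) (hminv : (m : R) * minv = 1)
    (u : F) (hu1 : PiOM π O (u - 1))
    (hu2 : ∀ v : AlgebraicCurve.Place K F, (m : ℤ) ∣ v.ord u)
    (hN3_0 : BranchEqAt q π B0 O j₁ j₂ j₃ m u) (hN3_1 : BranchEqAt q π B1 O j₁ j₂ j₃ m u) :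
    ∃ s : F, s ≠ 0 ∧ ∃ c : K, c ≠ 0 ∧ s ^ m = algebraMap K F c * u ^ (q ^ 2) := by
  refine numAbsP (K := K) π t B0 B1 O I.model I.fracR I.dvrR I.noeth0 I.noeth1 I.frac0 I.frac1 q
    I.qprime I.qpi m hm minv hminv u hu1 hu2 ?_ ?_ I.algClosed
  · intro 𝔪 h𝔪 hπ
    have h𝔪p : 𝔪.IsPrime := h𝔪.isPrime
    rcases I.pts0 𝔪 h𝔪 hπ with h | ⟨x₁, x₂, x₃, hreg⟩
    · exact Or.inl h
    · exact Or.inr ⟨j₁, j₂, j₃, x₁, x₂, x₃,
        tripleData_of_reg q π B0 O 𝔪 j₁ j₂ j₃ x₁ x₂ x₃ I.model.pi_ne hreg,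
        hN3_0 𝔪 h𝔪 hπ x₁ x₂ x₃ hreg⟩
  · intro 𝔪 h𝔪 hπ
    have h𝔪p : 𝔪.IsPrime := h𝔪.isPrime
    rcases I.pts1 𝔪 h𝔪 hπ with h | ⟨x₁, x₂, x₃, hreg⟩
    · exact Or.inl h
    · exact Or.inr ⟨j₁, j₂, j₃, x₁, x₂, x₃,
        tripleData_of_reg q π B1 O 𝔪 j₁ j₂ j₃ x₁ x₂ x₃ I.model.pi_ne hreg,
        hN3_1 𝔪 h𝔪 hπ x₁ x₂ x₃ hreg⟩

end Assembly

end Fermat.Agent.ES.P36.NumInputP13
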