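/-
Program P (S36), chapter (SS), brick S6 (helper18): **the global multiplier** (S36_SS27 §4 (e)–(g)).

Three pairwise incomparable vertical valuation rings `O₁ O₂ O₃` of `F`, `π` a common non-unit,
`q` prime with `q ∈ π Oⱼ` and `𝔪ⱼ ^ q ⊂ π Oⱼ` (`vⱼ(π) ≤ q − 1`), `m` prime to `q`.
`Θα Θβ ∈ F` two `m`-th roots of unity (the two GLOBAL constants of (N3)).

* `branch_pow_congr` (e): in a local ring, the two branch relations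
  `r₁ r₂^(q-1) ≡ θα r₃^q`, `r₃ r₂^(q-1) ≡ θβ r₁^q (mod 𝔪)` give
  `(θα θβ^q) r₁^(q²-1) ≡ r₂^(q²-1) ≡ (θβ θα^q) r₃^(q²-1) (mod 𝔪)`.
* `exists_multiplier` (f): `s ≠ 0` with `s ≡ Θα Θβ^q mod π O₁`, `s ≡ 1 mod π O₂`,
  `s ≡ Θβ Θα^q mod π O₃`, and `s ^ m ≡ 1 mod π (O₁ ∩ O₂ ∩ O₃)`; `s` is a unit at the three places.
* `u1_mul` : (U1) for `u ^ k * s ^ m`.
* `branch_data_mul` (g): at a triple point, the literal inputs `ε f huf hfinvⱼ a hbrⱼ` of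
  `LocTriple13.triple_start` for `u₂ := u ^ (q ^ 2 - 1) * s ^ m`, from a factorisation of `u`
  with branch representatives satisfying the two relations.
-/
import Mathlib
import Fermat.Agent.ES.P36.Approx3v9

set_option autoImplicit false

namespace Fermat.Agent.ES.P36.GlobMult18

open IsLocalRing Fermat.Agent.ES.P36.Approx3v9

/-! ### (e) the branch relations -/

section Local

variable {C : Type*} [CommRing C] [IsLocalRing C]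

/-- (e) the two branch relations determine the `(q² − 1)`-st powers of the ratios of the branch
values. -/
theorem branch_pow_congr (q : ℕ) (hq : 1 ≤ q) {r₁ r₂ r₃ θα θβ : C}
    (hr₁ : IsUnit r₁) (hr₃ : IsUnit r₃)
    (hα : r₁ * r₂ ^ (q - 1) - θα * r₃ ^ q ∈ maximalIdeal C)
    (hβ : r₃ * r₂ ^ (q - 1) - θβ * r₁ ^ q ∈ maximalIdeal C) :
    (θα * θβ ^ q) * r₁ ^ (q ^ 2 - 1) - r₂ ^ (q ^ 2 - 1) ∈ maximalIdeal C ∧
      (θβ * θα ^ q) * r₃ ^ (q ^ 2 - 1) - r₂ ^ (q ^ 2 - 1) ∈ maximalIdeal C := by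
  obtain ⟨n, rfl⟩ : ∃ n, q = n + 1 := ⟨q - 1, by omega⟩
  have he : (n + 1) ^ 2 - 1 = n * (n + 2) := by
    have : (n + 1) ^ 2 = n * (n + 2) + 1 := by ring
    omega
  rw [he, Nat.add_sub_cancel] at *
  simp only [← residue_eq_zero_iff, map_sub, map_mul, map_pow, sub_eq_zero] at hα hβ ⊢
  set x₁ := residue C r₁
  set x₂ := residue C r₂
  set x₃ := residue C r₃
  set A := residue C θα
  set B := residue C θβ
  have hx₁ : x₁ ≠ 0 := (hr₁.map (residue C)).ne_zero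
  have hx₃ : x₃ ≠ 0 := (hr₃.map (residue C)).ne_zero
  constructor
  · apply mul_left_cancel₀ hx₁
    symm
    calc x₁ * x₂ ^ (n * (n + 2)) = (x₁ * x₂ ^ n) * (x₂ ^ n) ^ (n + 1) := by ring
      _ = (A * x₃ ^ (n + 1)) * (x₂ ^ n) ^ (n + 1) := by rw [hα]
      _ = A * (x₃ * x₂ ^ n) ^ (n + 1) := by ring
      _ = A * (B * x₁ ^ (n + 1)) ^ (n + 1) := by rw [hβ]
      _ = x₁ * (A * B ^ (n + 1) * x₁ ^ (n * (n + 2))) := by ring
  · apply mul_left_cancel₀ hx₃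
    symm
    calc x₃ * x₂ ^ (n * (n + 2)) = (x₃ * x₂ ^ n) * (x₂ ^ n) ^ (n + 1) := by ring
      _ = (B * x₁ ^ (n + 1)) * (x₂ ^ n) ^ (n + 1) := by rw [hβ]
      _ = B * (x₁ * x₂ ^ n) ^ (n + 1) := by ring
      _ = B * (A * x₃ ^ (n + 1)) ^ (n + 1) := by rw [hα]
      _ = x₃ * (B * A ^ (n + 1) * x₃ ^ (n * (n + 2))) := by ring

end Local

/-! ### Generic tools -/

section Tools

variable {F : Type*} [Field F]

/-- a root of unity has valuation one. -/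
theorem val_eq_one_of_pow_eq_one (O : ValuationSubring F) {x : F} {m : ℕ} (hm : m ≠ 0)
    (hx : x ^ m = 1) : O.valuation x = 1 := by
  have h : O.valuation x ^ m = 1 := by rw [← map_pow, hx, map_one]
  exact (pow_eq_one_iff.mp h).resolve_right hm

theorem mem_of_val_eq_one (O : ValuationSubring F) {x : F} (hx : O.valuation x = 1) : x ∈ O :=
  (O.valuation_le_one_iff x).mp hx.le

theorem inv_mem_of_val_eq_one (O : ValuationSubring F) {x : F} (hx : O.valuation x = 1) :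
    x⁻¹ ∈ O := by
  apply mem_of_val_eq_one
  rw [map_inv₀, hx, inv_one]

/-- `q`-th roots inside `μ_m`, `gcd(q, m) = 1`. -/
theorem exists_root_of_pow_eq_one {q m : ℕ} (hm : m ≠ 0) (hcop : Nat.Coprime q m) {l : F}
    (hl : l ^ m = 1) : ∃ μ : F, μ ^ q = l ∧ μ ^ m = 1 := by
  have hco : IsCoprime (q : ℤ) (m : ℤ) := Nat.isCoprime_iff_coprime.mpr hcop
  obtain ⟨a, b, hab⟩ := hco
  have hl0 : l ≠ 0 := by
    rintro rfl
    rw [zero_pow hm] at hl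
    exact zero_ne_one hl
  refine ⟨l ^ a, ?_, ?_⟩
  · have h1 : (l ^ a) ^ q = l ^ (a * q) := by rw [zpow_mul, zpow_natCast]
    have h2 : l ^ (a * (q : ℤ)) = l ^ ((1 : ℤ) - b * m) := by rw [← hab]; ring_nf
    rw [h1, h2, zpow_sub₀ hl0, zpow_one, zpow_mul', zpow_natCast, hl, one_zpow, div_one]
  · rw [← zpow_natCast, ← zpow_mul, mul_comm, zpow_mul, zpow_natCast, hl, one_zpow]

/-- one place: `s₀ ≡ μ mod 𝔪` ⇒ `s₀ ^ q ≡ μ ^ q mod π O`. -/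
theorem pow_sub_pow_mem (O : ValuationSubring F) {q : ℕ} (hq : q.Prime) {π : F} (hπ : π ≠ 0)
    (hqπ : O.valuation (q : F) ≤ O.valuation π)
    (hxq : ∀ x : F, O.valuation x < 1 → O.valuation x ^ q ≤ O.valuation π)
    {s₀ μ : F} (hμ : O.valuation μ = 1) (hs : O.valuation (s₀ - μ) < 1) :
    ∃ c ∈ O, s₀ ^ q - μ ^ q = π * c := by
  have hμ0 : μ ≠ 0 := by
    rintro rfl
    rw [map_zero] at hμ
    exact zero_ne_one hμ
  have hxv : O.valuation ((s₀ - μ) / μ) < 1 := by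
    rw [map_div₀, hμ, div_one]; exact hs
  have h1 := val_one_add_pow_prime_sub_one_le O hq hqπ hxv (hxq _ hxv)
  have hs₀ : s₀ = μ * (1 + (s₀ - μ) / μ) := by
    field_simp; ring
  refine ⟨(s₀ ^ q - μ ^ q) / π, ?_, by field_simp⟩
  rw [← ValuationSubring.valuation_le_one_iff, map_div₀]
  have hπpos : 0 < O.valuation π := by
    rw [← Valuation.ne_zero_iff O.valuation] at hπ
    exact zero_lt_iff.mpr hπ
  rw [div_le_one₀ hπpos]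
  have : s₀ ^ q - μ ^ q = μ ^ q * ((1 + (s₀ - μ) / μ) ^ q - 1) := by
    conv_lhs => rw [hs₀, mul_pow]
    ring
  rw [this, map_mul, map_pow, hμ, one_pow, one_mul]
  exact h1

/-- In a subring: `a ≡ b mod π S` ⇒ `a ^ k ≡ b ^ k mod π S`. -/
theorem pow_sub_pow_eq (S : Subring F) {π a b : F} (ha : a ∈ S) (hb : b ∈ S) (k : ℕ)
    (h : ∃ c ∈ S, a - b = π * c) : ∃ c ∈ S, a ^ k - b ^ k = π * c := by
  obtain ⟨c, hc, hab⟩ := h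
  obtain ⟨d, hd⟩ := sub_dvd_pow_sub_pow (⟨a, ha⟩ : S) ⟨b, hb⟩ k
  refine ⟨c * d, S.mul_mem hc d.2, ?_⟩
  have h1 : a ^ k - b ^ k = (a - b) * (d : F) := by
    have := congrArg (fun z : S => (z : F)) hd
    simpa using this
  rw [h1, hab]; ring

end Tools

/-! ### (f) the global multiplier -/

section Global

variable {F : Type*} [Field F] {O₁ O₂ O₃ : ValuationSubring F}

/-- (f) **the global multiplier**. -/
theorem exists_multiplier (hinc : Incomp3 O₁ O₂ O₃) {q m : ℕ} (hq : q.Prime) (hqm : ¬ q ∣ m)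
    {π : F} (hπ : π ≠ 0)
    (hqπ₁ : O₁.valuation (q : F) ≤ O₁.valuation π)
    (hxq₁ : ∀ x : F, O₁.valuation x < 1 → O₁.valuation x ^ q ≤ O₁.valuation π)
    (hqπ₂ : O₂.valuation (q : F) ≤ O₂.valuation π)
    (hxq₂ : ∀ x : F, O₂.valuation x < 1 → O₂.valuation x ^ q ≤ O₂.valuation π)
    (hqπ₃ : O₃.valuation (q : F) ≤ O₃.valuation π)
    (hxq₃ : ∀ x : F, O₃.valuation x < 1 → O₃.valuation x ^ q ≤ O₃.valuation π)
    {Θα Θβ : F} (hΘα : Θα ^ m = 1) (hΘβ : Θβ ^ m = 1) :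
    ∃ s : F, s ≠ 0 ∧ (s⁻¹ ∈ O₁ ∧ s⁻¹ ∈ O₂ ∧ s⁻¹ ∈ O₃) ∧
      (∃ c ∈ O₁, s - Θα * Θβ ^ q = π * c) ∧ (∃ c ∈ O₂, s - 1 = π * c) ∧
      (∃ c ∈ O₃, s - Θβ * Θα ^ q = π * c) ∧
      ∃ c : F, c ∈ O₁ ∧ c ∈ O₂ ∧ c ∈ O₃ ∧ s ^ m - 1 = π * c := by
  have hm0 : m ≠ 0 := fun h => hqm (h ▸ dvd_zero q)
  have hcop : Nat.Coprime q m := (Nat.Prime.coprime_iff_not_dvd hq).mpr hqm
  have hl₁ : (Θα * Θβ ^ q) ^ m = 1 := by
    rw [mul_pow, ← pow_mul, mul_comm q m, pow_mul, hΘα, hΘβ, one_pow, one_mul]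
  have hl₃ : (Θβ * Θα ^ q) ^ m = 1 := by
    rw [mul_pow, ← pow_mul, mul_comm q m, pow_mul, hΘα, hΘβ, one_pow, one_mul]
  obtain ⟨μ₁, hμ₁q, hμ₁m⟩ := exists_root_of_pow_eq_one (F := F) hm0 hcop hl₁
  obtain ⟨μ₃, hμ₃q, hμ₃m⟩ := exists_root_of_pow_eq_one (F := F) hm0 hcop hl₃
  have hvμ₁ := val_eq_one_of_pow_eq_one O₁ hm0 hμ₁m
  have hvμ₃ := val_eq_one_of_pow_eq_one O₃ hm0 hμ₃m
  obtain ⟨s₀, hs₀0, ⟨hv₁, hv₂, hv₃⟩, ha₁, ha₂, ha₃⟩ :=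
    hinc.exists_approx_unit hvμ₁ (map_one O₂.valuation) hvμ₃
  have hc₁ : ∃ c ∈ O₁, s₀ ^ q - Θα * Θβ ^ q = π * c := by
    have := pow_sub_pow_mem O₁ hq hπ hqπ₁ hxq₁ hvμ₁ ha₁
    rwa [hμ₁q] at this
  have hc₂ : ∃ c ∈ O₂, s₀ ^ q - 1 = π * c := by
    have := pow_sub_pow_mem O₂ hq hπ hqπ₂ hxq₂ (map_one O₂.valuation) ha₂
    rwa [one_pow] at this
  have hc₃ : ∃ c ∈ O₃, s₀ ^ q - Θβ * Θα ^ q = π * c := by
    have := pow_sub_pow_mem O₃ hq hπ hqπ₃ hxq₃ hvμ₃ ha₃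
    rwa [hμ₃q] at this
  have hvs : ∀ O : ValuationSubring F, O.valuation s₀ = 1 → O.valuation (s₀ ^ q) = 1 := by
    intro O h; rw [map_pow, h, one_pow]
  -- `s ^ m ≡ 1 mod π Oⱼ` at each place
  have key : ∀ (O : ValuationSubring F) (l : F), l ^ m = 1 → O.valuation s₀ = 1 →
      (∃ c ∈ O, s₀ ^ q - l = π * c) → ((s₀ ^ q) ^ m - 1) / π ∈ O := by
    intro O l hl hv hc
    obtain ⟨c, hcO, hc⟩ := pow_sub_pow_eq O.toSubring (mem_of_val_eq_one O (hvs O hv))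
      (mem_of_val_eq_one O (val_eq_one_of_pow_eq_one O hm0 hl)) m hc
    have : ((s₀ ^ q) ^ m - 1) / π = c := by
      rw [← hl, hc]; field_simp
    rw [this]; exact hcO
  refine ⟨s₀ ^ q, pow_ne_zero q hs₀0,
    ⟨inv_mem_of_val_eq_one O₁ (hvs O₁ hv₁), inv_mem_of_val_eq_one O₂ (hvs O₂ hv₂),
      inv_mem_of_val_eq_one O₃ (hvs O₃ hv₃)⟩, hc₁, hc₂, hc₃,
    ((s₀ ^ q) ^ m - 1) / π, key O₁ _ hl₁ hv₁ hc₁, key O₂ 1 (one_pow m) hv₂ hc₂,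
    key O₃ _ hl₃ hv₃ hc₃, by field_simp⟩

/-- (U1) is stable under `u ↦ u ^ k * s ^ m`. -/
theorem u1_mul {π u s : F} (k m : ℕ)
    (hu : ∃ c : F, c ∈ O₁ ∧ c ∈ O₂ ∧ c ∈ O₃ ∧ u - 1 = π * c)
    (hs : ∃ c : F, c ∈ O₁ ∧ c ∈ O₂ ∧ c ∈ O₃ ∧ s ^ m - 1 = π * c)
    (hπ₁ : π ∈ O₁) (hπ₂ : π ∈ O₂) (hπ₃ : π ∈ O₃) :
    ∃ c : F, c ∈ O₁ ∧ c ∈ O₂ ∧ c ∈ O₃ ∧ u ^ k * s ^ m - 1 = π * c := by
  set S : Subring F := O₁.toSubring ⊓ O₂.toSubring ⊓ O₃.toSubring with hS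
  have hmem : ∀ x : F, x ∈ S ↔ x ∈ O₁ ∧ x ∈ O₂ ∧ x ∈ O₃ := by
    intro x
    rw [hS, Subring.mem_inf, Subring.mem_inf]
    exact and_assoc
  obtain ⟨c, hc₁, hc₂, hc₃, hcu⟩ := hu
  obtain ⟨d, hd₁, hd₂, hd₃, hds⟩ := hs
  have hπS : π ∈ S := (hmem π).mpr ⟨hπ₁, hπ₂, hπ₃⟩
  have hcS : c ∈ S := (hmem c).mpr ⟨hc₁, hc₂, hc₃⟩
  have hdS : d ∈ S := (hmem d).mpr ⟨hd₁, hd₂, hd₃⟩
  have huS : u ∈ S := by
    have : u = 1 + π * c := by linear_combination hcu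
    rw [this]; exact S.add_mem S.one_mem (S.mul_mem hπS hcS)
  have hsS : s ^ m ∈ S := by
    have : s ^ m = 1 + π * d := by linear_combination hds
    rw [this]; exact S.add_mem S.one_mem (S.mul_mem hπS hdS)
  obtain ⟨e, heS, he⟩ := pow_sub_pow_eq S huS S.one_mem k ⟨c, hcS, hcu⟩
  rw [one_pow] at he
  refine ⟨e * s ^ m + d, ?_, ?_, ?_, ?_⟩
  · exact ((hmem _).mp (S.add_mem (S.mul_mem heS hsS) hdS)).1
  · exact ((hmem _).mp (S.add_mem (S.mul_mem heS hsS) hdS)).2.1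
  · exact ((hmem _).mp (S.add_mem (S.mul_mem heS hsS) hdS)).2.2
  · linear_combination s ^ m * he + hds

end Global

/-! ### (g) the branch data of `u ^ (q² − 1) * s ^ m` at a triple point -/

section Triple

variable {C F : Type*} [CommRing C] [IsLocalRing C] [Field F] [Algebra C F]

omit [IsLocalRing C] in
/-- (g), one branch: the branch representative of `f ^ k * s` is `r ^ k * Λ`. -/
theorem branch_rep_mul (O : ValuationSubring F) (hC : ∀ c : C, algebraMap C F c ∈ O) (x : C)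
    {π : F} (hπx : ∃ o ∈ O, π = algebraMap C F x * o)
    {f s : F} {r Λ : C} (k : ℕ)
    (hfr : ∃ o ∈ O, f - algebraMap C F r = algebraMap C F x * o)
    (hs : ∃ c ∈ O, s - algebraMap C F Λ = π * c) :
    ∃ o ∈ O, f ^ k * s - algebraMap C F (r ^ k * Λ) = algebraMap C F x * o := by
  obtain ⟨o', ho', hπo⟩ := hπx
  obtain ⟨o, ho, hfo⟩ := hfr
  obtain ⟨c, hc, hsc⟩ := hs
  have hxO : algebraMap C F x ∈ O := hC x
  have hfO : f ∈ O := by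
    have : f = algebraMap C F r + algebraMap C F x * o := by linear_combination hfo
    rw [this]; exact O.add_mem _ _ (hC r) (O.mul_mem _ _ hxO ho)
  obtain ⟨e, heO, he⟩ := pow_sub_pow_eq O.toSubring (π := algebraMap C F x) hfO (hC r) k
    ⟨o, ho, hfo⟩
  have hsO : s ∈ O := by
    have : s = algebraMap C F Λ + algebraMap C F x * (o' * c) := by
      linear_combination hsc + c * hπo
    rw [this]
    exact O.add_mem _ _ (hC Λ) (O.mul_mem _ _ hxO (O.mul_mem _ _ ho' hc))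
  refine ⟨e * s + algebraMap C F (r ^ k) * (o' * c),
    O.add_mem _ _ (O.mul_mem _ _ heO hsO) (O.mul_mem _ _ (hC _) (O.mul_mem _ _ ho' hc)), ?_⟩
  rw [map_mul, map_pow] at *
  linear_combination s * he + (algebraMap C F r) ^ k * hsc + (algebraMap C F r) ^ k * c * hπo

/-- (g) **the branch data of `u₂ = u ^ (q² − 1) * s ^ m` at a triple point**: the literal inputs
`ε f hf0 huf hfinvⱼ a hbrⱼ` of `LocTriple13.triple_start`. -/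
theorem branch_data_mul (O₁ O₂ O₃ : ValuationSubring F) (x₁ x₂ x₃ : C)
    (hC₁ : ∀ c : C, algebraMap C F c ∈ O₁) (hC₂ : ∀ c : C, algebraMap C F c ∈ O₂)
    (hC₃ : ∀ c : C, algebraMap C F c ∈ O₃)
    (q : ℕ) (hq : 1 ≤ q) {π : F}
    (hπx₁ : ∃ o ∈ O₁, π = algebraMap C F x₁ * o) (hπx₂ : ∃ o ∈ O₂, π = algebraMap C F x₂ * o)
    (hπx₃ : ∃ o ∈ O₃, π = algebraMap C F x₃ * o)
    (m : ℕ) (u : F) (ε : Cˣ) (f : F) (hf0 : f ≠ 0)
    (huf : u = algebraMap C F (ε : C) * f ^ m)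
    (hfinv₁ : f⁻¹ ∈ O₁) (hfinv₂ : f⁻¹ ∈ O₂) (hfinv₃ : f⁻¹ ∈ O₃)
    {r₁ r₂ r₃ : C} (hr₁ : IsUnit r₁) (hr₃ : IsUnit r₃)
    (hfr₁ : ∃ o ∈ O₁, f - algebraMap C F r₁ = algebraMap C F x₁ * o)
    (hfr₂ : ∃ o ∈ O₂, f - algebraMap C F r₂ = algebraMap C F x₂ * o)
    (hfr₃ : ∃ o ∈ O₃, f - algebraMap C F r₃ = algebraMap C F x₃ * o)
    {θα θβ : C}
    (hα : r₁ * r₂ ^ (q - 1) - θα * r₃ ^ q ∈ maximalIdeal C)
    (hβ : r₃ * r₂ ^ (q - 1) - θβ * r₁ ^ q ∈ maximalIdeal C)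
    {s : F} (hs0 : s ≠ 0) (hsinv₁ : s⁻¹ ∈ O₁) (hsinv₂ : s⁻¹ ∈ O₂) (hsinv₃ : s⁻¹ ∈ O₃)
    (hs₁ : ∃ c ∈ O₁, s - algebraMap C F (θα * θβ ^ q) = π * c)
    (hs₂ : ∃ c ∈ O₂, s - 1 = π * c)
    (hs₃ : ∃ c ∈ O₃, s - algebraMap C F (θβ * θα ^ q) = π * c) :
    ∃ (ε₂ : Cˣ) (f₂ : F), f₂ ≠ 0 ∧
      u ^ (q ^ 2 - 1) * s ^ m = algebraMap C F (ε₂ : C) * f₂ ^ m ∧
      f₂⁻¹ ∈ O₁ ∧ f₂⁻¹ ∈ O₂ ∧ f₂⁻¹ ∈ O₃ ∧
      ∃ a : C,
        (∃ r : C, r - a ∈ maximalIdeal C ∧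
          ∃ o ∈ O₁, f₂ - algebraMap C F r = algebraMap C F x₁ * o) ∧
        (∃ r : C, r - a ∈ maximalIdeal C ∧
          ∃ o ∈ O₂, f₂ - algebraMap C F r = algebraMap C F x₂ * o) ∧
        (∃ r : C, r - a ∈ maximalIdeal C ∧
          ∃ o ∈ O₃, f₂ - algebraMap C F r = algebraMap C F x₃ * o) := by
  obtain ⟨h1, h3⟩ := branch_pow_congr q hq hr₁ hr₃ hα hβ
  set N : ℕ := q ^ 2 - 1 with hN
  have hinv : ∀ O : ValuationSubring F, f⁻¹ ∈ O → s⁻¹ ∈ O → (f ^ N * s)⁻¹ ∈ O := by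
    intro O hf hs
    rw [mul_inv, ← inv_pow]
    exact O.mul_mem _ _ (pow_mem hf N) hs
  refine ⟨ε ^ N, f ^ N * s, mul_ne_zero (pow_ne_zero N hf0) hs0, ?_, hinv O₁ hfinv₁ hsinv₁,
    hinv O₂ hfinv₂ hsinv₂, hinv O₃ hfinv₃ hsinv₃, r₂ ^ N, ?_, ?_, ?_⟩
  · rw [huf, Units.val_pow_eq_pow_val, map_pow]; ring
  · refine ⟨r₁ ^ N * (θα * θβ ^ q), ?_, branch_rep_mul O₁ hC₁ x₁ hπx₁ N hfr₁ hs₁⟩
    have : r₁ ^ N * (θα * θβ ^ q) - r₂ ^ N = (θα * θβ ^ q) * r₁ ^ N - r₂ ^ N := by ring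
    rw [this]; exact h1
  · refine ⟨r₂ ^ N * 1, by simp, branch_rep_mul O₂ hC₂ x₂ hπx₂ N hfr₂ ?_⟩
    rw [map_one]; exact hs₂
  · refine ⟨r₃ ^ N * (θβ * θα ^ q), ?_, branch_rep_mul O₃ hC₃ x₃ hπx₃ N hfr₃ hs₃⟩
    have : r₃ ^ N * (θβ * θα ^ q) - r₂ ^ N = (θβ * θα ^ q) * r₃ ^ N - r₂ ^ N := by ring
    rw [this]; exact h3

end Triple

end Fermat.Agent.ES.P36.GlobMult18
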