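/-
Program P (S36), chapter (SS)/(CL3), brick `TripleAsm18` (helper18): **assembly at the triple points**.

Consumes helper15's `BranchComb15.branch_comb` OUTPUT TYPE (equal new branch values
`e₁ ^ N * l₁ ≡ e₂ ^ N ≡ e₃ ^ N * l₃ mod 𝔪_C`, `N = q² − 1`, `l₁ l₃` images of GLOBAL constants) and
produces helper13's `LocStartM` at the triple point for `(u ^ N * s ^ m) ^ (q ^ 2)`, with ONE global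
multiplier `s`.

* `exists_multiplier_gen` : `GlobMult18.exists_multiplier` for three ARBITRARY `m`-th roots of unity
  `λ₁ λ₂ λ₃ ∈ F`: `s ≠ 0`, `s⁻¹ ∈ Oⱼ`, `s ≡ λⱼ mod π Oⱼ`, `s ^ m ≡ 1 mod π (O₁ ∩ O₂ ∩ O₃)`.
* `tripleDec_mul_gen` : `u = ε f ^ m`, representatives `rⱼ` of `f`, `lⱼ ∈ C` with
  `rⱼ ^ N * lⱼ ≡ a mod 𝔪_C` and `s ≡ lⱼ mod π Oⱼ` ⊢ `LocTriple13.TripleDec … (u ^ N * s ^ m)`.
* `locStartM_triple` : chart form, `LocStartM π B O m ((u ^ N * s ^ m) ^ (q ^ 2)) 𝔪`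
  (= `tripleDec_mul_gen` + `LocTripleM13.locStartM_of_tripleDec`).
* `locStartM_triple_comb` : the same with `a := r₂ ^ N`, `l₂ := 1`, i.e. LITERALLY from the conclusion
  of `BranchComb15.branch_comb`.
-/
import Mathlib
import Fermat.Agent.ES.P36.GlobMult18
import Fermat.Agent.ES.P36.LocTripleM13

set_option autoImplicit false

namespace Fermat.Agent.ES.P36.TripleAsm18

open IsLocalRing Fermat.Agent.ES.P36.Approx3v9 Fermat.Agent.ES.P36.GlobMult18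
  Fermat.Agent.ES.P36.LocTriple13 Fermat.Agent.ES.P36.MultiCore13
  Fermat.Agent.ES.N34.NodalCore13 Fermat.Agent.ES.N34.NodalSmooth13

/-! ### The multiplier for three arbitrary roots of unity -/

section Global

variable {F : Type*} [Field F] {O₁ O₂ O₃ : ValuationSubring F}

/-- **The global multiplier**, three arbitrary `m`-th roots of unity. -/
theorem exists_multiplier_gen (hinc : Incomp3 O₁ O₂ O₃) {q m : ℕ} (hq : q.Prime) (hqm : ¬ q ∣ m)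
    {π : F} (hπ : π ≠ 0)
    (hqπ₁ : O₁.valuation (q : F) ≤ O₁.valuation π)
    (hxq₁ : ∀ x : F, O₁.valuation x < 1 → O₁.valuation x ^ q ≤ O₁.valuation π)
    (hqπ₂ : O₂.valuation (q : F) ≤ O₂.valuation π)
    (hxq₂ : ∀ x : F, O₂.valuation x < 1 → O₂.valuation x ^ q ≤ O₂.valuation π)
    (hqπ₃ : O₃.valuation (q : F) ≤ O₃.valuation π)
    (hxq₃ : ∀ x : F, O₃.valuation x < 1 → O₃.valuation x ^ q ≤ O₃.valuation π)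
    {l₁ l₂ l₃ : F} (hl₁ : l₁ ^ m = 1) (hl₂ : l₂ ^ m = 1) (hl₃ : l₃ ^ m = 1) :
    ∃ s : F, s ≠ 0 ∧ (s⁻¹ ∈ O₁ ∧ s⁻¹ ∈ O₂ ∧ s⁻¹ ∈ O₃) ∧
      (∃ c ∈ O₁, s - l₁ = π * c) ∧ (∃ c ∈ O₂, s - l₂ = π * c) ∧ (∃ c ∈ O₃, s - l₃ = π * c) ∧
      ∃ c : F, c ∈ O₁ ∧ c ∈ O₂ ∧ c ∈ O₃ ∧ s ^ m - 1 = π * c := by
  have hm0 : m ≠ 0 := fun h => hqm (h ▸ dvd_zero q)
  have hcop : Nat.Coprime q m := (Nat.Prime.coprime_iff_not_dvd hq).mpr hqm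
  obtain ⟨μ₁, hμ₁q, hμ₁m⟩ := exists_root_of_pow_eq_one (F := F) hm0 hcop hl₁
  obtain ⟨μ₂, hμ₂q, hμ₂m⟩ := exists_root_of_pow_eq_one (F := F) hm0 hcop hl₂
  obtain ⟨μ₃, hμ₃q, hμ₃m⟩ := exists_root_of_pow_eq_one (F := F) hm0 hcop hl₃
  have hvμ₁ := val_eq_one_of_pow_eq_one O₁ hm0 hμ₁m
  have hvμ₂ := val_eq_one_of_pow_eq_one O₂ hm0 hμ₂m
  have hvμ₃ := val_eq_one_of_pow_eq_one O₃ hm0 hμ₃m
  obtain ⟨s₀, hs₀0, ⟨hv₁, hv₂, hv₃⟩, ha₁, ha₂, ha₃⟩ := hinc.exists_approx_unit hvμ₁ hvμ₂ hvμ₃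
  have hc₁ : ∃ c ∈ O₁, s₀ ^ q - l₁ = π * c := by
    have := pow_sub_pow_mem O₁ hq hπ hqπ₁ hxq₁ hvμ₁ ha₁
    rwa [hμ₁q] at this
  have hc₂ : ∃ c ∈ O₂, s₀ ^ q - l₂ = π * c := by
    have := pow_sub_pow_mem O₂ hq hπ hqπ₂ hxq₂ hvμ₂ ha₂
    rwa [hμ₂q] at this
  have hc₃ : ∃ c ∈ O₃, s₀ ^ q - l₃ = π * c := by
    have := pow_sub_pow_mem O₃ hq hπ hqπ₃ hxq₃ hvμ₃ ha₃
    rwa [hμ₃q] at this
  have hvs : ∀ O : ValuationSubring F, O.valuation s₀ = 1 → O.valuation (s₀ ^ q) = 1 := by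
    intro O h; rw [map_pow, h, one_pow]
  have key : ∀ (O : ValuationSubring F) (l : F), l ^ m = 1 → O.valuation s₀ = 1 →
      (∃ c ∈ O, s₀ ^ q - l = π * c) → ((s₀ ^ q) ^ m - 1) / π ∈ O := by
    intro O l hl hv hc
    obtain ⟨c, hcO, hc⟩ := pow_sub_pow_eq O.toSubring (mem_of_val_eq_one O (hvs O hv))
      (mem_of_val_eq_one O (val_eq_one_of_pow_eq_one O hm0 hl)) m hc
    have : ((s₀ ^ q) ^ m - 1) / π = c := by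
      rw [← hl, hc]; field_simp
    rw [this]; exact hcO
  exact ⟨s₀ ^ q, pow_ne_zero q hs₀0,
    ⟨inv_mem_of_val_eq_one O₁ (hvs O₁ hv₁), inv_mem_of_val_eq_one O₂ (hvs O₂ hv₂),
      inv_mem_of_val_eq_one O₃ (hvs O₃ hv₃)⟩, hc₁, hc₂, hc₃,
    ((s₀ ^ q) ^ m - 1) / π, key O₁ _ hl₁ hv₁ hc₁, key O₂ _ hl₂ hv₂ hc₂,
    key O₃ _ hl₃ hv₃ hc₃, by field_simp⟩

end Global

/-! ### The decomposition of `u ^ N * s ^ m` at a triple point -/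

section Triple

variable {C F : Type*} [CommRing C] [IsLocalRing C] [Field F] [Algebra C F]

/-- **`TripleDec` for `u ^ N * s ^ m`** from a decomposition of `u`, representatives `rⱼ` of `f`
along the three branches, and constants `lⱼ ∈ C` with `rⱼ ^ N * lⱼ ≡ a mod 𝔪_C`, `s ≡ lⱼ mod π Oⱼ`. -/
theorem tripleDec_mul_gen (O₁ O₂ O₃ : ValuationSubring F) (x₁ x₂ x₃ : C)
    (hC₁ : ∀ c : C, algebraMap C F c ∈ O₁) (hC₂ : ∀ c : C, algebraMap C F c ∈ O₂)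
    (hC₃ : ∀ c : C, algebraMap C F c ∈ O₃) {π : F}
    (hπx₁ : ∃ o ∈ O₁, π = algebraMap C F x₁ * o) (hπx₂ : ∃ o ∈ O₂, π = algebraMap C F x₂ * o)
    (hπx₃ : ∃ o ∈ O₃, π = algebraMap C F x₃ * o)
    (m N : ℕ) (u : F) (ε : Cˣ) (f : F) (hf0 : f ≠ 0)
    (huf : u = algebraMap C F (ε : C) * f ^ m)
    (hfinv₁ : f⁻¹ ∈ O₁) (hfinv₂ : f⁻¹ ∈ O₂) (hfinv₃ : f⁻¹ ∈ O₃)
    {r₁ r₂ r₃ : C}
    (hfr₁ : ∃ o ∈ O₁, f - algebraMap C F r₁ = algebraMap C F x₁ * o)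
    (hfr₂ : ∃ o ∈ O₂, f - algebraMap C F r₂ = algebraMap C F x₂ * o)
    (hfr₃ : ∃ o ∈ O₃, f - algebraMap C F r₃ = algebraMap C F x₃ * o)
    {l₁ l₂ l₃ a : C}
    (h₁ : r₁ ^ N * l₁ - a ∈ maximalIdeal C) (h₂ : r₂ ^ N * l₂ - a ∈ maximalIdeal C)
    (h₃ : r₃ ^ N * l₃ - a ∈ maximalIdeal C)
    {s : F} (hs0 : s ≠ 0) (hsinv₁ : s⁻¹ ∈ O₁) (hsinv₂ : s⁻¹ ∈ O₂) (hsinv₃ : s⁻¹ ∈ O₃)
    (hs₁ : ∃ c ∈ O₁, s - algebraMap C F l₁ = π * c)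
    (hs₂ : ∃ c ∈ O₂, s - algebraMap C F l₂ = π * c)
    (hs₃ : ∃ c ∈ O₃, s - algebraMap C F l₃ = π * c) :
    TripleDec O₁ O₂ O₃ x₁ x₂ x₃ m (u ^ N * s ^ m) := by
  have hinv : ∀ O : ValuationSubring F, f⁻¹ ∈ O → s⁻¹ ∈ O → (f ^ N * s)⁻¹ ∈ O := by
    intro O hf hs
    rw [mul_inv, ← inv_pow]
    exact O.mul_mem _ _ (pow_mem hf N) hs
  refine ⟨ε ^ N, f ^ N * s, mul_ne_zero (pow_ne_zero N hf0) hs0, ?_, hinv O₁ hfinv₁ hsinv₁,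
    hinv O₂ hfinv₂ hsinv₂, hinv O₃ hfinv₃ hsinv₃, a,
    ⟨r₁ ^ N * l₁, h₁, branch_rep_mul O₁ hC₁ x₁ hπx₁ N hfr₁ hs₁⟩,
    ⟨r₂ ^ N * l₂, h₂, branch_rep_mul O₂ hC₂ x₂ hπx₂ N hfr₂ hs₂⟩,
    ⟨r₃ ^ N * l₃, h₃, branch_rep_mul O₃ hC₃ x₃ hπx₃ N hfr₃ hs₃⟩⟩
  rw [huf, Units.val_pow_eq_pow_val, map_pow]; ring

end Triple

/-! ### Chart form -/

section Chart

variable {R F : Type*} [CommRing R] [Field F] [Algebra R F]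

/-- **LOCAL START at a triple point for `(u ^ N * s ^ m) ^ (q ^ 2)`**, `s` the global multiplier.
Geometry hypotheses = those of `LocTripleM13.locStartM_of_tripleDec`; the `u`-dependent input is a
decomposition `u = ε f ^ m` at `C = B_𝔪` with branch representatives `rⱼ`, and constants `Lⱼ : R`
(GLOBAL) with `rⱼ ^ N * Lⱼ ≡ a mod 𝔪_C`, `s ≡ Lⱼ mod π Oⱼ`. -/
theorem locStartM_triple {ι : Type*} (π : R) (B : Subalgebra R F)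
    (O : ι → ValuationSubring F) (i₁ i₂ i₃ : ι)
    (𝔪 : Ideal B) (h𝔪 : 𝔪.IsMaximal)
    (hcover : ∀ j, j = i₁ ∨ j = i₂ ∨ j = i₃ ∨ OffBranch π B (O j) 𝔪)
    (x₁ x₂ x₃ : ↥(@locSub R F _ _ _ B 𝔪 h𝔪.isPrime))
    (h12 : IsLocalRing.maximalIdeal ↥(@locSub R F _ _ _ B 𝔪 h𝔪.isPrime) = Ideal.span {x₁, x₂})
    (h13 : IsLocalRing.maximalIdeal ↥(@locSub R F _ _ _ B 𝔪 h𝔪.isPrime) = Ideal.span {x₁, x₃})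
    (h23 : IsLocalRing.maximalIdeal ↥(@locSub R F _ _ _ B 𝔪 h𝔪.isPrime) = Ideal.span {x₂, x₃})
    (hC₁ : ∀ c : ↥(@locSub R F _ _ _ B 𝔪 h𝔪.isPrime), (c : F) ∈ O i₁)
    (hC₂ : ∀ c : ↥(@locSub R F _ _ _ B 𝔪 h𝔪.isPrime), (c : F) ∈ O i₂)
    (hC₃ : ∀ c : ↥(@locSub R F _ _ _ B 𝔪 h𝔪.isPrime), (c : F) ∈ O i₃)
    (q : ℕ) (hq : q.Prime) (hqπ : ∃ r : R, (q : R) = π * r)
    (hπx₁ : ∃ w : ↥(@locSub R F _ _ _ B 𝔪 h𝔪.isPrime), algebraMap R F π = (x₁ : F) * (w : F))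
    (hπx₂ : ∃ w : ↥(@locSub R F _ _ _ B 𝔪 h𝔪.isPrime), algebraMap R F π = (x₂ : F) * (w : F))
    (hπx₃ : ∃ w : ↥(@locSub R F _ _ _ B 𝔪 h𝔪.isPrime), algebraMap R F π = (x₃ : F) * (w : F))
    (hmult₁ : ∃ b ∈ O i₁, (x₁ : F) ^ q = algebraMap R F π * b)
    (hmult₂ : ∃ b ∈ O i₂, (x₂ : F) ^ q = algebraMap R F π * b)
    (hmult₃ : ∃ b ∈ O i₃, (x₃ : F) ^ q = algebraMap R F π * b)
    (m N : ℕ) (u : F)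
    (ε : (↥(@locSub R F _ _ _ B 𝔪 h𝔪.isPrime))ˣ) (f : F) (hf0 : f ≠ 0)
    (huf : u = ((ε : ↥(@locSub R F _ _ _ B 𝔪 h𝔪.isPrime)) : F) * f ^ m)
    (hfinv₁ : f⁻¹ ∈ O i₁) (hfinv₂ : f⁻¹ ∈ O i₂) (hfinv₃ : f⁻¹ ∈ O i₃)
    {r₁ r₂ r₃ : ↥(@locSub R F _ _ _ B 𝔪 h𝔪.isPrime)}
    (hfr₁ : ∃ o ∈ O i₁, f - (r₁ : F) = (x₁ : F) * o)
    (hfr₂ : ∃ o ∈ O i₂, f - (r₂ : F) = (x₂ : F) * o)
    (hfr₃ : ∃ o ∈ O i₃, f - (r₃ : F) = (x₃ : F) * o)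
    {L₁ L₂ L₃ : R} {a : ↥(@locSub R F _ _ _ B 𝔪 h𝔪.isPrime)}
    (h₁ : r₁ ^ N * algebraMap R ↥(@locSub R F _ _ _ B 𝔪 h𝔪.isPrime) L₁ - a ∈
      IsLocalRing.maximalIdeal ↥(@locSub R F _ _ _ B 𝔪 h𝔪.isPrime))
    (h₂ : r₂ ^ N * algebraMap R ↥(@locSub R F _ _ _ B 𝔪 h𝔪.isPrime) L₂ - a ∈
      IsLocalRing.maximalIdeal ↥(@locSub R F _ _ _ B 𝔪 h𝔪.isPrime))
    (h₃ : r₃ ^ N * algebraMap R ↥(@locSub R F _ _ _ B 𝔪 h𝔪.isPrime) L₃ - a ∈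
      IsLocalRing.maximalIdeal ↥(@locSub R F _ _ _ B 𝔪 h𝔪.isPrime))
    {s : F} (hs0 : s ≠ 0) (hsinv₁ : s⁻¹ ∈ O i₁) (hsinv₂ : s⁻¹ ∈ O i₂) (hsinv₃ : s⁻¹ ∈ O i₃)
    (hs₁ : ∃ c ∈ O i₁, s - algebraMap R F L₁ = algebraMap R F π * c)
    (hs₂ : ∃ c ∈ O i₂, s - algebraMap R F L₂ = algebraMap R F π * c)
    (hs₃ : ∃ c ∈ O i₃, s - algebraMap R F L₃ = algebraMap R F π * c) :
    LocStartM π B O m ((u ^ N * s ^ m) ^ (q ^ 2)) 𝔪 := by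
  have h𝔪p : 𝔪.IsPrime := h𝔪.isPrime
  have hπx : ∀ (Ov : ValuationSubring F) (x : ↥(locSub B 𝔪)),
      (∀ c : ↥(locSub B 𝔪), (c : F) ∈ Ov) →
      (∃ w : ↥(locSub B 𝔪), algebraMap R F π = (x : F) * (w : F)) →
      ∃ o ∈ Ov, algebraMap R F π = algebraMap ↥(locSub B 𝔪) F x * o := by
    rintro Ov x hC ⟨w, hw⟩
    exact ⟨(w : F), hC w, hw⟩
  refine LocTripleM13.locStartM_of_tripleDec π B O i₁ i₂ i₃ 𝔪 h𝔪 hcover x₁ x₂ x₃ h12 h13 h23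
    hC₁ hC₂ hC₃ q hq hqπ hπx₁ hπx₂ hπx₃ hmult₁ hmult₂ hmult₃ m _ ?_
  exact tripleDec_mul_gen (C := ↥(locSub B 𝔪)) (O i₁) (O i₂) (O i₃) x₁ x₂ x₃ hC₁ hC₂ hC₃
    (hπx (O i₁) x₁ hC₁ hπx₁) (hπx (O i₂) x₂ hC₂ hπx₂) (hπx (O i₃) x₃ hC₃ hπx₃)
    m N u ε f hf0 huf hfinv₁ hfinv₂ hfinv₃ hfr₁ hfr₂ hfr₃ h₁ h₂ h₃ hs0 hsinv₁ hsinv₂ hsinv₃
    hs₁ hs₂ hs₃

/-- `locStartM_triple` LITERALLY from the conclusion of helper15's `BranchComb15.branch_comb`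
(`e₁ ^ (q²-1) * l₁ ≡ e₂ ^ (q²-1) ≡ e₃ ^ (q²-1) * l₃ mod 𝔪_C`, `l₁ l₃` images of global constants
`L₁ L₃ : R`; `λ₂ = 1`). -/
theorem locStartM_triple_comb {ι : Type*} (π : R) (B : Subalgebra R F)
    (O : ι → ValuationSubring F) (i₁ i₂ i₃ : ι)
    (𝔪 : Ideal B) (h𝔪 : 𝔪.IsMaximal)
    (hcover : ∀ j, j = i₁ ∨ j = i₂ ∨ j = i₃ ∨ OffBranch π B (O j) 𝔪)
    (x₁ x₂ x₃ : ↥(@locSub R F _ _ _ B 𝔪 h𝔪.isPrime))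
    (h12 : IsLocalRing.maximalIdeal ↥(@locSub R F _ _ _ B 𝔪 h𝔪.isPrime) = Ideal.span {x₁, x₂})
    (h13 : IsLocalRing.maximalIdeal ↥(@locSub R F _ _ _ B 𝔪 h𝔪.isPrime) = Ideal.span {x₁, x₃})
    (h23 : IsLocalRing.maximalIdeal ↥(@locSub R F _ _ _ B 𝔪 h𝔪.isPrime) = Ideal.span {x₂, x₃})
    (hC₁ : ∀ c : ↥(@locSub R F _ _ _ B 𝔪 h𝔪.isPrime), (c : F) ∈ O i₁)
    (hC₂ : ∀ c : ↥(@locSub R F _ _ _ B 𝔪 h𝔪.isPrime), (c : F) ∈ O i₂)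
    (hC₃ : ∀ c : ↥(@locSub R F _ _ _ B 𝔪 h𝔪.isPrime), (c : F) ∈ O i₃)
    (q : ℕ) (hq : q.Prime) (hqπ : ∃ r : R, (q : R) = π * r)
    (hπx₁ : ∃ w : ↥(@locSub R F _ _ _ B 𝔪 h𝔪.isPrime), algebraMap R F π = (x₁ : F) * (w : F))
    (hπx₂ : ∃ w : ↥(@locSub R F _ _ _ B 𝔪 h𝔪.isPrime), algebraMap R F π = (x₂ : F) * (w : F))
    (hπx₃ : ∃ w : ↥(@locSub R F _ _ _ B 𝔪 h𝔪.isPrime), algebraMap R F π = (x₃ : F) * (w : F))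
    (hmult₁ : ∃ b ∈ O i₁, (x₁ : F) ^ q = algebraMap R F π * b)
    (hmult₂ : ∃ b ∈ O i₂, (x₂ : F) ^ q = algebraMap R F π * b)
    (hmult₃ : ∃ b ∈ O i₃, (x₃ : F) ^ q = algebraMap R F π * b)
    (m : ℕ) (u : F)
    (ε : (↥(@locSub R F _ _ _ B 𝔪 h𝔪.isPrime))ˣ) (f : F) (hf0 : f ≠ 0)
    (huf : u = ((ε : ↥(@locSub R F _ _ _ B 𝔪 h𝔪.isPrime)) : F) * f ^ m)
    (hfinv₁ : f⁻¹ ∈ O i₁) (hfinv₂ : f⁻¹ ∈ O i₂) (hfinv₃ : f⁻¹ ∈ O i₃)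
    {r₁ r₂ r₃ : ↥(@locSub R F _ _ _ B 𝔪 h𝔪.isPrime)}
    (hfr₁ : ∃ o ∈ O i₁, f - (r₁ : F) = (x₁ : F) * o)
    (hfr₂ : ∃ o ∈ O i₂, f - (r₂ : F) = (x₂ : F) * o)
    (hfr₃ : ∃ o ∈ O i₃, f - (r₃ : F) = (x₃ : F) * o)
    {L₁ L₃ : R}
    (hcomb : r₁ ^ (q ^ 2 - 1) * algebraMap R ↥(@locSub R F _ _ _ B 𝔪 h𝔪.isPrime) L₁
          - r₂ ^ (q ^ 2 - 1) ∈ IsLocalRing.maximalIdeal ↥(@locSub R F _ _ _ B 𝔪 h𝔪.isPrime) ∧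
        r₃ ^ (q ^ 2 - 1) * algebraMap R ↥(@locSub R F _ _ _ B 𝔪 h𝔪.isPrime) L₃
          - r₂ ^ (q ^ 2 - 1) ∈ IsLocalRing.maximalIdeal ↥(@locSub R F _ _ _ B 𝔪 h𝔪.isPrime))
    {s : F} (hs0 : s ≠ 0) (hsinv₁ : s⁻¹ ∈ O i₁) (hsinv₂ : s⁻¹ ∈ O i₂) (hsinv₃ : s⁻¹ ∈ O i₃)
    (hs₁ : ∃ c ∈ O i₁, s - algebraMap R F L₁ = algebraMap R F π * c)
    (hs₂ : ∃ c ∈ O i₂, s - 1 = algebraMap R F π * c)
    (hs₃ : ∃ c ∈ O i₃, s - algebraMap R F L₃ = algebraMap R F π * c) :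
    LocStartM π B O m ((u ^ (q ^ 2 - 1) * s ^ m) ^ (q ^ 2)) 𝔪 := by
  have h𝔪p : 𝔪.IsPrime := h𝔪.isPrime
  refine locStartM_triple π B O i₁ i₂ i₃ 𝔪 h𝔪 hcover x₁ x₂ x₃ h12 h13 h23 hC₁ hC₂ hC₃ q hq hqπ
    hπx₁ hπx₂ hπx₃ hmult₁ hmult₂ hmult₃ m (q ^ 2 - 1) u ε f hf0 huf hfinv₁ hfinv₂ hfinv₃
    hfr₁ hfr₂ hfr₃ (L₂ := 1) (a := r₂ ^ (q ^ 2 - 1)) hcomb.1 ?_ hcomb.2 hs0 hsinv₁ hsinv₂ hsinv₃
    hs₁ ?_ hs₃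
  · rw [map_one, mul_one, sub_self]; exact Ideal.zero_mem _
  · rw [map_one]; exact hs₂

end Chart

end Fermat.Agent.ES.P36.TripleAsm18
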