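/-
Program P (S36), chapter NUM-P / (N3) (helper13): ASSEMBLY of `NumInputP13.BranchEqAt` from the
output of S5 (the two branch relations with GLOBAL constants `Θα Θβ`) and the global multiplier of
S6, abstract form (generic data `R K F π B O`).

* `ThetaAt q π B O j₁ j₂ j₃ m u Θα Θβ` — the literal point-wise output of S5 on one chart: at every
  regular ordinary triple point (`TripleReg13.TripleReg`) and for EVERY representative tuple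
  `(ε, f, r₁, r₂, r₃)` of `u` there (the conclusion of `TripleReg13.exists_tripleRep`):
  `r₁ r₂^{q−1} ≡ Θα r₃^q` and `r₃ r₂^{q−1} ≡ Θβ r₁^q` modulo `𝔪_C`, `C = B_𝔪`.
* `branchEqAt_of_thetaAt` — with a multiplier `s`, `s ≡ Θα Θβ^q mod π O_{j₁}`, `s ≡ 1 mod π O_{j₂}`,
  `s ≡ Θβ Θα^q mod π O_{j₃}`: `BranchEqAt q π B O j₁ j₂ j₃ m (u ^ (q² − 1) * s ^ m)`
  (`exists_tripleRep` + `GlobMult18.branch_pow_congr` + `TripleAsm18.tripleDec_mul_gen`).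
-/
import Mathlib
import Fermat.Agent.ES.P36.TripleAsm18
import Fermat.Agent.ES.P36.NumInputP13

set_option autoImplicit false

namespace Fermat.Agent.ES.P36.BranchAsmP13

open Fermat.Agent.ES.N34.NodalSmooth13 Fermat.Agent.ES.P36.MultiCore13
  Fermat.Agent.ES.P36.LocTriple13 Fermat.Agent.ES.P36.NumAbsP13 Fermat.Agent.ES.P36.TripleReg13
  Fermat.Agent.ES.P36.NumInputP13

section Abstract

variable {R F : Type*} [CommRing R] [Field F] [Algebra R F]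

/-- **The point-wise output of S5 on one chart** (see the file header). -/
def ThetaAt (q : ℕ) (π : R) (B : Subalgebra R F) {ι : Type*} (O : ι → ValuationSubring F)
    (j₁ j₂ j₃ : ι) (m : ℕ) (u : F) (Θα Θβ : R) : Prop :=
  ∀ (𝔪 : Ideal B) (h𝔪 : 𝔪.IsMaximal), algebraMap R B π ∈ 𝔪 →
    ∀ (x₁ x₂ x₃ : ↥(@locSub R F _ _ _ B 𝔪 h𝔪.isPrime)),
      @TripleReg R F _ _ _ q π B ι O 𝔪 h𝔪.isPrime j₁ j₂ j₃ x₁ x₂ x₃ →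
    ∀ (ε : (↥(@locSub R F _ _ _ B 𝔪 h𝔪.isPrime))ˣ) (f : F)
      (r₁ r₂ r₃ : ↥(@locSub R F _ _ _ B 𝔪 h𝔪.isPrime)), f ≠ 0 →
      u = ((ε : ↥(@locSub R F _ _ _ B 𝔪 h𝔪.isPrime)) : F) * f ^ m →
      (f ∈ O j₁ ∧ f⁻¹ ∈ O j₁) → (f ∈ O j₂ ∧ f⁻¹ ∈ O j₂) → (f ∈ O j₃ ∧ f⁻¹ ∈ O j₃) →
      IsUnit r₁ → IsUnit r₂ → IsUnit r₃ →
      x₁ ∣ (ε : ↥(@locSub R F _ _ _ B 𝔪 h𝔪.isPrime)) * r₁ ^ m - 1 →
      x₂ ∣ (ε : ↥(@locSub R F _ _ _ B 𝔪 h𝔪.isPrime)) * r₂ ^ m - 1 →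
      x₃ ∣ (ε : ↥(@locSub R F _ _ _ B 𝔪 h𝔪.isPrime)) * r₃ ^ m - 1 →
      (∃ o ∈ O j₁, f - (r₁ : F) = (x₁ : F) * o) → (∃ o ∈ O j₂, f - (r₂ : F) = (x₂ : F) * o) →
      (∃ o ∈ O j₃, f - (r₃ : F) = (x₃ : F) * o) →
      r₁ * r₂ ^ (q - 1) - algebraMap R ↥(@locSub R F _ _ _ B 𝔪 h𝔪.isPrime) Θα * r₃ ^ q ∈
          IsLocalRing.maximalIdeal ↥(@locSub R F _ _ _ B 𝔪 h𝔪.isPrime) ∧
        r₃ * r₂ ^ (q - 1) - algebraMap R ↥(@locSub R F _ _ _ B 𝔪 h𝔪.isPrime) Θβ * r₁ ^ q ∈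
          IsLocalRing.maximalIdeal ↥(@locSub R F _ _ _ B 𝔪 h𝔪.isPrime)

end Abstract

section Assembly

variable {R K F : Type*} [CommRing R] [Field K] [Field F] [Algebra R K] [Algebra K F]
  [Algebra R F] [IsScalarTower R K F]

/-- **`BranchEqAt` for `u ^ (q² − 1) * s ^ m`** from S5's output and the multiplier of S6. -/
theorem branchEqAt_of_thetaAt {ι : Type*} (q : ℕ) (hq : q.Prime) (π : R) (B : Subalgebra R F)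
    (O : ι → ValuationSubring F) (j₁ j₂ j₃ : ι)
    (fracR : IsFractionRing R K)
    (dvrR : ∀ r : R, r ≠ 0 → ∃ (k : ℕ) (v : Rˣ), r = π ^ k * v)
    (frac : ∀ y : F, ∃ a ∈ B, ∃ b ∈ B, b ≠ 0 ∧ y * b = a)
    (pi_ne : algebraMap R F π ≠ 0)
    (m : ℕ) (hm : m ≠ 0) (u : F) (hu1 : PiOM π O (u - 1))
    (hu2 : ∀ v : AlgebraicCurve.Place K F, (m : ℤ) ∣ v.ord u)
    (Θα Θβ : R) (hth : ThetaAt q π B O j₁ j₂ j₃ m u Θα Θβ)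
    (s : F) (hs0 : s ≠ 0) (hsinv₁ : s⁻¹ ∈ O j₁) (hsinv₂ : s⁻¹ ∈ O j₂) (hsinv₃ : s⁻¹ ∈ O j₃)
    (hs₁ : ∃ c ∈ O j₁, s - algebraMap R F (Θα * Θβ ^ q) = algebraMap R F π * c)
    (hs₂ : ∃ c ∈ O j₂, s - 1 = algebraMap R F π * c)
    (hs₃ : ∃ c ∈ O j₃, s - algebraMap R F (Θβ * Θα ^ q) = algebraMap R F π * c) :
    BranchEqAt q π B O j₁ j₂ j₃ m (u ^ (q ^ 2 - 1) * s ^ m) := by
  intro 𝔪 h𝔪 hπ𝔪 x₁ x₂ x₃ hreg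
  have h𝔪p : 𝔪.IsPrime := h𝔪.isPrime
  obtain ⟨ε, f, r₁, r₂, r₃, hf0, huf, hf₁, hf₂, hf₃, hr₁u, hr₂u, hr₃u, hr₁, hr₂, hr₃, ho₁, ho₂,
    ho₃⟩ := exists_tripleRep (K := K) q π B O 𝔪 j₁ j₂ j₃ x₁ x₂ x₃ fracR dvrR frac hreg m hm u
      hu1 hu2
  obtain ⟨hα, hβ⟩ := hth 𝔪 h𝔪 hπ𝔪 x₁ x₂ x₃ hreg ε f r₁ r₂ r₃ hf0 huf hf₁ hf₂ hf₃ hr₁u hr₂u hr₃u
    hr₁ hr₂ hr₃ ho₁ ho₂ ho₃
  obtain ⟨h1, h3⟩ := GlobMult18.branch_pow_congr q hq.one_le hr₁u hr₃u hα hβ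
  obtain ⟨-, -, -, -, hC₁, hC₂, hC₃, hπx₁, hπx₂, hπx₃, -, -, -⟩ :=
    tripleData_of_reg q π B O 𝔪 j₁ j₂ j₃ x₁ x₂ x₃ pi_ne hreg
  have hπx : ∀ (Ov : ValuationSubring F) (x : ↥(locSub B 𝔪)),
      (∀ c : ↥(locSub B 𝔪), (c : F) ∈ Ov) →
      (∃ w : ↥(locSub B 𝔪), algebraMap R F π = (x : F) * (w : F)) →
      ∃ o ∈ Ov, algebraMap R F π = algebraMap ↥(locSub B 𝔪) F x * o := by
    rintro Ov x hC ⟨w, hw⟩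
    exact ⟨(w : F), hC w, hw⟩
  refine TripleAsm18.tripleDec_mul_gen (C := ↥(locSub B 𝔪)) (O j₁) (O j₂) (O j₃) x₁ x₂ x₃
    hC₁ hC₂ hC₃ (hπx (O j₁) x₁ hC₁ hπx₁) (hπx (O j₂) x₂ hC₂ hπx₂) (hπx (O j₃) x₃ hC₃ hπx₃)
    m (q ^ 2 - 1) u ε f hf0 huf hf₁.2 hf₂.2 hf₃.2 ho₁ ho₂ ho₃
    (l₁ := algebraMap R ↥(locSub B 𝔪) (Θα * Θβ ^ q)) (l₂ := 1)
    (l₃ := algebraMap R ↥(locSub B 𝔪) (Θβ * Θα ^ q)) (a := r₂ ^ (q ^ 2 - 1)) ?_ ?_ ?_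
    hs0 hsinv₁ hsinv₂ hsinv₃ hs₁ ?_ hs₃
  · rw [map_mul, map_pow, mul_comm]; exact h1
  · rw [mul_one, sub_self]; exact Ideal.zero_mem _
  · rw [map_mul, map_pow, mul_comm]; exact h3
  · rw [map_one]; exact hs₂

end Assembly

end Fermat.Agent.ES.P36.BranchAsmP13
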