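/-
Program P (S36), brick S5b, ABSTRACT FINAL FORM (helper15): **one side (`α₂` or `β₂`) of (N3) at a triple
point, with the hypotheses in the target shapes of the R-chapter** (`TripleReg13`-style `(hC, hinv, hnu)`
forms), conclusion in the shape of `GlobMult18` / `TripleDecMul18` (`hα`, `hβ`).

* `mem_max_of_val_lt_one` : the "non-unit" hypotheses of `BranchRel15.branch_relation` are automatic.
* `surj_of_prime` : (S₁)/(S₂)/(S₃) from a prime element `p` of the lower local ring `C'` with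
  `C' ⧸ (p)` integrally closed and `O ∩ E = C'_(p)` in `(hC, hinv, hnu)` form (`LocalStep15`).
* `branch_rel_side` : the final statement.  Inputs = (M-a) degree `≤ q`; (M-b) RAM pattern of the pair
  `O₁, O₂`; (M-c) residually independent family + purely inseparable residues for the single extension
  `O₃`; (M-d) the node of level `q`: `C'` local domain, integrally closed, primes `p₁ p₂` with integrally
  closed quotients and `(hC, hinv, hnu)`; (M-e) `C' → C` integral and local; the factorisation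
  `u = ε f ^ m` with representatives; the global constants.
-/
import Mathlib
import Fermat.Agent.RED.CORE.LocalStep15
import Fermat.Agent.ES.P36.BranchAsm15

set_option autoImplicit false

namespace Fermat.Agent.ES.P36.BranchSide15

open IsLocalRing Fermat.Agent.RED.CORE Fermat.Agent.RED.CORE.UnitPow15
  Fermat.Agent.RED.PUR.UniqueExt20 Fermat.Agent.ES.P36.NormRam20
  Fermat.Agent.ES.P36.BranchInputs15 Fermat.Agent.ES.P36.BranchAsm15

section Auto

variable {F : Type*} [Field F] {C : Type*} [CommRing C] [IsLocalRing C]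

/-- an element of a local ring `C → O` of valuation `< 1` is a non-unit. -/
theorem mem_max_of_val_lt_one (O : ValuationSubring F) (iC : C →+* F) (hC : ∀ c : C, iC c ∈ O)
    (c : C) (h : O.valuation (iC c) < 1) : c ∈ maximalIdeal C := by
  rw [mem_maximalIdeal, mem_nonunits_iff]
  intro hu
  obtain ⟨d, hd⟩ := hu.exists_right_inv
  have h1 : O.valuation (iC c) * O.valuation (iC d) = 1 := by
    rw [← map_mul, ← map_mul, hd, map_one, map_one]
  have h2 : O.valuation (iC d) ≤ 1 := (O.valuation_le_one_iff _).mpr (hC d)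
  have : O.valuation (iC c) * O.valuation (iC d) < 1 :=
    mul_lt_one_of_nonneg_of_lt_one_left zero_le h h2
  rw [h1] at this
  exact lt_irrefl _ this

end Auto

section Prime

variable {E F : Type*} [Field E] [Field F] [Algebra E F]
  {C' C : Type*} [CommRing C'] [IsDomain C'] [WfDvdMonoid C'] [Algebra C' E] [IsFractionRing C' E]
  [CommRing C]

omit [IsDomain C'] [WfDvdMonoid C'] in
/-- `p ∣ a ↔ v(a) < 1` when `V = C'_(p)` in `(hC, hinv, hnu)` form. -/
theorem dvd_iff_val_lt_one (V : ValuationSubring E) {p : C'}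
    (hC : ∀ c : C', algebraMap C' E c ∈ V)
    (hinv : ∀ c : C', ¬ p ∣ c → (algebraMap C' E c)⁻¹ ∈ V)
    (hnu : (algebraMap C' E p)⁻¹ ∉ V) (a : C') :
    p ∣ a ↔ V.valuation (algebraMap C' E a) < 1 := by
  have hpv : V.valuation (algebraMap C' E p) < 1 := by
    rw [val_lt_one_iff]
    exact Or.inr hnu
  constructor
  · rintro ⟨c, rfl⟩
    rw [map_mul, map_mul]
    exact mul_lt_one_of_nonneg_of_lt_one_left zero_le hpv ((V.valuation_le_one_iff _).mpr (hC c))
  · intro h
    by_contra hnd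
    rw [val_lt_one_iff] at h
    rcases h with h0 | h1
    · apply hnd
      have : a = 0 := by
        rwa [map_eq_zero_iff _ (FaithfulSMul.algebraMap_injective C' E)] at h0
      rw [this]
      exact dvd_zero p
    · exact h1 (hinv a hnd)

/-- **(S₁)/(S₂)/(S₃) from a prime element of the lower ring.** -/
theorem surj_of_prime (O : ValuationSubring F) (iC : C →+* F) (φ : C' →+* C)
    (hcomm : ∀ a : C', iC (φ a) = algebraMap E F (algebraMap C' E a))
    (hC : ∀ c : C, iC c ∈ O) (hint : φ.IsIntegral)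
    {p : C'} (hp : Prime p) [IsIntegrallyClosed (C' ⧸ Ideal.span {p})]
    (hC' : ∀ c : C', algebraMap C' E c ∈ O.comap (algebraMap E F))
    (hinv : ∀ c : C', ¬ p ∣ c → (algebraMap C' E c)⁻¹ ∈ O.comap (algebraMap E F))
    (hnu : (algebraMap C' E p)⁻¹ ∉ O.comap (algebraMap E F))
    (n : ℕ)
    (hres : ∀ y ∈ O, ∃ x : E, (O.comap (algebraMap E F)).valuation x ≤ 1 ∧
      O.valuation (y ^ n - algebraMap E F x) < 1) :
    ∀ e : C, ∃ a : C', O.valuation (iC e ^ n - algebraMap E F (algebraMap C' E a)) < 1 := by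
  have hpr : (Ideal.span {p} : Ideal C').IsPrime :=
    (Ideal.span_singleton_prime hp.ne_zero).mpr hp
  refine surj_of_residue O (algebraMap C' E) iC φ hcomm hC hint (Ideal.span {p}) (fun a => ?_)
    (fun x hx => ?_) n hres
  · rw [Ideal.mem_span_singleton]
    exact dvd_iff_val_lt_one _ hC' hinv hnu a
  · obtain ⟨a, s, hs, has⟩ := LocalStep15.mem_primeVS_of_mem hp _ hC' hinv hnu hx
    refine ⟨a, s, ?_, by rw [has, sub_self, map_zero]; exact zero_lt_one⟩
    rw [val_eq_one_iff]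
    have hs0 : s ≠ 0 := fun h => hs (h ▸ dvd_zero p)
    exact ⟨by rwa [Ne, map_eq_zero_iff _ (FaithfulSMul.algebraMap_injective C' E)], hC' s,
      hinv s hs⟩

end Prime

section Side

variable {E F : Type*} [Field E] [Field F] [Algebra E F] [FiniteDimensional E F]
  {C' : Type*} [CommRing C'] [IsDomain C'] [IsLocalRing C'] [WfDvdMonoid C'] [Algebra C' E]
  [IsFractionRing C' E] [IsIntegrallyClosed C']
  {C : Type*} [CommRing C] [IsLocalRing C] {R : Type*} [CommRing R]

/-- **S5b, one side of (N3) at a triple point** (see the file header).  `OE₁ := O₁ ∩ E = O₂ ∩ E` is the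
branch of level `q` carrying the pair, `OE₂ := O₃ ∩ E` the branch carrying the single extension. -/
theorem branch_rel_side (q : ℕ) [Fact q.Prime] (hn : Module.finrank E F ≤ q)
    (O₁ O₂ O₃ : ValuationSubring F) (h12 : O₁ ≠ O₂)
    (hcomap₂ : O₁.comap (algebraMap E F) = O₂.comap (algebraMap E F))
    {t : F} (ht0 : t ≠ 0) (ht2 : O₂.valuation t < 1)
    (hram : ∀ a : E, (O₁.comap (algebraMap E F)).valuation a < 1 →
      O₂.valuation (algebraMap E F a) ≤ O₂.valuation t ^ (q - 1))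
    (hqE : (O₃.comap (algebraMap E F)).valuation (q : E) < 1)
    (b : Fin q → F) (hbO : ∀ i, b i ∈ O₃)
    (hb : ∀ a : Fin q → E, (∀ i, (O₃.comap (algebraMap E F)).valuation (a i) ≤ 1) →
      O₃.valuation (∑ i, algebraMap E F (a i) * b i) < 1 →
      ∀ i, (O₃.comap (algebraMap E F)).valuation (a i) < 1)
    (hinsep : ∀ y ∈ O₃, ∃ x : E, (O₃.comap (algebraMap E F)).valuation x ≤ 1 ∧
      O₃.valuation (y ^ q - algebraMap E F x) < 1)
    {p₁ p₂ : C'} (hp₁ : Prime p₁) (hp₂ : Prime p₂)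
    [IsIntegrallyClosed (C' ⧸ Ideal.span {p₁})] [IsIntegrallyClosed (C' ⧸ Ideal.span {p₂})]
    (hC'₁ : ∀ c : C', algebraMap C' E c ∈ O₁.comap (algebraMap E F))
    (hinv'₁ : ∀ c : C', ¬ p₁ ∣ c → (algebraMap C' E c)⁻¹ ∈ O₁.comap (algebraMap E F))
    (hnu'₁ : (algebraMap C' E p₁)⁻¹ ∉ O₁.comap (algebraMap E F))
    (hC'₂ : ∀ c : C', algebraMap C' E c ∈ O₃.comap (algebraMap E F))
    (hinv'₂ : ∀ c : C', ¬ p₂ ∣ c → (algebraMap C' E c)⁻¹ ∈ O₃.comap (algebraMap E F))
    (hnu'₂ : (algebraMap C' E p₂)⁻¹ ∉ O₃.comap (algebraMap E F))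
    (iC : C →+* F) (φ : C' →+* C)
    (hcomm : ∀ a : C', iC (φ a) = algebraMap E F (algebraMap C' E a))
    (hC1 : ∀ c : C, iC c ∈ O₁) (hC2 : ∀ c : C, iC c ∈ O₂) (hC3 : ∀ c : C, iC c ∈ O₃)
    (hloc : ∀ a : C', a ∈ maximalIdeal C' → φ a ∈ maximalIdeal C) (hint : φ.IsIntegral)
    {m : ℕ} (hm : m ≠ 0) {u f : F} (ε : Cˣ) (huf : u = iC (ε : C) * f ^ m)
    {r₁ r₂ r₃ : C}
    (hr1 : O₁.valuation (f - iC r₁) < 1) (hr2 : O₂.valuation (f - iC r₂) < 1)
    (hr3 : O₃.valuation (f - iC r₃) < 1)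
    (ρ' : R →+* C') {G : E} (hG : G ≠ 0) {κ γ₁ γ₂ Θ π : R}
    (hN : Algebra.norm E u = algebraMap C' E (ρ' κ) * G ^ m)
    (hG1 : (O₁.comap (algebraMap E F)).valuation (G - algebraMap C' E (ρ' γ₁)) < 1)
    (hG2 : (O₃.comap (algebraMap E F)).valuation (G - algebraMap C' E (ρ' γ₂)) < 1)
    (hγ₂ : IsUnit γ₂) (hΘ : π ∣ γ₁ - Θ * γ₂) (hπ : φ (ρ' π) ∈ maximalIdeal C) :
    r₁ * r₂ ^ (q - 1) - φ (ρ' Θ) * r₃ ^ q ∈ maximalIdeal C := by
  have hcomapO₂ : ∀ c : C', algebraMap C' E c ∈ O₂.comap (algebraMap E F) := by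
    intro c; rw [← hcomap₂]; exact hC'₁ c
  have hle : ∀ (V : ValuationSubring E), (∀ c : C', algebraMap C' E c ∈ V) →
      ∀ a : C', V.valuation (algebraMap C' E a) ≤ 1 :=
    fun V h a => (V.valuation_le_one_iff _).mpr (h a)
  -- (S₁), (S₂), (S₃)
  have hS1 : ∀ e : C, ∃ a : C', O₁.valuation (iC e - algebraMap E F (algebraMap C' E a)) < 1 := by
    intro e
    obtain ⟨a, ha⟩ := surj_of_prime O₁ iC φ hcomm hC1 hint hp₁ hC'₁ hinv'₁ hnu'₁ 1
      (fun y hy => by
        obtain ⟨x, hx, hxy⟩ := exists_residue_left (k := q - 2)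
          (by have := (Fact.out : q.Prime).two_le; omega) O₁ O₂ h12 hcomap₂ ht0 ht2
          (by have := (Fact.out : q.Prime).two_le
              have e : q - 2 + 1 = q - 1 := by omega
              rw [e]; exact hram) hy
        exact ⟨x, hx, by rw [pow_one]; exact hxy⟩) e
    exact ⟨a, by rw [pow_one] at ha; exact ha⟩
  have hS2 : ∀ e : C, ∃ a : C', O₂.valuation (iC e - algebraMap E F (algebraMap C' E a)) < 1 := by
    intro e
    obtain ⟨a, ha⟩ := surj_of_prime O₂ iC φ hcomm hC2 hint hp₁ hcomapO₂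
      (fun c hc => by rw [← hcomap₂]; exact hinv'₁ c hc)
      (fun h => hnu'₁ (by rw [hcomap₂]; exact h)) 1
      (fun y hy => by
        obtain ⟨x, hx, hxy⟩ := exists_residue_right (k := q - 2)
          (by have := (Fact.out : q.Prime).two_le; omega) O₁ O₂ h12 hcomap₂ ht0 ht2
          (by have := (Fact.out : q.Prime).two_le
              have e : q - 2 + 1 = q - 1 := by omega
              rw [e]; exact hram) hy
        exact ⟨x, by rw [← hcomap₂]; exact hx, by rw [pow_one]; exact hxy⟩) e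
    exact ⟨a, by rw [pow_one] at ha; exact ha⟩
  have hS3 := surj_of_prime O₃ iC φ hcomm hC3 hint hp₂ hC'₂ hinv'₂ hnu'₂ q hinsep
  -- `C'` integrally closed in `E`
  have hic : ∀ x : E, (algebraMap C' E).IsIntegralElem x → ∃ a : C', algebraMap C' E a = x :=
    fun x hx => IsIntegrallyClosed.isIntegral_iff.mp hx
  have hφ1 : ∀ a : C', (O₁.comap (algebraMap E F)).valuation (algebraMap C' E a) < 1 →
      a ∈ maximalIdeal C' := by
    intro a ha
    have := mem_max_of_val_lt_one (O₁.comap (algebraMap E F)) (algebraMap C' E) hC'₁ a ha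
    exact this
  have hφ2 : ∀ a : C', (O₃.comap (algebraMap E F)).valuation (algebraMap C' E a) < 1 →
      a ∈ maximalIdeal C' :=
    fun a ha => mem_max_of_val_lt_one (O₃.comap (algebraMap E F)) (algebraMap C' E) hC'₂ a ha
  exact branch_rel_at_point q hn O₁ O₂ O₃ h12 hcomap₂ ht0 ht2 hram hqE b hbO hb (algebraMap C' E) iC φ
    hcomm (hle _ hC'₁) (hle _ hC'₂) hC1 hC2 hC3 hφ1 hφ2 hloc
    (mem_max_of_val_lt_one O₁ iC hC1) (mem_max_of_val_lt_one O₂ iC hC2)
    (mem_max_of_val_lt_one O₃ iC hC3) hS1 hS2 hS3 hint hic hm ε huf hr1 hr2 hr3 ρ' hG hN hG1 hG2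
    hγ₂ hΘ hπ

end Side

end Fermat.Agent.ES.P36.BranchSide15
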