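/-
Program P (S36), brick S5b, CHART FORM (helper15): **one side of (N3) at a triple point, for the
localised charts `locSub`** — the form the model plugs into, with input/output shapes literally those
of `TripleReg13.exists_tripleRep` (input) and `TripleDecMul18.tripleDec_mul_base` / `TripleAsm18` (output).

`E ⊂ F` (`Algebra E F` = one of the two degeneracy maps `α₂`, `β₂`; `R`-algebras), `B` a chart of `F`,
`𝔪` a prime of `B` (a triple point), `C := locSub B 𝔪`.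

* `NodeBelow OE₁ OE₂ B 𝔪` : the CONTRACT for (M-d)+(M-e): there is a chart `Bq` of `E` and a prime `𝔫` of
  `Bq` (the node below `𝔪`) such that `C' := locSub Bq 𝔫` is a UFD with fraction field `E`, integrally
  closed, with two primes `p₁ p₂`, `C' ⧸ (p_j)` integrally closed, `OE_j = C'_(p_j)` in the
  `(hC, hinv, hnu)` form, `E → F` maps `C'` into `C`, reflects units, and `C` is integral over `C'`.
* `branch_rel_locSub` : `NodeBelow` + the valuation pattern of the side ((M-a),(M-b),(M-c)) + a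
  factorisation `u = ε f ^ m` with branch representatives `f - r_k = x_k o` + the global constants
  ⊢ `r₁ r₂ ^ (q-1) - algebraMap R C Θ * r₃ ^ q ∈ 𝔪_C`.
-/
import Mathlib
import Fermat.Agent.ES.N34.NodalSmooth13
import Fermat.Agent.ES.P36.BranchSide15

set_option autoImplicit false

namespace Fermat.Agent.ES.P36.BranchLoc15

open IsLocalRing Fermat.Agent.ES.N34.NodalSmooth13 Fermat.Agent.RED.PUR.UniqueExt20
  Fermat.Agent.ES.P36.BranchSide15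

section Defs

variable {R E F : Type*} [CommRing R] [Field E] [Field F] [Algebra R E] [Algebra R F] [Algebra E F]

/-- the map `locSub Bq 𝔫 → locSub B 𝔪` induced by `E → F`. -/
noncomputable def locMap (Bq : Subalgebra R E) (𝔫 : Ideal Bq) [𝔫.IsPrime] (B : Subalgebra R F)
    (𝔪 : Ideal B) [𝔪.IsPrime] (hmap : ∀ x ∈ locSub Bq 𝔫, algebraMap E F x ∈ locSub B 𝔪) :
    ↥(locSub Bq 𝔫) →+* ↥(locSub B 𝔪) :=
  ((algebraMap E F).comp (locSub Bq 𝔫).val.toRingHom).codRestrict (locSub B 𝔪)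
    (fun x => hmap x x.2)

@[simp] theorem coe_locMap (Bq : Subalgebra R E) (𝔫 : Ideal Bq) [𝔫.IsPrime] (B : Subalgebra R F)
    (𝔪 : Ideal B) [𝔪.IsPrime] (hmap : ∀ x ∈ locSub Bq 𝔫, algebraMap E F x ∈ locSub B 𝔪)
    (x : ↥(locSub Bq 𝔫)) : ((locMap Bq 𝔫 B 𝔪 hmap x : ↥(locSub B 𝔪)) : F) = algebraMap E F (x : E) :=
  rfl

/-- **CONTRACT (M-d)+(M-e)**: the node of the lower level below the triple point `𝔪`, for one side. -/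
def NodeBelow (OE₁ OE₂ : ValuationSubring E) (B : Subalgebra R F) (𝔪 : Ideal B) [𝔪.IsPrime] : Prop :=
  ∃ (Bq : Subalgebra R E) (𝔫 : Ideal Bq) (h𝔫 : 𝔫.IsPrime)
    (p₁ p₂ : ↥(@locSub R E _ _ _ Bq 𝔫 h𝔫)),
    UniqueFactorizationMonoid ↥(@locSub R E _ _ _ Bq 𝔫 h𝔫) ∧
    IsFractionRing ↥(@locSub R E _ _ _ Bq 𝔫 h𝔫) E ∧
    IsIntegrallyClosed ↥(@locSub R E _ _ _ Bq 𝔫 h𝔫) ∧
    Prime p₁ ∧ Prime p₂ ∧
    IsIntegrallyClosed (↥(@locSub R E _ _ _ Bq 𝔫 h𝔫) ⧸ Ideal.span {p₁}) ∧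
    IsIntegrallyClosed (↥(@locSub R E _ _ _ Bq 𝔫 h𝔫) ⧸ Ideal.span {p₂}) ∧
    ((∀ c : ↥(@locSub R E _ _ _ Bq 𝔫 h𝔫), (c : E) ∈ OE₁) ∧
      (∀ c : ↥(@locSub R E _ _ _ Bq 𝔫 h𝔫), ¬ p₁ ∣ c → ((c : E))⁻¹ ∈ OE₁) ∧ ((p₁ : E))⁻¹ ∉ OE₁) ∧
    ((∀ c : ↥(@locSub R E _ _ _ Bq 𝔫 h𝔫), (c : E) ∈ OE₂) ∧
      (∀ c : ↥(@locSub R E _ _ _ Bq 𝔫 h𝔫), ¬ p₂ ∣ c → ((c : E))⁻¹ ∈ OE₂) ∧ ((p₂ : E))⁻¹ ∉ OE₂) ∧
    ∃ hmap : ∀ x ∈ @locSub R E _ _ _ Bq 𝔫 h𝔫, algebraMap E F x ∈ locSub B 𝔪,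
      (∀ x : ↥(@locSub R E _ _ _ Bq 𝔫 h𝔫),
        IsUnit (@locMap R E F _ _ _ _ _ _ Bq 𝔫 h𝔫 B 𝔪 _ hmap x) → IsUnit x) ∧
      (@locMap R E F _ _ _ _ _ _ Bq 𝔫 h𝔫 B 𝔪 _ hmap).IsIntegral

end Defs

section Main

variable {R E F : Type*} [CommRing R] [Field E] [Field F] [Algebra R E] [Algebra R F] [Algebra E F]
  [IsScalarTower R E F] [FiniteDimensional E F]

/-- congruence modulo `x O` gives valuation `< 1` when `x` is a non-unit of `O`. -/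
theorem val_lt_one_of_eq_mul (O : ValuationSubring F) {x y o : F} (hnu : x⁻¹ ∉ O)
    (ho : o ∈ O) (h : y = x * o) : O.valuation y < 1 := by
  rw [h, map_mul]
  have hxv : O.valuation x < 1 := by
    rw [val_lt_one_iff]; exact Or.inr hnu
  exact mul_lt_one_of_nonneg_of_lt_one_left zero_le hxv ((O.valuation_le_one_iff _).mpr ho)

/-- **S5b, chart form: one side of (N3) at a triple point.** -/
theorem branch_rel_locSub (q : ℕ) [Fact q.Prime] (hn : Module.finrank E F ≤ q)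
    (O₁ O₂ O₃ : ValuationSubring F) (h12 : O₁ ≠ O₂)
    (hcomap₂ : O₁.comap (algebraMap E F) = O₂.comap (algebraMap E F))
    {t : F} (ht0 : t ≠ 0) (ht2 : O₂.valuation t < 1)
    (hram : ∀ a : E, (O₁.comap (algebraMap E F)).valuation a < 1 →
      O₂.valuation (algebraMap E F a) ≤ O₂.valuation t ^ (q - 1))
    (hqE : (O₃.comap (algebraMap E F)).valuation (q : E) < 1)
    (b : Fin q → F) (hbO : ∀ i, b i ∈ O₃)
    (hb : ∀ a : Fin q → E, (∀ i, (O₃.comap (algebraMap E F)).valuation (a i) ≤ 1) →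
      O₃.valuation (∑ i, algebraMap E F (a i) * b i) < 1 →
      ∀ i, (O₃.comap (algebraMap E F)).valuation (a i) < 1)
    (hinsep : ∀ y ∈ O₃, ∃ x : E, (O₃.comap (algebraMap E F)).valuation x ≤ 1 ∧
      O₃.valuation (y ^ q - algebraMap E F x) < 1)
    (B : Subalgebra R F) (𝔪 : Ideal B) [𝔪.IsPrime]
    (hnode : NodeBelow (O₁.comap (algebraMap E F)) (O₃.comap (algebraMap E F)) B 𝔪)
    (x₁ x₂ x₃ : ↥(locSub B 𝔪))
    (hC1 : ∀ c : ↥(locSub B 𝔪), (c : F) ∈ O₁) (hC2 : ∀ c : ↥(locSub B 𝔪), (c : F) ∈ O₂)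
    (hC3 : ∀ c : ↥(locSub B 𝔪), (c : F) ∈ O₃)
    (hnu1 : ((x₁ : F))⁻¹ ∉ O₁) (hnu2 : ((x₂ : F))⁻¹ ∉ O₂) (hnu3 : ((x₃ : F))⁻¹ ∉ O₃)
    {m : ℕ} (hm : m ≠ 0) {u f : F} (ε : (↥(locSub B 𝔪))ˣ)
    (huf : u = ((ε : ↥(locSub B 𝔪)) : F) * f ^ m)
    {r₁ r₂ r₃ : ↥(locSub B 𝔪)}
    (hr1 : ∃ o ∈ O₁, f - (r₁ : F) = (x₁ : F) * o) (hr2 : ∃ o ∈ O₂, f - (r₂ : F) = (x₂ : F) * o)
    (hr3 : ∃ o ∈ O₃, f - (r₃ : F) = (x₃ : F) * o)
    {G : E} (hG : G ≠ 0) {κ γ₁ γ₂ Θ π : R}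
    (hN : Algebra.norm E u = algebraMap R E κ * G ^ m)
    (hG1 : (O₁.comap (algebraMap E F)).valuation (G - algebraMap R E γ₁) < 1)
    (hG2 : (O₃.comap (algebraMap E F)).valuation (G - algebraMap R E γ₂) < 1)
    (hγ₂ : IsUnit γ₂) (hΘ : π ∣ γ₁ - Θ * γ₂)
    (hπ : algebraMap R ↥(locSub B 𝔪) π ∈ maximalIdeal ↥(locSub B 𝔪)) :
    r₁ * r₂ ^ (q - 1) - algebraMap R ↥(locSub B 𝔪) Θ * r₃ ^ q ∈ maximalIdeal ↥(locSub B 𝔪) := by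
  obtain ⟨Bq, 𝔫, h𝔫, p₁, p₂, hufd, hfrac, hicl, hp₁, hp₂, hic₁, hic₂, ⟨hC'₁, hinv'₁, hnu'₁⟩,
    ⟨hC'₂, hinv'₂, hnu'₂⟩, hmap, hunit, hint⟩ := hnode
  have hval : ∀ (O : ValuationSubring F) (x r : ↥(locSub B 𝔪)), ((x : F))⁻¹ ∉ O →
      (∃ o ∈ O, f - (r : F) = (x : F) * o) → O.valuation (f - (r : F)) < 1 := by
    rintro O x r hnu ⟨o, ho, h⟩
    exact val_lt_one_of_eq_mul O hnu ho h
  have hcompat : ∀ a : R, locMap Bq 𝔫 B 𝔪 hmap (algebraMap R ↥(locSub Bq 𝔫) a) =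
      algebraMap R ↥(locSub B 𝔪) a := by
    intro a
    apply Subtype.ext
    rw [coe_locMap]
    show algebraMap E F (algebraMap R E a) = algebraMap R F a
    rw [← IsScalarTower.algebraMap_apply]
  have hloc : ∀ a : ↥(locSub Bq 𝔫), a ∈ maximalIdeal ↥(locSub Bq 𝔫) →
      locMap Bq 𝔫 B 𝔪 hmap a ∈ maximalIdeal ↥(locSub B 𝔪) := by
    intro a ha
    rw [mem_maximalIdeal, mem_nonunits_iff] at ha ⊢
    exact fun hu => ha (hunit a hu)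
  have key := branch_rel_side (C' := ↥(locSub Bq 𝔫)) (C := ↥(locSub B 𝔪)) (R := R) q hn O₁ O₂ O₃ h12
    hcomap₂ ht0 ht2 hram hqE b hbO hb hinsep hp₁ hp₂ hC'₁ hinv'₁ hnu'₁ hC'₂ hinv'₂ hnu'₂
    (locSub B 𝔪).val.toRingHom (locMap Bq 𝔫 B 𝔪 hmap) (fun a => rfl) hC1 hC2 hC3 hloc hint hm ε huf
    (hval O₁ x₁ r₁ hnu1 hr1) (hval O₂ x₂ r₂ hnu2 hr2)
    (hval O₃ x₃ r₃ hnu3 hr3) (algebraMap R ↥(locSub Bq 𝔫)) hG (κ := κ) (γ₁ := γ₁)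
    (γ₂ := γ₂) (Θ := Θ) (π := π) hN hG1 hG2 hγ₂ hΘ (by rw [hcompat]; exact hπ)
  rw [hcompat] at key
  exact key

end Main

end Fermat.Agent.ES.P36.BranchLoc15
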