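/-
Program P (S36), brick G3/0 (helper20): **integer orders at a valuation subring** with respect to a
reference element, and small valuation lemmas for the generic-point chapter (G).  Mathlib only.

* `HasOrd V ϖ x n` : `V.valuation x = V.valuation ϖ ^ n` (`n : ℤ`); calculus `mul`, `inv`, `div`, `pow`,
  `zpow`, uniqueness (`ϖ` a nonzero non-unit), `val_eq_one` (order `0` ⇔ unit).
* `val_pow_sub_pow_lt` / `val_sub_lt_of_pow_sub_pow_lt` : Frobenius modulo `𝔪_V` when `q ∈ 𝔪_V`.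
* `val_one_add_pow_sub_one_le` : `(1 + x) ^ q ≡ 1 mod π` when `q ∈ π V`, `x ∈ 𝔪_V`, `x ^ q ∈ π V`.
* `val_eq_one_of_pow_eq_one` : the value group is torsion free.
-/
import Mathlib

set_option autoImplicit false

namespace Fermat.Agent.ES.P36.OrdVal20

variable {F : Type*} [Field F]

/-- `x` has order `n` at `V` with respect to `ϖ`. -/
def HasOrd (V : ValuationSubring F) (ϖ x : F) (n : ℤ) : Prop :=
  V.valuation x = V.valuation ϖ ^ n

namespace HasOrd

variable {V : ValuationSubring F} {ϖ x y : F} {n n' : ℤ}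

theorem mul (hx : HasOrd V ϖ x n) (hy : HasOrd V ϖ y n') (hϖ : ϖ ≠ 0) :
    HasOrd V ϖ (x * y) (n + n') := by
  unfold HasOrd at *
  rw [map_mul, hx, hy, zpow_add₀ ((Valuation.ne_zero_iff _).mpr hϖ)]

theorem inv (hx : HasOrd V ϖ x n) : HasOrd V ϖ x⁻¹ (-n) := by
  unfold HasOrd at *
  rw [map_inv₀, hx, zpow_neg]

theorem div (hx : HasOrd V ϖ x n) (hy : HasOrd V ϖ y n') (hϖ : ϖ ≠ 0) :
    HasOrd V ϖ (x / y) (n - n') := by
  rw [div_eq_mul_inv, sub_eq_add_neg]
  exact hx.mul hy.inv hϖ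

theorem pow (hx : HasOrd V ϖ x n) (k : ℕ) : HasOrd V ϖ (x ^ k) (k * n) := by
  unfold HasOrd at *
  rw [map_pow, hx, ← zpow_natCast, ← zpow_mul, mul_comm]

theorem zpow (hx : HasOrd V ϖ x n) (k : ℤ) : HasOrd V ϖ (x ^ k) (k * n) := by
  unfold HasOrd at *
  rw [map_zpow₀, hx, ← zpow_mul, mul_comm]

theorem congr_val {V' : ValuationSubring F} {ϖ' : F} (hx : HasOrd V ϖ x n) (h : V' = V)
    (hϖ : V.valuation ϖ' = V.valuation ϖ) : HasOrd V' ϖ' x n := by
  subst h
  unfold HasOrd at *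
  rw [hx, hϖ]

theorem ne_zero (hx : HasOrd V ϖ x n) (hϖ : ϖ ≠ 0) : x ≠ 0 := by
  rintro rfl
  unfold HasOrd at hx
  rw [map_zero] at hx
  exact zpow_ne_zero n ((Valuation.ne_zero_iff _).mpr hϖ) hx.symm

theorem unique (hx : HasOrd V ϖ x n) (hx' : HasOrd V ϖ x n') (hϖ : ϖ ≠ 0)
    (hϖ1 : V.valuation ϖ < 1) : n = n' := by
  unfold HasOrd at *
  have hpos : 0 < V.valuation ϖ := zero_lt_iff.mpr ((Valuation.ne_zero_iff _).mpr hϖ)
  have h := hx.symm.trans hx'
  by_contra hne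
  rcases lt_or_gt_of_ne hne with hlt | hgt
  · have := zpow_lt_zpow_right_of_lt_one₀ hpos hϖ1 hlt
    rw [h] at this
    exact lt_irrefl _ this
  · have := zpow_lt_zpow_right_of_lt_one₀ hpos hϖ1 hgt
    rw [h] at this
    exact lt_irrefl _ this

theorem val_eq_one (hx : HasOrd V ϖ x 0) : V.valuation x = 1 := by
  unfold HasOrd at hx
  rw [hx, zpow_zero]

theorem of_val_eq_one (hx : V.valuation x = 1) : HasOrd V ϖ x 0 := by
  unfold HasOrd
  rw [hx, zpow_zero]

theorem self : HasOrd V ϖ ϖ 1 := by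
  unfold HasOrd
  rw [zpow_one]

theorem one : HasOrd V ϖ 1 0 := of_val_eq_one (map_one _)

end HasOrd

/-! ### Small valuation lemmas -/

section Lemmas

variable (V : ValuationSubring F)

/-- the value group is torsion free. -/
theorem val_eq_one_of_pow_eq_one {x : F} {m : ℕ} (hm : m ≠ 0) (h : V.valuation x ^ m = 1) :
    V.valuation x = 1 := by
  rcases lt_trichotomy (V.valuation x) 1 with hlt | heq | hgt
  · have := pow_lt_one₀ zero_le hlt hm
    rw [h] at this
    exact absurd this (lt_irrefl _)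
  · exact heq
  · have := one_lt_pow₀ hgt hm
    rw [h] at this
    exact absurd this (lt_irrefl _)

/-- `a ^ q ≡ b ^ q` from `a ≡ b` modulo `𝔪_V`. -/
theorem val_pow_sub_pow_lt {a b : F} (ha : V.valuation a ≤ 1) (hb : V.valuation b ≤ 1)
    (hab : V.valuation (a - b) < 1) (q : ℕ) : V.valuation (a ^ q - b ^ q) < 1 := by
  obtain ⟨c, hc⟩ := sub_dvd_pow_sub_pow (⟨a, (V.valuation_le_one_iff a).mp ha⟩ : ↥V)
    ⟨b, (V.valuation_le_one_iff b).mp hb⟩ q
  have hc' : a ^ q - b ^ q = (a - b) * (c : F) := by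
    have := congrArg (Subtype.val : ↥V → F) hc
    simpa using this
  rw [hc', map_mul]
  exact (mul_le_of_le_one_right' ((V.valuation_le_one_iff _).mpr c.2)).trans_lt hab

/-- Frobenius is injective modulo `𝔪_V` when `q ∈ 𝔪_V`: `a ^ q ≡ b ^ q ⇒ a ≡ b`. -/
theorem val_sub_lt_of_pow_sub_pow_lt {q : ℕ} (hq : q.Prime) (hqV : V.valuation (q : F) < 1)
    {a b : F} (ha : V.valuation a ≤ 1) (hb : V.valuation b ≤ 1)
    (hab : V.valuation (a ^ q - b ^ q) < 1) : V.valuation (a - b) < 1 := by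
  -- `a ^ q = (a - b + b) ^ q = (a - b) ^ q + b ^ q + q (a - b) b r`
  have hab' : V.valuation (a - b) ≤ 1 := (Valuation.map_sub _ _ _).trans (max_le ha hb)
  obtain ⟨r, hr⟩ := exists_add_pow_prime_eq hq
    (⟨a - b, (V.valuation_le_one_iff _).mp hab'⟩ : ↥V) ⟨b, (V.valuation_le_one_iff b).mp hb⟩
  have hr' : a ^ q = (a - b) ^ q + b ^ q + (q : F) * (a - b) * b * (r : F) := by
    have := congrArg (Subtype.val : ↥V → F) hr
    simpa using this
  have e : (a - b) ^ q = (a ^ q - b ^ q) - (q : F) * ((a - b) * b * (r : F)) := by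
    rw [hr']; ring
  have h1 : V.valuation ((a - b) ^ q) < 1 := by
    rw [e]
    refine Valuation.map_sub_lt _ hab ?_
    rw [map_mul]
    refine (mul_le_of_le_one_right' ?_).trans_lt hqV
    rw [map_mul, map_mul]
    exact mul_le_one' (mul_le_one' hab' hb) ((V.valuation_le_one_iff _).mpr r.2)
  rw [map_pow] at h1
  by_contra hcon
  rw [not_lt] at hcon
  exact absurd h1 (not_lt.mpr (one_le_pow₀ hcon))

/-- `(1 + x) ^ q ≡ 1 mod π` when `q ∈ π V`, `x ∈ 𝔪_V`, `x ^ q ∈ π V`. -/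
theorem val_one_add_pow_sub_one_le {q : ℕ} (hq : q.Prime) {π x : F}
    (hqπ : V.valuation (q : F) ≤ V.valuation π) (hx : V.valuation x < 1)
    (hxq : V.valuation x ^ q ≤ V.valuation π) :
    V.valuation ((1 + x) ^ q - 1) ≤ V.valuation π := by
  obtain ⟨r, hr⟩ := exists_add_pow_prime_eq hq (1 : ↥V) ⟨x, (V.valuation_le_one_iff x).mp hx.le⟩
  have hr' : (1 + x) ^ q = 1 ^ q + x ^ q + (q : F) * 1 * x * (r : F) := by
    have := congrArg (Subtype.val : ↥V → F) hr
    simpa using this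
  have e : (1 + x) ^ q - 1 = x ^ q + (q : F) * (x * (r : F)) := by
    rw [hr']; ring
  rw [e]
  refine (Valuation.map_add _ _ _).trans (max_le (by rw [map_pow]; exact hxq) ?_)
  rw [map_mul]
  refine (mul_le_of_le_one_right' ?_).trans hqπ
  rw [map_mul]
  exact mul_le_one' hx.le ((V.valuation_le_one_iff _).mpr r.2)

end Lemmas

end Fermat.Agent.ES.P36.OrdVal20
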