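/-
Program P (S36), brick G3 (helper20): **the generic-point chapter (G4–G6) of NUM-P, abstractly.**
Mathlib + `OrdVal20` + `Approx3v9` only; no model, no norm theory: the two norm maps are arbitrary monoid
homomorphisms `Nα Nβ : F″ →* F′` satisfying the conclusions of `NormRam20` (norm–residue formula with
ramification, purely inseparable form, valuation formulas).

`F′` (level `qM′`) with valuation subrings `W1 W2`; `F″` (level `q²M′`) with `V₁ V₂ V₃`;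
`α β : F′ →+* F″`;  pattern  `α : V₁,V₂ | W1 (e,f) = (1,1),(q−1,1)`, `V₃ | W2 (1,q insep)`;
`β : V₁ | W1 (1,q insep)`, `V₂,V₃ | W2`.

* `res_insep`   : the purely inseparable branch: `N f₁ = ρ G^m` ⇒ `f₁ ≡ ρ′ g′^m mod 𝔪_V`.
* `res_ram`     : the ramified branch: `f₁^(q−1) ≡ ρ γ^m mod 𝔪₂`.
* `exists_unit_form` (G4): `f^(q+1) = π^a H^m f₁` with `f₁` a unit at `V₁, V₂, V₃`.
* `exists_u` (G4–G6): `u = f^(q(q−1)(q+1)) κ h^m` with `u − 1 ∈ π (V₁ ⊓ V₂ ⊓ V₃)`.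
-/
import Mathlib
import Fermat.Agent.ES.P36.OrdVal20
import Fermat.Agent.ES.P36.Approx3v9

set_option autoImplicit false

namespace Fermat.Agent.ES.P36.GenAbs20

open Fermat.Agent.ES.P36.OrdVal20 Fermat.Agent.ES.P36.Approx3v9

/-! ### Congruence bookkeeping at one valuation subring -/

section Cong

variable {F : Type*} [Field F] (V : ValuationSubring F)

theorem cong_mul {a a' b b' : F} (ha' : V.valuation a' ≤ 1) (hb : V.valuation b ≤ 1)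
    (hab : V.valuation (a - a') < 1) (hbb : V.valuation (b - b') < 1) :
    V.valuation (a * b - a' * b') < 1 := by
  have : a * b - a' * b' = (a - a') * b + a' * (b - b') := by ring
  rw [this]
  refine Valuation.map_add_lt _ ?_ ?_
  · rw [map_mul]; exact (mul_le_of_le_one_right' hb).trans_lt hab
  · rw [map_mul]; exact (mul_le_of_le_one_left' ha').trans_lt hbb

theorem cong_trans {a b c : F} (hab : V.valuation (a - b) < 1) (hbc : V.valuation (b - c) < 1) :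
    V.valuation (a - c) < 1 := by
  have : a - c = (a - b) + (b - c) := by ring
  rw [this]
  exact Valuation.map_add_lt _ hab hbc

theorem cong_symm {a b : F} (hab : V.valuation (a - b) < 1) : V.valuation (b - a) < 1 := by
  rw [← Valuation.map_neg, neg_sub]; exact hab

theorem val_le_one_of_cong {a b : F} (hb : V.valuation b ≤ 1) (hab : V.valuation (a - b) < 1) :
    V.valuation a ≤ 1 := by
  have : a = (a - b) + b := by ring
  rw [this]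
  exact (Valuation.map_add _ _ _).trans (max_le hab.le hb)

theorem val_eq_one_of_cong {a b : F} (hb : V.valuation b = 1) (hab : V.valuation (a - b) < 1) :
    V.valuation a = 1 := by
  have : a = b + (a - b) := by ring
  rw [this, Valuation.map_add_eq_of_lt_left _ (by rw [hb]; exact hab), hb]

theorem cong_pow {a b : F} (ha : V.valuation a ≤ 1) (hb : V.valuation b ≤ 1)
    (hab : V.valuation (a - b) < 1) (n : ℕ) : V.valuation (a ^ n - b ^ n) < 1 :=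
  val_pow_sub_pow_lt V ha hb hab n

/-- multiplying a congruence by an integral element. -/
theorem cong_mul_left {a b : F} (c : F) (hc : V.valuation c ≤ 1) (hab : V.valuation (a - b) < 1) :
    V.valuation (c * a - c * b) < 1 := by
  rw [← mul_sub, map_mul]
  exact (mul_le_of_le_one_left' hc).trans_lt hab

end Cong

/-! ### Transport along a ring homomorphism with `V.comap φ = W` -/

section Comap

variable {F' F'' : Type*} [Field F'] [Field F''] {φ : F' →+* F''} {V : ValuationSubring F''}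
  {W : ValuationSubring F'}

theorem val_map_le_one (hc : V.comap φ = W) {x : F'} (hx : W.valuation x ≤ 1) :
    V.valuation (φ x) ≤ 1 := by
  rw [ValuationSubring.valuation_le_one_iff] at hx ⊢
  rw [← hc] at hx
  exact hx

theorem val_map_lt_one (hc : V.comap φ = W) {x : F'} (hx : W.valuation x < 1) :
    V.valuation (φ x) < 1 := by
  by_cases h0 : x = 0
  · rw [h0, map_zero, map_zero]; exact zero_lt_one
  have hinv : x⁻¹ ∉ W := by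
    intro hmem
    have h1 : W.valuation x⁻¹ ≤ 1 := (W.valuation_le_one_iff _).mpr hmem
    rw [map_inv₀] at h1
    have hpos : 0 < W.valuation x := zero_lt_iff.mpr ((Valuation.ne_zero_iff _).mpr h0)
    exact absurd hx (not_lt.mpr ((inv_le_one₀ hpos).mp h1))
  have hinv' : (φ x)⁻¹ ∉ V := by
    intro hmem
    apply hinv
    rw [← hc, ValuationSubring.mem_comap, map_inv₀]
    exact hmem
  by_contra hcon
  rw [not_lt] at hcon
  apply hinv'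
  rw [← ValuationSubring.valuation_le_one_iff, map_inv₀]
  exact inv_le_one_of_one_le₀ hcon

theorem val_lt_one_of_map (hc : V.comap φ = W) {x : F'} (hx : V.valuation (φ x) < 1) :
    W.valuation x < 1 := by
  by_contra hcon
  rw [not_lt] at hcon
  have h0 : x ≠ 0 := by
    rintro rfl; rw [map_zero] at hcon; exact absurd hcon (not_le.mpr zero_lt_one)
  have hinv : W.valuation x⁻¹ ≤ 1 := by
    rw [map_inv₀]; exact inv_le_one_of_one_le₀ hcon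
  have := val_map_le_one hc hinv
  rw [map_inv₀, map_inv₀] at this
  have hpos : 0 < V.valuation (φ x) :=
    zero_lt_iff.mpr ((Valuation.ne_zero_iff _).mpr ((map_ne_zero φ).mpr h0))
  exact absurd hx (not_lt.mpr ((inv_le_one₀ hpos).mp this))

theorem val_map_eq_one (hc : V.comap φ = W) {x : F'} (hx : W.valuation x = 1) :
    V.valuation (φ x) = 1 := by
  refine le_antisymm (val_map_le_one hc hx.le) ?_
  by_contra hcon
  rw [not_le] at hcon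
  have := val_lt_one_of_map hc hcon
  rw [hx] at this
  exact lt_irrefl _ this

theorem val_eq_one_of_map (hc : V.comap φ = W) {x : F'} (hx : V.valuation (φ x) = 1) :
    W.valuation x = 1 := by
  rcases lt_trichotomy (W.valuation x) 1 with hlt | heq | hgt
  · have := val_map_lt_one hc hlt
    rw [hx] at this
    exact absurd this (lt_irrefl _)
  · exact heq
  · have h0 : x ≠ 0 := by
      rintro rfl; rw [map_zero] at hgt; exact absurd hgt (not_lt.mpr zero_le_one)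
    have hinv : W.valuation x⁻¹ < 1 := by
      rw [map_inv₀]; exact inv_lt_one_of_one_lt₀ hgt
    have := val_map_lt_one hc hinv
    rw [map_inv₀, map_inv₀, hx, inv_one] at this
    exact absurd this (lt_irrefl _)

theorem val_map_le_of_le (hc : V.comap φ = W) {a b : F'} (hb : b ≠ 0)
    (hab : W.valuation a ≤ W.valuation b) : V.valuation (φ a) ≤ V.valuation (φ b) := by
  have hpos : 0 < W.valuation b := zero_lt_iff.mpr ((Valuation.ne_zero_iff _).mpr hb)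
  have h1 : W.valuation (a / b) ≤ 1 := by
    rw [map_div₀]; exact (div_le_one₀ hpos).mpr hab
  have h2 := val_map_le_one hc h1
  rw [map_div₀, map_div₀] at h2
  have hpos' : 0 < V.valuation (φ b) :=
    zero_lt_iff.mpr ((Valuation.ne_zero_iff _).mpr ((map_ne_zero φ).mpr hb))
  exact (div_le_one₀ hpos').mp h2

theorem hasOrd_map (hc : V.comap φ = W) {ϖ x : F'} {n : ℤ} (hϖ : ϖ ≠ 0)
    (h : HasOrd W ϖ x n) : HasOrd V (φ ϖ) (φ x) n := by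
  have h1 : W.valuation (x / ϖ ^ n) = 1 := by
    rw [map_div₀, map_zpow₀, h, div_self]
    exact zpow_ne_zero _ ((Valuation.ne_zero_iff _).mpr hϖ)
  have h2 := val_map_eq_one hc h1
  rw [map_div₀, map_zpow₀, map_div₀, map_zpow₀] at h2
  have hne : V.valuation (φ ϖ) ^ n ≠ 0 :=
    zpow_ne_zero _ ((Valuation.ne_zero_iff _).mpr ((map_ne_zero φ).mpr hϖ))
  unfold HasOrd
  exact (div_eq_one_iff_eq hne).mp h2

end Comap

/-! ### (G5) the purely inseparable branch -/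

section Insep

variable {F' F'' : Type*} [Field F'] [Field F''] {φ : F' →+* F''} {N : F'' → F'}
  {V : ValuationSubring F''} {W : ValuationSubring F'} {q : ℕ}

/-- **the purely inseparable branch**: `V | W` along `φ` with `κ(V)^q = φ κ(W)`; if the norm of the
`V`-unit `f₁` is `ρ G^m` with `G` a `W`-unit and `ρ ≡ ρ′^q`, then `f₁ ≡ φ ρ′ · g′^m mod 𝔪_V` for a
`V`-unit `g′`. -/
theorem res_insep (hq : q.Prime) (hc : V.comap φ = W) (hqV : V.valuation (q : F'') < 1)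
    (hins : ∀ h x, h ∈ V → x ∈ W → V.valuation (h ^ q - φ x) < 1 → W.valuation (N h - x) < 1)
    (hfrob : ∀ h ∈ V, ∃ x ∈ W, V.valuation (h ^ q - φ x) < 1)
    (hroot : ∀ g ∈ W, ∃ g' ∈ V, V.valuation (g' ^ q - φ g) < 1)
    {f₁ : F''} (hf₁ : V.valuation f₁ = 1) {ρ ρ' G : F'} {m : ℕ}
    (hN : N f₁ = ρ * G ^ m) (hG : W.valuation G = 1) (hρ' : W.valuation ρ' ≤ 1)
    (hρ : W.valuation (ρ' ^ q - ρ) < 1) :
    ∃ g' : F'', V.valuation g' = 1 ∧ V.valuation (f₁ - φ ρ' * g' ^ m) < 1 := by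
  have hf₁V : f₁ ∈ V := (V.valuation_le_one_iff _).mp hf₁.le
  obtain ⟨x, hxW, hx⟩ := hfrob f₁ hf₁V
  have h1 := hins f₁ x hf₁V hxW hx
  rw [hN] at h1
  have h2 : V.valuation (φ (ρ * G ^ m) - φ x) < 1 := by
    rw [← map_sub]; exact val_map_lt_one hc h1
  have h3 : V.valuation (f₁ ^ q - φ (ρ * G ^ m)) < 1 := cong_trans V hx (cong_symm V h2)
  obtain ⟨g', hg'V, hg'⟩ := hroot G ((W.valuation_le_one_iff _).mp hG.le)
  have hφG : V.valuation (φ G) = 1 := val_map_eq_one hc hG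
  have hg'1 : V.valuation g' = 1 := by
    have := val_eq_one_of_cong V hφG hg'
    rw [map_pow] at this
    exact val_eq_one_of_pow_eq_one V hq.ne_zero this
  have hφρ' : V.valuation (φ ρ') ≤ 1 := val_map_le_one hc hρ'
  have h4 : V.valuation (φ ρ' ^ q - φ ρ) < 1 := by
    rw [← map_pow, ← map_sub]; exact val_map_lt_one hc hρ
  have hφρ : V.valuation (φ ρ) ≤ 1 :=
    val_le_one_of_cong V (by rw [map_pow]; exact pow_le_one₀ zero_le hφρ') (cong_symm V h4)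
  have h5 : V.valuation ((φ ρ' * g' ^ m) ^ q - φ (ρ * G ^ m)) < 1 := by
    have e : (φ ρ' * g' ^ m) ^ q = φ ρ' ^ q * (g' ^ q) ^ m := by ring
    rw [e, map_mul, map_pow]
    refine cong_mul V hφρ ?_ h4 ?_
    · rw [map_pow, map_pow, hg'1, one_pow, one_pow]
    · exact cong_pow V (by rw [map_pow, hg'1, one_pow]) hφG.le hg' m
  have h6 : V.valuation (f₁ ^ q - (φ ρ' * g' ^ m) ^ q) < 1 := cong_trans V h3 (cong_symm V h5)
  refine ⟨g', hg'1, val_sub_lt_of_pow_sub_pow_lt V hq hqV hf₁.le ?_ h6⟩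
  rw [map_mul, map_pow, hg'1, one_pow, mul_one]
  exact hφρ'

end Insep

/-! ### (G5) the ramified branch -/

section Ram

variable {F' F'' : Type*} [Field F'] [Field F''] {α : F' →+* F''} {Nα : F'' → F'}
  {V₁ V₂ : ValuationSubring F''} {W1 : ValuationSubring F'} {q m : ℕ}

/-- **the ramified branch**: `V₁, V₂ | W1` along `α` with `(e,f) = (1,1), (q−1,1)`; if the norm of
`f₁` (a unit at both) is `ρ₁ G₁^m` and `f₁ ≡ α ρ′ · g″^m mod 𝔪₁`, then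
`f₁^(q−1) ≡ α (ρ₁/ρ′) · (α γ)^m mod 𝔪₂` for a `W1`-unit `γ`. -/
theorem res_ram (cα1 : V₁.comap α = W1) (cα2 : V₂.comap α = W1)
    (ramα : ∀ h x₁ x₂, h ∈ V₁ → h ∈ V₂ → x₁ ∈ W1 → x₂ ∈ W1 → V₁.valuation (h - α x₁) < 1 →
      V₂.valuation (h - α x₂) < 1 → W1.valuation (Nα h - x₁ * x₂ ^ (q - 1)) < 1)
    (resα1 : ∀ h ∈ V₁, ∃ x ∈ W1, V₁.valuation (h - α x) < 1)
    (resα2 : ∀ h ∈ V₂, ∃ x ∈ W1, V₂.valuation (h - α x) < 1)
    {f₁ : F''} (hf1 : V₁.valuation f₁ = 1) (hf2 : V₂.valuation f₁ = 1)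
    {ρ₁ G₁ : F'} (hN : Nα f₁ = ρ₁ * G₁ ^ m) (hG₁ : W1.valuation G₁ = 1)
    {ρ' : F'} {g'' : F''} (hρ' : W1.valuation ρ' = 1) (hg'' : V₁.valuation g'' = 1)
    (h1 : V₁.valuation (f₁ - α ρ' * g'' ^ m) < 1) :
    ∃ γ : F', W1.valuation γ = 1 ∧
      V₂.valuation (f₁ ^ (q - 1) - α (ρ₁ / ρ') * α γ ^ m) < 1 := by
  have hf1V : f₁ ∈ V₁ := (V₁.valuation_le_one_iff _).mp hf1.le
  have hf2V : f₁ ∈ V₂ := (V₂.valuation_le_one_iff _).mp hf2.le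
  obtain ⟨x₁, hx₁W, hx₁⟩ := resα1 f₁ hf1V
  obtain ⟨x₂, hx₂W, hx₂⟩ := resα2 f₁ hf2V
  obtain ⟨y, hyW, hy⟩ := resα1 g'' ((V₁.valuation_le_one_iff _).mp hg''.le)
  -- `y` is a unit of `W1`
  have hαy : V₁.valuation (α y) = 1 := val_eq_one_of_cong V₁ hg'' (cong_symm V₁ hy)
  have hy1 : W1.valuation y = 1 := val_eq_one_of_map cα1 hαy
  have hx₂1 : W1.valuation x₂ ≤ 1 := (W1.valuation_le_one_iff _).mpr hx₂W
  -- (i)
  have hi := ramα f₁ x₁ x₂ hf1V hf2V hx₁W hx₂W hx₁ hx₂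
  rw [hN] at hi
  -- (ii) `x₁ ≡ ρ′ y^m mod 𝔪_{W1}`
  have hαρ' : V₁.valuation (α ρ') = 1 := val_map_eq_one cα1 hρ'
  have hii : W1.valuation (x₁ - ρ' * y ^ m) < 1 := by
    refine val_lt_one_of_map cα1 ?_
    rw [map_sub, map_mul, map_pow]
    -- `α x₁ ≡ f₁ ≡ α ρ′ g″^m ≡ α ρ′ (α y)^m`
    refine cong_trans V₁ (cong_symm V₁ hx₁) (cong_trans V₁ h1 ?_)
    exact cong_mul_left V₁ _ hαρ'.le (cong_pow V₁ hg''.le hαy.le hy m)
  -- (iii) `ρ₁ G₁^m ≡ ρ′ y^m x₂^(q−1)`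
  have hiii : W1.valuation (ρ₁ * G₁ ^ m - ρ' * y ^ m * x₂ ^ (q - 1)) < 1 := by
    refine cong_trans W1 hi ?_
    have : x₁ * x₂ ^ (q - 1) - ρ' * y ^ m * x₂ ^ (q - 1) = (x₁ - ρ' * y ^ m) * x₂ ^ (q - 1) := by
      ring
    rw [this, map_mul]
    exact (mul_le_of_le_one_right' (by rw [map_pow]; exact pow_le_one₀ zero_le hx₂1)).trans_lt hii
  -- (iv) divide by the unit `ρ′ y^m`
  have hρ'0 : ρ' ≠ 0 := by
    rintro rfl; rw [map_zero] at hρ'; exact zero_ne_one hρ'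
  have hy0 : y ≠ 0 := by
    rintro rfl; rw [map_zero] at hy1; exact zero_ne_one hy1
  have hiv : W1.valuation (x₂ ^ (q - 1) - ρ₁ / ρ' * (G₁ / y) ^ m) < 1 := by
    have e : x₂ ^ (q - 1) - ρ₁ / ρ' * (G₁ / y) ^ m =
        -((ρ' * y ^ m)⁻¹ * (ρ₁ * G₁ ^ m - ρ' * y ^ m * x₂ ^ (q - 1))) := by
      have hY0 : y ^ m ≠ 0 := pow_ne_zero _ hy0
      rw [div_pow]
      generalize y ^ m = Y at hY0
      field_simp
      ring
    rw [e, Valuation.map_neg, map_mul]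
    refine (mul_le_of_le_one_left' ?_).trans_lt hiii
    rw [map_inv₀, map_mul, map_pow, hρ', hy1, one_pow, one_mul, inv_one]
  refine ⟨G₁ / y, by rw [map_div₀, hG₁, hy1, div_one], ?_⟩
  -- transport to `V₂`
  have hv : V₂.valuation (α (x₂ ^ (q - 1)) - α (ρ₁ / ρ' * (G₁ / y) ^ m)) < 1 := by
    rw [← map_sub]; exact val_map_lt_one cα2 hiv
  rw [map_mul, map_pow, map_pow] at hv
  refine cong_trans V₂ ?_ hv
  exact cong_pow V₂ hf2.le (val_map_le_one cα2 hx₂1) hx₂ (q - 1)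

end Ram

/-! ### (G4) valuations -/

section G4

variable {F' F'' : Type*} [Field F'] [Field F''] {Nα Nβ : F'' → F'}
  {W1 W2 : ValuationSubring F'} {V₁ V₂ V₃ : ValuationSubring F''}
  {π' : F'} {π'' T : F''} {q m : ℕ}

/-- **(G4)**: from `N_α f = C₁ g₁^m`, `N_β f = C₂ g₂^m` (`C_i` of equal order at `W1`, `W2`) and the
valuation formulas: `f^(q+1) = π^a · H^m · (unit at V₁, V₂, V₃)`. -/
theorem exists_unit_form
    (hπ'0 : π' ≠ 0) (hπ'1 : W1.valuation π' < 1) (hπ'2 : W2.valuation π' < 1)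
    (hπ''0 : π'' ≠ 0) (hT0 : T ≠ 0)
    (hTπ : HasOrd V₂ T π'' ((q : ℤ) - 1))
    (ordα1 : ∀ f a₁ a₂, HasOrd V₁ π'' f a₁ → HasOrd V₂ T f a₂ → HasOrd W1 π' (Nα f) (a₁ + a₂))
    (ordα2 : ∀ f a₃, HasOrd V₃ π'' f a₃ → HasOrd W2 π' (Nα f) (q * a₃))
    (ordβ1 : ∀ f a₁, HasOrd V₁ π'' f a₁ → HasOrd W1 π' (Nβ f) (q * a₁))
    (ordβ2 : ∀ f a₂ a₃, HasOrd V₂ T f a₂ → HasOrd V₃ π'' f a₃ → HasOrd W2 π' (Nβ f) (a₂ + a₃))
    (discW1 : ∀ g : F', g ≠ 0 → ∃ n : ℤ, HasOrd W1 π' g n)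
    (discW2 : ∀ g : F', g ≠ 0 → ∃ n : ℤ, HasOrd W2 π' g n)
    (discV1 : ∀ f : F'', f ≠ 0 → ∃ n : ℤ, HasOrd V₁ π'' f n)
    (discV2 : ∀ f : F'', f ≠ 0 → ∃ n : ℤ, HasOrd V₂ T f n)
    (discV3 : ∀ f : F'', f ≠ 0 → ∃ n : ℤ, HasOrd V₃ π'' f n)
    {T₁ T₂ : F''} (hT₁1 : HasOrd V₁ π'' T₁ 1) (hT₁2 : V₂.valuation T₁ = 1)
    (hT₁3 : V₃.valuation T₁ = 1) (hT₂1 : V₁.valuation T₂ = 1) (hT₂2 : HasOrd V₂ T T₂ 1)
    (hT₂3 : V₃.valuation T₂ = 1)
    {f : F''} (hf : f ≠ 0) {C₁ C₂ g₁ g₂ : F'} (hg₁ : g₁ ≠ 0) (hg₂ : g₂ ≠ 0)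
    (hC₁ : ∃ n : ℤ, HasOrd W1 π' C₁ n ∧ HasOrd W2 π' C₁ n)
    (hC₂ : ∃ n : ℤ, HasOrd W1 π' C₂ n ∧ HasOrd W2 π' C₂ n)
    (hα : Nα f = C₁ * g₁ ^ m) (hβ : Nβ f = C₂ * g₂ ^ m) :
    ∃ (a : ℤ) (H : F''), H ≠ 0 ∧
      V₁.valuation (f ^ (q + 1) / (π'' ^ a * H ^ m)) = 1 ∧
      V₂.valuation (f ^ (q + 1) / (π'' ^ a * H ^ m)) = 1 ∧
      V₃.valuation (f ^ (q + 1) / (π'' ^ a * H ^ m)) = 1 := by
  obtain ⟨a₁, ha₁⟩ := discV1 f hf
  obtain ⟨a₂, ha₂⟩ := discV2 f hf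
  obtain ⟨a₃, ha₃⟩ := discV3 f hf
  obtain ⟨b₁₁, hb₁₁⟩ := discW1 g₁ hg₁
  obtain ⟨b₁₂, hb₁₂⟩ := discW2 g₁ hg₁
  obtain ⟨b₂₁, hb₂₁⟩ := discW1 g₂ hg₂
  obtain ⟨b₂₂, hb₂₂⟩ := discW2 g₂ hg₂
  obtain ⟨n₁, hn₁1, hn₁2⟩ := hC₁
  obtain ⟨n₂, hn₂1, hn₂2⟩ := hC₂
  have E1 : a₁ + a₂ = n₁ + m * b₁₁ :=
    (ordα1 f a₁ a₂ ha₁ ha₂).unique (by rw [hα]; exact hn₁1.mul (hb₁₁.pow m) hπ'0) hπ'0 hπ'1
  have E2 : (q : ℤ) * a₃ = n₁ + m * b₁₂ :=
    (ordα2 f a₃ ha₃).unique (by rw [hα]; exact hn₁2.mul (hb₁₂.pow m) hπ'0) hπ'0 hπ'2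
  have E3 : (q : ℤ) * a₁ = n₂ + m * b₂₁ :=
    (ordβ1 f a₁ ha₁).unique (by rw [hβ]; exact hn₂1.mul (hb₂₁.pow m) hπ'0) hπ'0 hπ'1
  have E4 : a₂ + a₃ = n₂ + m * b₂₂ :=
    (ordβ2 f a₂ a₃ ha₂ ha₃).unique (by rw [hβ]; exact hn₂2.mul (hb₂₂.pow m) hπ'0) hπ'0 hπ'2
  set d : ℤ := b₁₁ - b₁₂ + b₂₁ - b₂₂ with hd
  set e₁ : ℤ := b₁₁ - b₁₂ with he₁
  have hD : ((q : ℤ) + 1) * (a₁ - a₃) = m * d := by rw [hd]; linear_combination E1 - E2 + E3 - E4
  have hE : a₁ + a₂ - (q : ℤ) * a₃ = m * e₁ := by rw [he₁]; linear_combination E1 - E2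
  set k : ℤ := ((q : ℤ) + 1) * e₁ - d with hk
  have hT₁0 : T₁ ≠ 0 := hT₁1.ne_zero hπ''0
  have hT₂0 : T₂ ≠ 0 := hT₂2.ne_zero hT0
  refine ⟨((q : ℤ) + 1) * a₃, T₁ ^ d * T₂ ^ k,
    mul_ne_zero (zpow_ne_zero _ hT₁0) (zpow_ne_zero _ hT₂0), ?_, ?_, ?_⟩
  · -- `V₁`, reference `π″`
    have hH : HasOrd V₁ π'' (T₁ ^ d * T₂ ^ k) (d * 1 + k * 0) :=
      (hT₁1.zpow d).mul ((HasOrd.of_val_eq_one hT₂1).zpow k) hπ''0
    have hden : HasOrd V₁ π'' (π'' ^ (((q : ℤ) + 1) * a₃) * (T₁ ^ d * T₂ ^ k) ^ m)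
        ((((q : ℤ) + 1) * a₃) * 1 + m * (d * 1 + k * 0)) :=
      (HasOrd.self.zpow _).mul (hH.pow m) hπ''0
    have hnum : HasOrd V₁ π'' (f ^ (q + 1)) (((q + 1 : ℕ) : ℤ) * a₁) := ha₁.pow (q + 1)
    have := hnum.div hden hπ''0
    have hz : ((q + 1 : ℕ) : ℤ) * a₁ -
        ((((q : ℤ) + 1) * a₃) * 1 + m * (d * 1 + k * 0)) = 0 := by
      push_cast; linear_combination hD
    rw [hz] at this
    exact this.val_eq_one
  · -- `V₂`, reference `T`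
    have hH : HasOrd V₂ T (T₁ ^ d * T₂ ^ k) (d * 0 + k * 1) :=
      ((HasOrd.of_val_eq_one hT₁2).zpow d).mul (hT₂2.zpow k) hT0
    have hden : HasOrd V₂ T (π'' ^ (((q : ℤ) + 1) * a₃) * (T₁ ^ d * T₂ ^ k) ^ m)
        ((((q : ℤ) + 1) * a₃) * ((q : ℤ) - 1) + m * (d * 0 + k * 1)) :=
      (hTπ.zpow _).mul (hH.pow m) hT0
    have hnum : HasOrd V₂ T (f ^ (q + 1)) (((q + 1 : ℕ) : ℤ) * a₂) := ha₂.pow (q + 1)
    have := hnum.div hden hT0
    have hz : ((q + 1 : ℕ) : ℤ) * a₂ -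
        ((((q : ℤ) + 1) * a₃) * ((q : ℤ) - 1) + m * (d * 0 + k * 1)) = 0 := by
      rw [hk]; push_cast; linear_combination ((q : ℤ) + 1) * hE - hD
    rw [hz] at this
    exact this.val_eq_one
  · -- `V₃`, reference `π″`
    have hH : HasOrd V₃ π'' (T₁ ^ d * T₂ ^ k) (d * 0 + k * 0) :=
      ((HasOrd.of_val_eq_one hT₁3).zpow d).mul ((HasOrd.of_val_eq_one hT₂3).zpow k) hπ''0
    have hden : HasOrd V₃ π'' (π'' ^ (((q : ℤ) + 1) * a₃) * (T₁ ^ d * T₂ ^ k) ^ m)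
        ((((q : ℤ) + 1) * a₃) * 1 + m * (d * 0 + k * 0)) :=
      (HasOrd.self.zpow _).mul (hH.pow m) hπ''0
    have hnum : HasOrd V₃ π'' (f ^ (q + 1)) (((q + 1 : ℕ) : ℤ) * a₃) := ha₃.pow (q + 1)
    have := hnum.div hden hπ''0
    have hz : ((q + 1 : ℕ) : ℤ) * a₃ -
        ((((q : ℤ) + 1) * a₃) * 1 + m * (d * 0 + k * 0)) = 0 := by
      push_cast; ring
    rw [hz] at this
    exact this.val_eq_one

end G4

/-! ### Normalising `y = c · G^m` with `y` a unit -/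

section Normalise

variable {K F' : Type*} [Field K] [Field F'] [Algebra K F']
  {R : ValuationSubring K} {π : K} {W1 W2 : ValuationSubring F'}

/-- if `y = c · G^m` (`c` a nonzero constant) is a unit at `W1` and `W2`, then `y = r · G′^m` with
`r = c π^(m b)` a unit of `R` and `G′` a unit at `W1` and `W2`. -/
theorem normalise_two (cK1 : W1.comap (algebraMap K F') = R)
    (cK2 : W2.comap (algebraMap K F') = R) (hπ0 : π ≠ 0) (hπR : R.valuation π < 1)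
    (discR : ∀ c : K, c ≠ 0 → ∃ n : ℤ, HasOrd R π c n)
    (discW1 : ∀ g : F', g ≠ 0 → ∃ n : ℤ, HasOrd W1 (algebraMap K F' π) g n)
    (discW2 : ∀ g : F', g ≠ 0 → ∃ n : ℤ, HasOrd W2 (algebraMap K F' π) g n)
    {m : ℕ} (hm : m ≠ 0) {y : F'} {c : K} (hc : c ≠ 0) {G : F'} (hG : G ≠ 0)
    (hy : y = algebraMap K F' c * G ^ m) (h1 : W1.valuation y = 1) (h2 : W2.valuation y = 1) :
    ∃ (b : ℤ) (G' : F'), R.valuation (c * π ^ ((m : ℤ) * b)) = 1 ∧ W1.valuation G' = 1 ∧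
      W2.valuation G' = 1 ∧ y = algebraMap K F' (c * π ^ ((m : ℤ) * b)) * G' ^ m := by
  have hπ'0 : algebraMap K F' π ≠ 0 := (map_ne_zero _).mpr hπ0
  have hπ'1 : W1.valuation (algebraMap K F' π) < 1 := val_map_lt_one cK1 hπR
  have hπ'2 : W2.valuation (algebraMap K F' π) < 1 := val_map_lt_one cK2 hπR
  obtain ⟨n, hn⟩ := discR c hc
  obtain ⟨b, hb⟩ := discW1 G hG
  obtain ⟨b', hb'⟩ := discW2 G hG
  have e1 : n + m * b = 0 :=
    (show HasOrd W1 (algebraMap K F' π) y (n + m * b) by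
      rw [hy]; exact (hasOrd_map cK1 hπ0 hn).mul (hb.pow m) hπ'0).unique
      (HasOrd.of_val_eq_one h1) hπ'0 hπ'1
  have e2 : n + m * b' = 0 :=
    (show HasOrd W2 (algebraMap K F' π) y (n + m * b') by
      rw [hy]; exact (hasOrd_map cK2 hπ0 hn).mul (hb'.pow m) hπ'0).unique
      (HasOrd.of_val_eq_one h2) hπ'0 hπ'2
  have hbb : b' = b := by
    have hm' : (m : ℤ) ≠ 0 := by exact_mod_cast hm
    have : (m : ℤ) * (b' - b) = 0 := by linear_combination e2 - e1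
    rcases mul_eq_zero.mp this with h | h
    · exact absurd h hm'
    · linarith
  subst hbb
  refine ⟨b', G / algebraMap K F' π ^ b', ?_, ?_, ?_, ?_⟩
  · have : HasOrd R π (c * π ^ ((m : ℤ) * b')) (n + (m : ℤ) * b' * 1) :=
      hn.mul (HasOrd.self.zpow _) hπ0
    rw [mul_one, e1] at this
    exact this.val_eq_one
  · have : HasOrd W1 (algebraMap K F' π) (G / algebraMap K F' π ^ b') (b' - b' * 1) :=
      hb.div (HasOrd.self.zpow _) hπ'0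
    rw [mul_one, sub_self] at this
    exact this.val_eq_one
  · have : HasOrd W2 (algebraMap K F' π) (G / algebraMap K F' π ^ b') (b' - b' * 1) :=
      hb'.div (HasOrd.self.zpow _) hπ'0
    rw [mul_one, sub_self] at this
    exact this.val_eq_one
  · rw [hy, map_mul, map_zpow₀, div_pow, ← zpow_natCast (algebraMap K F' π ^ b') m, ← zpow_mul,
      mul_comm b' (m : ℤ)]
    have hz : algebraMap K F' π ^ ((m : ℤ) * b') ≠ 0 := zpow_ne_zero _ hπ'0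
    field_simp

end Normalise

/-! ### The generic-point model and the main theorem -/

section Main

variable {K F' F'' : Type*} [Field K] [Field F'] [Field F''] [Algebra K F'] [Algebra K F'']

/-- **the generic-point data** of `X₀(q²M′) ⇉ X₀(qM′)`: `W1 W2` the two vertical valuation rings of
`F′`, `V₁ V₂ V₃` the three of `F″` (`T` a uniformiser of `V₂`, `T^(q−1) ~ π`), `α β` the two
degeneracy embeddings, `Nα Nβ` their norms, with the norm–residue and valuation formulas. -/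
structure GenModel (R : ValuationSubring K) (π : K) (q : ℕ) (α β : F' →+* F'')
    (Nα Nβ : F'' →*₀ F') (W1 W2 : ValuationSubring F') (V₁ V₂ V₃ : ValuationSubring F'')
    (T : F'') : Prop where
  hq : q.Prime
  hπ0 : π ≠ 0
  hπR : R.valuation π < 1
  hqR : R.valuation (q : K) ≤ R.valuation π
  discR : ∀ c : K, c ≠ 0 → ∃ n : ℤ, HasOrd R π c n
  cK1 : W1.comap (algebraMap K F') = R
  cK2 : W2.comap (algebraMap K F') = R
  hαK : ∀ c : K, α (algebraMap K F' c) = algebraMap K F'' c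
  hβK : ∀ c : K, β (algebraMap K F' c) = algebraMap K F'' c
  cα1 : V₁.comap α = W1
  cα2 : V₂.comap α = W1
  cα3 : V₃.comap α = W2
  cβ1 : V₁.comap β = W1
  inc : Incomp3 V₁ V₂ V₃
  hT0 : T ≠ 0
  hT1 : V₂.valuation T < 1
  hTπ : HasOrd V₂ T (algebraMap K F'' π) ((q : ℤ) - 1)
  unifV1 : ∀ x, V₁.valuation x < 1 → V₁.valuation x ≤ V₁.valuation (algebraMap K F'' π)
  unifV2 : ∀ x, V₂.valuation x < 1 → V₂.valuation x ≤ V₂.valuation T
  unifV3 : ∀ x, V₃.valuation x < 1 → V₃.valuation x ≤ V₃.valuation (algebraMap K F'' π)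
  discW1 : ∀ g : F', g ≠ 0 → ∃ n : ℤ, HasOrd W1 (algebraMap K F' π) g n
  discW2 : ∀ g : F', g ≠ 0 → ∃ n : ℤ, HasOrd W2 (algebraMap K F' π) g n
  discV1 : ∀ f : F'', f ≠ 0 → ∃ n : ℤ, HasOrd V₁ (algebraMap K F'' π) f n
  discV2 : ∀ f : F'', f ≠ 0 → ∃ n : ℤ, HasOrd V₂ T f n
  discV3 : ∀ f : F'', f ≠ 0 → ∃ n : ℤ, HasOrd V₃ (algebraMap K F'' π) f n
  Nαπ : Nα (algebraMap K F'' π) = algebraMap K F' π ^ q
  Nβπ : Nβ (algebraMap K F'' π) = algebraMap K F' π ^ q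
  ordα1 : ∀ f a₁ a₂, HasOrd V₁ (algebraMap K F'' π) f a₁ → HasOrd V₂ T f a₂ →
    HasOrd W1 (algebraMap K F' π) (Nα f) (a₁ + a₂)
  ordα2 : ∀ f a₃, HasOrd V₃ (algebraMap K F'' π) f a₃ →
    HasOrd W2 (algebraMap K F' π) (Nα f) (q * a₃)
  ordβ1 : ∀ f a₁, HasOrd V₁ (algebraMap K F'' π) f a₁ →
    HasOrd W1 (algebraMap K F' π) (Nβ f) (q * a₁)
  ordβ2 : ∀ f a₂ a₃, HasOrd V₂ T f a₂ → HasOrd V₃ (algebraMap K F'' π) f a₃ →
    HasOrd W2 (algebraMap K F' π) (Nβ f) (a₂ + a₃)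
  ramα : ∀ h x₁ x₂, h ∈ V₁ → h ∈ V₂ → x₁ ∈ W1 → x₂ ∈ W1 → V₁.valuation (h - α x₁) < 1 →
    V₂.valuation (h - α x₂) < 1 → W1.valuation (Nα h - x₁ * x₂ ^ (q - 1)) < 1
  insα : ∀ h x, h ∈ V₃ → x ∈ W2 → V₃.valuation (h ^ q - α x) < 1 → W2.valuation (Nα h - x) < 1
  insβ : ∀ h x, h ∈ V₁ → x ∈ W1 → V₁.valuation (h ^ q - β x) < 1 → W1.valuation (Nβ h - x) < 1
  resα1 : ∀ h ∈ V₁, ∃ x ∈ W1, V₁.valuation (h - α x) < 1
  resα2 : ∀ h ∈ V₂, ∃ x ∈ W1, V₂.valuation (h - α x) < 1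
  frobα3 : ∀ h ∈ V₃, ∃ x ∈ W2, V₃.valuation (h ^ q - α x) < 1
  rootα3 : ∀ g ∈ W2, ∃ g' ∈ V₃, V₃.valuation (g' ^ q - α g) < 1
  frobβ1 : ∀ h ∈ V₁, ∃ x ∈ W1, V₁.valuation (h ^ q - β x) < 1
  rootβ1 : ∀ g ∈ W1, ∃ g' ∈ V₁, V₁.valuation (g' ^ q - β g) < 1

/-- transport of a congruence of constants. -/
theorem cong_symm_aux (V : ValuationSubring F'') {R : ValuationSubring K}
    (hV : V.comap (algebraMap K F'') = R) {m : ℕ} {s d : K} (h : R.valuation (d ^ m - s) < 1) :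
    V.valuation (algebraMap K F'' (s - d ^ m)) < 1 := by
  refine val_map_lt_one hV ?_
  rw [← Valuation.map_neg, neg_sub]
  exact h

namespace GenModel

variable {R : ValuationSubring K} {π : K} {q : ℕ} {α β : F' →+* F''} {Nα Nβ : F'' →*₀ F'}
  {W1 W2 : ValuationSubring F'} {V₁ V₂ V₃ : ValuationSubring F''} {T : F''}
  (M : GenModel R π q α β Nα Nβ W1 W2 V₁ V₂ V₃ T)
include M

theorem cK''1 : V₁.comap (algebraMap K F'') = R := by
  ext c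
  rw [ValuationSubring.mem_comap, ← M.hαK, ← M.cK1, ValuationSubring.mem_comap, ← M.cα1,
    ValuationSubring.mem_comap]

theorem cK''2 : V₂.comap (algebraMap K F'') = R := by
  ext c
  rw [ValuationSubring.mem_comap, ← M.hαK, ← M.cK1, ValuationSubring.mem_comap, ← M.cα2,
    ValuationSubring.mem_comap]

theorem cK''3 : V₃.comap (algebraMap K F'') = R := by
  ext c
  rw [ValuationSubring.mem_comap, ← M.hαK, ← M.cK2, ValuationSubring.mem_comap, ← M.cα3,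
    ValuationSubring.mem_comap]

theorem hπ'0 : algebraMap K F' π ≠ 0 := (map_ne_zero _).mpr M.hπ0

theorem hπ''0 : algebraMap K F'' π ≠ 0 := (map_ne_zero _).mpr M.hπ0

/-- **(G4)+(G5)**: `f^(q+1) = π^a H^m f₁` and `f₁^(q−1) ≡ A s_i · γ_i^m mod 𝔪_i` with `s_i` units of
`R` and `γ_i` units of `V_i`. -/
theorem exists_residue_form {m : ℕ} (hm : m ≠ 0) (S : Subfield K) (hπS : π ∈ S)
    (perfS : ∀ r ∈ S, R.valuation r = 1 →
      ∃ r' ∈ S, R.valuation r' = 1 ∧ R.valuation (r' ^ q - r) < 1)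
    {f : F''} (hf : f ≠ 0) {c₁ c₂ : K} (hc₁ : c₁ ≠ 0) (hc₂ : c₂ ≠ 0) (hc₁S : c₁ ∈ S)
    (hc₂S : c₂ ∈ S) {g₁ g₂ : F'} (hg₁ : g₁ ≠ 0) (hg₂ : g₂ ≠ 0)
    (hα : Nα f = algebraMap K F' c₁ * g₁ ^ m) (hβ : Nβ f = algebraMap K F' c₂ * g₂ ^ m) :
    ∃ (a : ℤ) (H : F''), H ≠ 0 ∧
      ∃ (s₁ s₂ s₃ : K) (γ₁ γ₂ γ₃ : F''), s₁ ∈ S ∧ s₂ ∈ S ∧ s₃ ∈ S ∧
        R.valuation s₁ = 1 ∧ R.valuation s₂ = 1 ∧
        R.valuation s₃ = 1 ∧ V₁.valuation γ₁ = 1 ∧ V₂.valuation γ₂ = 1 ∧ V₃.valuation γ₃ = 1 ∧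
        V₁.valuation ((f ^ (q + 1) / (algebraMap K F'' π ^ a * H ^ m)) ^ (q - 1) -
          algebraMap K F'' s₁ * γ₁ ^ m) < 1 ∧
        V₂.valuation ((f ^ (q + 1) / (algebraMap K F'' π ^ a * H ^ m)) ^ (q - 1) -
          algebraMap K F'' s₂ * γ₂ ^ m) < 1 ∧
        V₃.valuation ((f ^ (q + 1) / (algebraMap K F'' π ^ a * H ^ m)) ^ (q - 1) -
          algebraMap K F'' s₃ * γ₃ ^ m) < 1 := by
  have hπ'0 := M.hπ'0
  have hπ''0 := M.hπ''0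
  have hπ'1 : W1.valuation (algebraMap K F' π) < 1 := val_map_lt_one M.cK1 M.hπR
  have hπ'2 : W2.valuation (algebraMap K F' π) < 1 := val_map_lt_one M.cK2 M.hπR
  have hπ''1 : V₁.valuation (algebraMap K F'' π) < 1 := val_map_lt_one M.cK''1 M.hπR
  -- uniformisers adapted to the three rings
  obtain ⟨T₁, -, hT₁1, hT₁2, hT₁3⟩ := M.inc.exists_unif hπ''1 M.unifV1
  obtain ⟨T₂, -, hT₂2, hT₂3, hT₂1⟩ := M.inc.rotate.exists_unif M.hT1 M.unifV2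
  -- constants have the same order at `W1` and `W2`
  have hconst : ∀ c : K, c ≠ 0 → ∃ n : ℤ, HasOrd W1 (algebraMap K F' π) (algebraMap K F' c) n ∧
      HasOrd W2 (algebraMap K F' π) (algebraMap K F' c) n := fun c hc => by
    obtain ⟨n, hn⟩ := M.discR c hc
    exact ⟨n, hasOrd_map M.cK1 M.hπ0 hn, hasOrd_map M.cK2 M.hπ0 hn⟩
  obtain ⟨a, H, hH0, hu1, hu2, hu3⟩ := exists_unit_form (Nα := Nα) (Nβ := Nβ) hπ'0 hπ'1 hπ'2
    hπ''0 M.hT0 M.hTπ M.ordα1 M.ordα2 M.ordβ1 M.ordβ2 M.discW1 M.discW2 M.discV1 M.discV2 M.discV3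
    (show HasOrd V₁ (algebraMap K F'' π) T₁ 1 by unfold HasOrd; rw [hT₁1, zpow_one]) hT₁2 hT₁3
    hT₂1 (show HasOrd V₂ T T₂ 1 by unfold HasOrd; rw [hT₂2, zpow_one]) hT₂3
    hf hg₁ hg₂ (hconst c₁ hc₁) (hconst c₂ hc₂) hα hβ
  refine ⟨a, H, hH0, ?_⟩
  set f₁ := f ^ (q + 1) / (algebraMap K F'' π ^ a * H ^ m) with hf₁
  have hden0 : algebraMap K F'' π ^ a * H ^ m ≠ 0 :=
    mul_ne_zero (zpow_ne_zero _ hπ''0) (pow_ne_zero _ hH0)
  -- the norms of `f₁`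
  have hNH : ∀ N : F'' →*₀ F', N H ≠ 0 := fun N => (map_ne_zero N).mpr hH0
  have hkey : ∀ C g NH P : F', NH ≠ 0 → P ≠ 0 →
      (C * g ^ m) ^ (q + 1) / (P * NH ^ m) = (C ^ (q + 1) / P) * (g ^ (q + 1) / NH) ^ m := by
    intro C g NH P h1 h2
    rw [div_pow]
    field_simp
    ring
  have hNα : Nα f₁ = algebraMap K F' (c₁ ^ (q + 1) / (π ^ q) ^ a) *
      (g₁ ^ (q + 1) / Nα H) ^ m := by
    rw [hf₁, map_div₀, map_pow, map_mul, map_zpow₀, map_pow, hα, M.Nαπ, map_div₀, map_pow,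
      map_zpow₀, map_pow]
    exact hkey _ _ _ _ (hNH Nα) (zpow_ne_zero _ (pow_ne_zero _ hπ'0))
  have hNβ : Nβ f₁ = algebraMap K F' (c₂ ^ (q + 1) / (π ^ q) ^ a) *
      (g₂ ^ (q + 1) / Nβ H) ^ m := by
    rw [hf₁, map_div₀, map_pow, map_mul, map_zpow₀, map_pow, hβ, M.Nβπ, map_div₀, map_pow,
      map_zpow₀, map_pow]
    exact hkey _ _ _ _ (hNH Nβ) (zpow_ne_zero _ (pow_ne_zero _ hπ'0))
  have hcα0 : c₁ ^ (q + 1) / (π ^ q) ^ a ≠ 0 :=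
    div_ne_zero (pow_ne_zero _ hc₁) (zpow_ne_zero _ (pow_ne_zero _ M.hπ0))
  have hcβ0 : c₂ ^ (q + 1) / (π ^ q) ^ a ≠ 0 :=
    div_ne_zero (pow_ne_zero _ hc₂) (zpow_ne_zero _ (pow_ne_zero _ M.hπ0))
  have hGα0 : g₁ ^ (q + 1) / Nα H ≠ 0 := div_ne_zero (pow_ne_zero _ hg₁) (hNH Nα)
  have hGβ0 : g₂ ^ (q + 1) / Nβ H ≠ 0 := div_ne_zero (pow_ne_zero _ hg₂) (hNH Nβ)
  -- the norms are units
  have hNα1 : W1.valuation (Nα f₁) = 1 := by
    have := M.ordα1 f₁ 0 0 (HasOrd.of_val_eq_one hu1) (HasOrd.of_val_eq_one hu2)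
    rw [add_zero] at this
    exact this.val_eq_one
  have hNα2 : W2.valuation (Nα f₁) = 1 := by
    have := M.ordα2 f₁ 0 (HasOrd.of_val_eq_one hu3)
    rw [mul_zero] at this
    exact this.val_eq_one
  have hNβ1 : W1.valuation (Nβ f₁) = 1 := by
    have := M.ordβ1 f₁ 0 (HasOrd.of_val_eq_one hu1)
    rw [mul_zero] at this
    exact this.val_eq_one
  -- normalise
  obtain ⟨b₁, G₁, hr₁, hG₁1, hG₁2, hNα'⟩ := normalise_two M.cK1 M.cK2 M.hπ0 M.hπR M.discR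
    M.discW1 M.discW2 hm hcα0 hGα0 hNα hNα1 hNα2
  obtain ⟨b₂, G₂, hr₂, hG₂1, -, hNβ'⟩ := normalise_two M.cK1 M.cK1 M.hπ0 M.hπR M.discR
    M.discW1 M.discW1 hm hcβ0 hGβ0 hNβ hNβ1 hNβ1
  have hmemS : ∀ {c : K} (b : ℤ), c ∈ S → c ^ (q + 1) / (π ^ q) ^ a * π ^ ((m : ℤ) * b) ∈ S :=
    fun b hc => S.mul_mem (S.div_mem (S.pow_mem hc _) (S.zpow_mem (S.pow_mem hπS _) _))
      (S.zpow_mem hπS _)
  set r₁ := c₁ ^ (q + 1) / (π ^ q) ^ a * π ^ ((m : ℤ) * b₁) with hr₁def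
  set r₂ := c₂ ^ (q + 1) / (π ^ q) ^ a * π ^ ((m : ℤ) * b₂) with hr₂def
  have hr₁S : r₁ ∈ S := hmemS b₁ hc₁S
  have hr₂S : r₂ ∈ S := hmemS b₂ hc₂S
  obtain ⟨r₁', hr₁'S, hr₁'1, hr₁'⟩ := perfS r₁ hr₁S hr₁
  obtain ⟨r₂', hr₂'S, hr₂'1, hr₂'⟩ := perfS r₂ hr₂S hr₂
  -- `q ∈ 𝔪` at `V₁`, `V₃`
  have hqV : ∀ V : ValuationSubring F'', V.comap (algebraMap K F'') = R →
      V.valuation ((q : ℕ) : F'') < 1 := fun V hV => by
    have h1 : R.valuation ((q : ℕ) : K) < 1 := M.hqR.trans_lt M.hπR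
    have := val_map_lt_one hV h1
    rwa [map_natCast] at this
  -- constants through `algebraMap K F'`
  have hW : ∀ {W : ValuationSubring F'}, W.comap (algebraMap K F') = R → ∀ {r : K},
      R.valuation r = 1 → W.valuation (algebraMap K F' r) = 1 := fun hW _ hr =>
    val_map_eq_one hW hr
  have hWlt : ∀ {W : ValuationSubring F'}, W.comap (algebraMap K F') = R → ∀ {r r' : K},
      R.valuation (r' ^ q - r) < 1 →
      W.valuation (algebraMap K F' r' ^ q - algebraMap K F' r) < 1 := fun hW _ _ h => by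
    rw [← map_pow, ← map_sub]; exact val_map_lt_one hW h
  -- (‡3): the inseparable branch of `α`
  obtain ⟨g₃, hg₃1, hg₃⟩ := res_insep (N := Nα) M.hq M.cα3 (hqV V₃ M.cK''3) M.insα M.frobα3
    M.rootα3 hu3 hNα' hG₁2 (hW M.cK2 hr₁'1).le (hWlt M.cK2 hr₁')
  rw [M.hαK] at hg₃
  -- (‡1): the inseparable branch of `β`
  obtain ⟨g₁', hg₁'1, hg₁'⟩ := res_insep (N := Nβ) M.hq M.cβ1 (hqV V₁ M.cK''1) M.insβ M.frobβ1
    M.rootβ1 hu1 hNβ' hG₂1 (hW M.cK1 hr₂'1).le (hWlt M.cK1 hr₂')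
  rw [M.hβK, ← M.hαK] at hg₁'
  -- the ramified branch
  obtain ⟨γ, hγ1, hγ⟩ := res_ram (Nα := Nα) M.cα1 M.cα2 M.ramα M.resα1 M.resα2 hu1 hu2 hNα' hG₁1
    (hW M.cK1 hr₂'1) hg₁'1 hg₁'
  rw [← map_div₀, M.hαK] at hγ
  rw [M.hαK] at hg₁'
  -- assemble
  have hA1 : ∀ {r : K}, R.valuation r = 1 → V₁.valuation (algebraMap K F'' r) = 1 := fun hr =>
    val_map_eq_one M.cK''1 hr
  have hA3 : ∀ {r : K}, R.valuation r = 1 → V₃.valuation (algebraMap K F'' r) = 1 := fun hr =>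
    val_map_eq_one M.cK''3 hr
  refine ⟨r₂' ^ (q - 1), r₁ / r₂', r₁' ^ (q - 1), g₁' ^ (q - 1), α γ, g₃ ^ (q - 1),
    S.pow_mem hr₂'S _, S.div_mem hr₁S hr₂'S, S.pow_mem hr₁'S _,
    by rw [map_pow, hr₂'1, one_pow], by rw [map_div₀, hr₁, hr₂'1, div_one],
    by rw [map_pow, hr₁'1, one_pow], by rw [map_pow, hg₁'1, one_pow],
    val_map_eq_one M.cα2 hγ1, by rw [map_pow, hg₃1, one_pow], ?_, hγ, ?_⟩
  · have e : algebraMap K F'' (r₂' ^ (q - 1)) * (g₁' ^ (q - 1)) ^ m =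
        (algebraMap K F'' r₂' * g₁' ^ m) ^ (q - 1) := by
      rw [map_pow]; ring
    rw [e]
    refine cong_pow V₁ hu1.le ?_ hg₁' (q - 1)
    rw [map_mul, map_pow, hg₁'1, one_pow, mul_one]
    exact (hA1 hr₂'1).le
  · have e : algebraMap K F'' (r₁' ^ (q - 1)) * (g₃ ^ (q - 1)) ^ m =
        (algebraMap K F'' r₁' * g₃ ^ m) ^ (q - 1) := by
      rw [map_pow]; ring
    rw [e]
    refine cong_pow V₃ hu3.le ?_ hg₃ (q - 1)
    rw [map_mul, map_pow, hg₃1, one_pow, mul_one]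
    exact (hA3 hr₁'1).le

/-- **(G) the generic-point theorem**: if `N_α f = c₁ g₁^m`, `N_β f = c₂ g₂^m` and every unit of `R`
of the constant subfield `S` (containing `π`, `c₁`, `c₂`, perfect residue field) is an `m`-th power
modulo `π` in `R`, then `u := f^(q(q−1)(q+1)) · κ · h^m` satisfies
`u = 1 + π c` with `c ∈ V₁ ⊓ V₂ ⊓ V₃`. -/
theorem exists_u {m : ℕ} (hm : m ≠ 0) (S : Subfield K) (hπS : π ∈ S)
    (perfS : ∀ r ∈ S, R.valuation r = 1 →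
      ∃ r' ∈ S, R.valuation r' = 1 ∧ R.valuation (r' ^ q - r) < 1)
    (hroots : ∀ r ∈ S, R.valuation r = 1 →
      ∃ d : K, R.valuation d = 1 ∧ R.valuation (d ^ m - r) < 1)
    {f : F''} (hf : f ≠ 0) {c₁ c₂ : K} (hc₁ : c₁ ≠ 0) (hc₂ : c₂ ≠ 0) (hc₁S : c₁ ∈ S)
    (hc₂S : c₂ ∈ S) {g₁ g₂ : F'} (hg₁ : g₁ ≠ 0) (hg₂ : g₂ ≠ 0)
    (hα : Nα f = algebraMap K F' c₁ * g₁ ^ m) (hβ : Nβ f = algebraMap K F' c₂ * g₂ ^ m) :
    ∃ (κ : K) (h : F''), κ ≠ 0 ∧ h ≠ 0 ∧ ∃ c : F'', c ∈ V₁ ∧ c ∈ V₂ ∧ c ∈ V₃ ∧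
      f ^ (q * (q - 1) * (q + 1)) * algebraMap K F'' κ * h ^ m = 1 + algebraMap K F'' π * c := by
  obtain ⟨a, H, hH0, s₁, s₂, s₃, γ₁, γ₂, γ₃, hs₁S, hs₂S, hs₃S, hs₁, hs₂, hs₃, hγ₁, hγ₂, hγ₃,
    h1, h2, h3⟩ := M.exists_residue_form hm S hπS perfS hf hc₁ hc₂ hc₁S hc₂S hg₁ hg₂ hα hβ
  have hπ''0 := M.hπ''0
  set P := algebraMap K F'' π ^ a with hP
  have hP0 : P ≠ 0 := zpow_ne_zero _ hπ''0
  set f₂ := (f ^ (q + 1) / (P * H ^ m)) ^ (q - 1) with hf₂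
  obtain ⟨d₁, hd₁1, hd₁⟩ := hroots s₁ hs₁S hs₁
  obtain ⟨d₂, hd₂1, hd₂⟩ := hroots s₂ hs₂S hs₂
  obtain ⟨d₃, hd₃1, hd₃⟩ := hroots s₃ hs₃S hs₃
  -- the local `m`-th roots
  have hloc : ∀ (V : ValuationSubring F'') (hV : V.comap (algebraMap K F'') = R) {s d : K}
      {γ : F''}, R.valuation s = 1 → R.valuation d = 1 → R.valuation (d ^ m - s) < 1 →
      V.valuation γ = 1 → V.valuation (f₂ - algebraMap K F'' s * γ ^ m) < 1 →
      V.valuation (algebraMap K F'' d * γ) = 1 ∧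
        V.valuation (f₂ - (algebraMap K F'' d * γ) ^ m) < 1 := by
    intro V hV s d γ hs hd hds hγ hcong
    refine ⟨by rw [map_mul, val_map_eq_one hV hd, hγ, one_mul], cong_trans V hcong ?_⟩
    have e : algebraMap K F'' s * γ ^ m - (algebraMap K F'' d * γ) ^ m =
        algebraMap K F'' (s - d ^ m) * γ ^ m := by
      rw [map_sub, map_pow]; ring
    have hγm : V.valuation (γ ^ m) = 1 := by rw [map_pow, hγ, one_pow]
    rw [e, map_mul, hγm, mul_one]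
    exact cong_symm_aux V hV hds
  obtain ⟨hη₁, hc1⟩ := hloc V₁ M.cK''1 hs₁ hd₁1 hd₁ hγ₁ h1
  obtain ⟨hη₂, hc2⟩ := hloc V₂ M.cK''2 hs₂ hd₂1 hd₂ hγ₂ h2
  obtain ⟨hη₃, hc3⟩ := hloc V₃ M.cK''3 hs₃ hd₃1 hd₃ hγ₃ h3
  obtain ⟨H', hH'1, hH'2, hH'3⟩ := M.inc.exists_approx hη₁.le hη₂.le hη₃.le
  have hH'u1 : V₁.valuation H' = 1 := val_eq_one_of_cong V₁ hη₁ hH'1
  have hH'u2 : V₂.valuation H' = 1 := val_eq_one_of_cong V₂ hη₂ hH'2
  have hH'u3 : V₃.valuation H' = 1 := val_eq_one_of_cong V₃ hη₃ hH'3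
  have hH'0 : H' ≠ 0 := by
    rintro rfl; rw [map_zero] at hH'u1; exact zero_ne_one hH'u1
  -- `x = f₂ / H'^m − 1 ∈ 𝔪₁ ∩ 𝔪₂ ∩ 𝔪₃`
  have hx : ∀ (V : ValuationSubring F'') {η : F''}, V.valuation η = 1 → V.valuation H' = 1 →
      V.valuation (H' - η) < 1 → V.valuation (f₂ - η ^ m) < 1 →
      V.valuation (f₂ / H' ^ m - 1) < 1 := by
    intro V η hη hH' hHη hfη
    have e : f₂ / H' ^ m - 1 = (f₂ - H' ^ m) / H' ^ m := by
      field_simp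
    rw [e, map_div₀, map_pow, hH', one_pow, div_one]
    exact cong_trans V hfη (cong_symm V (cong_pow V hH'.le hη.le hHη m))
  have hx1 := hx V₁ hη₁ hH'u1 hH'1 hc1
  have hx2 := hx V₂ hη₂ hH'u2 hH'2 hc2
  have hx3 := hx V₃ hη₃ hH'u3 hH'3 hc3
  -- `q ∈ π V_i`
  have hqπ : ∀ V : ValuationSubring F'', V.comap (algebraMap K F'') = R →
      V.valuation ((q : ℕ) : F'') ≤ V.valuation (algebraMap K F'' π) := fun V hV => by
    have := val_map_le_of_le hV M.hπ0 M.hqR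
    rwa [map_natCast] at this
  have hπ''le : ∀ V : ValuationSubring F'', V.comap (algebraMap K F'') = R →
      V.valuation (algebraMap K F'' π) ≤ 1 := fun V hV => (val_map_lt_one hV M.hπR).le
  -- `x^q ∈ π V_i`
  have hq1 : 1 ≤ q := M.hq.one_lt.le
  have hxq1 : V₁.valuation (f₂ / H' ^ m - 1) ^ q ≤ V₁.valuation (algebraMap K F'' π) := by
    refine (pow_le_pow_left₀ zero_le (M.unifV1 _ hx1) q).trans ?_
    exact pow_le_of_le_one zero_le (hπ''le V₁ M.cK''1) M.hq.ne_zero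
  have hxq3 : V₃.valuation (f₂ / H' ^ m - 1) ^ q ≤ V₃.valuation (algebraMap K F'' π) := by
    refine (pow_le_pow_left₀ zero_le (M.unifV3 _ hx3) q).trans ?_
    exact pow_le_of_le_one zero_le (hπ''le V₃ M.cK''3) M.hq.ne_zero
  have hxq2 : V₂.valuation (f₂ / H' ^ m - 1) ^ q ≤ V₂.valuation (algebraMap K F'' π) := by
    refine (pow_le_pow_left₀ zero_le (M.unifV2 _ hx2) q).trans ?_
    have hTπ := M.hTπ
    unfold HasOrd at hTπ
    have hcast : ((q : ℤ) - 1) = ((q - 1 : ℕ) : ℤ) := by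
      rw [Nat.cast_sub hq1, Nat.cast_one]
    rw [hTπ, hcast, zpow_natCast]
    have hqq : q = (q - 1) + 1 := by omega
    conv_lhs => rw [hqq, pow_succ]
    exact mul_le_of_le_one_right' M.hT1.le
  obtain ⟨c, hc, hcV1, hcV2, hcV3⟩ := exists_one_add_pow_prime_eq V₁ V₂ V₃ M.hq hπ''0
    (hqπ V₁ M.cK''1) hx1 hxq1 (hqπ V₂ M.cK''2) hx2 hxq2 (hqπ V₃ M.cK''3) hx3 hxq3
  have hπK : (π ^ a) ^ ((q - 1) * q) ≠ 0 := pow_ne_zero _ (zpow_ne_zero _ M.hπ0)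
  refine ⟨((π ^ a) ^ ((q - 1) * q))⁻¹, (H ^ ((q - 1) * q) * H' ^ q)⁻¹, inv_ne_zero hπK,
    inv_ne_zero (mul_ne_zero (pow_ne_zero _ hH0) (pow_ne_zero _ hH'0)), c,
    (V₁.valuation_le_one_iff _).mp hcV1, (V₂.valuation_le_one_iff _).mp hcV2,
    (V₃.valuation_le_one_iff _).mp hcV3, ?_⟩
  rw [← hc, add_sub_cancel, hf₂, map_inv₀, map_pow, map_zpow₀, ← hP]
  generalize q - 1 = n
  ring

end GenModel

end Main

end Fermat.Agent.ES.P36.GenAbs20
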