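/-
Program P (S36), brick G1-ord (helper20): **the valuation formula `w(N f) = Σ f(v|w) · v(f)`** in `HasOrd` form,
on top of `NormRam20` (ramified pair) and its single-extension part.  Supplies the fields
`ordα1 ordα2 ordβ1 ordβ2` of `GenAbs20.GenModel`.

* `normHom₀` : `Algebra.norm` as a `MonoidWithZeroHom`.
* `hasOrd_norm_ram` : `v₁ | w` unramified of degree one, `v₂ | w` totally ramified of index `k + 1`,
  `[F : E] = k + 2`: `ord_w (N f) = ord_{v₁} f + ord_{v₂} f` (`ord_{v₂}` w.r.t. a `v₂`-uniformiser).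
* `norm_single_val_le_one`, `norm_single_val_eq_one`, `hasOrd_norm_single` : one extension with
  `e = 1`, `f = n = [F : E]`: `ord_w (N f) = n · ord_v f`.
-/
import Mathlib
import Fermat.Agent.ES.P36.NormRam20
import Fermat.Agent.ES.P36.OrdVal20

set_option autoImplicit false

namespace Fermat.Agent.ES.P36.NormOrd20

open Fermat.Agent.RED.PUR.UniqueExt20 Fermat.Agent.ES.P36.NormRam20 Fermat.Agent.ES.P36.OrdVal20

variable {E F : Type*} [Field E] [Field F] [Algebra E F] [FiniteDimensional E F]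

/-- the norm as a monoid-with-zero homomorphism. -/
noncomputable def normHom₀ (E F : Type*) [Field E] [Field F] [Algebra E F] [FiniteDimensional E F] :
    F →*₀ E where
  toFun := Algebra.norm E
  map_zero' := Algebra.norm_zero
  map_one' := map_one _
  map_mul' := map_mul _

@[simp] theorem normHom₀_apply (x : F) : normHom₀ E F x = Algebra.norm E x := rfl

section Ram

variable {k : ℕ} (hn : Module.finrank E F ≤ k + 2) (O₁ O₂ : ValuationSubring F) (h12 : O₁ ≠ O₂)
  (hcomap₂ : O₁.comap (algebraMap E F) = O₂.comap (algebraMap E F))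
  {t : F} (ht0 : t ≠ 0) (ht2 : O₂.valuation t < 1)
  (hram : ∀ a : E, (O₁.comap (algebraMap E F)).valuation a < 1 →
    O₂.valuation (algebraMap E F a) ≤ O₂.valuation t ^ (k + 1))
include hn h12 hcomap₂ ht0 ht2 hram

/-- **valuation formula at the ramified pair**: `ord_w (N f) = ord_{v₁} f + ord_{v₂} f`. -/
theorem hasOrd_norm_ram {ϖ : E}
    (hϖ : ∀ a : E, (O₁.comap (algebraMap E F)).valuation a < 1 →
      (O₁.comap (algebraMap E F)).valuation a ≤ (O₁.comap (algebraMap E F)).valuation ϖ)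
    (hϖ1 : (O₁.comap (algebraMap E F)).valuation ϖ < 1) (hϖ0 : ϖ ≠ 0)
    {T₂ : F} (hT1 : O₁.valuation T₂ = 1)
    (hT2 : O₂.valuation T₂ ^ (k + 1) = O₂.valuation (algebraMap E F ϖ))
    (hdeg : Module.finrank E F = k + 2) {f : F} {a₁ a₂ : ℤ}
    (h1 : HasOrd O₁ (algebraMap E F ϖ) f a₁) (h2 : HasOrd O₂ T₂ f a₂) :
    HasOrd (O₁.comap (algebraMap E F)) ϖ (Algebra.norm E f) (a₁ + a₂) := by
  obtain ⟨hN2, hN1⟩ := norm_unif_val hn O₁ O₂ h12 hcomap₂ ht0 ht2 hram hϖ hϖ1 hϖ0 hT1 hT2 hdeg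
  have hϖ'0 : algebraMap E F ϖ ≠ 0 := (map_ne_zero _).mpr hϖ0
  have hT0 : T₂ ≠ 0 := by
    rintro rfl; rw [map_zero] at hT1; exact zero_ne_one hT1
  set T₁ := algebraMap E F ϖ / T₂ ^ (k + 1) with hT₁
  have hT₁0 : T₁ ≠ 0 := div_ne_zero hϖ'0 (pow_ne_zero _ hT0)
  have hT₁1 : O₁.valuation T₁ = O₁.valuation (algebraMap E F ϖ) := by
    rw [hT₁, map_div₀, map_pow, hT1, one_pow, div_one]
  have hT₁2 : O₂.valuation T₁ = 1 := by
    rw [hT₁, map_div₀, map_pow, hT2, div_self]
    exact (Valuation.ne_zero_iff _).mpr hϖ'0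
  set u := f / (T₁ ^ a₁ * T₂ ^ a₂) with hu
  have hu1 : O₁.valuation u = 1 := by
    unfold HasOrd at h1
    rw [hu, map_div₀, map_mul, map_zpow₀, map_zpow₀, hT₁1, hT1, one_zpow, mul_one, h1, div_self]
    exact zpow_ne_zero _ ((Valuation.ne_zero_iff _).mpr hϖ'0)
  have hu2 : O₂.valuation u = 1 := by
    unfold HasOrd at h2
    rw [hu, map_div₀, map_mul, map_zpow₀, map_zpow₀, hT₁2, one_zpow, one_mul, h2, div_self]
    exact zpow_ne_zero _ ((Valuation.ne_zero_iff _).mpr hT0)
  have hNu := norm_ram_val_eq_one hn O₁ O₂ h12 hcomap₂ ht0 ht2 hram hu1 hu2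
  have hf : f = T₁ ^ a₁ * T₂ ^ a₂ * u := by
    rw [hu]
    field_simp
  have hNf : Algebra.norm E f = normHom₀ E F T₁ ^ a₁ * normHom₀ E F T₂ ^ a₂ * normHom₀ E F u := by
    conv_lhs => rw [hf]
    rw [← normHom₀_apply, map_mul, map_mul, map_zpow₀, map_zpow₀]
  unfold HasOrd
  rw [hNf, map_mul, map_mul, map_zpow₀, map_zpow₀, normHom₀_apply, normHom₀_apply,
    normHom₀_apply, hN1, hN2, hNu, mul_one, ← zpow_add₀]
  exact (Valuation.ne_zero_iff _).mpr hϖ0

end Ram

section Single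

variable {n : ℕ} (hn : Module.finrank E F ≤ n) (V : ValuationSubring F)
  (b : Fin n → F) (hbO : ∀ i, b i ∈ V)
  (hb : ∀ a : Fin n → E, (∀ i, (V.comap (algebraMap E F)).valuation (a i) ≤ 1) →
    V.valuation (∑ i, algebraMap E F (a i) * b i) < 1 →
    ∀ i, (V.comap (algebraMap E F)).valuation (a i) < 1)
include hn hbO hb

/-- `N h ∈ O_E` for `h ∈ V`. -/
theorem norm_single_val_le_one {h : F} (hV : h ∈ V) :
    (V.comap (algebraMap E F)).valuation (Algebra.norm E h) ≤ 1 := by
  obtain ⟨M, hdet, -⟩ := exists_matrix_single hn V b hbO hb hV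
  rw [← hdet]
  exact ((V.comap (algebraMap E F)).valuation_le_one_iff _).mpr (Subtype.mem _)

/-- `N h ∈ O_E^×` for `h ∈ V^×`. -/
theorem norm_single_val_eq_one {h : F} (hV : V.valuation h = 1) :
    (V.comap (algebraMap E F)).valuation (Algebra.norm E h) = 1 := by
  have hh0 : h ≠ 0 := by
    rintro rfl; rw [map_zero] at hV; exact zero_ne_one hV
  have ha := norm_single_val_le_one hn V b hbO hb ((V.valuation_le_one_iff h).mp hV.le)
  have hb' := norm_single_val_le_one hn V b hbO hb (h := h⁻¹)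
    ((V.valuation_le_one_iff _).mp (by rw [map_inv₀, hV, inv_one]))
  have hmul : (V.comap (algebraMap E F)).valuation (Algebra.norm E h) *
      (V.comap (algebraMap E F)).valuation (Algebra.norm E h⁻¹) = 1 := by
    rw [← map_mul, ← map_mul, mul_inv_cancel₀ hh0, map_one, map_one]
  refine le_antisymm ha ?_
  by_contra hlt
  rw [not_le] at hlt
  have : (V.comap (algebraMap E F)).valuation (Algebra.norm E h) *
      (V.comap (algebraMap E F)).valuation (Algebra.norm E h⁻¹) < 1 :=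
    (mul_le_of_le_one_right' hb').trans_lt hlt
  rw [hmul] at this
  exact lt_irrefl _ this

/-- **valuation formula at a single extension with `e = 1`**: `ord_w (N f) = [F : E] · ord_v f`. -/
theorem hasOrd_norm_single {ϖ : E} (hϖ0 : ϖ ≠ 0) {f : F} {a : ℤ}
    (h : HasOrd V (algebraMap E F ϖ) f a) :
    HasOrd (V.comap (algebraMap E F)) ϖ (Algebra.norm E f) ((Module.finrank E F : ℤ) * a) := by
  have hϖ'0 : algebraMap E F ϖ ≠ 0 := (map_ne_zero _).mpr hϖ0
  set u := f / algebraMap E F ϖ ^ a with hu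
  have hu1 : V.valuation u = 1 := by
    unfold HasOrd at h
    rw [hu, map_div₀, map_zpow₀, h, div_self]
    exact zpow_ne_zero _ ((Valuation.ne_zero_iff _).mpr hϖ'0)
  have hNu := norm_single_val_eq_one hn V b hbO hb hu1
  have hf : f = algebraMap E F ϖ ^ a * u := by
    rw [hu]
    field_simp
  have hNf : Algebra.norm E f = (ϖ ^ Module.finrank E F) ^ a * normHom₀ E F u := by
    conv_lhs => rw [hf]
    rw [← normHom₀_apply, map_mul, map_zpow₀, normHom₀_apply, Algebra.norm_algebraMap]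
  unfold HasOrd
  rw [hNf, map_mul, map_zpow₀, map_pow, normHom₀_apply, hNu, mul_one, ← zpow_natCast, ← zpow_mul]

end Single

end Fermat.Agent.ES.P36.NormOrd20
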