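/-
Program P (S36), chapter (G) of NUM-P, brick G4-abs (helper11): **`GenAbs20.GenModel` from the table (G2)**.

Abstract (no model): `F′`, `F″` fields over `K`, `α β : F′ →ₐ[K] F″` finite of degree `q` (prime), `Nα Nβ` the
norms along `α`, `β` (`normZ`).  The structure `TableG2` lists exactly the NON-norm data of the generic-point
picture of `X₀(q²M′) ⇉ X₀(qM′)`:

* base: `R`, `π`, the restrictions of `W1 W2` to `K`;
* positions: `V₁, V₂ | W1`, `V₃ | W2` along `α`; `V₁ | W1`, `V₂, V₃ | W2` along `β`; `V₁ ≠ V₂`, `W1`, `W2` incomparable;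
* `T` a uniformiser of `V₂` with `T^(q−1) ~ π`; `π` a uniformiser of `V₁`, `V₃`; discreteness;
* two residually independent families of length `q` (the purely inseparable branches `V₃ | W2` along `α`,
  `V₁ | W1` along `β`), and the four Frobenius/root statements.

`genModel_of_table` derives all eleven norm fields of `GenModel` (`Nαπ Nβπ ordα1 ordα2 ordβ1 ordβ2 ramα insα insβ
resα1 resα2`) from helper20's `NormRam20` / `NormOrd20`, and `inc` from the positions.
-/
import Mathlib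
import Fermat.Prelude.Def_AlgebraicCurve_Correspondence
import Fermat.Agent.ES.N34.TwoExt22
import Fermat.Agent.ES.P36.NormRam20
import Fermat.Agent.ES.P36.NormOrd20
import Fermat.Agent.ES.P36.GenAbs20

set_option autoImplicit false
set_option linter.unusedSectionVars false
set_option linter.style.haveILetI false

noncomputable section

namespace Fermat.Agent.ES.P36.GenTable11

open AlgebraicCurve
open Fermat.Agent.ES.N34.TwoExt22 Fermat.Agent.ES.P36.OrdVal20 Fermat.Agent.ES.P36.Approx3v9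
  Fermat.Agent.ES.P36.GenAbs20 Fermat.Agent.ES.P36.NormRam20 Fermat.Agent.ES.P36.NormOrd20

/-! ### The ramified pair, in `W`-form -/

section RamPair

variable {E F : Type*} [Field E] [Field F] [Algebra E F] [FiniteDimensional E F]
  {k : ℕ} {W : ValuationSubring E} {O₁ O₂ : ValuationSubring F} {ϖ : E} {T : F}

/-- (RAM) from `T^(k+1) ~ ϖ` and `ϖ` a uniformiser of `W`. -/
theorem hram_of (c1 : O₁.comap (algebraMap E F) = W) (c2 : O₂.comap (algebraMap E F) = W)
    (hϖ0 : ϖ ≠ 0) (hTϖ : HasOrd O₂ T (algebraMap E F ϖ) ((k : ℤ) + 1))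
    (unifW : ∀ a : E, W.valuation a < 1 → W.valuation a ≤ W.valuation ϖ) :
    ∀ a : E, (O₁.comap (algebraMap E F)).valuation a < 1 →
      O₂.valuation (algebraMap E F a) ≤ O₂.valuation T ^ (k + 1) := by
  subst c1
  intro a ha
  have h1 := val_map_le_of_le (φ := algebraMap E F) c2 hϖ0 (unifW a ha)
  unfold HasOrd at hTϖ
  have e : ((k : ℤ) + 1) = ((k + 1 : ℕ) : ℤ) := by push_cast; ring
  rw [e, zpow_natCast] at hTϖ
  rw [← hTϖ]
  exact h1

variable (hdeg : Module.finrank E F = k + 2)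
  (c1 : O₁.comap (algebraMap E F) = W) (c2 : O₂.comap (algebraMap E F) = W) (h12 : O₁ ≠ O₂)
  (hT0 : T ≠ 0) (hT1 : O₂.valuation T < 1) (hϖ0 : ϖ ≠ 0)
  (hTϖ : HasOrd O₂ T (algebraMap E F ϖ) ((k : ℤ) + 1))
  (unifW : ∀ a : E, W.valuation a < 1 → W.valuation a ≤ W.valuation ϖ)
include hdeg c1 c2 h12 hT0 hT1 hϖ0 hTϖ unifW

/-- the norm–residue formula at the ramified pair, `W`-form. -/
theorem ram_congr {h : F} {x₁ x₂ : E} (h1 : h ∈ O₁) (h2 : h ∈ O₂) (hx₁ : x₁ ∈ W) (hx₂ : x₂ ∈ W)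
    (hc1 : O₁.valuation (h - algebraMap E F x₁) < 1)
    (hc2 : O₂.valuation (h - algebraMap E F x₂) < 1) :
    W.valuation (Algebra.norm E h - x₁ * x₂ ^ (k + 1)) < 1 := by
  have hram := hram_of c1 c2 hϖ0 hTϖ unifW
  subst c1
  exact norm_congr_ram hdeg.le O₁ O₂ h12 c2.symm hT0 hT1 hram h1 h2
    ((ValuationSubring.valuation_le_one_iff _ _).mpr hx₁)
    ((ValuationSubring.valuation_le_one_iff _ _).mpr hx₂) hc1 hc2

/-- residue degree one at `O₁`, `W`-form. -/
theorem ram_res_left {h : F} (h1 : h ∈ O₁) :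
    ∃ x ∈ W, O₁.valuation (h - algebraMap E F x) < 1 := by
  have hram := hram_of c1 c2 hϖ0 hTϖ unifW
  subst c1
  obtain ⟨x, hx, hc⟩ := exists_residue_left hdeg.le O₁ O₂ h12 c2.symm hT0 hT1 hram h1
  exact ⟨x, (ValuationSubring.valuation_le_one_iff _ _).mp hx, hc⟩

/-- residue degree one at `O₂`, `W`-form. -/
theorem ram_res_right {h : F} (h2 : h ∈ O₂) :
    ∃ x ∈ W, O₂.valuation (h - algebraMap E F x) < 1 := by
  have hram := hram_of c1 c2 hϖ0 hTϖ unifW
  subst c1
  obtain ⟨x, hx, hc⟩ := exists_residue_right hdeg.le O₁ O₂ h12 c2.symm hT0 hT1 hram h2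
  exact ⟨x, (ValuationSubring.valuation_le_one_iff _ _).mp hx, hc⟩

/-- the valuation formula at the ramified pair, `W`-form, with respect to the given `T`
(`T₂` = an auxiliary uniformiser of `O₂` which is a unit at `O₁`). -/
theorem ram_ord (hϖ1 : W.valuation ϖ < 1) {T₂ : F} (hT₂1 : O₁.valuation T₂ = 1)
    (hT₂2 : O₂.valuation T₂ = O₂.valuation T) {f : F} {a₁ a₂ : ℤ}
    (h1 : HasOrd O₁ (algebraMap E F ϖ) f a₁) (h2 : HasOrd O₂ T f a₂) :
    HasOrd W ϖ (Algebra.norm E f) (a₁ + a₂) := by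
  have hram := hram_of c1 c2 hϖ0 hTϖ unifW
  subst c1
  have hpow : O₂.valuation T₂ ^ (k + 1) = O₂.valuation (algebraMap E F ϖ) := by
    unfold HasOrd at hTϖ
    have e : ((k : ℤ) + 1) = ((k + 1 : ℕ) : ℤ) := by push_cast; ring
    rw [e, zpow_natCast] at hTϖ
    rw [hT₂2, hTϖ]
  have h2' : HasOrd O₂ T₂ f a₂ := by
    unfold HasOrd at h2 ⊢
    rw [hT₂2]; exact h2
  exact hasOrd_norm_ram hdeg.le O₁ O₂ h12 c2.symm hT0 hT1 hram unifW hϖ1 hϖ0 hT₂1 hpow hdeg h1 h2'

end RamPair

/-! ### The purely inseparable single extension, in `W`-form -/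

section Single

variable {E F : Type*} [Field E] [Field F] [Algebra E F] [FiniteDimensional E F]
  {q : ℕ} {W : ValuationSubring E} {V : ValuationSubring F}
  (hdeg : Module.finrank E F = q) (c : V.comap (algebraMap E F) = W)
  (b : Fin q → F) (hbO : ∀ i, b i ∈ V)
  (hb : ∀ a : Fin q → E, (∀ i, W.valuation (a i) ≤ 1) →
    V.valuation (∑ i, algebraMap E F (a i) * b i) < 1 → ∀ i, W.valuation (a i) < 1)
include hdeg c hbO hb

theorem single_congr (hq : q.Prime) (hqW : W.valuation (q : E) < 1) {h : F} {x : E} (hV : h ∈ V)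
    (hx : x ∈ W) (hc : V.valuation (h ^ q - algebraMap E F x) < 1) :
    W.valuation (Algebra.norm E h - x) < 1 := by
  subst c
  haveI : Fact q.Prime := ⟨hq⟩
  exact norm_congr_single_insep q hdeg.le V hqW b hbO hb hV
    ((ValuationSubring.valuation_le_one_iff _ _).mpr hx) hc

theorem single_ord {ϖ : E} (hϖ0 : ϖ ≠ 0) {f : F} {a : ℤ}
    (h : HasOrd V (algebraMap E F ϖ) f a) :
    HasOrd W ϖ (Algebra.norm E f) ((q : ℤ) * a) := by
  subst c
  have := hasOrd_norm_single hdeg.le V b hbO hb hϖ0 h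
  rw [hdeg] at this
  exact this

end Single

/-! ### The table and the main theorem -/

section Main

variable {K F' F'' : Type*} [Field K] [Field F'] [Field F''] [Algebra K F'] [Algebra K F'']

/-- the norm along `φ` as a monoid-with-zero homomorphism. -/
def normZ (φ : F' →ₐ[K] F'') (hfin : FiniteAlong K φ) : F'' →*₀ F' :=
  letI := algebraAlong φ
  haveI : FiniteDimensional F' F'' := hfin
  normHom₀ F' F''

theorem normZ_apply (φ : F' →ₐ[K] F'') (hfin : FiniteAlong K φ) (x : F'') :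
    normZ φ hfin x = (letI := algebraAlong φ; Algebra.norm F' x) := rfl

/-- **the table (G2)**: the non-norm data of the generic-point picture. -/
structure TableG2 (R : ValuationSubring K) (π : K) (q : ℕ) (α β : F' →ₐ[K] F'')
    (W1 W2 : ValuationSubring F') (V₁ V₂ V₃ : ValuationSubring F'') (T : F'') : Prop where
  hq : q.Prime
  hπ0 : π ≠ 0
  hπR : R.valuation π < 1
  hqR : R.valuation (q : K) ≤ R.valuation π
  discR : ∀ c : K, c ≠ 0 → ∃ n : ℤ, HasOrd R π c n
  cK1 : W1.comap (algebraMap K F') = R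
  cK2 : W2.comap (algebraMap K F') = R
  finα : FiniteAlong K α
  finβ : FiniteAlong K β
  degα : finrankAlong K α = q
  degβ : finrankAlong K β = q
  cα1 : V₁.comap α.toRingHom = W1
  cα2 : V₂.comap α.toRingHom = W1
  cα3 : V₃.comap α.toRingHom = W2
  cβ1 : V₁.comap β.toRingHom = W1
  cβ2 : V₂.comap β.toRingHom = W2
  cβ3 : V₃.comap β.toRingHom = W2
  h12 : V₁ ≠ V₂
  hW12 : ¬ W1 ≤ W2
  hW21 : ¬ W2 ≤ W1
  hT0 : T ≠ 0
  hT1 : V₂.valuation T < 1
  hTπ : HasOrd V₂ T (algebraMap K F'' π) ((q : ℤ) - 1)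
  unifV1 : ∀ x, V₁.valuation x < 1 → V₁.valuation x ≤ V₁.valuation (algebraMap K F'' π)
  unifV2 : ∀ x, V₂.valuation x < 1 → V₂.valuation x ≤ V₂.valuation T
  unifV3 : ∀ x, V₃.valuation x < 1 → V₃.valuation x ≤ V₃.valuation (algebraMap K F'' π)
  discW1 : ∀ g : F', g ≠ 0 → ∃ n : ℤ, HasOrd W1 (algebraMap K F' π) g n
  discW2 : ∀ g : F', g ≠ 0 → ∃ n : ℤ, HasOrd W2 (algebraMap K F' π) g n
  discV1 : ∀ f : F'', f ≠ 0 → ∃ n : ℤ, HasOrd V₁ (algebraMap K F'' π) f n
  discV2 : ∀ f : F'', f ≠ 0 → ∃ n : ℤ, HasOrd V₂ T f n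
  discV3 : ∀ f : F'', f ≠ 0 → ∃ n : ℤ, HasOrd V₃ (algebraMap K F'' π) f n
  /-- the purely inseparable branch `V₃ | W2` along `α`: a residually independent family of length `q` -/
  famα : ∃ b : Fin q → F'', (∀ i, b i ∈ V₃) ∧
    ∀ a : Fin q → F', (∀ i, W2.valuation (a i) ≤ 1) →
      V₃.valuation (∑ i, α (a i) * b i) < 1 → ∀ i, W2.valuation (a i) < 1
  /-- the purely inseparable branch `V₁ | W1` along `β` -/
  famβ : ∃ b : Fin q → F'', (∀ i, b i ∈ V₁) ∧
    ∀ a : Fin q → F', (∀ i, W1.valuation (a i) ≤ 1) →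
      V₁.valuation (∑ i, β (a i) * b i) < 1 → ∀ i, W1.valuation (a i) < 1
  frobα3 : ∀ h ∈ V₃, ∃ x ∈ W2, V₃.valuation (h ^ q - α x) < 1
  rootα3 : ∀ g ∈ W2, ∃ g' ∈ V₃, V₃.valuation (g' ^ q - α g) < 1
  frobβ1 : ∀ h ∈ V₁, ∃ x ∈ W1, V₁.valuation (h ^ q - β x) < 1
  rootβ1 : ∀ g ∈ W1, ∃ g' ∈ V₁, V₁.valuation (g' ^ q - β g) < 1

namespace TableG2

variable {R : ValuationSubring K} {π : K} {q : ℕ} {α β : F' →ₐ[K] F''}
  {W1 W2 : ValuationSubring F'} {V₁ V₂ V₃ : ValuationSubring F''} {T : F''}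
  (H : TableG2 R π q α β W1 W2 V₁ V₂ V₃ T)
include H

theorem hπ'0 : algebraMap K F' π ≠ 0 := (map_ne_zero _).mpr H.hπ0

theorem hπ''0 : algebraMap K F'' π ≠ 0 := (map_ne_zero _).mpr H.hπ0

theorem απ : α.toRingHom (algebraMap K F' π) = algebraMap K F'' π := α.commutes π

theorem βπ : β.toRingHom (algebraMap K F' π) = algebraMap K F'' π := β.commutes π

/-- `π` is a uniformiser of `W1` (from `V₁ | W1` unramified along `α`). -/
theorem unifW1 : ∀ a : F', W1.valuation a < 1 → W1.valuation a ≤ W1.valuation (algebraMap K F' π) := by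
  intro a ha
  have h1 := H.unifV1 _ (val_map_lt_one H.cα1 ha)
  rw [← H.απ] at h1
  by_contra hcon
  rw [not_le] at hcon
  have h2 := val_map_le_of_le H.cα1 (b := a) (a := algebraMap K F' π) ?_ hcon.le
  · have h3 : V₁.valuation (α.toRingHom a) = V₁.valuation (α.toRingHom (algebraMap K F' π)) :=
      le_antisymm h1 h2
    -- equality of valuations upstairs gives equality downstairs: contradiction with `hcon`
    have hu : W1.valuation (algebraMap K F' π / a) = 1 := by
      refine val_eq_one_of_map H.cα1 ?_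
      rw [map_div₀, map_div₀, h3, div_self]
      exact (Valuation.ne_zero_iff _).mpr ((map_ne_zero _).mpr H.hπ'0)
    rw [map_div₀] at hu
    have ha0 : W1.valuation a ≠ 0 := by
      intro h0; rw [h0, div_zero] at hu; exact zero_ne_one hu
    rw [div_eq_one_iff_eq ha0] at hu
    rw [hu] at hcon
    exact lt_irrefl _ hcon
  · rintro rfl
    rw [map_zero] at hcon
    exact not_lt_of_ge zero_le hcon

/-- `π` is a uniformiser of `W2` (from `V₃ | W2` unramified along `α`). -/
theorem unifW2 : ∀ a : F', W2.valuation a < 1 → W2.valuation a ≤ W2.valuation (algebraMap K F' π) := by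
  intro a ha
  have h1 := H.unifV3 _ (val_map_lt_one H.cα3 ha)
  rw [← H.απ] at h1
  by_contra hcon
  rw [not_le] at hcon
  have h2 := val_map_le_of_le H.cα3 (b := a) (a := algebraMap K F' π) ?_ hcon.le
  · have h3 : V₃.valuation (α.toRingHom a) = V₃.valuation (α.toRingHom (algebraMap K F' π)) :=
      le_antisymm h1 h2
    have hu : W2.valuation (algebraMap K F' π / a) = 1 := by
      refine val_eq_one_of_map H.cα3 ?_
      rw [map_div₀, map_div₀, h3, div_self]
      exact (Valuation.ne_zero_iff _).mpr ((map_ne_zero _).mpr H.hπ'0)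
    rw [map_div₀] at hu
    have ha0 : W2.valuation a ≠ 0 := by
      intro h0; rw [h0, div_zero] at hu; exact zero_ne_one hu
    rw [div_eq_one_iff_eq ha0] at hu
    rw [hu] at hcon
    exact lt_irrefl _ hcon
  · rintro rfl
    rw [map_zero] at hcon
    exact not_lt_of_ge zero_le hcon

theorem hπW1 : W1.valuation (algebraMap K F' π) < 1 := val_map_lt_one H.cK1 H.hπR

theorem hπW2 : W2.valuation (algebraMap K F' π) < 1 := val_map_lt_one H.cK2 H.hπR

theorem hqW1 : W1.valuation ((q : ℕ) : F') < 1 := by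
  have h : R.valuation ((q : ℕ) : K) < 1 := lt_of_le_of_lt H.hqR H.hπR
  have := val_map_lt_one H.cK1 h
  rwa [map_natCast] at this

theorem hqW2 : W2.valuation ((q : ℕ) : F') < 1 := by
  have h : R.valuation ((q : ℕ) : K) < 1 := lt_of_le_of_lt H.hqR H.hπR
  have := val_map_lt_one H.cK2 h
  rwa [map_natCast] at this

/-- the three valuation rings of `F″` are pairwise incomparable. -/
theorem inc : Incomp3 V₁ V₂ V₃ := by
  letI := algebraAlong α
  haveI : FiniteDimensional F' F'' := H.finα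
  haveI : Algebra.IsAlgebraic F' F'' := Algebra.IsAlgebraic.of_finite F' F''
  have c12 : V₁.comap (algebraMap F' F'') = V₂.comap (algebraMap F' F'') :=
    H.cα1.trans H.cα2.symm
  have mono : ∀ {A B : ValuationSubring F''}, A ≤ B →
      A.comap α.toRingHom ≤ B.comap α.toRingHom := fun hAB x hx => hAB hx
  refine Incomp3.mk' (not_le_of_ne_of_comap_eq H.h12 c12)
    (not_le_of_ne_of_comap_eq H.h12.symm c12.symm) ?_ ?_ ?_ ?_
  · intro h; apply H.hW12; have := mono h; rwa [H.cα1, H.cα3] at this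
  · intro h; apply H.hW21; have := mono h; rwa [H.cα1, H.cα3] at this
  · intro h; apply H.hW12; have := mono h; rwa [H.cα2, H.cα3] at this
  · intro h; apply H.hW21; have := mono h; rwa [H.cα2, H.cα3] at this

theorem h32 : V₃ ≠ V₂ := by
  intro h
  apply H.hW21
  have := H.cα3
  rw [h, H.cα2] at this
  rw [this]

/-- **`GenModel` from the table.** -/
theorem genModel : GenModel R π q α.toRingHom β.toRingHom (normZ α H.finα) (normZ β H.finβ)
    W1 W2 V₁ V₂ V₃ T := by
  obtain ⟨k, hk⟩ := Nat.exists_eq_add_of_le' H.hq.two_le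
  have hk1 : q - 1 = k + 1 := by omega
  have hkZ : ((q : ℤ) - 1) = (k : ℤ) + 1 := by rw [hk]; push_cast; ring
  have hTπ' : HasOrd V₂ T (algebraMap K F'' π) ((k : ℤ) + 1) := hkZ ▸ H.hTπ
  have hinc := H.inc
  -- auxiliary uniformisers of `V₂`: units at `V₁` (resp. `V₃`) with the `V₂`-valuation of `T`
  obtain ⟨T₂, -, hT₂2, hT₂3, hT₂1⟩ := hinc.rotate.exists_unif H.hT1 H.unifV2
  -- the four norm packages
  have ramα_pkg : (∀ h x₁ x₂, h ∈ V₁ → h ∈ V₂ → x₁ ∈ W1 → x₂ ∈ W1 →
        V₁.valuation (h - α.toRingHom x₁) < 1 → V₂.valuation (h - α.toRingHom x₂) < 1 →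
        W1.valuation (normZ α H.finα h - x₁ * x₂ ^ (q - 1)) < 1) ∧
      (∀ h ∈ V₁, ∃ x ∈ W1, V₁.valuation (h - α.toRingHom x) < 1) ∧
      (∀ h ∈ V₂, ∃ x ∈ W1, V₂.valuation (h - α.toRingHom x) < 1) ∧
      (∀ f a₁ a₂, HasOrd V₁ (algebraMap K F'' π) f a₁ → HasOrd V₂ T f a₂ →
        HasOrd W1 (algebraMap K F' π) (normZ α H.finα f) (a₁ + a₂)) := by
    letI := algebraAlong α
    haveI : FiniteDimensional F' F'' := H.finα
    have hdeg : Module.finrank F' F'' = k + 2 := by rw [← hk]; exact H.degα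
    have c1 : V₁.comap (algebraMap F' F'') = W1 := H.cα1
    have c2 : V₂.comap (algebraMap F' F'') = W1 := H.cα2
    have hTϖ : HasOrd V₂ T (algebraMap F' F'' (algebraMap K F' π)) ((k : ℤ) + 1) := by
      have e : algebraMap F' F'' (algebraMap K F' π) = algebraMap K F'' π := H.απ
      rw [e]; exact hTπ'
    refine ⟨fun h x₁ x₂ h1 h2 hx₁ hx₂ hc1 hc2 => ?_, fun h h1 => ?_, fun h h2 => ?_,
      fun f a₁ a₂ h1 h2 => ?_⟩
    · rw [hk1]
      exact ram_congr hdeg c1 c2 H.h12 H.hT0 H.hT1 H.hπ'0 hTϖ H.unifW1 h1 h2 hx₁ hx₂ hc1 hc2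
    · exact ram_res_left hdeg c1 c2 H.h12 H.hT0 H.hT1 H.hπ'0 hTϖ H.unifW1 h1
    · exact ram_res_right hdeg c1 c2 H.h12 H.hT0 H.hT1 H.hπ'0 hTϖ H.unifW1 h2
    · have e : algebraMap F' F'' (algebraMap K F' π) = algebraMap K F'' π := H.απ
      exact ram_ord hdeg c1 c2 H.h12 H.hT0 H.hT1 H.hπ'0 hTϖ H.unifW1 H.hπW1 hT₂1 hT₂2
        (e ▸ h1) h2
  have ramβ_ord : ∀ f a₂ a₃, HasOrd V₂ T f a₂ → HasOrd V₃ (algebraMap K F'' π) f a₃ →
      HasOrd W2 (algebraMap K F' π) (normZ β H.finβ f) (a₂ + a₃) := by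
    letI := algebraAlong β
    haveI : FiniteDimensional F' F'' := H.finβ
    have hdeg : Module.finrank F' F'' = k + 2 := by rw [← hk]; exact H.degβ
    have c1 : V₃.comap (algebraMap F' F'') = W2 := H.cβ3
    have c2 : V₂.comap (algebraMap F' F'') = W2 := H.cβ2
    have e : algebraMap F' F'' (algebraMap K F' π) = algebraMap K F'' π := H.βπ
    have hTϖ : HasOrd V₂ T (algebraMap F' F'' (algebraMap K F' π)) ((k : ℤ) + 1) := by
      rw [e]; exact hTπ'
    intro f a₂ a₃ h2 h3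
    rw [add_comm]
    exact ram_ord hdeg c1 c2 H.h32 H.hT0 H.hT1 H.hπ'0 hTϖ H.unifW2 H.hπW2 hT₂3 hT₂2
      (e ▸ h3) h2
  have insα_pkg : (∀ h x, h ∈ V₃ → x ∈ W2 → V₃.valuation (h ^ q - α.toRingHom x) < 1 →
        W2.valuation (normZ α H.finα h - x) < 1) ∧
      (∀ f a₃, HasOrd V₃ (algebraMap K F'' π) f a₃ →
        HasOrd W2 (algebraMap K F' π) (normZ α H.finα f) (q * a₃)) := by
    letI := algebraAlong α
    haveI : FiniteDimensional F' F'' := H.finα
    obtain ⟨b, hbO, hb⟩ := H.famα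
    have hdeg : Module.finrank F' F'' = q := H.degα
    have c : V₃.comap (algebraMap F' F'') = W2 := H.cα3
    have e : algebraMap F' F'' (algebraMap K F' π) = algebraMap K F'' π := H.απ
    refine ⟨fun h x hV hx hc => ?_, fun f a₃ h3 => ?_⟩
    · exact single_congr hdeg c b hbO hb H.hq H.hqW2 hV hx hc
    · exact single_ord hdeg c b hbO hb H.hπ'0 (e ▸ h3)
  have insβ_pkg : (∀ h x, h ∈ V₁ → x ∈ W1 → V₁.valuation (h ^ q - β.toRingHom x) < 1 →
        W1.valuation (normZ β H.finβ h - x) < 1) ∧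
      (∀ f a₁, HasOrd V₁ (algebraMap K F'' π) f a₁ →
        HasOrd W1 (algebraMap K F' π) (normZ β H.finβ f) (q * a₁)) := by
    letI := algebraAlong β
    haveI : FiniteDimensional F' F'' := H.finβ
    obtain ⟨b, hbO, hb⟩ := H.famβ
    have hdeg : Module.finrank F' F'' = q := H.degβ
    have c : V₁.comap (algebraMap F' F'') = W1 := H.cβ1
    have e : algebraMap F' F'' (algebraMap K F' π) = algebraMap K F'' π := H.βπ
    refine ⟨fun h x hV hx hc => ?_, fun f a₁ h1 => ?_⟩
    · exact single_congr hdeg c b hbO hb H.hq H.hqW1 hV hx hc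
    · exact single_ord hdeg c b hbO hb H.hπ'0 (e ▸ h1)
  have Nαπ : normZ α H.finα (algebraMap K F'' π) = algebraMap K F' π ^ q := by
    letI := algebraAlong α
    haveI : FiniteDimensional F' F'' := H.finα
    have e : algebraMap K F'' π = algebraMap F' F'' (algebraMap K F' π) := H.απ.symm
    rw [e]
    show Algebra.norm F' (algebraMap F' F'' (algebraMap K F' π)) = _
    rw [Algebra.norm_algebraMap]
    congr 1
    exact H.degα
  have Nβπ : normZ β H.finβ (algebraMap K F'' π) = algebraMap K F' π ^ q := by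
    letI := algebraAlong β
    haveI : FiniteDimensional F' F'' := H.finβ
    have e : algebraMap K F'' π = algebraMap F' F'' (algebraMap K F' π) := H.βπ.symm
    rw [e]
    show Algebra.norm F' (algebraMap F' F'' (algebraMap K F' π)) = _
    rw [Algebra.norm_algebraMap]
    congr 1
    exact H.degβ
  exact
    { hq := H.hq
      hπ0 := H.hπ0
      hπR := H.hπR
      hqR := H.hqR
      discR := H.discR
      cK1 := H.cK1
      cK2 := H.cK2
      hαK := α.commutes
      hβK := β.commutes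
      cα1 := H.cα1
      cα2 := H.cα2
      cα3 := H.cα3
      cβ1 := H.cβ1
      inc := hinc
      hT0 := H.hT0
      hT1 := H.hT1
      hTπ := H.hTπ
      unifV1 := H.unifV1
      unifV2 := H.unifV2
      unifV3 := H.unifV3
      discW1 := H.discW1
      discW2 := H.discW2
      discV1 := H.discV1
      discV2 := H.discV2
      discV3 := H.discV3
      Nαπ := Nαπ
      Nβπ := Nβπ
      ordα1 := ramα_pkg.2.2.2
      ordα2 := insα_pkg.2
      ordβ1 := insβ_pkg.2
      ordβ2 := ramβ_ord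
      ramα := ramα_pkg.1
      insα := insα_pkg.1
      insβ := insβ_pkg.1
      resα1 := ramα_pkg.2.1
      resα2 := ramα_pkg.2.2.1
      frobα3 := H.frobα3
      rootα3 := H.rootα3
      frobβ1 := H.frobβ1
      rootβ1 := H.rootβ1 }

end TableG2

end Main

end Fermat.Agent.ES.P36.GenTable11
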