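/-
Program P (S36), brick S5b, TABLE FORM (helper15): **(N3) from helper11's table `GenTable11.TableG2`, the
contract `BranchLoc15.NodeBelow` and the constants lemma (`ConstRes21` form)** — the literal supplier of
"`∃ Θα Θβ : R`, at every triple point and for every representative tuple: `hα ∧ hβ`".

* `SideData R π q φ Wp Ws P₁ P₂ S T` : what ONE side (`φ = α₂` or `β₂`) needs from the table: the pair
  `P₁, P₂` over `Wp` (pattern `(1,1)`, `(q-1,1)`, uniformiser `T` of `P₂`), the single extension `S` over `Ws`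
  (residually independent family + Frobenius), discreteness.  `TableG2.sideα`, `TableG2.sideβ`.
* `SideData.norm_one` : (U1) ⇒ `N_φ u ≡ 1` at `Wp`, `Ws`.
* `SideData.exists_consts` : the GLOBAL constants: from `N_φ u = κ₀ G₀ ^ m` (`κ₀ ∈ K^×` arbitrary) and the
  constants lemma: `κ γ₁ γ₂ Θ ∈ R`, `G` with `N_φ u = κ G ^ m`, `G ≡ γ₁ (Wp)`, `G ≡ γ₂ (Ws)`, `γ₂` a unit,
  `π ∣ γ₁ - Θ γ₂`, `π ∣ Θ ^ m - 1`.
* `SideData.exists_theta_rel` : `∃ Θ : R`, `π ∣ Θ ^ m - 1`, and at EVERY point with `NodeBelow`, for every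
  representative tuple: `r₁ r₂ ^ (q-1) - Θ r₃ ^ q ∈ 𝔪_C` (indices in the order pair-unramified,
  pair-ramified, single).
* `exists_theta_pair` : both sides from `TableG2`: `∃ Θα Θβ : R` … `hα ∧ hβ` (the literal input shape of
  `BranchEqAsm18.BranchRelAt`, chart by chart).  No roots of unity, no field enlargement (ruling p10).
-/
import Mathlib
import Fermat.Agent.ES.P36.GenTable11
import Fermat.Agent.ES.P36.BranchLoc15

set_option autoImplicit false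
set_option linter.unusedSectionVars false
set_option linter.style.haveILetI false

noncomputable section

namespace Fermat.Agent.ES.P36.BranchTable15

open AlgebraicCurve IsLocalRing
open Fermat.Agent.ES.N34.NodalSmooth13 Fermat.Agent.ES.P36.OrdVal20 Fermat.Agent.ES.P36.GenAbs20
  Fermat.Agent.ES.P36.GenTable11 Fermat.Agent.ES.P36.NormRam20 Fermat.Agent.ES.P36.BranchInputs15
  Fermat.Agent.ES.P36.BranchAsm15 Fermat.Agent.ES.P36.BranchLoc15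

variable {K F' F'' : Type*} [Field K] [Field F'] [Field F''] [Algebra K F'] [Algebra K F'']

/-- what one side of (N3) needs from the table (G2). -/
structure SideData (R : ValuationSubring K) (π : K) (q : ℕ) (φ : F' →ₐ[K] F'')
    (Wp Ws : ValuationSubring F') (P₁ P₂ S : ValuationSubring F'') (T : F'') : Prop where
  hq : q.Prime
  hπ0 : π ≠ 0
  hπR : R.valuation π < 1
  discR : ∀ c : K, c ≠ 0 → ∃ n : ℤ, HasOrd R π c n
  cKp : Wp.comap (algebraMap K F') = R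
  cKs : Ws.comap (algebraMap K F') = R
  fin : FiniteAlong K φ
  deg : finrankAlong K φ = q
  c1 : P₁.comap φ.toRingHom = Wp
  c2 : P₂.comap φ.toRingHom = Wp
  c3 : S.comap φ.toRingHom = Ws
  h12 : P₁ ≠ P₂
  hT0 : T ≠ 0
  hT1 : P₂.valuation T < 1
  hTπ : HasOrd P₂ T (algebraMap K F'' π) ((q : ℤ) - 1)
  unifWp : ∀ a : F', Wp.valuation a < 1 → Wp.valuation a ≤ Wp.valuation (algebraMap K F' π)
  discWp : ∀ g : F', g ≠ 0 → ∃ n : ℤ, HasOrd Wp (algebraMap K F' π) g n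
  hqWs : Ws.valuation ((q : ℕ) : F') < 1
  fam : ∃ b : Fin q → F'', (∀ i, b i ∈ S) ∧
    ∀ a : Fin q → F', (∀ i, Ws.valuation (a i) ≤ 1) →
      S.valuation (∑ i, φ (a i) * b i) < 1 → ∀ i, Ws.valuation (a i) < 1
  frob : ∀ h ∈ S, ∃ x ∈ Ws, S.valuation (h ^ q - φ x) < 1

/-- the constants lemma at a valuation ring `W` of `F'` over `R`, in the literal form of
`ConstRes21.exists_const_O1/_O2`. -/
def ConstLemma (R : ValuationSubring K) (W : ValuationSubring F') (m : ℕ) : Prop :=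
  ∀ (G : F') (κ : ↥R), G ∈ W → W.valuation (algebraMap ↥R F' κ * G ^ m - 1) < 1 →
    ∃ γ : ↥R, IsUnit γ ∧ W.valuation (G - algebraMap ↥R F' γ) < 1

section Table

variable {R : ValuationSubring K} {π : K} {q : ℕ} {α β : F' →ₐ[K] F''}
  {W1 W2 : ValuationSubring F'} {V₁ V₂ V₃ : ValuationSubring F''} {T : F''}

/-- the `α`-side of the table: pair `V₁, V₂` over `W1`, single `V₃` over `W2`. -/
theorem sideα (H : TableG2 R π q α β W1 W2 V₁ V₂ V₃ T) :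
    SideData R π q α W1 W2 V₁ V₂ V₃ T :=
  { hq := H.hq, hπ0 := H.hπ0, hπR := H.hπR, discR := H.discR, cKp := H.cK1, cKs := H.cK2,
    fin := H.finα, deg := H.degα, c1 := H.cα1, c2 := H.cα2, c3 := H.cα3, h12 := H.h12,
    hT0 := H.hT0, hT1 := H.hT1, hTπ := H.hTπ, unifWp := H.unifW1, discWp := H.discW1,
    hqWs := H.hqW2, fam := H.famα, frob := H.frobα3 }

/-- the `β`-side of the table: pair `V₃, V₂` over `W2`, single `V₁` over `W1`. -/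
theorem sideβ (H : TableG2 R π q α β W1 W2 V₁ V₂ V₃ T) :
    SideData R π q β W2 W1 V₃ V₂ V₁ T :=
  { hq := H.hq, hπ0 := H.hπ0, hπR := H.hπR, discR := H.discR, cKp := H.cK2, cKs := H.cK1,
    fin := H.finβ, deg := H.degβ, c1 := H.cβ3, c2 := H.cβ2, c3 := H.cβ1, h12 := H.h32,
    hT0 := H.hT0, hT1 := H.hT1, hTπ := H.hTπ, unifWp := H.unifW2, discWp := H.discW2,
    hqWs := H.hqW1, fam := H.famβ, frob := H.frobβ1 }

end Table

namespace SideData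

variable {R : ValuationSubring K} {π : K} {q : ℕ} {φ : F' →ₐ[K] F''}
  {Wp Ws : ValuationSubring F'} {P₁ P₂ S : ValuationSubring F''} {T : F''}
  (D : SideData R π q φ Wp Ws P₁ P₂ S T)
include D

theorem φπ : φ (algebraMap K F' π) = algebraMap K F'' π := φ.commutes π

theorem hπ'0 : algebraMap K F' π ≠ 0 := (map_ne_zero _).mpr D.hπ0

theorem hπWp : Wp.valuation (algebraMap K F' π) < 1 := val_map_lt_one D.cKp D.hπR

theorem hπWs : Ws.valuation (algebraMap K F' π) < 1 := val_map_lt_one D.cKs D.hπR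

/-- (RAM) in the form of `NormRam20` (exponent `q - 1`). -/
theorem hram :
    letI := algebraAlong φ
    ∀ a : F', (P₁.comap (algebraMap F' F'')).valuation a < 1 →
      P₂.valuation (algebraMap F' F'' a) ≤ P₂.valuation T ^ (q - 1) := by
  letI := algebraAlong φ
  haveI : FiniteDimensional F' F'' := D.fin
  obtain ⟨k, hk⟩ := Nat.exists_eq_add_of_le' D.hq.two_le
  have hk1 : q - 1 = k + 1 := by omega
  have hkZ : ((q : ℤ) - 1) = (k : ℤ) + 1 := by rw [hk]; push_cast; ring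
  have hTϖ : HasOrd P₂ T (algebraMap F' F'' (algebraMap K F' π)) ((k : ℤ) + 1) := by
    have e : algebraMap F' F'' (algebraMap K F' π) = algebraMap K F'' π := D.φπ
    rw [e, ← hkZ]; exact D.hTπ
  rw [hk1]
  exact hram_of (W := Wp) D.c1 D.c2 D.hπ'0 hTϖ D.unifWp

/-- (U1) ⇒ `N_φ u ≡ 1` at the two valuation rings below. -/
theorem norm_one {u : F''}
    (hu : ∃ c : F'', c ∈ P₁ ∧ c ∈ P₂ ∧ c ∈ S ∧ u - 1 = algebraMap K F'' π * c) :
    letI := algebraAlong φ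
    Wp.valuation (Algebra.norm F' u - 1) < 1 ∧ Ws.valuation (Algebra.norm F' u - 1) < 1 := by
  letI := algebraAlong φ
  haveI : FiniteDimensional F' F'' := D.fin
  haveI : Fact q.Prime := ⟨D.hq⟩
  obtain ⟨c, hc1, hc2, hc3, huc⟩ := hu
  have hπV : ∀ (V : ValuationSubring F'') (W : ValuationSubring F'), V.comap φ.toRingHom = W →
      W.comap (algebraMap K F') = R → V.valuation (algebraMap K F'' π) < 1 := by
    intro V W hVW hWR
    rw [← D.φπ]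
    exact val_map_lt_one (φ := φ.toRingHom) hVW (val_map_lt_one hWR D.hπR)
  have hval : ∀ (V : ValuationSubring F''), V.valuation (algebraMap K F'' π) < 1 → c ∈ V →
      V.valuation (u - 1) < 1 := by
    intro V hπ hc
    rw [huc, map_mul]
    exact mul_lt_one_of_nonneg_of_lt_one_left zero_le hπ ((V.valuation_le_one_iff _).mpr hc)
  have hu1 := hval P₁ (hπV P₁ Wp D.c1 D.cKp) hc1
  have hu2 := hval P₂ (hπV P₂ Wp D.c2 D.cKp) hc2
  have hu3 := hval S (hπV S Ws D.c3 D.cKs) hc3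
  obtain ⟨k, hk⟩ := Nat.exists_eq_add_of_le' D.hq.two_le
  have hdeg : Module.finrank F' F'' = q := D.deg
  have hcomap₂ : P₁.comap (algebraMap F' F'') = P₂.comap (algebraMap F' F'') := D.c1.trans D.c2.symm
  have hramk : ∀ a : F', (P₁.comap (algebraMap F' F'')).valuation a < 1 →
      P₂.valuation (algebraMap F' F'' a) ≤ P₂.valuation T ^ (k + 1) := by
    have h := D.hram
    have hk1 : q - 1 = k + 1 := by omega
    rw [hk1] at h
    exact h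
  constructor
  · have h := norm_congr_one_pair (k := k) (by rw [hdeg, hk]) P₁ P₂ D.h12 hcomap₂ D.hT0 D.hT1
      hramk hu1 hu2
    have e : P₁.comap (algebraMap F' F'') = Wp := D.c1
    rw [e] at h
    exact h
  · obtain ⟨b, hbO, hb⟩ := D.fam
    have e : S.comap (algebraMap F' F'') = Ws := D.c3
    have h := norm_congr_one_single q hdeg.le S
      (by rw [e]; exact D.hqWs) b hbO (by rw [e]; exact hb) hu3
    rw [e] at h
    exact h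

/-- `π` as an element of the ring `R`. -/
def piR : ↥R := ⟨π, (R.valuation_le_one_iff _).mp D.hπR.le⟩

omit D in
theorem algebraMap_R_apply (r : ↥R) : algebraMap ↥R F' r = algebraMap K F' (r : K) := rfl

/-- `π` cuts out `𝔪_W ∩ R` for `W` over `R`. -/
theorem piR_dvd (W : ValuationSubring F') (hW : W.comap (algebraMap K F') = R) (r : ↥R)
    (h : W.valuation (algebraMap ↥R F' r) < 1) : D.piR ∣ r := by
  have hr : R.valuation (r : K) < 1 := val_lt_one_of_map hW h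
  by_cases h0 : (r : K) = 0
  · have : r = 0 := Subtype.ext h0
    rw [this]; exact dvd_zero _
  obtain ⟨n, hn⟩ := D.discR (r : K) h0
  unfold HasOrd at hn
  have hπpos : 0 < R.valuation π := zero_lt_iff.mpr ((Valuation.ne_zero_iff _).mpr D.hπ0)
  have hn1 : 1 ≤ n := by
    by_contra hcon
    have hn0 : n ≤ 0 := by omega
    have h1 : R.valuation π ^ (0 : ℤ) ≤ R.valuation π ^ n :=
      zpow_le_zpow_right_of_le_one₀ hπpos D.hπR.le hn0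
    rw [zpow_zero, ← hn] at h1
    exact absurd hr (not_lt.mpr h1)
  have hy : R.valuation ((r : K) / π) ≤ 1 := by
    rw [map_div₀, hn, div_le_one₀ hπpos]
    have h1 : R.valuation π ^ n ≤ R.valuation π ^ (1 : ℤ) :=
      zpow_le_zpow_right_of_le_one₀ hπpos D.hπR.le hn1
    rwa [zpow_one] at h1
  refine ⟨⟨(r : K) / π, (R.valuation_le_one_iff _).mp hy⟩, Subtype.ext ?_⟩
  show (r : K) = π * ((r : K) / π)
  field_simp [D.hπ0]

/-- **the global constants of one side.** -/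
theorem exists_consts {m : ℕ} (hm : m ≠ 0) (hcp : ConstLemma R Wp m) (hcs : ConstLemma R Ws m)
    {u : F''} (hu : ∃ c : F'', c ∈ P₁ ∧ c ∈ P₂ ∧ c ∈ S ∧ u - 1 = algebraMap K F'' π * c)
    {κ₀ : K} {G₀ : F'} (hκ₀ : κ₀ ≠ 0) (hG₀ : G₀ ≠ 0)
    (hN : letI := algebraAlong φ; Algebra.norm F' u = algebraMap K F' κ₀ * G₀ ^ m) :
    ∃ (κ γ₁ γ₂ Θ : ↥R) (G : F'), G ≠ 0 ∧ IsUnit γ₂ ∧
      (letI := algebraAlong φ; Algebra.norm F' u = algebraMap ↥R F' κ * G ^ m) ∧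
      Wp.valuation (G - algebraMap ↥R F' γ₁) < 1 ∧ Ws.valuation (G - algebraMap ↥R F' γ₂) < 1 ∧
      D.piR ∣ Θ ^ m - 1 ∧ D.piR ∣ γ₁ - Θ * γ₂ := by
  letI := algebraAlong φ
  obtain ⟨hNp, hNs⟩ := D.norm_one hu
  rw [hN] at hNp hNs
  -- normalisation
  have hκ : ∃ a : ℤ, Wp.valuation (algebraMap K F' κ₀ * algebraMap K F' π ^ a) = 1 ∧
      Ws.valuation (algebraMap K F' κ₀ * algebraMap K F' π ^ a) = 1 := by
    obtain ⟨n, hn⟩ := D.discR κ₀ hκ₀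
    unfold HasOrd at hn
    have hπv : R.valuation π ≠ 0 := (Valuation.ne_zero_iff _).mpr D.hπ0
    have h1 : R.valuation (κ₀ * π ^ (-n)) = 1 := by
      rw [map_mul, map_zpow₀, hn, ← zpow_add₀ hπv, add_neg_cancel, zpow_zero]
    have e : algebraMap K F' κ₀ * algebraMap K F' π ^ (-n) = algebraMap K F' (κ₀ * π ^ (-n)) := by
      rw [map_mul, map_zpow₀]
    refine ⟨-n, ?_, ?_⟩
    · rw [e]; exact val_map_eq_one D.cKp h1
    · rw [e]; exact val_map_eq_one D.cKs h1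
  obtain ⟨n, hκp, hκs, hGp, hGs, hprod⟩ := exists_normalised Wp Ws hm D.hπ'0 D.hπWp hκ
    (D.discWp G₀ hG₀) hNp hNs
  -- the normalised constant lies in `R`
  have e : algebraMap K F' κ₀ * algebraMap K F' π ^ (n * (m : ℤ)) =
      algebraMap K F' (κ₀ * π ^ (n * (m : ℤ))) := by
    rw [map_mul, map_zpow₀]
  have hκR : R.valuation (κ₀ * π ^ (n * (m : ℤ))) = 1 := by
    rw [e] at hκp
    exact val_eq_one_of_map D.cKp hκp
  set κ : ↥R := ⟨κ₀ * π ^ (n * (m : ℤ)), (R.valuation_le_one_iff _).mp hκR.le⟩ with hκdef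
  set G : F' := G₀ * algebraMap K F' π ^ (-n) with hGdef
  have hκe : algebraMap ↥R F' κ = algebraMap K F' κ₀ * algebraMap K F' π ^ (n * (m : ℤ)) := by
    rw [e]; rfl
  have hG0 : G ≠ 0 := mul_ne_zero hG₀ (zpow_ne_zero _ D.hπ'0)
  have hNG : Algebra.norm F' u = algebraMap ↥R F' κ * G ^ m := by
    rw [hN, hκe, hprod]
  have h1 : Wp.valuation (algebraMap ↥R F' κ * G ^ m - 1) < 1 := by
    rw [hκe, hprod]; exact hNp
  have h2 : Ws.valuation (algebraMap ↥R F' κ * G ^ m - 1) < 1 := by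
    rw [hκe, hprod]; exact hNs
  obtain ⟨γ₁, -, hγ₁⟩ := hcp G κ ((Wp.valuation_le_one_iff _).mp hGp.le) h1
  obtain ⟨γ₂, hγ₂u, hγ₂⟩ := hcs G κ ((Ws.valuation_le_one_iff _).mp hGs.le) h2
  have hRW : ∀ (W : ValuationSubring F'), W.comap (algebraMap K F') = R →
      ∀ r : ↥R, algebraMap ↥R F' r ∈ W := by
    intro W hW r
    have : (r : K) ∈ W.comap (algebraMap K F') := by rw [hW]; exact r.2
    exact this
  obtain ⟨Θ, hΘ1, hΘ2, -⟩ := exists_theta (algebraMap ↥R F') Wp Ws (hRW Wp D.cKp) (hRW Ws D.cKs)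
    (π := D.piR) (D.piR_dvd Wp D.cKp) (D.piR_dvd Ws D.cKs) (Nat.pos_of_ne_zero hm) h1 h2 hγ₁ hγ₂
  exact ⟨κ, γ₁, γ₂, Θ, G, hG0, hγ₂u, hNG, hγ₁, hγ₂, hΘ1, hΘ2⟩

/-- **one side of (N3) at one point**, with the constants of `exists_consts`. -/
theorem rel {m : ℕ} (hm : m ≠ 0) {u : F''} {κ γ₁ γ₂ Θ : ↥R} {G : F'} (hG0 : G ≠ 0)
    (hγ₂ : IsUnit γ₂)
    (hN : letI := algebraAlong φ; Algebra.norm F' u = algebraMap ↥R F' κ * G ^ m)
    (hG₁ : Wp.valuation (G - algebraMap ↥R F' γ₁) < 1)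
    (hG₂ : Ws.valuation (G - algebraMap ↥R F' γ₂) < 1)
    (hΘ : D.piR ∣ γ₁ - Θ * γ₂)
    (B : Subalgebra ↥R F'') (𝔪 : Ideal B) [𝔪.IsPrime]
    (hnode : letI := algebraAlong φ; NodeBelow Wp Ws B 𝔪)
    (x₁ x₂ x₃ : ↥(locSub B 𝔪))
    (hC1 : ∀ c : ↥(locSub B 𝔪), (c : F'') ∈ P₁) (hC2 : ∀ c : ↥(locSub B 𝔪), (c : F'') ∈ P₂)
    (hC3 : ∀ c : ↥(locSub B 𝔪), (c : F'') ∈ S)
    (hnu1 : ((x₁ : F''))⁻¹ ∉ P₁) (hnu2 : ((x₂ : F''))⁻¹ ∉ P₂) (hnu3 : ((x₃ : F''))⁻¹ ∉ S)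
    (hπ𝔪 : algebraMap ↥R ↥(locSub B 𝔪) D.piR ∈ maximalIdeal ↥(locSub B 𝔪))
    (ε : (↥(locSub B 𝔪))ˣ) {f : F''} (huf : u = ((ε : ↥(locSub B 𝔪)) : F'') * f ^ m)
    {r₁ r₂ r₃ : ↥(locSub B 𝔪)}
    (hr1 : ∃ o ∈ P₁, f - (r₁ : F'') = (x₁ : F'') * o)
    (hr2 : ∃ o ∈ P₂, f - (r₂ : F'') = (x₂ : F'') * o)
    (hr3 : ∃ o ∈ S, f - (r₃ : F'') = (x₃ : F'') * o) :
    r₁ * r₂ ^ (q - 1) - algebraMap ↥R ↥(locSub B 𝔪) Θ * r₃ ^ q ∈ maximalIdeal ↥(locSub B 𝔪) := by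
  letI := algebraAlong φ
  haveI : FiniteDimensional F' F'' := D.fin
  haveI : Fact q.Prime := ⟨D.hq⟩
  haveI : IsScalarTower ↥R F' F'' := IsScalarTower.of_algebraMap_eq (fun r => (φ.commutes (r : K)).symm)
  have hdeg : Module.finrank F' F'' = q := D.deg
  have e1 : P₁.comap (algebraMap F' F'') = Wp := D.c1
  have e2 : P₂.comap (algebraMap F' F'') = Wp := D.c2
  have e3 : S.comap (algebraMap F' F'') = Ws := D.c3
  obtain ⟨b, hbO, hb⟩ := D.fam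
  have hinsep : ∀ y ∈ S, ∃ x : F', (S.comap (algebraMap F' F'')).valuation x ≤ 1 ∧
      S.valuation (y ^ q - algebraMap F' F'' x) < 1 := by
    intro y hy
    obtain ⟨x, hx, hxy⟩ := D.frob y hy
    refine ⟨x, ?_, hxy⟩
    rw [e3]; exact (Ws.valuation_le_one_iff _).mpr hx
  exact branch_rel_locSub (R := ↥R) (E := F') (F := F'') q hdeg.le P₁ P₂ S D.h12 (e1.trans e2.symm)
    D.hT0 D.hT1 D.hram (by rw [e3]; exact D.hqWs) b hbO (by rw [e3]; exact hb) hinsep B 𝔪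
    (by rw [e1, e3]; exact hnode) x₁ x₂ x₃ hC1 hC2 hC3 hnu1 hnu2 hnu3 hm ε huf hr1 hr2 hr3 hG0
    (κ := κ) (γ₁ := γ₁) (γ₂ := γ₂) (Θ := Θ) (π := D.piR) hN (by rw [e1]; exact hG₁)
    (by rw [e3]; exact hG₂) hγ₂ hΘ hπ𝔪

/-- **one side of (N3), global form**: ONE constant `Θ ∈ R`, `Θ ^ m ≡ 1 mod π`, for all points. -/
theorem exists_theta_rel {m : ℕ} (hm : m ≠ 0) (hcp : ConstLemma R Wp m) (hcs : ConstLemma R Ws m)
    {u : F''} (hu : ∃ c : F'', c ∈ P₁ ∧ c ∈ P₂ ∧ c ∈ S ∧ u - 1 = algebraMap K F'' π * c)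
    {κ₀ : K} {G₀ : F'} (hκ₀ : κ₀ ≠ 0) (hG₀ : G₀ ≠ 0)
    (hN : letI := algebraAlong φ; Algebra.norm F' u = algebraMap K F' κ₀ * G₀ ^ m) :
    ∃ Θ : ↥R, D.piR ∣ Θ ^ m - 1 ∧
      ∀ (B : Subalgebra ↥R F'') (𝔪 : Ideal B) [𝔪.IsPrime],
        (letI := algebraAlong φ; NodeBelow Wp Ws B 𝔪) →
        ∀ (x₁ x₂ x₃ : ↥(locSub B 𝔪)),
          (∀ c : ↥(locSub B 𝔪), (c : F'') ∈ P₁) → (∀ c : ↥(locSub B 𝔪), (c : F'') ∈ P₂) →
          (∀ c : ↥(locSub B 𝔪), (c : F'') ∈ S) →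
          ((x₁ : F''))⁻¹ ∉ P₁ → ((x₂ : F''))⁻¹ ∉ P₂ → ((x₃ : F''))⁻¹ ∉ S →
          algebraMap ↥R ↥(locSub B 𝔪) D.piR ∈ maximalIdeal ↥(locSub B 𝔪) →
          ∀ (ε : (↥(locSub B 𝔪))ˣ) (f : F'') (r₁ r₂ r₃ : ↥(locSub B 𝔪)),
            u = ((ε : ↥(locSub B 𝔪)) : F'') * f ^ m →
            (∃ o ∈ P₁, f - (r₁ : F'') = (x₁ : F'') * o) →
            (∃ o ∈ P₂, f - (r₂ : F'') = (x₂ : F'') * o) →
            (∃ o ∈ S, f - (r₃ : F'') = (x₃ : F'') * o) →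
            r₁ * r₂ ^ (q - 1) - algebraMap ↥R ↥(locSub B 𝔪) Θ * r₃ ^ q ∈
              maximalIdeal ↥(locSub B 𝔪) := by
  obtain ⟨κ, γ₁, γ₂, Θ, G, hG0, hγ₂, hNG, hG₁, hG₂, hΘ1, hΘ2⟩ :=
    D.exists_consts hm hcp hcs hu hκ₀ hG₀ hN
  refine ⟨Θ, hΘ1, ?_⟩
  intro B 𝔪 _ hnode x₁ x₂ x₃ hC1 hC2 hC3 hnu1 hnu2 hnu3 hπ𝔪 ε f r₁ r₂ r₃ huf hr1 hr2 hr3
  exact D.rel hm hG0 hγ₂ hNG hG₁ hG₂ hΘ2 B 𝔪 hnode x₁ x₂ x₃ hC1 hC2 hC3 hnu1 hnu2 hnu3 hπ𝔪 ε huf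
    hr1 hr2 hr3

end SideData

section Pair

variable {R : ValuationSubring K} {π : K} {q : ℕ} {α β : F' →ₐ[K] F''}
  {W1 W2 : ValuationSubring F'} {V₁ V₂ V₃ : ValuationSubring F''} {T : F''}

/-- **(N3), both sides, from the table (G2)**: two GLOBAL constants `Θα Θβ ∈ R`, `m`-th roots of unity
modulo `π`, such that at every point `𝔪` of every chart `B` with the two level-`q` nodes below it
(`NodeBelow` along `α` and along `β`) and for every representative tuple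
`r₁ r₂ ^ (q-1) ≡ Θα r₃ ^ q` and `r₃ r₂ ^ (q-1) ≡ Θβ r₁ ^ q` modulo `𝔪_C`. -/
theorem exists_theta_pair (H : TableG2 R π q α β W1 W2 V₁ V₂ V₃ T) {m : ℕ} (hm : m ≠ 0)
    (hc1 : ConstLemma R W1 m) (hc2 : ConstLemma R W2 m)
    {u : F''} (hu : ∃ c : F'', c ∈ V₁ ∧ c ∈ V₂ ∧ c ∈ V₃ ∧ u - 1 = algebraMap K F'' π * c)
    {κα κβ : K} {Gα Gβ : F'} (hκα : κα ≠ 0) (hGα : Gα ≠ 0) (hκβ : κβ ≠ 0) (hGβ : Gβ ≠ 0)
    (hNα : letI := algebraAlong α; Algebra.norm F' u = algebraMap K F' κα * Gα ^ m)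
    (hNβ : letI := algebraAlong β; Algebra.norm F' u = algebraMap K F' κβ * Gβ ^ m) :
    ∃ Θα Θβ : ↥R, (sideα H).piR ∣ Θα ^ m - 1 ∧ (sideα H).piR ∣ Θβ ^ m - 1 ∧
      ∀ (B : Subalgebra ↥R F'') (𝔪 : Ideal B) [𝔪.IsPrime],
        (letI := algebraAlong α; NodeBelow W1 W2 B 𝔪) →
        (letI := algebraAlong β; NodeBelow W2 W1 B 𝔪) →
        ∀ (x₁ x₂ x₃ : ↥(locSub B 𝔪)),
          (∀ c : ↥(locSub B 𝔪), (c : F'') ∈ V₁) → (∀ c : ↥(locSub B 𝔪), (c : F'') ∈ V₂) →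
          (∀ c : ↥(locSub B 𝔪), (c : F'') ∈ V₃) →
          ((x₁ : F''))⁻¹ ∉ V₁ → ((x₂ : F''))⁻¹ ∉ V₂ → ((x₃ : F''))⁻¹ ∉ V₃ →
          algebraMap ↥R ↥(locSub B 𝔪) (sideα H).piR ∈ maximalIdeal ↥(locSub B 𝔪) →
          ∀ (ε : (↥(locSub B 𝔪))ˣ) (f : F'') (r₁ r₂ r₃ : ↥(locSub B 𝔪)),
            u = ((ε : ↥(locSub B 𝔪)) : F'') * f ^ m →
            (∃ o ∈ V₁, f - (r₁ : F'') = (x₁ : F'') * o) →
            (∃ o ∈ V₂, f - (r₂ : F'') = (x₂ : F'') * o) →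
            (∃ o ∈ V₃, f - (r₃ : F'') = (x₃ : F'') * o) →
            r₁ * r₂ ^ (q - 1) - algebraMap ↥R ↥(locSub B 𝔪) Θα * r₃ ^ q ∈
                maximalIdeal ↥(locSub B 𝔪) ∧
              r₃ * r₂ ^ (q - 1) - algebraMap ↥R ↥(locSub B 𝔪) Θβ * r₁ ^ q ∈
                maximalIdeal ↥(locSub B 𝔪) := by
  have huβ : ∃ c : F'', c ∈ V₃ ∧ c ∈ V₂ ∧ c ∈ V₁ ∧ u - 1 = algebraMap K F'' π * c := by
    obtain ⟨c, h1, h2, h3, hc⟩ := hu
    exact ⟨c, h3, h2, h1, hc⟩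
  obtain ⟨Θα, hΘα, hrelα⟩ := (sideα H).exists_theta_rel hm hc1 hc2 hu hκα hGα hNα
  obtain ⟨Θβ, hΘβ, hrelβ⟩ := (sideβ H).exists_theta_rel hm hc2 hc1 huβ hκβ hGβ hNβ
  refine ⟨Θα, Θβ, hΘα, hΘβ, ?_⟩
  intro B 𝔪 _ hnα hnβ x₁ x₂ x₃ hC1 hC2 hC3 hnu1 hnu2 hnu3 hπ𝔪 ε f r₁ r₂ r₃ huf hr1 hr2 hr3
  exact ⟨hrelα B 𝔪 hnα x₁ x₂ x₃ hC1 hC2 hC3 hnu1 hnu2 hnu3 hπ𝔪 ε f r₁ r₂ r₃ huf hr1 hr2 hr3,
    hrelβ B 𝔪 hnβ x₃ x₂ x₁ hC3 hC2 hC1 hnu3 hnu2 hnu1 hπ𝔪 ε f r₃ r₂ r₁ huf hr3 hr2 hr1⟩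

end Pair

end Fermat.Agent.ES.P36.BranchTable15
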