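/-
Program P (S36), brick S5b, CHART FORM (helper15): **the branch relations (N3) in the literal shape of
`BranchAsmP13.ThetaAt` (`= BranchEqAsm18.BranchRelAt` by `rfl`), from the table (G2)** — generic (no model data), so that the model file
`BranchModel15` is a pure instantiation.

* `NodesBelow R π q α β W1 W2 O j₁ j₂ j₃ B` : the contract for R3/R6 on one chart `B`: at every regular
  triple point (`TripleReg13.TripleReg`) of `B` the two level-`q` nodes below it (`BranchLoc15.NodeBelow`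
  along `α` with rings `(W1, W2)` and along `β` with rings `(W2, W1)`).
* `exists_theta_branchRelAt` : `TableG2` + the constants lemma at `W1`, `W2` + (U1) for `u` + the two norm
  relations ⊢ `∃ Θα Θβ : R`, `Θ ^ m - 1 = π * c`, and `ThetaAt q π B O j₁ j₂ j₃ m u Θα Θβ` for EVERY
  chart `B` with `NodesBelow`.
-/
import Mathlib
import Fermat.Agent.ES.P36.BranchTable15
import Fermat.Agent.ES.P36.BranchAsmP13

set_option autoImplicit false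
set_option linter.unusedSectionVars false
set_option linter.style.haveILetI false

noncomputable section

namespace Fermat.Agent.ES.P36.BranchChart15

open AlgebraicCurve IsLocalRing
open Fermat.Agent.ES.N34.NodalSmooth13 Fermat.Agent.ES.P36.MultiCore13
  Fermat.Agent.ES.P36.TripleReg13 Fermat.Agent.ES.P36.BranchAsmP13
  Fermat.Agent.ES.P36.GenTable11 Fermat.Agent.ES.P36.BranchLoc15 Fermat.Agent.ES.P36.BranchTable15

variable {K F' F'' : Type*} [Field K] [Field F'] [Field F''] [Algebra K F'] [Algebra K F'']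

/-- **CONTRACT for R3/R6 on one chart**: the two level-`q` nodes below every regular triple point. -/
def NodesBelow (R : ValuationSubring K) (π : ↥R) (q : ℕ) (α β : F' →ₐ[K] F'')
    (W1 W2 : ValuationSubring F') {ι : Type*} (O : ι → ValuationSubring F'') (j₁ j₂ j₃ : ι)
    (B : Subalgebra ↥R F'') : Prop :=
  ∀ (𝔪 : Ideal B) (h𝔪 : 𝔪.IsMaximal), algebraMap ↥R B π ∈ 𝔪 →
    ∀ (x₁ x₂ x₃ : ↥(@locSub ↥R F'' _ _ _ B 𝔪 h𝔪.isPrime)),
      @TripleReg ↥R F'' _ _ _ q π B ι O 𝔪 h𝔪.isPrime j₁ j₂ j₃ x₁ x₂ x₃ →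
      (haveI := h𝔪.isPrime
       letI := algebraAlong α
       NodeBelow W1 W2 B 𝔪) ∧
      (haveI := h𝔪.isPrime
       letI := algebraAlong β
       NodeBelow W2 W1 B 𝔪)

/-- **S5b, chart form**: the two global constants and `ThetaAt` on every chart with `NodesBelow`. -/
theorem exists_theta_branchRelAt {R : ValuationSubring K} {π : ↥R} {q : ℕ} {α β : F' →ₐ[K] F''}
    {W1 W2 : ValuationSubring F'} {ι : Type*} {O : ι → ValuationSubring F''} {j₁ j₂ j₃ : ι}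
    {T : F''} (H : TableG2 R (π : K) q α β W1 W2 (O j₁) (O j₂) (O j₃) T) {m : ℕ} (hm : m ≠ 0)
    (hc1 : ConstLemma R W1 m) (hc2 : ConstLemma R W2 m)
    {u : F''} (hu1 : PiOM π O (u - 1))
    (hNα : ∃ (c : K) (g : F'), c ≠ 0 ∧ g ≠ 0 ∧
      (letI := algebraAlong α; Algebra.norm F' u = c • g ^ m))
    (hNβ : ∃ (c : K) (g : F'), c ≠ 0 ∧ g ≠ 0 ∧
      (letI := algebraAlong β; Algebra.norm F' u = c • g ^ m)) :
    ∃ Θα Θβ : ↥R, (∃ c : ↥R, Θα ^ m - 1 = π * c) ∧ (∃ c : ↥R, Θβ ^ m - 1 = π * c) ∧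
      ∀ B : Subalgebra ↥R F'', NodesBelow R π q α β W1 W2 O j₁ j₂ j₃ B →
        ThetaAt q π B O j₁ j₂ j₃ m u Θα Θβ := by
  obtain ⟨cα, gα, hcα, hgα, hnα⟩ := hNα
  obtain ⟨cβ, gβ, hcβ, hgβ, hnβ⟩ := hNβ
  have hu : ∃ c : F'', c ∈ O j₁ ∧ c ∈ O j₂ ∧ c ∈ O j₃ ∧ u - 1 = algebraMap K F'' (π : K) * c := by
    obtain ⟨c, hc, huc⟩ := hu1
    exact ⟨c, hc j₁, hc j₂, hc j₃, huc⟩
  obtain ⟨Θα, Θβ, hΘα, hΘβ, hrel⟩ := exists_theta_pair H hm hc1 hc2 hu hcα hgα hcβ hgβ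
    (hnα.trans (Algebra.smul_def _ _)) (hnβ.trans (Algebra.smul_def _ _))
  have hpi : (sideα H).piR = π := Subtype.ext rfl
  rw [hpi] at hΘα hΘβ
  refine ⟨Θα, Θβ, hΘα, hΘβ, ?_⟩
  intro B hB 𝔪 h𝔪 hπ𝔪 x₁ x₂ x₃ hreg ε f r₁ r₂ r₃ _ huf _ _ _ _ _ _ _ _ _ hr1 hr2 hr3
  haveI := h𝔪.isPrime
  obtain ⟨hnα', hnβ'⟩ := hB 𝔪 h𝔪 hπ𝔪 x₁ x₂ x₃ hreg
  obtain ⟨-, -, -, -, -, -, -, -, -, -, -, -, -, -, ⟨hC₁, -, hnu₁⟩, ⟨hC₂, -, hnu₂⟩,
    ⟨hC₃, -, hnu₃⟩, -⟩ := hreg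
  refine hrel B 𝔪 hnα' hnβ' x₁ x₂ x₃ hC₁ hC₂ hC₃ hnu₁ hnu₂ hnu₃ ?_ ε f r₁ r₂ r₃ huf hr1 hr2 hr3
  rw [hpi, mem_maximalIdeal, mem_nonunits_iff]
  exact not_isUnit_of_mem B 𝔪 hπ𝔪

end Fermat.Agent.ES.P36.BranchChart15
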