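/-
Program P (S36), brick S5c (helper15): **combination of the two branch relations** (`S36_SS27.md` v2,
§4 (e),(f) and §4′ S5c; Mathlib only, pure algebra in a local ring `C` and its residue field).

`e₁ e₂ e₃ ∈ C` (lifts of the branch values `ζ_i` of `h` at a triple point), `G₁ G₂ ∈ C` (images of the two
residue constants of `G_α`: `G₁` at the branch of level `q` carrying the PAIR `O₁, O₂`, `G₂` at the branch
carrying the single extension `O₃`), `D₁ D₂ ∈ C` (the same along `β`: `D₁` at the branch carrying the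
pair `O₃, O₂`, `D₂` at the branch carrying the single extension `O₁`).  The two relations of
`BranchRel15.branch_relation`:

  (R_α)  `G₂ e₁ e₂ ^ (q-1) ≡ G₁ e₃ ^ q`,     (R_β)  `D₂ e₃ e₂ ^ (q-1) ≡ D₁ e₁ ^ q`     (mod `𝔪_C`).

`branch_comb_left`:  `G₂ D₂ ^ q · e₁ e₂ ^ (q²-1) ≡ G₁ D₁ ^ q · e₁ ^ (q²)`  (no unit hypothesis);
`branch_comb`:  if `e₁, e₃, G₂, D₂` are units and `λ₁ G₂ D₂ ^ q ≡ G₁ D₁ ^ q`, `λ₃ D₂ G₂ ^ q ≡ D₁ G₁ ^ q`, then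
  `e₁ ^ (q²-1) λ₁ ≡ e₂ ^ (q²-1) ≡ e₃ ^ (q²-1) λ₃`  (mod `𝔪_C`):
the new branch values `e_i ^ (q²-1) λ_i` (`λ₂ = 1`) of `h₂ = h ^ (q²-1) s` are EQUAL.
Also `pow_mul_congr`: `f ≡ e`, `s ≡ λ` modulo `x O` ⊢ `f ^ N s ≡ e ^ N λ` modulo `x O` (the shape of
`LocTriple13.triple_start`'s hypotheses `hbr`).
-/
import Mathlib

set_option autoImplicit false

namespace Fermat.Agent.ES.P36.BranchComb15

open IsLocalRing

section Field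

variable {k : Type*} [Field k]

/-- the two relations combined, in a field, without unit hypotheses. -/
theorem comb_field (q : ℕ) (hq : 1 ≤ q) {z₁ z₂ z₃ g₁ g₂ d₁ d₂ : k}
    (hα : g₂ * z₁ * z₂ ^ (q - 1) = g₁ * z₃ ^ q)
    (hβ : d₂ * z₃ * z₂ ^ (q - 1) = d₁ * z₁ ^ q) :
    g₂ * d₂ ^ q * (z₁ * z₂ ^ (q ^ 2 - 1)) = g₁ * d₁ ^ q * z₁ ^ (q ^ 2) := by
  obtain ⟨n, rfl⟩ : ∃ n, q = n + 1 := ⟨q - 1, by omega⟩
  have h1 : n + 1 - 1 = n := by omega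
  have h2 : (n + 1) ^ 2 - 1 = n + (n + 1) * n := by
    have : (n + 1) ^ 2 = n + (n + 1) * n + 1 := by ring
    omega
  rw [h1] at hα hβ
  rw [h2]
  have hβq : d₂ ^ (n + 1) * z₃ ^ (n + 1) * z₂ ^ ((n + 1) * n) = d₁ ^ (n + 1) * z₁ ^ ((n + 1) ^ 2) := by
    have := congrArg (fun x => x ^ (n + 1)) hβ
    simp only [mul_pow, ← pow_mul] at this
    have e1 : n * (n + 1) = (n + 1) * n := by ring
    have e2 : (n + 1) * (n + 1) = (n + 1) ^ 2 := by ring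
    rw [e1, e2] at this
    exact this
  calc g₂ * d₂ ^ (n + 1) * (z₁ * z₂ ^ (n + (n + 1) * n))
      = (g₂ * z₁ * z₂ ^ n) * (d₂ ^ (n + 1) * z₂ ^ ((n + 1) * n)) := by rw [pow_add]; ring
    _ = (g₁ * z₃ ^ (n + 1)) * (d₂ ^ (n + 1) * z₂ ^ ((n + 1) * n)) := by rw [hα]
    _ = g₁ * (d₂ ^ (n + 1) * z₃ ^ (n + 1) * z₂ ^ ((n + 1) * n)) := by ring
    _ = g₁ * (d₁ ^ (n + 1) * z₁ ^ ((n + 1) ^ 2)) := by rw [hβq]
    _ = g₁ * d₁ ^ (n + 1) * z₁ ^ ((n + 1) ^ 2) := by ring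

/-- with units and the multiplier `l₁`: `z₁ ^ (q²-1) l₁ = z₂ ^ (q²-1)`. -/
theorem comb_field_unit (q : ℕ) (hq : 1 ≤ q) {z₁ z₂ z₃ g₁ g₂ d₁ d₂ l₁ : k}
    (hz₁ : z₁ ≠ 0) (hg₂ : g₂ ≠ 0) (hd₂ : d₂ ≠ 0)
    (hα : g₂ * z₁ * z₂ ^ (q - 1) = g₁ * z₃ ^ q)
    (hβ : d₂ * z₃ * z₂ ^ (q - 1) = d₁ * z₁ ^ q)
    (hl : l₁ * (g₂ * d₂ ^ q) = g₁ * d₁ ^ q) :
    z₁ ^ (q ^ 2 - 1) * l₁ = z₂ ^ (q ^ 2 - 1) := by
  have h := comb_field q hq hα hβ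
  rw [← hl] at h
  have hq2 : q ^ 2 = (q ^ 2 - 1) + 1 := by
    have : 1 ≤ q ^ 2 := Nat.one_le_pow _ _ hq
    omega
  have hne : g₂ * d₂ ^ q * z₁ ≠ 0 := mul_ne_zero (mul_ne_zero hg₂ (pow_ne_zero _ hd₂)) hz₁
  refine mul_left_cancel₀ hne ?_
  calc g₂ * d₂ ^ q * z₁ * (z₁ ^ (q ^ 2 - 1) * l₁)
      = l₁ * (g₂ * d₂ ^ q) * (z₁ ^ (q ^ 2 - 1) * z₁) := by ring
    _ = l₁ * (g₂ * d₂ ^ q) * z₁ ^ (q ^ 2) := by rw [← pow_succ, ← hq2]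
    _ = g₂ * d₂ ^ q * (z₁ * z₂ ^ (q ^ 2 - 1)) := h.symm
    _ = g₂ * d₂ ^ q * z₁ * z₂ ^ (q ^ 2 - 1) := by ring

end Field

section Local

variable {C : Type*} [CommRing C] [IsLocalRing C]

theorem mem_max_iff (x : C) : x ∈ maximalIdeal C ↔ residue C x = 0 :=
  (residue_eq_zero_iff x).symm

theorem sub_mem_max_iff (x y : C) : x - y ∈ maximalIdeal C ↔ residue C x = residue C y := by
  rw [mem_max_iff, map_sub, sub_eq_zero]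

theorem residue_ne_zero_of_isUnit {x : C} (hx : IsUnit x) : residue C x ≠ 0 := by
  rw [Ne, residue_eq_zero_iff]
  exact fun h => (mem_maximalIdeal x).mp h hx

/-- **S5c, no unit hypothesis**: the two branch relations give
`G₂ D₂ ^ q e₁ e₂ ^ (q²-1) ≡ G₁ D₁ ^ q e₁ ^ (q²)`. -/
theorem branch_comb_left (q : ℕ) (hq : 1 ≤ q) {e₁ e₂ e₃ G₁ G₂ D₁ D₂ : C}
    (hα : G₂ * e₁ * e₂ ^ (q - 1) - G₁ * e₃ ^ q ∈ maximalIdeal C)
    (hβ : D₂ * e₃ * e₂ ^ (q - 1) - D₁ * e₁ ^ q ∈ maximalIdeal C) :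
    G₂ * D₂ ^ q * (e₁ * e₂ ^ (q ^ 2 - 1)) - G₁ * D₁ ^ q * e₁ ^ (q ^ 2) ∈ maximalIdeal C := by
  rw [sub_mem_max_iff] at hα hβ ⊢
  simp only [map_mul, map_pow] at hα hβ ⊢
  exact comb_field q hq hα hβ

/-- **S5c**: the new branch values `e_i ^ (q²-1) λ_i` (`λ₂ = 1`) are congruent modulo `𝔪_C`. -/
theorem branch_comb (q : ℕ) (hq : 1 ≤ q) {e₁ e₂ e₃ G₁ G₂ D₁ D₂ l₁ l₃ : C}
    (he₁ : IsUnit e₁) (he₃ : IsUnit e₃) (hG₂ : IsUnit G₂) (hD₂ : IsUnit D₂)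
    (hα : G₂ * e₁ * e₂ ^ (q - 1) - G₁ * e₃ ^ q ∈ maximalIdeal C)
    (hβ : D₂ * e₃ * e₂ ^ (q - 1) - D₁ * e₁ ^ q ∈ maximalIdeal C)
    (hl₁ : l₁ * (G₂ * D₂ ^ q) - G₁ * D₁ ^ q ∈ maximalIdeal C)
    (hl₃ : l₃ * (D₂ * G₂ ^ q) - D₁ * G₁ ^ q ∈ maximalIdeal C) :
    e₁ ^ (q ^ 2 - 1) * l₁ - e₂ ^ (q ^ 2 - 1) ∈ maximalIdeal C ∧
      e₃ ^ (q ^ 2 - 1) * l₃ - e₂ ^ (q ^ 2 - 1) ∈ maximalIdeal C := by
  rw [sub_mem_max_iff] at hα hβ hl₁ hl₃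
  rw [sub_mem_max_iff, sub_mem_max_iff]
  simp only [map_mul, map_pow] at hα hβ hl₁ hl₃ ⊢
  exact ⟨comb_field_unit q hq (residue_ne_zero_of_isUnit he₁) (residue_ne_zero_of_isUnit hG₂)
      (residue_ne_zero_of_isUnit hD₂) hα hβ hl₁,
    comb_field_unit q hq (residue_ne_zero_of_isUnit he₃) (residue_ne_zero_of_isUnit hD₂)
      (residue_ne_zero_of_isUnit hG₂) hβ hα hl₃⟩

end Local

section Shape

variable {C : Type*} [CommRing C] {F : Type*} [Field F] [Algebra C F]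

/-- `f ≡ e`, `s ≡ λ` modulo `x O` ⊢ `f ^ N * s ≡ e ^ N * λ` modulo `x O`
(the shape of the hypotheses `hbr` of `LocTriple13.triple_start`). -/
theorem pow_mul_congr (O : ValuationSubring F) (hC : ∀ c : C, algebraMap C F c ∈ O) (x : C)
    {f s : F} {e l : C}
    (hf : ∃ o ∈ O, f - algebraMap C F e = algebraMap C F x * o)
    (hs : ∃ o ∈ O, s - algebraMap C F l = algebraMap C F x * o) (N : ℕ) :
    ∃ o ∈ O, f ^ N * s - algebraMap C F (e ^ N * l) = algebraMap C F x * o := by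
  obtain ⟨o₁, ho₁, h₁⟩ := hf
  obtain ⟨o₂, ho₂, h₂⟩ := hs
  have hfO : f ∈ O := by
    have : f = algebraMap C F e + algebraMap C F x * o₁ := by linear_combination h₁
    rw [this]
    exact O.add_mem _ _ (hC e) (O.mul_mem _ _ (hC x) ho₁)
  set S : F := ∑ i ∈ Finset.range N, f ^ i * algebraMap C F e ^ (N - 1 - i) with hS
  have hSO : S ∈ O :=
    O.toSubring.sum_mem fun i _ => O.mul_mem _ _ (pow_mem hfO i) (pow_mem (hC e) _)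
  have hgeom : S * (f - algebraMap C F e) = f ^ N - algebraMap C F e ^ N :=
    (Commute.all f (algebraMap C F e)).geom_sum₂_mul N
  refine ⟨S * o₁ * algebraMap C F l + f ^ N * o₂,
    O.add_mem _ _ (O.mul_mem _ _ (O.mul_mem _ _ hSO ho₁) (hC l)) (O.mul_mem _ _ (pow_mem hfO N) ho₂), ?_⟩
  rw [map_mul, map_pow]
  linear_combination (algebraMap C F l) * hgeom.symm + (S * algebraMap C F l) * h₁ + f ^ N * h₂

end Shape

end Fermat.Agent.ES.P36.BranchComb15
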