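/-
Program P (S36), chapter (SS), brick S6′ (helper18): **the global multiplier, constants only
congruent to roots of unity** (ruling p10: no enlargement of `K`, so the constants `λⱼ` are arbitrary
lifts with `λⱼ ^ m ≡ 1 mod π`, NOT exact `m`-th roots of unity).

Same geometry as `GlobMult18.exists_multiplier`: three pairwise incomparable valuation rings
`O₁ O₂ O₃` of `F`, `π ≠ 0` with `vⱼ(π) < 1`, `q` prime with `vⱼ(q) ≤ vⱼ(π)` and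
`vⱼ(x) < 1 → vⱼ(x) ^ q ≤ vⱼ(π)`, `q ∤ m`.

* `val_eq_one_of_pow_congr` : `l ^ m ≡ 1 mod π O` ⇒ `v(l) = 1`.
* `zpow_sub_one_mem` : `1 + π O` is stable under integer powers.
* `zpow_pow_sub_mem` : for `a q + b m = 1`, `μ := l ^ a` has `v(μ) = 1` and `μ ^ q ≡ l mod π O`.
* `exists_multiplier_mod` : `lⱼ ^ m ≡ 1 mod π Oⱼ` (`j = 1, 2, 3`) ⊢ `∃ s ≠ 0`, `s⁻¹ ∈ Oⱼ`,
  `s ≡ lⱼ mod π Oⱼ`, `s ^ m ≡ 1 mod π (O₁ ∩ O₂ ∩ O₃)`.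
* `exists_multiplier_mod_base` : the same for GLOBAL constants `L₁ L₂ L₃ : R` with
  `Lₖ ^ m - 1 ∈ π R` (`R → F`, `R ⊆ Oⱼ`).
* `exists_multiplier_mod_theta` : the shape of `GlobMult18.exists_multiplier` (`Θα Θβ : R`,
  `Θ ^ m - 1 ∈ π R`; residues `Θα Θβ ^ q`, `1`, `Θβ Θα ^ q`).
* `exists_theta_mod` : `κ γ₁ ^ m ≡ 1 ≡ κ γ₂ ^ m mod π` ⊢ `Θ := γ₁ κ γ₂ ^ (m - 1)` has
  `Θ ^ m ≡ 1`, `γ₁ ≡ Θ γ₂ mod π` (replaces the primitive root of unity of `R`).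
-/
import Mathlib
import Fermat.Agent.ES.P36.GlobMult18

set_option autoImplicit false

namespace Fermat.Agent.ES.P36.GlobMultMod18

open Fermat.Agent.ES.P36.Approx3v9 Fermat.Agent.ES.P36.GlobMult18

section Tools

variable {F : Type*} [Field F]

/-- `l ^ m ≡ 1 mod π O`, `v(π) < 1`, `m ≠ 0` ⇒ `v(l) = 1`. -/
theorem val_eq_one_of_pow_congr (O : ValuationSubring F) {π l : F} {m : ℕ} (hm : m ≠ 0)
    (hπ : O.valuation π < 1) (hl : ∃ c ∈ O, l ^ m - 1 = π * c) : O.valuation l = 1 := by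
  obtain ⟨c, hc, hlc⟩ := hl
  have hcv : O.valuation c ≤ 1 := (O.valuation_le_one_iff c).mpr hc
  have h1 : O.valuation (l ^ m - 1) < 1 := by
    rw [hlc, map_mul]
    exact lt_of_le_of_lt (mul_le_of_le_one_right' hcv) hπ
  have h2 : O.valuation (l ^ m) = 1 := by
    have h3 : l ^ m = 1 + (l ^ m - 1) := by ring
    rw [h3]
    exact Valuation.map_one_add_of_lt _ h1
  rw [map_pow] at h2
  exact (pow_eq_one_iff.mp h2).resolve_right hm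

/-- `1 + π O` (`v(π) < 1`) is stable under integer powers. -/
theorem zpow_sub_one_mem (O : ValuationSubring F) {π t : F} (hπ : O.valuation π < 1)
    (ht : ∃ c ∈ O, t - 1 = π * c) (k : ℤ) : ∃ c ∈ O, t ^ k - 1 = π * c := by
  have hvt : O.valuation t = 1 :=
    val_eq_one_of_pow_congr O (m := 1) one_ne_zero hπ (by simpa using ht)
  have htO : t ∈ O := mem_of_val_eq_one O hvt
  have htinvO : t⁻¹ ∈ O := inv_mem_of_val_eq_one O hvt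
  have ht0 : t ≠ 0 := by
    rintro rfl
    rw [map_zero] at hvt
    exact zero_ne_one hvt
  have hinv : ∃ c ∈ O, t⁻¹ - 1 = π * c := by
    obtain ⟨c, hc, htc⟩ := ht
    refine ⟨-(c * t⁻¹), O.neg_mem _ (O.mul_mem _ _ hc htinvO), ?_⟩
    have h1 : t⁻¹ - 1 = -((t - 1) * t⁻¹) := by
      field_simp
      ring
    rw [h1, htc]; ring
  obtain ⟨n, rfl | rfl⟩ := k.eq_nat_or_neg
  · have := pow_sub_pow_eq O.toSubring htO O.toSubring.one_mem n ht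
    rw [one_pow] at this
    rwa [zpow_natCast]
  · have := pow_sub_pow_eq O.toSubring htinvO O.toSubring.one_mem n hinv
    rw [one_pow] at this
    rwa [zpow_neg, zpow_natCast, ← inv_pow]

/-- `q`-th roots modulo `π O`: for `a q + b m = 1`, `μ := l ^ a` is a unit with
`μ ^ q ≡ l mod π O`. -/
theorem zpow_pow_sub_mem (O : ValuationSubring F) {π l : F} {m q : ℕ} (hm : m ≠ 0)
    (hπ : O.valuation π < 1) (hl : ∃ c ∈ O, l ^ m - 1 = π * c) {a b : ℤ}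
    (hab : a * (q : ℤ) + b * (m : ℤ) = 1) :
    O.valuation (l ^ a) = 1 ∧ ∃ c ∈ O, (l ^ a) ^ q - l = π * c := by
  have hvl := val_eq_one_of_pow_congr O hm hπ hl
  have hl0 : l ≠ 0 := by
    rintro rfl
    rw [map_zero] at hvl
    exact zero_ne_one hvl
  have hlO := mem_of_val_eq_one O hvl
  refine ⟨by rw [map_zpow₀, hvl, one_zpow], ?_⟩
  have h1 : (l ^ a) ^ q = l * (l ^ m) ^ (-b) := by
    have h1 : (l ^ a) ^ q = l ^ (a * (q : ℤ)) := by rw [zpow_mul, zpow_natCast]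
    have h2 : l ^ (a * (q : ℤ)) = l ^ ((1 : ℤ) + (m : ℤ) * (-b)) := by
      rw [← hab]; ring_nf
    rw [h1, h2, zpow_add₀ hl0, zpow_one, zpow_mul, zpow_natCast]
  obtain ⟨c, hc, hcc⟩ := zpow_sub_one_mem O hπ hl (-b)
  refine ⟨l * c, O.mul_mem _ _ hlO hc, ?_⟩
  rw [h1]; linear_combination l * hcc

end Tools

section Global

variable {F : Type*} [Field F] {O₁ O₂ O₃ : ValuationSubring F}

/-- **The global multiplier**, three constants with `lⱼ ^ m ≡ 1 mod π Oⱼ` only. -/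
theorem exists_multiplier_mod (hinc : Incomp3 O₁ O₂ O₃) {q m : ℕ} (hq : q.Prime) (hqm : ¬ q ∣ m)
    {π : F} (hπ : π ≠ 0)
    (hπ₁ : O₁.valuation π < 1) (hπ₂ : O₂.valuation π < 1) (hπ₃ : O₃.valuation π < 1)
    (hqπ₁ : O₁.valuation (q : F) ≤ O₁.valuation π)
    (hxq₁ : ∀ x : F, O₁.valuation x < 1 → O₁.valuation x ^ q ≤ O₁.valuation π)
    (hqπ₂ : O₂.valuation (q : F) ≤ O₂.valuation π)
    (hxq₂ : ∀ x : F, O₂.valuation x < 1 → O₂.valuation x ^ q ≤ O₂.valuation π)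
    (hqπ₃ : O₃.valuation (q : F) ≤ O₃.valuation π)
    (hxq₃ : ∀ x : F, O₃.valuation x < 1 → O₃.valuation x ^ q ≤ O₃.valuation π)
    {l₁ l₂ l₃ : F} (hl₁ : ∃ c ∈ O₁, l₁ ^ m - 1 = π * c) (hl₂ : ∃ c ∈ O₂, l₂ ^ m - 1 = π * c)
    (hl₃ : ∃ c ∈ O₃, l₃ ^ m - 1 = π * c) :
    ∃ s : F, s ≠ 0 ∧ (s⁻¹ ∈ O₁ ∧ s⁻¹ ∈ O₂ ∧ s⁻¹ ∈ O₃) ∧
      (∃ c ∈ O₁, s - l₁ = π * c) ∧ (∃ c ∈ O₂, s - l₂ = π * c) ∧ (∃ c ∈ O₃, s - l₃ = π * c) ∧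
      ∃ c : F, c ∈ O₁ ∧ c ∈ O₂ ∧ c ∈ O₃ ∧ s ^ m - 1 = π * c := by
  have hm0 : m ≠ 0 := fun h => hqm (h ▸ dvd_zero q)
  have hcop : Nat.Coprime q m := (Nat.Prime.coprime_iff_not_dvd hq).mpr hqm
  have hco : IsCoprime (q : ℤ) (m : ℤ) := Nat.isCoprime_iff_coprime.mpr hcop
  obtain ⟨a, b, hab⟩ := hco
  obtain ⟨hvμ₁, hμ₁⟩ := zpow_pow_sub_mem O₁ (q := q) hm0 hπ₁ hl₁ hab
  obtain ⟨hvμ₂, hμ₂⟩ := zpow_pow_sub_mem O₂ (q := q) hm0 hπ₂ hl₂ hab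
  obtain ⟨hvμ₃, hμ₃⟩ := zpow_pow_sub_mem O₃ (q := q) hm0 hπ₃ hl₃ hab
  obtain ⟨s₀, hs₀0, ⟨hv₁, hv₂, hv₃⟩, ha₁, ha₂, ha₃⟩ := hinc.exists_approx_unit hvμ₁ hvμ₂ hvμ₃
  -- one place
  have one : ∀ (O : ValuationSubring F) (l μ : F), O.valuation π < 1 →
      O.valuation (q : F) ≤ O.valuation π →
      (∀ x : F, O.valuation x < 1 → O.valuation x ^ q ≤ O.valuation π) →
      (∃ c ∈ O, l ^ m - 1 = π * c) → O.valuation μ = 1 → (∃ c ∈ O, μ ^ q - l = π * c) →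
      O.valuation s₀ = 1 → O.valuation (s₀ - μ) < 1 →
      (s₀ ^ q)⁻¹ ∈ O ∧ (∃ c ∈ O, s₀ ^ q - l = π * c) ∧ ((s₀ ^ q) ^ m - 1) / π ∈ O := by
    intro O l μ hπO hqπ hxq hl hvμ hμ hv ha
    have hvs : O.valuation (s₀ ^ q) = 1 := by rw [map_pow, hv, one_pow]
    obtain ⟨c, hc, hcc⟩ := pow_sub_pow_mem O hq hπ hqπ hxq hvμ ha
    obtain ⟨d, hd, hdd⟩ := hμ
    have hsl : ∃ c ∈ O, s₀ ^ q - l = π * c :=
      ⟨c + d, O.add_mem _ _ hc hd, by linear_combination hcc + hdd⟩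
    refine ⟨inv_mem_of_val_eq_one O hvs, hsl, ?_⟩
    have hvl := val_eq_one_of_pow_congr O hm0 hπO hl
    obtain ⟨e, he, hee⟩ := pow_sub_pow_eq O.toSubring (mem_of_val_eq_one O hvs)
      (mem_of_val_eq_one O hvl) m hsl
    obtain ⟨g, hg, hgg⟩ := hl
    have : ((s₀ ^ q) ^ m - 1) / π = e + g := by
      have h1 : (s₀ ^ q) ^ m - 1 = π * (e + g) := by linear_combination hee + hgg
      rw [h1]; field_simp
    rw [this]; exact O.add_mem _ _ he hg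
  obtain ⟨i₁, c₁, k₁⟩ := one O₁ l₁ _ hπ₁ hqπ₁ hxq₁ hl₁ hvμ₁ hμ₁ hv₁ ha₁
  obtain ⟨i₂, c₂, k₂⟩ := one O₂ l₂ _ hπ₂ hqπ₂ hxq₂ hl₂ hvμ₂ hμ₂ hv₂ ha₂
  obtain ⟨i₃, c₃, k₃⟩ := one O₃ l₃ _ hπ₃ hqπ₃ hxq₃ hl₃ hvμ₃ hμ₃ hv₃ ha₃
  exact ⟨s₀ ^ q, pow_ne_zero q hs₀0, ⟨i₁, i₂, i₃⟩, c₁, c₂, c₃,
    ((s₀ ^ q) ^ m - 1) / π, k₁, k₂, k₃, by field_simp⟩

/-- **The global multiplier for GLOBAL constants** `L₁ L₂ L₃ : R` with `Lₖ ^ m - 1 ∈ π R`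
(`R → F`, the image of `R` inside each `Oⱼ`; `π : R`). -/
theorem exists_multiplier_mod_base {R : Type*} [CommRing R] [Algebra R F]
    (hR₁ : ∀ r : R, algebraMap R F r ∈ O₁) (hR₂ : ∀ r : R, algebraMap R F r ∈ O₂)
    (hR₃ : ∀ r : R, algebraMap R F r ∈ O₃)
    (hinc : Incomp3 O₁ O₂ O₃) {q m : ℕ} (hq : q.Prime) (hqm : ¬ q ∣ m)
    {π : R} (hπ : algebraMap R F π ≠ 0)
    (hπ₁ : O₁.valuation (algebraMap R F π) < 1) (hπ₂ : O₂.valuation (algebraMap R F π) < 1)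
    (hπ₃ : O₃.valuation (algebraMap R F π) < 1)
    (hqπ₁ : O₁.valuation (q : F) ≤ O₁.valuation (algebraMap R F π))
    (hxq₁ : ∀ x : F, O₁.valuation x < 1 → O₁.valuation x ^ q ≤ O₁.valuation (algebraMap R F π))
    (hqπ₂ : O₂.valuation (q : F) ≤ O₂.valuation (algebraMap R F π))
    (hxq₂ : ∀ x : F, O₂.valuation x < 1 → O₂.valuation x ^ q ≤ O₂.valuation (algebraMap R F π))
    (hqπ₃ : O₃.valuation (q : F) ≤ O₃.valuation (algebraMap R F π))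
    (hxq₃ : ∀ x : F, O₃.valuation x < 1 → O₃.valuation x ^ q ≤ O₃.valuation (algebraMap R F π))
    {L₁ L₂ L₃ : R} (hL₁ : ∃ c : R, L₁ ^ m - 1 = π * c) (hL₂ : ∃ c : R, L₂ ^ m - 1 = π * c)
    (hL₃ : ∃ c : R, L₃ ^ m - 1 = π * c) :
    ∃ s : F, s ≠ 0 ∧ (s⁻¹ ∈ O₁ ∧ s⁻¹ ∈ O₂ ∧ s⁻¹ ∈ O₃) ∧
      (∃ c ∈ O₁, s - algebraMap R F L₁ = algebraMap R F π * c) ∧
      (∃ c ∈ O₂, s - algebraMap R F L₂ = algebraMap R F π * c) ∧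
      (∃ c ∈ O₃, s - algebraMap R F L₃ = algebraMap R F π * c) ∧
      ∃ c : F, c ∈ O₁ ∧ c ∈ O₂ ∧ c ∈ O₃ ∧ s ^ m - 1 = algebraMap R F π * c := by
  have tr : ∀ (O : ValuationSubring F) (L : R), (∀ r : R, algebraMap R F r ∈ O) →
      (∃ c : R, L ^ m - 1 = π * c) →
      ∃ c ∈ O, (algebraMap R F L) ^ m - 1 = algebraMap R F π * c := by
    rintro O L hR ⟨c, hc⟩
    refine ⟨algebraMap R F c, hR c, ?_⟩
    rw [← map_pow, ← map_one (algebraMap R F), ← map_sub, hc, map_mul]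
  exact exists_multiplier_mod hinc hq hqm hπ hπ₁ hπ₂ hπ₃ hqπ₁ hxq₁ hqπ₂ hxq₂ hqπ₃ hxq₃
    (tr O₁ L₁ hR₁ hL₁) (tr O₂ L₂ hR₂ hL₂) (tr O₃ L₃ hR₃ hL₃)

/-- `exists_multiplier_mod_base` in the shape of `GlobMult18.exists_multiplier`: two GLOBAL constants
`Θα Θβ : R` with `Θ ^ m ≡ 1 mod π R`; `s ≡ Θα Θβ ^ q`, `1`, `Θβ Θα ^ q` at the three places. -/
theorem exists_multiplier_mod_theta {R : Type*} [CommRing R] [Algebra R F]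
    (hR₁ : ∀ r : R, algebraMap R F r ∈ O₁) (hR₂ : ∀ r : R, algebraMap R F r ∈ O₂)
    (hR₃ : ∀ r : R, algebraMap R F r ∈ O₃)
    (hinc : Incomp3 O₁ O₂ O₃) {q m : ℕ} (hq : q.Prime) (hqm : ¬ q ∣ m)
    {π : R} (hπ : algebraMap R F π ≠ 0)
    (hπ₁ : O₁.valuation (algebraMap R F π) < 1) (hπ₂ : O₂.valuation (algebraMap R F π) < 1)
    (hπ₃ : O₃.valuation (algebraMap R F π) < 1)
    (hqπ₁ : O₁.valuation (q : F) ≤ O₁.valuation (algebraMap R F π))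
    (hxq₁ : ∀ x : F, O₁.valuation x < 1 → O₁.valuation x ^ q ≤ O₁.valuation (algebraMap R F π))
    (hqπ₂ : O₂.valuation (q : F) ≤ O₂.valuation (algebraMap R F π))
    (hxq₂ : ∀ x : F, O₂.valuation x < 1 → O₂.valuation x ^ q ≤ O₂.valuation (algebraMap R F π))
    (hqπ₃ : O₃.valuation (q : F) ≤ O₃.valuation (algebraMap R F π))
    (hxq₃ : ∀ x : F, O₃.valuation x < 1 → O₃.valuation x ^ q ≤ O₃.valuation (algebraMap R F π))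
    {Θα Θβ : R} (hΘα : ∃ c : R, Θα ^ m - 1 = π * c) (hΘβ : ∃ c : R, Θβ ^ m - 1 = π * c) :
    ∃ s : F, s ≠ 0 ∧ (s⁻¹ ∈ O₁ ∧ s⁻¹ ∈ O₂ ∧ s⁻¹ ∈ O₃) ∧
      (∃ c ∈ O₁, s - algebraMap R F (Θα * Θβ ^ q) = algebraMap R F π * c) ∧
      (∃ c ∈ O₂, s - 1 = algebraMap R F π * c) ∧
      (∃ c ∈ O₃, s - algebraMap R F (Θβ * Θα ^ q) = algebraMap R F π * c) ∧
      ∃ c : F, c ∈ O₁ ∧ c ∈ O₂ ∧ c ∈ O₃ ∧ s ^ m - 1 = algebraMap R F π * c := by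
  have key : ∀ {a b : R}, (∃ c : R, a ^ m - 1 = π * c) → (∃ c : R, b ^ m - 1 = π * c) →
      ∃ c : R, (a * b ^ q) ^ m - 1 = π * c := by
    rintro a b ⟨c, hc⟩ ⟨d, hd⟩
    obtain ⟨e, he⟩ : b ^ m - 1 ∣ (b ^ m) ^ q - 1 ^ q := sub_dvd_pow_sub_pow _ _ q
    rw [one_pow] at he
    refine ⟨c * (b ^ m) ^ q + d * e, ?_⟩
    have h1 : (a * b ^ q) ^ m - 1 = (a ^ m - 1) * (b ^ m) ^ q + ((b ^ m) ^ q - 1) := by ring
    rw [h1, he, hc, hd]; ring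
  have h2 : ∃ c : R, (1 : R) ^ m - 1 = π * c := ⟨0, by simp⟩
  obtain ⟨s, hs0, hinv, h₁, h₂, h₃, hm⟩ := exists_multiplier_mod_base hR₁ hR₂ hR₃ hinc hq hqm hπ
    hπ₁ hπ₂ hπ₃ hqπ₁ hxq₁ hqπ₂ hxq₂ hqπ₃ hxq₃ (key hΘα hΘβ) h2 (key hΘβ hΘα)
  rw [map_one] at h₂
  exact ⟨s, hs0, hinv, h₁, h₂, h₃, hm⟩

end Global

/-! ### The constants of (N3) without roots of unity -/

section Theta

variable {R : Type*} [CommRing R]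

/-- **`Θ` without roots of unity**: from `κ γ₁ ^ m ≡ 1 ≡ κ γ₂ ^ m mod π`, the element
`Θ := γ₁ κ γ₂ ^ (m - 1)` has `Θ ^ m ≡ 1` and `γ₁ ≡ Θ γ₂ mod π`. -/
theorem exists_theta_mod {π κ γ₁ γ₂ : R} {m : ℕ} (hm : 0 < m)
    (k1 : π ∣ κ * γ₁ ^ m - 1) (k2 : π ∣ κ * γ₂ ^ m - 1) :
    ∃ Θ : R, (∃ c : R, Θ ^ m - 1 = π * c) ∧ π ∣ γ₁ - Θ * γ₂ := by
  obtain ⟨n, rfl⟩ : ∃ n, m = n + 1 := ⟨m - 1, by omega⟩
  obtain ⟨c, hc⟩ := k1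
  obtain ⟨d, hd⟩ := k2
  obtain ⟨e, he⟩ : κ * γ₂ ^ (n + 1) - 1 ∣ (κ * γ₂ ^ (n + 1)) ^ n - 1 ^ n :=
    sub_dvd_pow_sub_pow _ _ n
  rw [one_pow] at he
  refine ⟨γ₁ * κ * γ₂ ^ n, ⟨c * (κ * γ₂ ^ (n + 1)) ^ n + d * e, ?_⟩, ⟨-(γ₁ * d), ?_⟩⟩
  · have h1 : (γ₁ * κ * γ₂ ^ n) ^ (n + 1) - 1 =
        (κ * γ₁ ^ (n + 1) - 1) * (κ * γ₂ ^ (n + 1)) ^ n + ((κ * γ₂ ^ (n + 1)) ^ n - 1) := by
      ring
    rw [h1, he, hc, hd]; ring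
  · have h1 : γ₁ - γ₁ * κ * γ₂ ^ n * γ₂ = -(γ₁ * (κ * γ₂ ^ (n + 1) - 1)) := by ring
    rw [h1, hd]; ring

end Theta

end Fermat.Agent.ES.P36.GlobMultMod18
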