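/-
Program P (S36), chapter (SS)/NUM-P, brick `BranchEqAsm18` (helper18): **the S5/S6 → `numFinal`
bridge**.

Input: the model contract `NumInputP13.NumInputP`, (U1) + (U2) for `u`, two GLOBAL constants
`Θα Θβ : R` with `Θ ^ m ≡ 1 mod π`, and on both charts the two branch relations (`BranchRelAt`)

  `r₁ r₂ ^ (q-1) ≡ Θα r₃ ^ q`,   `r₃ r₂ ^ (q-1) ≡ Θβ r₁ ^ q`   (mod `𝔪_C`)

at every regular triple point, for every representative tuple `(ε, f, r₁, r₂, r₃)` of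
`TripleReg13.exists_tripleRep` (`BranchRelAt` = helper13's `BranchAsmP13.ThetaAt`, word for word).

Output (`exists_multiplier_branchEq`): ONE global multiplier `s ≠ 0` with `PiOM π O (s ^ m - 1)` and
`NumInputP13.BranchEqAt … (u ^ (q ^ 2 - 1) * s ^ m)` on both charts — literally the hypotheses
`s hs hs1 hN3_0 hN3_1` of `NumFinalP13.numFinal`.

All valuation-theoretic side conditions of the multiplier (`Incomp3`, `v(π) < 1`, `v(q) ≤ v(π)`,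
`v(x) < 1 → v(x) ^ q ≤ v(π)`) are DERIVED from one regular triple point (`incomp3_of_tripleReg`,
`val_pow_le_of_tripleReg`); if there is no such point, `s := 1`.
-/
import Mathlib
import Fermat.Agent.ES.P36.GlobMultMod18
import Fermat.Agent.ES.P36.TripleAsm18
import Fermat.Agent.ES.P36.NumInputP13

set_option autoImplicit false

namespace Fermat.Agent.ES.P36.BranchEqAsm18

open Fermat.Agent.RED.CORE Fermat.Agent.RED.CORE.UnitPow15 Fermat.Agent.RED.CORE.PrimePlace15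
  Fermat.Agent.ES.N34.NodalCore13 Fermat.Agent.ES.N34.NodalSmooth13
  Fermat.Agent.ES.P36.MultiCore13 Fermat.Agent.ES.P36.LocTriple13 Fermat.Agent.ES.P36.NumAbsP13
  Fermat.Agent.ES.P36.TripleReg13 Fermat.Agent.ES.P36.NumInputP13
  Fermat.Agent.ES.P36.Approx3v9 Fermat.Agent.ES.P36.GlobMult18 Fermat.Agent.ES.P36.GlobMultMod18
  Fermat.Agent.ES.P36.TripleAsm18

/-! ### `Ov = C_(x)`: the prime `x` is a uniformiser of `Ov` -/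

section Unif

variable {C : Type*} [CommRing C] [IsDomain C] [WfDvdMonoid C] {F : Type*} [Field F]
  [Algebra C F] [IsFractionRing C F]

/-- If `Ov = C_(x)` (in the `(hC, hinv, hnu)` form), every non-unit of `Ov` has valuation at most
that of `x`. -/
theorem val_le_val_prime {x : C} (hx : Prime x) (Ov : ValuationSubring F)
    (hC : ∀ c : C, algebraMap C F c ∈ Ov)
    (hinv : ∀ c : C, ¬ x ∣ c → (algebraMap C F c)⁻¹ ∈ Ov)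
    (hnu : (algebraMap C F x)⁻¹ ∉ Ov) {y : F} (hy : Ov.valuation y < 1) :
    Ov.valuation y ≤ Ov.valuation (algebraMap C F x) := by
  rcases eq_or_ne y 0 with rfl | hy0
  · rw [map_zero]; exact zero_le
  have hyO : y ∈ Ov := (Ov.valuation_le_one_iff y).mp hy.le
  have hyP := LocalStep15.mem_primeVS_of_mem hx Ov hC hinv hnu hyO
  obtain ⟨n, w, hw, hyw⟩ := exists_pow_mul_isPUnit hx hyP hy0
  have hwv : Ov.valuation w = 1 := by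
    have h1 : w ∈ Ov := LocalStep15.mem_of_isPUnit hx Ov hC hinv hw
    have h2 : w⁻¹ ∈ Ov := LocalStep15.mem_of_isPUnit hx Ov hC hinv hw.inv
    have h1' : Ov.valuation w ≤ 1 := (Ov.valuation_le_one_iff w).mpr h1
    have h2' : Ov.valuation w⁻¹ ≤ 1 := (Ov.valuation_le_one_iff _).mpr h2
    have hw0 : Ov.valuation w ≠ 0 := (Valuation.ne_zero_iff _).mpr hw.ne_zero
    rw [map_inv₀, inv_le_one₀ (zero_lt_iff.mpr hw0)] at h2'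
    exact le_antisymm h1' h2'
  have hxv : Ov.valuation (algebraMap C F x) ≤ 1 := (Ov.valuation_le_one_iff _).mpr (hC x)
  rcases Nat.eq_zero_or_pos n with rfl | hn
  · exfalso
    rw [hyw, pow_zero, one_mul, hwv] at hy
    exact lt_irrefl _ hy
  · rw [hyw, map_mul, map_pow, hwv, mul_one]
    calc Ov.valuation (algebraMap C F x) ^ n ≤ Ov.valuation (algebraMap C F x) ^ 1 :=
          pow_le_pow_right_of_le_one' hxv hn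
      _ = Ov.valuation (algebraMap C F x) := pow_one _

/-- … hence `v(y) < 1 → v(y) ^ q ≤ v(π)` as soon as `x ^ q ∈ π Ov`. -/
theorem val_pow_le_of_prime {x : C} (hx : Prime x) (Ov : ValuationSubring F)
    (hC : ∀ c : C, algebraMap C F c ∈ Ov)
    (hinv : ∀ c : C, ¬ x ∣ c → (algebraMap C F c)⁻¹ ∈ Ov)
    (hnu : (algebraMap C F x)⁻¹ ∉ Ov) {q : ℕ} {π : F}
    (hmult : ∃ b ∈ Ov, (algebraMap C F x) ^ q = π * b) {y : F} (hy : Ov.valuation y < 1) :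
    Ov.valuation y ^ q ≤ Ov.valuation π := by
  obtain ⟨b, hb, hxb⟩ := hmult
  have hbv : Ov.valuation b ≤ 1 := (Ov.valuation_le_one_iff b).mpr hb
  calc Ov.valuation y ^ q ≤ Ov.valuation (algebraMap C F x) ^ q :=
        pow_le_pow_left' (val_le_val_prime hx Ov hC hinv hnu hy) q
    _ = Ov.valuation π * Ov.valuation b := by rw [← map_pow, hxb, map_mul]
    _ ≤ Ov.valuation π := mul_le_of_le_one_right' hbv

end Unif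

section Chart

variable {R F : Type*} [CommRing R] [Field F] [Algebra R F]

/-- The conclusion of `TripleReg13.exists_tripleRep`: a representative tuple of `u` at a regular
triple point. -/
def TripleRep (B : Subalgebra R F) {ι : Type*} (O : ι → ValuationSubring F)
    (𝔪 : Ideal B) [𝔪.IsPrime] (i₁ i₂ i₃ : ι) (x₁ x₂ x₃ : ↥(locSub B 𝔪)) (m : ℕ) (u : F)
    (ε : (↥(locSub B 𝔪))ˣ) (f : F) (r₁ r₂ r₃ : ↥(locSub B 𝔪)) : Prop :=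
  f ≠ 0 ∧ u = ((ε : ↥(locSub B 𝔪)) : F) * f ^ m ∧
    (f ∈ O i₁ ∧ f⁻¹ ∈ O i₁) ∧ (f ∈ O i₂ ∧ f⁻¹ ∈ O i₂) ∧ (f ∈ O i₃ ∧ f⁻¹ ∈ O i₃) ∧
    IsUnit r₁ ∧ IsUnit r₂ ∧ IsUnit r₃ ∧
    x₁ ∣ (ε : ↥(locSub B 𝔪)) * r₁ ^ m - 1 ∧ x₂ ∣ (ε : ↥(locSub B 𝔪)) * r₂ ^ m - 1 ∧
    x₃ ∣ (ε : ↥(locSub B 𝔪)) * r₃ ^ m - 1 ∧
    (∃ o ∈ O i₁, f - (r₁ : F) = (x₁ : F) * o) ∧ (∃ o ∈ O i₂, f - (r₂ : F) = (x₂ : F) * o) ∧
    (∃ o ∈ O i₃, f - (r₃ : F) = (x₃ : F) * o)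

/-- (N3), input form (the OUTPUT of S5 on one chart): the two branch relations, with the GLOBAL
constants `Θα Θβ : R`, at every regular triple point and for every representative tuple (the
hypotheses are LITERALLY the conclusion list of `TripleReg13.exists_tripleRep`).  Word for word
helper13's `BranchAsmP13.ThetaAt`. -/
def BranchRelAt (q : ℕ) (π : R) (B : Subalgebra R F) {ι : Type*} (O : ι → ValuationSubring F)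
    (j₁ j₂ j₃ : ι) (m : ℕ) (u : F) (Θα Θβ : R) : Prop :=
  ∀ (𝔪 : Ideal B) (h𝔪 : 𝔪.IsMaximal), algebraMap R B π ∈ 𝔪 →
    ∀ (x₁ x₂ x₃ : ↥(@locSub R F _ _ _ B 𝔪 h𝔪.isPrime)),
      @TripleReg R F _ _ _ q π B ι O 𝔪 h𝔪.isPrime j₁ j₂ j₃ x₁ x₂ x₃ →
    ∀ (ε : (↥(@locSub R F _ _ _ B 𝔪 h𝔪.isPrime))ˣ) (f : F)
      (r₁ r₂ r₃ : ↥(@locSub R F _ _ _ B 𝔪 h𝔪.isPrime)), f ≠ 0 →
      u = ((ε : ↥(@locSub R F _ _ _ B 𝔪 h𝔪.isPrime)) : F) * f ^ m →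
      (f ∈ O j₁ ∧ f⁻¹ ∈ O j₁) → (f ∈ O j₂ ∧ f⁻¹ ∈ O j₂) → (f ∈ O j₃ ∧ f⁻¹ ∈ O j₃) →
      IsUnit r₁ → IsUnit r₂ → IsUnit r₃ →
      x₁ ∣ (ε : ↥(@locSub R F _ _ _ B 𝔪 h𝔪.isPrime)) * r₁ ^ m - 1 →
      x₂ ∣ (ε : ↥(@locSub R F _ _ _ B 𝔪 h𝔪.isPrime)) * r₂ ^ m - 1 →
      x₃ ∣ (ε : ↥(@locSub R F _ _ _ B 𝔪 h𝔪.isPrime)) * r₃ ^ m - 1 →
      (∃ o ∈ O j₁, f - (r₁ : F) = (x₁ : F) * o) → (∃ o ∈ O j₂, f - (r₂ : F) = (x₂ : F) * o) →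
      (∃ o ∈ O j₃, f - (r₃ : F) = (x₃ : F) * o) →
      r₁ * r₂ ^ (q - 1) - algebraMap R ↥(@locSub R F _ _ _ B 𝔪 h𝔪.isPrime) Θα * r₃ ^ q ∈
          IsLocalRing.maximalIdeal ↥(@locSub R F _ _ _ B 𝔪 h𝔪.isPrime) ∧
        r₃ * r₂ ^ (q - 1) - algebraMap R ↥(@locSub R F _ _ _ B 𝔪 h𝔪.isPrime) Θβ * r₁ ^ q ∈
          IsLocalRing.maximalIdeal ↥(@locSub R F _ _ _ B 𝔪 h𝔪.isPrime)

/-- "The chart `B` has a regular triple point of the components `j₁ j₂ j₃`". -/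
def HasTriple (q : ℕ) (π : R) (B : Subalgebra R F) {ι : Type*} (O : ι → ValuationSubring F)
    (j₁ j₂ j₃ : ι) : Prop :=
  ∃ (𝔪 : Ideal B) (h𝔪 : 𝔪.IsMaximal) (x₁ x₂ x₃ : ↥(@locSub R F _ _ _ B 𝔪 h𝔪.isPrime)),
    @TripleReg R F _ _ _ q π B ι O 𝔪 h𝔪.isPrime j₁ j₂ j₃ x₁ x₂ x₃

variable (q : ℕ) (π : R) (B : Subalgebra R F) {ι : Type*} (O : ι → ValuationSubring F)
  (𝔪 : Ideal B) [h𝔪 : 𝔪.IsPrime] (i₁ i₂ i₃ : ι) (x₁ x₂ x₃ : ↥(locSub B 𝔪))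

/-- The three components through a regular triple point are pairwise incomparable. -/
theorem incomp3_of_tripleReg (h : TripleReg q π B O 𝔪 i₁ i₂ i₃ x₁ x₂ x₃) :
    Incomp3 (O i₁) (O i₂) (O i₃) := by
  obtain ⟨-, -, hp₁, hp₂, hp₃, h12', h13', h23', -, -, -, -, -, -,
    ⟨-, hinv₁, hnu₁⟩, ⟨-, hinv₂, hnu₂⟩, ⟨-, hinv₃, hnu₃⟩, -⟩ := h
  have hrev : ∀ {a b : ↥(locSub B 𝔪)}, Prime a → Prime b → ¬ a ∣ b → ¬ b ∣ a := by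
    intro a b ha hb hab hba
    obtain ⟨c, hc⟩ := hba
    rcases ha.irreducible.isUnit_or_isUnit hc with hu | hu
    · exact hb.not_isUnit hu
    · apply hab
      obtain ⟨c', hc'⟩ := hu.exists_right_inv
      exact ⟨c', by rw [hc, mul_assoc, hc', mul_one]⟩
  have h21' := hrev hp₁ hp₂ h12'
  have h31' := hrev hp₁ hp₃ h13'
  have h32' := hrev hp₂ hp₃ h23'
  -- `x_k⁻¹ ∈ O i_l ∖ O i_k`
  have key : ∀ {Oa Ob : ValuationSubring F} {x : F}, x⁻¹ ∈ Ob → x⁻¹ ∉ Oa → ¬ Ob ≤ Oa :=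
    fun hb ha hle => ha (hle hb)
  exact ⟨⟨key (hinv₁ x₂ h12') hnu₂, key (hinv₂ x₁ h21') hnu₁⟩,
    ⟨key (hinv₁ x₃ h13') hnu₃, key (hinv₃ x₁ h31') hnu₁⟩,
    ⟨key (hinv₂ x₃ h23') hnu₃, key (hinv₃ x₂ h32') hnu₂⟩⟩

/-- `v(y) < 1 → v(y) ^ q ≤ v(π)` at the three components through a regular triple point. -/
theorem val_pow_le_of_tripleReg (pi_ne : algebraMap R F π ≠ 0)
    (frac : ∀ y : F, ∃ a ∈ B, ∃ b ∈ B, b ≠ 0 ∧ y * b = a)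
    (h : TripleReg q π B O 𝔪 i₁ i₂ i₃ x₁ x₂ x₃) :
    (∀ y : F, (O i₁).valuation y < 1 →
      (O i₁).valuation y ^ q ≤ (O i₁).valuation (algebraMap R F π)) ∧
    (∀ y : F, (O i₂).valuation y < 1 →
      (O i₂).valuation y ^ q ≤ (O i₂).valuation (algebraMap R F π)) ∧
    (∀ y : F, (O i₃).valuation y < 1 →
      (O i₃).valuation y ^ q ≤ (O i₃).valuation (algebraMap R F π)) := by
  have hdata := tripleData_of_reg q π B O 𝔪 i₁ i₂ i₃ x₁ x₂ x₃ pi_ne h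
  obtain ⟨-, -, -, -, -, -, -, -, -, -, hm₁, hm₂, hm₃⟩ := hdata
  obtain ⟨-, hufd, hp₁, hp₂, hp₃, -, -, -, -, -, -, -, -, -,
    ⟨hC₁, hinv₁, hnu₁⟩, ⟨hC₂, hinv₂, hnu₂⟩, ⟨hC₃, hinv₃, hnu₃⟩, -⟩ := h
  have hfracC : IsFractionRing ↥(locSub B 𝔪) F := by
    refine IsFractionRing.of_field ↥(locSub B 𝔪) F fun z => ?_
    obtain ⟨a, ha, b, hb, hb0, hab⟩ := frac z
    refine ⟨⟨a, le_locSub B 𝔪 ha⟩, ⟨b, le_locSub B 𝔪 hb⟩, ?_⟩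
    show z = a / b
    rw [eq_div_iff hb0, hab]
  exact ⟨fun y hy => val_pow_le_of_prime hp₁ (O i₁) hC₁ hinv₁ hnu₁ hm₁ hy,
    fun y hy => val_pow_le_of_prime hp₂ (O i₂) hC₂ hinv₂ hnu₂ hm₂ hy,
    fun y hy => val_pow_le_of_prime hp₃ (O i₃) hC₃ hinv₃ hnu₃ hm₃ hy⟩

/-- **One regular triple point**: a representative tuple with the two branch relations and the
global multiplier `s` give `TripleDec` for `u ^ (q ^ 2 - 1) * s ^ m`. -/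
theorem tripleDec_of_rel (hq : 1 ≤ q) (pi_ne : algebraMap R F π ≠ 0)
    (h : TripleReg q π B O 𝔪 i₁ i₂ i₃ x₁ x₂ x₃) (m : ℕ) (u : F)
    (ε : (↥(locSub B 𝔪))ˣ) (f : F) (r₁ r₂ r₃ : ↥(locSub B 𝔪))
    (hrep : TripleRep B O 𝔪 i₁ i₂ i₃ x₁ x₂ x₃ m u ε f r₁ r₂ r₃) {Θα Θβ : R}
    (hα : r₁ * r₂ ^ (q - 1) - algebraMap R ↥(locSub B 𝔪) Θα * r₃ ^ q ∈
      IsLocalRing.maximalIdeal ↥(locSub B 𝔪))
    (hβ : r₃ * r₂ ^ (q - 1) - algebraMap R ↥(locSub B 𝔪) Θβ * r₁ ^ q ∈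
      IsLocalRing.maximalIdeal ↥(locSub B 𝔪))
    {s : F} (hs0 : s ≠ 0) (hsinv₁ : s⁻¹ ∈ O i₁) (hsinv₂ : s⁻¹ ∈ O i₂) (hsinv₃ : s⁻¹ ∈ O i₃)
    (hs₁ : ∃ c ∈ O i₁, s - algebraMap R F (Θα * Θβ ^ q) = algebraMap R F π * c)
    (hs₂ : ∃ c ∈ O i₂, s - 1 = algebraMap R F π * c)
    (hs₃ : ∃ c ∈ O i₃, s - algebraMap R F (Θβ * Θα ^ q) = algebraMap R F π * c) :
    TripleDec (C := ↥(locSub B 𝔪)) (O i₁) (O i₂) (O i₃) x₁ x₂ x₃ m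
      (u ^ (q ^ 2 - 1) * s ^ m) := by
  have hdata := tripleData_of_reg q π B O 𝔪 i₁ i₂ i₃ x₁ x₂ x₃ pi_ne h
  obtain ⟨-, -, -, -, hC₁, hC₂, hC₃, hπx₁, hπx₂, hπx₃, -, -, -⟩ := hdata
  obtain ⟨hf0, huf, ⟨-, hfi₁⟩, ⟨-, hfi₂⟩, ⟨-, hfi₃⟩, hr₁, -, hr₃, -, -, -, hfr₁, hfr₂, hfr₃⟩ := hrep
  obtain ⟨h1, h3⟩ := branch_pow_congr q hq hr₁ hr₃ hα hβ
  have hπx : ∀ (Ov : ValuationSubring F) (x : ↥(locSub B 𝔪)),
      (∀ c : ↥(locSub B 𝔪), (c : F) ∈ Ov) →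
      (∃ w : ↥(locSub B 𝔪), algebraMap R F π = (x : F) * (w : F)) →
      ∃ o ∈ Ov, algebraMap R F π = algebraMap ↥(locSub B 𝔪) F x * o := by
    rintro Ov x hC ⟨w, hw⟩
    exact ⟨(w : F), hC w, hw⟩
  refine tripleDec_mul_gen (C := ↥(locSub B 𝔪)) (O i₁) (O i₂) (O i₃) x₁ x₂ x₃ hC₁ hC₂ hC₃
    (hπx (O i₁) x₁ hC₁ hπx₁) (hπx (O i₂) x₂ hC₂ hπx₂) (hπx (O i₃) x₃ hC₃ hπx₃)
    m (q ^ 2 - 1) u ε f hf0 huf hfi₁ hfi₂ hfi₃ hfr₁ hfr₂ hfr₃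
    (l₁ := algebraMap R ↥(locSub B 𝔪) (Θα * Θβ ^ q)) (l₂ := 1)
    (l₃ := algebraMap R ↥(locSub B 𝔪) (Θβ * Θα ^ q)) (a := r₂ ^ (q ^ 2 - 1))
    ?_ ?_ ?_ hs0 hsinv₁ hsinv₂ hsinv₃ hs₁ ?_ hs₃
  · rw [map_mul, map_pow, mul_comm]; exact h1
  · rw [mul_one, sub_self]; exact Ideal.zero_mem _
  · rw [map_mul, map_pow, mul_comm]; exact h3
  · rw [map_one]; exact hs₂

end Chart

/-! ### The bridge -/

section Bridge

variable {R K F : Type*} [CommRing R] [Field K] [Field F] [Algebra R K] [Algebra K F]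
  [Algebra R F] [IsScalarTower R K F]

/-- One chart: `BranchRelAt` + the multiplier ⊢ `BranchEqAt` for `u ^ (q ^ 2 - 1) * s ^ m`. -/
theorem branchEqAt_of_rel (q : ℕ) (hq : 1 ≤ q) (π : R) (B : Subalgebra R F) {ι : Type*}
    (O : ι → ValuationSubring F) (j₁ j₂ j₃ : ι) (pi_ne : algebraMap R F π ≠ 0)
    (fracR : IsFractionRing R K)
    (dvrR : ∀ r : R, r ≠ 0 → ∃ (k : ℕ) (v : Rˣ), r = π ^ k * v)
    (frac : ∀ y : F, ∃ a ∈ B, ∃ b ∈ B, b ≠ 0 ∧ y * b = a)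
    (m : ℕ) (hm : m ≠ 0) (u : F) (hu1 : PiOM π O (u - 1))
    (hu2 : ∀ v : AlgebraicCurve.Place K F, (m : ℤ) ∣ v.ord u) {Θα Θβ : R}
    (hrel : BranchRelAt q π B O j₁ j₂ j₃ m u Θα Θβ)
    {s : F} (hs0 : s ≠ 0) (hsinv₁ : s⁻¹ ∈ O j₁) (hsinv₂ : s⁻¹ ∈ O j₂) (hsinv₃ : s⁻¹ ∈ O j₃)
    (hs₁ : ∃ c ∈ O j₁, s - algebraMap R F (Θα * Θβ ^ q) = algebraMap R F π * c)
    (hs₂ : ∃ c ∈ O j₂, s - 1 = algebraMap R F π * c)
    (hs₃ : ∃ c ∈ O j₃, s - algebraMap R F (Θβ * Θα ^ q) = algebraMap R F π * c) :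
    BranchEqAt q π B O j₁ j₂ j₃ m (u ^ (q ^ 2 - 1) * s ^ m) := by
  intro 𝔪 h𝔪 hπ𝔪 x₁ x₂ x₃ hreg
  have h𝔪p : 𝔪.IsPrime := h𝔪.isPrime
  obtain ⟨ε, f, r₁, r₂, r₃, hrep⟩ := exists_tripleRep (K := K) q π B O 𝔪 j₁ j₂ j₃ x₁ x₂ x₃ fracR
    dvrR frac hreg m hm u hu1 hu2
  obtain ⟨hα, hβ⟩ := hrel 𝔪 h𝔪 hπ𝔪 x₁ x₂ x₃ hreg ε f r₁ r₂ r₃ hrep.1 hrep.2.1 hrep.2.2.1
    hrep.2.2.2.1 hrep.2.2.2.2.1 hrep.2.2.2.2.2.1 hrep.2.2.2.2.2.2.1 hrep.2.2.2.2.2.2.2.1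
    hrep.2.2.2.2.2.2.2.2.1 hrep.2.2.2.2.2.2.2.2.2.1 hrep.2.2.2.2.2.2.2.2.2.2.1
    hrep.2.2.2.2.2.2.2.2.2.2.2.1 hrep.2.2.2.2.2.2.2.2.2.2.2.2.1 hrep.2.2.2.2.2.2.2.2.2.2.2.2.2
  exact tripleDec_of_rel q π B O 𝔪 j₁ j₂ j₃ x₁ x₂ x₃ hq pi_ne hreg m u ε f r₁ r₂ r₃ hrep hα hβ
    hs0 hsinv₁ hsinv₂ hsinv₃ hs₁ hs₂ hs₃

/-- **The S5/S6 → `numFinal` bridge.** -/
theorem exists_multiplier_branchEq {ι : Type*} (q : ℕ) (π : R) (t : F) (B0 B1 : Subalgebra R F)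
    (O : ι → ValuationSubring F) (j₁ j₂ j₃ : ι) (I : NumInputP R K F q π t B0 B1 O j₁ j₂ j₃)
    (hcov : ∀ i, i = j₁ ∨ i = j₂ ∨ i = j₃)
    (m : ℕ) (hqm : ¬ q ∣ m) (u : F) (hu1 : PiOM π O (u - 1))
    (hu2 : ∀ v : AlgebraicCurve.Place K F, (m : ℤ) ∣ v.ord u)
    {Θα Θβ : R} (hΘα : ∃ c : R, Θα ^ m - 1 = π * c) (hΘβ : ∃ c : R, Θβ ^ m - 1 = π * c)
    (hrel0 : BranchRelAt q π B0 O j₁ j₂ j₃ m u Θα Θβ)
    (hrel1 : BranchRelAt q π B1 O j₁ j₂ j₃ m u Θα Θβ) :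
    ∃ s : F, s ≠ 0 ∧ PiOM π O (s ^ m - 1) ∧
      BranchEqAt q π B0 O j₁ j₂ j₃ m (u ^ (q ^ 2 - 1) * s ^ m) ∧
      BranchEqAt q π B1 O j₁ j₂ j₃ m (u ^ (q ^ 2 - 1) * s ^ m) := by
  have hq := I.qprime
  have hm0 : m ≠ 0 := fun h => hqm (h ▸ dvd_zero q)
  have pi_ne := I.model.pi_ne
  by_cases hT : HasTriple q π B0 O j₁ j₂ j₃ ∨ HasTriple q π B1 O j₁ j₂ j₃
  · -- the side conditions of the multiplier, from one regular triple point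
    have hside : Incomp3 (O j₁) (O j₂) (O j₃) ∧
        (∀ y : F, (O j₁).valuation y < 1 →
          (O j₁).valuation y ^ q ≤ (O j₁).valuation (algebraMap R F π)) ∧
        (∀ y : F, (O j₂).valuation y < 1 →
          (O j₂).valuation y ^ q ≤ (O j₂).valuation (algebraMap R F π)) ∧
        (∀ y : F, (O j₃).valuation y < 1 →
          (O j₃).valuation y ^ q ≤ (O j₃).valuation (algebraMap R F π)) := by
      rcases hT with ⟨𝔪, h𝔪, x₁, x₂, x₃, hreg⟩ | ⟨𝔪, h𝔪, x₁, x₂, x₃, hreg⟩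
      · have h𝔪p : 𝔪.IsPrime := h𝔪.isPrime
        exact ⟨incomp3_of_tripleReg q π B0 O 𝔪 j₁ j₂ j₃ x₁ x₂ x₃ hreg,
          val_pow_le_of_tripleReg q π B0 O 𝔪 j₁ j₂ j₃ x₁ x₂ x₃ pi_ne I.frac0 hreg⟩
      · have h𝔪p : 𝔪.IsPrime := h𝔪.isPrime
        exact ⟨incomp3_of_tripleReg q π B1 O 𝔪 j₁ j₂ j₃ x₁ x₂ x₃ hreg,
          val_pow_le_of_tripleReg q π B1 O 𝔪 j₁ j₂ j₃ x₁ x₂ x₃ pi_ne I.frac1 hreg⟩
    obtain ⟨hinc, hxq₁, hxq₂, hxq₃⟩ := hside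
    have hRO : ∀ i, ∀ r : R, algebraMap R F r ∈ O i :=
      fun i r => I.model.le_O_0 i _ (B0.algebraMap_mem r)
    have hπlt : ∀ i, (O i).valuation (algebraMap R F π) < 1 := by
      intro i
      have h1 := I.model.pi_nonunit i
      rw [← ValuationSubring.valuation_le_one_iff, map_inv₀, not_le] at h1
      have hpos : 0 < (O i).valuation (algebraMap R F π) :=
        zero_lt_iff.mpr ((Valuation.ne_zero_iff _).mpr pi_ne)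
      exact (one_lt_inv₀ hpos).mp h1
    have hqπ : ∀ i, (O i).valuation (q : F) ≤ (O i).valuation (algebraMap R F π) := by
      intro i
      obtain ⟨r, hr⟩ := I.qpi
      have h1 : (q : F) = algebraMap R F π * algebraMap R F r := by
        rw [← map_mul, ← hr, map_natCast]
      rw [h1, map_mul]
      exact mul_le_of_le_one_right' ((ValuationSubring.valuation_le_one_iff _ _).mpr (hRO i r))
    obtain ⟨s, hs0, ⟨hi₁, hi₂, hi₃⟩, hs₁, hs₂, hs₃, c, hc₁, hc₂, hc₃, hcs⟩ :=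
      exists_multiplier_mod_theta (hRO j₁) (hRO j₂) (hRO j₃) hinc hq hqm pi_ne
        (hπlt j₁) (hπlt j₂) (hπlt j₃) (hqπ j₁) hxq₁ (hqπ j₂) hxq₂ (hqπ j₃) hxq₃ hΘα hΘβ
    refine ⟨s, hs0, ⟨c, fun i => ?_, hcs⟩, ?_, ?_⟩
    · rcases hcov i with rfl | rfl | rfl
      · exact hc₁
      · exact hc₂
      · exact hc₃
    · exact branchEqAt_of_rel (K := K) q hq.one_lt.le π B0 O j₁ j₂ j₃ pi_ne I.fracR I.dvrR I.frac0
        m hm0 u hu1 hu2 hrel0 hs0 hi₁ hi₂ hi₃ hs₁ hs₂ hs₃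
    · exact branchEqAt_of_rel (K := K) q hq.one_lt.le π B1 O j₁ j₂ j₃ pi_ne I.fracR I.dvrR I.frac1
        m hm0 u hu1 hu2 hrel1 hs0 hi₁ hi₂ hi₃ hs₁ hs₂ hs₃
  · -- no regular triple point at all: `s := 1`
    rw [not_or] at hT
    refine ⟨1, one_ne_zero, ⟨0, fun i => (O i).zero_mem, by simp⟩, ?_, ?_⟩
    · intro 𝔪 h𝔪 _ x₁ x₂ x₃ hreg
      exact absurd ⟨𝔪, h𝔪, x₁, x₂, x₃, hreg⟩ hT.1
    · intro 𝔪 h𝔪 _ x₁ x₂ x₃ hreg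
      exact absurd ⟨𝔪, h𝔪, x₁, x₂, x₃, hreg⟩ hT.2

end Bridge

end Fermat.Agent.ES.P36.BranchEqAsm18
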