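/-
Program P (S36), chapter (N3), brick `BranchItems18` (helper18): **`NumCoreP13.BranchItemsP` from
the branch relations, WITHOUT roots of unity and WITHOUT the approximation package** (the per-`K`,
per-`m` package (N3) of `NumCoreP13.numCoreAtP`).

* `ThetaItemsModP c₀ m` (the TARGET of S5, helper15) = `NumCoreP13.ThetaItemsP c₀ m` with
  `Θα ^ m = 1 ∧ Θβ ^ m = 1` weakened to `Θα ^ m ≡ 1`, `Θβ ^ m ≡ 1 mod π` (ruling p10: `μ_m ⊄ K`
  in general, `K` is fixed while `m` varies).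
* `branchItemsP_of_theta_mod : ¬ q ∣ m → ModelItemsP → ThetaItemsModP c₀ m → BranchItemsP c₀ m`
  (= `BranchEqAsm18.exists_multiplier_branchEq` at the model; `BranchAsmP13.ThetaAt` and
  `BranchEqAsm18.BranchRelAt` are the same `Prop`, by `rfl`).  Compared with
  `NumCoreP13.branchItemsP_of_theta`: no `ApproxItemsP` (the side conditions of the multiplier
  are derived from one regular triple point), no exact roots of unity.
-/
import Mathlib
import Fermat.Agent.ES.P36.NumCoreP13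
import Fermat.Agent.ES.P36.BranchEqAsm18

set_option autoImplicit false
set_option synthInstance.maxHeartbeats 400000

open HahnSeries AlgebraicCurve ModularCurve

noncomputable section

namespace Fermat.Agent.ES.P36.BranchItems18

open Fermat.Agent.RED.Interface4 Fermat.Agent.RED.PUR.GaussGen8 Fermat.Agent.RED.BASE.EtaQuot12
  Fermat.Agent.ES.P36.ModelDefsP9 Fermat.Agent.ES.P36.MultiCore13
  Fermat.Agent.ES.P36.NumInputP13 Fermat.Agent.ES.P36.NumCoreP13
  Fermat.Agent.ES.P36.NumFinalP13 Fermat.Agent.ES.P36.BranchEqAsm18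
  Fermat.Agent.ES.P36.BranchAsmP13

variable (n e q M' : ℕ) [NeZero n] [NeZero M'] [NeZero q] (A : ValuationSubring Qbar)
  (K : IntermediateField ℚ Qbar)

set_option maxHeartbeats 4000000 in
/-- **S5 at `K`, exponent `m`, no roots of unity**: two GLOBAL constants `Θα Θβ` of `R = A ∩ K` with
`Θ ^ m ≡ 1 mod π` and the two branch relations at every regular triple point of both charts, for
every representative tuple (`BranchAsmP13.ThetaAt`). -/
def ThetaItemsModP (c₀ m : ℕ) : Prop :=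
  ∀ (ht : tq (↥K) n e ∈ FK M' K) (π : ↥(AK A K)) (hπ : IsUnif (AK A K) π)
    (O2 : ValuationSubring ↥(FK (M' * q * q) K)), IsMid M' q hπ O2 →
    ∀ f : FK (M' * q * q) K, FixHypP q M' K m f →
    ∀ (κ : K) (h : FK (M' * q * q) K), κ ≠ 0 → h ≠ 0 →
      PiOM π (Ofam M' q hπ O2)
        (f ^ c₀ * algebraMap K (FK (M' * q * q) K) κ * h ^ m - 1) →
      ∃ Θα Θβ : ↥(AK A K), (∃ c : ↥(AK A K), Θα ^ m - 1 = π * c) ∧
        (∃ c : ↥(AK A K), Θβ ^ m - 1 = π * c) ∧
        ThetaAt q π (B0 A q ht) (Ofam M' q hπ O2) 0 1 2 m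
          (f ^ c₀ * algebraMap K (FK (M' * q * q) K) κ * h ^ m) Θα Θβ ∧
        ThetaAt q π (B1 A q ht) (Ofam M' q hπ O2) 0 1 2 m
          (f ^ c₀ * algebraMap K (FK (M' * q * q) K) κ * h ^ m) Θα Θβ

variable {n e q M' A K}

set_option maxHeartbeats 4000000 in
/-- The exact-root package implies the congruence package. -/
theorem thetaItemsModP_of_thetaItemsP {c₀ m : ℕ} (hth : ThetaItemsP n e q M' A K c₀ m) :
    ThetaItemsModP n e q M' A K c₀ m := by
  intro ht π hπ O2 hO2 f hf κ h hκ hh hu1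
  obtain ⟨Θα, Θβ, hΘα, hΘβ, h0, h1⟩ := hth ht π hπ O2 hO2 f hf κ h hκ hh hu1
  exact ⟨Θα, Θβ, ⟨0, by rw [hΘα]; simp⟩, ⟨0, by rw [hΘβ]; simp⟩, h0, h1⟩

set_option maxHeartbeats 4000000 in
/-- **(N3) at `K`, exponent `m`**: the model contract and the branch relations (constants only
congruent to roots of unity) give the global multiplier. -/
theorem branchItemsP_of_theta_mod {c₀ m : ℕ} (hm : ¬ q ∣ m)
    (hmodel : ModelItemsP n e q M' A K) (hth : ThetaItemsModP n e q M' A K c₀ m) :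
    BranchItemsP n e q M' A K c₀ m := by
  intro ht π hπ O2 hO2 f hf κ h hκ hh hu1
  obtain ⟨Θα, Θβ, hΘα, hΘβ, hrel0, hrel1⟩ := hth ht π hπ O2 hO2 f hf κ h hκ hh hu1
  have := Fermat.Agent.RED.NumInst4.isScalarTower_OE (AK A K) (FK (M' * q * q) K)
  have I : NumInputP ↥(AK A K) ↥K ↥(FK (M' * q * q) K) q π (t q ht) (B0 A q ht) (B1 A q ht)
      (Ofam M' q hπ O2) 0 1 2 := hmodel ht π hπ O2 hO2
  have hcov : ∀ i : Fin 3, i = 0 ∨ i = 1 ∨ i = 2 := by decide
  have hu2 : ∀ v : Place K (FK (M' * q * q) K),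
      (m : ℤ) ∣ v.ord (f ^ c₀ * algebraMap K (FK (M' * q * q) K) κ * h ^ m) :=
    fun v => dvd_ord_mul_const_mul_pow v m c₀ hf.1 hh hκ (hf.2.1 v)
  exact exists_multiplier_branchEq (K := ↥K) q π (t q ht) (B0 A q ht) (B1 A q ht)
    (Ofam M' q hπ O2) 0 1 2 I hcov m hm _ hu1 hu2 hΘα hΘβ hrel0 hrel1

end Fermat.Agent.ES.P36.BranchItems18
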