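/-
Program P (S36), chapter (SS)/(N3), brick S5k (helper21): **constants in the residue field of a Gauss
valuation**.

`k` is "radically closed" in `k((𝐪))`: a Laurent series `g` with `g ^ m = c ∈ k^×`, `m ≠ 0` in `k`,
is a constant.  Hence, for a Gauss pull-back `V` of a field `F ⊂ K((𝐪))` (`GaussEmb22.IsGaussPullback`;
e.g. `O1`, `O2` of `ModelDefs9`), `R = O` a DVR with residue field `k`:
a `V`-integral `G` with `κ · G ^ m ≡ 1 mod 𝔪_V`, `κ ∈ R`, is congruent to a unit constant:
`∃ γ ∈ R^×, G ≡ γ mod 𝔪_V`  (`(res_w G) ^ m ∈ k^× ⇒ res_w G ∈ k^×`; `S36_SS27.md` §4 (a)).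

* `laurent_eq_C_of_pow_eq_C` : the series lemma;
* `exists_const_of_pow`, `exists_const_of_pow'` : the generic statement (valuation form);
* `val_lt_one_iff_exists_mul`, `exists_const_of_pow_mul` : element form (`G - γ = π c`, `c ∈ V`);
* `exists_const_O1`, `exists_const_O2` : at the `ModelDefs9` data (`w = O1, O2` at level `M' q`).
-/
import Mathlib
import Fermat.Agent.ES.N34.GaussEmb22
import Fermat.Agent.ES.N34.ModelGlue22

set_option autoImplicit false
set_option linter.unusedSectionVars false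
set_option synthInstance.maxHeartbeats 400000

noncomputable section

open HahnSeries

namespace Fermat.Agent.ES.P36.ConstRes21

open Fermat.Agent.RED.PUR.GaussGen8 Fermat.Agent.ES.N34.GaussEmb22

/-! ### The series lemma -/

section Series

variable {k : Type*} [Field k]

/-- A nonzero constant has order `0`. -/
theorem order_C_of_ne_zero {c : k} (hc : c ≠ 0) : (HahnSeries.C c : LaurentSeries k).order = 0 := by
  rw [HahnSeries.C_apply]
  exact HahnSeries.order_single hc

/-- **`k` is radically closed in `k((𝐪))`** (for exponents invertible in `k`). -/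
theorem laurent_eq_C_of_pow_eq_C (m : ℕ) (hm : (m : k) ≠ 0) (g : LaurentSeries k) (c : k)
    (hc : c ≠ 0) (h : g ^ m = HahnSeries.C c) : ∃ g₀ : k, g₀ ≠ 0 ∧ g = HahnSeries.C g₀ := by
  have hm0 : m ≠ 0 := by
    rintro rfl
    exact hm (by simp)
  have hCc : (HahnSeries.C c : LaurentSeries k) ≠ 0 := by
    intro h0
    have := congrArg (fun f : LaurentSeries k => f.coeff 0) h0
    simp only [HahnSeries.C_apply, HahnSeries.coeff_single_same, HahnSeries.coeff_zero] at this
    exact hc this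
  have hg0 : g ≠ 0 := by
    rintro rfl
    rw [zero_pow hm0] at h
    exact hCc h.symm
  -- `order g = 0`
  have hord : g.order = 0 := by
    have h1 : (g ^ m).order = m • g.order := HahnSeries.order_pow g m
    rw [h, order_C_of_ne_zero hc] at h1
    have h2 : (m : ℤ) * g.order = 0 := by
      rw [← nsmul_eq_mul]; exact h1.symm
    rcases mul_eq_zero.mp h2 with h3 | h3
    · exact absurd (by exact_mod_cast h3) hm0
    · exact h3
  set g₀ : k := g.coeff 0 with hg₀
  have hg₀0 : g₀ ≠ 0 := by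
    rw [hg₀, ← hord]
    exact fun h0 => hg0 (HahnSeries.coeff_order_eq_zero.mp h0)
  refine ⟨g₀, hg₀0, ?_⟩
  -- `g = C g₀ + r`, `r` of positive order or zero
  set r : LaurentSeries k := g - HahnSeries.C g₀ with hr
  by_contra hne
  have hr0 : r ≠ 0 := fun h0 => hne (sub_eq_zero.mp h0)
  have hrcoeff : ∀ i : ℤ, i ≤ 0 → r.coeff i = 0 := by
    intro i hi
    rw [hr, HahnSeries.coeff_sub, HahnSeries.C_apply]
    rcases lt_or_eq_of_le hi with hlt | rfl
    · rw [HahnSeries.coeff_single_of_ne (ne_of_lt hlt)]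
      rw [sub_zero]
      exact HahnSeries.coeff_eq_zero_of_lt_order (by rw [hord]; exact hlt)
    · rw [HahnSeries.coeff_single_same, hg₀, sub_self]
  have hrord : 0 < r.order := by
    by_contra hle
    exact hr0 (HahnSeries.coeff_order_eq_zero.mp (hrcoeff _ (not_lt.mp hle)))
  -- the geometric sum
  set S : LaurentSeries k := ∑ i ∈ Finset.range m, g ^ i * (HahnSeries.C g₀) ^ (m - 1 - i) with hS
  have hfact : r * S = HahnSeries.C (c - g₀ ^ m) := by
    have h1 := (Commute.all g (HahnSeries.C g₀ : LaurentSeries k)).mul_geom_sum₂ m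
    rw [hr, h1, h, map_sub, map_pow]
  -- `S` has order `0`: its constant coefficient is `m g₀^(m-1)`
  have hgle : ∀ i : ℕ, 0 ≤ (g ^ i * (HahnSeries.C g₀ : LaurentSeries k) ^ (m - 1 - i)).order ∨
      g ^ i * (HahnSeries.C g₀ : LaurentSeries k) ^ (m - 1 - i) = 0 := by
    intro i
    left
    have hC0 : (HahnSeries.C g₀ : LaurentSeries k) ≠ 0 := by
      intro h0
      have := congrArg (fun f : LaurentSeries k => f.coeff 0) h0
      simp only [HahnSeries.C_apply, HahnSeries.coeff_single_same, HahnSeries.coeff_zero] at this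
      exact hg₀0 this
    rw [HahnSeries.order_mul (pow_ne_zero _ hg0) (pow_ne_zero _ hC0), HahnSeries.order_pow,
      HahnSeries.order_pow, hord, order_C_of_ne_zero hg₀0]
    simp
  have hScoeff : S.coeff 0 = (m : k) * g₀ ^ (m - 1) := by
    -- work with `g = C g₀ + r`
    have hterm : ∀ i ∈ Finset.range m,
        (g ^ i * (HahnSeries.C g₀ : LaurentSeries k) ^ (m - 1 - i)).coeff 0 = g₀ ^ (m - 1) := by
      intro i hi
      have hi' : i ≤ m - 1 := by
        have := Finset.mem_range.mp hi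
        omega
      -- constant coefficient is multiplicative on series of order ≥ 0: use power series
      have hgp : ∃ P : PowerSeries k, g = HahnSeries.ofPowerSeries ℤ k P ∧
          PowerSeries.constantCoeff P = g₀ := by
        refine ⟨PowerSeries.mk fun n => g.coeff n, ?_, ?_⟩
        · ext j
          by_cases hj : 0 ≤ j
          · obtain ⟨n, rfl⟩ := Int.eq_ofNat_of_zero_le hj
            rw [HahnSeries.ofPowerSeries_apply_coeff, PowerSeries.coeff_mk]
          · have hj' : j < 0 := not_le.mp hj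
            rw [HahnSeries.coeff_eq_zero_of_lt_order (by rw [hord]; exact hj')]
            symm
            have : HahnSeries.ofPowerSeries ℤ k (PowerSeries.mk fun n => g.coeff n) =
                ((PowerSeries.mk fun n => g.coeff (n : ℤ) : PowerSeries k) : LaurentSeries k) := rfl
            rw [this, PowerSeries.coeff_coe, if_pos hj']
        · rw [← PowerSeries.coeff_zero_eq_constantCoeff_apply, PowerSeries.coeff_mk]
          rfl
      obtain ⟨P, hP, hP0⟩ := hgp
      have hCp : (HahnSeries.C g₀ : LaurentSeries k) =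
          HahnSeries.ofPowerSeries ℤ k (PowerSeries.C g₀) := by
        rw [HahnSeries.ofPowerSeries_C]
      rw [hP, hCp, ← map_pow, ← map_pow, ← map_mul]
      have : (HahnSeries.ofPowerSeries ℤ k (P ^ i * PowerSeries.C g₀ ^ (m - 1 - i))).coeff 0 =
          PowerSeries.coeff 0 (P ^ i * PowerSeries.C g₀ ^ (m - 1 - i)) := by
        have := HahnSeries.ofPowerSeries_apply_coeff (Γ := ℤ) (R := k)
          (P ^ i * PowerSeries.C g₀ ^ (m - 1 - i)) 0
        simpa using this
      rw [this, PowerSeries.coeff_zero_eq_constantCoeff_apply, map_mul, map_pow, map_pow, hP0,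
        PowerSeries.constantCoeff_C, ← _root_.pow_add]
      congr 1
      omega
    rw [hS, HahnSeries.coeff_sum, Finset.sum_congr rfl hterm, Finset.sum_const, Finset.card_range,
      nsmul_eq_mul]
  have hS0 : S ≠ 0 := by
    intro h0
    rw [h0, HahnSeries.coeff_zero] at hScoeff
    exact mul_ne_zero hm (pow_ne_zero _ hg₀0) hScoeff.symm
  have hSord : S.order = 0 := by
    apply le_antisymm
    · apply HahnSeries.order_le_of_coeff_ne_zero
      rw [hScoeff]
      exact mul_ne_zero hm (pow_ne_zero _ hg₀0)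
    · -- every summand has order ≥ 0
      by_contra hlt
      have hlt' : S.order < 0 := not_le.mp hlt
      have hc0 : S.coeff S.order ≠ 0 := fun h0 => hS0 (HahnSeries.coeff_order_eq_zero.mp h0)
      apply hc0
      rw [hS, HahnSeries.coeff_sum]
      apply Finset.sum_eq_zero
      intro i _
      rcases hgle i with h1 | h1
      · exact HahnSeries.coeff_eq_zero_of_lt_order (lt_of_lt_of_le hlt' h1)
      · rw [h1, HahnSeries.coeff_zero]
  -- compare orders in `r * S = C (c - g₀^m)`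
  have hprod : (r * S).order = r.order := by
    rw [HahnSeries.order_mul hr0 hS0, hSord, add_zero]
  by_cases hd : c - g₀ ^ m = 0
  · rw [hd, map_zero] at hfact
    rcases mul_eq_zero.mp hfact with h1 | h1
    · exact hr0 h1
    · exact hS0 h1
  · rw [hfact, order_C_of_ne_zero hd] at hprod
    rw [← hprod] at hrord
    exact lt_irrefl _ hrord

end Series

/-! ### The generic statement -/

section Generic

variable {K : Type*} [Field K] {O : ValuationSubring K} [IsDiscreteValuationRing ↥O]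
  {F : Type*} [Field F] [Algebra K F] {ι : F →ₐ[K] LaurentSeries K} {V : ValuationSubring F}

theorem redOf_algebraMap (hV : IsGaussPullback O ι V) (κ : ↥O) :
    redOf hV ⟨algebraMap K F (κ : K), Fermat.Agent.ES.N34.GaussEmb22.algebraMap_mem hV κ⟩ = HahnSeries.C (res0 O κ) := by
  rw [redOf_apply]
  have : toGauss hV ⟨_, Fermat.Agent.ES.N34.GaussEmb22.algebraMap_mem hV κ⟩ = constG O κ :=
    Subtype.ext (map_algebraMap (κ : K))
  rw [this, gaussRed_constG]

/-- **S5k, generic form**: `κ · G ^ m ≡ 1 mod 𝔪_V` with `κ ∈ O`, `m` invertible in the residue field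
⇒ `G ≡ γ mod 𝔪_V` for a unit `γ` of `O`. -/
theorem exists_const_of_pow (hV : IsGaussPullback O ι V) (m : ℕ) (hm : (m : Res O) ≠ 0)
    {G : F} (hG : G ∈ V) {κ : ↥O}
    (h : V.valuation (algebraMap K F (κ : K) * G ^ m - 1) < 1) :
    ∃ γ : ↥O, IsUnit γ ∧ V.valuation (G - algebraMap K F (γ : K)) < 1 := by
  have hκV := Fermat.Agent.ES.N34.GaussEmb22.algebraMap_mem hV κ
  have h1 : redOf hV ((⟨_, hκV⟩ : V) * (⟨G, hG⟩ : V) ^ m - 1) = 0 :=
    (redOf_eq_zero_iff hV _).mpr h
  rw [map_sub, map_mul, map_pow, map_one, redOf_algebraMap hV κ, sub_eq_zero] at h1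
  have hκ0 : res0 O κ ≠ 0 := by
    intro h0
    rw [h0, map_zero, zero_mul] at h1
    exact zero_ne_one h1
  have h2 : redOf hV ⟨G, hG⟩ ^ m = HahnSeries.C (res0 O κ)⁻¹ := by
    have hC : (HahnSeries.C (res0 O κ)⁻¹ : LaurentSeries (Res O)) * HahnSeries.C (res0 O κ) = 1 := by
      rw [← map_mul, inv_mul_cancel₀ hκ0, map_one]
    calc redOf hV ⟨G, hG⟩ ^ m
        = (HahnSeries.C (res0 O κ)⁻¹ * HahnSeries.C (res0 O κ)) * redOf hV ⟨G, hG⟩ ^ m := by
          rw [hC, one_mul]
      _ = HahnSeries.C (res0 O κ)⁻¹ * (HahnSeries.C (res0 O κ) * redOf hV ⟨G, hG⟩ ^ m) := by ring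
      _ = HahnSeries.C (res0 O κ)⁻¹ := by rw [h1, mul_one]
  obtain ⟨g₀, hg₀, hg⟩ := laurent_eq_C_of_pow_eq_C m hm _ _ (inv_ne_zero hκ0) h2
  obtain ⟨γ, hγ⟩ := IsLocalRing.residue_surjective (R := ↥O) g₀
  refine ⟨γ, ?_, ?_⟩
  · by_contra hnu
    have hmem : γ ∈ IsLocalRing.maximalIdeal ↥O := (IsLocalRing.mem_maximalIdeal γ).mpr hnu
    have : IsLocalRing.residue ↥O γ = 0 := (IsLocalRing.residue_eq_zero_iff γ).mpr hmem
    exact hg₀ (hγ ▸ this)
  · have hγV := Fermat.Agent.ES.N34.GaussEmb22.algebraMap_mem hV γ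
    have h3 : redOf hV ((⟨G, hG⟩ : V) - (⟨_, hγV⟩ : V)) = 0 := by
      rw [map_sub, redOf_algebraMap hV γ, hg]
      have : res0 O γ = g₀ := hγ
      rw [this, sub_self]
    exact (redOf_eq_zero_iff hV _).mp h3

/-- Variant: `G ^ m ≡ κ mod 𝔪_V` with `κ` a unit of `O`. -/
theorem exists_const_of_pow' (hV : IsGaussPullback O ι V) (m : ℕ) (hm : (m : Res O) ≠ 0)
    {G : F} (hG : G ∈ V) {κ : ↥O} (hκ : IsUnit κ)
    (h : V.valuation (G ^ m - algebraMap K F (κ : K)) < 1) :
    ∃ γ : ↥O, IsUnit γ ∧ V.valuation (G - algebraMap K F (γ : K)) < 1 := by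
  obtain ⟨κ', hκ'⟩ := isUnit_iff_exists_inv.mp hκ
  refine exists_const_of_pow hV m hm hG (κ := κ') ?_
  have hκV' := Fermat.Agent.ES.N34.GaussEmb22.algebraMap_mem hV κ'
  have hcoe : (κ : K) * (κ' : K) = 1 := by
    have := congrArg (fun x : ↥O => (x : K)) hκ'
    simpa using this
  have e : algebraMap K F (κ' : K) * G ^ m - 1 =
      algebraMap K F (κ' : K) * (G ^ m - algebraMap K F (κ : K)) := by
    rw [mul_sub, ← map_mul, mul_comm (κ' : K), hcoe, map_one]
  rw [e, map_mul]
  exact lt_of_le_of_lt (mul_le_of_le_one_left' ((V.valuation_le_one_iff _).mpr hκV')) h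

/-- `𝔪_V = π V`: the valuation form and the element form of a congruence agree. -/
theorem val_lt_one_iff_exists_mul {π : ↥O} (hπ : Irreducible π) (hV : IsGaussPullback O ι V)
    (x : F) : V.valuation x < 1 ↔ ∃ c ∈ V, x = algebraMap K F (π : K) * c := by
  constructor
  · intro hx
    rw [Fermat.Agent.RED.PUR.UniqueExt20.val_lt_one_iff] at hx
    rcases hx with h0 | hinv
    · exact ⟨0, V.zero_mem, by rw [h0, mul_zero]⟩
    · have hxV : x ∈ V := by
        rcases V.mem_or_inv_mem x with h | h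
        · exact h
        · exact absurd h hinv
      exact unif hV hπ x hxV hinv
  · rintro ⟨c, hc, rfl⟩
    rw [map_mul]
    exact lt_of_le_of_lt (mul_le_of_le_one_right' ((V.valuation_le_one_iff _).mpr hc))
      (val_pi_lt_one hV hπ)

/-- **S5k, generic, element form** (`MulCong29.One1`-style): `κ G ^ m - 1 ∈ π V ⇒ G - γ ∈ π V`. -/
theorem exists_const_of_pow_mul {π : ↥O} (hπ : Irreducible π) (hV : IsGaussPullback O ι V) (m : ℕ)
    (hm : (m : Res O) ≠ 0) {G : F} (hG : G ∈ V) {κ : ↥O}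
    (h : ∃ c ∈ V, algebraMap K F (κ : K) * G ^ m - 1 = algebraMap K F (π : K) * c) :
    ∃ γ : ↥O, IsUnit γ ∧ ∃ c ∈ V, G - algebraMap K F (γ : K) = algebraMap K F (π : K) * c := by
  obtain ⟨γ, hγ, h'⟩ := exists_const_of_pow hV m hm hG
    ((val_lt_one_iff_exists_mul hπ hV _).mpr h)
  exact ⟨γ, hγ, (val_lt_one_iff_exists_mul hπ hV _).mp h'⟩

end Generic

/-! ### At the `ModelDefs9` data -/

section Model

open Fermat.Agent.RED.Interface4 Fermat.Agent.ES.N34.ModelDefs9 Fermat.Agent.ES.N34.ModelGlue22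

variable {A : ValuationSubring Qbar} {K : IntermediateField ℚ Qbar} (M' q : ℕ) [NeZero M'] [NeZero q]
  [IsDiscreteValuationRing ↥(AK A K)] [CharP (Res (AK A K)) q] {π : ↥(AK A K)}

theorem natCast_res_ne_zero {m : ℕ} (_hq : q.Prime) (hm : ¬ q ∣ m) : (m : Res (AK A K)) ≠ 0 := by
  intro h0
  exact hm ((CharP.cast_eq_zero_iff (Res (AK A K)) q m).mp h0)

set_option maxHeartbeats 1000000 in
/-- **S5k at `w = O1`** (level `M' q`). -/
theorem exists_const_O1 (hq : q.Prime) (hπ : IsUnif (AK A K) π)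
    (hE : FK (M' * q) K ≤ fracField (AK A K)) {m : ℕ} (hm : ¬ q ∣ m)
    {G : ↥(FK (M' * q) K)} (hG : G ∈ O1 M' q hπ hE) {κ : ↥(AK A K)}
    (h : (O1 M' q hπ hE).valuation
      (algebraMap ↥(AK A K) ↥(FK (M' * q) K) κ * G ^ m - 1) < 1) :
    ∃ γ : ↥(AK A K), IsUnit γ ∧
      (O1 M' q hπ hE).valuation (G - algebraMap ↥(AK A K) ↥(FK (M' * q) K) γ) < 1 := by
  have h2 : (O1 M' q hπ hE).valuation
      (algebraMap ↥K ↥(FK (M' * q) K) ((κ : ↥(AK A K)) : ↥K) * G ^ m - 1) < 1 := h
  obtain ⟨γ, hγ, h'⟩ := exists_const_of_pow (isGaussPullback_O1 M' q hπ hE) m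
    (natCast_res_ne_zero q hq hm) hG h2
  exact ⟨γ, hγ, h'⟩

set_option maxHeartbeats 1000000 in
/-- **S5k at `w = O2`** (level `M' q`). -/
theorem exists_const_O2 (hq : q.Prime) (hπ : IsUnif (AK A K) π)
    (hE : FK (M' * q) K ≤ fracField (AK A K)) {m : ℕ} (hm : ¬ q ∣ m)
    {G : ↥(FK (M' * q) K)} (hG : G ∈ O2 M' q hπ hE) {κ : ↥(AK A K)}
    (h : (O2 M' q hπ hE).valuation
      (algebraMap ↥(AK A K) ↥(FK (M' * q) K) κ * G ^ m - 1) < 1) :
    ∃ γ : ↥(AK A K), IsUnit γ ∧
      (O2 M' q hπ hE).valuation (G - algebraMap ↥(AK A K) ↥(FK (M' * q) K) γ) < 1 := by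
  have h2 : (O2 M' q hπ hE).valuation
      (algebraMap ↥K ↥(FK (M' * q) K) ((κ : ↥(AK A K)) : ↥K) * G ^ m - 1) < 1 := h
  obtain ⟨γ, hγ, h'⟩ := exists_const_of_pow (isGaussPullback_O2 M' q hπ hE) m
    (natCast_res_ne_zero q hq hm) hG h2
  exact ⟨γ, hγ, h'⟩

end Model

end Fermat.Agent.ES.P36.ConstRes21
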