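/-
Program P (S36), chapter MODEL-P, brick M0 (helper9): **MODEL-DEFS at level `M' q²`** — definitions
and `rfl`-level lemmas only.  Twin of `ES/N34/ModelDefs9` (level `M' q`), whose objects are REUSED for
the intermediate level.

Data `(q, M', A, K)`: `q` prime, `q ∤ M'`; levels `M'` (good), `M' * q` (`F' = K·F_{M' q}`) and
`M' * q * q` (`F'' = K·F_{M' q²}`); `A` a valuation subring of `ℚ̄` over `q`, `K ⊂ ℚ̄` a number field,
`R := ↥(AK A K)`.

* `alpha2, beta2 : F' →ₐ[K] F''` — the two degeneracy maps of level `q` over `M' q`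
  (Prelude's `heckeAlphaBar` = inclusion, `heckeBetaBar` = `𝐪 ↦ 𝐪^q`); `alpha2_beta : α₂ ∘ β = β₂ ∘ α`;
* `t, t1, t2 : F''` — the three pull-backs of the Hauptmodul `tM ht = tq K n e` of the good level:
  `t = α₂(α tM)` (`𝐪`-expansion `tq`), `t1 = α₂(β tM) = β₂(α tM)` (`tq(𝐪^q)`), `t2 = β₂(β tM)`
  (`tq(𝐪^{q²})`);
* `B0 A q ht, B1 A q ht : Subalgebra R F''` — the two charts `chart R t`, `chart R t⁻¹`;
* `O1 M' q hπ` — the Gauss valuation ring of `F'' ⊂ K((𝐪))` (expansion at `∞`; `v₁` of S36_NOTE1 §G1);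
* `wNN K M' q := frickeFK (M' q²) K`, `iota3 K M' q := IsoM25.iotaAlg (M' q²) K` (expansion at `0`);
  `O3 M' q hπ := IsoM25.O2N (M' q²) K A hπ = (O1).comap W_{M' q²}` (`v₃`);
* `O1q M' q hπ`, `O2q M' q hπ` — the two Gauss valuation rings of `F'` (`ModelDefs9.O1/O2` with the
  now-proved `hE := FK_le_fracField`);
* the MIDDLE valuation `v₂` is a PREDICATE: `IsMid hπ O` :⟺ `O` extends `O1q` along `α₂` and `O ≠ O1`
  (existence = M4, uniqueness/position = M5/M6); `IsMidPos hπ O` :⟺ `O` lies over `O1q` along `α₂` and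
  over `O2q` along `β₂` (the position of `v₂` in table G2);
* `Ofam hπ O2 = ![O1, O2, O3]` — the family for `MultiCore13.MultiChartModel`;
* the positions of `v₁`: `(O1).comap α₂ = O1q = (O1).comap β₂`.
-/
import Mathlib
import Fermat.Prelude.Def_ModularCurve_HeckeOperator
import Fermat.Agent.RED.Interface4
import Fermat.Agent.RED.PUR.GaussGen8
import Fermat.Agent.RED.PUR.GaussBridge10
import Fermat.Agent.RED.PUR.ChartGeneric22
import Fermat.Agent.RED.BASE.EtaQuot12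
import Fermat.Agent.ES.N34.FrickeFK8
import Fermat.Agent.ES.N34.ModelDefs9
import Fermat.Agent.ES.N34.IsoM25
import Fermat.Agent.ES.N35.PiMaps26

set_option autoImplicit false
set_option linter.unusedSectionVars false
set_option synthInstance.maxHeartbeats 400000

noncomputable section

open HahnSeries ModularCurve

namespace Fermat.Agent.ES.P36.ModelDefsP9

open Fermat.Agent.RED.Interface4 Fermat.Agent.RED.PUR.GaussGen8 Fermat.Agent.RED.PUR.GaussBridge10
  Fermat.Agent.RED.PUR.ChartGeneric22 Fermat.Agent.RED.BASE.EtaQuot12 Fermat.Agent.ES.N34.FrickeFK8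
  Fermat.Agent.ES.N34

variable (A : ValuationSubring Qbar) (K : IntermediateField ℚ Qbar) (M' q : ℕ) [NeZero M'] [NeZero q]

/-! ### The two degeneracy maps `F' → F''` -/

/-- first degeneracy map (inclusion) `F_{M' q} → F_{M' q²}`. -/
def alpha2 : FK (M' * q) K →ₐ[K] FK (M' * q * q) K := heckeAlphaBar (↥K) (M' * q) q

/-- second degeneracy map (`𝐪 ↦ 𝐪^q`) `F_{M' q} → F_{M' q²}`. -/
def beta2 : FK (M' * q) K →ₐ[K] FK (M' * q * q) K := heckeBetaBar (↥K) (M' * q) q

@[simp] theorem coe_alpha2 (x : FK (M' * q) K) :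
    ((alpha2 K M' q x : FK (M' * q * q) K) : LaurentSeries K) = (x : LaurentSeries K) :=
  coe_heckeAlphaBar (M' * q) q x

@[simp] theorem coe_beta2 (x : FK (M' * q) K) :
    ((beta2 K M' q x : FK (M' * q * q) K) : LaurentSeries K) =
      qExpand (↥K) q (x : LaurentSeries K) :=
  rfl

/-- `α₂ ∘ β = β₂ ∘ α` (both are `𝐪 ↦ 𝐪^q` from the good level). -/
theorem alpha2_beta (x : FK M' K) :
    alpha2 K M' q (ModelDefs9.beta K M' q x) = beta2 K M' q (ModelDefs9.alpha K M' q x) := by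
  apply Subtype.ext
  rw [coe_alpha2, ModelDefs9.coe_beta, coe_beta2, ModelDefs9.coe_alpha]

/-- the expansion of `α₂(α x)`. -/
theorem coe_alpha2_alpha (x : FK M' K) :
    ((alpha2 K M' q (ModelDefs9.alpha K M' q x) : FK (M' * q * q) K) : LaurentSeries K) =
      (x : LaurentSeries K) := by
  rw [coe_alpha2, ModelDefs9.coe_alpha]

/-- the expansion of `α₂(β x) = β₂(α x)`. -/
theorem coe_alpha2_beta (x : FK M' K) :
    ((alpha2 K M' q (ModelDefs9.beta K M' q x) : FK (M' * q * q) K) : LaurentSeries K) =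
      qExpand (↥K) q (x : LaurentSeries K) := by
  rw [coe_alpha2, ModelDefs9.coe_beta]

/-- the expansion of `β₂(β x)`. -/
theorem coe_beta2_beta (x : FK M' K) :
    ((beta2 K M' q (ModelDefs9.beta K M' q x) : FK (M' * q * q) K) : LaurentSeries K) =
      qExpand (↥K) (q * q) (x : LaurentSeries K) := by
  rw [coe_beta2, ModelDefs9.coe_beta, qExpand_qExpand]

/-! ### The three pull-backs of the Hauptmodul -/

section Hauptmodul

variable {K M'} {n e : ℕ} [NeZero n]

/-- `t = α₂(α tM)`: the Hauptmodul at level `M' q²` (expansion `tq K n e`). -/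
def t (ht : tq (↥K) n e ∈ FK M' K) : FK (M' * q * q) K := alpha2 K M' q (ModelDefs9.tN q ht)

/-- `t₁ = α₂(β tM) = β₂(α tM)` (expansion `tq(𝐪^q)`). -/
def t1 (ht : tq (↥K) n e ∈ FK M' K) : FK (M' * q * q) K := alpha2 K M' q (ModelDefs9.yN q ht)

/-- `t₂ = β₂(β tM)` (expansion `tq(𝐪^{q²})`). -/
def t2 (ht : tq (↥K) n e ∈ FK M' K) : FK (M' * q * q) K := beta2 K M' q (ModelDefs9.yN q ht)

@[simp] theorem coe_t (ht : tq (↥K) n e ∈ FK M' K) :
    ((t q ht : FK (M' * q * q) K) : LaurentSeries K) = tq (↥K) n e := by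
  rw [t, coe_alpha2, ModelDefs9.coe_tN]

@[simp] theorem coe_t1 (ht : tq (↥K) n e ∈ FK M' K) :
    ((t1 q ht : FK (M' * q * q) K) : LaurentSeries K) = qExpand (↥K) q (tq (↥K) n e) := by
  rw [t1, coe_alpha2, ModelDefs9.coe_yN]

@[simp] theorem coe_t2 (ht : tq (↥K) n e ∈ FK M' K) :
    ((t2 q ht : FK (M' * q * q) K) : LaurentSeries K) =
      qExpand (↥K) (q * q) (tq (↥K) n e) := by
  rw [t2, coe_beta2, ModelDefs9.coe_yN, qExpand_qExpand]

theorem t1_eq_beta2 (ht : tq (↥K) n e ∈ FK M' K) :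
    t1 q ht = beta2 K M' q (ModelDefs9.tN q ht) :=
  alpha2_beta K M' q (ModelDefs9.tM ht)

/-- Program H's `∀ t, ↑t = tq K n e → …` style: such a `t` is `t q ht`. -/
theorem eq_t_of_coe (ht : tq (↥K) n e ∈ FK M' K) {s : FK (M' * q * q) K}
    (h : (s : LaurentSeries K) = tq (↥K) n e) : s = t q ht :=
  Subtype.ext (h.trans (coe_t q ht).symm)

/-! ### The two charts -/

/-- chart `0`: the integral closure of `R[t]` in `F''`. -/
def B0 (ht : tq (↥K) n e ∈ FK M' K) : Subalgebra ↥(AK A K) ↥(FK (M' * q * q) K) :=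
  chart ↥(AK A K) (t q ht)

/-- chart `1`: the integral closure of `R[t⁻¹]` in `F''`. -/
def B1 (ht : tq (↥K) n e ∈ FK M' K) : Subalgebra ↥(AK A K) ↥(FK (M' * q * q) K) :=
  chart ↥(AK A K) (t q ht)⁻¹

end Hauptmodul

/-! ### The Gauss valuation rings -/

section Gauss

variable {A K}

/-- `O1 = v₁`: the Gauss valuation ring of the expansion at `∞`, level `M' q²`. -/
def O1 {π : ↥(AK A K)} (hπ : IsUnif (AK A K) π) : ValuationSubring ↥(FK (M' * q * q) K) :=
  gaussVS hπ (FK (M' * q * q) K) (FK_le_fracField A K (M' * q * q))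

theorem mem_O1_iff {π : ↥(AK A K)} (hπ : IsUnif (AK A K) π) (x : FK (M' * q * q) K) :
    x ∈ O1 M' q hπ ↔ (x : LaurentSeries K) ∈ gaussRing (AK A K) := Iff.rfl

variable (K) in
/-- the `K`-rational Fricke involution `W_{M' q²}` of `F''`. -/
def wNN : FK (M' * q * q) K →ₐ[K] FK (M' * q * q) K := frickeFK (M' * q * q) K

variable (K) in
/-- the `K`-rational expansion at the cusp `0` of `F''`, `= coe ∘ W_{M' q²}`. -/
def iota3 : FK (M' * q * q) K →ₐ[K] LaurentSeries (↥K) := IsoM25.iotaAlg (M' * q * q) K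

variable (K) in
theorem iota3_apply (x : FK (M' * q * q) K) :
    iota3 K M' q x = ((wNN K M' q x : FK (M' * q * q) K) : LaurentSeries K) := rfl

variable (K) in
theorem wNN_wNN (x : FK (M' * q * q) K) : wNN K M' q (wNN K M' q x) = x :=
  frickeFK_frickeFK (M' * q * q) K x

/-- `O3 = v₃`: the Gauss valuation ring of the expansion at the cusp `0`, `= W_{M' q²}⁻¹ (O1)`;
literally `IsoM25.O2N (M' * q * q) K A hπ`. -/
def O3 {π : ↥(AK A K)} (hπ : IsUnif (AK A K) π) : ValuationSubring ↥(FK (M' * q * q) K) :=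
  IsoM25.O2N (M' * q * q) K A hπ

theorem O3_eq_comap {π : ↥(AK A K)} (hπ : IsUnif (AK A K) π) :
    O3 M' q hπ = (O1 M' q hπ).comap (wNN K M' q).toRingHom := rfl

theorem mem_O3_iff {π : ↥(AK A K)} (hπ : IsUnif (AK A K) π) (x : FK (M' * q * q) K) :
    x ∈ O3 M' q hπ ↔ iota3 K M' q x ∈ gaussRing (AK A K) := Iff.rfl

theorem mem_O3_iff_wNN_mem_O1 {π : ↥(AK A K)} (hπ : IsUnif (AK A K) π)
    (x : FK (M' * q * q) K) : x ∈ O3 M' q hπ ↔ wNN K M' q x ∈ O1 M' q hπ := Iff.rfl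

theorem wNN_mem_O3_iff {π : ↥(AK A K)} (hπ : IsUnif (AK A K) π) (x : FK (M' * q * q) K) :
    wNN K M' q x ∈ O3 M' q hπ ↔ x ∈ O1 M' q hπ := by
  rw [mem_O3_iff_wNN_mem_O1, wNN_wNN]

/-- `O1q`: the Gauss valuation ring (expansion at `∞`) of the intermediate level `M' q`. -/
def O1q {π : ↥(AK A K)} (hπ : IsUnif (AK A K) π) : ValuationSubring ↥(FK (M' * q) K) :=
  ModelDefs9.O1 M' q hπ (FK_le_fracField A K (M' * q))

/-- `O2q`: the Gauss valuation ring (expansion at `0`) of the intermediate level `M' q`. -/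
def O2q {π : ↥(AK A K)} (hπ : IsUnif (AK A K) π) : ValuationSubring ↥(FK (M' * q) K) :=
  ModelDefs9.O2 M' q hπ (FK_le_fracField A K (M' * q))

theorem O1q_eq {π : ↥(AK A K)} (hπ : IsUnif (AK A K) π)
    (hE : FK (M' * q) K ≤ fracField (AK A K)) : O1q M' q hπ = ModelDefs9.O1 M' q hπ hE := rfl

theorem O2q_eq {π : ↥(AK A K)} (hπ : IsUnif (AK A K) π)
    (hE : FK (M' * q) K ≤ fracField (AK A K)) : O2q M' q hπ = ModelDefs9.O2 M' q hπ hE := rfl

theorem O2q_eq_O2N {π : ↥(AK A K)} (hπ : IsUnif (AK A K) π) :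
    O2q M' q hπ = IsoM25.O2N (M' * q) K A hπ := rfl

theorem mem_O1q_iff {π : ↥(AK A K)} (hπ : IsUnif (AK A K) π) (x : FK (M' * q) K) :
    x ∈ O1q M' q hπ ↔ (x : LaurentSeries K) ∈ gaussRing (AK A K) := Iff.rfl

theorem mem_O2q_iff {π : ↥(AK A K)} (hπ : IsUnif (AK A K) π) (x : FK (M' * q) K) :
    x ∈ O2q M' q hπ ↔ ModelDefs9.iota2 K M' q x ∈ gaussRing (AK A K) := Iff.rfl

/-! ### The middle valuation, as a predicate -/

/-- `O` is a MIDDLE valuation ring `v₂` of `F''`: it extends `O1q` along `α₂` and is not `O1`. -/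
def IsMid {π : ↥(AK A K)} (hπ : IsUnif (AK A K) π) (O : ValuationSubring ↥(FK (M' * q * q) K)) :
    Prop :=
  O.comap (alpha2 K M' q).toRingHom = O1q M' q hπ ∧ O ≠ O1 M' q hπ

/-- The position of `v₂` in table G2: over `O1q` along `α₂` and over `O2q` along `β₂`. -/
def IsMidPos {π : ↥(AK A K)} (hπ : IsUnif (AK A K) π)
    (O : ValuationSubring ↥(FK (M' * q * q) K)) : Prop :=
  O.comap (alpha2 K M' q).toRingHom = O1q M' q hπ ∧
    O.comap (beta2 K M' q).toRingHom = O2q M' q hπ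

/-- The three vertical valuation rings as a family (for `MultiCore13.MultiChartModel`). -/
def Ofam {π : ↥(AK A K)} (hπ : IsUnif (AK A K) π) (O2 : ValuationSubring ↥(FK (M' * q * q) K)) :
    Fin 3 → ValuationSubring ↥(FK (M' * q * q) K) :=
  ![O1 M' q hπ, O2, O3 M' q hπ]

@[simp] theorem Ofam_zero {π : ↥(AK A K)} (hπ : IsUnif (AK A K) π)
    (O2 : ValuationSubring ↥(FK (M' * q * q) K)) : Ofam M' q hπ O2 0 = O1 M' q hπ := rfl

@[simp] theorem Ofam_one {π : ↥(AK A K)} (hπ : IsUnif (AK A K) π)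
    (O2 : ValuationSubring ↥(FK (M' * q * q) K)) : Ofam M' q hπ O2 1 = O2 := rfl

@[simp] theorem Ofam_two {π : ↥(AK A K)} (hπ : IsUnif (AK A K) π)
    (O2 : ValuationSubring ↥(FK (M' * q * q) K)) : Ofam M' q hπ O2 2 = O3 M' q hπ := rfl

/-! ### The positions of `v₁` -/

/-- `v₁` lies over `O1q` along `α₂` (`(e, f) = (1, 1)`). -/
theorem O1_comap_alpha2 {π : ↥(AK A K)} (hπ : IsUnif (AK A K) π) :
    (O1 M' q hπ).comap (alpha2 K M' q).toRingHom = O1q M' q hπ := by
  ext x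
  rw [ValuationSubring.mem_comap, mem_O1q_iff]
  show ((alpha2 K M' q x : FK (M' * q * q) K) : LaurentSeries K) ∈ gaussRing (AK A K) ↔ _
  rw [coe_alpha2]

/-- `v₁` lies over `O1q` along `β₂` (`(e, f) = (1, q)`, purely inseparable). -/
theorem O1_comap_beta2 {π : ↥(AK A K)} (hπ : IsUnif (AK A K) π) :
    (O1 M' q hπ).comap (beta2 K M' q).toRingHom = O1q M' q hπ := by
  ext x
  rw [ValuationSubring.mem_comap, mem_O1q_iff]
  show ((beta2 K M' q x : FK (M' * q * q) K) : LaurentSeries K) ∈ gaussRing (AK A K) ↔ _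
  rw [coe_beta2]
  exact Fermat.Agent.ES.N35.PiMaps26.qExpand_mem_gaussRing_iff hπ q
    (FK_le_fracField A K (M' * q) x.2)

/-- A middle valuation ring in the sense of `IsMidPos` is a middle valuation ring. -/
theorem IsMidPos.isMid_of_ne {π : ↥(AK A K)} {hπ : IsUnif (AK A K) π}
    {O : ValuationSubring ↥(FK (M' * q * q) K)} (h : IsMidPos M' q hπ O)
    (h12 : O1q M' q hπ ≠ O2q M' q hπ) : IsMid M' q hπ O := by
  refine ⟨h.1, ?_⟩
  rintro rfl
  exact h12 ((O1_comap_beta2 M' q hπ).symm.trans h.2)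

end Gauss

end Fermat.Agent.ES.P36.ModelDefsP9
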