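/-
Program P (S36), brick S5b, MODEL FORM (helper15): **the branch relations (N3) at the MODEL-P data**
(`ModelDefsP9`), per number field `K` — the literal supplier of helper18's `BranchItems18.ThetaItemsModP`
(target of record, rulings p24/p26; mod-`π` chain, no roots of unity, no field enlargement: ruling p10).

Per-`K` inputs (`Prop`-packages, to be produced by their owners AT ONE `K`):

* `TableItemsP q M' A K` (chapter (G), helper11 `GenInst11.tableG2_model`): for every middle valuation ring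
  `O2` there is `T` with `GenTable11.TableG2 (A_K) π q α₂ β₂ O1q O2q O1 O2 O3 T`;
* `NodeItemsP n e q M' A K` (R3/R6, helper10/helper29): `BranchChart15.NodesBelow` on the two charts `B0`,
  `B1`, i.e. at every regular triple point (`TripleReg13.TripleReg`) the two level-`q` nodes below it:
  `BranchLoc15.NodeBelow` along `α₂` (rings `O1q, O2q`) and along `β₂` (rings `O2q, O1q`);
* the constants lemma = `ConstRes21.exists_const_O1/_O2` (on main; needs `[FiniteDimensional ℚ K]`,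
  `A` over `q`).

Output:

* `exists_theta_branchRelAt` : for `u` with (U1) `PiOM π (Ofam hπ O2) (u - 1)` and the two norm relations
  `N_{α₂} u = c • g ^ m`, `N_{β₂} u = c' • g' ^ m` (`c, c' ∈ K^×`): `∃ Θα Θβ : A_K`, `Θ ^ m - 1 = π * c`, and
  `BranchAsmP13.ThetaAt` on both charts;
* `normAlong_u` : the norm relation of `u = f ^ c₀ * κ * h ^ m` from that of `f`;
* `relItems` : the literal body of `ThetaItemsModP … c₀ m` (the hypotheses of `NumCoreP13.FixHypP`
  unfolded to its two norm clauses).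
-/
import Mathlib
import Fermat.Agent.ES.HECKE.BaseChange19
import Fermat.Agent.ES.P36.BranchChart15
import Fermat.Agent.ES.P36.ConstRes21
import Fermat.Agent.ES.P36.ModelDefsP9
import Fermat.Agent.RED.DESC.NumberFieldDVR27

set_option autoImplicit false
set_option linter.unusedSectionVars false
set_option linter.style.haveILetI false
set_option synthInstance.maxHeartbeats 400000
set_option maxHeartbeats 4000000

open HahnSeries AlgebraicCurve ModularCurve IsLocalRing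

noncomputable section

namespace Fermat.Agent.ES.P36.BranchModel15

open Fermat.Agent.RED.Interface4 Fermat.Agent.RED.PUR.GaussGen8 Fermat.Agent.RED.BASE.EtaQuot12
  Fermat.Agent.ES.P36.ModelDefsP9 Fermat.Agent.ES.P36.MultiCore13
  Fermat.Agent.ES.P36.BranchAsmP13 Fermat.Agent.ES.P36.GenTable11
  Fermat.Agent.ES.P36.BranchTable15 Fermat.Agent.ES.P36.BranchChart15
open Fermat.Agent.ES.HECKE.BaseChange19 (normAlong)

/-! ### The norm relation of `u = f ^ c₀ * κ * h ^ m` -/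

section Norm

variable {K F' F'' : Type*} [Field K] [Field F'] [Field F''] [Algebra K F'] [Algebra K F'']

/-- `N_φ (f ^ c₀ * κ * h ^ m) = (c ^ c₀ * κ ^ d) • (g ^ c₀ * N_φ h) ^ m` from `N_φ f = c • g ^ m`. -/
theorem normAlong_u (φ : F' →ₐ[K] F'') {m : ℕ} (c₀ : ℕ) {f h : F''} {c κ : K} {g : F'}
    (hN : normAlong φ f = c • g ^ m) :
    normAlong φ (f ^ c₀ * algebraMap K F'' κ * h ^ m) =
      (c ^ c₀ * κ ^ finrankAlong K φ) • (g ^ c₀ * normAlong φ h) ^ m := by
  unfold normAlong at hN ⊢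
  unfold finrankAlong
  letI := algebraAlong φ
  haveI : IsScalarTower K F' F'' := IsScalarTower.of_algebraMap_eq (fun r => (φ.commutes r).symm)
  have e : algebraMap K F'' κ = algebraMap F' F'' (algebraMap K F' κ) :=
    IsScalarTower.algebraMap_apply K F' F'' κ
  rw [map_mul, map_mul, map_pow, map_pow, hN, e, Algebra.norm_algebraMap, Algebra.smul_def,
    Algebra.smul_def, map_mul, map_pow, map_pow]
  ring

/-- … in existential form, with all factors non-zero. -/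
theorem exists_normAlong_u (φ : F' →ₐ[K] F'') (hfin : FiniteAlong K φ) {m : ℕ} (c₀ : ℕ)
    {f h : F''} {κ : K} (hκ : κ ≠ 0) (hh : h ≠ 0)
    (hN : ∃ (c : K) (g : F'), c ≠ 0 ∧ g ≠ 0 ∧ normAlong φ f = c • g ^ m) :
    ∃ (c : K) (g : F'), c ≠ 0 ∧ g ≠ 0 ∧
      normAlong φ (f ^ c₀ * algebraMap K F'' κ * h ^ m) = c • g ^ m := by
  obtain ⟨c, g, hc, hg, hN⟩ := hN
  refine ⟨c ^ c₀ * κ ^ finrankAlong K φ, g ^ c₀ * normAlong φ h,
    mul_ne_zero (pow_ne_zero _ hc) (pow_ne_zero _ hκ), mul_ne_zero (pow_ne_zero _ hg) ?_,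
    normAlong_u φ c₀ hN⟩
  unfold normAlong
  letI := algebraAlong φ
  haveI : FiniteDimensional F' F'' := hfin
  exact (Algebra.norm_ne_zero_iff (R := F')).mpr hh

end Norm

/-! ### The per-`K` packages -/

variable (n e q M' : ℕ) [NeZero n] [NeZero M'] [NeZero q] (A : ValuationSubring Qbar)
  (K : IntermediateField ℚ Qbar)

/-- **Table (G2) at `K`** (chapter (G): `GenInst11.tableG2_model`). -/
def TableItemsP : Prop :=
  ∀ (π : ↥(AK A K)) (hπ : IsUnif (AK A K) π) (O2 : ValuationSubring ↥(FK (M' * q * q) K)),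
    IsMid M' q hπ O2 → ∃ T : ↥(FK (M' * q * q) K),
      TableG2 (AK A K) (π : ↥K) q (alpha2 K M' q) (beta2 K M' q) (O1q M' q hπ) (O2q M' q hπ)
        (O1 M' q hπ) O2 (O3 M' q hπ) T

/-- **The level-`q` nodes below the regular triple points of the two charts, at `K`** (R3/R6). -/
def NodeItemsP : Prop :=
  ∀ (ht : tq (↥K) n e ∈ FK M' K) (π : ↥(AK A K)) (hπ : IsUnif (AK A K) π)
    (O2 : ValuationSubring ↥(FK (M' * q * q) K)), IsMid M' q hπ O2 →
    NodesBelow (AK A K) π q (alpha2 K M' q) (beta2 K M' q) (O1q M' q hπ) (O2q M' q hπ)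
        (Ofam M' q hπ O2) 0 1 2 (B0 A q ht) ∧
      NodesBelow (AK A K) π q (alpha2 K M' q) (beta2 K M' q) (O1q M' q hπ) (O2q M' q hπ)
        (Ofam M' q hπ O2) 0 1 2 (B1 A q ht)

variable {n e q M' A K}

/-- the constants lemma at `O1q`. -/
theorem constLemma_O1q [FiniteDimensional ℚ K] (hq : q.Prime) (hA : A.LiesOverPrime q)
    {π : ↥(AK A K)} (hπ : IsUnif (AK A K) π) {m : ℕ} (hm : ¬ q ∣ m) :
    ConstLemma (AK A K) (O1q M' q hπ) m := by
  haveI : IsDiscreteValuationRing ↥(AK A K) :=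
    Fermat.Agent.RED.DESC.NumberFieldDVR27.isDiscreteValuationRing_AK A K hq.ne_zero hA
  haveI : CharP (Res (AK A K)) q :=
    Fermat.Agent.RED.DESC.NumberFieldDVR27.charP_residueField_AK A K hq hA
  intro G κ hG h
  exact ConstRes21.exists_const_O1 M' q hq hπ
    (Fermat.Agent.RED.PUR.GaussBridge10.FK_le_fracField A K (M' * q)) hm hG h

/-- the constants lemma at `O2q`. -/
theorem constLemma_O2q [FiniteDimensional ℚ K] (hq : q.Prime) (hA : A.LiesOverPrime q)
    {π : ↥(AK A K)} (hπ : IsUnif (AK A K) π) {m : ℕ} (hm : ¬ q ∣ m) :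
    ConstLemma (AK A K) (O2q M' q hπ) m := by
  haveI : IsDiscreteValuationRing ↥(AK A K) :=
    Fermat.Agent.RED.DESC.NumberFieldDVR27.isDiscreteValuationRing_AK A K hq.ne_zero hA
  haveI : CharP (Res (AK A K)) q :=
    Fermat.Agent.RED.DESC.NumberFieldDVR27.charP_residueField_AK A K hq hA
  intro G κ hG h
  exact ConstRes21.exists_const_O2 M' q hq hπ
    (Fermat.Agent.RED.PUR.GaussBridge10.FK_le_fracField A K (M' * q)) hm hG h

/-- **S5b at `K`**: the two global constants and the branch relations on both charts. -/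
theorem exists_theta_branchRelAt [FiniteDimensional ℚ K] (hq : q.Prime) (hA : A.LiesOverPrime q)
    (htab : TableItemsP q M' A K) (hnode : NodeItemsP n e q M' A K)
    (ht : tq (↥K) n e ∈ FK M' K) (π : ↥(AK A K)) (hπ : IsUnif (AK A K) π)
    (O2 : ValuationSubring ↥(FK (M' * q * q) K)) (hO2 : IsMid M' q hπ O2)
    {m : ℕ} (hm : ¬ q ∣ m) (u : FK (M' * q * q) K)
    (hu1 : PiOM π (Ofam M' q hπ O2) (u - 1))
    (hNα : ∃ (c : K) (g : FK (M' * q) K), c ≠ 0 ∧ g ≠ 0 ∧
      normAlong (alpha2 K M' q) u = c • g ^ m)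
    (hNβ : ∃ (c : K) (g : FK (M' * q) K), c ≠ 0 ∧ g ≠ 0 ∧
      normAlong (beta2 K M' q) u = c • g ^ m) :
    ∃ Θα Θβ : ↥(AK A K), (∃ c : ↥(AK A K), Θα ^ m - 1 = π * c) ∧
      (∃ c : ↥(AK A K), Θβ ^ m - 1 = π * c) ∧
      ThetaAt q π (B0 A q ht) (Ofam M' q hπ O2) 0 1 2 m u Θα Θβ ∧
      ThetaAt q π (B1 A q ht) (Ofam M' q hπ O2) 0 1 2 m u Θα Θβ := by
  have hm0 : m ≠ 0 := fun h0 => hm (h0 ▸ dvd_zero q)
  obtain ⟨T, H⟩ := htab π hπ O2 hO2
  obtain ⟨hB0, hB1⟩ := hnode ht π hπ O2 hO2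
  obtain ⟨Θα, Θβ, hΘα, hΘβ, hrel⟩ := BranchChart15.exists_theta_branchRelAt
    (O := Ofam M' q hπ O2) (j₁ := 0) (j₂ := 1) (j₃ := 2) H hm0 (constLemma_O1q hq hA hπ hm)
    (constLemma_O2q hq hA hπ hm) hu1 hNα hNβ
  exact ⟨Θα, Θβ, hΘα, hΘβ, hrel _ hB0, hrel _ hB1⟩

/-- **The literal body of `BranchItems18.ThetaItemsModP … c₀ m`** (with `NumCoreP13.FixHypP` unfolded to
the two norm relations of `f`). -/
theorem relItems [FiniteDimensional ℚ K] (hq : q.Prime) (hA : A.LiesOverPrime q)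
    (htab : TableItemsP q M' A K) (hnode : NodeItemsP n e q M' A K) (c₀ : ℕ)
    (ht : tq (↥K) n e ∈ FK M' K) (π : ↥(AK A K)) (hπ : IsUnif (AK A K) π)
    (O2 : ValuationSubring ↥(FK (M' * q * q) K)) (hO2 : IsMid M' q hπ O2)
    {m : ℕ} (hm : ¬ q ∣ m) (f : FK (M' * q * q) K)
    (hfα : ∃ (c : K) (g : FK (M' * q) K), c ≠ 0 ∧ g ≠ 0 ∧
      normAlong (alpha2 K M' q) f = c • g ^ m)
    (hfβ : ∃ (c : K) (g : FK (M' * q) K), c ≠ 0 ∧ g ≠ 0 ∧
      normAlong (beta2 K M' q) f = c • g ^ m)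
    (κ : K) (h : FK (M' * q * q) K) (hκ : κ ≠ 0) (hh : h ≠ 0)
    (hu1 : PiOM π (Ofam M' q hπ O2)
      (f ^ c₀ * algebraMap K (FK (M' * q * q) K) κ * h ^ m - 1)) :
    ∃ Θα Θβ : ↥(AK A K), (∃ c : ↥(AK A K), Θα ^ m - 1 = π * c) ∧
      (∃ c : ↥(AK A K), Θβ ^ m - 1 = π * c) ∧
      ThetaAt q π (B0 A q ht) (Ofam M' q hπ O2) 0 1 2 m
        (f ^ c₀ * algebraMap K (FK (M' * q * q) K) κ * h ^ m) Θα Θβ ∧
      ThetaAt q π (B1 A q ht) (Ofam M' q hπ O2) 0 1 2 m
        (f ^ c₀ * algebraMap K (FK (M' * q * q) K) κ * h ^ m) Θα Θβ := by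
  obtain ⟨T, H⟩ := htab π hπ O2 hO2
  exact exists_theta_branchRelAt hq hA htab hnode ht π hπ O2 hO2 hm _ hu1
    (exists_normAlong_u (alpha2 K M' q) H.finα c₀ hκ hh hfα)
    (exists_normAlong_u (beta2 K M' q) H.finβ c₀ hκ hh hfβ)

end Fermat.Agent.ES.P36.BranchModel15
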