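/-
Program P (S36), chapter (N3), brick `BranchItemsOf18` (helper18): **the per-`K` package (N3)
`NumCoreP13.BranchItemsP … c₀ m` from its two suppliers** — helper15's `BranchModel15.relItems`
(S5: the branch relations from `TableItemsP` (G) and `NodeItemsP` (R3/R6)) fed into
`BranchItems18.branchItemsP_of_theta_mod` (S6: the global multiplier).

* `thetaItemsModP_of : q.Prime → A.LiesOverPrime q → TableItemsP → NodeItemsP → ¬ q ∣ m →
    ThetaItemsModP c₀ m`;
* `branchItemsP_of : … → ModelItemsP → BranchItemsP c₀ m`.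
-/
import Mathlib
import Fermat.Agent.ES.P36.BranchItems18
import Fermat.Agent.ES.P36.BranchModel15

set_option autoImplicit false
set_option synthInstance.maxHeartbeats 400000
set_option maxHeartbeats 4000000

open HahnSeries AlgebraicCurve ModularCurve

noncomputable section

namespace Fermat.Agent.ES.P36.BranchItemsOf18

open Fermat.Agent.RED.Interface4 Fermat.Agent.RED.PUR.GaussGen8 Fermat.Agent.RED.BASE.EtaQuot12
  Fermat.Agent.ES.P36.ModelDefsP9 Fermat.Agent.ES.P36.MultiCore13
  Fermat.Agent.ES.P36.NumCoreP13 Fermat.Agent.ES.P36.BranchItems18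
  Fermat.Agent.ES.P36.BranchModel15

variable {n e q M' : ℕ} [NeZero n] [NeZero M'] [NeZero q] {A : ValuationSubring Qbar}
  {K : IntermediateField ℚ Qbar}

/-- **S5 at `K`, exponent `m`**: the package `ThetaItemsModP` from (G)'s table and the nodes below
the triple points. -/
theorem thetaItemsModP_of [FiniteDimensional ℚ K] (hq : q.Prime) (hA : A.LiesOverPrime q)
    (htab : TableItemsP q M' A K) (hnode : NodeItemsP n e q M' A K) (c₀ : ℕ) {m : ℕ}
    (hm : ¬ q ∣ m) : ThetaItemsModP n e q M' A K c₀ m := by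
  intro ht π hπ O2 hO2 f hf κ h hκ hh hu1
  exact relItems hq hA htab hnode c₀ ht π hπ O2 hO2 hm f hf.2.2.1 hf.2.2.2 κ h hκ hh hu1

/-- **(N3) at `K`, exponent `m`**, from the three per-`K` packages `ModelItemsP` (M7),
`TableItemsP` (G4/M6), `NodeItemsP` (R3/R6). -/
theorem branchItemsP_of [FiniteDimensional ℚ K] (hq : q.Prime) (hA : A.LiesOverPrime q)
    (hmodel : ModelItemsP n e q M' A K) (htab : TableItemsP q M' A K)
    (hnode : NodeItemsP n e q M' A K) (c₀ : ℕ) {m : ℕ} (hm : ¬ q ∣ m) :
    BranchItemsP n e q M' A K c₀ m :=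
  branchItemsP_of_theta_mod hm hmodel (thetaItemsModP_of hq hA htab hnode c₀ hm)

end Fermat.Agent.ES.P36.BranchItemsOf18
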