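/-
Program P (S36), chapter (R8) "points of type I", GENERIC layer (helper16).

Multi-valuation twin of `NodalCL13.smoothAt_of_branch_principal`: a chart `B` whose special fibre
has the finitely many components `O : ι → ValuationSubring F`, a prime `𝔪 ∋ π` of `B` through which
ONLY the component `i` passes (`hoff`), and the "branch is principal" datum `hgen`
(`𝔪 (B/𝔭_i)_𝔪 = (s)`, `𝔭_i = B ∩ π O i`) — exactly the conclusion of
`CompGauss16.branchPrincipal_gauss` — give Program H's smoothness field `SmoothAt π B 𝔪`, hence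
(`LocTools13.locStartM_of_smooth`, helper13) the local start `LocStartM π B O m u 𝔪`.

* `not_offBranch_all`   : a prime `𝔪 ∋ π` of a saturated chart lies on at least one component.
* `hon_of_not_offBranch`: `¬ OffBranch` is literally the hypothesis `hon` of helper13's tools.
* `smoothAt_of_branchM` : (M2) for a finite family.
* `locStartM_of_branchM`: the assembled local start at a point of type I.
* `locStartM_of_branchData`: the same, with the branch datum in the literal shape of the conclusion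
  of `CompGauss16.branchPrincipal_gauss` (`s = ψ s₀` for any function `ψ`).
-/
import Mathlib
import Fermat.Agent.ES.N34.NodalCL13
import Fermat.Agent.ES.P36.LocTools13

set_option autoImplicit false

namespace Fermat.Agent.ES.P36.RegI16

open Fermat.Agent.ES.N34.NodalCore13 Fermat.Agent.ES.N34.NodalCL13
  Fermat.Agent.ES.N34.NodalSmooth13 Fermat.Agent.ES.P36.MultiCore13
  Fermat.Agent.ES.P36.LocTools13

section Branches

variable {R F : Type*} [CommRing R] [Field F] [Algebra R F]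

/-- A prime `𝔪 ∋ π` of a saturated chart cannot be off ALL the components. -/
theorem not_offBranch_all {ι : Type*} [Finite ι] (π : R) (B : Subalgebra R F)
    (O : ι → ValuationSubring F)
    (leO : ∀ j, ∀ x ∈ B, x ∈ O j)
    (sat : ∀ b ∈ B, ∀ c : F, (∀ j, c ∈ O j) → b = algebraMap R F π * c → c ∈ B)
    (pi_ne : algebraMap R F π ≠ 0)
    (𝔪 : Ideal B) [h𝔪 : 𝔪.IsPrime] (hπ𝔪 : algebraMap R B π ∈ 𝔪)
    (hoff : ∀ j, OffBranch π B (O j) 𝔪) : False := by
  classical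
  have := Fintype.ofFinite ι
  choose e he c hc hec using hoff
  set P : B := ∏ j, e j with hP
  have hPnot : P ∉ 𝔪 := by
    intro h
    obtain ⟨j, -, hj⟩ := (h𝔪.prod_mem_iff).mp h
    exact he j hj
  have hcB : (P : F) / algebraMap R F π ∈ B := by
    refine sat (P : F) P.2 _ (fun j => ?_) (by field_simp)
    have hPj : P = e j * ∏ l ∈ Finset.univ.erase j, e l := by
      rw [hP, Finset.mul_prod_erase _ _ (Finset.mem_univ j)]
    have : (P : F) / algebraMap R F π = c j * ((∏ l ∈ Finset.univ.erase j, e l : B) : F) := by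
      rw [hPj]; push_cast; rw [hec j]; field_simp
    rw [this]
    exact (O j).mul_mem _ _ (hc j) (leO j _ (Subtype.coe_prop _))
  have hmem : P ∈ 𝔪 := by
    have : P = algebraMap R B π * ⟨_, hcB⟩ := by
      apply Subtype.ext
      show (P : F) = algebraMap R F π * ((P : F) / algebraMap R F π)
      field_simp
    rw [this]
    exact 𝔪.mul_mem_right _ hπ𝔪
  exact hPnot hmem

/-- `¬ OffBranch` is the hypothesis `hon` ("`𝔭_i ⊆ 𝔪`") of `LocTools13`. -/
theorem hon_of_not_offBranch (π : R) (B : Subalgebra R F) (Oi : ValuationSubring F)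
    (𝔪 : Ideal B) (h : ¬ OffBranch π B Oi 𝔪) :
    ∀ b : B, (∃ c ∈ Oi, (b : F) = algebraMap R F π * c) → b ∈ 𝔪 := by
  intro b hb
  by_contra hb𝔪
  exact h ⟨b, hb𝔪, hb⟩

/-- A point through which only the component `i` passes does lie on the component `i`. -/
theorem hon_of_hoff {ι : Type*} [Finite ι] (π : R) (B : Subalgebra R F)
    (O : ι → ValuationSubring F) (i : ι)
    (leO : ∀ j, ∀ x ∈ B, x ∈ O j)
    (sat : ∀ b ∈ B, ∀ c : F, (∀ j, c ∈ O j) → b = algebraMap R F π * c → c ∈ B)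
    (pi_ne : algebraMap R F π ≠ 0)
    (𝔪 : Ideal B) [h𝔪 : 𝔪.IsPrime] (hπ𝔪 : algebraMap R B π ∈ 𝔪)
    (hoff : ∀ j, j ≠ i → OffBranch π B (O j) 𝔪) :
    ∀ b : B, (∃ c ∈ O i, (b : F) = algebraMap R F π * c) → b ∈ 𝔪 := by
  refine hon_of_not_offBranch π B (O i) 𝔪 fun hi => ?_
  refine not_offBranch_all π B O leO sat pi_ne 𝔪 hπ𝔪 fun j => ?_
  by_cases hj : j = i
  · subst hj; exact hi
  · exact hoff j hj

end Branches

section Smooth

variable {R K F : Type*} [CommRing R] [Field K] [Field F] [Algebra R K] [Algebra K F]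
  [Algebra R F] [IsScalarTower R K F]

/-- **(M2) for a finite family: one component ⇒ smooth.**  If only the component `O i` passes
through `𝔪` and the maximal ideal of the branch `(B / 𝔭_i)_𝔪` is principal, generated by (the image
of) `s ∈ 𝔪`, then Program H's smoothness field holds at `𝔪`. -/
theorem smoothAt_of_branchM {ι : Type*} [Finite ι] (π : R) (B : Subalgebra R F)
    (O : ι → ValuationSubring F) (i : ι)
    (leO : ∀ j, ∀ x ∈ B, x ∈ O j)
    (arch : ∀ j, ∀ x : F, ∃ k : ℕ, algebraMap R F π ^ k * x ∈ O j)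
    (sat : ∀ b ∈ B, ∀ c : F, (∀ j, c ∈ O j) → b = algebraMap R F π * c → c ∈ B)
    (𝔪 : Ideal B) [h𝔪 : 𝔪.IsPrime]
    (hoff : ∀ j, j ≠ i → OffBranch π B (O j) 𝔪)
    (s : B) (hs : s ∈ 𝔪)
    (hgen : ∀ y ∈ 𝔪, ∃ d : B, d ∉ 𝔪 ∧ ∃ b : B, ∃ c ∈ O i,
      (d : F) * (y : F) - (b : F) * (s : F) = algebraMap R F π * c) :
    SmoothAt π B 𝔪 := by
  refine ⟨s, hs, fun y hy => ?_⟩
  obtain ⟨d, hd, b, c, hc, hdy⟩ := hgen y hy
  -- local saturation: `c ∈ B_𝔪`
  obtain ⟨a, e, he, hae⟩ := locSat_of_offBranch π B O i leO arch sat 𝔪 hoff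
    ((d : F) * (y : F) - (b : F) * (s : F))
    (le_locSub B 𝔪 (B.sub_mem (B.mul_mem d.2 y.2) (B.mul_mem b.2 s.2))) c hc hdy
  refine ⟨e * d, fun hh => (h𝔪.mem_or_mem hh).elim he hd, ?_⟩
  rw [Ideal.mem_span_pair]
  refine ⟨a, e * b, ?_⟩
  apply Subtype.ext
  show (a : F) * algebraMap R F π + ((e * b : B) : F) * (s : F) = ((e * d : B) : F) * (y : F)
  push_cast
  rw [← hae]
  linear_combination (-(e : F)) * hdy

/-- **START at a point of type I**: only the component `i`, of multiplicity one, passes through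
`𝔪`, and the branch is principal there. -/
theorem locStartM_of_branchM {ι : Type*} [Finite ι] (π : R) (B : Subalgebra R F)
    (O : ι → ValuationSubring F) (i : ι)
    (noethB : IsNoetherianRing B) (fracR : IsFractionRing R K)
    (dvrR : ∀ r : R, r ≠ 0 → ∃ (k : ℕ) (v : Rˣ), r = π ^ k * v)
    (intcl : ∀ x : F, IsIntegral B x → x ∈ B)
    (frac : ∀ x : F, ∃ a ∈ B, ∃ b ∈ B, b ≠ 0 ∧ x * b = a)
    (leO : ∀ j, ∀ x ∈ B, x ∈ O j)
    (pi_ne : algebraMap R F π ≠ 0) (pi_nonunit : (algebraMap R F π)⁻¹ ∉ O i)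
    (unif : ∀ x ∈ O i, x⁻¹ ∉ O i → ∃ c ∈ O i, x = algebraMap R F π * c)
    (arch : ∀ j, ∀ x : F, ∃ k : ℕ, algebraMap R F π ^ k * x ∈ O j)
    (sat : ∀ b ∈ B, ∀ c : F, (∀ j, c ∈ O j) → b = algebraMap R F π * c → c ∈ B)
    (𝔪 : Ideal B) (h𝔪 : 𝔪.IsMaximal) (hπ𝔪 : algebraMap R B π ∈ 𝔪)
    (hoff : ∀ j, j ≠ i → OffBranch π B (O j) 𝔪)
    (s : B) (hs : s ∈ 𝔪)
    (hgen : ∀ y ∈ 𝔪, ∃ d : B, d ∉ 𝔪 ∧ ∃ b : B, ∃ c ∈ O i,
      (d : F) * (y : F) - (b : F) * (s : F) = algebraMap R F π * c)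
    (m : ℕ) (hm : 0 < m) (u : F) (hu1 : ∃ c ∈ O i, u - 1 = algebraMap R F π * c)
    (hu2 : ∀ v : AlgebraicCurve.Place K F, (m : ℤ) ∣ v.ord u) :
    LocStartM π B O m u 𝔪 := by
  have h𝔪p : 𝔪.IsPrime := h𝔪.isPrime
  exact locStartM_of_smooth (K := K) π B O i noethB fracR dvrR intcl frac leO pi_ne pi_nonunit
    unif arch sat 𝔪 h𝔪 (hon_of_hoff π B O i leO sat pi_ne 𝔪 hπ𝔪 hoff) hoff
    (smoothAt_of_branchM π B O i leO arch sat 𝔪 hoff s hs hgen) m hm u hu1 hu2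

/-- The same with the branch datum in the literal shape of the conclusion of
`CompGauss16.branchPrincipal_gauss` (there `ψ = chartHom (restrictO φ) (chart O t_M)`). -/
theorem locStartM_of_branchData {ι : Type*} [Finite ι] (π : R) (B : Subalgebra R F)
    (O : ι → ValuationSubring F) (i : ι)
    (noethB : IsNoetherianRing B) (fracR : IsFractionRing R K)
    (dvrR : ∀ r : R, r ≠ 0 → ∃ (k : ℕ) (v : Rˣ), r = π ^ k * v)
    (intcl : ∀ x : F, IsIntegral B x → x ∈ B)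
    (frac : ∀ x : F, ∃ a ∈ B, ∃ b ∈ B, b ≠ 0 ∧ x * b = a)
    (leO : ∀ j, ∀ x ∈ B, x ∈ O j)
    (pi_ne : algebraMap R F π ≠ 0) (pi_nonunit : (algebraMap R F π)⁻¹ ∉ O i)
    (unif : ∀ x ∈ O i, x⁻¹ ∉ O i → ∃ c ∈ O i, x = algebraMap R F π * c)
    (arch : ∀ j, ∀ x : F, ∃ k : ℕ, algebraMap R F π ^ k * x ∈ O j)
    (sat : ∀ b ∈ B, ∀ c : F, (∀ j, c ∈ O j) → b = algebraMap R F π * c → c ∈ B)
    (𝔪 : Ideal B) (h𝔪 : 𝔪.IsMaximal) (hπ𝔪 : algebraMap R B π ∈ 𝔪)
    (hoff : ∀ j, j ≠ i → OffBranch π B (O j) 𝔪)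
    {S : Type*} (ψ : S → F)
    (hdata : ∃ s₀ : S, ∃ hs : ψ s₀ ∈ B, (⟨ψ s₀, hs⟩ : B) ∈ 𝔪 ∧
      ∀ y ∈ 𝔪, ∃ d : B, d ∉ 𝔪 ∧ ∃ b : B, ∃ c ∈ O i,
        (d : F) * (y : F) - (b : F) * ψ s₀ = algebraMap R F π * c)
    (m : ℕ) (hm : 0 < m) (u : F) (hu1 : ∃ c ∈ O i, u - 1 = algebraMap R F π * c)
    (hu2 : ∀ v : AlgebraicCurve.Place K F, (m : ℤ) ∣ v.ord u) :
    LocStartM π B O m u 𝔪 := by
  obtain ⟨s₀, hs, hs𝔪, hgen⟩ := hdata
  exact locStartM_of_branchM (K := K) π B O i noethB fracR dvrR intcl frac leO pi_ne pi_nonunit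
    unif arch sat 𝔪 h𝔪 hπ𝔪 hoff ⟨ψ s₀, hs⟩ hs𝔪 hgen m hm u hu1 hu2

end Smooth

end Fermat.Agent.ES.P36.RegI16
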