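/-
Program P (S36), chapter (R8) "points of type I", GAUSS layer (helper16).

`CompGauss16.branchPrincipal_gauss` (the branch `B / 𝔭_j` of the chart `B = chart O t ⊆ F` along a
Gauss pull-back `O_j` is, locally at every closed point, the pull-back by `φ` of the smooth level-`M'`
chart, hence has principal maximal ideals) fed into `RegI16.locStartM_of_branchData`: at a closed
point `𝔪 ∋ π` of `chart O t` through which ONLY the component `Ofam i` passes, the local start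
`LocStartM π (chart O t) Ofam m u 𝔪` exists.

Everything is generic in `(F, φ, t, ι, Ofam)`:
* C₁-side at level `M' q²`: `F = FK (M'*q*q) K`, `φ = α₂ ∘ α`, `t = φ t_M`, `Ofam i = O1″`;
* C₃-side at level `M' q²`: `φ = β₂ ∘ β`, `Ofam i = O3″`;
* chart `B1`: the same statement for `(t_M⁻¹, t⁻¹)`.
-/
import Mathlib
import Fermat.Agent.ES.N34.CompGauss16
import Fermat.Agent.ES.P36.RegI16

set_option autoImplicit false
set_option linter.unusedSectionVars false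

noncomputable section

open HahnSeries Polynomial IntermediateField

namespace Fermat.Agent.ES.P36.RegIGauss16

open Fermat.Agent.RED.PUR.GaussGen8 Fermat.Agent.RED.PUR.KtGauss8 Fermat.Agent.RED.PUR.G1Package8
  Fermat.Agent.RED.PUR.ChartGeneric22 Fermat.Agent.RED.ModelAsm4
  Fermat.Agent.ES.RED.FibreSurj17 Fermat.Agent.ES.N34.CompHyp16 Fermat.Agent.ES.N34.CompGauss16
  Fermat.Agent.ES.N34.GaussEmb22 Fermat.Agent.ES.N34.NodalCore13
  Fermat.Agent.ES.P36.MultiCore13 Fermat.Agent.ES.P36.RegI16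

variable {K : Type*} [Field K] [CharZero K] {O : ValuationSubring K} [IsDiscreteValuationRing ↥O]
  {π : ↥O} {EM : IntermediateField K (LaurentSeries K)}
  {F : Type*} [Field F] [Algebra K F] [Algebra ↥O F] [IsScalarTower ↥O K F]

/-- **START at a point of type I, Gauss form.**  `Ofam i` is a Gauss pull-back of `F` with
`O_j = φ(O_M) + π O_j` (`hcomb`: `e = f = 1` over the good level) resp. the hypotheses of
`CompGauss16.branchPrincipal_gauss`; only the component `i` passes through `𝔪`. -/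
theorem locStartM_gauss {ι' : Type*} [Finite ι'] (Ofam : ι' → ValuationSubring F) (i : ι')
    (hπ : Irreducible π) (hEM : EM ≤ fracField O)
    (tM : ↥EM) (htM : (tM : LaurentSeries K) ∈ gaussRing O)
    (htrM : Transcendental (Res O) (gaussRed O ⟨(tM : LaurentSeries K), htM⟩))
    {n' : ℕ} (hn' : relfinrank (Kt O ⟨(tM : LaurentSeries K), htM⟩) EM ≠ 0)
    (hdegM : DegLe O EM ⟨(tM : LaurentSeries K), htM⟩ n')
    (hirrM : Irr O EM ⟨(tM : LaurentSeries K), htM⟩ n')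
    (hsm : SmoothChart O EM π tM)
    (φ : ↥EM →ₐ[K] F) (t : F) {ι : F →ₐ[K] LaurentSeries K}
    (hOj : IsGaussPullback O ι (Ofam i))
    (hφO : ∀ z : ↥EM, φ z ∈ Ofam i ↔ z ∈ OvE O hπ EM hEM)
    (hy : φ tM ∈ chart ↥O t)
    (htw : ∃ w : ↥(chart ↥O tM), PiMul π (Ofam i) (t - φ (w : ↥EM)))
    (hcomb : ∀ x ∈ Ofam i, ∃ z ∈ OvE O hπ EM hEM, ∃ c ∈ Ofam i,
      x - φ z = algebraMap ↥O F π * c)
    (noethB : IsNoetherianRing ↥(chart ↥O t))
    (frac : ∀ x : F, ∃ a ∈ chart ↥O t, ∃ b ∈ chart ↥O t, b ≠ 0 ∧ x * b = a)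
    (leO : ∀ j, ∀ x ∈ chart ↥O t, x ∈ Ofam j)
    (pi_ne : algebraMap ↥O F π ≠ 0)
    (arch : ∀ j, ∀ x : F, ∃ k : ℕ, algebraMap ↥O F π ^ k * x ∈ Ofam j)
    (sat : ∀ b ∈ chart ↥O t, ∀ c : F, (∀ j, c ∈ Ofam j) → b = algebraMap ↥O F π * c →
      c ∈ chart ↥O t)
    (𝔪 : Ideal ↥(chart ↥O t)) (h𝔪 : 𝔪.IsMaximal) (hπ𝔪 : algebraMap ↥O ↥(chart ↥O t) π ∈ 𝔪)
    (hoff : ∀ j, j ≠ i → OffBranch π (chart ↥O t) (Ofam j) 𝔪)
    (m : ℕ) (hm : 0 < m) (u : F) (hu1 : ∃ c ∈ Ofam i, u - 1 = algebraMap ↥O F π * c)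
    (hu2 : ∀ v : AlgebraicCurve.Place K F, (m : ℤ) ∣ v.ord u) :
    LocStartM π (chart ↥O t) Ofam m u 𝔪 := by
  have hpi : (algebraMap ↥O F π)⁻¹ ∉ Ofam i := by
    rw [algebraMap_O_eq]; exact pi_inv_not_mem hOj hπ
  have hunif : ∀ x ∈ Ofam i, x⁻¹ ∉ Ofam i → ∃ c ∈ Ofam i, x = algebraMap ↥O F π * c := by
    intro x hx hxi
    rw [algebraMap_O_eq]; exact unif hOj hπ x hx hxi
  have hdata := branchPrincipal_gauss hπ hEM tM htM htrM hn' hdegM hirrM hsm φ t hOj (leO i) hφO hy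
    htw hcomb 𝔪 h𝔪 hπ𝔪
  exact locStartM_of_branchData (K := K) π (chart ↥O t) Ofam i noethB inferInstance
    (dvr_factor hπ) (chart_intcl t) frac leO pi_ne hpi hunif arch sat 𝔪 h𝔪 hπ𝔪 hoff
    (fun s₀ : ↥(chart ↥O tM) => chartHom (restrictO (O := O) φ) (chart ↥O tM) s₀) hdata
    m hm u hu1 hu2

end Fermat.Agent.ES.P36.RegIGauss16
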