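/-
Program P (S36), chapter (R8) "points of type I", TARGET-SHAPE layer (helper16).

The conclusion of `RegI16` / `RegIGauss16` restated in the target shape of record of the
R-chapter, `NumAbsP13.OneBranch q π B O 𝔪` (helper13), at a point of type I:
`x := π`, `e := 1`, `w = w' = 1`.

* `oneBranch_of_branchM`   : generic (twin of `RegI16.locStartM_of_branchM`);
* `oneBranch_of_branchData`: the branch datum in the literal shape of the conclusion of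
  `CompGauss16.branchPrincipal_gauss`;
* `oneBranch_gauss`        : Gauss form (twin of `RegIGauss16.locStartM_gauss`, same hypotheses
  minus `(m, hm, u, hu1, hu2)`, plus `1 ≤ q`).
-/
import Mathlib
import Fermat.Agent.ES.P36.RegIGauss16
import Fermat.Agent.ES.P36.NumAbsP13

set_option autoImplicit false
set_option linter.unusedSectionVars false

noncomputable section

open HahnSeries Polynomial IntermediateField

namespace Fermat.Agent.ES.P36.RegIOne16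

open Fermat.Agent.ES.N34.NodalCore13 Fermat.Agent.ES.N34.NodalCL13
  Fermat.Agent.ES.N34.NodalSmooth13 Fermat.Agent.ES.P36.MultiCore13
  Fermat.Agent.ES.P36.LocTools13 Fermat.Agent.ES.P36.RegI16 Fermat.Agent.ES.P36.NumAbsP13

section Generic

variable {R F : Type*} [CommRing R] [Field F] [Algebra R F]

/-- **Type I ⇒ `OneBranch`** (`x = π`, `e = 1`). -/
theorem oneBranch_of_branchM {ι : Type*} [Finite ι] (q : ℕ) (hq : 1 ≤ q) (π : R)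
    (B : Subalgebra R F) (O : ι → ValuationSubring F) (i : ι)
    (leO : ∀ j, ∀ x ∈ B, x ∈ O j)
    (pi_ne : algebraMap R F π ≠ 0) (pi_nonunit : (algebraMap R F π)⁻¹ ∉ O i)
    (unif : ∀ x ∈ O i, x⁻¹ ∉ O i → ∃ c ∈ O i, x = algebraMap R F π * c)
    (arch : ∀ j, ∀ x : F, ∃ k : ℕ, algebraMap R F π ^ k * x ∈ O j)
    (sat : ∀ b ∈ B, ∀ c : F, (∀ j, c ∈ O j) → b = algebraMap R F π * c → c ∈ B)
    (𝔪 : Ideal B) [h𝔪 : 𝔪.IsPrime] (hπ𝔪 : algebraMap R B π ∈ 𝔪)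
    (hoff : ∀ j, j ≠ i → OffBranch π B (O j) 𝔪)
    (s : B) (hs : s ∈ 𝔪)
    (hgen : ∀ y ∈ 𝔪, ∃ d : B, d ∉ 𝔪 ∧ ∃ b : B, ∃ c ∈ O i,
      (d : F) * (y : F) - (b : F) * (s : F) = algebraMap R F π * c) :
    OneBranch q π B O 𝔪 := by
  obtain ⟨s', hs', hsm⟩ := smoothAt_of_branchM π B O i leO arch sat 𝔪 hoff s hs hgen
  refine ⟨i, hoff, algebraMap R B π, s', hπ𝔪, hs', hsm, unif, pi_nonunit,
    hon_of_hoff π B O i leO sat pi_ne 𝔪 hπ𝔪 hoff, 1, one_pos, hq, 1, 1,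
    (locSub B 𝔪).one_mem, (locSub B 𝔪).one_mem, one_mul 1, ?_⟩
  show algebraMap R F π = 1 * (algebraMap R F π) ^ 1
  rw [pow_one, one_mul]

/-- The same with the branch datum in the literal shape of the conclusion of
`CompGauss16.branchPrincipal_gauss`. -/
theorem oneBranch_of_branchData {ι : Type*} [Finite ι] (q : ℕ) (hq : 1 ≤ q) (π : R)
    (B : Subalgebra R F) (O : ι → ValuationSubring F) (i : ι)
    (leO : ∀ j, ∀ x ∈ B, x ∈ O j)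
    (pi_ne : algebraMap R F π ≠ 0) (pi_nonunit : (algebraMap R F π)⁻¹ ∉ O i)
    (unif : ∀ x ∈ O i, x⁻¹ ∉ O i → ∃ c ∈ O i, x = algebraMap R F π * c)
    (arch : ∀ j, ∀ x : F, ∃ k : ℕ, algebraMap R F π ^ k * x ∈ O j)
    (sat : ∀ b ∈ B, ∀ c : F, (∀ j, c ∈ O j) → b = algebraMap R F π * c → c ∈ B)
    (𝔪 : Ideal B) [h𝔪 : 𝔪.IsPrime] (hπ𝔪 : algebraMap R B π ∈ 𝔪)
    (hoff : ∀ j, j ≠ i → OffBranch π B (O j) 𝔪)
    {S : Type*} (ψ : S → F)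
    (hdata : ∃ s₀ : S, ∃ hs : ψ s₀ ∈ B, (⟨ψ s₀, hs⟩ : B) ∈ 𝔪 ∧
      ∀ y ∈ 𝔪, ∃ d : B, d ∉ 𝔪 ∧ ∃ b : B, ∃ c ∈ O i,
        (d : F) * (y : F) - (b : F) * ψ s₀ = algebraMap R F π * c) :
    OneBranch q π B O 𝔪 := by
  obtain ⟨s₀, hs, hs𝔪, hgen⟩ := hdata
  exact oneBranch_of_branchM q hq π B O i leO pi_ne pi_nonunit unif arch sat 𝔪 hπ𝔪 hoff
    ⟨ψ s₀, hs⟩ hs𝔪 hgen

end Generic

section Gauss

open Fermat.Agent.RED.PUR.GaussGen8 Fermat.Agent.RED.PUR.KtGauss8 Fermat.Agent.RED.PUR.G1Package8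
  Fermat.Agent.RED.PUR.ChartGeneric22 Fermat.Agent.RED.ModelAsm4
  Fermat.Agent.ES.RED.FibreSurj17 Fermat.Agent.ES.N34.CompHyp16 Fermat.Agent.ES.N34.CompGauss16
  Fermat.Agent.ES.N34.GaussEmb22

variable {K : Type*} [Field K] [CharZero K] {O : ValuationSubring K} [IsDiscreteValuationRing ↥O]
  {π : ↥O} {EM : IntermediateField K (LaurentSeries K)}
  {F : Type*} [Field F] [Algebra K F] [Algebra ↥O F] [IsScalarTower ↥O K F]

/-- **Type I ⇒ `OneBranch`, Gauss form.** -/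
theorem oneBranch_gauss {ι' : Type*} [Finite ι'] (q : ℕ) (hq : 1 ≤ q)
    (Ofam : ι' → ValuationSubring F) (i : ι')
    (hπ : Irreducible π) (hEM : EM ≤ fracField O)
    (tM : ↥EM) (htM : (tM : LaurentSeries K) ∈ gaussRing O)
    (htrM : Transcendental (Res O) (gaussRed O ⟨(tM : LaurentSeries K), htM⟩))
    {n' : ℕ} (hn' : relfinrank (Kt O ⟨(tM : LaurentSeries K), htM⟩) EM ≠ 0)
    (hdegM : DegLe O EM ⟨(tM : LaurentSeries K), htM⟩ n')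
    (hirrM : Irr O EM ⟨(tM : LaurentSeries K), htM⟩ n')
    (hsm : SmoothChart O EM π tM)
    (φ : ↥EM →ₐ[K] F) (t : F) {ι : F →ₐ[K] LaurentSeries K}
    (hOj : IsGaussPullback O ι (Ofam i))
    (hφO : ∀ z : ↥EM, φ z ∈ Ofam i ↔ z ∈ OvE O hπ EM hEM)
    (hy : φ tM ∈ chart ↥O t)
    (htw : ∃ w : ↥(chart ↥O tM), PiMul π (Ofam i) (t - φ (w : ↥EM)))
    (hcomb : ∀ x ∈ Ofam i, ∃ z ∈ OvE O hπ EM hEM, ∃ c ∈ Ofam i,
      x - φ z = algebraMap ↥O F π * c)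
    (leO : ∀ j, ∀ x ∈ chart ↥O t, x ∈ Ofam j)
    (pi_ne : algebraMap ↥O F π ≠ 0)
    (arch : ∀ j, ∀ x : F, ∃ k : ℕ, algebraMap ↥O F π ^ k * x ∈ Ofam j)
    (sat : ∀ b ∈ chart ↥O t, ∀ c : F, (∀ j, c ∈ Ofam j) → b = algebraMap ↥O F π * c →
      c ∈ chart ↥O t)
    (𝔪 : Ideal ↥(chart ↥O t)) [h𝔪 : 𝔪.IsMaximal] (hπ𝔪 : algebraMap ↥O ↥(chart ↥O t) π ∈ 𝔪)
    (hoff : ∀ j, j ≠ i → OffBranch π (chart ↥O t) (Ofam j) 𝔪) :
    OneBranch q π (chart ↥O t) Ofam 𝔪 := by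
  have hpi : (algebraMap ↥O F π)⁻¹ ∉ Ofam i := by
    rw [algebraMap_O_eq]; exact pi_inv_not_mem hOj hπ
  have hunif : ∀ x ∈ Ofam i, x⁻¹ ∉ Ofam i → ∃ c ∈ Ofam i, x = algebraMap ↥O F π * c := by
    intro x hx hxi
    rw [algebraMap_O_eq]; exact unif hOj hπ x hx hxi
  have hdata := branchPrincipal_gauss hπ hEM tM htM htrM hn' hdegM hirrM hsm φ t hOj (leO i) hφO hy
    htw hcomb 𝔪 h𝔪 hπ𝔪
  exact oneBranch_of_branchData q hq π (chart ↥O t) Ofam i leO pi_ne hpi hunif arch sat 𝔪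
    hπ𝔪 hoff
    (fun s₀ : ↥(chart ↥O tM) => chartHom (restrictO (O := O) φ) (chart ↥O tM) s₀) hdata

end Gauss

end Fermat.Agent.ES.P36.RegIOne16
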