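/-
Program P (S36), chapter REG, brick R8, `C₁`-side INSTANCE (helper1): **a closed point of a chart of
level `M' q²` through which only the component `C₁` (`= O1''`, the Gauss valuation of the expansion
at `∞`) passes is a `NumAbsP13.OneBranch` point** (`x = π`, `e = 1`) — the case `i = 0` of
`PtsModel9.OneAt` on both charts, by `RegIOne16.oneBranch_gauss` at `φ := α₂ ∘ α`.

GENERIC layer (a field `K`, a DVR `O ⊂ K`, `EM, E ≤ K((𝐪))` the levels `M'` and `M' q²`,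
`φ : ↥EM →ₐ[K] ↥E` with `↑(φ z) = ↑z`, i.e. the inclusion of `𝐪`-expansions):
* `hφO_of_coe` : `φ z ∈ V ↔ z ∈ OvE` for the Gauss pull-back `V` along `E.val`;
* `oneBranch_incl0`, `oneBranch_incl1` : the two charts `chart O (φ tM)`, `chart O (φ tM)⁻¹`
  (`hy` = `self_mem_chart`, `htw` with difference `0`, as in `CompInstB12.prin01/prin11`).

MODEL layer (`ModelDefsP9` data over ONE number field `K`, no `∃ K₀`, no normality):
* `phi K M' q := α₂ ∘ α`, `coe_phi`, `phi_tM : phi (tM ht) = t q ht`;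
* `HcombC1 … hπ` : the NAMED INPUT `O1'' = φ(Ov_{M'}) + π O1''` (residue degree one of `v₁` over the
  Gauss valuation of level `M'`; owner helper22, ruling p29) in the literal shape of
  `PrinItems12.HcombItems`;
* **`oneAt_zero_B0`, `oneAt_zero_B1`** : the case `i = 0` of `PtsModel9.OneAt` on `B0`, `B1` from the
  level-`M'` package (`LevelM20.LevelM` for `tM`, `tM⁻¹`: `LevelMAt4.levelM_at`), the chart facts of
  `MultiCore13.MultiChartModel` and `HcombC1`.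
-/
import Mathlib
import Fermat.Agent.ES.N34.LevelM20
import Fermat.Agent.ES.P36.ModelDefsP9
import Fermat.Agent.ES.P36.RegIOne16

set_option autoImplicit false
set_option linter.unusedSectionVars false
set_option synthInstance.maxHeartbeats 400000

noncomputable section

open HahnSeries ModularCurve IntermediateField

namespace Fermat.Agent.ES.P36.C1Side1

open Fermat.Agent.RED.Interface4 Fermat.Agent.RED.PUR.GaussGen8 Fermat.Agent.RED.PUR.KtGauss8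
  Fermat.Agent.RED.PUR.G1Package8 Fermat.Agent.RED.PUR.ChartGeneric22 Fermat.Agent.RED.ModelAsm4
  Fermat.Agent.RED.BASE.EtaQuot12
  Fermat.Agent.ES.N34.NodalCore13 Fermat.Agent.ES.N34.NodalSmooth13
  Fermat.Agent.ES.N34.CompHyp16 Fermat.Agent.ES.N34.GaussEmb22 Fermat.Agent.ES.N34.LevelM20
  Fermat.Agent.ES.P36.MultiCore13 Fermat.Agent.ES.P36.NumAbsP13

/-! ### Generic layer -/

section Generic

variable {K : Type*} [Field K] [CharZero K] {O : ValuationSubring K} [IsDiscreteValuationRing ↥O]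
  {π : ↥O} {EM E : IntermediateField K (LaurentSeries K)}

/-- For an embedding `φ` which is the inclusion on `𝐪`-expansions, and `V` the Gauss pull-back along
`E.val`: `φ z ∈ V ↔ z ∈ OvE`. -/
theorem hφO_of_coe (hπ : Irreducible π) (hEM : EM ≤ fracField O) (φ : ↥EM →ₐ[K] ↥E)
    (hφ : ∀ z : ↥EM, ((φ z : ↥E) : LaurentSeries K) = (z : LaurentSeries K))
    {V : ValuationSubring ↥E} (hV : IsGaussPullback O E.val V) (z : ↥EM) :
    φ z ∈ V ↔ z ∈ OvE O hπ EM hEM := by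
  rw [hV (φ z), mem_OvE_iff]
  show ((φ z : ↥E) : LaurentSeries K) ∈ gaussRing O ↔ _
  rw [hφ z]

/-- **Chart `0`, component `C₁`.** -/
theorem oneBranch_incl0 (q : ℕ) (hq : 1 ≤ q) (Ofam : Fin 3 → ValuationSubring ↥E)
    {tM : ↥EM} (L : LevelM O EM π tM) (φ : ↥EM →ₐ[K] ↥E)
    (hφ : ∀ z : ↥EM, ((φ z : ↥E) : LaurentSeries K) = (z : LaurentSeries K))
    (hV : IsGaussPullback O E.val (Ofam 0))
    (hcomb : ∀ x ∈ Ofam 0, ∃ z : ↥EM, (z : LaurentSeries K) ∈ gaussRing O ∧ ∃ c ∈ Ofam 0,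
      x - φ z = algebraMap ↥O ↥E π * c)
    (leO : ∀ j, ∀ x ∈ chart ↥O (φ tM), x ∈ Ofam j)
    (pi_ne : algebraMap ↥O ↥E π ≠ 0)
    (arch : ∀ j, ∀ x : ↥E, ∃ k : ℕ, algebraMap ↥O ↥E π ^ k * x ∈ Ofam j)
    (sat : ∀ b ∈ chart ↥O (φ tM), ∀ c : ↥E, (∀ j, c ∈ Ofam j) → b = algebraMap ↥O ↥E π * c →
      c ∈ chart ↥O (φ tM))
    (𝔪 : Ideal ↥(chart ↥O (φ tM))) (h𝔪 : 𝔪.IsMaximal)
    (hπ𝔪 : algebraMap ↥O ↥(chart ↥O (φ tM)) π ∈ 𝔪)
    (hoff : ∀ j, j ≠ 0 → OffBranch π (chart ↥O (φ tM)) (Ofam j) 𝔪) :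
    @OneBranch ↥O ↥E _ _ _ q π (chart ↥O (φ tM)) (Fin 3) Ofam 𝔪 h𝔪.isPrime := by
  have : IsScalarTower ↥O K ↥E := Fermat.Agent.RED.NumInst4.isScalarTower_OE O E
  obtain ⟨n', hdeg, hirr⟩ := L.deg_irr
  have hc : ∀ x ∈ Ofam 0, ∃ z ∈ OvE O L.irr EM L.hEM, ∃ c ∈ Ofam 0,
      x - φ z = algebraMap ↥O ↥E π * c := by
    intro x hx
    obtain ⟨z, hz, c, hc, h⟩ := hcomb x hx
    exact ⟨z, (mem_OvE_iff O L.irr EM L.hEM z).mpr hz, c, hc, h⟩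
  exact RegIOne16.oneBranch_gauss q hq Ofam 0 L.irr L.hEM tM L.htM L.htrM L.hn' hdeg hirr L.hsm φ
    (φ tM) hV (hφO_of_coe L.irr L.hEM φ hφ hV) (self_mem_chart _)
    ⟨⟨tM, self_mem_chart _⟩, 0, (Ofam 0).zero_mem, by rw [sub_self, mul_zero]⟩ hc leO pi_ne arch sat
    𝔪 (h𝔪 := h𝔪) hπ𝔪 hoff

/-- **Chart `1`, component `C₁`** (`L1` is the level-`M'` package of `tM⁻¹`). -/
theorem oneBranch_incl1 (q : ℕ) (hq : 1 ≤ q) (Ofam : Fin 3 → ValuationSubring ↥E)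
    {tM : ↥EM} (L1 : LevelM O EM π tM⁻¹) (φ : ↥EM →ₐ[K] ↥E)
    (hφ : ∀ z : ↥EM, ((φ z : ↥E) : LaurentSeries K) = (z : LaurentSeries K))
    (hV : IsGaussPullback O E.val (Ofam 0))
    (hcomb : ∀ x ∈ Ofam 0, ∃ z : ↥EM, (z : LaurentSeries K) ∈ gaussRing O ∧ ∃ c ∈ Ofam 0,
      x - φ z = algebraMap ↥O ↥E π * c)
    (leO : ∀ j, ∀ x ∈ chart ↥O (φ tM)⁻¹, x ∈ Ofam j)
    (pi_ne : algebraMap ↥O ↥E π ≠ 0)
    (arch : ∀ j, ∀ x : ↥E, ∃ k : ℕ, algebraMap ↥O ↥E π ^ k * x ∈ Ofam j)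
    (sat : ∀ b ∈ chart ↥O (φ tM)⁻¹, ∀ c : ↥E, (∀ j, c ∈ Ofam j) → b = algebraMap ↥O ↥E π * c →
      c ∈ chart ↥O (φ tM)⁻¹)
    (𝔪 : Ideal ↥(chart ↥O (φ tM)⁻¹)) (h𝔪 : 𝔪.IsMaximal)
    (hπ𝔪 : algebraMap ↥O ↥(chart ↥O (φ tM)⁻¹) π ∈ 𝔪)
    (hoff : ∀ j, j ≠ 0 → OffBranch π (chart ↥O (φ tM)⁻¹) (Ofam j) 𝔪) :
    @OneBranch ↥O ↥E _ _ _ q π (chart ↥O (φ tM)⁻¹) (Fin 3) Ofam 𝔪 h𝔪.isPrime := by
  have : IsScalarTower ↥O K ↥E := Fermat.Agent.RED.NumInst4.isScalarTower_OE O E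
  obtain ⟨n', hdeg, hirr⟩ := L1.deg_irr
  have hc : ∀ x ∈ Ofam 0, ∃ z ∈ OvE O L1.irr EM L1.hEM, ∃ c ∈ Ofam 0,
      x - φ z = algebraMap ↥O ↥E π * c := by
    intro x hx
    obtain ⟨z, hz, c, hc, h⟩ := hcomb x hx
    exact ⟨z, (mem_OvE_iff O L1.irr EM L1.hEM z).mpr hz, c, hc, h⟩
  have hy : φ tM⁻¹ ∈ chart ↥O (φ tM)⁻¹ := by
    rw [map_inv₀]
    exact self_mem_chart _
  exact RegIOne16.oneBranch_gauss q hq Ofam 0 L1.irr L1.hEM tM⁻¹ L1.htM L1.htrM L1.hn' hdeg hirr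
    L1.hsm φ (φ tM)⁻¹ hV (hφO_of_coe L1.irr L1.hEM φ hφ hV) hy
    ⟨⟨tM⁻¹, self_mem_chart _⟩, 0, (Ofam 0).zero_mem, by rw [map_inv₀, sub_self, mul_zero]⟩ hc leO
    pi_ne arch sat 𝔪 (h𝔪 := h𝔪) hπ𝔪 hoff

end Generic

/-! ### Model layer -/

section Model

open Fermat.Agent.ES.N34 Fermat.Agent.ES.P36.ModelDefsP9

variable {n e : ℕ} [NeZero n] {M' : ℕ} [NeZero M'] (q : ℕ) [NeZero q] {A : ValuationSubring Qbar}
  (K : IntermediateField ℚ Qbar)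

variable (M') in
/-- `φ := α₂ ∘ α : F_{M'} → F_{M' q²}`, the inclusion of `𝐪`-expansions. -/
def phi : FK M' K →ₐ[K] FK (M' * q * q) K := (alpha2 K M' q).comp (ModelDefs9.alpha K M' q)

@[simp] theorem coe_phi (z : FK M' K) :
    ((phi M' q K z : FK (M' * q * q) K) : LaurentSeries K) = (z : LaurentSeries K) :=
  coe_alpha2_alpha K M' q z

variable {K}

theorem phi_tM (ht : tq (↥K) n e ∈ FK M' K) : phi M' q K (ModelDefs9.tM ht) = t q ht := rfl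

variable (M') in
/-- **NAMED INPUT (owner helper22, ruling p29)**: `O1'' = φ(Ov_{M'}) + π O1''` — the residue field of
`v₁` at level `M' q²` is that of the Gauss valuation of level `M'`; literal shape of
`PrinItems12.HcombItems` with `(O1'', α₂ ∘ α)`. -/
def HcombC1 {π : ↥(AK A K)} (hπ : IsUnif (AK A K) π) : Prop :=
  ∀ x ∈ O1 M' q hπ, ∃ z : FK M' K, (z : LaurentSeries ↥K) ∈ gaussRing (AK A K) ∧
    ∃ c ∈ O1 M' q hπ,
      x - alpha2 K M' q (ModelDefs9.alpha K M' q z) =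
        algebraMap ↥(AK A K) ↥(FK (M' * q * q) K) π * c

/-- `O1''` is the Gauss pull-back along the inclusion. -/
theorem isGaussPullback_O1 {π : ↥(AK A K)} (hπ : IsUnif (AK A K) π) :
    IsGaussPullback (AK A K) (FK (M' * q * q) K).val (O1 M' q hπ) :=
  fun _ => Iff.rfl

set_option maxHeartbeats 2000000 in
/-- **`PtsModel9.OneAt`, case `i = 0`, chart `B0`.** -/
theorem oneAt_zero_B0 [IsDiscreteValuationRing ↥(AK A K)] (hq : 1 ≤ q)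
    (ht : tq (↥K) n e ∈ FK M' K) {π : ↥(AK A K)} (hπ : IsUnif (AK A K) π)
    (O2 : ValuationSubring ↥(FK (M' * q * q) K))
    (L0 : LevelM (AK A K) (FK M' K) π (ModelDefs9.tM ht))
    (model : MultiChartModel ↥(AK A K) ↥(FK (M' * q * q) K) π (t q ht) (B0 A q ht) (B1 A q ht)
      (Ofam M' q hπ O2))
    (hcomb : HcombC1 M' q hπ)
    (𝔪 : Ideal ↥(B0 A q ht)) (h𝔪 : 𝔪.IsMaximal)
    (hπ𝔪 : algebraMap ↥(AK A K) ↥(B0 A q ht) π ∈ 𝔪)
    (hoff : ∀ j, j ≠ 0 → OffBranch π (B0 A q ht) (Ofam M' q hπ O2 j) 𝔪) :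
    @OneBranch ↥(AK A K) ↥(FK (M' * q * q) K) _ _ _ q π (B0 A q ht) (Fin 3) (Ofam M' q hπ O2) 𝔪
      h𝔪.isPrime :=
  oneBranch_incl0 (O := AK A K) (EM := FK M' K) (E := FK (M' * q * q) K) q hq (Ofam M' q hπ O2) L0
    (phi M' q K) (coe_phi q K) (isGaussPullback_O1 q hπ) hcomb model.le_O_0 model.pi_ne model.arch
    model.sat0 𝔪 h𝔪 hπ𝔪 hoff

set_option maxHeartbeats 2000000 in
/-- **`PtsModel9.OneAt`, case `i = 0`, chart `B1`.** -/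
theorem oneAt_zero_B1 [IsDiscreteValuationRing ↥(AK A K)] (hq : 1 ≤ q)
    (ht : tq (↥K) n e ∈ FK M' K) {π : ↥(AK A K)} (hπ : IsUnif (AK A K) π)
    (O2 : ValuationSubring ↥(FK (M' * q * q) K))
    (L1 : LevelM (AK A K) (FK M' K) π (ModelDefs9.tM ht)⁻¹)
    (model : MultiChartModel ↥(AK A K) ↥(FK (M' * q * q) K) π (t q ht) (B0 A q ht) (B1 A q ht)
      (Ofam M' q hπ O2))
    (hcomb : HcombC1 M' q hπ)
    (𝔪 : Ideal ↥(B1 A q ht)) (h𝔪 : 𝔪.IsMaximal)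
    (hπ𝔪 : algebraMap ↥(AK A K) ↥(B1 A q ht) π ∈ 𝔪)
    (hoff : ∀ j, j ≠ 0 → OffBranch π (B1 A q ht) (Ofam M' q hπ O2 j) 𝔪) :
    @OneBranch ↥(AK A K) ↥(FK (M' * q * q) K) _ _ _ q π (B1 A q ht) (Fin 3) (Ofam M' q hπ O2) 𝔪
      h𝔪.isPrime :=
  oneBranch_incl1 (O := AK A K) (EM := FK M' K) (E := FK (M' * q * q) K) q hq (Ofam M' q hπ O2) L1
    (phi M' q K) (coe_phi q K) (isGaussPullback_O1 q hπ) hcomb model.le_O_1 model.pi_ne model.arch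
    model.sat1 𝔪 h𝔪 hπ𝔪 hoff

end Model

end Fermat.Agent.ES.P36.C1Side1
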