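/-
Program P (S36), chapter MODEL-P, brick M1 — INTEGRALITY part (helper9): **the degeneracy maps
`α₂ β₂ : F' → F''` respect the charts, and `t₁, t₂ ∈ B0″`, `t₁⁻¹, t₂⁻¹ ∈ B1″`**, from (M1) at level
`M' q` ONLY (`ModelN4.ModEqItems`: `yN ∈ B0'`, `yN⁻¹ ∈ B1'`; no modular equation of level `q²`).

Charts: `B0' B1' ⊂ F'` := `ModelDefs9.B0/B1 A q ht = chart R tN, chart R tN⁻¹`;
`B0″ B1″ ⊂ F''` := `ModelDefsP9.B0/B1 A q ht = chart R t, chart R t⁻¹` with `t = α₂ tN`.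

* `algHom_mem_chart` (Gauss layer): a `Kt`-embedding `φ : E' → E` maps `chart O s'` into `chart O s` as
  soon as `φ s' ∈ chart O s` (`ModelN4.map_mem_chart`);
* `alpha2_mem_B0/B1` : `α₂ (B_i') ⊆ B_i″` (free: `α₂ tN = t`);
* `beta2_mem_B0/B1`  : `β₂ (B_i') ⊆ B_i″` (`β₂ tN = t₁ = α₂ yN ∈ α₂ (B0') ⊆ B0″`);
* `t1_mem_B0`, `t2_mem_B0`, `t1_inv_mem_B1`, `t2_inv_mem_B1` (`t₂ = β₂ yN ∈ β₂ (B0') ⊆ B0″`);
* `IntItemsP` / `intItemsP_of` : the per-`K` package from `ModEqItems n e q M' A K`.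
-/
import Mathlib
import Fermat.Agent.ES.N34.ModelN4
import Fermat.Agent.ES.P36.ModelDefsP9

set_option autoImplicit false
set_option linter.unusedSectionVars false
set_option synthInstance.maxHeartbeats 400000

open HahnSeries ModularCurve

noncomputable section

namespace Fermat.Agent.ES.P36.ChartMaps9

open Fermat.Agent.RED.PUR.ChartGeneric22

section Generic

variable {Kt : Type*} [Field Kt] {O : ValuationSubring Kt}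
  {E' E : IntermediateField Kt (LaurentSeries Kt)}

/-- a `Kt`-embedding maps the chart of `s'` into the chart of `s` as soon as it maps `s'` into it. -/
theorem algHom_mem_chart (φ : ↥E' →ₐ[Kt] ↥E) {s' : ↥E'} {s : ↥E} (hs : φ s' ∈ chart ↥O s)
    {x : ↥E'} (hx : x ∈ chart ↥O s') : φ x ∈ chart ↥O s :=
  Fermat.Agent.ES.N34.ModelN4.map_mem_chart (φ : ↥E' →+* ↥E)
    (Fermat.Agent.ES.N34.ModelN4.algHom_algebraMap_O O E' E φ) hs hx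

/-- the same for the chart at infinity. -/
theorem algHom_mem_chart_inv (φ : ↥E' →ₐ[Kt] ↥E) {s' : ↥E'} {s : ↥E}
    (hs : (φ s')⁻¹ ∈ chart ↥O s⁻¹) {x : ↥E'} (hx : x ∈ chart ↥O s'⁻¹) : φ x ∈ chart ↥O s⁻¹ :=
  algHom_mem_chart φ (s' := s'⁻¹) (s := s⁻¹) (by rw [map_inv₀]; exact hs) hx

end Generic

section Model

open Fermat.Agent.RED.Interface4 Fermat.Agent.RED.PUR.GaussGen8 Fermat.Agent.RED.BASE.EtaQuot12
  Fermat.Agent.ES.N34 Fermat.Agent.ES.P36.ModelDefsP9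

variable {n e q M' : ℕ} [NeZero n] [NeZero M'] [NeZero q] {A : ValuationSubring Qbar}
  {K : IntermediateField ℚ Qbar}

/-- `α₂ (B0') ⊆ B0″`. -/
theorem alpha2_mem_B0 (ht : tq (↥K) n e ∈ FK M' K) {x : ↥(FK (M' * q) K)}
    (hx : x ∈ ModelDefs9.B0 A q ht) : alpha2 K M' q x ∈ B0 A q ht :=
  algHom_mem_chart (alpha2 K M' q) (s' := ModelDefs9.tN q ht) (s := t q ht) (self_mem_chart _) hx

/-- `α₂ (B1') ⊆ B1″`. -/
theorem alpha2_mem_B1 (ht : tq (↥K) n e ∈ FK M' K) {x : ↥(FK (M' * q) K)}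
    (hx : x ∈ ModelDefs9.B1 A q ht) : alpha2 K M' q x ∈ B1 A q ht :=
  algHom_mem_chart_inv (alpha2 K M' q) (s' := ModelDefs9.tN q ht) (s := t q ht)
    (self_mem_chart _) hx

/-- `t₁ = α₂ yN ∈ B0″`. -/
theorem t1_mem_B0 (ht : tq (↥K) n e ∈ FK M' K) (hy0 : ModelDefs9.yN q ht ∈ ModelDefs9.B0 A q ht) :
    t1 q ht ∈ B0 A q ht :=
  alpha2_mem_B0 ht hy0

/-- `t₁⁻¹ = α₂ yN⁻¹ ∈ B1″`. -/
theorem t1_inv_mem_B1 (ht : tq (↥K) n e ∈ FK M' K)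
    (hy1 : (ModelDefs9.yN q ht)⁻¹ ∈ ModelDefs9.B1 A q ht) : (t1 q ht)⁻¹ ∈ B1 A q ht := by
  have h := alpha2_mem_B1 ht hy1
  rwa [map_inv₀] at h

/-- `β₂ (B0') ⊆ B0″`. -/
theorem beta2_mem_B0 (ht : tq (↥K) n e ∈ FK M' K) (hy0 : ModelDefs9.yN q ht ∈ ModelDefs9.B0 A q ht)
    {x : ↥(FK (M' * q) K)} (hx : x ∈ ModelDefs9.B0 A q ht) : beta2 K M' q x ∈ B0 A q ht :=
  algHom_mem_chart (beta2 K M' q) (s' := ModelDefs9.tN q ht) (s := t q ht)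
    (by rw [← t1_eq_beta2]; exact t1_mem_B0 ht hy0) hx

/-- `β₂ (B1') ⊆ B1″`. -/
theorem beta2_mem_B1 (ht : tq (↥K) n e ∈ FK M' K)
    (hy1 : (ModelDefs9.yN q ht)⁻¹ ∈ ModelDefs9.B1 A q ht)
    {x : ↥(FK (M' * q) K)} (hx : x ∈ ModelDefs9.B1 A q ht) : beta2 K M' q x ∈ B1 A q ht :=
  algHom_mem_chart_inv (beta2 K M' q) (s' := ModelDefs9.tN q ht) (s := t q ht)
    (by rw [← t1_eq_beta2]; exact t1_inv_mem_B1 ht hy1) hx

/-- `t₂ = β₂ yN ∈ B0″`. -/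
theorem t2_mem_B0 (ht : tq (↥K) n e ∈ FK M' K) (hy0 : ModelDefs9.yN q ht ∈ ModelDefs9.B0 A q ht) :
    t2 q ht ∈ B0 A q ht :=
  beta2_mem_B0 ht hy0 hy0

/-- `t₂⁻¹ = β₂ yN⁻¹ ∈ B1″`. -/
theorem t2_inv_mem_B1 (ht : tq (↥K) n e ∈ FK M' K)
    (hy1 : (ModelDefs9.yN q ht)⁻¹ ∈ ModelDefs9.B1 A q ht) : (t2 q ht)⁻¹ ∈ B1 A q ht := by
  have h := beta2_mem_B1 ht hy1 hy1
  rwa [map_inv₀] at h

variable (n e q M' A K)

/-- **The integrality part of (M1) at level `M' q²`, per `K`.** -/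
def IntItemsP : Prop :=
  ∀ ht : tq (↥K) n e ∈ FK M' K,
    (t1 q ht ∈ B0 A q ht ∧ t2 q ht ∈ B0 A q ht ∧ (t1 q ht)⁻¹ ∈ B1 A q ht ∧
      (t2 q ht)⁻¹ ∈ B1 A q ht) ∧
    (∀ x ∈ ModelDefs9.B0 A q ht, alpha2 K M' q x ∈ B0 A q ht) ∧
    (∀ x ∈ ModelDefs9.B1 A q ht, alpha2 K M' q x ∈ B1 A q ht) ∧
    (∀ x ∈ ModelDefs9.B0 A q ht, beta2 K M' q x ∈ B0 A q ht) ∧
    (∀ x ∈ ModelDefs9.B1 A q ht, beta2 K M' q x ∈ B1 A q ht)

variable {n e q M' A K}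

theorem intItemsP_of (hS2 : Fermat.Agent.ES.N34.ModelN4.ModEqItems n e q M' A K) :
    IntItemsP n e q M' A K := by
  intro ht
  obtain ⟨hy0, hy1⟩ := hS2 ht
  exact ⟨⟨t1_mem_B0 ht hy0, t2_mem_B0 ht hy0, t1_inv_mem_B1 ht hy1, t2_inv_mem_B1 ht hy1⟩,
    fun _ hx => alpha2_mem_B0 ht hx, fun _ hx => alpha2_mem_B1 ht hx,
    fun _ hx => beta2_mem_B0 ht hy0 hx, fun _ hx => beta2_mem_B1 ht hy1 hx⟩

end Model

end Fermat.Agent.ES.P36.ChartMaps9
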