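/-
Program P (S36), chapter MODEL-P, brick M3 (helper8): **the third vertical valuation
`v₃ := v₁ ∘ W_{M'q²}`** of `F″ = FK (M' * q * q) K` (expansion at the cusp `0` of the level `M' q²`).

Everything is stated in the `ModelDefs9` vocabulary AT THE LEVEL `M' * q` IN THE ROLE OF `M'`
(`ModelDefs9` has no coprimality hypothesis in its definitions):

* `F′ = FK (M' * q) K`, `F″ = FK (M' * q * q) K`;
* `α₂ = alpha K (M' * q) q = heckeAlphaBar K (M' * q) q`, `β₂ = beta K (M' * q) q = heckeBetaBar …`;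
* `O1″ = O1 (M' * q) q hπ hE″` (Gauss ring of the expansion at `∞`),
  **`O3″ = O2 (M' * q) q hπ hE″`** `= O1″.comap W_{M'q²}`, `ι₃ = iota2Alg K (M' * q) q`;
* `O1′ = O1 M' q hπ hE′`, `O2′ = O2 M' q hπ hE′` at the level `M' q`, `ι₂′ = iota2Alg K M' q`.

Contents.
* `mem_gaussRing_of_qExpand_mem`, `qExpand_mem_gaussRing_iff`: `V_c` REFLECTS the Gauss ring (inside
  `Frac O((𝐪))`).
* (a) expansions: `iota3_alpha2`, `iota3_beta2`, `iota3_alpha2_alpha`, `iota3_beta2_beta`,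
  `iota3_alpha2_beta`, `iota3_beta2_alpha`.
* (b) positions (table G2, the `v₃` column): `alpha2_mem_O3_iff`, `beta2_mem_O3_iff` (`v₃` lies over
  `O2′` along BOTH degeneracy maps), `comap_alpha2_O3`, `comap_beta2_O3`; at the good level:
  `alpha2_alpha_mem_O3_iff`, `beta2_beta_mem_O3_iff` (`v₃` lies over the Gauss ring of `F_{M'}`).
  Residues: `redOf_beta2` (along `β₂` the residue of `v₃` IS the residue of `O2′`: `f = 1`),
  `redOf_alpha2` (along `α₂` it is `V_q` of it: purely inseparable of degree `q`).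
* (c) `v3_export`: `ι₃ (α₂ (α tM))` lies in the Gauss ring with transcendental residue and a family of
  `q * q * n'` elements of `O3″` has `κ(ι₃ t~)`-independent residues (twin of
  `GaussVTwoInst25.v2_export`; `GaussVTwoFam25.family_two_level` with `q * q` in the role of `q`).
* (d) `o1_ne_o3`: `O1″ ≠ O3″` (`OneNeTwo3.o1_ne_o2` at the level `M' * q`).
-/
import Mathlib
import Fermat.Agent.ES.N34.GaussVTwoInst25

set_option autoImplicit false
set_option linter.unusedSectionVars false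

noncomputable section

open HahnSeries ModularCurve IntermediateField Polynomial

namespace Fermat.Agent.ES.P36.GaussVThree8

open Fermat.Agent.RED.Interface4 Fermat.Agent.RED.PUR.GaussGen8 Fermat.Agent.RED.PUR.KtGauss8
open Fermat.Agent.RED.PUR.G1Package8 Fermat.Agent.RED.PUR.GaussBridge10
open Fermat.Agent.ES.N34.GaussEmb22 Fermat.Agent.ES.N34.FrickeFK8 Fermat.Agent.ES.N34.ModelDefs9
open Fermat.Agent.ES.N34.ModelGlue22 Fermat.Agent.ES.N34.IsoM25
open Fermat.Agent.RED.BASE Fermat.Agent.RED.BASE.EtaQuot12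
open Fermat.Agent.ES.N34

set_option synthInstance.maxHeartbeats 400000
set_option maxHeartbeats 200000

/-! ### `V_c` reflects the Gauss ring -/

section Abstract

variable {L : Type*} [Field L] {O : ValuationSubring L}

/-- If `V_c f` lies in the Gauss ring and `f ∈ Frac O((𝐪))`, then `f` lies in the Gauss ring. -/
theorem mem_gaussRing_of_qExpand_mem {π : ↥O} (hπ : IsUnif O π) (c : ℕ) [NeZero c]
    {f : LaurentSeries L} (hf : f ∈ fracField O) (h : qExpand L c f ∈ gaussRing O) :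
    f ∈ gaussRing O := by
  rcases mem_or_inv_mem hπ hf with h1 | h1
  · exact h1
  · by_cases hf0 : f = 0
    · rw [hf0]; exact zero_mem _
    by_cases hred : gaussRed O ⟨f⁻¹, h1⟩ = 0
    · exfalso
      have h2 : qExpand L c f⁻¹ ∈ gaussRing O := GaussVTwoFam25.qExpand_mem_gaussRing c h1
      have h3 : gaussRed O ⟨qExpand L c f⁻¹, h2⟩ = 0 := by
        have := GaussVTwoFam25.gaussRed_qExpand c (⟨f⁻¹, h1⟩ : ↥(gaussRing O)) h2
        rw [this, hred, map_zero]
      have h4 : (⟨qExpand L c f, h⟩ : ↥(gaussRing O)) * ⟨qExpand L c f⁻¹, h2⟩ = 1 := by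
        apply Subtype.ext
        show qExpand L c f * qExpand L c f⁻¹ = 1
        rw [← map_mul, mul_inv_cancel₀ hf0, map_one]
      have h5 := congrArg (gaussRed O) h4
      rw [map_mul, h3, mul_zero, map_one] at h5
      exact zero_ne_one h5
    · have := inv_mem_of_gaussRed_ne_zero O ⟨f⁻¹, h1⟩ hred
      simpa using this

theorem qExpand_mem_gaussRing_iff {π : ↥O} (hπ : IsUnif O π) (c : ℕ) [NeZero c]
    {f : LaurentSeries L} (hf : f ∈ fracField O) :
    qExpand L c f ∈ gaussRing O ↔ f ∈ gaussRing O :=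
  ⟨mem_gaussRing_of_qExpand_mem hπ c hf, GaussVTwoFam25.qExpand_mem_gaussRing c⟩

end Abstract

/-! ### (a) The expansion `ι₃` at the cusp `0` of the level `M' q²` versus the degeneracy maps -/

section Expansions

variable (K : IntermediateField ℚ Qbar) (M' q : ℕ) [NeZero M'] [NeZero q]

/-- `ι₃ (α₂ x) = V_q (ι₂′ x)`. -/
theorem iota3_alpha2 (x : FK (M' * q) K) :
    iota2Alg K (M' * q) q (alpha K (M' * q) q x) = qExpand (↥K) q (iota2Alg K M' q x) :=
  FrickeV11.iota2_alpha K (M' * q) q x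

/-- `ι₃ (β₂ x) = ι₂′ x`. -/
theorem iota3_beta2 (x : FK (M' * q) K) :
    iota2Alg K (M' * q) q (beta K (M' * q) q x) = iota2Alg K M' q x :=
  FrickeV11.iota2_beta K (M' * q) q x

/-- `ι₂′ (α x) = V_q (ι^{M'} x)` (`FrickeV11.iota2_alpha` in `iotaAlg` vocabulary). -/
theorem iota2Alg_alpha (x : FK M' K) :
    iota2Alg K M' q (alpha K M' q x) = qExpand (↥K) q (iotaAlg M' K x) :=
  FrickeV11.iota2_alpha K M' q x

/-- `ι₂′ (β x) = ι^{M'} x`. -/
theorem iota2Alg_beta (x : FK M' K) :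
    iota2Alg K M' q (beta K M' q x) = iotaAlg M' K x :=
  FrickeV11.iota2_beta K M' q x

/-- `ι₃ (α₂ (α x)) = V_{q q} (ι^{M'} x)`. -/
theorem iota3_alpha2_alpha (x : FK M' K) :
    iota2Alg K (M' * q) q (alpha K (M' * q) q (alpha K M' q x)) =
      qExpand (↥K) (q * q) (iotaAlg M' K x) := by
  rw [iota3_alpha2, iota2Alg_alpha, qExpand_qExpand]

/-- `ι₃ (β₂ (β x)) = ι^{M'} x`: along `β₂ ∘ β` the third expansion is the cusp-`0` expansion of the good
level. -/
theorem iota3_beta2_beta (x : FK M' K) :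
    iota2Alg K (M' * q) q (beta K (M' * q) q (beta K M' q x)) = iotaAlg M' K x := by
  rw [iota3_beta2, iota2Alg_beta]

/-- `ι₃ (α₂ (β x)) = V_q (ι^{M'} x)`. -/
theorem iota3_alpha2_beta (x : FK M' K) :
    iota2Alg K (M' * q) q (alpha K (M' * q) q (beta K M' q x)) =
      qExpand (↥K) q (iotaAlg M' K x) := by
  rw [iota3_alpha2, iota2Alg_beta]

/-- `ι₃ (β₂ (α x)) = V_q (ι^{M'} x)`. -/
theorem iota3_beta2_alpha (x : FK M' K) :
    iota2Alg K (M' * q) q (beta K (M' * q) q (alpha K M' q x)) =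
      qExpand (↥K) q (iotaAlg M' K x) := by
  rw [iota3_beta2, iota2Alg_alpha]

end Expansions

/-! ### (b) Positions of `v₃` over the level `M' q` (table G2, the `v₃` column) and residues -/

section Positions

variable {A : ValuationSubring Qbar} {K : IntermediateField ℚ Qbar} (M' q : ℕ) [NeZero M'] [NeZero q]
  {π : ↥(AK A K)}

/-- `ι₂′ x ∈ Frac O((𝐪))`. -/
theorem iota2Alg_mem_fracField (hE' : FK (M' * q) K ≤ fracField (AK A K)) (x : FK (M' * q) K) :
    iota2Alg K M' q x ∈ fracField (AK A K) :=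
  hE' (wN K M' q x).2

/-- **`v₃` lies over `O2′` along `α₂`**: `α₂ x ∈ O3″ ↔ x ∈ O2′`. -/
theorem alpha2_mem_O3_iff (hπ : IsUnif (AK A K) π) (hE' : FK (M' * q) K ≤ fracField (AK A K))
    (hE : FK (M' * q * q) K ≤ fracField (AK A K)) (x : FK (M' * q) K) :
    alpha K (M' * q) q x ∈ O2 (M' * q) q hπ hE ↔ x ∈ O2 M' q hπ hE' := by
  have h1 : alpha K (M' * q) q x ∈ O2 (M' * q) q hπ hE ↔
      iota2Alg K (M' * q) q (alpha K (M' * q) q x) ∈ gaussRing (AK A K) :=
    isGaussPullback_O2 (M' * q) q hπ hE _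
  have h2 : x ∈ O2 M' q hπ hE' ↔ iota2Alg K M' q x ∈ gaussRing (AK A K) :=
    isGaussPullback_O2 M' q hπ hE' _
  have h3 : qExpand (↥K) q (iota2Alg K M' q x) ∈ gaussRing (AK A K) ↔
      iota2Alg K M' q x ∈ gaussRing (AK A K) :=
    qExpand_mem_gaussRing_iff hπ q (iota2Alg_mem_fracField M' q hE' x)
  have h4 : iota2Alg K (M' * q) q (alpha K (M' * q) q x) ∈ gaussRing (AK A K) ↔
      qExpand (↥K) q (iota2Alg K M' q x) ∈ gaussRing (AK A K) := by
    rw [iota3_alpha2 K M' q x]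
  exact h1.trans (h4.trans (h3.trans h2.symm))

/-- **`v₃` lies over `O2′` along `β₂`**: `β₂ x ∈ O3″ ↔ x ∈ O2′`. -/
theorem beta2_mem_O3_iff (hπ : IsUnif (AK A K) π) (hE' : FK (M' * q) K ≤ fracField (AK A K))
    (hE : FK (M' * q * q) K ≤ fracField (AK A K)) (x : FK (M' * q) K) :
    beta K (M' * q) q x ∈ O2 (M' * q) q hπ hE ↔ x ∈ O2 M' q hπ hE' := by
  have h1 : beta K (M' * q) q x ∈ O2 (M' * q) q hπ hE ↔
      iota2Alg K (M' * q) q (beta K (M' * q) q x) ∈ gaussRing (AK A K) :=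
    isGaussPullback_O2 (M' * q) q hπ hE _
  have h2 : x ∈ O2 M' q hπ hE' ↔ iota2Alg K M' q x ∈ gaussRing (AK A K) :=
    isGaussPullback_O2 M' q hπ hE' _
  have h4 : iota2Alg K (M' * q) q (beta K (M' * q) q x) ∈ gaussRing (AK A K) ↔
      iota2Alg K M' q x ∈ gaussRing (AK A K) := by
    rw [iota3_beta2 K M' q x]
  exact h1.trans (h4.trans h2.symm)

/-- `O3″ ∩ α₂(F′) = α₂(O2′)`, as an equality of valuation subrings of `F′`. -/
theorem comap_alpha2_O3 (hπ : IsUnif (AK A K) π) (hE' : FK (M' * q) K ≤ fracField (AK A K))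
    (hE : FK (M' * q * q) K ≤ fracField (AK A K)) :
    (O2 (M' * q) q hπ hE).comap (alpha K (M' * q) q).toRingHom = O2 M' q hπ hE' := by
  ext x
  rw [ValuationSubring.mem_comap]
  exact alpha2_mem_O3_iff M' q hπ hE' hE x

/-- `O3″ ∩ β₂(F′) = β₂(O2′)`, as an equality of valuation subrings of `F′`. -/
theorem comap_beta2_O3 (hπ : IsUnif (AK A K) π) (hE' : FK (M' * q) K ≤ fracField (AK A K))
    (hE : FK (M' * q * q) K ≤ fracField (AK A K)) :
    (O2 (M' * q) q hπ hE).comap (beta K (M' * q) q).toRingHom = O2 M' q hπ hE' := by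
  ext x
  rw [ValuationSubring.mem_comap]
  exact beta2_mem_O3_iff M' q hπ hE' hE x

/-- **Residues along `β₂`: `f = 1`.**  The `v₃`-residue of `β₂ x` IS the `O2′`-residue of `x`. -/
theorem redOf_beta2 (hπ : IsUnif (AK A K) π) (hE' : FK (M' * q) K ≤ fracField (AK A K))
    (hE : FK (M' * q * q) K ≤ fracField (AK A K)) (x : FK (M' * q) K)
    (hx : x ∈ O2 M' q hπ hE') (hx' : beta K (M' * q) q x ∈ O2 (M' * q) q hπ hE) :
    redOf (isGaussPullback_O2 (M' * q) q hπ hE) ⟨beta K (M' * q) q x, hx'⟩ =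
      redOf (isGaussPullback_O2 M' q hπ hE') ⟨x, hx⟩ := by
  rw [redOf_apply, redOf_apply]
  congr 1
  exact Subtype.ext (iota3_beta2 K M' q x)

/-- **Residues along `α₂`: purely inseparable of degree `q`.**  The `v₃`-residue of `α₂ x` is `V_q` of
the `O2′`-residue of `x`. -/
theorem redOf_alpha2 (hπ : IsUnif (AK A K) π) (hE' : FK (M' * q) K ≤ fracField (AK A K))
    (hE : FK (M' * q * q) K ≤ fracField (AK A K)) (x : FK (M' * q) K)
    (hx : x ∈ O2 M' q hπ hE') (hx' : alpha K (M' * q) q x ∈ O2 (M' * q) q hπ hE) :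
    redOf (isGaussPullback_O2 (M' * q) q hπ hE) ⟨alpha K (M' * q) q x, hx'⟩ =
      qExpand (Res (AK A K)) q (redOf (isGaussPullback_O2 M' q hπ hE') ⟨x, hx⟩) := by
  rw [redOf_apply, redOf_apply]
  have hmem : qExpand (↥K) q ((toGauss (isGaussPullback_O2 M' q hπ hE') ⟨x, hx⟩ :
      ↥(gaussRing (AK A K))) : LaurentSeries K) ∈ gaussRing (AK A K) :=
    GaussVTwoFam25.qExpand_mem_gaussRing q (toGauss (isGaussPullback_O2 M' q hπ hE') ⟨x, hx⟩).2
  rw [← GaussVTwoFam25.gaussRed_qExpand q _ hmem]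
  congr 1
  exact Subtype.ext (iota3_alpha2 K M' q x)

end Positions

/-! ### (b′) `v₃` over the GOOD level `M'`, (c) the family, (d) `O1″ ≠ O3″` -/

section Good

variable {A : ValuationSubring Qbar} {K : IntermediateField ℚ Qbar} (M' q : ℕ) [NeZero M']
  [NeZero q] [hq : Fact q.Prime] [IsDiscreteValuationRing ↥(AK A K)] [CharP (Res (AK A K)) q]
  {π : ↥(AK A K)} {n e : ℕ} [NeZero n]

/-- `ι^{M'} x ∈ Frac O((𝐪))`. -/
theorem iotaAlg_mem_fracField (x : FK M' K) : iotaAlg M' K x ∈ fracField (AK A K) :=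
  FK_le_fracField A K M' (frickeFK M' K x).2

/-- `α x ∈ O2′ ↔ x` Gauss-integral (good level, `q ∤ M'`). -/
theorem alpha_mem_O2_iff (hπ : Irreducible π) (hqM : ¬ q ∣ M')
    (hE' : FK (M' * q) K ≤ fracField (AK A K)) (x : FK M' K) :
    alpha K M' q x ∈ O2 M' q (isUnif_of_irreducible (AK A K) hπ) hE' ↔
      (x : LaurentSeries K) ∈ gaussRing (AK A K) := by
  have hπu := isUnif_of_irreducible (AK A K) hπ
  have h1 : alpha K M' q x ∈ O2 M' q hπu hE' ↔
      iota2Alg K M' q (alpha K M' q x) ∈ gaussRing (AK A K) :=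
    isGaussPullback_O2 M' q hπu hE' _
  have h2 : iota2Alg K M' q (alpha K M' q x) ∈ gaussRing (AK A K) ↔
      qExpand (↥K) q (iotaAlg M' K x) ∈ gaussRing (AK A K) := by
    rw [iota2Alg_alpha K M' q x]
  have h3 : qExpand (↥K) q (iotaAlg M' K x) ∈ gaussRing (AK A K) ↔
      iotaAlg M' K x ∈ gaussRing (AK A K) :=
    qExpand_mem_gaussRing_iff hπu q (iotaAlg_mem_fracField (A := A) M' x)
  have h4 : iotaAlg M' K x ∈ gaussRing (AK A K) ↔ (x : LaurentSeries K) ∈ gaussRing (AK A K) :=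
    (isoM A K M' q hπ hqM x).symm
  exact h1.trans (h2.trans (h3.trans h4))

/-- `β x ∈ O2′ ↔ x` Gauss-integral (good level, `q ∤ M'`). -/
theorem beta_mem_O2_iff (hπ : Irreducible π) (hqM : ¬ q ∣ M')
    (hE' : FK (M' * q) K ≤ fracField (AK A K)) (x : FK M' K) :
    beta K M' q x ∈ O2 M' q (isUnif_of_irreducible (AK A K) hπ) hE' ↔
      (x : LaurentSeries K) ∈ gaussRing (AK A K) := by
  have hπu := isUnif_of_irreducible (AK A K) hπ
  have h1 : beta K M' q x ∈ O2 M' q hπu hE' ↔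
      iota2Alg K M' q (beta K M' q x) ∈ gaussRing (AK A K) :=
    isGaussPullback_O2 M' q hπu hE' _
  have h2 : iota2Alg K M' q (beta K M' q x) ∈ gaussRing (AK A K) ↔
      iotaAlg M' K x ∈ gaussRing (AK A K) := by
    rw [iota2Alg_beta K M' q x]
  have h4 : iotaAlg M' K x ∈ gaussRing (AK A K) ↔ (x : LaurentSeries K) ∈ gaussRing (AK A K) :=
    (isoM A K M' q hπ hqM x).symm
  exact h1.trans (h2.trans h4)

/-- **`v₃` lies over the Gauss valuation of the good level along `α₂ ∘ α`.** -/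
theorem alpha2_alpha_mem_O3_iff (hπ : Irreducible π) (hqM : ¬ q ∣ M')
    (hE' : FK (M' * q) K ≤ fracField (AK A K)) (hE : FK (M' * q * q) K ≤ fracField (AK A K))
    (x : FK M' K) :
    alpha K (M' * q) q (alpha K M' q x) ∈ O2 (M' * q) q (isUnif_of_irreducible (AK A K) hπ) hE ↔
      (x : LaurentSeries K) ∈ gaussRing (AK A K) :=
  (alpha2_mem_O3_iff M' q _ hE' hE _).trans (alpha_mem_O2_iff M' q hπ hqM hE' x)

/-- **`v₃` lies over the Gauss valuation of the good level along `β₂ ∘ β`** (the `C₃`-side map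
`φ := β₂ ∘ β` of the type I points: residue degree one, see `iota3_beta2_beta`). -/
theorem beta2_beta_mem_O3_iff (hπ : Irreducible π) (hqM : ¬ q ∣ M')
    (hE' : FK (M' * q) K ≤ fracField (AK A K)) (hE : FK (M' * q * q) K ≤ fracField (AK A K))
    (x : FK M' K) :
    beta K (M' * q) q (beta K M' q x) ∈ O2 (M' * q) q (isUnif_of_irreducible (AK A K) hπ) hE ↔
      (x : LaurentSeries K) ∈ gaussRing (AK A K) :=
  (beta2_mem_O3_iff M' q _ hE' hE _).trans (beta_mem_O2_iff M' q hπ hqM hE' x)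

/-- The `v₃`-residue of `β₂ (β x)` is the Gauss residue of `W_{M'} x`. -/
theorem redOf_beta2_beta (hπ : IsUnif (AK A K) π) (hE : FK (M' * q * q) K ≤ fracField (AK A K))
    (x : FK M' K) (hx : iotaAlg M' K x ∈ gaussRing (AK A K))
    (hx' : beta K (M' * q) q (beta K M' q x) ∈ O2 (M' * q) q hπ hE) :
    redOf (isGaussPullback_O2 (M' * q) q hπ hE) ⟨beta K (M' * q) q (beta K M' q x), hx'⟩ =
      gaussRed (AK A K) ⟨iotaAlg M' K x, hx⟩ := by
  rw [redOf_apply]
  congr 1
  exact Subtype.ext (iota3_beta2_beta K M' q x)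

/-- **(d)** `O1″ ≠ O3″`. -/
theorem o1_ne_o3 (hπ : IsUnif (AK A K) π) (hE : FK (M' * q * q) K ≤ fracField (AK A K)) :
    O1 (M' * q) q hπ hE ≠ O2 (M' * q) q hπ hE :=
  OneNeTwo3.o1_ne_o2 (M' * q) q hπ hE

set_option maxHeartbeats 1000000 in
/-- **(c) (V3) export**: the third Gauss pull-back of `F″`: (s1) for `t″ = α₂ (α tM)` and a family of
`q * q * n'` elements of `O3″` with `κ(ι₃ t″~)`-independent residues. -/
theorem v3_export (hπ : Irreducible π) (hE : FK (M' * q * q) K ≤ fracField (AK A K))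
    (hqM : ¬ q ∣ M') (ht : tq (↥K) n e ∈ FK M' K)
    (hjt : jqModC (↥K) ∈ Kt (AK A K) (TBridge15.tG (AK A K) n e)) :
    ∃ (ht₃ : iota2Alg K (M' * q) q (alpha K (M' * q) q (tN q ht)) ∈ gaussRing (AK A K))
      (_ : Transcendental (Res (AK A K))
        (gaussRed (AK A K) ⟨iota2Alg K (M' * q) q (alpha K (M' * q) q (tN q ht)), ht₃⟩))
      (b₃ : Fin (q * q * IntermediateField.relfinrank
        (Kt (AK A K) (TBridge15.tG (AK A K) n e)) (FK M' K)) → FK (M' * q * q) K)
      (hb₃ : ∀ i, b₃ i ∈ O2 (M' * q) q (isUnif_of_irreducible (AK A K) hπ) hE),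
      LinearIndependent
        ↥(kt (AK A K) ⟨iota2Alg K (M' * q) q (alpha K (M' * q) q (tN q ht)), ht₃⟩)
        (fun i => redOf (isGaussPullback_O2 (M' * q) q (isUnif_of_irreducible (AK A K) hπ) hE)
          ⟨b₃ i, hb₃ i⟩) := by
  classical
  have hπu := isUnif_of_irreducible (AK A K) hπ
  have hEM := FK_le_fracField A K M'
  -- the two Gauss pull-backs of the good level
  have hV₁ : IsGaussPullback (AK A K) (FK M' K).val (OvE (AK A K) hπ (FK M' K) hEM) :=
    G2Out22.isGaussPullback_OvE hπ hEM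
  have hV₂ := isGaussPullback_O2N M' K A hπu
  -- `t`-data of the good level
  have ht₁ : (FK M' K).val (tM ht) ∈ gaussRing (AK A K) := TBridge15.tq_mem_gaussRing (AK A K) n e
  have htr₁ : Transcendental (Res (AK A K))
      (gaussRed (AK A K) ⟨(FK M' K).val (tM ht), ht₁⟩) :=
    TBridge15.transcendental_gaussRed_tG (AK A K) n e
  obtain ⟨ht₂M, htr₂M⟩ := GaussVTwoInst25.s1_tM (A := A) M' q hπ hqM ht
  obtain ⟨hn0, -, hirrt⟩ := Fermat.Agent.RED.PUR.GaussInstN25.degLe_irr_tq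
    (AK A K) hπ q M' hqM n e ht hjt
  have := finite_of_relfinrank (tM ht) ht₁ hn0
  have hn := (finrank_eq_relfinrank (O := AK A K) (tM ht) ht₁).le
  obtain ⟨b, hb, hli⟩ := exists_family_of_irr hπ hEM (tM ht) ht₁ hirrt
  -- the level `M' q²`
  have hV := isGaussPullback_O2 (A := A) (K := K) (M' * q) q hπu hE
  have hα : ∀ x : FK M' K,
      iota2Alg K (M' * q) q (alpha K (M' * q) q (alpha K M' q x)) =
        qExpand (↥K) (q * q) (iotaAlg M' K x) := fun x => iota3_alpha2_alpha K M' q x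
  have htN : iota2Alg K (M' * q) q (alpha K (M' * q) q (alpha K M' q (tM ht))) ∈
      gaussRing (AK A K) := by
    rw [hα]; exact GaussVTwoFam25.qExpand_mem_gaussRing (q * q) ht₂M
  have htrN : Transcendental (Res (AK A K))
      (gaussRed (AK A K)
        ⟨iota2Alg K (M' * q) q (alpha K (M' * q) q (alpha K M' q (tM ht))), htN⟩) := by
    have h1 : (⟨iota2Alg K (M' * q) q (alpha K (M' * q) q (alpha K M' q (tM ht))), htN⟩ :
        ↥(gaussRing (AK A K))) =
        ⟨qExpand (↥K) (q * q)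
          ((⟨iotaAlg M' K (tM ht), ht₂M⟩ : ↥(gaussRing (AK A K))) : LaurentSeries K),
          GaussVTwoFam25.qExpand_mem_gaussRing (q * q) ht₂M⟩ := Subtype.ext (hα (tM ht))
    rw [h1, GaussVTwoFam25.gaussRed_qExpand]
    exact GaussVTwoFam25.transcendental_qExpand (q * q) htr₂M
  have hw : iota2Alg K (M' * q) q (jTop K (M' * q * q)) ∈ gaussRing (AK A K) := by
    show iotaAlg (M' * q * q) K (jTop K (M' * q * q)) ∈ gaussRing (AK A K)
    rw [iotaAlg_jTop]; exact jqd_mem_gaussRing (AK A K) 1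
  have hwe : (⟨iota2Alg K (M' * q) q (jTop K (M' * q * q)), hw⟩ : ↥(gaussRing (AK A K))) =
      ⟨qExpand K 1 (jqModC K), jqd_mem_gaussRing (AK A K) 1⟩ :=
    Subtype.ext (iotaAlg_jTop K (M' * q * q))
  have hJ0 : gaussRed (AK A K) ⟨iota2Alg K (M' * q) q (jTop K (M' * q * q)), hw⟩ ≠ 0 := by
    rw [hwe]; exact gaussRed_jqd_ne_zero (AK A K) 1
  have hJ : IsCoprime
      (gaussRed (AK A K) ⟨iota2Alg K (M' * q) q (jTop K (M' * q * q)), hw⟩).order
      ((q * q : ℕ) : ℤ) := by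
    rw [hwe, order_gaussRed_jqd]
    simp only [Nat.cast_one]
    exact (isCoprime_one_left (x := ((q * q : ℕ) : ℤ))).neg_left
  obtain ⟨hb₃, hli₃⟩ := GaussVTwoFam25.family_two_level (q * q) hπ hV₁ hV₂ ht₁ htr₁ ht₂M htr₂M hn
    b hb hli hV (fun x => alpha K (M' * q) q (alpha K M' q x)) hα htN hw hJ0 hJ
  exact ⟨htN, htrN, _, hb₃, hli₃⟩

end Good

end Fermat.Agent.ES.P36.GaussVThree8
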