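/-
Program P (S36), chapter REG, brick R8, `C₃`-side (helper5): **the closed points of type I on the
third component** — the case `i = 2` of `PtsModel9.OneAt` (`hone` of `PtsAsm9.pts_of_targets`) at
the `ModelDefsP9` data, both charts, per `K`.

The `C₃`-side map is `φ := β₂ ∘ β : F_{M'} → F_{M' q²}` (`𝐪 ↦ 𝐪^{q²}`), the branch is
`O3 = v₁ ∘ W_{M' q²}` (expansion at the cusp `0`), and everything is the instance of
`RegIOne16.oneBranch_gauss` (helper16) at `(φ, Ofam 2 = O3)`: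

* `wNN_alpha2_alpha` : `W_{M' q²} ∘ α₂ ∘ α = β₂ ∘ β ∘ W_{M'}` (`FrickeV11.frickeFK_alpha` twice);
* `hcomb_O3_of_O1`   : **`W`-transport of "residue degree one"**: `O1″ = α₂α(Ov_{M'}) + π O1″`
  (the body of `C1Side1.HcombC1`, the single still-open input) implies
  `O3″ = β₂β(Ov_{M'}) + π O3″` (`W_{M'}` is a Gauss isometry, `IsoM25.isoM`);
* `kron_twice`       : **Kronecker twice**: `α x ≡ (β c)^q mod π O2′` on a chart of the good level
  (fields 1/3 of `ModelN4.KronItems`) gives `α₂α x ≡ β₂β (c₂ ^ (q²)) mod π O3″` — the `htw` input;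
* `oneBranch_C3_chart` : the instance for a generic chart pair `(chart R s, chart R T)`,
  `T = α₂α s`, with the position facts `hφO, hposa, hposb` (M3) as named hypotheses;
* **`hone_C3_zero`, `hone_C3_one`** : the two charts `B0 = chart R t`, `B1 = chart R t⁻¹` of the
  model; positions from `GaussVThree8` (helper8), `hy` from `ChartMaps9` (helper9), level-`M'` facts
  from `PrinItems12.LevelItems` (per `K`: `LevelMAt4`), Kronecker from `ModelN4.KronItems` (per `K`: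
  `ModelQAt4.kronItems_at`), `leO/arch/sat` from `MultiCore13.MultiChartModel` (M7).
-/
import Mathlib
import Fermat.Agent.ES.P36.ModelDefsP9
import Fermat.Agent.ES.N34.FrickeV11
import Fermat.Agent.ES.N34.ModelN4
import Fermat.Agent.ES.N34.PrinItems12
import Fermat.Agent.ES.P36.RegIOne16
import Fermat.Agent.ES.P36.GaussVThree8
import Fermat.Agent.ES.P36.ChartMaps9

set_option autoImplicit false
set_option linter.unusedSectionVars false
set_option synthInstance.maxHeartbeats 400000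
set_option maxHeartbeats 1000000

noncomputable section

open HahnSeries ModularCurve

namespace Fermat.Agent.ES.P36.C3Side5

open Fermat.Agent.RED.Interface4 Fermat.Agent.RED.PUR.GaussGen8
  Fermat.Agent.ES.N34.FrickeFK8 Fermat.Agent.ES.N34 Fermat.Agent.ES.P36.ModelDefsP9

variable {A : ValuationSubring Qbar} {K : IntermediateField ℚ Qbar} (M' q : ℕ) [NeZero M']
  [NeZero q] {π : ↥(AK A K)} (hu : IsUnif (AK A K) π)

/-- `W_{M' q²}` fixes the constants of `AK A K`; in particular `W π = π`. -/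
theorem wNN_algebraMap_AK (r : ↥(AK A K)) :
    wNN K M' q (algebraMap ↥(AK A K) ↥(FK (M' * q * q) K) r)
      = algebraMap ↥(AK A K) ↥(FK (M' * q * q) K) r := by
  have h : algebraMap ↥(AK A K) ↥(FK (M' * q * q) K) r
      = algebraMap ↥K ↥(FK (M' * q * q) K) ((r : ↥(AK A K)) : ↥K) := rfl
  rw [h, AlgHom.commutes]

/-- `W_{M' q²} ∘ α₂ ∘ α = β₂ ∘ β ∘ W_{M'}`. -/
theorem wNN_alpha2_alpha (x : FK M' K) :
    wNN K M' q (alpha2 K M' q (ModelDefs9.alpha K M' q x)) =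
      beta2 K M' q (ModelDefs9.beta K M' q (frickeFK M' K x)) := by
  have : NeZero (M' * q) := ⟨Nat.mul_ne_zero (NeZero.ne M') (NeZero.ne q)⟩
  show frickeFK (M' * q * q) K (heckeAlphaBar (↥K) (M' * q) q (heckeAlphaBar (↥K) M' q x)) = _
  rw [FrickeV11.frickeFK_alpha (M' * q) q K, FrickeV11.frickeFK_alpha M' q K]
  rfl

/-- `α₂` and `β₂` fix the constants of `AK A K`. -/
theorem alpha2_algebraMap_AK (r : ↥(AK A K)) :
    alpha2 K M' q (algebraMap ↥(AK A K) ↥(FK (M' * q) K) r)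
      = algebraMap ↥(AK A K) ↥(FK (M' * q * q) K) r := by
  have h : algebraMap ↥(AK A K) ↥(FK (M' * q) K) r
      = algebraMap ↥K ↥(FK (M' * q) K) ((r : ↥(AK A K)) : ↥K) := rfl
  have h' : algebraMap ↥(AK A K) ↥(FK (M' * q * q) K) r
      = algebraMap ↥K ↥(FK (M' * q * q) K) ((r : ↥(AK A K)) : ↥K) := rfl
  rw [h, h', AlgHom.commutes]

theorem beta2_algebraMap_AK (r : ↥(AK A K)) :
    beta2 K M' q (algebraMap ↥(AK A K) ↥(FK (M' * q) K) r)
      = algebraMap ↥(AK A K) ↥(FK (M' * q * q) K) r := by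
  have h : algebraMap ↥(AK A K) ↥(FK (M' * q) K) r
      = algebraMap ↥K ↥(FK (M' * q) K) ((r : ↥(AK A K)) : ↥K) := rfl
  have h' : algebraMap ↥(AK A K) ↥(FK (M' * q * q) K) r
      = algebraMap ↥K ↥(FK (M' * q * q) K) ((r : ↥(AK A K)) : ↥K) := rfl
  rw [h, h', AlgHom.commutes]

/-- **W-transport of "residue degree one"** at level `M' q²`: `O1 = α₂α(Ov_{M'}) + π O1` implies
`O3 = β₂β(Ov_{M'}) + π O3` (the `hcomb` hypothesis of `RegIGauss16.locStartM_gauss` on the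
`C₃`-side). -/
theorem hcomb_O3_of_O1
    (hiso : ∀ x : FK M' K, (x : LaurentSeries ↥K) ∈ gaussRing (AK A K) ↔
      ((frickeFK M' K x : FK M' K) : LaurentSeries ↥K) ∈ gaussRing (AK A K))
    (h1 : ∀ x ∈ O1 M' q hu, ∃ z : FK M' K, (z : LaurentSeries ↥K) ∈ gaussRing (AK A K) ∧
      ∃ c ∈ O1 M' q hu, x - alpha2 K M' q (ModelDefs9.alpha K M' q z) =
        algebraMap ↥(AK A K) ↥(FK (M' * q * q) K) π * c) :
    ∀ x ∈ O3 M' q hu, ∃ z : FK M' K, (z : LaurentSeries ↥K) ∈ gaussRing (AK A K) ∧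
      ∃ c ∈ O3 M' q hu, x - beta2 K M' q (ModelDefs9.beta K M' q z) =
        algebraMap ↥(AK A K) ↥(FK (M' * q * q) K) π * c := by
  intro x hx
  obtain ⟨z, hz, c, hc, hxz⟩ := h1 (wNN K M' q x) ((mem_O3_iff_wNN_mem_O1 M' q hu x).mp hx)
  refine ⟨frickeFK M' K z, (hiso z).mp hz, wNN K M' q c,
    (wNN_mem_O3_iff M' q hu c).mpr hc, ?_⟩
  have h2 := congrArg (wNN K M' q) hxz
  rw [map_sub, map_mul, wNN_wNN, wNN_alpha2_alpha, wNN_algebraMap_AK] at h2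
  exact h2

/-- **Kronecker twice**: modulo `π O3`, `α₂α x` is `β₂β` of an element of the same level-`M'`
chart (`x ≡ (β c₁)^q`, `c₁ ≡ (β c₂)^q` at level `M' q`, hence `α₂α x ≡ β₂β (c₂ ^ (q²))`). -/
theorem kron_twice (hE : FK (M' * q) K ≤ fracField (AK A K))
    (BM : Subalgebra ↥(AK A K) ↥(FK M' K))
    (hkron : ∀ x : ↥BM, ∃ c : ↥BM, ∃ o ∈ ModelDefs9.O2 M' q hu hE,
      ModelDefs9.alpha K M' q (x : ↥(FK M' K)) - (ModelDefs9.beta K M' q (c : ↥(FK M' K))) ^ q =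
        algebraMap ↥(AK A K) ↥(FK (M' * q) K) π * o)
    (hposa : ∀ x ∈ ModelDefs9.O2 M' q hu hE, alpha2 K M' q x ∈ O3 M' q hu)
    (hposb : ∀ x ∈ ModelDefs9.O2 M' q hu hE, beta2 K M' q x ∈ O3 M' q hu)
    (hφB : ∀ c : ↥BM, beta2 K M' q (ModelDefs9.beta K M' q (c : ↥(FK M' K))) ∈ O3 M' q hu)
    (hπO : algebraMap ↥(AK A K) ↥(FK (M' * q * q) K) π ∈ O3 M' q hu)
    (x : ↥BM) :
    ∃ w : ↥BM, ∃ o ∈ O3 M' q hu,
      alpha2 K M' q (ModelDefs9.alpha K M' q (x : ↥(FK M' K))) -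
        beta2 K M' q (ModelDefs9.beta K M' q (w : ↥(FK M' K))) =
        algebraMap ↥(AK A K) ↥(FK (M' * q * q) K) π * o := by
  obtain ⟨c₁, o₁, ho₁, h1⟩ := hkron x
  obtain ⟨c₂, o₂, ho₂, h2⟩ := hkron c₁
  -- apply `α₂` to the first and `β₂` to the second congruence
  have h1' := congrArg (alpha2 K M' q) h1
  rw [map_sub, map_pow, map_mul, alpha2_algebraMap_AK, alpha2_beta] at h1'
  have h2' := congrArg (beta2 K M' q) h2
  rw [map_sub, map_pow, map_mul, beta2_algebraMap_AK] at h2'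
  set P := algebraMap ↥(AK A K) ↥(FK (M' * q * q) K) π with hP
  set a := (beta2 K M' q (ModelDefs9.beta K M' q (c₂ : ↥(FK M' K)))) ^ q with ha
  set y := beta2 K M' q (ModelDefs9.alpha K M' q (c₁ : ↥(FK M' K))) with hy
  have haO : a ∈ O3 M' q hu := pow_mem (hφB c₂) q
  have ho' : beta2 K M' q o₂ ∈ O3 M' q hu := hposb o₂ ho₂
  have hyO : y ∈ O3 M' q hu := by
    have : y = a + P * beta2 K M' q o₂ := by rw [← h2']; ring
    rw [this]
    exact (O3 M' q hu).add_mem _ _ haO ((O3 M' q hu).mul_mem _ _ hπO ho')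
  -- `y ^ q - a ^ q = (y - a) * S`
  set S := ∑ i ∈ Finset.range q, y ^ i * a ^ (q - 1 - i) with hS
  have hSO : S ∈ O3 M' q hu :=
    (O3 M' q hu).toSubring.sum_mem fun i _ =>
      (O3 M' q hu).mul_mem _ _ (pow_mem hyO i) (pow_mem haO _)
  have hgeom : S * (y - a) = y ^ q - a ^ q := geom_sum₂_mul y a q
  refine ⟨c₂ ^ (q * q), S * beta2 K M' q o₂ + alpha2 K M' q o₁,
    (O3 M' q hu).add_mem _ _ ((O3 M' q hu).mul_mem _ _ hSO ho') (hposa o₁ ho₁), ?_⟩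
  have hw : beta2 K M' q (ModelDefs9.beta K M' q ((c₂ ^ (q * q) : ↥BM) : ↥(FK M' K))) = a ^ q := by
    rw [ha, ← pow_mul, ← map_pow, ← map_pow]
    rfl
  rw [hw]
  have hya : y - a = P * beta2 K M' q o₂ := h2'
  calc alpha2 K M' q (ModelDefs9.alpha K M' q (x : ↥(FK M' K))) - a ^ q
      = (alpha2 K M' q (ModelDefs9.alpha K M' q (x : ↥(FK M' K))) - y ^ q) + (y ^ q - a ^ q) := by
        ring
    _ = P * alpha2 K M' q o₁ + S * (y - a) := by rw [h1', hgeom]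
    _ = P * (S * beta2 K M' q o₂ + alpha2 K M' q o₁) := by rw [hya]; ring


section Assembly

open Fermat.Agent.RED.PUR.G1Package8 Fermat.Agent.RED.PUR.ChartGeneric22 Fermat.Agent.RED.ModelAsm4
  Fermat.Agent.ES.N34.CompHyp16 Fermat.Agent.ES.N34.LevelM20 Fermat.Agent.ES.N34.NodalCore13
  Fermat.Agent.ES.P36.MultiCore13 Fermat.Agent.ES.P36.NumAbsP13 Fermat.Agent.ES.N34.GaussEmb22

variable {n e : ℕ} [NeZero n]

/-- The `C₃`-side map `φ := β₂ ∘ β : F_{M'} → F_{M' q²}` (`𝐪 ↦ 𝐪^{q²}`). -/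
def phi3 : FK M' K →ₐ[K] FK (M' * q * q) K := (beta2 K M' q).comp (ModelDefs9.beta K M' q)

theorem phi3_apply (x : FK M' K) :
    phi3 (K := K) M' q x = beta2 K M' q (ModelDefs9.beta K M' q x) := rfl

set_option maxHeartbeats 4000000 in
/-- **The points of type I on `C₃`** (only `v₃` passes), generic chart `chart R s` of the good level
mapped to the chart `chart R T` of level `M' q²`. -/
theorem oneBranch_C3_chart [IsDiscreteValuationRing ↥(AK A K)] (hq1 : 1 ≤ q)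
    (s : ↥(FK M' K)) (L : LevelM (AK A K) (FK M' K) π s)
    (T : ↥(FK (M' * q * q) K)) (hE' : FK (M' * q) K ≤ fracField (AK A K))
    (O2 : ValuationSubring ↥(FK (M' * q * q) K))
    (hiso : ∀ x : FK M' K, (x : LaurentSeries ↥K) ∈ gaussRing (AK A K) ↔
      ((frickeFK M' K x : FK M' K) : LaurentSeries ↥K) ∈ gaussRing (AK A K))
    (hφO : ∀ z : FK M' K, beta2 K M' q (ModelDefs9.beta K M' q z) ∈ O3 M' q hu ↔
      (z : LaurentSeries ↥K) ∈ gaussRing (AK A K))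
    (hposa : ∀ x ∈ ModelDefs9.O2 M' q hu hE', alpha2 K M' q x ∈ O3 M' q hu)
    (hposb : ∀ x ∈ ModelDefs9.O2 M' q hu hE', beta2 K M' q x ∈ O3 M' q hu)
    (hkron : ∀ x : ↥(chart ↥(AK A K) s), ∃ c : ↥(chart ↥(AK A K) s),
      ∃ o ∈ ModelDefs9.O2 M' q hu hE',
        ModelDefs9.alpha K M' q (x : ↥(FK M' K)) - (ModelDefs9.beta K M' q (c : ↥(FK M' K))) ^ q =
          algebraMap ↥(AK A K) ↥(FK (M' * q) K) π * o)
    (hT : T = alpha2 K M' q (ModelDefs9.alpha K M' q s))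
    (hcomb1 : ∀ x ∈ O1 M' q hu, ∃ z : FK M' K, (z : LaurentSeries ↥K) ∈ gaussRing (AK A K) ∧
      ∃ c ∈ O1 M' q hu, x - alpha2 K M' q (ModelDefs9.alpha K M' q z) =
        algebraMap ↥(AK A K) ↥(FK (M' * q * q) K) π * c)
    (hy : beta2 K M' q (ModelDefs9.beta K M' q s) ∈ chart ↥(AK A K) T)
    (leO : ∀ j, ∀ x ∈ chart ↥(AK A K) T, x ∈ Ofam M' q hu O2 j)
    (arch : ∀ j, ∀ x : ↥(FK (M' * q * q) K), ∃ k : ℕ,
      algebraMap ↥(AK A K) ↥(FK (M' * q * q) K) π ^ k * x ∈ Ofam M' q hu O2 j)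
    (sat : ∀ b ∈ chart ↥(AK A K) T, ∀ c : ↥(FK (M' * q * q) K), (∀ j, c ∈ Ofam M' q hu O2 j) →
      b = algebraMap ↥(AK A K) ↥(FK (M' * q * q) K) π * c → c ∈ chart ↥(AK A K) T)
    (𝔪 : Ideal ↥(chart ↥(AK A K) T)) (h𝔪 : 𝔪.IsMaximal)
    (hπ𝔪 : algebraMap ↥(AK A K) ↥(chart ↥(AK A K) T) π ∈ 𝔪)
    (hoff : ∀ j, j ≠ 2 → OffBranch π (chart ↥(AK A K) T) (Ofam M' q hu O2 j) 𝔪) :
    @OneBranch _ _ _ _ _ q π (chart ↥(AK A K) T) (Fin 3) (Ofam M' q hu O2) 𝔪 h𝔪.isPrime := by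
  obtain ⟨n', hdeg, hirrM⟩ := L.deg_irr
  have hirr : Irreducible π := L.irr
  have hOj : IsGaussPullback (AK A K) (iota3 K M' q) (Ofam M' q hu O2 2) :=
    IsoM25.isGaussPullback_O2N (M' * q * q) K A hu
  have hπO : algebraMap ↥(AK A K) ↥(FK (M' * q * q) K) π ∈ O3 M' q hu := algebraMap_O_mem hOj π
  have hφB : ∀ c : ↥(chart ↥(AK A K) s),
      beta2 K M' q (ModelDefs9.beta K M' q (c : ↥(FK M' K))) ∈ O3 M' q hu := fun c =>
    (hφO _).mpr ((mem_OvE_iff (AK A K) hirr (FK M' K) L.hEM _).mp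
      (CompGauss16.levelM_le hirr L.hEM s L.htM _ c.2))
  have hpi_ne : algebraMap ↥(AK A K) ↥(FK (M' * q * q) K) π ≠ 0 := by
    rw [algebraMap_O_eq]
    intro h
    exact hirr.ne_zero (Subtype.ext ((map_eq_zero _).mp h))
  have h1 : ∀ z : ↥(FK M' K), phi3 (K := K) M' q z ∈ Ofam M' q hu O2 2 ↔
      z ∈ OvE (AK A K) hirr (FK M' K) L.hEM := fun z =>
    (hφO z).trans (mem_OvE_iff (AK A K) hirr (FK M' K) L.hEM z).symm
  have h2 : ∃ w : ↥(chart ↥(AK A K) s),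
      PiMul π (Ofam M' q hu O2 2) (T - phi3 (K := K) M' q (w : ↥(FK M' K))) := by
    obtain ⟨w, o, ho, hw⟩ := kron_twice M' q hu hE' (chart ↥(AK A K) s) hkron hposa hposb hφB hπO
      ⟨s, self_mem_chart s⟩
    refine ⟨w, o, ho, ?_⟩
    rw [hT]
    exact hw
  have h3 : ∀ x ∈ Ofam M' q hu O2 2, ∃ z ∈ OvE (AK A K) hirr (FK M' K) L.hEM,
      ∃ c ∈ Ofam M' q hu O2 2,
        x - phi3 (K := K) M' q z = algebraMap ↥(AK A K) ↥(FK (M' * q * q) K) π * c := by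
    intro x hx
    obtain ⟨z, hz, c, hc, h⟩ := hcomb_O3_of_O1 M' q hu hiso hcomb1 x hx
    exact ⟨z, (mem_OvE_iff (AK A K) hirr (FK M' K) L.hEM z).mpr hz, c, hc, h⟩
  exact RegIOne16.oneBranch_gauss (h𝔪 := h𝔪) q hq1 (Ofam M' q hu O2) 2 hirr L.hEM s L.htM L.htrM
    L.hn' hdeg hirrM L.hsm (phi3 (K := K) M' q) T hOj h1 hy h2 h3 leO hpi_ne arch sat 𝔪 hπ𝔪 hoff

end Assembly

/-! ### The two charts of the model: the `i = 2` case of `hone` in `PtsAsm9.pts_of_targets` -/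

section Model

open Fermat.Agent.RED.PUR.G1Package8 Fermat.Agent.RED.PUR.ChartGeneric22
  Fermat.Agent.RED.PUR.GaussBridge10 Fermat.Agent.ES.N34.LevelM20 Fermat.Agent.RED.BASE.EtaQuot12
  Fermat.Agent.ES.P36.MultiCore13 Fermat.Agent.ES.P36.NumAbsP13 Fermat.Agent.ES.N34.NodalCore13

variable {n e : ℕ} [NeZero n]

set_option maxHeartbeats 4000000 in
/-- **R8, `C₃`-side, chart `0`**: at a closed point `𝔪 ∋ π` of `B0 = chart R t` (level `M' q²`)
through which only `v₃ = Ofam 2` passes, `OneBranch` holds.  Per `K`; suppliers: `hL` =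
`LevelMAt4.levelItems_four_at/_nine_at`; `hS2`, `hKr` = `ModelQAt4.items_at` (`ModEqItems`,
`KronItems` of level `M' q`); `model` = M7 (`MultiCore13.MultiChartModel` at level `M' q²`);
`hcomb1` = residue degree one of `v₁` along `α₂ ∘ α` (`O1″ = α₂α(Ov_{M'}) + π O1″`, literally the
body of `C1Side1.HcombC1`); the `C₃`-side `hcomb` is its `W`-transport (`hcomb_O3_of_O1`). -/
theorem hone_C3_zero (hq : q.Prime) (hqM : ¬ q ∣ M') (hA : A.LiesOverPrime q)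
    [FiniteDimensional ℚ K]
    (hL : PrinItems12.LevelItems n e M' A K) (hS2 : ModelN4.ModEqItems n e q M' A K)
    (hKr : ModelN4.KronItems n e q M' A K)
    (ht : tq (↥K) n e ∈ FK M' K) (O2 : ValuationSubring ↥(FK (M' * q * q) K))
    (model : MultiChartModel ↥(AK A K) ↥(FK (M' * q * q) K) π (t q ht) (B0 A q ht) (B1 A q ht)
      (Ofam M' q hu O2))
    (hcomb1 : ∀ x ∈ O1 M' q hu, ∃ z : FK M' K, (z : LaurentSeries ↥K) ∈ gaussRing (AK A K) ∧
      ∃ c ∈ O1 M' q hu, x - alpha2 K M' q (ModelDefs9.alpha K M' q z) =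
        algebraMap ↥(AK A K) ↥(FK (M' * q * q) K) π * c)
    (𝔪 : Ideal ↥(B0 A q ht)) (h𝔪 : 𝔪.IsMaximal)
    (hπ𝔪 : algebraMap ↥(AK A K) ↥(B0 A q ht) π ∈ 𝔪)
    (hoff : ∀ j, j ≠ 2 → OffBranch π (B0 A q ht) (Ofam M' q hu O2 j) 𝔪) :
    @OneBranch _ _ _ _ _ q π (B0 A q ht) (Fin 3) (Ofam M' q hu O2) 𝔪 h𝔪.isPrime := by
  have hdvr : IsDiscreteValuationRing ↥(AK A K) :=
    Fermat.Agent.RED.DESC.NumberFieldDVR27.isDiscreteValuationRing_AK A K hq.ne_zero hA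
  have hirr : Irreducible π := (IsDiscreteValuationRing.irreducible_iff_uniformizer π).mpr hu.max_eq
  have : Fact q.Prime := ⟨hq⟩
  have : CharP (Res (AK A K)) q :=
    Fermat.Agent.RED.DESC.NumberFieldDVR27.charP_residueField_AK A K hq hA
  have hE' : FK (M' * q) K ≤ fracField (AK A K) := FK_le_fracField A K (M' * q)
  have hE : FK (M' * q * q) K ≤ fracField (AK A K) := FK_le_fracField A K (M' * q * q)
  obtain ⟨_, _, hLM⟩ := hL
  obtain ⟨L0, -⟩ := hLM π hirr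
  have L0' : LevelM (AK A K) (FK M' K) π (ModelDefs9.tM ht) := L0
  obtain ⟨k1, -, -, -⟩ := hKr ht hE' π hu
  exact oneBranch_C3_chart M' q hu hq.one_le (ModelDefs9.tM ht) L0' (t q ht) hE' O2
    (fun x => IsoM25.isoM A K M' q hirr hqM x)
    (fun z => GaussVThree8.beta2_beta_mem_O3_iff M' q hirr hqM hE' hE z)
    (fun x hx => (GaussVThree8.alpha2_mem_O3_iff M' q hu hE' hE x).mpr hx)
    (fun x hx => (GaussVThree8.beta2_mem_O3_iff M' q hu hE' hE x).mpr hx)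
    k1 rfl hcomb1 (ChartMaps9.t2_mem_B0 ht (hS2 ht).1) model.le_O_0 model.arch model.sat0
    𝔪 h𝔪 hπ𝔪 hoff

set_option maxHeartbeats 4000000 in
/-- **R8, `C₃`-side, chart `1`** (`B1 = chart R t⁻¹`, over the chart `B1M = chart R tM⁻¹` of the
good level). -/
theorem hone_C3_one (hq : q.Prime) (hqM : ¬ q ∣ M') (hA : A.LiesOverPrime q)
    [FiniteDimensional ℚ K]
    (hL : PrinItems12.LevelItems n e M' A K) (hS2 : ModelN4.ModEqItems n e q M' A K)
    (hKr : ModelN4.KronItems n e q M' A K)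
    (ht : tq (↥K) n e ∈ FK M' K) (O2 : ValuationSubring ↥(FK (M' * q * q) K))
    (model : MultiChartModel ↥(AK A K) ↥(FK (M' * q * q) K) π (t q ht) (B0 A q ht) (B1 A q ht)
      (Ofam M' q hu O2))
    (hcomb1 : ∀ x ∈ O1 M' q hu, ∃ z : FK M' K, (z : LaurentSeries ↥K) ∈ gaussRing (AK A K) ∧
      ∃ c ∈ O1 M' q hu, x - alpha2 K M' q (ModelDefs9.alpha K M' q z) =
        algebraMap ↥(AK A K) ↥(FK (M' * q * q) K) π * c)
    (𝔪 : Ideal ↥(B1 A q ht)) (h𝔪 : 𝔪.IsMaximal)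
    (hπ𝔪 : algebraMap ↥(AK A K) ↥(B1 A q ht) π ∈ 𝔪)
    (hoff : ∀ j, j ≠ 2 → OffBranch π (B1 A q ht) (Ofam M' q hu O2 j) 𝔪) :
    @OneBranch _ _ _ _ _ q π (B1 A q ht) (Fin 3) (Ofam M' q hu O2) 𝔪 h𝔪.isPrime := by
  have hdvr : IsDiscreteValuationRing ↥(AK A K) :=
    Fermat.Agent.RED.DESC.NumberFieldDVR27.isDiscreteValuationRing_AK A K hq.ne_zero hA
  have hirr : Irreducible π := (IsDiscreteValuationRing.irreducible_iff_uniformizer π).mpr hu.max_eq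
  have : Fact q.Prime := ⟨hq⟩
  have : CharP (Res (AK A K)) q :=
    Fermat.Agent.RED.DESC.NumberFieldDVR27.charP_residueField_AK A K hq hA
  have hE' : FK (M' * q) K ≤ fracField (AK A K) := FK_le_fracField A K (M' * q)
  have hE : FK (M' * q * q) K ≤ fracField (AK A K) := FK_le_fracField A K (M' * q * q)
  obtain ⟨_, _, hLM⟩ := hL
  obtain ⟨-, L1⟩ := hLM π hirr
  have L1' : LevelM (AK A K) (FK M' K) π (ModelDefs9.tM ht)⁻¹ := L1
  obtain ⟨-, -, k3, -⟩ := hKr ht hE' π hu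
  have hT : (t q ht)⁻¹ = alpha2 K M' q (ModelDefs9.alpha K M' q (ModelDefs9.tM ht)⁻¹) := by
    rw [map_inv₀, map_inv₀]
    rfl
  have hy' : beta2 K M' q (ModelDefs9.beta K M' q (ModelDefs9.tM ht)⁻¹) ∈
      chart ↥(AK A K) (t q ht)⁻¹ := by
    rw [map_inv₀, map_inv₀]
    exact ChartMaps9.t2_inv_mem_B1 ht (hS2 ht).2
  exact oneBranch_C3_chart M' q hu hq.one_le (ModelDefs9.tM ht)⁻¹ L1' (t q ht)⁻¹ hE' O2
    (fun x => IsoM25.isoM A K M' q hirr hqM x)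
    (fun z => GaussVThree8.beta2_beta_mem_O3_iff M' q hirr hqM hE' hE z)
    (fun x hx => (GaussVThree8.alpha2_mem_O3_iff M' q hu hE' hE x).mpr hx)
    (fun x hx => (GaussVThree8.beta2_mem_O3_iff M' q hu hE' hE x).mpr hx)
    k3 hT hcomb1 hy' model.le_O_1 model.arch model.sat1 𝔪 h𝔪 hπ𝔪 hoff

end Model

end Fermat.Agent.ES.P36.C3Side5
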