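/-
Program P (S36), AMENDMENT 2 (per-`K` statements, no `∃ K₀`), helper26.

PER-`K` form of `ChartNInst26.chartInputs_tN_of_targets`: the complete non-Gauss chart input
`ChartN26.ChartInputsAt (AK A K) (FK (M' * q) K) ϖ (tN q ht)` at ONE finite `K`, from the two LEAF
hypotheses
* `ht : tq K n e ∈ FK M' K`                              (helper4's (K1)),
* `hJ : jqModC K ∈ IntermediateField.adjoin K {tq K n e}` (helper4's (K2)).
No largeness, no normality, `K` may be anything finite over `ℚ` (in particular inertial at `A`).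
-/
import Mathlib
import Fermat.Agent.ES.N34.ChartNInst26

set_option autoImplicit false

noncomputable section

open HahnSeries ModularCurve IntermediateField

namespace Fermat.Agent.ES.P36.ChartAt26

open Fermat.Agent.RED.Interface4 Fermat.Agent.RED.PUR.GaussGen8 Fermat.Agent.RED.PUR.KtGauss8
  Fermat.Agent.RED.ModelTargets4 Fermat.Agent.RED.BASE.EtaQuot12 Fermat.Agent.X0
  Fermat.Agent.RED.DESC.NumberFieldDVR27 Fermat.Agent.RED.ModelMain4
  Fermat.Agent.RED.BASE.Interface12 Fermat.Agent.RED.PUR.ChartGeneric22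
  Fermat.Agent.ES.N34.NodalCore13 Fermat.Agent.ES.N34.ChartN26 Fermat.Agent.ES.N34.ModelDefs9

variable {n e M' : ℕ} [NeZero n] [NeZero M'] (q : ℕ) [NeZero q] {A : ValuationSubring Qbar}

/-- **S1 at the `ModelDefs9` data, at ONE number field `K`** (leaf hypotheses `ht`, `hJ`). -/
theorem chartInputs_tN_at {ℓ : ℕ} (hℓ : ℓ.Prime) (hA : A.LiesOverPrime ℓ)
    (K : IntermediateField ℚ Qbar) [FiniteDimensional ℚ K]
    (ht : tq (↥K) n e ∈ FK M' K)
    (hJ : jqModC K ∈ IntermediateField.adjoin K {tq (↥K) n e}) :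
    IsDiscreteValuationRing ↥(AK A K) ∧
      ∀ ϖ : ↥(AK A K), Irreducible ϖ →
        ChartInputsAt (AK A K) (FK (M' * q) K) ϖ (tN q ht) := by
  have hdvr : IsDiscreteValuationRing ↥(AK A K) := isDiscreteValuationRing_AK A K hℓ.ne_zero hA
  refine ⟨hdvr, fun ϖ hϖ => ?_⟩
  have htq : ((tN q ht : ↥(FK (M' * q) K)) : LaurentSeries K) = tq (↥K) n e := coe_tN q ht
  have htG : ((tN q ht : ↥(FK (M' * q) K)) : LaurentSeries K) ∈ gaussRing (AK A K) := by
    rw [htq]; exact tq_mem_gaussRing (AK A K) n e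
  have h1 : (⟨((tN q ht : ↥(FK (M' * q) K)) : LaurentSeries K), htG⟩ : ↥(gaussRing (AK A K))) =
      ⟨tq (↥K) n e, tq_mem_gaussRing (AK A K) n e⟩ := Subtype.ext htq
  have htr : Transcendental (Res (AK A K))
      (gaussRed (AK A K) ⟨((tN q ht : ↥(FK (M' * q) K)) : LaurentSeries K), htG⟩) := by
    rw [h1]
    exact transcendental_gaussRed_tq (AK A K) n e
  have hjt : jqModC K ∈ Kt (AK A K) ⟨((tN q ht : ↥(FK (M' * q) K)) : LaurentSeries K), htG⟩ := by
    rw [h1]
    exact hJ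
  have : NeZero (M' * q) := ⟨Nat.mul_ne_zero (NeZero.ne M') (NeZero.ne q)⟩
  have hn : relfinrank (Kt (AK A K) ⟨((tN q ht : ↥(FK (M' * q) K)) : LaurentSeries K), htG⟩)
      (FK (M' * q) K) ≠ 0 :=
    relfinrank_ne_zero (AK A K) (M' * q) _ (tN q ht).2 hjt
  exact chartInputs_gauss hϖ (tN q ht) htG htr hn

end Fermat.Agent.ES.P36.ChartAt26
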