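/-
Program P (S36), chapter MODEL-P, brick M1 (helper14): the CHART-generic fields for a model with
FINITELY MANY vertical valuations (twin of `ES/N34/ChartN26` for `MultiCore13.MultiChartModel`).

For abstract `(R, K, F, t)` -- `R` a noetherian integrally closed domain, `K = Frac R` of characteristic
zero, `t ∈ F` transcendental over `K`, `F` finite over `K(t)` -- the charts `B0 := chart R t` (integral
closure of `R[t]` in `F`) and `B1 := chart R t⁻¹` satisfy every field of `MultiChartModel` that does not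
involve the vertical valuation rings; `le_O_*` follow from `R ⊆ O i`, `t^{±1} ∈ O i`; the remaining
fields (`pi_ne, pi_nonunit, arch, sat0, sat1`) are hypotheses (deliverable of M5/M6).

* `multiChartModel_of`            : the abstract statement;
* `ChartInputsM`, `chartInputsM_of` : the bundle (complete non-Gauss input of `MultiCore13.multi_core_const`
                                    and of the local chapters: noetherian charts with fraction field `F`,
                                    `fracR`, `dvrR`, `hKF`, `htr`);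
* `mem_of_isIntegral_field_fam`   : family version of `SatIntegral18.mem_of_isIntegral_field`
                                    ("integral over `K[s]` + in every `O i` ⇒ in the chart");
* `chartInputsM_gauss`            : over a DVR `O : ValuationSubring K`, `E ≤ K((𝐪))`, `t ∈ E ∩ gaussRing O`
                                    with transcendental residue;
* `chartInputsM_of_targets`, `chartInputsM_four`, `chartInputsM_nine` : arithmetic data `R := AK A K`,
                                    `F := FK N K`, `t := tq K n e`, ANY level `N` with `4 ∣ N` resp. `9 ∣ N`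
                                    (in Program P: `N = M' * q * q`), for all large number fields `K`.
-/
import Mathlib
import Fermat.Agent.ES.N34.ChartN26
import Fermat.Agent.ES.N34.SatIntegral18
import Fermat.Agent.ES.P36.MultiCore13

set_option autoImplicit false

namespace Fermat.Agent.ES.P36.ChartP14

open Polynomial Fermat.Agent.RED.PUR.ChartGeneric22 Fermat.Agent.ES.P36.MultiCore13
open Fermat.Agent.ES.N34.ChartN26

section Abstract

variable {R K F : Type*} [CommRing R] [IsDomain R] [Field K] [Field F] [Algebra R K] [Algebra K F]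
  [Algebra R F] [IsScalarTower R K F] [IsFractionRing R K] [IsNoetherianRing R]
  [IsIntegrallyClosed R] [CharZero K]

/-- **The generic part of `MultiChartModel`**: for the charts `chart R t`, `chart R t⁻¹` all fields not
involving the vertical valuation rings hold, and `le_O_*` follow from `R ⊆ O i`, `t^{±1} ∈ O i`; the
remaining fields are hypotheses. -/
theorem multiChartModel_of {π : R} {t : F} {ι : Type*} [Nonempty ι] (O : ι → ValuationSubring F)
    [FiniteDimensional (IntermediateField.adjoin K {t}) F] (htr : Transcendental K t)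
    (R_le_O : ∀ i, ∀ r : R, algebraMap R F r ∈ O i)
    (t_mem_O : ∀ i, t ∈ O i) (tinv_mem_O : ∀ i, t⁻¹ ∈ O i)
    (pi_ne : algebraMap R F π ≠ 0)
    (pi_nonunit : ∀ i, (algebraMap R F π)⁻¹ ∉ O i)
    (arch : ∀ i, ∀ x : F, ∃ k : ℕ, algebraMap R F π ^ k * x ∈ O i)
    (sat0 : ∀ b ∈ chart R t, ∀ c : F, (∀ i, c ∈ O i) → b = algebraMap R F π * c → c ∈ chart R t)
    (sat1 : ∀ b ∈ chart R t⁻¹, ∀ c : F, (∀ i, c ∈ O i) → b = algebraMap R F π * c →
      c ∈ chart R t⁻¹) :
    MultiChartModel R F π t (chart R t) (chart R t⁻¹) O := by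
  have ht0 : t ≠ 0 := by
    rintro rfl
    exact htr (isAlgebraic_zero)
  have hmem : t ∈ IntermediateField.adjoin K {t} := IntermediateField.mem_adjoin_simple_self K t
  obtain ⟨-, -, hg0⟩ := chart_facts (R := R) (IntermediateField.adjoin K {t}) hmem le_rfl htr
  exact
    { noethR := inferInstance
      nonempty := inferInstance
      t_ne := ht0
      t_mem := self_mem_chart t
      tinv_mem := self_mem_chart t⁻¹
      intcl0 := chart_intcl t
      intcl1 := chart_intcl t⁻¹
      int0 := fun x hx => hx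
      int1 := fun x hx => hx
      fin0 := hg0
      ov0 := fun x hx => exists_pow_mul_mem_chart ht0 hx
      ov1 := fun x hx => by
        have hx' : x ∈ chart R (t⁻¹)⁻¹ := by rwa [inv_inv]
        exact exists_pow_mul_mem_chart (inv_ne_zero ht0) hx'
      le_O_0 := fun i => chart_le_valuationSubring (O i) (R_le_O i) (t_mem_O i)
      le_O_1 := fun i => chart_le_valuationSubring (O i) (R_le_O i) (tinv_mem_O i)
      tinv_mem_O := tinv_mem_O
      pi_ne := pi_ne
      pi_nonunit := pi_nonunit
      arch := arch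
      sat0 := sat0
      sat1 := sat1 }

end Abstract

section Bundle

variable (R K F : Type*) [CommRing R] [Field K] [Field F] [Algebra R K] [Algebra K F]
  [Algebra R F] [IsScalarTower R K F]

/-- The complete NON-Gauss input of `MultiCore13.multi_core_const` (and of the local chapters) for the
charts `chart R t`, `chart R t⁻¹`. Twin of `ChartN26.ChartInputs`; `ι` ranges over `Type`. -/
structure ChartInputsM (π : R) (t : F) : Prop where
  /-- the model, given the vertical fields for ANY nonempty family of valuation subrings -/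
  model : ∀ {ι : Type} [Nonempty ι] (O : ι → ValuationSubring F),
    (∀ i, ∀ r : R, algebraMap R F r ∈ O i) →
    (∀ i, t ∈ O i) → (∀ i, t⁻¹ ∈ O i) →
    algebraMap R F π ≠ 0 →
    (∀ i, (algebraMap R F π)⁻¹ ∉ O i) →
    (∀ i, ∀ x : F, ∃ k : ℕ, algebraMap R F π ^ k * x ∈ O i) →
    (∀ b ∈ chart R t, ∀ c : F, (∀ i, c ∈ O i) → b = algebraMap R F π * c → c ∈ chart R t) →
    (∀ b ∈ chart R t⁻¹, ∀ c : F, (∀ i, c ∈ O i) → b = algebraMap R F π * c → c ∈ chart R t⁻¹) →
    MultiChartModel R F π t (chart R t) (chart R t⁻¹) O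
  noeth0 : IsNoetherianRing (chart R t)
  noeth1 : IsNoetherianRing (chart R t⁻¹)
  frac0 : ∀ x : F, ∃ a ∈ chart R t, ∃ b ∈ chart R t, b ≠ 0 ∧ x * b = a
  frac1 : ∀ x : F, ∃ a ∈ chart R t⁻¹, ∃ b ∈ chart R t⁻¹, b ≠ 0 ∧ x * b = a
  fracR : IsFractionRing R K
  dvrR : ∀ r : R, r ≠ 0 → ∃ (k : ℕ) (v : Rˣ), r = π ^ k * v
  hKF : ∀ y : F, IsAlgebraic K y → ∃ c : K, algebraMap K F c = y
  /-- also recorded: `t` is transcendental over `K` and nonzero -/
  htr : Transcendental K t
  t_ne : t ≠ 0
  /-- also recorded: the two-valuation bundle of Program N (same charts) -/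
  two : ChartInputs R K F π t

variable {R K F}

/-- `ChartInputsM` from the abstract data. -/
theorem chartInputsM_of [IsDomain R] [IsFractionRing R K] [IsNoetherianRing R]
    [IsIntegrallyClosed R] [CharZero K] {π : R} {t : F}
    [FiniteDimensional (IntermediateField.adjoin K {t}) F] (htr : Transcendental K t)
    (dvrR : ∀ r : R, r ≠ 0 → ∃ (k : ℕ) (v : Rˣ), r = π ^ k * v)
    (hKF : ∀ y : F, IsAlgebraic K y → ∃ c : K, algebraMap K F c = y) :
    ChartInputsM R K F π t := by
  obtain ⟨hn0, hn1, hf0, hf1⟩ := chart_noeth_frac (R := R) htr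
  exact
    { model := fun O h1 h2 h3 h4 h5 h6 h7 h8 =>
        multiChartModel_of O htr h1 h2 h3 h4 h5 h6 h7 h8
      noeth0 := hn0
      noeth1 := hn1
      frac0 := hf0
      frac1 := hf1
      fracR := inferInstance
      dvrR := dvrR
      hKF := hKF
      htr := htr
      t_ne := by
        rintro rfl
        exact htr isAlgebraic_zero
      two := chartInputs_of htr dvrR hKF }

end Bundle

section Sat

open Fermat.Agent.ES.N34.SatIntegral18

variable {R K F : Type*} [CommRing R] [IsDomain R] [Field K] [Field F] [Algebra R K]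
  [IsFractionRing R K] [Algebra K F] [Algebra R F] [IsScalarTower R K F]

/-- **Integral on the generic fibre and at ALL generic points of the special fibre ⇒ integral**
(family version of `SatIntegral18.mem_of_isIntegral_field`; `sat` is literally
`MultiChartModel.sat0 / sat1`). -/
theorem mem_of_isIntegral_field_fam (π : R)
    (dvrR : ∀ r : R, r ≠ 0 → ∃ (k : ℕ) (v : Rˣ), r = π ^ k * v)
    (s : F) (B : Subalgebra R F)
    (hB : ∀ x : F, IsIntegral (Algebra.adjoin R {s}) x → x ∈ B)
    {ι : Type*} (O : ι → ValuationSubring F)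
    (hπ : ∀ i, algebraMap R F π ∈ O i)
    (sat : ∀ b ∈ B, ∀ c : F, (∀ i, c ∈ O i) → b = algebraMap R F π * c → c ∈ B)
    {x : F} (hx : IsIntegral (Algebra.adjoin K {s}) x) (hxO : ∀ i, x ∈ O i) :
    x ∈ B := by
  obtain ⟨r, hr0, hrx⟩ := exists_mul_isIntegral_adjoin (R := R) (K := K) s hx
  obtain ⟨k, v, hrv⟩ := dvrR r hr0
  have hk : algebraMap R F π ^ k * x ∈ B := by
    have h1 : algebraMap R F r * x ∈ B := hB _ hrx
    have h2 : algebraMap R F π ^ k * x
        = algebraMap R F ((v⁻¹ : Rˣ) : R) * (algebraMap R F r * x) := by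
      rw [hrv, map_mul, map_pow]
      have : algebraMap R F ((v⁻¹ : Rˣ) : R) * algebraMap R F (v : R) = 1 := by
        rw [← map_mul, Units.inv_mul, map_one]
      linear_combination (-(algebraMap R F π ^ k * x)) * this
    rw [h2]
    exact B.mul_mem (B.algebraMap_mem _) h1
  clear hrx hrv
  induction k with
  | zero => simpa using hk
  | succ k ih =>
    apply ih
    refine sat _ hk _ (fun i => ?_) ?_
    · exact (O i).mul_mem _ _ (pow_mem (hπ i) _) (hxO i)
    · ring

end Sat

noncomputable section Concrete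

open HahnSeries ModularCurve IntermediateField
open Fermat.Agent.RED.PUR.GaussGen8 Fermat.Agent.RED.PUR.KtGauss8
  Fermat.Agent.RED.PUR.G1Package8 Fermat.Agent.RED.NumInst4 Fermat.Agent.RED.ModelAsm4

variable {K : Type*} [Field K] {O : ValuationSubring K} [IsDiscreteValuationRing ↥O]
  {E : IntermediateField K (LaurentSeries K)}

/-- `ChartInputsM` at `(O, E)`: a generic wrapper (as `ChartN26.ChartInputsAt`). -/
def ChartInputsMAt (O : ValuationSubring K) (E : IntermediateField K (LaurentSeries K))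
    (π : ↥O) (t : ↥E) : Prop :=
  ChartInputsM ↥O K ↥E π t

omit [IsDiscreteValuationRing ↥O] in
theorem ChartInputsMAt.out {π : ↥O} {t : ↥E} (h : ChartInputsMAt O E π t) :
    ChartInputsM ↥O K ↥E π t := h

omit [IsDiscreteValuationRing ↥O] in
theorem ChartInputsMAt.two {π : ↥O} {t : ↥E} (h : ChartInputsMAt O E π t) :
    ChartInputsAt O E π t := h.out.two

/-- **CHART-generic, Gauss form.** -/
theorem chartInputsM_gauss [CharZero K] {π : ↥O} (hπ : Irreducible π) (t : ↥E)
    (ht : (t : LaurentSeries K) ∈ gaussRing O)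
    (htr : Transcendental (Res O) (gaussRed O ⟨(t : LaurentSeries K), ht⟩))
    (hn : relfinrank (Kt O ⟨(t : LaurentSeries K), ht⟩) E ≠ 0) :
    ChartInputsMAt O E π t := by
  have : IsScalarTower ↥O K ↥E := isScalarTower_OE O E
  have : FiniteDimensional ↥(IntermediateField.adjoin K {t}) ↥E := finiteDimensional_adjoin t hn
  have htrK : Transcendental K t :=
    transcendental_of_coe t (transcendental_t (tG := ⟨(t : LaurentSeries K), ht⟩) hπ htr)
  refine chartInputsM_of (R := ↥O) (K := K) (F := ↥E) htrK (dvr_factor hπ) ?_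
  intro y hy
  obtain ⟨c, hc⟩ := Fermat.Agent.RED.PUR.GaussBridge10.exists_algebraMap_eq_of_isAlgebraic E hy
  exact ⟨c, hc.symm⟩

end Concrete

noncomputable section Arithmetic

open HahnSeries ModularCurve IntermediateField
open Fermat.Agent.RED.Interface4 Fermat.Agent.RED.PUR.GaussGen8 Fermat.Agent.RED.PUR.KtGauss8
  Fermat.Agent.RED.ModelTargets4 Fermat.Agent.RED.BASE.EtaQuot12 Fermat.Agent.X0
  Fermat.Agent.RED.DESC.NumberFieldDVR27 Fermat.Agent.RED.ModelMain4
  Fermat.Agent.RED.BASE.Interface12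

variable {n e N : ℕ} [NeZero n] [NeZero N] {A : ValuationSubring Qbar}

/-- **CHART-generic for the arithmetic data**, from the BASE→GAUSS targets: for all large number
fields `K`, `AK A K` is a DVR and for every uniformiser `ϖ` and the Hauptmodul
`t = tq K n e ∈ FK N K`, the complete non-Gauss input holds for the charts
`chart (AK A K) t^{±1} ⊆ FK N K`.  NO hypothesis `ℓ ∤ N` (in Program P, `ℓ = q`, `q² ∣ N`). -/
theorem chartInputsM_of_targets {ℓ : ℕ} (hℓ : ℓ.Prime) (hA : A.LiesOverPrime ℓ)
    (hT : TTarget n e N) (hJ : JTarget n e) :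
    ∃ K₀ : IntermediateField ℚ Qbar, FiniteDimensional ℚ K₀ ∧
      ∀ K : IntermediateField ℚ Qbar, FiniteDimensional ℚ K → K₀ ≤ K →
        IsDiscreteValuationRing ↥(AK A K) ∧ tq K n e ∈ FK N K ∧
        ∀ (ϖ : ↥(AK A K)) (_ : Irreducible ϖ) (t : ↥(FK N K)),
          (t : LaurentSeries K) = tq K n e →
          ChartInputsMAt (AK A K) (FK N K) ϖ t := by
  obtain ⟨K₁, hK₁, hT⟩ := hT
  obtain ⟨K₂, hK₂, hJ⟩ := hJ
  refine ⟨K₁ ⊔ K₂, inferInstance, fun K hKfd hle => ?_⟩
  have hle1 : K₁ ≤ K := le_trans le_sup_left hle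
  have hle2 : K₂ ≤ K := le_trans le_sup_right hle
  have hdvr : IsDiscreteValuationRing ↥(AK A K) := isDiscreteValuationRing_AK A K hℓ.ne_zero hA
  have htE : tq K n e ∈ FK N K := hT K hKfd hle1
  refine ⟨hdvr, htE, fun ϖ hϖ t htq => ?_⟩
  have ht : ((t : ↥(FK N K)) : LaurentSeries K) ∈ gaussRing (AK A K) := by
    rw [htq]; exact tq_mem_gaussRing (AK A K) n e
  have h1 : (⟨((t : ↥(FK N K)) : LaurentSeries K), ht⟩ : ↥(gaussRing (AK A K))) =
      ⟨tq K n e, tq_mem_gaussRing (AK A K) n e⟩ := Subtype.ext htq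
  have htr : Transcendental (Res (AK A K))
      (gaussRed (AK A K) ⟨((t : ↥(FK N K)) : LaurentSeries K), ht⟩) := by
    rw [h1]
    exact transcendental_gaussRed_tq (AK A K) n e
  have hjt : jqModC K ∈ Kt (AK A K) ⟨((t : ↥(FK N K)) : LaurentSeries K), ht⟩ := by
    rw [h1]
    exact hJ K hKfd hle2
  have hn : relfinrank (Kt (AK A K) ⟨((t : ↥(FK N K)) : LaurentSeries K), ht⟩) (FK N K) ≠ 0 :=
    relfinrank_ne_zero (AK A K) N _ t.2 hjt
  exact chartInputsM_gauss hϖ t ht htr hn

/-- The same from the BASE exports `TMem n e N`, `TGenBase n e`. -/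
theorem chartInputsM_of_base {ℓ : ℕ} (hℓ : ℓ.Prime) (hA : A.LiesOverPrime ℓ)
    (hmem : TMem n e N) (hgen : TGenBase n e) :
    ∃ K₀ : IntermediateField ℚ Qbar, FiniteDimensional ℚ K₀ ∧
      ∀ K : IntermediateField ℚ Qbar, FiniteDimensional ℚ K → K₀ ≤ K →
        IsDiscreteValuationRing ↥(AK A K) ∧ tq K n e ∈ FK N K ∧
        ∀ (ϖ : ↥(AK A K)) (_ : Irreducible ϖ) (t : ↥(FK N K)),
          (t : LaurentSeries K) = tq K n e →
          ChartInputsMAt (AK A K) (FK N K) ϖ t :=
  chartInputsM_of_targets hℓ hA (Fermat.Agent.RED.ModelFinal4.tTarget N hmem)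
    (Fermat.Agent.RED.ModelFinal4.jTarget hgen)

end Arithmetic

section Levels

open HahnSeries ModularCurve
open Fermat.Agent.RED.Interface4 Fermat.Agent.RED.BASE.EtaQuot12

variable {A : ValuationSubring Qbar}

/-- Level `N` with `4 ∣ N` (`ℓ` odd): Hauptmodul `tq K 4 8`. -/
theorem chartInputsM_four (N : ℕ) [NeZero N] (hN : 4 ∣ N) {ℓ : ℕ} (hℓ : ℓ.Prime)
    (hA : A.LiesOverPrime ℓ) :
    ∃ K₀ : IntermediateField ℚ Qbar, FiniteDimensional ℚ K₀ ∧
      ∀ K : IntermediateField ℚ Qbar, FiniteDimensional ℚ K → K₀ ≤ K →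
        IsDiscreteValuationRing ↥(AK A K) ∧ tq K 4 8 ∈ FK N K ∧
        ∀ (ϖ : ↥(AK A K)) (_ : Irreducible ϖ) (t : ↥(FK N K)),
          (t : LaurentSeries K) = tq K 4 8 →
          ChartInputsMAt (AK A K) (FK N K) ϖ t := by
  have hB := (Fermat.Agent.RED.BASE.MainCusp12.base_four N hN).1
  exact chartInputsM_of_base hℓ hA hB.mem hB.genBase

/-- Level `N` with `9 ∣ N` (`ℓ = 2`): Hauptmodul `tq K 9 3`. -/
theorem chartInputsM_nine (N : ℕ) [NeZero N] (hN : 9 ∣ N) {ℓ : ℕ} (hℓ : ℓ.Prime)
    (hA : A.LiesOverPrime ℓ) :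
    ∃ K₀ : IntermediateField ℚ Qbar, FiniteDimensional ℚ K₀ ∧
      ∀ K : IntermediateField ℚ Qbar, FiniteDimensional ℚ K → K₀ ≤ K →
        IsDiscreteValuationRing ↥(AK A K) ∧ tq K 9 3 ∈ FK N K ∧
        ∀ (ϖ : ↥(AK A K)) (_ : Irreducible ϖ) (t : ↥(FK N K)),
          (t : LaurentSeries K) = tq K 9 3 →
          ChartInputsMAt (AK A K) (FK N K) ϖ t := by
  have hB := (Fermat.Agent.RED.BASE.MainCusp12.base_nine N hN).1
  exact chartInputsM_of_base hℓ hA hB.mem hB.genBase

end Levels

end Fermat.Agent.ES.P36.ChartP14
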