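/-
Program P (S36), chapter MODEL-P, brick M1 (helper14), instantiation at `ModelDefsP9`.

* `chartInputsM_t_of_targets`, `chartInputsM_t_four`, `chartInputsM_t_nine` : `ChartP14.ChartInputsMAt`
  (the complete non-vertical input of `MultiCore13.multi_core_const`, and `ChartN26.ChartInputsAt` via `.two`)
  for the literal data `R := ↥(AK A K)`, `F'' := ↥(FK (M' * q * q) K)`, `t := ModelDefsP9.t q ht`,
  charts `B0 A q ht`, `B1 A q ht`, for all large number fields `K` (no normality, `K` may be ramified).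
* modular equations at level `M' q²` (ModEq23 pattern + transitivity):
  `isIntegral_t1`, `isIntegral_t2` (`t₁ = t(𝐪^q)`, `t₂ = t(𝐪^{q²})` integral over `K[t]`),
  `isIntegral_inv_t1`, `isIntegral_inv_t2` (`t_i⁻¹` integral over `K[t⁻¹]`), and the converses
  `isIntegral_t_of_t2`, `isIntegral_inv_t_of_t2` (`t^{±1}` integral over `K[t₂^{±1}]`);
* `t1_mem_B0`, `t2_mem_B0`, `inv_t1_mem_B1`, `inv_t2_mem_B1` : for ANY family `O` of valuation subrings of `F''`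
  containing `π`, with `sat0`/`sat1` literally `MultiChartModel.sat0/sat1`, and `t_i^{±1} ∈ O i`.
-/
import Mathlib
import Fermat.Agent.ES.P36.ChartP14
import Fermat.Agent.ES.P36.ModelDefsP9
import Fermat.Agent.ES.N34.ModEq23

set_option autoImplicit false
set_option linter.unusedSectionVars false
set_option synthInstance.maxHeartbeats 400000
set_option maxHeartbeats 400000

open ModularCurve IntermediateField HahnSeries

noncomputable section

namespace Fermat.Agent.ES.P36.ChartInstP14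

open Fermat.Agent.RED.Interface4 Fermat.Agent.RED.PUR.GaussGen8 Fermat.Agent.RED.PUR.KtGauss8
  Fermat.Agent.RED.ModelTargets4 Fermat.Agent.RED.BASE.EtaQuot12 Fermat.Agent.X0
  Fermat.Agent.RED.DESC.NumberFieldDVR27 Fermat.Agent.RED.ModelMain4
  Fermat.Agent.RED.BASE.Interface12 Fermat.Agent.RED.BASE.Hauptmodul12
  Fermat.Agent.RED.PUR.ChartGeneric22
  Fermat.Agent.ES.N34 Fermat.Agent.ES.N34.ModEq23 Fermat.Agent.ES.N34.ModEqBar23
  Fermat.Agent.ES.P36.MultiCore13 Fermat.Agent.ES.P36.ChartP14 Fermat.Agent.ES.P36.ModelDefsP9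


/-! ### Shortcut instances (typeclass search at the concrete number-field types is slow) -/

/-- shortcut. -/
@[reducible] def shortAlgKF (K : IntermediateField ℚ Qbar) (N : ℕ) : Algebra ↥K ↥(FK N K) :=
  inferInstance
/-- shortcut. -/
@[reducible] def shortAlgRF (A : ValuationSubring Qbar) (K : IntermediateField ℚ Qbar) (N : ℕ) :
    Algebra ↥(AK A K) ↥(FK N K) := inferInstance
/-- shortcut. -/
@[reducible] def shortAlgRK (A : ValuationSubring Qbar) (K : IntermediateField ℚ Qbar) :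
    Algebra ↥(AK A K) ↥K := inferInstance
/-- shortcut. -/
theorem shortTower (A : ValuationSubring Qbar) (K : IntermediateField ℚ Qbar) (N : ℕ) :
    IsScalarTower ↥(AK A K) ↥K ↥(FK N K) := inferInstance

attribute [local instance] shortAlgKF shortAlgRF shortAlgRK shortTower



section Trans

variable {K L : Type*} [CommRing K] [CommRing L] [Algebra K L]

/-- Transitivity of integrality over polynomial rings in one element:
`y` integral over `K[x]`, `z` integral over `K[y]` ⊢ `z` integral over `K[x]`. -/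
theorem isIntegral_adjoin_trans {x y z : L} (hy : IsIntegral (Algebra.adjoin K {x}) y)
    (hz : IsIntegral (Algebra.adjoin K {y}) z) : IsIntegral (Algebra.adjoin K {x}) z := by
  set R := Algebra.adjoin K {x} with hR
  have hle : Algebra.adjoin K {y} ≤ (integralClosure R L).restrictScalars K := by
    apply Algebra.adjoin_le
    intro w hw
    rw [Set.mem_singleton_iff] at hw
    rw [hw]
    exact hy
  have h1 : IsIntegral (integralClosure R L) z :=
    IsIntegral.map_of_comp_eq (Subalgebra.inclusion hle).toRingHom (RingHom.id L)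
      (by ext r; rfl) hz
  exact isIntegral_trans (R := R) (A := integralClosure R L) z h1

end Trans

/-! ### Charts at the `ModelDefsP9` data -/

section Charts

variable {n e M' : ℕ} [NeZero n] [NeZero M'] (q : ℕ) [NeZero q] {A : ValuationSubring Qbar}

/-- The model for the literal charts `B0`, `B1` of `ModelDefsP9` (definitional unfolding). -/
theorem model_B {K : IntermediateField ℚ Qbar} {ϖ : ↥(AK A K)} (ht : tq (↥K) n e ∈ FK M' K)
    {ι : Type*} (O : ι → ValuationSubring ↥(FK (M' * q * q) K))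
    (h : MultiChartModel _ _ ϖ (t q ht) (chart _ (t q ht)) (chart _ (t q ht)⁻¹) O) :
    MultiChartModel _ _ ϖ (t q ht) (B0 A q ht) (B1 A q ht) O := h

/-- **M1 at the `ModelDefsP9` data**, from the BASE→GAUSS targets at the GOOD level `M'`. -/
theorem chartInputsM_t_of_targets {ℓ : ℕ} (hℓ : ℓ.Prime) (hA : A.LiesOverPrime ℓ)
    (hT : TTarget n e M') (hJ : JTarget n e) :
    ∃ K₀ : IntermediateField ℚ Qbar, FiniteDimensional ℚ K₀ ∧
      ∀ K : IntermediateField ℚ Qbar, FiniteDimensional ℚ K → K₀ ≤ K →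
        IsDiscreteValuationRing ↥(AK A K) ∧ ∃ ht : tq (↥K) n e ∈ FK M' K,
          ∀ ϖ : ↥(AK A K), Irreducible ϖ →
            ChartInputsMAt (AK A K) (FK (M' * q * q) K) ϖ (t q ht) := by
  obtain ⟨K₁, hK₁, hT⟩ := hT
  obtain ⟨K₂, hK₂, hJ⟩ := hJ
  refine ⟨K₁ ⊔ K₂, inferInstance, fun K hKfd hle => ?_⟩
  have hle1 : K₁ ≤ K := le_trans le_sup_left hle
  have hle2 : K₂ ≤ K := le_trans le_sup_right hle
  have hdvr : IsDiscreteValuationRing ↥(AK A K) := isDiscreteValuationRing_AK A K hℓ.ne_zero hA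
  have htM : tq (↥K) n e ∈ FK M' K := hT K hKfd hle1
  refine ⟨hdvr, htM, fun ϖ hϖ => ?_⟩
  have htq : ((t q htM : ↥(FK (M' * q * q) K)) : LaurentSeries K) = tq (↥K) n e := coe_t q htM
  have ht : ((t q htM : ↥(FK (M' * q * q) K)) : LaurentSeries K) ∈ gaussRing (AK A K) := by
    rw [htq]; exact tq_mem_gaussRing (AK A K) n e
  have h1 : (⟨((t q htM : ↥(FK (M' * q * q) K)) : LaurentSeries K), ht⟩ :
      ↥(gaussRing (AK A K))) = ⟨tq (↥K) n e, tq_mem_gaussRing (AK A K) n e⟩ := Subtype.ext htq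
  have htr : Transcendental (Res (AK A K))
      (gaussRed (AK A K) ⟨((t q htM : ↥(FK (M' * q * q) K)) : LaurentSeries K), ht⟩) := by
    rw [h1]
    exact transcendental_gaussRed_tq (AK A K) n e
  have hjt : jqModC K ∈
      Kt (AK A K) ⟨((t q htM : ↥(FK (M' * q * q) K)) : LaurentSeries K), ht⟩ := by
    rw [h1]
    exact hJ K hKfd hle2
  have : NeZero (M' * q * q) :=
    ⟨Nat.mul_ne_zero (Nat.mul_ne_zero (NeZero.ne M') (NeZero.ne q)) (NeZero.ne q)⟩
  have hn : relfinrank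
      (Kt (AK A K) ⟨((t q htM : ↥(FK (M' * q * q) K)) : LaurentSeries K), ht⟩)
      (FK (M' * q * q) K) ≠ 0 :=
    relfinrank_ne_zero (AK A K) (M' * q * q) _ (t q htM).2 hjt
  exact chartInputsM_gauss hϖ (t q htM) ht htr hn

/-- **M1 at the `ModelDefsP9` data, at ONE number field `K`** (per-`K` form, no `∃ K₀`, no normality;
leaf hypotheses `ht`, `hJ` = `CoeffField4.tq_mem_FK`, `CoeffField4.j_mem_adjoin`). Twin of
`ChartAt26.chartInputs_tN_at` one level up. -/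
theorem chartInputsM_t_at {ℓ : ℕ} (hℓ : ℓ.Prime) (hA : A.LiesOverPrime ℓ)
    (K : IntermediateField ℚ Qbar) [FiniteDimensional ℚ K]
    (ht : tq (↥K) n e ∈ FK M' K)
    (hJ : jqModC K ∈ IntermediateField.adjoin K {tq (↥K) n e}) :
    IsDiscreteValuationRing ↥(AK A K) ∧
      ∀ ϖ : ↥(AK A K), Irreducible ϖ →
        ChartInputsMAt (AK A K) (FK (M' * q * q) K) ϖ (t q ht) := by
  have hdvr : IsDiscreteValuationRing ↥(AK A K) := isDiscreteValuationRing_AK A K hℓ.ne_zero hA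
  refine ⟨hdvr, fun ϖ hϖ => ?_⟩
  have htq : ((t q ht : ↥(FK (M' * q * q) K)) : LaurentSeries K) = tq (↥K) n e := coe_t q ht
  have htG : ((t q ht : ↥(FK (M' * q * q) K)) : LaurentSeries K) ∈ gaussRing (AK A K) := by
    rw [htq]; exact tq_mem_gaussRing (AK A K) n e
  have h1 : (⟨((t q ht : ↥(FK (M' * q * q) K)) : LaurentSeries K), htG⟩ :
      ↥(gaussRing (AK A K))) = ⟨tq (↥K) n e, tq_mem_gaussRing (AK A K) n e⟩ := Subtype.ext htq
  have htr : Transcendental (Res (AK A K))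
      (gaussRed (AK A K) ⟨((t q ht : ↥(FK (M' * q * q) K)) : LaurentSeries K), htG⟩) := by
    rw [h1]
    exact transcendental_gaussRed_tq (AK A K) n e
  have hjt : jqModC K ∈
      Kt (AK A K) ⟨((t q ht : ↥(FK (M' * q * q) K)) : LaurentSeries K), htG⟩ := by
    rw [h1]
    exact hJ
  have : NeZero (M' * q * q) :=
    ⟨Nat.mul_ne_zero (Nat.mul_ne_zero (NeZero.ne M') (NeZero.ne q)) (NeZero.ne q)⟩
  have hn : relfinrank
      (Kt (AK A K) ⟨((t q ht : ↥(FK (M' * q * q) K)) : LaurentSeries K), htG⟩)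
      (FK (M' * q * q) K) ≠ 0 :=
    relfinrank_ne_zero (AK A K) (M' * q * q) _ (t q ht).2 hjt
  exact chartInputsM_gauss hϖ (t q ht) htG htr hn

/-- The two-chart form `ChartN26.ChartInputsAt` of `chartInputsM_t_at` (literal twin of
`ChartAt26.chartInputs_tN_at` at level `M' q²`). -/
theorem chartInputs_t_at {ℓ : ℕ} (hℓ : ℓ.Prime) (hA : A.LiesOverPrime ℓ)
    (K : IntermediateField ℚ Qbar) [FiniteDimensional ℚ K]
    (ht : tq (↥K) n e ∈ FK M' K)
    (hJ : jqModC K ∈ IntermediateField.adjoin K {tq (↥K) n e}) :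
    IsDiscreteValuationRing ↥(AK A K) ∧
      ∀ ϖ : ↥(AK A K), Irreducible ϖ →
        Fermat.Agent.ES.N34.ChartN26.ChartInputsAt (AK A K) (FK (M' * q * q) K) ϖ (t q ht) := by
  obtain ⟨hdvr, h⟩ := chartInputsM_t_at q hℓ hA K ht hJ
  exact ⟨hdvr, fun ϖ hϖ => (h ϖ hϖ).two⟩

/-- `ℓ = q` odd: `4 ∣ M'`, Hauptmodul `tq K 4 8`. -/
theorem chartInputsM_t_four (hM : 4 ∣ M') {ℓ : ℕ} (hℓ : ℓ.Prime) (hA : A.LiesOverPrime ℓ) :
    ∃ K₀ : IntermediateField ℚ Qbar, FiniteDimensional ℚ K₀ ∧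
      ∀ K : IntermediateField ℚ Qbar, FiniteDimensional ℚ K → K₀ ≤ K →
        IsDiscreteValuationRing ↥(AK A K) ∧ ∃ ht : tq (↥K) 4 8 ∈ FK M' K,
          ∀ ϖ : ↥(AK A K), Irreducible ϖ →
            ChartInputsMAt (AK A K) (FK (M' * q * q) K) ϖ (t q ht) := by
  have hB := (Fermat.Agent.RED.BASE.MainCusp12.base_four M' hM).1
  exact chartInputsM_t_of_targets q hℓ hA (Fermat.Agent.RED.ModelFinal4.tTarget M' hB.mem)
    (Fermat.Agent.RED.ModelFinal4.jTarget hB.genBase)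

/-- `ℓ = q = 2`: `9 ∣ M'`, Hauptmodul `tq K 9 3`. -/
theorem chartInputsM_t_nine (hM : 9 ∣ M') {ℓ : ℕ} (hℓ : ℓ.Prime) (hA : A.LiesOverPrime ℓ) :
    ∃ K₀ : IntermediateField ℚ Qbar, FiniteDimensional ℚ K₀ ∧
      ∀ K : IntermediateField ℚ Qbar, FiniteDimensional ℚ K → K₀ ≤ K →
        IsDiscreteValuationRing ↥(AK A K) ∧ ∃ ht : tq (↥K) 9 3 ∈ FK M' K,
          ∀ ϖ : ↥(AK A K), Irreducible ϖ →
            ChartInputsMAt (AK A K) (FK (M' * q * q) K) ϖ (t q ht) := by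
  have hB := (Fermat.Agent.RED.BASE.MainCusp12.base_nine M' hM).1
  exact chartInputsM_t_of_targets q hℓ hA (Fermat.Agent.RED.ModelFinal4.tTarget M' hB.mem)
    (Fermat.Agent.RED.ModelFinal4.jTarget hB.genBase)

end Charts

/-! ### Modular equations, series form -/

section Series

variable (K : IntermediateField ℚ Qbar) {n e : ℕ} (q : ℕ) [NeZero n] [NeZero q]

/-- `t(𝐪^{q²})` is integral over `K[t]`. -/
theorem isIntegral_qExpand_sq_tq (hb : BaseHyp n e) (hq : q.Prime) (hqn : ¬ q ∣ n) :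
    IsIntegral (Algebra.adjoin K {tq K n e}) (qExpand K (q * q) (tq K n e)) := by
  have h1 := isIntegral_qExpand_tq K q hb hq hqn
  have h2 := isIntegral_adjoin_map (qExpandAlgHomC (↥K) q) h1
  rw [qExpandAlgHomC_apply, qExpandAlgHomC_apply, qExpand_qExpand] at h2
  exact isIntegral_adjoin_trans h1 h2

/-- `t(𝐪^{q²})⁻¹` is integral over `K[t⁻¹]`. -/
theorem isIntegral_inv_qExpand_sq_tq (hb : BaseHyp n e) (hq : q.Prime) (hqn : ¬ q ∣ n) :
    IsIntegral (Algebra.adjoin K {(tq K n e)⁻¹}) (qExpand K (q * q) (tq K n e))⁻¹ := by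
  have h1 := isIntegral_inv_qExpand_tq K q hb hq hqn
  have h2 := isIntegral_adjoin_map (qExpandAlgHomC (↥K) q) h1
  rw [map_inv₀, map_inv₀, qExpandAlgHomC_apply, qExpandAlgHomC_apply, qExpand_qExpand] at h2
  exact isIntegral_adjoin_trans h1 h2

/-- `t` is integral over `K[t(𝐪^{q²})]`. -/
theorem isIntegral_tq_of_sq (hb : BaseHyp n e) (hq : q.Prime) (hqn : ¬ q ∣ n) :
    IsIntegral (Algebra.adjoin K {qExpand K (q * q) (tq K n e)}) (tq K n e) := by
  have h1 := isIntegral_tq K q hb hq hqn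
  have h2 := isIntegral_adjoin_map (qExpandAlgHomC (↥K) q) h1
  rw [qExpandAlgHomC_apply, qExpandAlgHomC_apply, qExpand_qExpand] at h2
  exact isIntegral_adjoin_trans h2 h1

/-- `t⁻¹` is integral over `K[t(𝐪^{q²})⁻¹]`. -/
theorem isIntegral_inv_tq_of_sq (hb : BaseHyp n e) (hq : q.Prime) (hqn : ¬ q ∣ n) :
    IsIntegral (Algebra.adjoin K {(qExpand K (q * q) (tq K n e))⁻¹}) (tq K n e)⁻¹ := by
  have h1 := isIntegral_inv_tq K q hb hq hqn
  have h2 := isIntegral_adjoin_map (qExpandAlgHomC (↥K) q) h1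
  rw [map_inv₀, map_inv₀, qExpandAlgHomC_apply, qExpandAlgHomC_apply, qExpand_qExpand] at h2
  exact isIntegral_adjoin_trans h2 h1

end Series

/-! ### Modular equations in `F'' = FK (M' q²) K` and chart memberships -/

section Model

variable (A : ValuationSubring Qbar) {K : IntermediateField ℚ Qbar} {M' : ℕ} (q : ℕ)
  [NeZero M'] [NeZero q] {n e : ℕ} [NeZero n]

/-- `t₁` is integral over `K[t]` in `F''`. -/
theorem isIntegral_t1 (hb : BaseHyp n e) (hq : q.Prime) (hqn : ¬ q ∣ n)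
    (ht : tq (↥K) n e ∈ FK M' K) :
    IsIntegral (Algebra.adjoin K {t q ht}) (t1 q ht) :=
  isIntegral_of_coe_eq K _ (coe_t q ht) (coe_t1 q ht) (isIntegral_qExpand_tq K q hb hq hqn)

/-- `t₂` is integral over `K[t]` in `F''`. -/
theorem isIntegral_t2 (hb : BaseHyp n e) (hq : q.Prime) (hqn : ¬ q ∣ n)
    (ht : tq (↥K) n e ∈ FK M' K) :
    IsIntegral (Algebra.adjoin K {t q ht}) (t2 q ht) :=
  isIntegral_of_coe_eq K _ (coe_t q ht) (coe_t2 q ht) (isIntegral_qExpand_sq_tq K q hb hq hqn)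

/-- `t₁⁻¹` is integral over `K[t⁻¹]` in `F''`. -/
theorem isIntegral_inv_t1 (hb : BaseHyp n e) (hq : q.Prime) (hqn : ¬ q ∣ n)
    (ht : tq (↥K) n e ∈ FK M' K) :
    IsIntegral (Algebra.adjoin K {(t q ht)⁻¹}) (t1 q ht)⁻¹ := by
  refine isIntegral_of_coe_eq K _ ?_ ?_ (isIntegral_inv_qExpand_tq K q hb hq hqn)
  · rw [IntermediateField.coe_inv, coe_t]
  · rw [IntermediateField.coe_inv, coe_t1]

/-- `t₂⁻¹` is integral over `K[t⁻¹]` in `F''`. -/
theorem isIntegral_inv_t2 (hb : BaseHyp n e) (hq : q.Prime) (hqn : ¬ q ∣ n)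
    (ht : tq (↥K) n e ∈ FK M' K) :
    IsIntegral (Algebra.adjoin K {(t q ht)⁻¹}) (t2 q ht)⁻¹ := by
  refine isIntegral_of_coe_eq K _ ?_ ?_ (isIntegral_inv_qExpand_sq_tq K q hb hq hqn)
  · rw [IntermediateField.coe_inv, coe_t]
  · rw [IntermediateField.coe_inv, coe_t2]

/-- `t` is integral over `K[t₂]` in `F''`. -/
theorem isIntegral_t_of_t2 (hb : BaseHyp n e) (hq : q.Prime) (hqn : ¬ q ∣ n)
    (ht : tq (↥K) n e ∈ FK M' K) :
    IsIntegral (Algebra.adjoin K {t2 q ht}) (t q ht) :=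
  isIntegral_of_coe_eq K _ (coe_t2 q ht) (coe_t q ht) (isIntegral_tq_of_sq K q hb hq hqn)

/-- `t⁻¹` is integral over `K[t₂⁻¹]` in `F''`. -/
theorem isIntegral_inv_t_of_t2 (hb : BaseHyp n e) (hq : q.Prime) (hqn : ¬ q ∣ n)
    (ht : tq (↥K) n e ∈ FK M' K) :
    IsIntegral (Algebra.adjoin K {(t2 q ht)⁻¹}) (t q ht)⁻¹ := by
  refine isIntegral_of_coe_eq K _ ?_ ?_ (isIntegral_inv_tq_of_sq K q hb hq hqn)
  · rw [IntermediateField.coe_inv, coe_t2]
  · rw [IntermediateField.coe_inv, coe_t]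

variable {ι : Type*}

set_option maxHeartbeats 4000000 in
/-- **chart `0`**: an element integral over `K[t]` lying in every `O i` lies in `B0`
(`sat0` is literally `MultiChartModel.sat0`). -/
theorem mem_B0_of_isIntegral (ht : tq (↥K) n e ∈ FK M' K) (π : ↥(AK A K))
    (dvrR : ∀ r : ↥(AK A K), r ≠ 0 → ∃ (k : ℕ) (v : (↥(AK A K))ˣ), r = π ^ k * v)
    (O : ι → ValuationSubring ↥(FK (M' * q * q) K))
    (hπ : ∀ i, algebraMap ↥(AK A K) ↥(FK (M' * q * q) K) π ∈ O i)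
    (sat0 : ∀ b ∈ B0 A q ht, ∀ c : ↥(FK (M' * q * q) K), (∀ i, c ∈ O i) →
      b = algebraMap ↥(AK A K) ↥(FK (M' * q * q) K) π * c → c ∈ B0 A q ht)
    {x : ↥(FK (M' * q * q) K)} (hI : IsIntegral (Algebra.adjoin K {t q ht}) x)
    (hx : ∀ i, x ∈ O i) : x ∈ B0 A q ht := by
  have hB : ∀ x : ↥(FK (M' * q * q) K),
      IsIntegral (Algebra.adjoin ↥(AK A K) {t q ht}) x → x ∈ B0 A q ht := by
    intro x hx
    unfold B0
    exact mem_chart_iff.2 hx
  exact mem_of_isIntegral_field_fam (R := ↥(AK A K)) (K := ↥K) (F := ↥(FK (M' * q * q) K)) π dvrR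
    (t q ht) (B0 A q ht) hB O hπ sat0 hI hx

set_option maxHeartbeats 4000000 in
/-- **chart `1`**: an element integral over `K[t⁻¹]` lying in every `O i` lies in `B1`
(`sat1` is literally `MultiChartModel.sat1`). -/
theorem mem_B1_of_isIntegral (ht : tq (↥K) n e ∈ FK M' K) (π : ↥(AK A K))
    (dvrR : ∀ r : ↥(AK A K), r ≠ 0 → ∃ (k : ℕ) (v : (↥(AK A K))ˣ), r = π ^ k * v)
    (O : ι → ValuationSubring ↥(FK (M' * q * q) K))
    (hπ : ∀ i, algebraMap ↥(AK A K) ↥(FK (M' * q * q) K) π ∈ O i)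
    (sat1 : ∀ b ∈ B1 A q ht, ∀ c : ↥(FK (M' * q * q) K), (∀ i, c ∈ O i) →
      b = algebraMap ↥(AK A K) ↥(FK (M' * q * q) K) π * c → c ∈ B1 A q ht)
    {x : ↥(FK (M' * q * q) K)} (hI : IsIntegral (Algebra.adjoin K {(t q ht)⁻¹}) x)
    (hx : ∀ i, x ∈ O i) : x ∈ B1 A q ht := by
  have hB : ∀ x : ↥(FK (M' * q * q) K),
      IsIntegral (Algebra.adjoin ↥(AK A K) {(t q ht)⁻¹}) x → x ∈ B1 A q ht := by
    intro x hx
    unfold B1
    exact mem_chart_iff.2 hx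
  exact mem_of_isIntegral_field_fam (R := ↥(AK A K)) (K := ↥K) (F := ↥(FK (M' * q * q) K)) π dvrR
    (t q ht)⁻¹ (B1 A q ht) hB O hπ sat1 hI hx

/-- **`t₁ ∈ B0`**. -/
theorem t1_mem_B0 (hb : BaseHyp n e) (hq : q.Prime) (hqn : ¬ q ∣ n)
    (ht : tq (↥K) n e ∈ FK M' K) (π : ↥(AK A K))
    (dvrR : ∀ r : ↥(AK A K), r ≠ 0 → ∃ (k : ℕ) (v : (↥(AK A K))ˣ), r = π ^ k * v)
    (O : ι → ValuationSubring ↥(FK (M' * q * q) K))
    (hπ : ∀ i, algebraMap ↥(AK A K) ↥(FK (M' * q * q) K) π ∈ O i)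
    (sat0 : ∀ b ∈ B0 A q ht, ∀ c : ↥(FK (M' * q * q) K), (∀ i, c ∈ O i) →
      b = algebraMap ↥(AK A K) ↥(FK (M' * q * q) K) π * c → c ∈ B0 A q ht)
    (hy : ∀ i, t1 q ht ∈ O i) : t1 q ht ∈ B0 A q ht :=
  mem_B0_of_isIntegral A q ht π dvrR O hπ sat0 (isIntegral_t1 q hb hq hqn ht) hy

/-- **`t₂ ∈ B0`**. -/
theorem t2_mem_B0 (hb : BaseHyp n e) (hq : q.Prime) (hqn : ¬ q ∣ n)
    (ht : tq (↥K) n e ∈ FK M' K) (π : ↥(AK A K))
    (dvrR : ∀ r : ↥(AK A K), r ≠ 0 → ∃ (k : ℕ) (v : (↥(AK A K))ˣ), r = π ^ k * v)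
    (O : ι → ValuationSubring ↥(FK (M' * q * q) K))
    (hπ : ∀ i, algebraMap ↥(AK A K) ↥(FK (M' * q * q) K) π ∈ O i)
    (sat0 : ∀ b ∈ B0 A q ht, ∀ c : ↥(FK (M' * q * q) K), (∀ i, c ∈ O i) →
      b = algebraMap ↥(AK A K) ↥(FK (M' * q * q) K) π * c → c ∈ B0 A q ht)
    (hy : ∀ i, t2 q ht ∈ O i) : t2 q ht ∈ B0 A q ht :=
  mem_B0_of_isIntegral A q ht π dvrR O hπ sat0 (isIntegral_t2 q hb hq hqn ht) hy

/-- **`t₁⁻¹ ∈ B1`**. -/
theorem inv_t1_mem_B1 (hb : BaseHyp n e) (hq : q.Prime) (hqn : ¬ q ∣ n)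
    (ht : tq (↥K) n e ∈ FK M' K) (π : ↥(AK A K))
    (dvrR : ∀ r : ↥(AK A K), r ≠ 0 → ∃ (k : ℕ) (v : (↥(AK A K))ˣ), r = π ^ k * v)
    (O : ι → ValuationSubring ↥(FK (M' * q * q) K))
    (hπ : ∀ i, algebraMap ↥(AK A K) ↥(FK (M' * q * q) K) π ∈ O i)
    (sat1 : ∀ b ∈ B1 A q ht, ∀ c : ↥(FK (M' * q * q) K), (∀ i, c ∈ O i) →
      b = algebraMap ↥(AK A K) ↥(FK (M' * q * q) K) π * c → c ∈ B1 A q ht)
    (hy : ∀ i, (t1 q ht)⁻¹ ∈ O i) : (t1 q ht)⁻¹ ∈ B1 A q ht :=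
  mem_B1_of_isIntegral A q ht π dvrR O hπ sat1 (isIntegral_inv_t1 q hb hq hqn ht) hy

/-- **`t₂⁻¹ ∈ B1`**. -/
theorem inv_t2_mem_B1 (hb : BaseHyp n e) (hq : q.Prime) (hqn : ¬ q ∣ n)
    (ht : tq (↥K) n e ∈ FK M' K) (π : ↥(AK A K))
    (dvrR : ∀ r : ↥(AK A K), r ≠ 0 → ∃ (k : ℕ) (v : (↥(AK A K))ˣ), r = π ^ k * v)
    (O : ι → ValuationSubring ↥(FK (M' * q * q) K))
    (hπ : ∀ i, algebraMap ↥(AK A K) ↥(FK (M' * q * q) K) π ∈ O i)
    (sat1 : ∀ b ∈ B1 A q ht, ∀ c : ↥(FK (M' * q * q) K), (∀ i, c ∈ O i) →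
      b = algebraMap ↥(AK A K) ↥(FK (M' * q * q) K) π * c → c ∈ B1 A q ht)
    (hy : ∀ i, (t2 q ht)⁻¹ ∈ O i) : (t2 q ht)⁻¹ ∈ B1 A q ht :=
  mem_B1_of_isIntegral A q ht π dvrR O hπ sat1 (isIntegral_inv_t2 q hb hq hqn ht) hy

end Model

end Fermat.Agent.ES.P36.ChartInstP14
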