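/-
Program P (S36), chapter REG, brick R1 (helper3): **(D1.0)–(D1.2) of `S36_REG2.md`, abstract form**
(commutative algebra only; imports Mathlib + Program H's `PurityCore26`, `Disc5`, `Hartogs22`,
`LocalUFD15`).  PER-RING statements: no number field, no `∃ K₀`.

Dictionary with `S36_REG2.md` §1: `R0 = (B0)_{x0}` (local ring of the level-`M'` chart at the image `x0`
of a crossing point `x1`), `S = (B0 ∖ x0)⁻¹ B1` (the level-`M' q` chart localised over `x0`),
`π` the uniformiser of the base, `𝔭₁, 𝔭₂` the two vertical primes (`𝔭_j = S ∩ π O_j`).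

* `eq_of_isMaximal`, `isLocalRing_of_branches`, `maximalIdeal_eq_of_branches`, `residue_surjective`
  — **(D1.0)**: `𝔭₁ 𝔭₂ ⊆ π S`, `R0 → S / 𝔭₁` onto, `S / 𝔭₂` purely inseparable of exponent `q` over the image
  of `R0`, `x1 ⊇ 𝔭₁ + 𝔭₂` maximal  ⟹  `x1` is the only maximal ideal of `S`, and every element of `S` is
  congruent mod `x1` to an element of `R0` (the `hres` of `DiscReg5`).
* `isPrincipalIdealRing_quotient_of_span_pair`, `maximalIdeal_atPrime_eq_span_pair` — the PID hypothesis
  `[IsPrincipalIdealRing (R0 ⧸ (π))]` from `𝔪_{R0} = (π, T)` (Program H's smooth chart), and `𝔪 = (π, T)`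
  in `Localization.AtPrime x0` from the elementwise form of Program H's `SmoothChart`.
* `free_local`, `finrank_eq_finrank_fraction` — **(D1.1)**: `S` is a free `R0`-module
  (`PurityCore26.free_of_finite`) of rank `[Frac S : Frac R0]`.
* `not_dvd_discr_local` — **(D1.2)** NO HORIZONTAL FACTOR: a prime element `g` of `R0` not
  associated to `π` does not divide `discr R0 b`, provided every DVR `O ⊇ S` of `Frac S` in which `π` is
  a unit has a uniformiser in `R0`  (local twin of `PurityMain26.not_dvd_discr_of_valuative`, which needs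
  `R0 / π` a PID for the NON-local base and is therefore unusable over a chart of positive genus).
* `discr_eq_pi_pow_mul_unit` — hence `discr R0 b = π ^ a * u`, `u` a unit.
-/
import Mathlib
import Fermat.Agent.RED.PUR.PurityCore26
import Fermat.Agent.RED.PUR.PurityMain26
import Fermat.Agent.RED.PUR.Disc5
import Fermat.Agent.RED.PUR.Hartogs22
import Fermat.Agent.RED.CORE.LocalUFD15

set_option autoImplicit false
set_option linter.style.haveILetI false
set_option linter.unusedSectionVars false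

namespace Fermat.Agent.ES.P36.RegLocal3

open IsLocalRing Fermat.Agent.RED.PUR Fermat.Agent.RED.CORE

/-! ### (D1.0) locality -/

section Locality

variable {R0 S : Type*} [CommRing R0] [IsLocalRing R0] [CommRing S] [Algebra R0 S]

/-- An element of `R0` whose image lies in a proper ideal of `S` is a non-unit. -/
theorem mem_maximalIdeal_of_algebraMap_mem {P : Ideal S} (hP : P ≠ ⊤) {r : R0}
    (hr : algebraMap R0 S r ∈ P) : r ∈ maximalIdeal R0 := by
  rw [mem_maximalIdeal, mem_nonunits_iff]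
  intro hu
  exact hP (Ideal.eq_top_of_isUnit_mem _ hr (hu.map _))

variable [Algebra.IsIntegral R0 S]

/-- A maximal ideal of an integral extension of a local ring contains the maximal ideal. -/
theorem algebraMap_mem_of_mem_maximalIdeal (x1 : Ideal S) [x1.IsMaximal] {r : R0}
    (hr : r ∈ maximalIdeal R0) : algebraMap R0 S r ∈ x1 := by
  have hmax : (x1.comap (algebraMap R0 S)).IsMaximal :=
    Ideal.isMaximal_comap_of_isIntegral_of_isMaximal x1
  have h : x1.comap (algebraMap R0 S) = maximalIdeal R0 := eq_maximalIdeal hmax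
  rw [← h] at hr
  exact hr

/-- **(D1.0), uniqueness.**  If `𝔭₁ 𝔭₂ ⊆ π S`, `R0 → S / 𝔭₁` is onto, every `q`-th power of `S` is
congruent mod `𝔭₂` to an element of `R0`, and the maximal ideal `x1` contains `𝔭₁` and `𝔭₂`, then `x1`
is the only maximal ideal of `S`. -/
theorem eq_of_isMaximal (π : R0) (hπm : π ∈ maximalIdeal R0) (𝔭₁ 𝔭₂ : Ideal S)
    (h12 : 𝔭₁ * 𝔭₂ ≤ Ideal.span {algebraMap R0 S π})
    (hsurj : ∀ s : S, ∃ r : R0, s - algebraMap R0 S r ∈ 𝔭₁)
    (q : ℕ) (hq : 0 < q) (hinsep : ∀ s : S, ∃ r : R0, s ^ q - algebraMap R0 S r ∈ 𝔭₂)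
    (x1 : Ideal S) [hx1 : x1.IsMaximal] (h1 : 𝔭₁ ≤ x1) (h2 : 𝔭₂ ≤ x1)
    (P : Ideal S) [hP : P.IsMaximal] : P = x1 := by
  have hPtop : P ≠ ⊤ := hP.ne_top
  -- `π ∈ P`
  have hπP : algebraMap R0 S π ∈ P := algebraMap_mem_of_mem_maximalIdeal P hπm
  have hle : 𝔭₁ * 𝔭₂ ≤ P := h12.trans ((Ideal.span_singleton_le_iff_mem _).mpr hπP)
  -- common argument: if `s ^ k ≡ r mod 𝔭`, `𝔭 ⊆ P ∩ x1`, `k > 0`, then `s ∈ P → s ∈ x1`
  have key : ∀ (𝔭 : Ideal S) (k : ℕ), 0 < k → 𝔭 ≤ P → 𝔭 ≤ x1 →
      (∀ s : S, ∃ r : R0, s ^ k - algebraMap R0 S r ∈ 𝔭) → P ≤ x1 := by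
    intro 𝔭 k hk hpP hpx hk' s hs
    obtain ⟨r, hr⟩ := hk' s
    have h3 : algebraMap R0 S r ∈ P := by
      have h4 : s ^ k ∈ P := Ideal.pow_mem_of_mem P hs k hk
      have h5 : algebraMap R0 S r = s ^ k - (s ^ k - algebraMap R0 S r) := by ring
      rw [h5]
      exact P.sub_mem h4 (hpP hr)
    have h6 : algebraMap R0 S r ∈ x1 :=
      algebraMap_mem_of_mem_maximalIdeal x1 (mem_maximalIdeal_of_algebraMap_mem hPtop h3)
    have h7 : s ^ k ∈ x1 := by
      have h8 : s ^ k = (s ^ k - algebraMap R0 S r) + algebraMap R0 S r := by ring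
      rw [h8]
      exact x1.add_mem (hpx hr) h6
    exact hx1.isPrime.mem_of_pow_mem k h7
  have hPx : P ≤ x1 := by
    rcases hP.isPrime.mul_le.mp hle with h | h
    · exact key 𝔭₁ 1 one_pos h h1 (fun s => by simpa using hsurj s)
    · exact key 𝔭₂ q hq h h2 hinsep
  exact hP.eq_of_le hx1.ne_top hPx

/-- **(D1.0)** `S` is a local ring. -/
theorem isLocalRing_of_branches (π : R0) (hπm : π ∈ maximalIdeal R0) (𝔭₁ 𝔭₂ : Ideal S)
    (h12 : 𝔭₁ * 𝔭₂ ≤ Ideal.span {algebraMap R0 S π})
    (hsurj : ∀ s : S, ∃ r : R0, s - algebraMap R0 S r ∈ 𝔭₁)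
    (q : ℕ) (hq : 0 < q) (hinsep : ∀ s : S, ∃ r : R0, s ^ q - algebraMap R0 S r ∈ 𝔭₂)
    (x1 : Ideal S) [hx1 : x1.IsMaximal] (h1 : 𝔭₁ ≤ x1) (h2 : 𝔭₂ ≤ x1) : IsLocalRing S :=
  IsLocalRing.of_unique_max_ideal ⟨x1, hx1, fun P hP =>
    haveI := hP
    eq_of_isMaximal π hπm 𝔭₁ 𝔭₂ h12 hsurj q hq hinsep x1 h1 h2 P⟩

/-- **(D1.0)** the maximal ideal of `S` is `x1`. -/
theorem maximalIdeal_eq_of_branches [IsLocalRing S] (x1 : Ideal S) [hx1 : x1.IsMaximal] :
    maximalIdeal S = x1 :=
  (eq_maximalIdeal hx1).symm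

/-- **(D1.0), residue field** (the `hres` of `DiscReg5`): every element of `S` is congruent modulo the
maximal ideal `x1 ⊇ 𝔭₁` to an element of `R0`. -/
theorem residue_surjective (𝔭₁ : Ideal S)
    (hsurj : ∀ s : S, ∃ r : R0, s - algebraMap R0 S r ∈ 𝔭₁) (x1 : Ideal S) (h1 : 𝔭₁ ≤ x1) (s : S) :
    ∃ r : R0, s - algebraMap R0 S r ∈ x1 := by
  obtain ⟨r, hr⟩ := hsurj s
  exact ⟨r, h1 hr⟩

end Locality

/-! ### The PID hypothesis from `𝔪 = (π, T)` -/

section PID

/-- A noetherian local ring `R0` with `𝔪 = (π, T)`, `π` prime: `R0 / π` is a principal ideal ring. -/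
theorem isPrincipalIdealRing_quotient_of_span_pair {R0 : Type*} [CommRing R0] [IsDomain R0]
    [IsNoetherianRing R0] [IsLocalRing R0] (π T : R0) (hπ : Prime π)
    (h𝔪 : maximalIdeal R0 = Ideal.span {π, T}) :
    IsPrincipalIdealRing (R0 ⧸ Ideal.span {π}) := by
  haveI hprime : (Ideal.span {π}).IsPrime := (Ideal.span_singleton_prime hπ.ne_zero).mpr hπ
  haveI : IsDomain (R0 ⧸ Ideal.span {π}) := Ideal.Quotient.isDomain _
  have hsurj : Function.Surjective (Ideal.Quotient.mk (Ideal.span {π})) :=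
    Ideal.Quotient.mk_surjective
  haveI : IsLocalRing (R0 ⧸ Ideal.span {π}) :=
    IsLocalRing.of_surjective' (Ideal.Quotient.mk (Ideal.span {π})) hsurj
  -- the maximal ideal of the quotient is generated by the class of `T`
  have hmax : maximalIdeal (R0 ⧸ Ideal.span {π}) =
      Ideal.span {Ideal.Quotient.mk (Ideal.span {π}) T} := by
    have h1 : maximalIdeal (R0 ⧸ Ideal.span {π}) =
        (maximalIdeal R0).map (Ideal.Quotient.mk (Ideal.span {π})) := by
      apply le_antisymm
      · intro y hy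
        obtain ⟨x, rfl⟩ := hsurj y
        refine Ideal.mem_map_of_mem _ ?_
        rw [mem_maximalIdeal, mem_nonunits_iff] at hy ⊢
        exact fun hu => hy (hu.map _)
      · rw [Ideal.map_le_iff_le_comap]
        intro x hx
        rw [Ideal.mem_comap, mem_maximalIdeal, mem_nonunits_iff]
        intro hu
        rw [mem_maximalIdeal, mem_nonunits_iff] at hx
        apply hx
        -- `x` is a unit modulo `π ∈ 𝔪`
        obtain ⟨y', hy'⟩ := hu.exists_right_inv
        obtain ⟨y, rfl⟩ := hsurj y'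
        have h2 : x * y - 1 ∈ Ideal.span {π} := by
          rw [← Ideal.Quotient.eq_zero_iff_mem, map_sub, map_mul, hy', map_one, sub_self]
        have h3 : x * y - 1 ∈ maximalIdeal R0 := by
          have hπm : π ∈ maximalIdeal R0 := by
            rw [h𝔪]; exact Ideal.subset_span (by simp)
          exact (Ideal.span_singleton_le_iff_mem _).mpr hπm h2
        by_contra hx'
        have h4 : x * y ∈ maximalIdeal R0 :=
          Ideal.mul_mem_right _ _ ((mem_maximalIdeal x).mpr hx')
        have h5 : (1 : R0) ∈ maximalIdeal R0 := by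
          have : (1 : R0) = x * y - (x * y - 1) := by ring
          rw [this]
          exact Ideal.sub_mem _ h4 h3
        exact (maximalIdeal.isMaximal R0).ne_top ((Ideal.eq_top_iff_one _).mpr h5)
    rw [h1, h𝔪, Ideal.map_span, Set.image_pair]
    have h0 : Ideal.Quotient.mk (Ideal.span {π}) π = 0 :=
      Ideal.Quotient.eq_zero_iff_mem.mpr (Ideal.mem_span_singleton_self π)
    rw [h0]
    apply le_antisymm
    · rw [Ideal.span_le]
      rintro x (rfl | rfl)
      · exact Ideal.zero_mem _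
      · exact Ideal.subset_span rfl
    · rw [Ideal.span_le]
      rintro x rfl
      exact Ideal.subset_span (by simp)
  have hprin : (maximalIdeal (R0 ⧸ Ideal.span {π})).IsPrincipal := ⟨⟨_, hmax⟩⟩
  exact ((tfae_of_isNoetherianRing_of_isLocalRing_of_isDomain
    (R0 ⧸ Ideal.span {π})).out 4 0).mp hprin

/-- The maximal ideal of `Localization.AtPrime x` is `(π, f)` as soon as `x` is generated by `π, f`
"up to denominators outside `x`" (the elementwise form of Program H's `SmoothChart`). -/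
theorem maximalIdeal_atPrime_eq_span_pair {B : Type*} [CommRing B] (x : Ideal B) [x.IsPrime]
    (π f : B) (hπ : π ∈ x) (hf : f ∈ x)
    (h : ∀ y ∈ x, ∃ d, d ∉ x ∧ d * y ∈ Ideal.span {π, f}) :
    maximalIdeal (Localization.AtPrime x) =
      Ideal.span {algebraMap B (Localization.AtPrime x) π,
        algebraMap B (Localization.AtPrime x) f} := by
  rw [← Localization.AtPrime.map_eq_maximalIdeal]
  apply le_antisymm
  · rw [Ideal.map_le_iff_le_comap]
    intro y hy
    obtain ⟨d, hd, hdy⟩ := h y hy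
    rw [Ideal.mem_comap]
    have hu : IsUnit (algebraMap B (Localization.AtPrime x) d) :=
      IsLocalization.map_units (Localization.AtPrime x) (⟨d, hd⟩ : x.primeCompl)
    have h1 : algebraMap B (Localization.AtPrime x) (d * y) ∈
        Ideal.span {algebraMap B (Localization.AtPrime x) π,
          algebraMap B (Localization.AtPrime x) f} := by
      have := Ideal.mem_map_of_mem (algebraMap B (Localization.AtPrime x)) hdy
      rwa [Ideal.map_span, Set.image_pair] at this
    rw [map_mul] at h1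
    exact (Ideal.unit_mul_mem_iff_mem _ hu).mp h1
  · rw [Ideal.span_le]
    rintro y (rfl | rfl)
    · exact Ideal.mem_map_of_mem _ hπ
    · exact Ideal.mem_map_of_mem _ hf

end PID

/-! ### (D1.1) freeness and rank -/

section Free

variable {R0 S : Type*} [CommRing R0] [IsDomain R0] [IsIntegrallyClosed R0] [IsLocalRing R0]
  [IsNoetherianRing R0]
  [CommRing S] [IsDomain S] [Algebra R0 S] [FaithfulSMul R0 S] [Module.Finite R0 S]
  [IsIntegrallyClosed S]

/-- **(D1.1)** `S` is a free `R0`-module (`PurityCore26.free_of_finite`, `π` a prime element). -/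
theorem free_local (π : R0) (hπ : Prime π) (hπm : π ∈ maximalIdeal R0)
    [IsPrincipalIdealRing (R0 ⧸ Ideal.span {π})] : Module.Free R0 S :=
  PurityCore26.free_of_finite π hπ.ne_zero
    ((Ideal.span_singleton_prime hπ.ne_zero).mpr hπ) hπm

/-- **(D1.1), rank.**  The rank of the free module `S` is the degree of the fraction fields. -/
theorem finrank_eq_finrank_fraction [Module.Free R0 S]
    (F0 F : Type*) [Field F0] [Field F] [Algebra R0 F0] [IsFractionRing R0 F0]
    [Algebra S F] [IsFractionRing S F] [Algebra F0 F] [Algebra R0 F] [IsScalarTower R0 F0 F]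
    [IsScalarTower R0 S F] :
    Module.finrank R0 S = Module.finrank F0 F := by
  haveI : Algebra.IsIntegral R0 S := Algebra.IsIntegral.of_finite R0 S
  haveI : IsIntegralClosure S R0 F := IsIntegralClosure.of_isIntegrallyClosed S R0 F
  haveI : Algebra.IsAlgebraic F0 F := by
    have hint : Algebra.IsIntegral R0 S := inferInstance
    refine ⟨fun x => ?_⟩
    obtain ⟨a, b, hb, rfl⟩ := IsFractionRing.div_surjective (A := S) x
    have ha : IsAlgebraic F0 (algebraMap S F a) :=
      ((hint.isIntegral a).map (IsScalarTower.toAlgHom R0 S F)).isAlgebraic.extendScalars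
        (IsFractionRing.injective R0 F0)
    have hb' : IsAlgebraic F0 (algebraMap S F b) :=
      ((hint.isIntegral b).map (IsScalarTower.toAlgHom R0 S F)).isAlgebraic.extendScalars
        (IsFractionRing.injective R0 F0)
    rw [div_eq_mul_inv]
    exact ha.mul hb'.inv
  haveI : IsLocalization (Algebra.algebraMapSubmonoid S (nonZeroDivisors R0)) F :=
    IsIntegralClosure.isLocalization R0 F0 F S
  haveI : IsLocalizedModule (nonZeroDivisors R0) (IsScalarTower.toAlgHom R0 S F).toLinearMap :=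
    (isLocalizedModule_iff_isLocalization (S := nonZeroDivisors R0) (A := S) (Aₛ := F)).mpr
      inferInstance
  exact (Module.finrank_of_isLocalizedModule_of_free F0 (nonZeroDivisors R0)
    (IsScalarTower.toAlgHom R0 S F).toLinearMap).symm

end Free

/-! ### (D1.2) no horizontal factor in the discriminant -/

section Disc

variable {R0 : Type*} [CommRing R0] [IsDomain R0] [IsNoetherianRing R0] [IsIntegrallyClosed R0]
  [IsLocalRing R0]
  {S : Type*} [CommRing S] [IsDomain S] [IsIntegrallyClosed S] [Algebra R0 S]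
  [Module.Finite R0 S] [FaithfulSMul R0 S]

/-- `π ∉ 𝔓` for a height-one prime `𝔓` of `S` containing an element `g` of `R0` not divisible by the
prime element `π` (going down). -/
theorem pi_notMem_of_height_one' (π : R0) (hπ : Prime π) (g : R0) (hgπ : ¬ π ∣ g)
    (𝔓 : Ideal S) [𝔓.IsPrime] (hht : 𝔓.height = 1) (hg𝔓 : algebraMap R0 S g ∈ 𝔓) :
    algebraMap R0 S π ∉ 𝔓 := by
  intro hπ𝔓
  haveI : Algebra.IsIntegral R0 S := Algebra.IsIntegral.of_finite _ _
  haveI : (Ideal.span {π}).IsPrime := (Ideal.span_singleton_prime hπ.ne_zero).mpr hπ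
  have hinj : Function.Injective (algebraMap R0 S) := FaithfulSMul.algebraMap_injective R0 S
  have hlt : Ideal.span {π} < 𝔓.under R0 := by
    refine lt_of_le_of_ne ?_ ?_
    · rw [Ideal.span_singleton_le_iff_mem, Ideal.under_def, Ideal.mem_comap]
      exact hπ𝔓
    · intro heq
      have : g ∈ Ideal.span {π} := by
        rw [heq, Ideal.under_def, Ideal.mem_comap]
        exact hg𝔓
      exact hgπ (Ideal.mem_span_singleton.mp this)
  obtain ⟨𝔓', h𝔓'le, h𝔓'prime, h𝔓'over⟩ :=
    Algebra.HasGoingDown.exists_ideal_le_liesOver_of_lt (R := R0) (S := S) 𝔓 hlt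
  haveI := h𝔓'prime
  have hne : 𝔓' ≠ 𝔓 := by
    intro heq
    have h1 : 𝔓'.under R0 = Ideal.span {π} := (h𝔓'over.over).symm
    rw [heq] at h1
    exact hlt.ne' h1
  have hbot := PurityMain26.eq_bot_of_lt_of_height_eq_one hht (lt_of_le_of_ne h𝔓'le hne)
  have hmem : algebraMap R0 S π ∈ 𝔓' := by
    have : π ∈ 𝔓'.under R0 := by
      rw [← h𝔓'over.over]
      exact Ideal.mem_span_singleton_self _
    rwa [Ideal.under_def, Ideal.mem_comap] at this
  rw [hbot, Ideal.mem_bot] at hmem
  exact hπ.ne_zero (hinj (by rw [hmem, map_zero]))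

variable (F : Type*) [Field F] [Algebra S F] [IsFractionRing S F]

/-- **(D1.2), no horizontal factor** (local twin of `PurityMain26.not_dvd_discr_of_valuative`).
`R0` a noetherian integrally closed LOCAL domain, `π` a prime element with `R0 / π` a PID, `S` an
integrally closed domain, finite and free (basis `b`) over `R0`, `F = Frac S`.  If the only residue
characteristic is that of `π` (`hchar`) and every DVR `O ⊇ S` of `F` in which `π` is a unit has a
uniformiser in `R0` (`hUNR`: "`F / Frac R0` is unramified at the horizontal places through the point"),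
then no prime element `g` of `R0` other than `π` divides the discriminant. -/
theorem not_dvd_discr_local (π : R0) (hπ : Prime π)
    [IsPrincipalIdealRing (R0 ⧸ Ideal.span {π})]
    (hchar : ∀ n : ℕ, n ≠ 0 → ∃ k : ℕ, (n : R0) ∣ π ^ k)
    (hUNR : ∀ O : ValuationSubring F, (∀ s : S, algebraMap S F s ∈ O) →
      IsDiscreteValuationRing O →
      (algebraMap S F (algebraMap R0 S π))⁻¹ ∈ O →
      ∃ g0 : R0, (algebraMap S F (algebraMap R0 S g0))⁻¹ ∉ O ∧
        ∀ y ∈ O, y⁻¹ ∉ O → y / algebraMap S F (algebraMap R0 S g0) ∈ O)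
    {ι : Type*} [Fintype ι] [DecidableEq ι] (b : Module.Basis ι R0 S)
    (g : R0) (hg : Prime g) (hgπ : ¬ π ∣ g) :
    ¬ g ∣ Algebra.discr R0 b := by
  classical
  haveI : IsNoetherianRing S := IsNoetherianRing.of_finite R0 S
  haveI hgprime : (Ideal.span {g}).IsPrime := (Ideal.span_singleton_prime hg.ne_zero).mpr hg
  -- residue characteristic zero
  haveI : CharZero (R0 ⧸ Ideal.span {g}) := by
    apply charZero_of_inj_zero
    intro n hn
    by_contra hn0
    have h1 : ((n : ℕ) : R0) ∈ Ideal.span {g} := by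
      rw [← Ideal.Quotient.eq_zero_iff_mem, map_natCast]
      exact hn
    obtain ⟨k, hk⟩ := hchar n hn0
    have h3 : g ∣ π := hg.dvd_of_dvd_pow ((Ideal.mem_span_singleton.mp h1).trans hk)
    obtain ⟨c, hc⟩ := h3
    rcases hπ.irreducible.isUnit_or_isUnit hc with hu | hu
    · exact hg.not_isUnit hu
    · obtain ⟨u, rfl⟩ := hu
      exact hgπ ⟨↑u⁻¹, by rw [hc, mul_assoc, Units.mul_inv, mul_one]⟩
  have hinjRS : Function.Injective (algebraMap R0 S) := FaithfulSMul.algebraMap_injective R0 S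
  have hinjSF : Function.Injective (algebraMap S F) := IsFractionRing.injective _ _
  have hg0 : algebraMap R0 S g ≠ 0 := fun h =>
    hg.ne_zero (hinjRS (by rw [h, map_zero]))
  intro hdvd
  refine Disc5.discr_notMem_span_of_unramified g b hg0 ?_ (Ideal.mem_span_singleton.mpr hdvd)
  intro 𝔓 h𝔓 hht hg𝔓 y hy
  haveI := h𝔓
  by_cases hy0 : y = 0
  · exact ⟨1, fun h1 => h𝔓.ne_top ((Ideal.eq_top_iff_one _).mpr h1),
      by rw [hy0, mul_zero]; exact dvd_zero _⟩
  set O : ValuationSubring F := Hartogs22.valuationSubringAt (K := F) 𝔓 hht with hO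
  -- elements of `S` outside `𝔓` are units of `O`
  have hunitO : ∀ s : S, s ∉ 𝔓 → (algebraMap S F s)⁻¹ ∈ O := by
    intro s hs
    rw [hO, Hartogs22.mem_valuationSubringAt_iff]
    refine ⟨1, s, hs, ?_⟩
    have hs0 : algebraMap S F s ≠ 0 := fun h => hs (by
      have : s = 0 := hinjSF (by rw [h, map_zero])
      rw [this]; exact 𝔓.zero_mem)
    rw [inv_mul_cancel₀ hs0, map_one]
  have hSO : ∀ s : S, algebraMap S F s ∈ O := fun s =>
    Hartogs22.algebraMap_mem_valuationSubringAt 𝔓 hht s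
  -- elements of `𝔓` are non-units of `O`
  have hnonunit : ∀ s : S, s ∈ 𝔓 → s ≠ 0 → (algebraMap S F s)⁻¹ ∉ O := by
    intro s hs hs0 hmem
    rw [hO, Hartogs22.mem_valuationSubringAt_iff] at hmem
    obtain ⟨a, s', hs', e⟩ := hmem
    have hsF : algebraMap S F s ≠ 0 := fun h => hs0 (hinjSF (by rw [h, map_zero]))
    have : algebraMap S F s' = algebraMap S F (a * s) := by
      rw [map_mul, ← e]; field_simp
    have h2 : s' = a * s := hinjSF this
    exact hs' (h2 ▸ 𝔓.mul_mem_left a hs)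
  have hπ𝔓 : algebraMap R0 S π ∉ 𝔓 := pi_notMem_of_height_one' π hπ g hgπ 𝔓 hht hg𝔓
  -- `𝔓 ∩ R0 = (h)`
  have hπunder : π ∉ 𝔓.under R0 := by
    rw [Ideal.under_def, Ideal.mem_comap]; exact hπ𝔓
  have hgunder : g ∈ 𝔓.under R0 := by
    rw [Ideal.under_def, Ideal.mem_comap]; exact hg𝔓
  have hunder0 : 𝔓.under R0 ≠ ⊥ := fun h0 => hg.ne_zero (by rw [h0, Ideal.mem_bot] at hgunder; exact hgunder)
  obtain ⟨h, hh, -, hunder⟩ :=
    LocalUFD15.exists_eq_span_singleton π hπ.not_isUnit (𝔓.under R0) hunder0 hπunder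
  obtain ⟨g0, hg0O, huni⟩ := hUNR O hSO inferInstance (hunitO _ hπ𝔓)
  -- `g0 ∈ 𝔓`
  have hg0𝔓 : algebraMap R0 S g0 ∈ 𝔓 := by
    by_contra hnot
    exact hg0O (hunitO _ hnot)
  have hg0under : g0 ∈ 𝔓.under R0 := by
    rw [Ideal.under_def, Ideal.mem_comap]; exact hg0𝔓
  have hgh : g ∣ g0 := by
    rw [hunder, Ideal.mem_span_singleton] at hgunder hg0under
    obtain ⟨c, hc⟩ := hgunder
    rcases hg.irreducible.isUnit_or_isUnit hc with hu | hu
    · exfalso
      have : 𝔓.under R0 = ⊤ := by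
        rw [hunder]; exact Ideal.span_singleton_eq_top.mpr hu
      exact (Ideal.IsPrime.under R0 𝔓).ne_top this
    · obtain ⟨u, rfl⟩ := hu
      obtain ⟨e, he⟩ := hg0under
      exact ⟨↑u⁻¹ * e, by rw [he, hc]; simp [mul_assoc]⟩
  obtain ⟨c, hc⟩ := hgh
  -- `y / g0 ∈ O`
  have hyO := huni (algebraMap S F y) (hSO y) (hnonunit y hy hy0)
  rw [hO, Hartogs22.mem_valuationSubringAt_iff] at hyO
  obtain ⟨a, s, hs, e⟩ := hyO
  refine ⟨s, hs, ?_⟩
  have hg0F : algebraMap S F (algebraMap R0 S g0) ≠ 0 := by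
    intro h0
    apply hg0O
    rw [h0, inv_zero]; exact O.zero_mem
  have h1 : algebraMap S F (s * y) = algebraMap S F (a * algebraMap R0 S g0) := by
    rw [map_mul, map_mul, ← e]
    field_simp
  have h2 := hinjSF h1
  rw [h2, hc, map_mul]
  exact ⟨a * algebraMap R0 S c, by ring⟩

/-- **(D1.2), conclusion.**  Under the hypotheses of `not_dvd_discr_local`, if `R0 / π` is not a
field (`hT`: some non-unit `T` is not divisible by `π`; e.g. `𝔪 = (π, T)` in dimension two), the
discriminant is `π ^ a` times a unit. -/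
theorem discr_eq_pi_pow_mul_unit (π : R0) (hπ : Prime π)
    [IsPrincipalIdealRing (R0 ⧸ Ideal.span {π})]
    (hchar : ∀ n : ℕ, n ≠ 0 → ∃ k : ℕ, (n : R0) ∣ π ^ k)
    (hUNR : ∀ O : ValuationSubring F, (∀ s : S, algebraMap S F s ∈ O) →
      IsDiscreteValuationRing O →
      (algebraMap S F (algebraMap R0 S π))⁻¹ ∈ O →
      ∃ g0 : R0, (algebraMap S F (algebraMap R0 S g0))⁻¹ ∉ O ∧
        ∀ y ∈ O, y⁻¹ ∉ O → y / algebraMap S F (algebraMap R0 S g0) ∈ O)
    (T : R0) (hTu : ¬ IsUnit T) (hTπ : ¬ π ∣ T)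
    {ι : Type*} [Fintype ι] [DecidableEq ι] (b : Module.Basis ι R0 S) :
    Algebra.discr R0 b ≠ 0 ∧
      ∃ (a : ℕ) (u : R0), IsUnit u ∧ Algebra.discr R0 b = π ^ a * u := by
  classical
  haveI := LocalUFD15.ufd π hπ
  have hno : ∀ g : R0, Prime g → ¬ π ∣ g → ¬ g ∣ Algebra.discr R0 b := fun g hg hgπ =>
    not_dvd_discr_local F π hπ hchar hUNR b g hg hgπ
  -- the discriminant is nonzero: a prime factor of `T` does not divide it
  have hd0 : Algebra.discr R0 b ≠ 0 := by
    intro h0
    have hT0 : T ≠ 0 := fun h => hTπ (h ▸ dvd_zero π)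
    obtain ⟨p, hp, hpT⟩ := WfDvdMonoid.exists_irreducible_factor hTu hT0
    have hp' : Prime p := UniqueFactorizationMonoid.irreducible_iff_prime.mp hp
    exact hno p hp' (fun hπp => hTπ (hπp.trans hpT)) (h0 ▸ dvd_zero p)
  refine ⟨hd0, ?_⟩
  -- split off the `π`-part
  obtain ⟨a, u, hu, hdu⟩ := WfDvdMonoid.max_power_factor hd0 hπ.irreducible
  refine ⟨a, u, ?_, hdu⟩
  apply LocalUFD15.isUnit_of_forall_prime_not_dvd π hπ u
  · intro h0
    rw [h0, mul_zero] at hdu
    exact hd0 hdu
  · intro f hf hfu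
    by_cases hπf : π ∣ f
    · exact hu (hπf.trans hfu)
    · exact hno f hf hπf (hdu ▸ Dvd.dvd.mul_left hfu _)

end Disc

end Fermat.Agent.ES.P36.RegLocal3
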