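/-
Program P (S36), chapter REG, brick R1 part 3 (helper3): **the CHART ⟶ LOCALISATION bridge**
(commutative algebra only).  `B0 ⊆ B1` two chart rings (`B1` a `B0`-algebra), `x0` a prime of `B0`,
`R0 := RP x0 = (B0)_{x0}`, `S := SP B1 x0 = (B0 ∖ x0)⁻¹ B1` (`LocalFree26` vocabulary), `x1` a maximal
ideal of `B1` over `x0`.  Everything the abstract bricks (`RegLocal3`, `DiscReg5`, `QuotDisc3`,
`DiscLift5`) need is produced from ELEMENT-FORM hypotheses over `(B0, B1, x0, x1)`, and the conclusion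
`𝔪_S = (T, z')` is brought back to the element form over `(B1, x1)`:

* `map_isPrime`, `under_map_eq`, `map_isMaximal` : `x1 S` is a maximal ideal of `S` with contraction `x1`;
* `h12_map`, `hsurj_map`, `hinsep_map` : the hypotheses of `RegLocal3.isLocalRing_of_branches` for
  `(R0, S, x1 S, 𝔭₁ S, 𝔭₂ S)` from the same statements over `(B0, B1, x1, 𝔭₁, 𝔭₂)`;
* `isLocalRing_SP`, `maximalIdeal_SP_eq`, `residue_SP` : **(D1.0) at chart level**;
* `not_pi_dvd_T` : `¬ π ∣ T` in `R0` from `𝔪_{R0} = (π, T)` and `x0 ≠ (π)`;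
* `isUnit_algebraMap_of_notMem` : elements of `B1 ∖ x1` are units of `S` (once `S` is local);
* `exists_elt_form` : `𝔪_S = (T, z')` ⟹ `∃ z ∈ x1, ∀ f ∈ x1, ∃ d ∉ x1, d * f ∈ (T, z)` in `B1`
  (the `hsm`/`hgen` shape of `NodalSmooth13`, `NodeReg10`).
-/
import Mathlib
import Fermat.Agent.RED.PUR.LocalFree26
import Fermat.Agent.ES.P36.RegLocal3

set_option autoImplicit false
set_option linter.style.haveILetI false
set_option linter.unusedSectionVars false

namespace Fermat.Agent.ES.P36.ChartLocal3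

open IsLocalRing Fermat.Agent.RED.PUR.LocalFree26 Fermat.Agent.ES.P36.RegLocal3

section Lift

variable {B0 B1 : Type*} [CommRing B0] [CommRing B1] [Algebra B0 B1] (x0 : Ideal B0) [x0.IsPrime]

/-- A prime of `B1` whose contraction lies in `x0` is disjoint from the image of `B0 ∖ x0`. -/
theorem disjoint_of_comap_le (x1 : Ideal B1) (h : x1.comap (algebraMap B0 B1) ≤ x0) :
    Disjoint ((Algebra.algebraMapSubmonoid B1 x0.primeCompl : Submonoid B1) : Set B1)
      (x1 : Set B1) := by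
  rw [Set.disjoint_left]
  rintro _ ⟨d, hd, rfl⟩ hmem
  exact hd (h hmem)

/-- `x1 S` is prime. -/
theorem map_isPrime (x1 : Ideal B1) [hx1 : x1.IsPrime] (h : x1.comap (algebraMap B0 B1) ≤ x0) :
    (x1.map (algebraMap B1 (SP B1 x0))).IsPrime :=
  IsLocalization.isPrime_of_isPrime_disjoint (Algebra.algebraMapSubmonoid B1 x0.primeCompl)
    (SP B1 x0) x1 hx1 (disjoint_of_comap_le x0 x1 h)

/-- the contraction of `x1 S` is `x1`. -/
theorem under_map_eq (x1 : Ideal B1) [hx1 : x1.IsPrime] (h : x1.comap (algebraMap B0 B1) ≤ x0) :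
    (x1.map (algebraMap B1 (SP B1 x0))).comap (algebraMap B1 (SP B1 x0)) = x1 :=
  IsLocalization.under_map_of_isPrime_disjoint (Algebra.algebraMapSubmonoid B1 x0.primeCompl)
    (SP B1 x0) hx1 (disjoint_of_comap_le x0 x1 h)

/-- membership in `x1 S` of the image of an element of `B1`. -/
theorem algebraMap_mem_map_iff (x1 : Ideal B1) [hx1 : x1.IsPrime]
    (h : x1.comap (algebraMap B0 B1) ≤ x0) (b : B1) :
    algebraMap B1 (SP B1 x0) b ∈ x1.map (algebraMap B1 (SP B1 x0)) ↔ b ∈ x1 := by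
  constructor
  · intro hb
    have : b ∈ (x1.map (algebraMap B1 (SP B1 x0))).comap (algebraMap B1 (SP B1 x0)) := hb
    rwa [under_map_eq x0 x1 h] at this
  · exact fun hb => Ideal.mem_map_of_mem _ hb

/-- every element of `S` is `b / d` with `b ∈ B1`, `d ∈ B0 ∖ x0`. -/
theorem exists_mul_eq (s : SP B1 x0) :
    ∃ (b : B1) (d : B0), d ∉ x0 ∧
      s * algebraMap B1 (SP B1 x0) (algebraMap B0 B1 d) = algebraMap B1 (SP B1 x0) b := by
  obtain ⟨⟨b, ⟨m, d, hd, rfl⟩⟩, hb⟩ :=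
    IsLocalization.surj (Algebra.algebraMapSubmonoid B1 x0.primeCompl) s
  exact ⟨b, d, hd, hb⟩

/-- the image in `S` of an element of `B0 ∖ x0` is a unit. -/
theorem isUnit_algebraMap_of_notMem_base {d : B0} (hd : d ∉ x0) :
    IsUnit (algebraMap B1 (SP B1 x0) (algebraMap B0 B1 d)) :=
  IsLocalization.map_units (SP B1 x0)
    (⟨algebraMap B0 B1 d, d, hd, rfl⟩ : Algebra.algebraMapSubmonoid B1 x0.primeCompl)

/-- compatibility of the two routes `B0 → S`. -/
theorem algebraMap_comm (r : B0) :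
    algebraMap (RP x0) (SP B1 x0) (algebraMap B0 (RP x0) r) =
      algebraMap B1 (SP B1 x0) (algebraMap B0 B1 r) := by
  rw [← IsScalarTower.algebraMap_apply, ← IsScalarTower.algebraMap_apply]

/-- the image of `π` generates the image of `(π)`. -/
theorem h12_map (π : B0) (𝔭₁ 𝔭₂ : Ideal B1)
    (h12 : 𝔭₁ * 𝔭₂ ≤ Ideal.span {algebraMap B0 B1 π}) :
    𝔭₁.map (algebraMap B1 (SP B1 x0)) * 𝔭₂.map (algebraMap B1 (SP B1 x0)) ≤
      Ideal.span {algebraMap (RP x0) (SP B1 x0) (algebraMap B0 (RP x0) π)} := by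
  rw [← Ideal.map_mul, algebraMap_comm]
  have := Ideal.map_mono (f := algebraMap B1 (SP B1 x0)) h12
  rwa [Ideal.map_span, Set.image_singleton] at this

/-- transfer of "`s ^ k` is congruent mod `𝔭` to an element of the base" from `(B0, B1)` to
`(R0, S)`. -/
theorem hpow_map (𝔭 : Ideal B1) (k : ℕ)
    (hk : ∀ s : B1, ∃ r : B0, s ^ k - algebraMap B0 B1 r ∈ 𝔭) (s : SP B1 x0) :
    ∃ r : RP x0, s ^ k - algebraMap (RP x0) (SP B1 x0) r ∈ 𝔭.map (algebraMap B1 (SP B1 x0)) := by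
  obtain ⟨b, d, hd, hbd⟩ := exists_mul_eq x0 s
  obtain ⟨r, hr⟩ := hk b
  have hu : IsUnit (algebraMap B0 (RP x0) d) :=
    IsLocalization.map_units (RP x0) (⟨d, hd⟩ : x0.primeCompl)
  obtain ⟨u, hu'⟩ := hu
  refine ⟨algebraMap B0 (RP x0) r * (↑(u⁻¹) : RP x0) ^ k, ?_⟩
  -- multiply by the unit `d ^ k`
  have hdS : algebraMap (RP x0) (SP B1 x0) (↑u : RP x0) =
      algebraMap B1 (SP B1 x0) (algebraMap B0 B1 d) := by
    rw [hu', algebraMap_comm]
  have huS : IsUnit (algebraMap (RP x0) (SP B1 x0) (↑u : RP x0)) := (u.isUnit).map _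
  have h1 : (s ^ k - algebraMap (RP x0) (SP B1 x0)
      (algebraMap B0 (RP x0) r * (↑(u⁻¹) : RP x0) ^ k)) *
        (algebraMap (RP x0) (SP B1 x0) (↑u : RP x0)) ^ k =
      algebraMap B1 (SP B1 x0) (b ^ k - algebraMap B0 B1 r) := by
    have e1 : s ^ k * (algebraMap (RP x0) (SP B1 x0) (↑u : RP x0)) ^ k =
        algebraMap B1 (SP B1 x0) b ^ k := by
      rw [← mul_pow, hdS, hbd]
    have e2 : algebraMap (RP x0) (SP B1 x0) (algebraMap B0 (RP x0) r * (↑(u⁻¹) : RP x0) ^ k) *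
        (algebraMap (RP x0) (SP B1 x0) (↑u : RP x0)) ^ k =
        algebraMap (RP x0) (SP B1 x0) (algebraMap B0 (RP x0) r) := by
      rw [map_mul, map_pow, mul_assoc, ← mul_pow, ← map_mul, Units.inv_mul, map_one, one_pow,
        mul_one]
    rw [sub_mul, e1, e2, algebraMap_comm, map_sub, map_pow]
  have h2 : algebraMap B1 (SP B1 x0) (b ^ k - algebraMap B0 B1 r) ∈
      𝔭.map (algebraMap B1 (SP B1 x0)) := Ideal.mem_map_of_mem _ hr
  rw [← h1] at h2
  exact (Ideal.mul_unit_mem_iff_mem _ (huS.pow k)).mp h2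

theorem hsurj_map (𝔭₁ : Ideal B1) (hsurj : ∀ s : B1, ∃ r : B0, s - algebraMap B0 B1 r ∈ 𝔭₁)
    (s : SP B1 x0) :
    ∃ r : RP x0, s - algebraMap (RP x0) (SP B1 x0) r ∈ 𝔭₁.map (algebraMap B1 (SP B1 x0)) := by
  have := hpow_map x0 𝔭₁ 1 (fun s => by simpa using hsurj s) s
  simpa using this

end Lift

section Local

variable {B0 B1 : Type*} [CommRing B0] [CommRing B1] [Algebra B0 B1] [Module.Finite B0 B1]
  (x0 : Ideal B0) [x0.IsPrime]

/-- `x1 S` is maximal (`x1` a prime of `B1` lying over `x0`). -/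
theorem map_isMaximal (x1 : Ideal B1) [hx1 : x1.IsPrime]
    (h : x1.comap (algebraMap B0 B1) = x0) :
    (x1.map (algebraMap B1 (SP B1 x0))).IsMaximal := by
  haveI := map_isPrime x0 x1 h.le
  haveI : Algebra.IsIntegral (RP x0) (SP B1 x0) := Algebra.IsIntegral.of_finite _ _
  apply Ideal.isMaximal_of_isIntegral_of_isMaximal_comap (R := RP x0)
  -- the contraction to `R0` contains, hence equals, the maximal ideal
  have hle : maximalIdeal (RP x0) ≤
      (x1.map (algebraMap B1 (SP B1 x0))).comap (algebraMap (RP x0) (SP B1 x0)) := by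
    rw [← Localization.AtPrime.map_eq_maximalIdeal, Ideal.map_le_iff_le_comap]
    intro r hr
    rw [Ideal.mem_comap, Ideal.mem_comap, algebraMap_comm]
    refine Ideal.mem_map_of_mem _ ?_
    have : r ∈ x1.comap (algebraMap B0 B1) := h ▸ hr
    exact this
  have hne : (x1.map (algebraMap B1 (SP B1 x0))).comap (algebraMap (RP x0) (SP B1 x0)) ≠ ⊤ :=
    (Ideal.IsPrime.comap _).ne_top
  rw [← (maximalIdeal.isMaximal (RP x0)).eq_of_le hne hle]
  exact maximalIdeal.isMaximal _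

/-- **(D1.0) at chart level**: `S` is local. -/
theorem isLocalRing_SP (π : B0) (hπ : π ∈ x0) (x1 : Ideal B1) [hx1 : x1.IsPrime]
    (h : x1.comap (algebraMap B0 B1) = x0) (𝔭₁ 𝔭₂ : Ideal B1)
    (h12 : 𝔭₁ * 𝔭₂ ≤ Ideal.span {algebraMap B0 B1 π})
    (hsurj : ∀ s : B1, ∃ r : B0, s - algebraMap B0 B1 r ∈ 𝔭₁)
    (q : ℕ) (hq : 0 < q) (hinsep : ∀ s : B1, ∃ r : B0, s ^ q - algebraMap B0 B1 r ∈ 𝔭₂)
    (h1 : 𝔭₁ ≤ x1) (h2 : 𝔭₂ ≤ x1) : IsLocalRing (SP B1 x0) := by
  haveI : Algebra.IsIntegral (RP x0) (SP B1 x0) := Algebra.IsIntegral.of_finite _ _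
  haveI := map_isMaximal x0 x1 h
  have hπm : algebraMap B0 (RP x0) π ∈ maximalIdeal (RP x0) := by
    rw [← Localization.AtPrime.map_eq_maximalIdeal]
    exact Ideal.mem_map_of_mem _ hπ
  exact isLocalRing_of_branches (algebraMap B0 (RP x0) π) hπm
    (𝔭₁.map (algebraMap B1 (SP B1 x0))) (𝔭₂.map (algebraMap B1 (SP B1 x0)))
    (h12_map x0 π 𝔭₁ 𝔭₂ h12) (hsurj_map x0 𝔭₁ hsurj) q hq (hpow_map x0 𝔭₂ q hinsep)
    (x1.map (algebraMap B1 (SP B1 x0))) (Ideal.map_mono h1) (Ideal.map_mono h2)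

/-- the maximal ideal of the local ring `S` is `x1 S`. -/
theorem maximalIdeal_SP_eq [IsLocalRing (SP B1 x0)] (x1 : Ideal B1) [hx1 : x1.IsPrime]
    (h : x1.comap (algebraMap B0 B1) = x0) :
    maximalIdeal (SP B1 x0) = x1.map (algebraMap B1 (SP B1 x0)) :=
  (eq_maximalIdeal (map_isMaximal x0 x1 h)).symm

/-- `b ∈ x1` iff its image lies in the maximal ideal of `S`. -/
theorem algebraMap_mem_maximalIdeal_iff [IsLocalRing (SP B1 x0)] (x1 : Ideal B1) [hx1 : x1.IsPrime]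
    (h : x1.comap (algebraMap B0 B1) = x0) (b : B1) :
    algebraMap B1 (SP B1 x0) b ∈ maximalIdeal (SP B1 x0) ↔ b ∈ x1 := by
  rw [maximalIdeal_SP_eq x0 x1 h, algebraMap_mem_map_iff x0 x1 h.le]

/-- elements of `B1 ∖ x1` are units of the local ring `S`. -/
theorem isUnit_algebraMap_of_notMem [IsLocalRing (SP B1 x0)] (x1 : Ideal B1) [hx1 : x1.IsPrime]
    (h : x1.comap (algebraMap B0 B1) = x0) {b : B1} (hb : b ∉ x1) :
    IsUnit (algebraMap B1 (SP B1 x0) b) := by
  by_contra hu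
  exact hb ((algebraMap_mem_maximalIdeal_iff x0 x1 h b).mp ((mem_maximalIdeal _).mpr hu))

/-- **(D1.0), residue field, at chart level** (the `hres` of `DiscReg5` / `DiscLift5`). -/
theorem residue_SP [IsLocalRing (SP B1 x0)] (x1 : Ideal B1) [hx1 : x1.IsPrime]
    (h : x1.comap (algebraMap B0 B1) = x0) (𝔭₁ : Ideal B1)
    (hsurj : ∀ s : B1, ∃ r : B0, s - algebraMap B0 B1 r ∈ 𝔭₁) (h1 : 𝔭₁ ≤ x1) (s : SP B1 x0) :
    ∃ r : RP x0, s - algebraMap (RP x0) (SP B1 x0) r ∈ maximalIdeal (SP B1 x0) := by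
  rw [maximalIdeal_SP_eq x0 x1 h]
  exact residue_surjective (𝔭₁.map (algebraMap B1 (SP B1 x0))) (hsurj_map x0 𝔭₁ hsurj)
    (x1.map (algebraMap B1 (SP B1 x0))) (Ideal.map_mono h1) s

/-- **Back to the element form**: if `𝔪_S = (T, z')` then `x1` is generated by `T` and one element
`z ∈ x1` up to denominators outside `x1`. -/
theorem exists_elt_form [IsLocalRing (SP B1 x0)] (x1 : Ideal B1) [hx1 : x1.IsPrime]
    (h : x1.comap (algebraMap B0 B1) = x0) (T : B0) (z' : SP B1 x0)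
    (hmax : maximalIdeal (SP B1 x0) =
      Ideal.span {algebraMap (RP x0) (SP B1 x0) (algebraMap B0 (RP x0) T), z'}) :
    ∃ z ∈ x1, ∀ f ∈ x1, ∃ d, d ∉ x1 ∧ d * f ∈ Ideal.span {algebraMap B0 B1 T, z} := by
  -- write `z' = z / d₀`
  obtain ⟨z, d₀, hd₀, hz⟩ := exists_mul_eq x0 z'
  have hu₀ := isUnit_algebraMap_of_notMem_base (B1 := B1) x0 hd₀
  have hz'mem : z' ∈ maximalIdeal (SP B1 x0) := by
    rw [hmax]; exact Ideal.subset_span (by simp)
  have hzx1 : z ∈ x1 := by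
    rw [← algebraMap_mem_maximalIdeal_iff x0 x1 h, ← hz]
    exact Ideal.mul_mem_right _ _ hz'mem
  refine ⟨z, hzx1, fun f hf => ?_⟩
  -- `𝔪_S` is the extension of `(T, z)`
  have hext : maximalIdeal (SP B1 x0) =
      (Ideal.span {algebraMap B0 B1 T, z}).map (algebraMap B1 (SP B1 x0)) := by
    rw [hmax, Ideal.map_span, Set.image_pair, algebraMap_comm, ← hz]
    apply le_antisymm
    · rw [Ideal.span_le]
      intro y hy
      rcases hy with hy | hy
      · rw [hy]; exact Ideal.subset_span (by simp)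
      · obtain ⟨u, hu⟩ := hu₀
        have hy' : y = (z' * (↑u : SP B1 x0)) * (↑u⁻¹ : SP B1 x0) := by
          rw [mul_assoc, Units.mul_inv, mul_one]; exact hy
        rw [hy', hu]
        exact Ideal.mul_mem_right _ _ (Ideal.subset_span (by simp))
    · rw [Ideal.span_le]
      intro y hy
      rcases hy with hy | hy
      · rw [hy]; exact Ideal.subset_span (by simp)
      · rw [hy]; exact Ideal.mul_mem_right _ _ (Ideal.subset_span (by simp))
  have hfm : algebraMap B1 (SP B1 x0) f ∈ maximalIdeal (SP B1 x0) :=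
    (algebraMap_mem_maximalIdeal_iff x0 x1 h f).mpr hf
  rw [hext, IsLocalization.mem_map_algebraMap_iff
    (Algebra.algebraMapSubmonoid B1 x0.primeCompl) (SP B1 x0)] at hfm
  obtain ⟨⟨⟨i, hi⟩, ⟨m, hm⟩⟩, him⟩ := hfm
  simp only at him
  rw [← map_mul, IsLocalization.eq_iff_exists
    (Algebra.algebraMapSubmonoid B1 x0.primeCompl) (SP B1 x0)] at him
  obtain ⟨⟨c, hc⟩, hcm⟩ := him
  simp only at hcm
  -- `c * m ∉ x1`
  have hnot : ∀ y ∈ Algebra.algebraMapSubmonoid B1 x0.primeCompl, y ∉ x1 := by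
    intro y hy hyx
    exact Set.disjoint_left.mp (disjoint_of_comap_le x0 x1 h.le) hy hyx
  refine ⟨c * m, ?_, ?_⟩
  · intro hmem
    rcases hx1.mem_or_mem hmem with h' | h'
    · exact hnot c hc h'
    · exact hnot m hm h'
  · have : c * m * f = c * i := by
      rw [mul_assoc, mul_comm m f, hcm]
    rw [this]
    exact Ideal.mul_mem_left _ _ hi

end Local

section Param

variable {B0 : Type*} [CommRing B0] [IsDomain B0] (x0 : Ideal B0) [x0.IsPrime]

/-- `¬ π ∣ T` in `R0 = (B0)_{x0}` when `𝔪_{R0} = (π, T)`, `π` is a prime element of `B0` and `x0 ≠ (π)`. -/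
theorem not_pi_dvd_T (π T : B0) (hπ : Prime π) (hπx : π ∈ x0)
    (hmax : maximalIdeal (RP x0) = Ideal.span {algebraMap B0 (RP x0) π, algebraMap B0 (RP x0) T})
    (hne : ∃ y ∈ x0, ¬ π ∣ y) :
    ¬ algebraMap B0 (RP x0) π ∣ algebraMap B0 (RP x0) T := by
  intro hdvd
  obtain ⟨y, hy, hπy⟩ := hne
  -- `𝔪 = (π)`
  have hmax' : maximalIdeal (RP x0) = Ideal.span {algebraMap B0 (RP x0) π} := by
    rw [hmax]
    apply le_antisymm
    · rw [Ideal.span_le]
      rintro w (rfl | rfl)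
      · exact Ideal.mem_span_singleton_self _
      · exact Ideal.mem_span_singleton.mpr hdvd
    · exact Ideal.span_mono (by simp)
  have hym : algebraMap B0 (RP x0) y ∈ maximalIdeal (RP x0) := by
    rw [← Localization.AtPrime.map_eq_maximalIdeal]
    exact Ideal.mem_map_of_mem _ hy
  rw [hmax', ← Set.image_singleton, ← Ideal.map_span,
    IsLocalization.mem_map_algebraMap_iff x0.primeCompl (RP x0)] at hym
  obtain ⟨⟨⟨i, hi⟩, ⟨m, hm⟩⟩, him⟩ := hym
  simp only at him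
  rw [← map_mul, IsLocalization.eq_iff_exists x0.primeCompl (RP x0)] at him
  obtain ⟨⟨c, hc⟩, hcm⟩ := him
  simp only at hcm
  have hdiv : π ∣ c * (y * m) := by
    rw [hcm]
    exact Dvd.dvd.mul_left (Ideal.mem_span_singleton.mp hi) c
  have hπnot : ∀ w : B0, w ∉ x0 → ¬ π ∣ w := by
    intro w hw hdw
    obtain ⟨v, rfl⟩ := hdw
    exact hw (x0.mul_mem_right v hπx)
  rcases hπ.dvd_or_dvd hdiv with h' | h'
  · exact hπnot c hc h'
  · rcases hπ.dvd_or_dvd h' with h'' | h''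
    · exact hπy h''
    · exact hπnot m hm h''

end Param

end Fermat.Agent.ES.P36.ChartLocal3
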