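/-
Program P (S36), chapter REG, brick R7c glue, part 3 (helper26): **the residue fields of the closed points
over `π` of the charts `chart A t^{±1}` are torsion** (they are finite fields) — the hypothesis `hfin` of
`RED.ChartTransfer3.contractIdeal_isMaximal` and of `HunrSqInv26.hUNRM_sq_chart1`:

  `∀ x, x.IsMaximal → algebraMap A (chart A t) π ∈ x → ∀ b ∉ x, ∃ k, 0 < k ∧ b ^ k - 1 ∈ x`.

* `torsion_chart`, `torsion_chart_inv` : `A` a DVR with finite residue field, `t` transcendental over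
  `K = Frac A`, `[F : K(t)] < ∞` (`ChartTransferInst3.finiteType_chart` + Nullstellensatz
  `ChartTransfer3.finite_quotient_of_finiteType`);
* `torsion_gauss` : Gauss form, same hypotheses as `ChartN26.chartInputs_gauss`;
* `hfin_at` : at the `ModelDefs9` charts `B0 A q ht`, `B1 A q ht` of level `M' q`, ONE number field `K`, same
  leaf hypotheses `ht`, `hJ` as `ChartAt26.chartInputs_tN_at`.
-/
import Mathlib
import Fermat.Agent.ES.P36.ChartAt26
import Fermat.Agent.RED.ChartTransferInst3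

set_option autoImplicit false
set_option linter.unusedSectionVars false
set_option linter.style.haveILetI false

noncomputable section

open HahnSeries ModularCurve IntermediateField

namespace Fermat.Agent.ES.P36.ChartTorsion26

open Fermat.Agent.RED.PUR.ChartGeneric22 Fermat.Agent.RED.ChartTransfer3
  Fermat.Agent.RED.ChartTransferInst3 Fermat.Agent.RED.PUR.IntClosBase13

section Generic

variable {A K F : Type*} [CommRing A] [IsDomain A] [IsDiscreteValuationRing A]
  [Field K] [Field F] [Algebra A K] [IsFractionRing A K] [Algebra K F] [Algebra A F]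
  [IsScalarTower A K F] [CharZero K]

/-- closed points over `π` of `chart A t` have torsion residue fields. -/
theorem torsion_chart {π : A} (hπ : Irreducible π) [Finite (IsLocalRing.ResidueField A)]
    (t : F) (ht : Transcendental K t) [FiniteDimensional K⟮t⟯ F]
    (x : Ideal (chart A t)) (hx : x.IsMaximal) (hπx : algebraMap A (chart A t) π ∈ x)
    (b : chart A t) (hb : b ∉ x) : ∃ k : ℕ, 0 < k ∧ b ^ k - 1 ∈ x := by
  haveI := finite_quotient_span hπ
  haveI := finiteType_chart (A := A) (K := K) t ht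
  haveI := hx
  haveI : Finite (chart A t ⧸ x) := finite_quotient_of_finiteType π (isMaximal_span hπ) x hπx
  exact exists_pow_sub_one_mem_of_finite x b hb

/-- the same for the chart at infinity. -/
theorem torsion_chart_inv {π : A} (hπ : Irreducible π) [Finite (IsLocalRing.ResidueField A)]
    (t : F) (ht : Transcendental K t) [FiniteDimensional K⟮t⟯ F]
    (x : Ideal (chart A t⁻¹)) (hx : x.IsMaximal) (hπx : algebraMap A (chart A t⁻¹) π ∈ x)
    (b : chart A t⁻¹) (hb : b ∉ x) : ∃ k : ℕ, 0 < k ∧ b ^ k - 1 ∈ x := by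
  haveI := finiteDimensional_inv (K := K) t
  exact torsion_chart hπ t⁻¹ (transcendental_inv ht) x hx hπx b hb

end Generic

section Gauss

open Fermat.Agent.RED.PUR.GaussGen8 Fermat.Agent.RED.PUR.KtGauss8
  Fermat.Agent.RED.PUR.G1Package8 Fermat.Agent.RED.NumInst4 Fermat.Agent.RED.ModelAsm4

variable {K : Type*} [Field K] {O : ValuationSubring K} [IsDiscreteValuationRing ↥O]
  {E : IntermediateField K (LaurentSeries K)}

/-- **Gauss form** (hypotheses of `ChartN26.chartInputs_gauss` + finite residue field). -/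
theorem torsion_gauss [CharZero K] {π : ↥O} (hπ : Irreducible π)
    [Finite (IsLocalRing.ResidueField ↥O)] (t : ↥E)
    (ht : (t : LaurentSeries K) ∈ gaussRing O)
    (htr : Transcendental (Res O) (gaussRed O ⟨(t : LaurentSeries K), ht⟩))
    (hn : relfinrank (Kt O ⟨(t : LaurentSeries K), ht⟩) E ≠ 0) :
    (∀ x : Ideal ↥(chart ↥O t), x.IsMaximal → algebraMap ↥O ↥(chart ↥O t) π ∈ x →
      ∀ b : ↥(chart ↥O t), b ∉ x → ∃ k : ℕ, 0 < k ∧ b ^ k - 1 ∈ x) ∧
    (∀ x : Ideal ↥(chart ↥O t⁻¹), x.IsMaximal → algebraMap ↥O ↥(chart ↥O t⁻¹) π ∈ x →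
      ∀ b : ↥(chart ↥O t⁻¹), b ∉ x → ∃ k : ℕ, 0 < k ∧ b ^ k - 1 ∈ x) := by
  have : IsScalarTower ↥O K ↥E := isScalarTower_OE O E
  have : FiniteDimensional ↥(IntermediateField.adjoin K {t}) ↥E := finiteDimensional_adjoin t hn
  have htrK : Transcendental K t :=
    transcendental_of_coe t (transcendental_t (tG := ⟨(t : LaurentSeries K), ht⟩) hπ htr)
  exact ⟨fun x hx hπx b hb => torsion_chart (K := K) hπ t htrK x hx hπx b hb,
    fun x hx hπx b hb => torsion_chart_inv (K := K) hπ t htrK x hx hπx b hb⟩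

end Gauss

section Model

open Fermat.Agent.RED.Interface4 Fermat.Agent.RED.PUR.GaussGen8 Fermat.Agent.RED.PUR.KtGauss8
  Fermat.Agent.RED.ModelTargets4 Fermat.Agent.RED.BASE.EtaQuot12 Fermat.Agent.X0
  Fermat.Agent.RED.DESC.NumberFieldDVR27 Fermat.Agent.RED.ModelMain4
  Fermat.Agent.RED.BASE.Interface12
  Fermat.Agent.ES.N34.NodalCore13 Fermat.Agent.ES.N34.ChartN26 Fermat.Agent.ES.N34.ModelDefs9

variable {n e M' : ℕ} [NeZero n] [NeZero M'] (q : ℕ) [NeZero q] {A : ValuationSubring Qbar}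

/-- **`hfin` at the level-`M' q` charts, at ONE number field `K`** (leaf hypotheses `ht`, `hJ` of
`ChartAt26.chartInputs_tN_at`). -/
theorem hfin_at {ℓ : ℕ} (hℓ : ℓ.Prime) (hA : A.LiesOverPrime ℓ)
    (K : IntermediateField ℚ Qbar) [FiniteDimensional ℚ K]
    (ht : tq (↥K) n e ∈ FK M' K)
    (hJ : jqModC K ∈ IntermediateField.adjoin K {tq (↥K) n e})
    (ϖ : ↥(AK A K)) (hϖ : Irreducible ϖ) :
    (∀ x : Ideal ↥(B0 A q ht), x.IsMaximal → algebraMap ↥(AK A K) ↥(B0 A q ht) ϖ ∈ x →
      ∀ b : ↥(B0 A q ht), b ∉ x → ∃ k : ℕ, 0 < k ∧ b ^ k - 1 ∈ x) ∧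
    (∀ x : Ideal ↥(B1 A q ht), x.IsMaximal → algebraMap ↥(AK A K) ↥(B1 A q ht) ϖ ∈ x →
      ∀ b : ↥(B1 A q ht), b ∉ x → ∃ k : ℕ, 0 < k ∧ b ^ k - 1 ∈ x) := by
  haveI hdvr : IsDiscreteValuationRing ↥(AK A K) := isDiscreteValuationRing_AK A K hℓ.ne_zero hA
  haveI hfinres : Finite (IsLocalRing.ResidueField ↥(AK A K)) :=
    finite_residueField_AK A K hℓ.ne_zero hA
  have htq : ((tN q ht : ↥(FK (M' * q) K)) : LaurentSeries K) = tq (↥K) n e := coe_tN q ht
  have htG : ((tN q ht : ↥(FK (M' * q) K)) : LaurentSeries K) ∈ gaussRing (AK A K) := by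
    rw [htq]; exact tq_mem_gaussRing (AK A K) n e
  have h1 : (⟨((tN q ht : ↥(FK (M' * q) K)) : LaurentSeries K), htG⟩ : ↥(gaussRing (AK A K))) =
      ⟨tq (↥K) n e, tq_mem_gaussRing (AK A K) n e⟩ := Subtype.ext htq
  have htr : Transcendental (Res (AK A K))
      (gaussRed (AK A K) ⟨((tN q ht : ↥(FK (M' * q) K)) : LaurentSeries K), htG⟩) := by
    rw [h1]
    exact transcendental_gaussRed_tq (AK A K) n e
  have hjt : jqModC K ∈ Kt (AK A K) ⟨((tN q ht : ↥(FK (M' * q) K)) : LaurentSeries K), htG⟩ := by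
    rw [h1]
    exact hJ
  have : NeZero (M' * q) := ⟨Nat.mul_ne_zero (NeZero.ne M') (NeZero.ne q)⟩
  have hn : relfinrank (Kt (AK A K) ⟨((tN q ht : ↥(FK (M' * q) K)) : LaurentSeries K), htG⟩)
      (FK (M' * q) K) ≠ 0 :=
    relfinrank_ne_zero (AK A K) (M' * q) _ (tN q ht).2 hjt
  exact torsion_gauss hϖ (tN q ht) htG htr hn

end Model

end Fermat.Agent.ES.P36.ChartTorsion26
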