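/-
Program P (S36), MODEL-P, brick (F1) — helper4: COEFFICIENT-FIELD DESCENT.

`K₁ / K` an algebraic field extension, `E₀ ⊂ K((q))` a subfield containing `K`.  If `y ∈ K((q))`
and its image in `K₁((q))` lies in the compositum `K₁ · E₀`, then `y ∈ E₀`
(`mem_of_coeffMap_mem_adjoin`).

Proof: `K₁ · E₀` is the `E₀`-span of the constants `K₁` (the span is the subalgebra generated by
algebraic elements over the field `E₀`, hence a field).  A `K`-linear retraction `ρ : K₁ → K`,
applied coefficientwise, maps `e · c` (`e ∈ E₀`, `c ∈ K₁`) to `e · ρ c ∈ E₀` and fixes `y`.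

Consequences (the number fields `K₁` of `TBridge15.exists_tq_mem` and `JInKt25.exists_j_mem_adjoin`
can be taken to be `⊥` — needed in Program P, where the number fields must be unramified at `P`):
* `mem_of_coeffMap_mem` : `x ∈ K((q))`, image in `K₁ · F₀` (`F₀ ⊂ ℚ((q))`)  ⊢  `x ∈ K · F₀`;
* `tq_mem_FK`  : `TMem n e M` ⊢ `tq K n e ∈ FK M K` for EVERY intermediate field `K` of `ℚ̄/ℚ`;
* `j_mem_adjoin` : `TGenBase n e` ⊢ `jqModC K ∈ K(tq K n e)` for EVERY `K`.
-/
import Mathlib
import Fermat.Agent.RED.DESC.CoeffDescent1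
import Fermat.Agent.RED.Interface4
import Fermat.Agent.RED.BASE.Interface12
import Fermat.Agent.RED.BASE.JInKt25

set_option autoImplicit false
set_option linter.unusedSectionVars false

noncomputable section

namespace Fermat.Agent.ES.P36.CoeffField4

open HahnSeries IntermediateField ModularCurve Fermat.Agent.RED.DESC.CoeffDescent1

section Retraction

variable {K K₁ : Type*} [Field K] [Field K₁] [Algebra K K₁]

/-- Coefficientwise application of a `K`-linear map `ρ : K₁ → K`. -/
def coeffLin (ρ : K₁ →ₗ[K] K) (z : LaurentSeries K₁) : LaurentSeries K :=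
  z.map ρ

@[simp] theorem coeffLin_coeff (ρ : K₁ →ₗ[K] K) (z : LaurentSeries K₁) (k : ℤ) :
    (coeffLin ρ z).coeff k = ρ (z.coeff k) := rfl

theorem coeffLin_add (ρ : K₁ →ₗ[K] K) (z w : LaurentSeries K₁) :
    coeffLin ρ (z + w) = coeffLin ρ z + coeffLin ρ w := by
  ext k; simp

theorem coeffLin_zero (ρ : K₁ →ₗ[K] K) : coeffLin ρ (0 : LaurentSeries K₁) = 0 := by
  ext k; simp

/-- `ρ̃ (ψ(e) · c) = e · ρ c` for `e ∈ K((q))`, `c ∈ K₁` a constant. -/
theorem coeffLin_mul_const (ρ : K₁ →ₗ[K] K) (e : LaurentSeries K) (c : K₁) :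
    coeffLin ρ (coeffMap (algebraMap K K₁) e * algebraMap K₁ (LaurentSeries K₁) c) =
      e * algebraMap K (LaurentSeries K) (ρ c) := by
  ext k
  rw [coeffLin_coeff, algebraMap_laurentSeries_eq_single, algebraMap_laurentSeries_eq_single,
    HahnSeries.coeff_mul_single_zero, HahnSeries.coeff_mul_single_zero, coeffMap_coeff]
  rw [← Algebra.smul_def, map_smul, smul_eq_mul]

/-- If `ρ ∘ algebraMap = id` then `ρ̃ (ψ x) = x`. -/
theorem coeffLin_coeffMap (ρ : K₁ →ₗ[K] K) (hρ : ∀ a : K, ρ (algebraMap K K₁ a) = a)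
    (x : LaurentSeries K) : coeffLin ρ (coeffMap (algebraMap K K₁) x) = x := by
  ext k
  simp [hρ]

/-- A `K`-linear retraction of `K → K₁`. -/
theorem exists_retraction (K K₁ : Type*) [Field K] [Field K₁] [Algebra K K₁] :
    ∃ ρ : K₁ →ₗ[K] K, ∀ a : K, ρ (algebraMap K K₁ a) = a := by
  obtain ⟨ρ, hρ⟩ := LinearMap.exists_leftInverse_of_injective (Algebra.linearMap K K₁)
    (LinearMap.ker_eq_bot.mpr (algebraMap K K₁).injective)
  exact ⟨ρ, fun a => by
    have := LinearMap.congr_fun hρ a
    simpa using this⟩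

end Retraction

section General

variable {K K₁ : Type*} [Field K] [Field K₁] [Algebra K K₁] [Algebra.IsAlgebraic K K₁]
variable (E₀ : IntermediateField K (LaurentSeries K))

/-- The image of `E₀` in `K₁((q))`, as a subfield. -/
def imageField : Subfield (LaurentSeries K₁) :=
  E₀.toSubfield.map (coeffMap (algebraMap K K₁))

theorem mem_imageField {z : LaurentSeries K₁} :
    z ∈ imageField (K₁ := K₁) E₀ ↔ ∃ e ∈ E₀, coeffMap (algebraMap K K₁) e = z := by
  simp [imageField, Subfield.mem_map]

/-- The constants of `K₁` are algebraic over the image of `E₀`. -/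
theorem isAlgebraic_const (c : K₁) :
    IsAlgebraic (imageField (K₁ := K₁) E₀) (algebraMap K₁ (LaurentSeries K₁) c) := by
  obtain ⟨p, hp0, hp⟩ := Algebra.IsAlgebraic.isAlgebraic (R := K) c
  let ι : K →+* imageField (K₁ := K₁) E₀ :=
    { toFun := fun a => ⟨algebraMap K₁ (LaurentSeries K₁) (algebraMap K K₁ a), by
        rw [mem_imageField]
        refine ⟨algebraMap K (LaurentSeries K) a, E₀.algebraMap_mem a, ?_⟩
        rw [algebraMap_laurentSeries_eq_single, algebraMap_laurentSeries_eq_single,
          coeffMap_single]⟩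
      map_one' := by ext1; simp
      map_mul' := fun a b => by ext1; simp
      map_zero' := by ext1; simp
      map_add' := fun a b => by ext1; simp }
  refine ⟨p.map ι, (Polynomial.map_ne_zero_iff ι.injective).mpr hp0, ?_⟩
  rw [Polynomial.aeval_def, Polynomial.eval₂_map]
  have hcomp : (algebraMap (imageField (K₁ := K₁) E₀) (LaurentSeries K₁)).comp ι =
      (algebraMap K₁ (LaurentSeries K₁)).comp (algebraMap K K₁) := by
    ext a; rfl
  rw [hcomp, ← Polynomial.hom_eval₂, ← Polynomial.aeval_def, hp, map_zero]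

/-- The compositum `K₁ · E₀` is contained in the `E₀`-span of the constants of `K₁`. -/
theorem adjoin_le_span {z : LaurentSeries K₁}
    (hz : z ∈ IntermediateField.adjoin K₁ (⇑(coeffMap (algebraMap K K₁)) '' (E₀ : Set _))) :
    z ∈ Submodule.span (imageField (K₁ := K₁) E₀)
      (Set.range (algebraMap K₁ (LaurentSeries K₁))) := by
  set E := imageField (K₁ := K₁) E₀ with hE
  set S : Set (LaurentSeries K₁) := Set.range (algebraMap K₁ (LaurentSeries K₁)) with hS
  have halg : ∀ s ∈ S, IsAlgebraic E s := by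
    rintro _ ⟨c, rfl⟩
    exact isAlgebraic_const E₀ c
  have hsub := IntermediateField.adjoin_toSubalgebra_of_isAlgebraic (F := E) halg
  have hspan : (Algebra.adjoin E S : Subalgebra E (LaurentSeries K₁)).toSubmodule =
      Submodule.span E S := by
    rw [Algebra.adjoin_eq_span]
    congr 1
    have : S = ((MonoidHom.mrange
        ((algebraMap K₁ (LaurentSeries K₁) : K₁ →+* LaurentSeries K₁) : K₁ →* LaurentSeries K₁) :
          Submonoid (LaurentSeries K₁)) : Set (LaurentSeries K₁)) := rfl
    rw [this, Submonoid.closure_eq]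
  have hle : ∀ w ∈ IntermediateField.adjoin K₁ (⇑(coeffMap (algebraMap K K₁)) '' (E₀ : Set _)),
      w ∈ IntermediateField.adjoin E S := by
    intro w hw
    have hw' : w ∈ Subfield.closure (Set.range (algebraMap K₁ (LaurentSeries K₁)) ∪
        (⇑(coeffMap (algebraMap K K₁)) '' (E₀ : Set _))) := hw
    clear hw
    induction hw' using Subfield.closure_induction with
    | mem y hy =>
        rcases hy with ⟨a, rfl⟩ | ⟨x, hx, rfl⟩
        · exact IntermediateField.subset_adjoin E S ⟨a, rfl⟩
        · have : coeffMap (algebraMap K K₁) x ∈ E := by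
            rw [hE, mem_imageField]
            exact ⟨x, hx, rfl⟩
          exact (IntermediateField.adjoin E S).algebraMap_mem ⟨_, this⟩
    | one => exact one_mem _
    | add x y _ _ hx hy => exact add_mem hx hy
    | neg x _ hx => exact neg_mem hx
    | inv x _ hx => exact inv_mem hx
    | mul x y _ _ hx hy => exact mul_mem hx hy
  have h1 : z ∈ (IntermediateField.adjoin E S).toSubalgebra := hle z hz
  rw [hsub] at h1
  have h2 : z ∈ (Algebra.adjoin E S : Subalgebra E (LaurentSeries K₁)).toSubmodule := h1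
  rwa [hspan] at h2

/-- **Coefficient-field descent, general form.** -/
theorem mem_of_coeffMap_mem_adjoin {y : LaurentSeries K}
    (hy : coeffMap (algebraMap K K₁) y ∈
      IntermediateField.adjoin K₁ (⇑(coeffMap (algebraMap K K₁)) '' (E₀ : Set _))) :
    y ∈ E₀ := by
  obtain ⟨ρ, hρ⟩ := exists_retraction K K₁
  have hconst : ∀ c : K₁, coeffLin ρ (algebraMap K₁ (LaurentSeries K₁) c) =
      algebraMap K (LaurentSeries K) (ρ c) := by
    intro c
    have := coeffLin_mul_const ρ (1 : LaurentSeries K) c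
    rwa [map_one, one_mul, one_mul] at this
  have key : ∀ z ∈ Submodule.span (imageField (K₁ := K₁) E₀)
      (Set.range (algebraMap K₁ (LaurentSeries K₁))),
      coeffLin ρ z ∈ E₀ ∧
      ∀ e : LaurentSeries K, coeffLin ρ (coeffMap (algebraMap K K₁) e * z) = e * coeffLin ρ z := by
    intro z hz
    induction hz using Submodule.span_induction with
    | mem y hy =>
        obtain ⟨c, rfl⟩ := hy
        refine ⟨?_, fun e => ?_⟩
        · rw [hconst]
          exact E₀.algebraMap_mem _
        · rw [coeffLin_mul_const, hconst]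
    | zero =>
        refine ⟨?_, fun e => ?_⟩
        · rw [coeffLin_zero]; exact zero_mem _
        · rw [mul_zero, coeffLin_zero, mul_zero]
    | add y w _ _ hy hw =>
        refine ⟨?_, fun e => ?_⟩
        · rw [coeffLin_add]; exact add_mem hy.1 hw.1
        · rw [mul_add, coeffLin_add, coeffLin_add, mul_add, hy.2, hw.2]
    | smul a y _ hy =>
        obtain ⟨ea, hea, heq⟩ := (mem_imageField E₀).mp a.2
        have hsm : a • y = coeffMap (algebraMap K K₁) ea * y := by
          rw [heq]; rfl
        refine ⟨?_, fun e => ?_⟩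
        · rw [hsm, hy.2]
          exact mul_mem hea hy.1
        · rw [hsm, ← mul_assoc, ← map_mul, hy.2, hy.2, mul_assoc]
  have := (key _ (adjoin_le_span E₀ hy)).1
  rwa [coeffLin_coeffMap ρ hρ] at this

end General

section BaseChange

variable {K K₁ : Type*} [Field K] [Field K₁] [Algebra ℚ K] [Algebra ℚ K₁] [Algebra K K₁]
  [Algebra.IsAlgebraic K K₁]
variable (F₀ : IntermediateField ℚ (LaurentSeries ℚ))

/-- **Coefficient-field descent for `K · F₀`.** -/
theorem mem_of_coeffMap_mem {x : LaurentSeries K}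
    (hx : coeffMap (algebraMap K K₁) x ∈ laurentBaseChange K₁ F₀) :
    x ∈ laurentBaseChange K F₀ := by
  apply mem_of_coeffMap_mem_adjoin (K₁ := K₁) (laurentBaseChange K F₀)
  have hle : laurentBaseChange K₁ F₀ ≤ IntermediateField.adjoin K₁
      (⇑(coeffMap (algebraMap K K₁)) '' ((laurentBaseChange K F₀ : IntermediateField K _) : Set _)) := by
    apply IntermediateField.adjoin_le_iff.mpr
    rintro _ ⟨z, hz, rfl⟩
    apply IntermediateField.subset_adjoin
    refine ⟨coeffEmb K z, coeffEmb_mem_laurentBaseChange K hz, ?_⟩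
    exact coeffMap_coeffEmb_of_algHom (algebraMap K K₁) z
  exact hle hx

/-- **Coefficient-field descent for simple extensions `K(x)`.** -/
theorem mem_adjoin_simple_of_coeffMap_mem {x y : LaurentSeries K}
    (hy : coeffMap (algebraMap K K₁) y ∈ K₁⟮coeffMap (algebraMap K K₁) x⟯) :
    y ∈ K⟮x⟯ := by
  apply mem_of_coeffMap_mem_adjoin (K₁ := K₁) K⟮x⟯
  have hle : K₁⟮coeffMap (algebraMap K K₁) x⟯ ≤ IntermediateField.adjoin K₁
      (⇑(coeffMap (algebraMap K K₁)) '' ((K⟮x⟯ : IntermediateField K _) : Set _)) := by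
    apply IntermediateField.adjoin_le_iff.mpr
    rintro _ rfl
    apply IntermediateField.subset_adjoin
    exact ⟨x, IntermediateField.mem_adjoin_simple_self K x, rfl⟩
  exact hle hy

end BaseChange

section Hauptmodul

open Fermat.Agent.RED.Interface4 Fermat.Agent.RED.BASE.EtaQuot12 Fermat.Agent.RED.BASE.Interface12
  Fermat.Agent.X0

variable (n e : ℕ) [NeZero n]

theorem algebraic_Qbar_over4 (K : IntermediateField ℚ Qbar) : Algebra.IsAlgebraic K Qbar :=
  have : Algebra.IsAlgebraic ℚ Qbar := AlgebraicClosure.isAlgebraic ℚ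
  Algebra.IsAlgebraic.tower_top (K := ℚ) K

/-- **(T1) for every `K`**: if `tq ℚ̄ n e ∈ F̄_M` then `tq K n e ∈ K · F_M` for EVERY intermediate
field `K` of `ℚ̄/ℚ`. -/
theorem tq_mem_FK (M : ℕ) [NeZero M] (h : TMem n e M) (K : IntermediateField ℚ Qbar) :
    tq ↥K n e ∈ FK M K := by
  have := algebraic_Qbar_over4 K
  apply mem_of_coeffMap_mem (K₁ := Qbar) (modularFunctionFieldFull M)
  rw [coeffMap_tq]
  exact h

/-- **(T5) for every `K`**: `j ∈ K(t)` for EVERY intermediate field `K` of `ℚ̄/ℚ`. -/
theorem j_mem_adjoin (hgen : TGenBase n e) (K : IntermediateField ℚ Qbar) :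
    jqModC ↥K ∈ (↥K)⟮tq ↥K n e⟯ := by
  have := algebraic_Qbar_over4 K
  apply mem_adjoin_simple_of_coeffMap_mem (K₁ := Qbar)
  rw [coeffMap_tq, coeffMap_jqModC]
  obtain ⟨h, htop⟩ := hgen
  have hj : jF n ∈ Kbar⟮tF n h⟯ := by rw [htop]; exact IntermediateField.mem_top
  -- transport along the inclusion `FF n ⊂ ℚ̄((q))`
  have := IntermediateField.mem_adjoin_simple_iff Kbar (jF n) |>.mp hj
  obtain ⟨r, s, hrs⟩ := this
  rw [IntermediateField.mem_adjoin_simple_iff]
  refine ⟨r, s, ?_⟩
  have hcoe : ∀ p : Polynomial Kbar,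
      ((Polynomial.aeval (tF n h) p : FF n) : LaurentSeries Kbar) = Polynomial.aeval (tK n e) p :=
    fun p => (Polynomial.aeval_algHom_apply (modularFunctionFieldBar n).val (tF n h) p).symm
  rw [← Fermat.Agent.RED.BASE.JInKt25.coe_jF_eq n, hrs, ← hcoe, ← hcoe]
  rfl

end Hauptmodul

end Fermat.Agent.ES.P36.CoeffField4
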