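/-
S36 scouting brick (helper1), abstract part of DESC-P (B1): **an extension generated by a root of a
polynomial with separable reduction is unramified**, in the language of valuation subrings.

`F'/F` fields, `V` a valuation subring of `F'`, `O := V ∩ F` with a "uniformiser" `π` (`𝔪_O = π O`,
and every element of `F` is moved into `O` by a power of `π`), `θ ∈ F'` with `F' = F[θ]`,
`p ∈ O[X]` monic with `p(θ) = 0` and separable reduction.  Then every nonzero element of `F'` is
`π^i · (unit of V)`.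
-/
import Mathlib

set_option autoImplicit false
set_option linter.unusedSectionVars false

namespace Fermat.Agent.ES.P36.EtaleUnram1

open Polynomial IsLocalRing

noncomputable section

variable {F F' : Type*} [Field F] [Field F'] [Algebra F F'] (V : ValuationSubring F')

/-- `O = V ∩ F`. -/
abbrev OF : ValuationSubring F := V.comap (algebraMap F F')

/-- the inclusion `O → V`. -/
def incl : OF (F := F) V →+* V :=
  (algebraMap F F').restrict (OF (F := F) V) V (fun _ hx => hx)

@[simp] theorem coe_incl (x : OF (F := F) V) :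
    ((incl V x : V) : F') = algebraMap F F' (x : F) := rfl

instance isLocalHom_incl : IsLocalHom (incl (F := F) V) := by
  constructor
  intro a ha
  obtain ⟨b, hb⟩ := isUnit_iff_exists_inv.mp ha
  have h1 : algebraMap F F' (a : F) * (b : F') = 1 := congrArg (fun z : V => (z : F')) hb
  have ha0 : (a : F) ≠ 0 := by
    intro h0
    rw [h0, map_zero, zero_mul] at h1
    exact zero_ne_one h1
  have h2 : algebraMap F F' ((a : F)⁻¹) = (b : F') := by
    rw [map_inv₀]
    exact inv_eq_of_mul_eq_one_right h1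
  have h4 : (a : F)⁻¹ ∈ OF (F := F) V := by
    rw [ValuationSubring.mem_comap, h2]; exact b.2
  refine isUnit_iff_exists_inv.mpr ⟨⟨(a : F)⁻¹, h4⟩, ?_⟩
  apply Subtype.ext
  show (a : F) * (a : F)⁻¹ = 1
  exact mul_inv_cancel₀ ha0

/-- the induced map of residue fields. -/
def resMap : ResidueField (OF (F := F) V) →+* ResidueField V := ResidueField.map (incl V)

theorem resMap_residue (x : OF (F := F) V) :
    resMap V (residue _ x) = residue V (incl V x) :=
  ResidueField.map_residue (incl V) x

/-! ### Evaluation at `θ` -/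

section Eval

variable (θ : V)

/-- evaluation `O[X] → V`, `X ↦ θ`. -/
def evV : (OF (F := F) V)[X] →+* V := eval₂RingHom (incl V) θ

/-- evaluation `κ(O)[X] → κ(V)`, `X ↦ θ̄`. -/
def evRes : (ResidueField (OF (F := F) V))[X] →+* ResidueField V :=
  eval₂RingHom (resMap V) (residue V θ)

theorem residue_evV (g : (OF (F := F) V)[X]) :
    residue V (evV V θ g) = evRes V θ (g.map (residue _)) := by
  rw [evV, evRes, coe_eval₂RingHom, coe_eval₂RingHom, eval₂_map, hom_eval₂]
  congr 1

variable (p : (OF (F := F) V)[X]) (hroot : evV V θ p = 0)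
  (hsep : (p.map (residue (OF (F := F) V))).Separable)
  (π : OF (F := F) V)
  (hmax : ∀ c : OF (F := F) V, c ∈ maximalIdeal (OF (F := F) V) → π ∣ c)

include hroot hsep hmax in
/-- **Key step**: an element `g(θ)` of the maximal ideal of `V` is, up to a unit `s(θ)`, divisible
by `π` inside `O[θ]`. -/
theorem key (g : (OF (F := F) V)[X]) (hg : evV V θ g ∈ maximalIdeal V) :
    ∃ s d : (OF (F := F) V)[X], IsUnit (evV V θ s) ∧
      evV V θ g * evV V θ s = incl V π * evV V θ d := by
  classical
  set κ := ResidueField (OF (F := F) V) with hκ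
  set gb : κ[X] := g.map (residue _) with hgb
  set pb : κ[X] := p.map (residue _) with hpb
  have hΨg : evRes V θ gb = 0 := by
    rw [hgb, ← residue_evV]
    exact (residue_eq_zero_iff _).mpr hg
  have hΨp : evRes V θ pb = 0 := by
    rw [hpb, ← residue_evV, hroot, map_zero]
  set hb : κ[X] := EuclideanDomain.gcd gb pb with hhb
  obtain ⟨g1b, hg1⟩ : hb ∣ gb := EuclideanDomain.gcd_dvd_left gb pb
  obtain ⟨sb, hs⟩ : hb ∣ pb := EuclideanDomain.gcd_dvd_right gb pb
  have hΨh : evRes V θ hb = 0 := by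
    rw [hhb, EuclideanDomain.gcd_eq_gcd_ab, map_add, map_mul, map_mul, hΨg, hΨp, zero_mul,
      zero_mul, add_zero]
  have hcop : IsCoprime hb sb := by
    have h1 : (hb * sb).Separable := by rw [← hs]; exact hsep
    exact h1.isCoprime
  obtain ⟨ub, vb, huv⟩ := hcop
  have hΨs : evRes V θ sb ≠ 0 := by
    intro h0
    have h1 := congrArg (evRes V θ) huv
    rw [map_add, map_mul, map_mul, hΨh, h0, mul_zero, mul_zero, add_zero, map_one] at h1
    exact zero_ne_one h1
  obtain ⟨s, hsb⟩ := Polynomial.map_surjective (residue (OF (F := F) V)) residue_surjective sb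
  obtain ⟨g1, hg1b⟩ := Polynomial.map_surjective (residue (OF (F := F) V)) residue_surjective g1b
  have hunit : IsUnit (evV V θ s) := by
    rw [← residue_ne_zero_iff_isUnit, residue_evV, hsb]
    exact hΨs
  -- the difference `g s - g₁ p` reduces to zero
  have hD : (g * s - g1 * p).map (residue (OF (F := F) V)) = 0 := by
    rw [Polynomial.map_sub, Polynomial.map_mul, Polynomial.map_mul, hsb, hg1b, ← hgb, ← hpb, hg1, hs]
    ring
  have hdvd : C π ∣ g * s - g1 * p := by
    rw [Polynomial.C_dvd_iff_dvd_coeff]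
    intro n
    apply hmax
    rw [← residue_eq_zero_iff]
    have := congrArg (fun q : κ[X] => q.coeff n) hD
    rw [Polynomial.coeff_map] at this
    simpa using this
  obtain ⟨d, hd⟩ := hdvd
  refine ⟨s, d, hunit, ?_⟩
  have h2 := congrArg (evV V θ) hd
  rw [map_sub, map_mul, map_mul, map_mul, hroot, mul_zero, sub_zero] at h2
  rw [h2]
  congr 1
  simp [evV]

include hroot hsep hmax in
/-- Induction on the archimedean bound: a nonzero `g(θ)` dividing `π^M` in `V` is `π^i · unit`. -/
theorem exists_pow_mul_unit (hπ0 : incl V π ≠ 0) (M : ℕ) :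
    ∀ g : (OF (F := F) V)[X], evV V θ g ≠ 0 → (∃ y : V, y * evV V θ g = incl V π ^ M) →
      ∃ (i : ℕ) (u : Vˣ), evV V θ g = incl V π ^ i * u := by
  induction M with
  | zero =>
    intro g _ ⟨y, hy⟩
    rw [pow_zero] at hy
    have hu : IsUnit (evV V θ g) := IsUnit.of_mul_eq_one _ (by rw [mul_comm]; exact hy)
    exact ⟨0, hu.unit, by rw [pow_zero, one_mul]; rfl⟩
  | succ M ih =>
    intro g hg0 ⟨y, hy⟩
    by_cases hu : IsUnit (evV V θ g)
    · exact ⟨0, hu.unit, by rw [pow_zero, one_mul]; rfl⟩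
    · have hmem : evV V θ g ∈ maximalIdeal V := (mem_maximalIdeal _).mpr hu
      obtain ⟨s, d, hsu, hsd⟩ := key V θ p hroot hsep π hmax g hmem
      obtain ⟨es, hes⟩ := hsu
      have hd0 : evV V θ d ≠ 0 := by
        intro h0
        rw [h0, mul_zero] at hsd
        rcases mul_eq_zero.mp hsd with h | h
        · exact hg0 h
        · rw [← hes] at h
          exact es.ne_zero h
      have hyd : (y * ((es⁻¹ : Vˣ) : V)) * evV V θ d = incl V π ^ M := by
        have h1 : incl V π * ((y * ((es⁻¹ : Vˣ) : V)) * evV V θ d) = incl V π * incl V π ^ M := by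
          calc incl V π * ((y * ((es⁻¹ : Vˣ) : V)) * evV V θ d)
              = y * (incl V π * evV V θ d) * ((es⁻¹ : Vˣ) : V) := by ring
            _ = y * (evV V θ g * evV V θ s) * ((es⁻¹ : Vˣ) : V) := by rw [hsd]
            _ = (y * evV V θ g) * (evV V θ s * ((es⁻¹ : Vˣ) : V)) := by ring
            _ = incl V π ^ (M + 1) * ((es : V) * ((es⁻¹ : Vˣ) : V)) := by rw [hy, hes]
            _ = incl V π * incl V π ^ M := by rw [Units.mul_inv, mul_one, pow_succ']
        exact mul_left_cancel₀ hπ0 h1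
      obtain ⟨i, u, hiu⟩ := ih d hd0 ⟨_, hyd⟩
      refine ⟨i + 1, u * es⁻¹, ?_⟩
      have h2 : evV V θ g = incl V π * evV V θ d * ((es⁻¹ : Vˣ) : V) := by
        rw [← hsd, ← hes, mul_assoc, Units.mul_inv, mul_one]
      rw [h2, hiu, pow_succ', Units.val_mul]
      ring

end Eval

/-- clearing denominators with powers of `π`. -/
theorem exists_clear (π : OF (F := F) V)
    (harch : ∀ c : F, ∃ N : ℕ, (π : F) ^ N * c ∈ OF (F := F) V) (G : F[X]) :
    ∃ (N : ℕ) (g : (OF (F := F) V)[X]),
      g.map (OF (F := F) V).subtype = C ((π : F) ^ N) * G := by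
  induction G using Polynomial.induction_on' with
  | add G₁ G₂ h₁ h₂ =>
    obtain ⟨N₁, g₁, hg₁⟩ := h₁
    obtain ⟨N₂, g₂, hg₂⟩ := h₂
    refine ⟨N₁ + N₂, C (π ^ N₂) * g₁ + C (π ^ N₁) * g₂, ?_⟩
    rw [Polynomial.map_add, Polynomial.map_mul, Polynomial.map_mul, hg₁, hg₂, Polynomial.map_C,
      Polynomial.map_C, map_pow, map_pow]
    simp only [ValuationSubring.subtype_apply]
    push_cast
    rw [pow_add, C_mul, C_pow, C_pow]
    ring
  | monomial n c =>
    obtain ⟨N, hN⟩ := harch c
    refine ⟨N, monomial n ⟨(π : F) ^ N * c, hN⟩, ?_⟩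
    rw [Polynomial.map_monomial, C_mul_monomial]
    rfl

theorem coe_evV_eq_aeval (θ : V) (g : (OF (F := F) V)[X]) :
    ((evV V θ g : V) : F') = aeval (θ : F') (g.map (OF (F := F) V).subtype) := by
  rw [evV, coe_eval₂RingHom, aeval_def, eval₂_map]
  have h := Polynomial.hom_eval₂ g (incl (F := F) V) V.subtype θ
  rw [ValuationSubring.subtype_apply] at h
  rw [h]
  rfl

section Main

variable (θ : V) (p : (OF (F := F) V)[X]) (hroot : evV V θ p = 0)
  (hsep : (p.map (residue (OF (F := F) V))).Separable)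
  (π : OF (F := F) V) (hπ0 : (π : F) ≠ 0)
  (hmax : ∀ c : OF (F := F) V, c ∈ maximalIdeal (OF (F := F) V) → π ∣ c)
  (harch : ∀ c : F, ∃ N : ℕ, (π : F) ^ N * c ∈ OF (F := F) V)
  (hgen : ∀ x : F', ∃ G : F[X], x = aeval (θ : F') G)

include hroot hsep hπ0 hmax harch hgen in
/-- **Unramifiedness**: every nonzero element of `F' = F[θ]` is a power of `π` times a unit of
`V`. -/
theorem exists_zpow_mul_unit (x : F') (hx : x ≠ 0) :
    ∃ (i : ℤ) (u : Vˣ), x = algebraMap F F' (π : F) ^ i * ((u : V) : F') := by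
  have hπ' : algebraMap F F' (π : F) ≠ 0 := (_root_.map_ne_zero _).mpr hπ0
  have hπV : incl V π ≠ 0 := by
    intro h0
    apply hπ'
    have := congrArg (fun z : V => (z : F')) h0
    simpa using this
  obtain ⟨G, hG⟩ := hgen x
  obtain ⟨G', hG'⟩ := hgen x⁻¹
  obtain ⟨N, g, hg⟩ := exists_clear V π harch G
  obtain ⟨N', g', hg'⟩ := exists_clear V π harch G'
  have hz : ((evV V θ g : V) : F') = algebraMap F F' (π : F) ^ N * x := by
    rw [coe_evV_eq_aeval, hg, map_mul, aeval_C, ← hG, map_pow]
  have hz' : ((evV V θ g' : V) : F') = algebraMap F F' (π : F) ^ N' * x⁻¹ := by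
    rw [coe_evV_eq_aeval, hg', map_mul, aeval_C, ← hG', map_pow]
  have hz0 : evV V θ g ≠ 0 := by
    intro h0
    rw [h0] at hz
    have h1 : algebraMap F F' (π : F) ^ N * x = 0 := by rw [← hz]; rfl
    rcases mul_eq_zero.mp h1 with h | h
    · exact pow_ne_zero _ hπ' h
    · exact hx h
  have hy : evV V θ g' * evV V θ g = incl V π ^ (N' + N) := by
    apply Subtype.ext
    push_cast
    rw [hz, hz', coe_incl, pow_add]
    field_simp
  obtain ⟨i, u, hiu⟩ := exists_pow_mul_unit V θ p hroot hsep π hmax hπV (N' + N) g hz0 ⟨_, hy⟩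
  refine ⟨(i : ℤ) - N, u, ?_⟩
  have h1 := congrArg (fun z : V => (z : F')) hiu
  rw [hz] at h1
  push_cast at h1
  rw [coe_incl] at h1
  rw [zpow_sub₀ hπ', zpow_natCast, zpow_natCast, div_mul_eq_mul_div, ← h1,
    mul_div_cancel_left₀ _ (pow_ne_zero _ hπ')]

end Main

end

end Fermat.Agent.ES.P36.EtaleUnram1
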