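/-
S36 scouting brick (helper1), DESC-P (B1): **constant-field extensions are unramified**.

`K ≤ Qbar` a number field, `w` a place of `K·F_M / K`, `v` a place of `ℚ̄·F_M / ℚ̄` above `w`
(`bc x ∈ O_v ↔ x ∈ O_w`).  Then `ord_v (bc x) = ord_w x` for all `x`.

Proof: a uniformiser `y` of `v` descends to a number field `K₁ = ℚ(θ) ⊇ K`; `K₁·F_M = (K·F_M)[θ]`
with `θ` a root of the separable polynomial `minpoly K θ` with constant coefficients, so by
`EtaleUnram1.exists_zpow_mul_unit` the place `v ∩ K₁·F_M` is unramified over `w`: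
`y = π^i · unit`, hence `1 = i · ord_v (bc π)`.
-/
import Mathlib
import Fermat.Agent.ES.P36.EtaleUnram1
import Fermat.Agent.RED.DESC.PlaceExtend27
import Fermat.Agent.RED.DESC.DescMain27
import Fermat.Agent.X0.FFPlace

set_option autoImplicit false
set_option linter.unusedSectionVars false
set_option linter.style.haveILetI false

noncomputable section

namespace Fermat.Agent.ES.P36.ConstUnram1

open AlgebraicCurve ModularCurve HahnSeries IntermediateField Polynomial
open Fermat.Agent.X0 Fermat.Agent.RED.Interface4 Fermat.Agent.RED.DESC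

variable (M : ℕ) {K K₁ : IntermediateField ℚ Qbar} (h : K ≤ K₁)

/-- coefficientwise base change `K·F_M → K₁·F_M` for `K ≤ K₁`. -/
def bcLe : FK M K →+* FK M K₁ :=
  RingHom.codRestrict ((coeffMap (CoeffDescent1.inclRingHom h)).comp (FK M K).val.toRingHom)
    (FK M K₁)
    (fun f => CoeffDescent1.coeffMap_mem_laurentBaseChange_of_algHom (CoeffDescent1.inclRingHom h)
      (modularFunctionFieldFull M) f.2)

@[simp] theorem coe_bcLe (f : FK M K) :
    ((bcLe M h f : FK M K₁) : LaurentSeries K₁) =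
      coeffMap (CoeffDescent1.inclRingHom h) (f : LaurentSeries K) := rfl

theorem baseChangeHom_bcLe (f : FK M K) :
    PlaceExtend27.baseChangeHom M K₁ (bcLe M h f) = PlaceExtend27.baseChangeHom M K f := by
  apply Subtype.ext
  rw [PlaceExtend27.coe_baseChangeHom, PlaceExtend27.coe_baseChangeHom, coe_bcLe,
    coeffMap_coeffMap]
  exact coeffMap_congr (RingHom.ext fun c => rfl) _

theorem bcLe_algebraMap (c : K) :
    bcLe M h (algebraMap K (FK M K) c) =
      algebraMap K₁ (FK M K₁) (CoeffDescent1.inclRingHom h c) := by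
  apply Subtype.ext
  rw [coe_bcLe]
  exact CoeffDescent1.coeffMap_algebraMap_of_ringHom (CoeffDescent1.inclRingHom h) c

/-! ### Generation: `K₁·F_M = (K·F_M)[θ]` -/

section Gen

variable [FiniteDimensional ℚ K₁] (θ : K₁) (hprim : ∀ c : K₁, ∃ r : ℚ[X], c = aeval θ r)

include hprim in
/-- every element of `K₁·F_M` is a polynomial in `θ` with coefficients in (the image of)
`K·F_M`. -/
theorem exists_aeval_eq (x : FK M K₁) :
    letI : Algebra (FK M K) (FK M K₁) := (bcLe M h).toAlgebra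
    ∃ G : (FK M K)[X], x = aeval (algebraMap K₁ (FK M K₁) θ) G := by
  letI : Algebra (FK M K) (FK M K₁) := (bcLe M h).toAlgebra
  set θ' : FK M K₁ := algebraMap K₁ (FK M K₁) θ with hθ'
  -- `θ'` is integral over `F`
  have hint : IsIntegral (FK M K) θ' := by
    have h1 : IsIntegral ℚ θ := Algebra.IsIntegral.isIntegral θ
    obtain ⟨r, hr, hr0⟩ := h1
    refine ⟨r.map (algebraMap ℚ (FK M K)), hr.map _, ?_⟩
    rw [eval₂_map]
    have h2 : (algebraMap (FK M K) (FK M K₁)).comp (algebraMap ℚ (FK M K)) =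
        (algebraMap K₁ (FK M K₁)).comp (algebraMap ℚ K₁) := RingHom.ext_rat _ _
    rw [h2, ← hom_eval₂, hr0, map_zero]
  set S : IntermediateField (FK M K) (FK M K₁) := (FK M K)⟮θ'⟯ with hS
  have hθS : θ' ∈ S := mem_adjoin_simple_self _ _
  -- `S = ⊤`
  have htop : ∀ y : FK M K₁, y ∈ S := by
    intro y
    let S' : Subfield (LaurentSeries K₁) := S.toSubfield.map (FK M K₁).val.toRingHom
    have hle : Subfield.closure (Set.range (algebraMap K₁ (LaurentSeries K₁)) ∪
        (⇑(coeffEmb K₁) '' ((modularFunctionFieldFull M : IntermediateField ℚ (LaurentSeries ℚ)) :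
          Set (LaurentSeries ℚ)))) ≤ S' := by
      rw [Subfield.closure_le]
      rintro z (⟨c, rfl⟩ | ⟨z₀, hz₀, rfl⟩)
      · -- constants
        obtain ⟨r, hr⟩ := hprim c
        refine ⟨algebraMap K₁ (FK M K₁) c, ?_, rfl⟩
        show algebraMap K₁ (FK M K₁) c ∈ S
        rw [hr, ← aeval_algebraMap_apply]
        rw [aeval_def, eval₂_eq_sum_range]
        refine sum_mem fun i _ => mul_mem ?_ (pow_mem hθS _)
        have h2 : algebraMap ℚ (FK M K₁) (r.coeff i) =
            algebraMap (FK M K) (FK M K₁) (algebraMap ℚ (FK M K) (r.coeff i)) := by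
          have := RingHom.ext_rat (algebraMap ℚ (FK M K₁))
            ((algebraMap (FK M K) (FK M K₁)).comp (algebraMap ℚ (FK M K)))
          exact congrArg (fun f : ℚ →+* FK M K₁ => f (r.coeff i)) this
        rw [h2]
        exact S.algebraMap_mem _
      · -- functions of `F₀`
        refine ⟨algebraMap (FK M K) (FK M K₁)
          ⟨coeffEmb K z₀, coeffEmb_mem_laurentBaseChange K hz₀⟩, S.algebraMap_mem _, ?_⟩
        show coeffMap (CoeffDescent1.inclRingHom h) (coeffEmb K z₀) = coeffEmb K₁ z₀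
        exact CoeffDescent1.coeffMap_coeffEmb_of_algHom (CoeffDescent1.inclRingHom h) z₀
    have hy : (y : LaurentSeries K₁) ∈ S' := hle (mem_laurentBaseChange_iff.mp y.2)
    obtain ⟨y', hy', hyy'⟩ := hy
    have : y' = y := Subtype.ext hyy'
    rw [← this]
    exact hy'
  have hx : x ∈ S.toSubalgebra := htop x
  rw [hS, adjoin_simple_toSubalgebra_of_isAlgebraic hint.isAlgebraic,
    Algebra.adjoin_singleton_eq_range_aeval] at hx
  obtain ⟨G, hG⟩ := hx
  exact ⟨G, hG.symm⟩

end Gen

/-! ### The main theorem -/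

section Main

variable [NeZero M] (K : IntermediateField ℚ Qbar) [FiniteDimensional ℚ K]
  (w : Place K (FK M K)) (v : Place Qbar (Fbar M))
  (hmem : ∀ x : FK M K, PlaceExtend27.baseChangeHom M K x ∈ v.toValuationSubring ↔
    x ∈ w.toValuationSubring)

include hmem in
theorem ord_baseChangeHom_unit {u : FK M K} (_hu : u ≠ 0) (h1 : u ∈ w.toValuationSubring)
    (h2 : u⁻¹ ∈ w.toValuationSubring) : v.ord (PlaceExtend27.baseChangeHom M K u) = 0 := by
  have h3 := FF.ffp_ord_nonneg_of_mem v ((hmem u).mpr h1)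
  have h4 := FF.ffp_ord_nonneg_of_mem v ((hmem u⁻¹).mpr h2)
  rw [map_inv₀, v.ord_inv] at h4
  omega

include hmem in
/-- the ramification index of `v` over `w` is one: a uniformiser of `w` is a uniformiser
of `v`. -/
theorem ord_baseChangeHom_irreducible {πw : w.toValuationSubring} (hπw : Irreducible πw) :
    v.ord (PlaceExtend27.baseChangeHom M K (πw : FK M K)) = 1 := by
  classical
  -- a uniformiser of `v` and a field of definition
  obtain ⟨y, hy⟩ := FF.ffp_exists_irreducible v
  have hy1 : v.ord (y : Fbar M) = 1 := v.ord_coe_irreducible hy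
  obtain ⟨K₁, hKK₁, hfin₁, hdesc⟩ := DescMain27.exists_common_descent M K
    ({((y : Fbar M) : LaurentSeries Qbar)} : Finset (LaurentSeries Qbar))
    (by intro x hx; rw [Finset.mem_singleton] at hx; rw [hx]; exact (y : Fbar M).2)
  have := hfin₁
  obtain ⟨y₁', hy₁', hyy₁⟩ := hdesc _ (Finset.mem_singleton_self _)
  set y₁ : FK M K₁ := ⟨y₁', hy₁'⟩ with hy₁def
  have hby₁ : PlaceExtend27.baseChangeHom M K₁ y₁ = (y : Fbar M) := Subtype.ext hyy₁
  have hy₁0 : y₁ ≠ 0 := by
    intro h0
    rw [h0, map_zero] at hby₁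
    rw [← hby₁, v.ord_zero] at hy1
    exact zero_ne_one hy1
  -- a primitive element
  obtain ⟨θ, hθ⟩ := Field.exists_primitive_element ℚ K₁
  have hθint : IsIntegral ℚ θ := Algebra.IsIntegral.isIntegral θ
  have hprim : ∀ c : K₁, ∃ r : ℚ[X], c = aeval θ r := by
    intro c
    have hc : c ∈ (ℚ⟮θ⟯).toSubalgebra := by rw [hθ]; trivial
    rw [adjoin_simple_toSubalgebra_of_isAlgebraic hθint.isAlgebraic,
      Algebra.adjoin_singleton_eq_range_aeval] at hc
    obtain ⟨r, hr⟩ := hc
    exact ⟨r, hr.symm⟩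
  -- the algebra structure and the valuation subring `V = O_v ∩ K₁·F_M`
  letI : Algebra (FK M K) (FK M K₁) := (bcLe M hKK₁).toAlgebra
  have halg : ∀ x : FK M K, algebraMap (FK M K) (FK M K₁) x = bcLe M hKK₁ x := fun _ => rfl
  set V : ValuationSubring (FK M K₁) :=
    v.toValuationSubring.comap (PlaceExtend27.baseChangeHom M K₁) with hVdef
  have hVmem : ∀ z : FK M K₁, z ∈ V ↔
      PlaceExtend27.baseChangeHom M K₁ z ∈ v.toValuationSubring := fun _ => Iff.rfl
  have hOF : ∀ x : FK M K, x ∈ EtaleUnram1.OF (F := FK M K) V ↔ x ∈ w.toValuationSubring := by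
    intro x
    rw [ValuationSubring.mem_comap, hVmem, halg, baseChangeHom_bcLe, hmem]
  -- the uniformiser of `w`
  have hπF0 : (πw : FK M K) ≠ 0 := by
    simpa [ne_eq, ZeroMemClass.coe_eq_zero] using hπw.ne_zero
  have hπord : w.ord (πw : FK M K) = 1 := w.ord_coe_irreducible hπw
  set πO : EtaleUnram1.OF (F := FK M K) V := ⟨(πw : FK M K), (hOF _).mpr πw.2⟩ with hπO
  have hmax : ∀ c : EtaleUnram1.OF (F := FK M K) V,
      c ∈ IsLocalRing.maximalIdeal (EtaleUnram1.OF (F := FK M K) V) → πO ∣ c := by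
    intro c hc
    rcases eq_or_ne c 0 with rfl | hc0
    · exact dvd_zero _
    have hcF0 : (c : FK M K) ≠ 0 := by
      simpa [ne_eq, ZeroMemClass.coe_eq_zero] using hc0
    have hcw : (c : FK M K) ∈ w.toValuationSubring := (hOF _).mp c.2
    have hord0 : 0 ≤ w.ord (c : FK M K) := FF.ffp_ord_nonneg_of_mem w hcw
    have hordne : w.ord (c : FK M K) ≠ 0 := by
      intro h0
      have h1 : (c : FK M K)⁻¹ ∈ w.toValuationSubring := by
        apply FF.ffp_mem_of_ord_nonneg
        rw [w.ord_inv, h0]; simp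
      have h2 : (c : FK M K)⁻¹ ∈ EtaleUnram1.OF (F := FK M K) V := (hOF _).mpr h1
      rw [IsLocalRing.mem_maximalIdeal, mem_nonunits_iff] at hc
      apply hc
      refine isUnit_iff_exists_inv.mpr ⟨⟨_, h2⟩, ?_⟩
      apply Subtype.ext
      show (c : FK M K) * (c : FK M K)⁻¹ = 1
      exact mul_inv_cancel₀ hcF0
    have hq : (c : FK M K) / (πw : FK M K) ∈ w.toValuationSubring := by
      apply FF.ffp_mem_of_ord_nonneg
      rw [div_eq_mul_inv, w.ord_mul hcF0 (inv_ne_zero hπF0), w.ord_inv, hπord]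
      omega
    refine ⟨⟨_, (hOF _).mpr hq⟩, ?_⟩
    apply Subtype.ext
    show (c : FK M K) = (πw : FK M K) * ((c : FK M K) / (πw : FK M K))
    rw [mul_div_cancel₀ _ hπF0]
  have harch : ∀ c : FK M K, ∃ N : ℕ,
      ((πO : EtaleUnram1.OF (F := FK M K) V) : FK M K) ^ N * c ∈
        EtaleUnram1.OF (F := FK M K) V := by
    intro c
    rcases eq_or_ne c 0 with rfl | hc0
    · exact ⟨0, by rw [mul_zero]; exact zero_mem _⟩
    refine ⟨(-(w.ord c)).toNat, (hOF _).mpr ?_⟩
    apply FF.ffp_mem_of_ord_nonneg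
    show 0 ≤ w.ord ((πw : FK M K) ^ (-(w.ord c)).toNat * c)
    rw [w.ord_mul (pow_ne_zero _ hπF0) hc0, ← zpow_natCast, w.ord_zpow, hπord]
    have := Int.self_le_toNat (-(w.ord c))
    omega
  -- the generator `θ`
  have hθV : algebraMap K₁ (FK M K₁) θ ∈ V := by
    rw [hVmem, PlaceExtend27.baseChangeHom_algebraMap]
    exact v.algebraMap_mem' _
  set θV : V := ⟨algebraMap K₁ (FK M K₁) θ, hθV⟩ with hθVdef
  -- the polynomial
  have hintK : IsIntegral K ((θ : K₁) : Qbar) := by
    have h1 : IsIntegral ℚ ((θ : K₁) : Qbar) := hθint.map K₁.val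
    exact h1.tower_top
  set p₀ : K[X] := minpoly K ((θ : K₁) : Qbar) with hp₀
  have hp₀sep : p₀.Separable := (minpoly.irreducible hintK).separable
  let cmap : K →+* EtaleUnram1.OF (F := FK M K) V :=
    (algebraMap K (FK M K)).codRestrict (EtaleUnram1.OF (F := FK M K) V).toSubring
      (fun c => (hOF _).mpr (w.algebraMap_mem' c))
  set p : (EtaleUnram1.OF (F := FK M K) V)[X] := p₀.map cmap with hp
  have hsep : (p.map (IsLocalRing.residue (EtaleUnram1.OF (F := FK M K) V))).Separable := by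
    rw [hp, Polynomial.map_map]
    exact hp₀sep.map
  have hroot : EtaleUnram1.evV V θV p = 0 := by
    apply Subtype.ext
    rw [EtaleUnram1.coe_evV_eq_aeval, hp, Polynomial.map_map, aeval_def, eval₂_map]
    show eval₂ _ (algebraMap K₁ (FK M K₁) θ) p₀ = 0
    have hcomp : (algebraMap (FK M K) (FK M K₁)).comp
        ((EtaleUnram1.OF (F := FK M K) V).subtype.comp cmap) =
        (algebraMap K₁ (FK M K₁)).comp (CoeffDescent1.inclRingHom hKK₁) := by
      refine RingHom.ext fun c => ?_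
      exact bcLe_algebraMap M hKK₁ c
    rw [hcomp, ← hom_eval₂]
    have h0 : eval₂ (CoeffDescent1.inclRingHom hKK₁) θ p₀ = 0 := by
      apply Subtype.ext
      have h1 := Polynomial.hom_eval₂ p₀ (CoeffDescent1.inclRingHom hKK₁) (K₁.val.toRingHom) θ
      have h2 : (K₁.val.toRingHom).comp (CoeffDescent1.inclRingHom hKK₁) = algebraMap K Qbar := by
        ext c; rfl
      rw [h2] at h1
      show K₁.val.toRingHom (eval₂ (CoeffDescent1.inclRingHom hKK₁) θ p₀) = 0
      rw [h1]
      exact minpoly.aeval K ((θ : K₁) : Qbar)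
    rw [h0, map_zero]
  have hgen : ∀ z : FK M K₁, ∃ G : (FK M K)[X], z = aeval ((θV : V) : FK M K₁) G :=
    fun z => exists_aeval_eq M hKK₁ θ hprim z
  obtain ⟨i, u, hiu⟩ := EtaleUnram1.exists_zpow_mul_unit V θV p hroot hsep πO hπF0 hmax harch
    hgen y₁ hy₁0
  -- apply the base change to `ℚ̄`
  have h3 := congrArg (PlaceExtend27.baseChangeHom M K₁) hiu
  rw [hby₁, map_mul, map_zpow₀, halg, baseChangeHom_bcLe] at h3
  have hbπ0 : PlaceExtend27.baseChangeHom M K (πw : FK M K) ≠ 0 :=
    (_root_.map_ne_zero _).mpr hπF0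
  have hu0 : ((u : V) : FK M K₁) ≠ 0 := by
    have := u.ne_zero
    simp [ne_eq, ZeroMemClass.coe_eq_zero]
  have hbu0 : PlaceExtend27.baseChangeHom M K₁ ((u : V) : FK M K₁) ≠ 0 :=
    (_root_.map_ne_zero _).mpr hu0
  have hordu : v.ord (PlaceExtend27.baseChangeHom M K₁ ((u : V) : FK M K₁)) = 0 := by
    have h4 := FF.ffp_ord_nonneg_of_mem v ((hVmem _).mp (u : V).2)
    have h5 : (((u⁻¹ : Vˣ) : V) : FK M K₁) = ((u : V) : FK M K₁)⁻¹ := by
      have h6 : ((u : V) : FK M K₁) * (((u⁻¹ : Vˣ) : V) : FK M K₁) = 1 :=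
        congrArg (Subtype.val : V → FK M K₁) u.mul_inv
      exact (inv_eq_of_mul_eq_one_right h6).symm
    have h7 := FF.ffp_ord_nonneg_of_mem v ((hVmem _).mp ((u⁻¹ : Vˣ) : V).2)
    rw [h5, map_inv₀, v.ord_inv] at h7
    omega
  have h8 := congrArg v.ord h3
  rw [hy1, v.ord_mul (zpow_ne_zero _ hbπ0) hbu0, hordu, add_zero, v.ord_zpow] at h8
  have h9 : 0 ≤ v.ord (PlaceExtend27.baseChangeHom M K (πw : FK M K)) :=
    FF.ffp_ord_nonneg_of_mem v ((hmem _).mpr πw.2)
  exact Int.eq_one_of_mul_eq_one_left h9 h8.symm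

include hmem in
/-- **Constant-field extensions are unramified**: `ord_v ∘ bc = ord_w`. -/
theorem ord_baseChangeHom_eq (x : FK M K) :
    v.ord (PlaceExtend27.baseChangeHom M K x) = w.ord x := by
  rcases eq_or_ne x 0 with rfl | hx
  · simp
  obtain ⟨πw, hπw⟩ := FF.ffp_exists_irreducible w
  have he := ord_baseChangeHom_irreducible M K w v hmem hπw
  have hπF0 : (πw : FK M K) ≠ 0 := by
    simpa [ne_eq, ZeroMemClass.coe_eq_zero] using hπw.ne_zero
  obtain ⟨u, hu⟩ := w.exists_unit_mul_zpow hx hπw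
  have hu0 : ((u : w.toValuationSubring) : FK M K) ≠ 0 := by
    simp [ne_eq, ZeroMemClass.coe_eq_zero]
  have huinv : (((u⁻¹ : w.toValuationSubringˣ) : w.toValuationSubring) : FK M K) =
      ((u : w.toValuationSubring) : FK M K)⁻¹ := by
    have h2 : ((u : w.toValuationSubring) : FK M K) *
        (((u⁻¹ : w.toValuationSubringˣ) : w.toValuationSubring) : FK M K) = 1 :=
      congrArg (Subtype.val : w.toValuationSubring → FK M K) u.mul_inv
    exact (inv_eq_of_mul_eq_one_right h2).symm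
  have hordu := ord_baseChangeHom_unit M K w v hmem hu0 (u : w.toValuationSubring).2
    (huinv ▸ ((u⁻¹ : w.toValuationSubringˣ) : w.toValuationSubring).2)
  conv_lhs => rw [hu]
  rw [map_mul, map_zpow₀, v.ord_mul ((_root_.map_ne_zero _).mpr hu0)
    (zpow_ne_zero _ ((_root_.map_ne_zero _).mpr hπF0)), hordu, zero_add, v.ord_zpow, he, mul_one]

end Main

end Fermat.Agent.ES.P36.ConstUnram1
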