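/-
Program P (S36), chapter REG, brick R9 (helper9): **assembly of the closed-point fields
`NumInputP13.pts0 / pts1`** — abstract form.

Setting: a level-`q` chart `B' ⊂ F'` with its two vertical valuation rings `W1 W2`, a level-`q²`
chart `B ⊂ F` with its three vertical valuation rings `O 0, O 1, O 2` (`= v₁, v₂, v₃`), and the two
degeneracy maps `φ ψ : F' →+* F` (`= α₂, β₂`) mapping `B'` into `B`, with the position table

      along `φ`:  `O 0 ↦ W1`, `O 1 ↦ W1`, `O 2 ↦ W2`;      along `ψ`:  `O 0 ↦ W1`, `O 1 ↦ W2`, `O 2 ↦ W2`.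

For a maximal ideal `𝔪 ∋ π` of `B`:
* no component passes through `𝔪`: impossible (`RegI16.not_offBranch_all`);
* exactly one component `i` passes: `OneBranch` — the TARGET of R8 (`i = 0, 2`) and R7 (`i = 1`);
* two components pass: then BOTH `W1` and `W2` pass through the contraction of `𝔪` along `φ`
  (pairs `(0,2)`, `(1,2)`) or along `ψ` (pair `(0,1)`), i.e. `𝔪` lies over a CROSSING point of level
  `q`, and the TARGET of R6 (`α`-side / `β`-mirror) gives `TripleReg`.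

Main statement `pts_of_targets` (literal shape of the fields `pts0/pts1` of `NumInputP13.NumInputP`).
Adapters: `not_offBranch_of_tripleReg`, `offBranch_contract_of_only` (a point through which only one
component passes lies over a NON-crossing point — so that R7/R8 may assume it).
-/
import Mathlib
import Fermat.Agent.ES.P36.RegI16
import Fermat.Agent.ES.P36.NumAbsP13
import Fermat.Agent.ES.P36.TripleReg13

set_option autoImplicit false

namespace Fermat.Agent.ES.P36.PtsAsm9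

open Fermat.Agent.ES.N34.NodalCore13 Fermat.Agent.ES.N34.NodalSmooth13
  Fermat.Agent.ES.P36.MultiCore13 Fermat.Agent.ES.P36.NumAbsP13 Fermat.Agent.ES.P36.TripleReg13

section Contract

variable {R F' F : Type*} [CommRing R] [Field F'] [Field F] [Algebra R F'] [Algebra R F]

/-- `φ` restricted to the charts: `B' → B`. -/
def chartRestrict (φ : F' →+* F) (B' : Subalgebra R F') (B : Subalgebra R F)
    (hφB : ∀ b ∈ B', φ b ∈ B) : ↥B' →+* ↥B where
  toFun b := ⟨φ b, hφB b b.2⟩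
  map_one' := Subtype.ext (map_one φ)
  map_mul' a b := Subtype.ext (map_mul φ (a : F') (b : F'))
  map_zero' := Subtype.ext (map_zero φ)
  map_add' a b := Subtype.ext (map_add φ (a : F') (b : F'))

@[simp] theorem coe_chartRestrict (φ : F' →+* F) (B' : Subalgebra R F') (B : Subalgebra R F)
    (hφB : ∀ b ∈ B', φ b ∈ B) (b : ↥B') :
    ((chartRestrict φ B' B hφB b : ↥B) : F) = φ (b : F') := rfl

/-- The contraction of an ideal of `B` to `B'` along `φ`. -/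
def contract (φ : F' →+* F) (B' : Subalgebra R F') (B : Subalgebra R F)
    (hφB : ∀ b ∈ B', φ b ∈ B) (𝔪 : Ideal B) : Ideal B' :=
  Ideal.comap (chartRestrict φ B' B hφB) 𝔪

theorem mem_contract (φ : F' →+* F) (B' : Subalgebra R F') (B : Subalgebra R F)
    (hφB : ∀ b ∈ B', φ b ∈ B) (𝔪 : Ideal B) (b : ↥B') :
    b ∈ contract φ B' B hφB 𝔪 ↔ (⟨φ b, hφB b b.2⟩ : ↥B) ∈ 𝔪 := Iff.rfl

instance contract_isPrime (φ : F' →+* F) (B' : Subalgebra R F') (B : Subalgebra R F)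
    (hφB : ∀ b ∈ B', φ b ∈ B) (𝔪 : Ideal B) [𝔪.IsPrime] :
    (contract φ B' B hφB 𝔪).IsPrime :=
  Ideal.comap_isPrime _ 𝔪

theorem pi_mem_contract (φ : F' →+* F) (hφR : ∀ r : R, φ (algebraMap R F' r) = algebraMap R F r)
    (B' : Subalgebra R F') (B : Subalgebra R F) (hφB : ∀ b ∈ B', φ b ∈ B) (𝔪 : Ideal B) {π : R}
    (hπ : algebraMap R B π ∈ 𝔪) : algebraMap R B' π ∈ contract φ B' B hφB 𝔪 := by
  rw [mem_contract]
  have : (⟨φ (algebraMap R B' π : ↥B'), hφB _ (algebraMap R B' π).2⟩ : ↥B) = algebraMap R B π :=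
    Subtype.ext (hφR π)
  rw [this]
  exact hπ

/-- **Transfer of `OffBranch`**: if the component `W` of level `q` does not pass through the
contraction of `𝔪`, then no component `V` lying over `W` along `φ` passes through `𝔪`. -/
theorem offBranch_of_contract (φ : F' →+* F)
    (hφR : ∀ r : R, φ (algebraMap R F' r) = algebraMap R F r)
    (B' : Subalgebra R F') (B : Subalgebra R F) (hφB : ∀ b ∈ B', φ b ∈ B) (𝔪 : Ideal B) (π : R)
    {W : ValuationSubring F'} {V : ValuationSubring F} (hVW : V.comap φ = W)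
    (h : OffBranch π B' W (contract φ B' B hφB 𝔪)) : OffBranch π B V 𝔪 := by
  obtain ⟨e, he, c, hc, hec⟩ := h
  refine ⟨⟨φ e, hφB e e.2⟩, he, φ c, ?_, ?_⟩
  · have : c ∈ V.comap φ := by rw [hVW]; exact hc
    exact this
  · show φ (e : F') = algebraMap R F π * φ c
    rw [hec, map_mul, hφR]

end Contract

section Triple

variable {R F : Type*} [CommRing R] [Field F] [Algebra R F]

/-- the elementary step behind `not_offBranch_of_tripleReg`. -/
theorem false_of_offBranch_of_factor {π : R} (B : Subalgebra R F) (𝔪 : Ideal B) [𝔪.IsPrime]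
    (Oi : ValuationSubring F) (hC : ∀ c : ↥(locSub B 𝔪), (c : F) ∈ Oi)
    (x y : ↥(locSub B 𝔪)) (hxy : algebraMap R F π = (x : F) * (y : F))
    (hx : ((x : F))⁻¹ ∉ Oi) (h : OffBranch π B Oi 𝔪) : False := by
  obtain ⟨e, he, c, hc, hec⟩ := h
  have he0 : (e : F) ≠ 0 := coe_ne_zero_of_notMem B 𝔪 he
  have heinv : ((e : F))⁻¹ ∈ Oi := hC ⟨_, inv_mem_locSub B 𝔪 he⟩
  apply hx
  have hx0 : (x : F) ≠ 0 := by
    intro h0
    rw [hxy, h0, zero_mul, zero_mul] at hec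
    exact he0 hec
  have : ((x : F))⁻¹ = (y : F) * c * ((e : F))⁻¹ := by
    rw [hec, hxy]
    have hy0 : (y : F) ≠ 0 := by
      intro h0
      rw [hxy, h0, mul_zero, zero_mul] at hec
      exact he0 hec
    have hc0 : c ≠ 0 := by
      intro h0
      rw [h0, mul_zero] at hec
      exact he0 hec
    field_simp
  rw [this]
  exact Oi.mul_mem _ _ (Oi.mul_mem _ _ (hC y) hc) heinv

/-- **At a regular triple point all three components pass through `𝔪`.** -/
theorem not_offBranch_of_tripleReg {q : ℕ} {π : R} (B : Subalgebra R F) {ι : Type*}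
    (O : ι → ValuationSubring F) (𝔪 : Ideal B) [𝔪.IsPrime] (i₁ i₂ i₃ : ι)
    (x₁ x₂ x₃ : ↥(locSub B 𝔪)) (h : TripleReg q π B O 𝔪 i₁ i₂ i₃ x₁ x₂ x₃) :
    ¬ OffBranch π B (O i₁) 𝔪 ∧ ¬ OffBranch π B (O i₂) 𝔪 ∧ ¬ OffBranch π B (O i₃) 𝔪 := by
  obtain ⟨-, -, -, -, -, -, -, -, -, -, -, -, -, -, ⟨hC₁, -, hn₁⟩, ⟨hC₂, -, hn₂⟩, ⟨hC₃, -, hn₃⟩,
    w, e₁, e₂, e₃, he₁, -, he₂, -, he₃, -, hfac⟩ := h
  have hfacF : algebraMap R F π =
      ((w : ↥(locSub B 𝔪)) : F) * (x₁ : F) ^ e₁ * (x₂ : F) ^ e₂ * (x₃ : F) ^ e₃ := by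
    have := congrArg (fun z : ↥(locSub B 𝔪) => (z : F)) hfac
    simpa using this
  obtain ⟨d₁, rfl⟩ : ∃ d, e₁ = d + 1 := ⟨e₁ - 1, by omega⟩
  obtain ⟨d₂, rfl⟩ : ∃ d, e₂ = d + 1 := ⟨e₂ - 1, by omega⟩
  obtain ⟨d₃, rfl⟩ : ∃ d, e₃ = d + 1 := ⟨e₃ - 1, by omega⟩
  refine ⟨fun hoff => ?_, fun hoff => ?_, fun hoff => ?_⟩
  · refine false_of_offBranch_of_factor B 𝔪 (O i₁) hC₁ x₁
      ((w : ↥(locSub B 𝔪)) * x₁ ^ d₁ * x₂ ^ (d₂ + 1) * x₃ ^ (d₃ + 1)) ?_ hn₁ hoff
    rw [hfacF]; push_cast; ring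
  · refine false_of_offBranch_of_factor B 𝔪 (O i₂) hC₂ x₂
      ((w : ↥(locSub B 𝔪)) * x₁ ^ (d₁ + 1) * x₂ ^ d₂ * x₃ ^ (d₃ + 1)) ?_ hn₂ hoff
    rw [hfacF]; push_cast; ring
  · refine false_of_offBranch_of_factor B 𝔪 (O i₃) hC₃ x₃
      ((w : ↥(locSub B 𝔪)) * x₁ ^ (d₁ + 1) * x₂ ^ (d₂ + 1) * x₃ ^ d₃) ?_ hn₃ hoff
    rw [hfacF]; push_cast; ring

end Triple

section Assembly

variable {R F' F : Type*} [CommRing R] [Field F'] [Field F] [Algebra R F'] [Algebra R F]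

/-- **R9: the closed-point field of `NumInputP13.NumInputP` for one chart**, from the targets of
R6 (`hR6α`, `hR6β`: points over a crossing point of level `q` along `φ` resp. `ψ`), R7 and R8
(`hone`: points through which exactly one component passes). -/
theorem pts_of_targets {q : ℕ} {π : R} (B' : Subalgebra R F') (B : Subalgebra R F)
    (φ ψ : F' →+* F)
    (hφR : ∀ r : R, φ (algebraMap R F' r) = algebraMap R F r)
    (hψR : ∀ r : R, ψ (algebraMap R F' r) = algebraMap R F r)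
    (hφB : ∀ b ∈ B', φ b ∈ B) (hψB : ∀ b ∈ B', ψ b ∈ B)
    (W1 W2 : ValuationSubring F') (O : Fin 3 → ValuationSubring F)
    (cφ0 : (O 0).comap φ = W1) (cφ1 : (O 1).comap φ = W1) (cφ2 : (O 2).comap φ = W2)
    (cψ0 : (O 0).comap ψ = W1) (cψ1 : (O 1).comap ψ = W2)
    (leO : ∀ j, ∀ x ∈ B, x ∈ O j)
    (sat : ∀ b ∈ B, ∀ c : F, (∀ j, c ∈ O j) → b = algebraMap R F π * c → c ∈ B)
    (pi_ne : algebraMap R F π ≠ 0)
    (hone : ∀ (i : Fin 3) (𝔪 : Ideal B) (h𝔪 : 𝔪.IsMaximal), algebraMap R B π ∈ 𝔪 →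
      (∀ j, j ≠ i → OffBranch π B (O j) 𝔪) →
      @OneBranch R F _ _ _ q π B (Fin 3) O 𝔪 h𝔪.isPrime)
    (hR6α : ∀ (𝔪 : Ideal B) (h𝔪 : 𝔪.IsMaximal), algebraMap R B π ∈ 𝔪 →
      ¬ OffBranch π B' W1 (contract φ B' B hφB 𝔪) →
      ¬ OffBranch π B' W2 (contract φ B' B hφB 𝔪) →
      ∃ (x₁ x₂ x₃ : ↥(@locSub R F _ _ _ B 𝔪 h𝔪.isPrime)),
        @TripleReg R F _ _ _ q π B (Fin 3) O 𝔪 h𝔪.isPrime 0 1 2 x₁ x₂ x₃)
    (hR6β : ∀ (𝔪 : Ideal B) (h𝔪 : 𝔪.IsMaximal), algebraMap R B π ∈ 𝔪 →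
      ¬ OffBranch π B' W1 (contract ψ B' B hψB 𝔪) →
      ¬ OffBranch π B' W2 (contract ψ B' B hψB 𝔪) →
      ∃ (x₁ x₂ x₃ : ↥(@locSub R F _ _ _ B 𝔪 h𝔪.isPrime)),
        @TripleReg R F _ _ _ q π B (Fin 3) O 𝔪 h𝔪.isPrime 0 1 2 x₁ x₂ x₃) :
    ∀ (𝔪 : Ideal B) (h𝔪 : 𝔪.IsMaximal), algebraMap R B π ∈ 𝔪 →
      @OneBranch R F _ _ _ q π B (Fin 3) O 𝔪 h𝔪.isPrime ∨
      ∃ (x₁ x₂ x₃ : ↥(@locSub R F _ _ _ B 𝔪 h𝔪.isPrime)),
        @TripleReg R F _ _ _ q π B (Fin 3) O 𝔪 h𝔪.isPrime 0 1 2 x₁ x₂ x₃ := by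
  intro 𝔪 h𝔪 hπ
  have h𝔪p : 𝔪.IsPrime := h𝔪.isPrime
  -- transfer along `φ` and `ψ`
  have tφ : ∀ {W : ValuationSubring F'} {V : ValuationSubring F}, V.comap φ = W →
      ¬ OffBranch π B V 𝔪 → ¬ OffBranch π B' W (contract φ B' B hφB 𝔪) :=
    fun hVW hV hW => hV (offBranch_of_contract φ hφR B' B hφB 𝔪 π hVW hW)
  have tψ : ∀ {W : ValuationSubring F'} {V : ValuationSubring F}, V.comap ψ = W →
      ¬ OffBranch π B V 𝔪 → ¬ OffBranch π B' W (contract ψ B' B hψB 𝔪) :=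
    fun hVW hV hW => hV (offBranch_of_contract ψ hψR B' B hψB 𝔪 π hVW hW)
  by_cases h2 : OffBranch π B (O 2) 𝔪
  · by_cases h0 : OffBranch π B (O 0) 𝔪
    · by_cases h1 : OffBranch π B (O 1) 𝔪
      · -- no component passes
        exfalso
        refine RegI16.not_offBranch_all π B O leO sat pi_ne 𝔪 hπ fun j => ?_
        fin_cases j
        · exact h0
        · exact h1
        · exact h2
      · -- only the middle component
        refine Or.inl (hone 1 𝔪 h𝔪 hπ fun j hj => ?_)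
        fin_cases j
        · exact h0
        · exact absurd rfl hj
        · exact h2
    · by_cases h1 : OffBranch π B (O 1) 𝔪
      · -- only `O 0`
        refine Or.inl (hone 0 𝔪 h𝔪 hπ fun j hj => ?_)
        fin_cases j
        · exact absurd rfl hj
        · exact h1
        · exact h2
      · -- `O 0` and `O 1` pass: crossing along `ψ`
        exact Or.inr (hR6β 𝔪 h𝔪 hπ (tψ cψ0 h0) (tψ cψ1 h1))
  · by_cases h0 : OffBranch π B (O 0) 𝔪
    · by_cases h1 : OffBranch π B (O 1) 𝔪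
      · -- only `O 2`
        refine Or.inl (hone 2 𝔪 h𝔪 hπ fun j hj => ?_)
        fin_cases j
        · exact h0
        · exact h1
        · exact absurd rfl hj
      · -- `O 1` and `O 2` pass: crossing along `φ`
        exact Or.inr (hR6α 𝔪 h𝔪 hπ (tφ cφ1 h1) (tφ cφ2 h2))
    · -- `O 0` and `O 2` pass: crossing along `φ`
      exact Or.inr (hR6α 𝔪 h𝔪 hπ (tφ cφ0 h0) (tφ cφ2 h2))

/-- **A point through which only one component passes lies over a NON-crossing point** (along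
`φ`): if the contraction were a crossing point, R6 would make all three components pass.  With the
position table: only `O 0` or only `O 1` passes ⇒ `W2` is off at the contraction; only `O 2` passes ⇒
`W1` is off at the contraction. -/
theorem not_crossing_of_only {q : ℕ} {π : R} (B' : Subalgebra R F') (B : Subalgebra R F)
    (φ : F' →+* F) (hφB : ∀ b ∈ B', φ b ∈ B)
    (W1 W2 : ValuationSubring F') (O : Fin 3 → ValuationSubring F)
    (𝔪 : Ideal B) (h𝔪 : 𝔪.IsMaximal)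
    (hR6α : ¬ OffBranch π B' W1 (contract φ B' B hφB 𝔪) →
      ¬ OffBranch π B' W2 (contract φ B' B hφB 𝔪) →
      ∃ (x₁ x₂ x₃ : ↥(@locSub R F _ _ _ B 𝔪 h𝔪.isPrime)),
        @TripleReg R F _ _ _ q π B (Fin 3) O 𝔪 h𝔪.isPrime 0 1 2 x₁ x₂ x₃)
    {j : Fin 3} (hj : OffBranch π B (O j) 𝔪) :
    OffBranch π B' W1 (contract φ B' B hφB 𝔪) ∨ OffBranch π B' W2 (contract φ B' B hφB 𝔪) := by
  have h𝔪p : 𝔪.IsPrime := h𝔪.isPrime
  by_contra hcon
  push Not at hcon
  obtain ⟨x₁, x₂, x₃, hreg⟩ := hR6α hcon.1 hcon.2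
  obtain ⟨n0, n1, n2⟩ := not_offBranch_of_tripleReg B O 𝔪 0 1 2 x₁ x₂ x₃ hreg
  fin_cases j
  · exact n0 hj
  · exact n1 hj
  · exact n2 hj

end Assembly

end Fermat.Agent.ES.P36.PtsAsm9
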