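/-
Program P (S36), chapter REG, brick R9 (helper9), INSTANCE layer: **the closed-point fields
`pts0 / pts1` of `NumInputP13.NumInputP` at the `ModelDefsP9` data, over ONE number field `K`**.

Data `(n, e, q, M', A, K)`, `R := A ∩ K`, `F' := K·F_{M' q}`, `F'' := K·F_{M' q²}`; charts
`B0' B1' ⊂ F'` (`ModelDefs9.B0/B1`), `B0 B1 ⊂ F''` (`ModelDefsP9.B0/B1`); degeneracy maps
`α₂ β₂ : F' → F''`; vertical valuation rings `O1q O2q` of `F'` and `Ofam hπ O2 = ![O1, O2, O3]` of `F''`.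

GENERIC layer (a field `Kt`, a valuation subring `O`, two subfields `E' E ⊂ Kt((𝐪))`, two
`Kt`-embeddings `a b : E' → E`; typeclass search at the concrete number-field types is slow):
* `OneAt`   — TARGET of R8 (`i = 0, 2`) and R7 + R7c (`i = 1`) for one chart: a closed point through
  which exactly one component passes is a `NumAbsP13.OneBranch` point;
* `CrossAt` — TARGET of R6 (`α`-side / `β`-mirror) for one chart and one degeneracy map: a closed point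
  over a CROSSING point of level `q` (both `W1` and `W2` pass through its contraction) is a regular
  triple point `TripleReg … 0 1 2`;
* `PtsAt`   — the conclusion, literally the type of the fields `pts0`, `pts1` of `NumInputP`;
* `ptsAt_of` — `PtsAsm9.pts_of_targets` for charts `chart O s' ⊂ E'`, `chart O s ⊂ E` with
  `a s', b s' ∈ chart O s` (the memberships `a (B') ⊆ B`, `b (B') ⊆ B` are derived: `ChartMaps9`).

MODEL layer, per `K`:
* `PosItemsP`   (M3 + M5/M6): `O3` lies over `O2q` along `α₂`; a middle ring lies over `O2q` along `β₂`;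
* `MultiItemsP` (M7): `MultiCore13.MultiChartModel` at the model data (only `le_O`, `sat`, `pi_ne` are used);
* `OneItemsP`, `CrossItemsP`, `PtsItemsP` : `OneAt`, `CrossAt`, `PtsAt` at the model data, both charts,
  for every `IsMid` ring `O2`;
* `ptsItemsP_of` : `ModEqItems + PosItemsP + MultiItemsP + OneItemsP + CrossItemsP ⊢ PtsItemsP`;
* `numInputP_of_parts` (generic): `MultiAt` + `PtsAt` ×2 + the base fields ⊢ `NumInputP … 0 1 2`.
-/
import Mathlib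
import Fermat.Agent.RED.NumInst4
import Fermat.Agent.ES.N34.ModelN4
import Fermat.Agent.ES.P36.ModelDefsP9
import Fermat.Agent.ES.P36.ChartMaps9
import Fermat.Agent.ES.P36.PtsAsm9
import Fermat.Agent.ES.P36.NumInputP13

set_option autoImplicit false
set_option linter.unusedSectionVars false
set_option synthInstance.maxHeartbeats 400000

open HahnSeries ModularCurve

noncomputable section

namespace Fermat.Agent.ES.P36.PtsModel9

open Fermat.Agent.RED.PUR.ChartGeneric22 Fermat.Agent.ES.N34.NodalCore13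
  Fermat.Agent.ES.N34.NodalSmooth13
  Fermat.Agent.ES.P36.MultiCore13
  Fermat.Agent.ES.P36.NumAbsP13 Fermat.Agent.ES.P36.TripleReg13 Fermat.Agent.ES.P36.PtsAsm9

/-! ### Generic layer -/

section Generic

variable {Kt : Type*} [Field Kt] (O : ValuationSubring Kt)
  (E' E : IntermediateField Kt (LaurentSeries Kt))

/-- **TARGET of R7 / R8 for one chart**: a closed point of the special fibre through which exactly
one of the three components passes is a `OneBranch` point. -/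
def OneAt (q : ℕ) (π : ↥O) (B : Subalgebra ↥O ↥E) (Of : Fin 3 → ValuationSubring ↥E) : Prop :=
  ∀ (i : Fin 3) (𝔪 : Ideal ↥B) (h𝔪 : 𝔪.IsMaximal), algebraMap ↥O ↥B π ∈ 𝔪 →
    (∀ j, j ≠ i → OffBranch π B (Of j) 𝔪) →
    @OneBranch ↥O ↥E _ _ _ q π B (Fin 3) Of 𝔪 h𝔪.isPrime

/-- **TARGET of R6 for one chart and one degeneracy map `φ`**: a closed point lying over a crossing
point of level `q` along `φ` is a regular triple point. -/
def CrossAt (q : ℕ) (π : ↥O) (φ : ↥E' →ₐ[Kt] ↥E) (B' : Subalgebra ↥O ↥E') (B : Subalgebra ↥O ↥E)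
    (W1 W2 : ValuationSubring ↥E') (Of : Fin 3 → ValuationSubring ↥E) : Prop :=
  ∀ (hφB : ∀ x ∈ B', (φ : ↥E' →+* ↥E) x ∈ B) (𝔪 : Ideal ↥B) (h𝔪 : 𝔪.IsMaximal),
    algebraMap ↥O ↥B π ∈ 𝔪 →
    ¬ OffBranch π B' W1 (contract (φ : ↥E' →+* ↥E) B' B hφB 𝔪) →
    ¬ OffBranch π B' W2 (contract (φ : ↥E' →+* ↥E) B' B hφB 𝔪) →
    ∃ (x₁ x₂ x₃ : ↥(@locSub ↥O ↥E _ _ _ B 𝔪 h𝔪.isPrime)),
      @TripleReg ↥O ↥E _ _ _ q π B (Fin 3) Of 𝔪 h𝔪.isPrime 0 1 2 x₁ x₂ x₃

/-- **The closed-point field of `NumInputP13.NumInputP`** for one chart. -/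
def PtsAt (q : ℕ) (π : ↥O) (B : Subalgebra ↥O ↥E) (Of : Fin 3 → ValuationSubring ↥E) : Prop :=
  ∀ (𝔪 : Ideal ↥B) (h𝔪 : 𝔪.IsMaximal), algebraMap ↥O ↥B π ∈ 𝔪 →
    @OneBranch ↥O ↥E _ _ _ q π B (Fin 3) Of 𝔪 h𝔪.isPrime ∨
    ∃ (x₁ x₂ x₃ : ↥(@locSub ↥O ↥E _ _ _ B 𝔪 h𝔪.isPrime)),
      @TripleReg ↥O ↥E _ _ _ q π B (Fin 3) Of 𝔪 h𝔪.isPrime 0 1 2 x₁ x₂ x₃

variable {O E' E}

/-- **R9 for one chart, Gauss-layer form.** -/
theorem ptsAt_of {q : ℕ} {π : ↥O} (a b : ↥E' →ₐ[Kt] ↥E) {s' : ↥E'} {s : ↥E}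
    (ha : a s' ∈ chart ↥O s) (hb : b s' ∈ chart ↥O s)
    (W1 W2 : ValuationSubring ↥E') (Of : Fin 3 → ValuationSubring ↥E)
    (ca0 : (Of 0).comap (a : ↥E' →+* ↥E) = W1) (ca1 : (Of 1).comap (a : ↥E' →+* ↥E) = W1)
    (ca2 : (Of 2).comap (a : ↥E' →+* ↥E) = W2)
    (cb0 : (Of 0).comap (b : ↥E' →+* ↥E) = W1) (cb1 : (Of 1).comap (b : ↥E' →+* ↥E) = W2)
    (leO : ∀ j, ∀ x ∈ chart ↥O s, x ∈ Of j)
    (sat : ∀ x ∈ chart ↥O s, ∀ c : ↥E, (∀ j, c ∈ Of j) → x = algebraMap ↥O ↥E π * c →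
      c ∈ chart ↥O s)
    (pi_ne : algebraMap ↥O ↥E π ≠ 0)
    (hone : OneAt O E q π (chart ↥O s) Of)
    (hα : CrossAt O E' E q π a (chart ↥O s') (chart ↥O s) W1 W2 Of)
    (hβ : CrossAt O E' E q π b (chart ↥O s') (chart ↥O s) W1 W2 Of) :
    PtsAt O E q π (chart ↥O s) Of :=
  pts_of_targets (chart ↥O s') (chart ↥O s) (a : ↥E' →+* ↥E) (b : ↥E' →+* ↥E)
    (Fermat.Agent.ES.N34.ModelN4.algHom_algebraMap_O O E' E a)
    (Fermat.Agent.ES.N34.ModelN4.algHom_algebraMap_O O E' E b)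
    (fun _ hx => ChartMaps9.algHom_mem_chart a ha hx) (fun _ hx => ChartMaps9.algHom_mem_chart b hb hx)
    W1 W2 Of ca0 ca1 ca2 cb0 cb1 leO sat pi_ne hone
    (hα fun _ hx => ChartMaps9.algHom_mem_chart a ha hx)
    (hβ fun _ hx => ChartMaps9.algHom_mem_chart b hb hx)

end Generic

/-! ### Model layer: the `ModelDefsP9` data over one number field `K` -/

section Model

open Fermat.Agent.RED.Interface4 Fermat.Agent.RED.PUR.GaussGen8 Fermat.Agent.RED.BASE.EtaQuot12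
  Fermat.Agent.ES.N34 Fermat.Agent.ES.P36.ModelDefsP9

section Generic2

variable {Kt : Type*} [Field Kt] (O : ValuationSubring Kt)
  (E : IntermediateField Kt (LaurentSeries Kt))

/-- `MultiCore13.MultiChartModel` over `(O, E)` (Gauss-layer spelling). -/
def MultiAt (π : ↥O) (t : ↥E) (B0 B1 : Subalgebra ↥O ↥E) {ι : Type*}
    (Of : ι → ValuationSubring ↥E) : Prop :=
  MultiChartModel ↥O ↥E π t B0 B1 Of

/-- **`NumInputP` from its parts in Gauss-layer spelling** (fit test of `MultiAt`, `PtsAt` against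
the contract of record `NumInputP13.NumInputP … 0 1 2`; the scalar tower is supplied as in
`ModelInput13.NodalDataAt`). -/
theorem numInputP_of_parts (q : ℕ) (π : ↥O) (t : ↥E) (B0 B1 : Subalgebra ↥O ↥E)
    (Of : Fin 3 → ValuationSubring ↥E)
    (model : MultiAt O E π t B0 B1 Of)
    (fracR : IsFractionRing ↥O Kt)
    (dvrR : ∀ r : ↥O, r ≠ 0 → ∃ (k : ℕ) (v : (↥O)ˣ), r = π ^ k * v)
    (noeth0 : IsNoetherianRing ↥B0) (noeth1 : IsNoetherianRing ↥B1)
    (frac0 : ∀ y : ↥E, ∃ a ∈ B0, ∃ b ∈ B0, b ≠ 0 ∧ y * b = a)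
    (frac1 : ∀ y : ↥E, ∃ a ∈ B1, ∃ b ∈ B1, b ≠ 0 ∧ y * b = a)
    (qprime : q.Prime) (qpi : ∃ r : ↥O, (q : ↥O) = π * r)
    (algClosed : ∀ y : ↥E, IsAlgebraic Kt y → ∃ c : Kt, algebraMap Kt ↥E c = y)
    (pts0 : PtsAt O E q π B0 Of) (pts1 : PtsAt O E q π B1 Of) :
    haveI := Fermat.Agent.RED.NumInst4.isScalarTower_OE O E
    Fermat.Agent.ES.P36.NumInputP13.NumInputP ↥O Kt ↥E q π t B0 B1 Of 0 1 2 :=
  haveI := Fermat.Agent.RED.NumInst4.isScalarTower_OE O E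
  { model := model, fracR := fracR, dvrR := dvrR, noeth0 := noeth0, noeth1 := noeth1
    frac0 := frac0, frac1 := frac1, qprime := qprime, qpi := qpi, algClosed := algClosed
    pts0 := pts0, pts1 := pts1 }

end Generic2

variable {n e q M' : ℕ} [NeZero n] [NeZero M'] [NeZero q] {A : ValuationSubring Qbar}
  {K : IntermediateField ℚ Qbar}

set_option maxHeartbeats 2000000 in
/-- **R9 at the model data, for fixed `(ht, π, O2)`**: both closed-point fields of `NumInputP`. -/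
theorem pts_model (ht : tq (↥K) n e ∈ FK M' K) {π : ↥(AK A K)} (hπ : IsUnif (AK A K) π)
    (O2 : ValuationSubring ↥(FK (M' * q * q) K))
    (hy0 : ModelDefs9.yN q ht ∈ ModelDefs9.B0 A q ht)
    (hy1 : (ModelDefs9.yN q ht)⁻¹ ∈ ModelDefs9.B1 A q ht)
    (hpos3 : (O3 M' q hπ).comap (alpha2 K M' q).toRingHom = O2q M' q hπ)
    (hmid : IsMidPos M' q hπ O2)
    (model : MultiAt (AK A K) (FK (M' * q * q) K) π (t q ht) (B0 A q ht) (B1 A q ht)
      (Ofam M' q hπ O2))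
    (hone0 : OneAt (AK A K) (FK (M' * q * q) K) q π (B0 A q ht) (Ofam M' q hπ O2))
    (hone1 : OneAt (AK A K) (FK (M' * q * q) K) q π (B1 A q ht) (Ofam M' q hπ O2))
    (hα0 : CrossAt (AK A K) (FK (M' * q) K) (FK (M' * q * q) K) q π (alpha2 K M' q)
      (ModelDefs9.B0 A q ht) (B0 A q ht) (O1q M' q hπ) (O2q M' q hπ) (Ofam M' q hπ O2))
    (hβ0 : CrossAt (AK A K) (FK (M' * q) K) (FK (M' * q * q) K) q π (beta2 K M' q)
      (ModelDefs9.B0 A q ht) (B0 A q ht) (O1q M' q hπ) (O2q M' q hπ) (Ofam M' q hπ O2))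
    (hα1 : CrossAt (AK A K) (FK (M' * q) K) (FK (M' * q * q) K) q π (alpha2 K M' q)
      (ModelDefs9.B1 A q ht) (B1 A q ht) (O1q M' q hπ) (O2q M' q hπ) (Ofam M' q hπ O2))
    (hβ1 : CrossAt (AK A K) (FK (M' * q) K) (FK (M' * q * q) K) q π (beta2 K M' q)
      (ModelDefs9.B1 A q ht) (B1 A q ht) (O1q M' q hπ) (O2q M' q hπ) (Ofam M' q hπ O2)) :
    PtsAt (AK A K) (FK (M' * q * q) K) q π (B0 A q ht) (Ofam M' q hπ O2) ∧
      PtsAt (AK A K) (FK (M' * q * q) K) q π (B1 A q ht) (Ofam M' q hπ O2) := by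
  have model' : MultiChartModel ↥(AK A K) ↥(FK (M' * q * q) K) π (t q ht) (B0 A q ht) (B1 A q ht)
      (Ofam M' q hπ O2) := model
  have ha0 : alpha2 K M' q (ModelDefs9.tN q ht) ∈ chart ↥(AK A K) (t q ht) := self_mem_chart _
  have hb0 : beta2 K M' q (ModelDefs9.tN q ht) ∈ chart ↥(AK A K) (t q ht) :=
    ChartMaps9.beta2_mem_B0 ht hy0 (self_mem_chart _)
  have ha1 : alpha2 K M' q (ModelDefs9.tN q ht)⁻¹ ∈ chart ↥(AK A K) (t q ht)⁻¹ :=
    ChartMaps9.alpha2_mem_B1 (A := A) ht (self_mem_chart _)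
  have hb1 : beta2 K M' q (ModelDefs9.tN q ht)⁻¹ ∈ chart ↥(AK A K) (t q ht)⁻¹ :=
    ChartMaps9.beta2_mem_B1 ht hy1 (self_mem_chart _)
  have h0 := ptsAt_of (O := AK A K) (E' := FK (M' * q) K) (E := FK (M' * q * q) K) (q := q)
    (π := π) (alpha2 K M' q) (beta2 K M' q) (s' := ModelDefs9.tN q ht) (s := t q ht)
    ha0 hb0 (O1q M' q hπ) (O2q M' q hπ) (Ofam M' q hπ O2)
    (O1_comap_alpha2 M' q hπ) hmid.1 hpos3 (O1_comap_beta2 M' q hπ) hmid.2
    model'.le_O_0 model'.sat0 model'.pi_ne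
  have h1 := ptsAt_of (O := AK A K) (E' := FK (M' * q) K) (E := FK (M' * q * q) K) (q := q)
    (π := π) (alpha2 K M' q) (beta2 K M' q) (s' := (ModelDefs9.tN q ht)⁻¹) (s := (t q ht)⁻¹)
    ha1 hb1 (O1q M' q hπ) (O2q M' q hπ) (Ofam M' q hπ O2)
    (O1_comap_alpha2 M' q hπ) hmid.1 hpos3 (O1_comap_beta2 M' q hπ) hmid.2
    model'.le_O_1 model'.sat1 model'.pi_ne
  exact ⟨h0 hone0 hα0 hβ0, h1 hone1 hα1 hβ1⟩

/-! ### The per-`K` packages -/

variable (n e q M' A K)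

set_option maxHeartbeats 2000000 in
/-- **Positions of `v₃` (M3) and of the middle ring (M5/M6)**: `O3` lies over `O2q` along `α₂`, and
every middle ring lies over `O2q` along `β₂`. -/
def PosItemsP : Prop :=
  ∀ (π : ↥(AK A K)) (hπ : IsUnif (AK A K) π),
    (O3 M' q hπ).comap (alpha2 K M' q).toRingHom = O2q M' q hπ ∧
    ∀ O2 : ValuationSubring ↥(FK (M' * q * q) K), IsMid M' q hπ O2 → IsMidPos M' q hπ O2

/-- **The multi-component two-chart model (M7)** at the model data. -/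
def MultiItemsP : Prop :=
  ∀ (ht : tq (↥K) n e ∈ FK M' K) (π : ↥(AK A K)) (hπ : IsUnif (AK A K) π)
    (O2 : ValuationSubring ↥(FK (M' * q * q) K)), IsMid M' q hπ O2 →
    MultiAt (AK A K) (FK (M' * q * q) K) π (t q ht) (B0 A q ht) (B1 A q ht) (Ofam M' q hπ O2)

/-- **TARGET of R7 (+R7c) and R8 at the model data**: exactly one component ⇒ `OneBranch`. -/
def OneItemsP : Prop :=
  ∀ (ht : tq (↥K) n e ∈ FK M' K) (π : ↥(AK A K)) (hπ : IsUnif (AK A K) π)
    (O2 : ValuationSubring ↥(FK (M' * q * q) K)), IsMid M' q hπ O2 →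
    OneAt (AK A K) (FK (M' * q * q) K) q π (B0 A q ht) (Ofam M' q hπ O2) ∧
    OneAt (AK A K) (FK (M' * q * q) K) q π (B1 A q ht) (Ofam M' q hπ O2)

/-- **TARGET of R6 at the model data**: over a crossing point of level `M' q` (along `α₂`, resp.
along `β₂`) ⇒ regular triple point; both charts. -/
def CrossItemsP : Prop :=
  ∀ (ht : tq (↥K) n e ∈ FK M' K) (π : ↥(AK A K)) (hπ : IsUnif (AK A K) π)
    (O2 : ValuationSubring ↥(FK (M' * q * q) K)), IsMid M' q hπ O2 →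
    CrossAt (AK A K) (FK (M' * q) K) (FK (M' * q * q) K) q π (alpha2 K M' q)
      (ModelDefs9.B0 A q ht) (B0 A q ht) (O1q M' q hπ) (O2q M' q hπ) (Ofam M' q hπ O2) ∧
    CrossAt (AK A K) (FK (M' * q) K) (FK (M' * q * q) K) q π (beta2 K M' q)
      (ModelDefs9.B0 A q ht) (B0 A q ht) (O1q M' q hπ) (O2q M' q hπ) (Ofam M' q hπ O2) ∧
    CrossAt (AK A K) (FK (M' * q) K) (FK (M' * q * q) K) q π (alpha2 K M' q)
      (ModelDefs9.B1 A q ht) (B1 A q ht) (O1q M' q hπ) (O2q M' q hπ) (Ofam M' q hπ O2) ∧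
    CrossAt (AK A K) (FK (M' * q) K) (FK (M' * q * q) K) q π (beta2 K M' q)
      (ModelDefs9.B1 A q ht) (B1 A q ht) (O1q M' q hπ) (O2q M' q hπ) (Ofam M' q hπ O2)

/-- **The closed-point fields `pts0`, `pts1` of `NumInputP` at the model data.** -/
def PtsItemsP : Prop :=
  ∀ (ht : tq (↥K) n e ∈ FK M' K) (π : ↥(AK A K)) (hπ : IsUnif (AK A K) π)
    (O2 : ValuationSubring ↥(FK (M' * q * q) K)), IsMid M' q hπ O2 →
    PtsAt (AK A K) (FK (M' * q * q) K) q π (B0 A q ht) (Ofam M' q hπ O2) ∧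
    PtsAt (AK A K) (FK (M' * q * q) K) q π (B1 A q ht) (Ofam M' q hπ O2)

variable {n e q M' A K}

/-- **R9 over one number field `K`.** -/
theorem ptsItemsP_of (hS2 : Fermat.Agent.ES.N34.ModelN4.ModEqItems n e q M' A K)
    (hpos : PosItemsP q M' A K) (hmodel : MultiItemsP n e q M' A K)
    (hone : OneItemsP n e q M' A K) (hcross : CrossItemsP n e q M' A K) :
    PtsItemsP n e q M' A K := by
  intro ht π hπ O2 hO2
  obtain ⟨hy0, hy1⟩ := hS2 ht
  obtain ⟨hpos3, hposmid⟩ := hpos π hπ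
  obtain ⟨hone0, hone1⟩ := hone ht π hπ O2 hO2
  obtain ⟨hα0, hβ0, hα1, hβ1⟩ := hcross ht π hπ O2 hO2
  exact pts_model ht hπ O2 hy0 hy1 hpos3 (hposmid O2 hO2) (hmodel ht π hπ O2 hO2) hone0 hone1
    hα0 hβ0 hα1 hβ1

end Model




end Fermat.Agent.ES.P36.PtsModel9
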