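/-
Program P (S36), chapter (SS)/REG, brick R6 — THE SHARED CONTRACT `EisItemsP` (ruling p42; helper29 states,
helper10 proves it in `EisModel10`, helper29 consumes it in `CrossModel29.crossItemsP_of_eis`, helper15 in
`nodeItemsP_of_eis`).  STATEMENT FILE: definitions only (plus the localised degeneracy map `locHom`).

Vocabulary of `PtsAsm9`: two levels `F' —φ,ψ→ F` (`φ ψ : F' →+* F` the two degeneracy maps), charts
`B' ⊂ F'`, `B ⊂ F` with `φ B' ⊂ B`, `ψ B' ⊂ B`; `𝔪` a closed point of `B` over `π`; `𝔫 = contract φ B' B hφB 𝔪`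
its contraction along `φ`, `S = B'_𝔫 = locSub B' 𝔫`, `C = B_𝔪 = locSub B 𝔪`.  `W1 W2` are the two vertical
valuation rings of `F'`; along `φ` TWO of the three vertical rings of `F` lie over `W1` and ONE, `Vfar`,
lies over `W2` (table G2: for `φ = α₂`: `(W1, W2, Vfar) = (O1q, O2q, O₃)`; for `φ = β₂` the mirror
`(W1, W2, Vfar) = (O2q, O1q, O₁)`).

* `locHom φ B' 𝔫 B 𝔪 hφB hcontr : B'_𝔫 →+* B_𝔪` : `φ` localised;
* `EisData …  x y s s' c c' z` : at a closed point `𝔪` whose `φ`-contraction `𝔫` is a crossing point: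
  - pass-through facts of level `q` (`noeth frac unif1 unif2 pi_nonunit1 pi_nonunit2 nmax hSW1 hSW2`;
    `nmax` : the contraction `𝔫` is maximal; `hSW_j` = `NodeRegChart10.locSub_le`),
  - the output of R3 = `NodeRegChart10.nodeReg_chart` at `𝔫` (`hmax hx hy hxy hyx hO2 hO1 hprod`; `x` = local
    equation of the branch `W2`, `y` = of the branch `W1`),
  - the node-level inputs of `TripleKron10.tripleNode_of_kron` (`hc hc' hs hs' hgen1 hgen2`; in the model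
    `s = α u₀`, `c = β v₀`, `s' = β u₁`, `c' = α v₁`),
  - its conclusion `hEis : 𝔪_C = (φ s, ψ z)` and `hint : C` integral over `S` (`z = β v₁ ∈ B'`),
  - `hK` : the Kronecker relation `φ s' − (ψ z)^q ∈ π · Vfar` (= `K2u₁` pushed along `ψ`, `φ ∘ β = ψ ∘ α`);
* `EisAt q π φ ψ B' B W1 W2 Vfar` : `EisData` exists at every such `𝔪`;
* `EisItemsP n e q M' A K` : `EisAt` at the model data (`ModelDefsP9` names), both charts, both sides.
-/
import Mathlib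
import Fermat.Agent.ES.P36.PtsModel9

set_option autoImplicit false
set_option linter.unusedSectionVars false
set_option synthInstance.maxHeartbeats 400000

open HahnSeries ModularCurve

noncomputable section

namespace Fermat.Agent.ES.P36.EisItems29

open IsLocalRing Fermat.Agent.ES.N34.NodalCore13 Fermat.Agent.ES.N34.NodalSmooth13
  Fermat.Agent.ES.P36.PtsAsm9

/-! ### The local homomorphism `B'_𝔫 → B_𝔪` -/

section Generic

variable {R F' F : Type*} [CommRing R] [Field F'] [Field F] [Algebra R F'] [Algebra R F]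

theorem map_mem_locSub (φ : F' →+* F) (B' : Subalgebra R F') (𝔫 : Ideal B') [h𝔫 : 𝔫.IsPrime]
    (B : Subalgebra R F) (𝔪 : Ideal B) [h𝔪 : 𝔪.IsPrime]
    (hφB : ∀ b ∈ B', φ b ∈ B)
    (hcontr : ∀ b : B', (⟨φ b, hφB b b.2⟩ : B) ∈ 𝔪 → b ∈ 𝔫)
    {z : F'} (hz : z ∈ locSub B' 𝔫) : φ z ∈ locSub B 𝔪 := by
  obtain ⟨a, d, hd, had⟩ := hz
  refine ⟨⟨φ a, hφB a a.2⟩, ⟨φ d, hφB d d.2⟩, fun h => hd (hcontr d h), ?_⟩
  show φ z * φ (d : F') = φ (a : F')
  rw [← map_mul, had]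

/-- `φ` localised: `B'_𝔫 →+* B_𝔪`. -/
def locHom (φ : F' →+* F) (B' : Subalgebra R F') (𝔫 : Ideal B') [h𝔫 : 𝔫.IsPrime]
    (B : Subalgebra R F) (𝔪 : Ideal B) [h𝔪 : 𝔪.IsPrime]
    (hφB : ∀ b ∈ B', φ b ∈ B)
    (hcontr : ∀ b : B', (⟨φ b, hφB b b.2⟩ : B) ∈ 𝔪 → b ∈ 𝔫) :
    ↥(locSub B' 𝔫) →+* ↥(locSub B 𝔪) where
  toFun z := ⟨φ (z : F'), map_mem_locSub φ B' 𝔫 B 𝔪 hφB hcontr z.2⟩
  map_one' := Subtype.ext (by simp)
  map_mul' a b := Subtype.ext (by simp)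
  map_zero' := Subtype.ext (by simp)
  map_add' a b := Subtype.ext (by simp)

@[simp] theorem coe_locHom (φ : F' →+* F) (B' : Subalgebra R F') (𝔫 : Ideal B') [h𝔫 : 𝔫.IsPrime]
    (B : Subalgebra R F) (𝔪 : Ideal B) [h𝔪 : 𝔪.IsPrime]
    (hφB : ∀ b ∈ B', φ b ∈ B)
    (hcontr : ∀ b : B', (⟨φ b, hφB b b.2⟩ : B) ∈ 𝔪 → b ∈ 𝔫) (z : ↥(locSub B' 𝔫)) :
    ((locHom φ B' 𝔫 B 𝔪 hφB hcontr z : ↥(locSub B 𝔪)) : F) = φ (z : F') := rfl

/-! ### The contract for one chart and one side -/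

/-- **The Eisenstein data at a closed point `𝔪` of `B` whose `φ`-contraction is a crossing point**
(see the file header). -/
structure EisData (q : ℕ) (π : R) (φ ψ : F' →+* F) (B' : Subalgebra R F') (B : Subalgebra R F)
    (hφB : ∀ b ∈ B', φ b ∈ B) (hψB : ∀ b ∈ B', ψ b ∈ B) (𝔪 : Ideal ↥B) [𝔪.IsPrime]
    (W1 W2 : ValuationSubring F') (Vfar : ValuationSubring F)
    (x y s s' c c' : ↥(locSub B' (contract φ B' B hφB 𝔪))) (z : ↥B') : Prop where
  /-- pass-through: the chart of level `q` is noetherian -/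
  noeth : IsNoetherianRing ↥B'
  /-- pass-through: `F'` is the fraction field of `B'` -/
  frac : ∀ a : F', ∃ n ∈ B', ∃ d ∈ B', d ≠ 0 ∧ a * d = n
  /-- pass-through: `π` is a uniformiser of `W1`, `W2` -/
  unif1 : ∀ a ∈ W1, a⁻¹ ∉ W1 → ∃ o ∈ W1, a = algebraMap R F' π * o
  unif2 : ∀ a ∈ W2, a⁻¹ ∉ W2 → ∃ o ∈ W2, a = algebraMap R F' π * o
  pi_nonunit1 : (algebraMap R F' π)⁻¹ ∉ W1
  pi_nonunit2 : (algebraMap R F' π)⁻¹ ∉ W2
  /-- the contraction is a closed point of `B'` (`B` integral over `φ B'`; consumed by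
  `NodeModel15.CrossIntAt`) -/
  nmax : (contract φ B' B hφB 𝔪).IsMaximal
  /-- `S ⊆ W1`, `S ⊆ W2` (`NodeRegChart10.locSub_le`) -/
  hSW1 : ∀ a ∈ locSub B' (contract φ B' B hφB 𝔪), a ∈ W1
  hSW2 : ∀ a ∈ locSub B' (contract φ B' B hφB 𝔪), a ∈ W2
  /-- R3 at the node (`NodeRegChart10.nodeReg_chart`) -/
  hmax : maximalIdeal ↥(locSub B' (contract φ B' B hφB 𝔪)) = Ideal.span {x, y}
  hx : Prime x
  hy : Prime y
  hxy : ¬ x ∣ y
  hyx : ¬ y ∣ x
  hO2 : ∀ a : ↥(locSub B' (contract φ B' B hφB 𝔪)),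
    (∃ o ∈ W2, (a : F') = algebraMap R F' π * o) ↔ x ∣ a
  hO1 : ∀ a : ↥(locSub B' (contract φ B' B hφB 𝔪)),
    (∃ o ∈ W1, (a : F') = algebraMap R F' π * o) ↔ y ∣ a
  hprod : ∃ e : ↥(locSub B' (contract φ B' B hφB 𝔪)), IsUnit e ∧
    x * y = algebraMap R ↥(locSub B' (contract φ B' B hφB 𝔪)) π * e
  /-- the node-level inputs of `TripleKron10.tripleNode_of_kron` -/
  hc : c ∈ maximalIdeal ↥(locSub B' (contract φ B' B hφB 𝔪))
  hc' : c' ∈ maximalIdeal ↥(locSub B' (contract φ B' B hφB 𝔪))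
  hs : x ∣ s - c ^ q
  hs' : y ∣ s' - c' ^ q
  hgen1 : maximalIdeal ↥(locSub B' (contract φ B' B hφB 𝔪)) ≤ Ideal.span {y} ⊔ Ideal.span {s}
  hgen2 : maximalIdeal ↥(locSub B' (contract φ B' B hφB 𝔪)) ≤ Ideal.span {x} ⊔ Ideal.span {s'}
  /-- the Eisenstein step (`TripleKron10.tripleNode_of_kron`, first clause) -/
  hEis : maximalIdeal ↥(locSub B 𝔪) =
    Ideal.span {locHom φ B' (contract φ B' B hφB 𝔪) B 𝔪 hφB (fun _ h => h) s,
      (⟨ψ (z : F'), le_locSub B 𝔪 (hψB _ z.2)⟩ : ↥(locSub B 𝔪))}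
  /-- `C` is integral over `S` along `φ` (`tripleNode_of_kron`, third clause, instance-free form) -/
  hint : ∀ w ∈ locSub B 𝔪,
    (φ.comp (algebraMap ↥(locSub B' (contract φ B' B hφB 𝔪)) F')).IsIntegralElem w
  /-- the Kronecker relation on the far component -/
  hK : ∃ o ∈ Vfar, φ (s' : F') - ψ (z : F') ^ q = algebraMap R F π * o

/-- **CONTRACT for one chart and one side**: `EisData` at every closed point over `π` whose
`φ`-contraction is a crossing point of level `q`. -/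
def EisAt (q : ℕ) (π : R) (φ ψ : F' →+* F) (B' : Subalgebra R F') (B : Subalgebra R F)
    (W1 W2 : ValuationSubring F') (Vfar : ValuationSubring F) : Prop :=
  ∀ (hφB : ∀ b ∈ B', φ b ∈ B) (hψB : ∀ b ∈ B', ψ b ∈ B) (𝔪 : Ideal ↥B) (h𝔪 : 𝔪.IsMaximal),
    algebraMap R ↥B π ∈ 𝔪 →
    ¬ OffBranch π B' W1 (contract φ B' B hφB 𝔪) →
    ¬ OffBranch π B' W2 (contract φ B' B hφB 𝔪) →
    ∃ (x y s s' c c' : ↥(@locSub R F' _ _ _ B' (contract φ B' B hφB 𝔪)
        (@contract_isPrime R F' F _ _ _ _ _ φ B' B hφB 𝔪 h𝔪.isPrime))) (z : ↥B'),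
      @EisData R F' F _ _ _ _ _ q π φ ψ B' B hφB hψB 𝔪 h𝔪.isPrime W1 W2 Vfar x y s s' c c' z

end Generic

/-! ### The per-`K` package -/

section Model

open Fermat.Agent.RED.Interface4 Fermat.Agent.RED.PUR.GaussGen8 Fermat.Agent.RED.BASE.EtaQuot12
  Fermat.Agent.ES.N34 Fermat.Agent.ES.P36.ModelDefsP9

variable (n e q M' : ℕ) [NeZero n] [NeZero M'] [NeZero q] (A : ValuationSubring Qbar)
  (K : IntermediateField ℚ Qbar)

set_option maxHeartbeats 2000000 in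
/-- **The shared contract of R6 at the model data** (`ModelDefsP9` names): for both charts and both
degeneracy maps, `EisAt`.  Along `α₂` the rings `O₁, O₂` lie over `O1q` and `O₃` over `O2q`
(`(W1, W2, Vfar) = (O1q, O2q, O₃)`); along `β₂` the rings `O₂, O₃` lie over `O2q` and `O₁` over `O1q`
(`(W1, W2, Vfar) = (O2q, O1q, O₁)`). -/
def EisItemsP : Prop :=
  ∀ (ht : tq (↥K) n e ∈ FK M' K) (π : ↥(AK A K)) (hπ : IsUnif (AK A K) π)
    (O2 : ValuationSubring ↥(FK (M' * q * q) K)), IsMid M' q hπ O2 →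
    EisAt q π (alpha2 K M' q).toRingHom (beta2 K M' q).toRingHom
      (ModelDefs9.B0 A q ht) (B0 A q ht) (O1q M' q hπ) (O2q M' q hπ) (Ofam M' q hπ O2 2) ∧
    EisAt q π (beta2 K M' q).toRingHom (alpha2 K M' q).toRingHom
      (ModelDefs9.B0 A q ht) (B0 A q ht) (O2q M' q hπ) (O1q M' q hπ) (Ofam M' q hπ O2 0) ∧
    EisAt q π (alpha2 K M' q).toRingHom (beta2 K M' q).toRingHom
      (ModelDefs9.B1 A q ht) (B1 A q ht) (O1q M' q hπ) (O2q M' q hπ) (Ofam M' q hπ O2 2) ∧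
    EisAt q π (beta2 K M' q).toRingHom (alpha2 K M' q).toRingHom
      (ModelDefs9.B1 A q ht) (B1 A q ht) (O2q M' q hπ) (O1q M' q hπ) (Ofam M' q hπ O2 0)

end Model

end Fermat.Agent.ES.P36.EisItems29
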