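/-
S36 scouting (helper26): the ABSTRACT EISENSTEIN STEP of the closed-point chapter (SS).

`S` a noetherian local domain with `𝔪_S = (x, y)`, `y` prime, `y ∤ x` (the local ring of the level-`q`
model at a crossing point, regular by the discriminant argument), `H ∈ S[X]` monic of degree `n ≥ 1`
with all lower coefficients in `𝔪_S` and `H(0) ≡ u·x mod 𝔪_S²`, `u` a unit.  Then `S' := S[X]/(H)` is a
noetherian local domain, `𝔪_{S'} = (y, z)` (`z` the class of `X`), `z` is prime and `S'/(z)` is a discrete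
valuation ring with uniformiser the class of `y`.  Hence `RED/CORE/LocalUFD15` applies to `S'` with
`π := z`.  Mathlib only.
-/
import Mathlib
import Fermat.Agent.RED.CORE.LocalUFD15

set_option autoImplicit false
set_option linter.unusedSectionVars false
set_option linter.style.haveILetI false

namespace Fermat.Agent.ES.P36.EisStep26

open IsLocalRing Polynomial

/-! ### (E0) local noetherian rings with principal maximal ideal -/

section E0

variable {R : Type*} [CommRing R] [IsLocalRing R] [IsNoetherianRing R]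

/-- Every nonzero element is a unit times a power of the generator of the maximal ideal. -/
theorem exists_unit_mul_pow {t : R} (ht : maximalIdeal R = Ideal.span {t}) {a : R} (ha : a ≠ 0) :
    ∃ (n : ℕ) (u : R), IsUnit u ∧ a = u * t ^ n := by
  classical
  have hkrull : (⨅ n : ℕ, maximalIdeal R ^ n) = ⊥ :=
    Ideal.iInf_pow_eq_bot_of_isLocalRing _ (Ideal.IsMaximal.ne_top inferInstance)
  have hex : ∃ n : ℕ, a ∉ maximalIdeal R ^ n := by
    by_contra hcon
    push Not at hcon
    have : a ∈ (⨅ n : ℕ, maximalIdeal R ^ n) := (Ideal.mem_iInf).2 hcon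
    rw [hkrull] at this
    exact ha this
  set n := Nat.find hex with hn
  have hn_spec : a ∉ maximalIdeal R ^ n := Nat.find_spec hex
  have hn0 : n ≠ 0 := by
    intro h0
    rw [h0, pow_zero, Ideal.one_eq_top] at hn_spec
    exact hn_spec (Submodule.mem_top)
  obtain ⟨i, hi⟩ : ∃ i, n = i + 1 := ⟨n - 1, by omega⟩
  have hmem : a ∈ maximalIdeal R ^ i := by
    by_contra hnot
    have : n ≤ i := Nat.find_min' hex hnot
    omega
  rw [ht, Ideal.span_singleton_pow, Ideal.mem_span_singleton] at hmem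
  obtain ⟨b, hb⟩ := hmem
  refine ⟨i, b, ?_, by rw [hb]; ring⟩
  by_contra hbu
  have hbm : b ∈ maximalIdeal R := (IsLocalRing.mem_maximalIdeal b).2 hbu
  apply hn_spec
  rw [hi, pow_succ, hb]
  refine Ideal.mul_mem_mul ?_ hbm
  rw [ht, Ideal.span_singleton_pow]
  exact Ideal.mem_span_singleton_self _

/-- A noetherian local ring whose maximal ideal is generated by one non-nilpotent element has no
zero divisors. -/
theorem noZeroDivisors_of_span_singleton {t : R} (ht : maximalIdeal R = Ideal.span {t})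
    (hnil : ∀ N : ℕ, t ^ N ≠ 0) : NoZeroDivisors R := by
  refine ⟨fun {a b} hab => ?_⟩
  by_contra hcon
  push Not at hcon
  obtain ⟨n, u, hu, rfl⟩ := exists_unit_mul_pow ht hcon.1
  obtain ⟨m, v, hv, rfl⟩ := exists_unit_mul_pow ht hcon.2
  have h1 : (u * v) * t ^ (n + m) = 0 := by rw [← hab, pow_add]; ring
  have h2 : t ^ (n + m) = 0 := by
    have := (hu.mul hv).mul_right_eq_zero.1 h1
    exact this
  exact hnil _ h2

theorem isDomain_of_span_singleton {t : R} (ht : maximalIdeal R = Ideal.span {t})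
    (hnil : ∀ N : ℕ, t ^ N ≠ 0) : IsDomain R := by
  have := noZeroDivisors_of_span_singleton ht hnil
  exact NoZeroDivisors.to_isDomain R

/-- ... and it is a discrete valuation ring. -/
theorem isDVR_of_span_singleton [IsDomain R] {t : R} (ht : maximalIdeal R = Ideal.span {t})
    (hnil : ∀ N : ℕ, t ^ N ≠ 0) : IsDiscreteValuationRing R := by
  have hprinc : (maximalIdeal R).IsPrincipal := ⟨⟨t, ht⟩⟩
  have hpir : IsPrincipalIdealRing R :=
    ((tfae_of_isNoetherianRing_of_isLocalRing_of_isDomain R).out 4 0).1 hprinc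
  refine { not_a_field' := ?_ }
  intro hbot
  have : t = 0 := by
    have h1 : t ∈ maximalIdeal R := by rw [ht]; exact Ideal.mem_span_singleton_self t
    rw [hbot] at h1
    exact h1
  exact hnil 1 (by rw [this, pow_one])

end E0


/-! ### The base ring: normal form of `H(0)` and non-divisibility of powers of `y` -/

section Base

variable {S : Type*} [CommRing S] [IsDomain S] [IsLocalRing S]

/-- `𝔪² ⊆ x·𝔪 + (y²)` when `𝔪 = (x, y)`; hence `a ≡ u x mod 𝔪²` gives `a = u' x + γ y²`. -/
theorem exists_normal_form {x y a : S} (hm : maximalIdeal S = Ideal.span {x, y})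
    (h0 : ∃ u, IsUnit u ∧ a - u * x ∈ maximalIdeal S ^ 2) :
    ∃ u' γ : S, IsUnit u' ∧ a = u' * x + γ * y ^ 2 := by
  obtain ⟨u, hu, hmem⟩ := h0
  rw [hm, pow_two, Ideal.span_pair_mul_span_pair] at hmem
  obtain ⟨c1, r1, hr1, e1⟩ := Ideal.mem_span_insert.1 hmem
  obtain ⟨c2, r2, hr2, e2⟩ := Ideal.mem_span_insert.1 hr1
  obtain ⟨c3, r3, hr3, e3⟩ := Ideal.mem_span_insert.1 hr2
  obtain ⟨c4, e4⟩ := Ideal.mem_span_singleton'.1 hr3
  have hx : x ∈ maximalIdeal S := by rw [hm]; exact Ideal.subset_span (by simp)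
  have hy : y ∈ maximalIdeal S := by rw [hm]; exact Ideal.subset_span (by simp)
  refine ⟨u + (c1 * x + (c2 + c3) * y), c4, ?_, ?_⟩
  · by_contra hnu
    have h1 : u + (c1 * x + (c2 + c3) * y) ∈ maximalIdeal S :=
      (IsLocalRing.mem_maximalIdeal _).2 hnu
    have h2 : c1 * x + (c2 + c3) * y ∈ maximalIdeal S :=
      Ideal.add_mem _ (Ideal.mul_mem_left _ _ hx) (Ideal.mul_mem_left _ _ hy)
    have h3 : u ∈ maximalIdeal S := by
      have := Ideal.sub_mem _ h1 h2
      simpa using this
    exact (IsLocalRing.mem_maximalIdeal _).1 h3 hu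
  · have : a = u * x + (c1 * (x * x) + (c2 * (x * y) + (c3 * (y * x) + c4 * (y * y)))) := by
      rw [e4, ← e3, ← e2, ← e1]; ring
    rw [this]; ring

/-- `u' x + γ y²` divides no power of `y` (and is nonzero) if `y` is prime and `y ∤ x`. -/
theorem not_dvd_pow {x y u' γ : S} (hy : Prime y) (hxy : ¬ y ∣ x) (hu' : IsUnit u')
    (hnu : ¬ IsUnit (u' * x + γ * y ^ 2)) : ∀ N : ℕ, ¬ (u' * x + γ * y ^ 2) ∣ y ^ N := by
  intro N
  induction N with
  | zero =>
    intro h
    rw [pow_zero] at h
    exact hnu (isUnit_of_dvd_one h)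
  | succ N ih =>
    rintro ⟨s, hs⟩
    -- `y ∣ u' x s`
    have h1 : y ∣ u' * x * s := by
      have : u' * x * s = y ^ (N + 1) - γ * y ^ 2 * s := by rw [hs]; ring
      rw [this]
      exact dvd_sub (dvd_pow_self y (Nat.succ_ne_zero N))
        (Dvd.intro_left (γ * y * s) (by ring))
    have h2 : y ∣ s := by
      rcases hy.dvd_or_dvd h1 with h | h
      · rcases hy.dvd_or_dvd h with h' | h'
        · exact absurd (isUnit_of_dvd_unit h' hu') hy.not_isUnit
        · exact absurd h' hxy
      · exact h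
    obtain ⟨s1, rfl⟩ := h2
    apply ih
    refine ⟨s1, ?_⟩
    have hy0 : y ≠ 0 := hy.ne_zero
    have : y * y ^ N = y * ((u' * x + γ * y ^ 2) * s1) := by
      rw [← pow_succ', hs]; ring
    exact mul_left_cancel₀ hy0 this

theorem normal_form_ne_zero {x y u' γ : S} (hy : Prime y) (hxy : ¬ y ∣ x) (hu' : IsUnit u') :
    u' * x + γ * y ^ 2 ≠ 0 := by
  intro h
  have h1 : y ∣ u' * x := by
    have : u' * x = -(γ * y ^ 2) := by linear_combination h
    rw [this]
    exact (Dvd.intro_left (γ * y) (by ring)).neg_right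
  rcases hy.dvd_or_dvd h1 with h' | h'
  · exact absurd (isUnit_of_dvd_unit h' hu') hy.not_isUnit
  · exact absurd h' hxy

end Base


/-! ### The Eisenstein extension `S' = S[X]/(H)` -/

section Eis

variable {S : Type*} [CommRing S] [IsDomain S] [IsLocalRing S] [IsNoetherianRing S]
variable {H : S[X]}

local notation "S'" => AdjoinRoot H
local notation "ι" => AdjoinRoot.of H
local notation "z" => AdjoinRoot.root H

/-- the residue map `S' → k`, `X ↦ 0`. -/
noncomputable def resHom (h0 : H.coeff 0 ∈ maximalIdeal S) : AdjoinRoot H →+* ResidueField S :=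
  AdjoinRoot.lift (IsLocalRing.residue S) 0 (by
    rw [Polynomial.eval₂_at_zero]
    exact (IsLocalRing.residue_eq_zero_iff _).2 h0)

theorem resHom_of (h0 : H.coeff 0 ∈ maximalIdeal S) (c : S) :
    resHom h0 (AdjoinRoot.of H c) = IsLocalRing.residue S c := by
  simp [resHom]

theorem resHom_root (h0 : H.coeff 0 ∈ maximalIdeal S) : resHom h0 (AdjoinRoot.root H) = 0 := by
  simp [resHom]

theorem resHom_mk (h0 : H.coeff 0 ∈ maximalIdeal S) (A : S[X]) :
    resHom h0 (AdjoinRoot.mk H A) = IsLocalRing.residue S (A.coeff 0) := by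
  simp [resHom, Polynomial.eval₂_at_zero]

theorem resHom_surjective (h0 : H.coeff 0 ∈ maximalIdeal S) :
    Function.Surjective (resHom (H := H) h0) := by
  intro c
  obtain ⟨s, rfl⟩ := IsLocalRing.residue_surjective c
  exact ⟨AdjoinRoot.of H s, resHom_of h0 s⟩

/-- every element is a constant plus a multiple of the root. -/
theorem exists_eq_of_add_root_mul (a : AdjoinRoot H) :
    ∃ (c : S) (b : AdjoinRoot H), a = AdjoinRoot.of H c + AdjoinRoot.root H * b := by
  obtain ⟨A, rfl⟩ := AdjoinRoot.mk_surjective a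
  refine ⟨A.coeff 0, AdjoinRoot.mk H A.divX, ?_⟩
  conv_lhs => rw [← Polynomial.divX_mul_X_add A]
  rw [map_add, map_mul, AdjoinRoot.mk_X, AdjoinRoot.mk_C]
  ring

/-- kernel of the residue map. -/
theorem ker_resHom (h0 : H.coeff 0 ∈ maximalIdeal S) :
    RingHom.ker (resHom (H := H) h0) =
      Ideal.map (AdjoinRoot.of H) (maximalIdeal S) ⊔ Ideal.span {AdjoinRoot.root H} := by
  apply le_antisymm
  · intro a ha
    obtain ⟨c, b, rfl⟩ := exists_eq_of_add_root_mul a
    rw [RingHom.mem_ker, map_add, map_mul, resHom_root, zero_mul, add_zero, resHom_of,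
      IsLocalRing.residue_eq_zero_iff] at ha
    refine Ideal.add_mem _ (Ideal.mem_sup_left (Ideal.mem_map_of_mem _ ha))
      (Ideal.mem_sup_right (Ideal.mem_span_singleton'.2 ⟨b, by ring⟩))
  · rw [sup_le_iff]
    constructor
    · rw [Ideal.map_le_iff_le_comap]
      intro c hc
      rw [Ideal.mem_comap, RingHom.mem_ker, resHom_of, IsLocalRing.residue_eq_zero_iff]
      exact hc
    · rw [Ideal.span_le, Set.singleton_subset_iff]
      exact resHom_root h0


/-- `root ^ n ∈ 𝔪 S'` when all lower coefficients of the monic `H` lie in `𝔪`. -/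
theorem root_pow_mem_map (hmonic : H.Monic)
    (hH : ∀ i < H.natDegree, H.coeff i ∈ maximalIdeal S) :
    (AdjoinRoot.root H) ^ H.natDegree ∈ Ideal.map (AdjoinRoot.of H) (maximalIdeal S) := by
  have h1 : AdjoinRoot.mk H H = 0 := AdjoinRoot.mk_self
  have h2 : AdjoinRoot.mk H H = AdjoinRoot.mk H
      (X ^ H.natDegree + ∑ i ∈ Finset.range H.natDegree, C (H.coeff i) * X ^ i) :=
    congrArg (AdjoinRoot.mk H) hmonic.as_sum
  rw [h1, map_add, map_pow, AdjoinRoot.mk_X, map_sum] at h2
  have h3 : (AdjoinRoot.root H) ^ H.natDegree =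
      -∑ i ∈ Finset.range H.natDegree, AdjoinRoot.mk H (C (H.coeff i) * X ^ i) := by
    linear_combination -h2
  rw [h3]
  refine Ideal.neg_mem_iff _ |>.2 (Ideal.sum_mem _ fun i hi => ?_)
  rw [map_mul, AdjoinRoot.mk_C]
  exact Ideal.mul_mem_right _ _ (Ideal.mem_map_of_mem _ (hH i (Finset.mem_range.1 hi)))

/-- every maximal ideal of `S'` contains `𝔪 S' + (root)`. -/
theorem ker_le_of_isMaximal (hmonic : H.Monic) (hdeg : 0 < H.natDegree)
    (hH : ∀ i < H.natDegree, H.coeff i ∈ maximalIdeal S)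
    (M : Ideal (AdjoinRoot H)) [hM : M.IsMaximal] :
    RingHom.ker (resHom (H := H) (hH 0 hdeg)) ≤ M := by
  haveI : Module.Finite S (AdjoinRoot H) := hmonic.finite_adjoinRoot
  haveI : Algebra.IsIntegral S (AdjoinRoot H) := Algebra.IsIntegral.of_finite S _
  have hcomap : (M.comap (algebraMap S (AdjoinRoot H))).IsMaximal :=
    Ideal.isMaximal_comap_of_isIntegral_of_isMaximal M
  have hcm : M.comap (algebraMap S (AdjoinRoot H)) = maximalIdeal S :=
    IsLocalRing.eq_maximalIdeal hcomap
  have hmap : Ideal.map (AdjoinRoot.of H) (maximalIdeal S) ≤ M := by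
    rw [Ideal.map_le_iff_le_comap, ← hcm]
    rfl
  rw [ker_resHom, sup_le_iff]
  refine ⟨hmap, ?_⟩
  rw [Ideal.span_le, Set.singleton_subset_iff]
  exact hM.isPrime.mem_of_pow_mem _ (hmap (root_pow_mem_map hmonic hH))

/-- **(E1)** `S'` is local. -/
theorem isLocalRing (hmonic : H.Monic) (hdeg : 0 < H.natDegree)
    (hH : ∀ i < H.natDegree, H.coeff i ∈ maximalIdeal S) : IsLocalRing (AdjoinRoot H) := by
  have hmax : (RingHom.ker (resHom (H := H) (hH 0 hdeg))).IsMaximal :=
    RingHom.ker_isMaximal_of_surjective _ (resHom_surjective _)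
  refine IsLocalRing.of_unique_max_ideal ⟨_, hmax, fun M hM => ?_⟩
  haveI := hM
  exact (hmax.eq_of_le hM.ne_top (ker_le_of_isMaximal hmonic hdeg hH M)).symm

theorem maximalIdeal_eq_ker (hdeg : 0 < H.natDegree)
    (hH : ∀ i < H.natDegree, H.coeff i ∈ maximalIdeal S) [IsLocalRing (AdjoinRoot H)] :
    maximalIdeal (AdjoinRoot H) = RingHom.ker (resHom (H := H) (hH 0 hdeg)) := by
  have hmax : (RingHom.ker (resHom (H := H) (hH 0 hdeg))).IsMaximal :=
    RingHom.ker_isMaximal_of_surjective _ (resHom_surjective _)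
  exact (IsLocalRing.eq_maximalIdeal hmax).symm


/-- `ι (H(0)) = - root * (H / X)`. -/
theorem of_coeff_zero_eq : AdjoinRoot.of H (H.coeff 0) =
    -(AdjoinRoot.root H * AdjoinRoot.mk H H.divX) := by
  have h1 : AdjoinRoot.mk H H = 0 := AdjoinRoot.mk_self
  have h2 : AdjoinRoot.mk H H = AdjoinRoot.mk H (H.divX * X + C (H.coeff 0)) :=
    congrArg (AdjoinRoot.mk H) (Polynomial.divX_mul_X_add H).symm
  rw [h1, map_add, map_mul, AdjoinRoot.mk_X, AdjoinRoot.mk_C] at h2
  linear_combination -h2

/-- **(E3)** `𝔪_{S'} = (y, root)`. -/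
theorem maximalIdeal_eq_span_pair {x y : S} (hm : maximalIdeal S = Ideal.span {x, y})
    (hdeg : 0 < H.natDegree)
    (hH : ∀ i < H.natDegree, H.coeff i ∈ maximalIdeal S)
    (h0 : ∃ u, IsUnit u ∧ H.coeff 0 - u * x ∈ maximalIdeal S ^ 2)
    [IsLocalRing (AdjoinRoot H)] :
    maximalIdeal (AdjoinRoot H) = Ideal.span {AdjoinRoot.of H y, AdjoinRoot.root H} := by
  obtain ⟨u', γ, hu', hnf⟩ := exists_normal_form hm h0
  rw [maximalIdeal_eq_ker hdeg hH, ker_resHom, hm, Ideal.map_span, Set.image_pair]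
  apply le_antisymm
  · rw [sup_le_iff]
    refine ⟨?_, Ideal.span_mono (by simp)⟩
    rw [Ideal.span_le]
    rintro a (rfl | rfl)
    · -- `ι x ∈ (ι y, root)`
      obtain ⟨v, hv⟩ := hu'.exists_left_inv
      have hx : AdjoinRoot.of H x = AdjoinRoot.of H v *
          (AdjoinRoot.of H (H.coeff 0) - AdjoinRoot.of H γ * AdjoinRoot.of H y ^ 2) := by
        rw [hnf]
        simp only [map_add, map_mul, map_pow]
        have hv' : AdjoinRoot.of H v * AdjoinRoot.of H u' = 1 := by
          rw [← map_mul, hv, map_one]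
        linear_combination (-(AdjoinRoot.of H x)) * hv'
      rw [SetLike.mem_coe, hx, of_coeff_zero_eq]
      refine Ideal.mul_mem_left _ _ (Ideal.sub_mem _ ?_ ?_)
      · exact (Ideal.neg_mem_iff _).2
          (Ideal.mul_mem_right _ _ (Ideal.subset_span (by simp)))
      · rw [pow_two, ← mul_assoc]
        exact Ideal.mul_mem_left _ _ (Ideal.subset_span (by simp))
    · exact Ideal.subset_span (by simp)
  · rw [Ideal.span_le]
    rintro a (rfl | rfl)
    · exact Ideal.mem_sup_left (Ideal.subset_span (by simp))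
    · exact Ideal.mem_sup_right (Ideal.subset_span (by simp))

/-- a constant divisible by the root is divisible by `H(0)` (evaluate at `0`). -/
theorem coeff_zero_dvd_of_root_dvd {c : S}
    (h : AdjoinRoot.root H ∣ AdjoinRoot.of H c) : H.coeff 0 ∣ c := by
  obtain ⟨b, hb⟩ := h
  obtain ⟨B, rfl⟩ := AdjoinRoot.mk_surjective b
  have h1 : AdjoinRoot.mk H (C c - X * B) = 0 := by
    rw [map_sub, map_mul, AdjoinRoot.mk_C, AdjoinRoot.mk_X, hb, sub_self]
  obtain ⟨Q, hQ⟩ := AdjoinRoot.mk_eq_zero.1 h1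
  refine ⟨Q.coeff 0, ?_⟩
  have := congrArg (fun P : S[X] => P.coeff 0) hQ
  simpa [Polynomial.mul_coeff_zero] using this

/-- the root is not a zero divisor when `H` is monic of positive degree and `H(0) ≠ 0`. -/
theorem root_mul_eq_zero (hmonic : H.Monic) (h00 : H.coeff 0 ≠ 0)
    {a : AdjoinRoot H} (ha : AdjoinRoot.root H * a = 0) : a = 0 := by
  obtain ⟨A, rfl⟩ := AdjoinRoot.mk_surjective a
  -- reduce `A` modulo `H`
  have hA : AdjoinRoot.mk H A = AdjoinRoot.mk H (A %ₘ H) := by
    rw [AdjoinRoot.mk_eq_mk]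
    refine ⟨A /ₘ H, ?_⟩
    have := Polynomial.modByMonic_add_div A H
    linear_combination -this
  rw [hA] at ha ⊢
  set A' := A %ₘ H with hA'
  have hdegA : A'.degree < H.degree := Polynomial.degree_modByMonic_lt A hmonic
  have h1 : AdjoinRoot.mk H (X * A') = 0 := by
    rw [map_mul, AdjoinRoot.mk_X]; exact ha
  obtain ⟨Q, hQ⟩ := AdjoinRoot.mk_eq_zero.1 h1
  by_cases hA0 : A' = 0
  · rw [hA0, map_zero]
  exfalso
  -- degree count: `Q` is a constant
  have hH0 : H ≠ 0 := hmonic.ne_zero
  have hQ0 : Q ≠ 0 := by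
    rintro rfl
    rw [mul_zero] at hQ
    exact hA0 (by simpa using hQ)
  have hdegQ : Q.degree ≤ 0 := by
    have h2 : (X * A').degree = H.degree + Q.degree := by rw [hQ, Polynomial.degree_mul]
    rw [Polynomial.degree_mul, Polynomial.degree_X] at h2
    have h3 : (1 : WithBot ℕ) + A'.degree ≤ H.degree := by
      rw [Polynomial.degree_eq_natDegree hA0, Polynomial.degree_eq_natDegree hH0] at hdegA ⊢
      have : A'.natDegree < H.natDegree := by exact_mod_cast hdegA
      exact_mod_cast (by omega : 1 + A'.natDegree ≤ H.natDegree)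
    rw [h2] at h3
    rw [Polynomial.degree_eq_natDegree hH0, Polynomial.degree_eq_natDegree hQ0] at h3
    rw [Polynomial.degree_eq_natDegree hQ0]
    have : H.natDegree + Q.natDegree ≤ H.natDegree := by exact_mod_cast h3
    exact_mod_cast (by omega : Q.natDegree ≤ 0)
  rw [Polynomial.eq_C_of_degree_le_zero hdegQ] at hQ
  have h4 := congrArg (fun P : S[X] => P.coeff 0) hQ
  simp only [Polynomial.mul_coeff_zero, Polynomial.coeff_X_zero, zero_mul,
    Polynomial.coeff_C_zero] at h4
  have hq0 : Q.coeff 0 = 0 := by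
    rcases mul_eq_zero.1 h4.symm with h | h
    · exact absurd h h00
    · exact h
  apply hQ0
  rw [Polynomial.eq_C_of_degree_le_zero hdegQ, hq0, map_zero]


/-! ### The quotient `S'/(root)` -/

/-- maximal ideal of a quotient of a local ring by a proper ideal. -/
theorem maximalIdeal_quotient {A : Type*} [CommRing A] [IsLocalRing A] (I : Ideal A)
    [IsLocalRing (A ⧸ I)] :
    maximalIdeal (A ⧸ I) = Ideal.map (Ideal.Quotient.mk I) (maximalIdeal A) := by
  have hI : I ≠ ⊤ := by
    intro h
    have : Subsingleton (A ⧸ I) := by rw [h]; exact Ideal.Quotient.subsingleton_iff.2 rfl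
    exact not_subsingleton (A ⧸ I) this
  have hIm : I ≤ maximalIdeal A := IsLocalRing.le_maximalIdeal hI
  apply le_antisymm
  · intro t ht
    obtain ⟨a, rfl⟩ := Ideal.Quotient.mk_surjective t
    refine Ideal.mem_map_of_mem _ ((IsLocalRing.mem_maximalIdeal a).2 fun ha => ?_)
    exact (IsLocalRing.mem_maximalIdeal _).1 ht (ha.map _)
  · rw [Ideal.map_le_iff_le_comap]
    intro a ha
    rw [Ideal.mem_comap, IsLocalRing.mem_maximalIdeal]
    intro hu
    obtain ⟨t, ht⟩ := hu.exists_right_inv
    obtain ⟨b, rfl⟩ := Ideal.Quotient.mk_surjective t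
    have h1 : a * b - 1 ∈ I := by
      rw [← Ideal.Quotient.eq, map_mul, ht, map_one]
    have h2 : a * b ∈ maximalIdeal A := Ideal.mul_mem_right _ _ ha
    have h3 : (1 : A) ∈ maximalIdeal A := by
      have h4 := Ideal.sub_mem _ h2 (hIm h1)
      rwa [sub_sub_cancel] at h4
    exact (IsLocalRing.mem_maximalIdeal _).1 h3 isUnit_one

variable {x y : S}

/-- the hypotheses of the Eisenstein step, bundled. -/
structure EisHyp (x y : S) (H : S[X]) : Prop where
  hm : maximalIdeal S = Ideal.span {x, y}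
  hy : Prime y
  hxy : ¬ y ∣ x
  hmonic : H.Monic
  hdeg : 0 < H.natDegree
  hH : ∀ i < H.natDegree, H.coeff i ∈ maximalIdeal S
  h0 : ∃ u, IsUnit u ∧ H.coeff 0 - u * x ∈ maximalIdeal S ^ 2

namespace EisHyp

variable (h : EisHyp x y H)
include h

theorem isLocalRing : IsLocalRing (AdjoinRoot H) :=
  EisStep26.isLocalRing h.hmonic h.hdeg h.hH

theorem isNoetherianRing : IsNoetherianRing (AdjoinRoot H) := inferInstance

theorem finite : Module.Finite S (AdjoinRoot H) := h.hmonic.finite_adjoinRoot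

theorem free : Module.Free S (AdjoinRoot H) := h.hmonic.free_adjoinRoot

theorem coeff_zero_ne_zero : H.coeff 0 ≠ 0 := by
  obtain ⟨u', γ, hu', hnf⟩ := exists_normal_form h.hm h.h0
  rw [hnf]
  exact normal_form_ne_zero h.hy h.hxy hu'

theorem not_coeff_zero_dvd_pow (N : ℕ) : ¬ H.coeff 0 ∣ y ^ N := by
  obtain ⟨u', γ, hu', hnf⟩ := exists_normal_form h.hm h.h0
  rw [hnf]
  refine not_dvd_pow h.hy h.hxy hu' ?_ N
  rw [← hnf]
  exact (IsLocalRing.mem_maximalIdeal _).1 (h.hH 0 h.hdeg)

theorem root_not_isUnit [IsLocalRing (AdjoinRoot H)] : ¬ IsUnit (AdjoinRoot.root H) := by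
  have hmem : AdjoinRoot.root H ∈ maximalIdeal (AdjoinRoot H) := by
    rw [maximalIdeal_eq_span_pair h.hm h.hdeg h.hH h.h0]
    exact Ideal.subset_span (by simp)
  exact (IsLocalRing.mem_maximalIdeal _).1 hmem

theorem span_root_ne_top [IsLocalRing (AdjoinRoot H)] :
    Ideal.span {AdjoinRoot.root H} ≠ (⊤ : Ideal (AdjoinRoot H)) := by
  rw [Ne, Ideal.span_singleton_eq_top]
  exact h.root_not_isUnit

theorem isLocalRing_quot : IsLocalRing (AdjoinRoot H ⧸ Ideal.span {AdjoinRoot.root H}) := by
  haveI := h.isLocalRing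
  haveI : Nontrivial (AdjoinRoot H ⧸ Ideal.span {AdjoinRoot.root H}) :=
    Ideal.Quotient.nontrivial_iff.2 h.span_root_ne_top
  exact IsLocalRing.of_surjective' (Ideal.Quotient.mk _) Ideal.Quotient.mk_surjective

theorem maximalIdeal_quot [IsLocalRing (AdjoinRoot H)]
    [IsLocalRing (AdjoinRoot H ⧸ Ideal.span {AdjoinRoot.root H})] :
    maximalIdeal (AdjoinRoot H ⧸ Ideal.span {AdjoinRoot.root H}) =
      Ideal.span {Ideal.Quotient.mk (Ideal.span {AdjoinRoot.root H}) (AdjoinRoot.of H y)} := by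
  rw [maximalIdeal_quotient, maximalIdeal_eq_span_pair h.hm h.hdeg h.hH h.h0, Ideal.map_span,
    Set.image_pair]
  have : Ideal.Quotient.mk (Ideal.span {AdjoinRoot.root H}) (AdjoinRoot.root H) = 0 :=
    Ideal.Quotient.eq_zero_iff_mem.2 (Ideal.mem_span_singleton_self _)
  rw [this]
  apply le_antisymm
  · rw [Ideal.span_le]
    rintro a (rfl | rfl)
    · exact Ideal.subset_span rfl
    · exact Ideal.zero_mem _
  · exact Ideal.span_mono (by simp)

theorem quot_pow_ne_zero (N : ℕ) :
    (Ideal.Quotient.mk (Ideal.span {AdjoinRoot.root H}) (AdjoinRoot.of H y)) ^ N ≠ 0 := by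
  intro hN
  rw [← map_pow, ← map_pow, Ideal.Quotient.eq_zero_iff_mem, Ideal.mem_span_singleton] at hN
  exact h.not_coeff_zero_dvd_pow N (coeff_zero_dvd_of_root_dvd hN)

/-- **(E4a)** `S'/(root)` is a domain. -/
theorem isDomain_quot : IsDomain (AdjoinRoot H ⧸ Ideal.span {AdjoinRoot.root H}) := by
  haveI := h.isLocalRing
  haveI := h.isNoetherianRing
  haveI := h.isLocalRing_quot
  exact isDomain_of_span_singleton h.maximalIdeal_quot h.quot_pow_ne_zero

/-- **(E4b)** `S'/(root)` is a discrete valuation ring. -/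
theorem isDVR_quot [IsDomain (AdjoinRoot H ⧸ Ideal.span {AdjoinRoot.root H})] :
    IsDiscreteValuationRing (AdjoinRoot H ⧸ Ideal.span {AdjoinRoot.root H}) := by
  haveI := h.isLocalRing
  haveI := h.isNoetherianRing
  haveI := h.isLocalRing_quot
  exact isDVR_of_span_singleton h.maximalIdeal_quot h.quot_pow_ne_zero

theorem isPrincipalIdealRing_quot :
    IsPrincipalIdealRing (AdjoinRoot H ⧸ Ideal.span {AdjoinRoot.root H}) := by
  haveI := h.isDomain_quot
  haveI := h.isDVR_quot
  infer_instance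

theorem root_ne_zero : AdjoinRoot.root H ≠ 0 := by
  intro h0
  have : AdjoinRoot.root H ∣ AdjoinRoot.of H (1 : S) := by rw [h0, map_one]; exact ⟨0, by
    have h1 := @root_mul_eq_zero S _ _ _ _ H h.hmonic h.coeff_zero_ne_zero 1 (by rw [h0, zero_mul])
    rw [h1, mul_zero]⟩
  have h2 := coeff_zero_dvd_of_root_dvd this
  exact (IsLocalRing.mem_maximalIdeal _).1 (h.hH 0 h.hdeg) (isUnit_of_dvd_one h2)


theorem root_pow_mul_eq_zero (i : ℕ) {a : AdjoinRoot H}
    (ha : AdjoinRoot.root H ^ i * a = 0) : a = 0 := by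
  induction i with
  | zero => simpa using ha
  | succ i ih =>
    apply ih
    apply root_mul_eq_zero h.hmonic h.coeff_zero_ne_zero
    rw [← mul_assoc, ← pow_succ']
    exact ha

/-- factor out the exact power of the root. -/
theorem exists_root_pow_mul [IsLocalRing (AdjoinRoot H)] {a : AdjoinRoot H} (ha : a ≠ 0) :
    ∃ (i : ℕ) (a' : AdjoinRoot H), a = AdjoinRoot.root H ^ i * a' ∧ ¬ AdjoinRoot.root H ∣ a' := by
  classical
  have hkrull : (⨅ n : ℕ, Ideal.span {AdjoinRoot.root H} ^ n) = (⊥ : Ideal (AdjoinRoot H)) :=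
    Ideal.iInf_pow_eq_bot_of_isLocalRing _ h.span_root_ne_top
  have hex : ∃ n : ℕ, a ∉ Ideal.span {AdjoinRoot.root H} ^ n := by
    by_contra hcon
    push Not at hcon
    have : a ∈ (⨅ n : ℕ, Ideal.span {AdjoinRoot.root H} ^ n) := (Ideal.mem_iInf).2 hcon
    rw [hkrull] at this
    exact ha this
  have hn_spec : a ∉ Ideal.span {AdjoinRoot.root H} ^ (Nat.find hex) := Nat.find_spec hex
  have hn0 : Nat.find hex ≠ 0 := by
    intro h0
    rw [h0, pow_zero, Ideal.one_eq_top] at hn_spec
    exact hn_spec Submodule.mem_top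
  obtain ⟨i, hi⟩ : ∃ i, Nat.find hex = i + 1 := ⟨Nat.find hex - 1, by omega⟩
  have hmem : a ∈ Ideal.span {AdjoinRoot.root H} ^ i := by
    by_contra hnot
    have : Nat.find hex ≤ i := Nat.find_min' hex hnot
    omega
  rw [Ideal.span_singleton_pow, Ideal.mem_span_singleton] at hmem
  obtain ⟨a', ha'⟩ := hmem
  refine ⟨i, a', ha', ?_⟩
  rintro ⟨b, rfl⟩
  apply hn_spec
  rw [hi, Ideal.span_singleton_pow, Ideal.mem_span_singleton, ha']
  exact ⟨b, by ring⟩

/-- **(E2)** `S'` is a domain. -/
theorem isDomain : IsDomain (AdjoinRoot H) := by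
  haveI := h.isLocalRing
  haveI := h.isDomain_quot
  haveI : NoZeroDivisors (AdjoinRoot H) := by
    refine ⟨fun {a b} hab => ?_⟩
    by_contra hcon
    push Not at hcon
    obtain ⟨i, a', rfl, ha'⟩ := h.exists_root_pow_mul hcon.1
    obtain ⟨j, b', rfl, hb'⟩ := h.exists_root_pow_mul hcon.2
    have h1 : AdjoinRoot.root H ^ (i + j) * (a' * b') = 0 := by
      rw [← hab, pow_add]; ring
    have h2 : a' * b' = 0 := h.root_pow_mul_eq_zero _ h1
    have h3 : Ideal.Quotient.mk (Ideal.span {AdjoinRoot.root H}) a' *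
        Ideal.Quotient.mk (Ideal.span {AdjoinRoot.root H}) b' = 0 := by
      rw [← map_mul, h2, map_zero]
    rcases mul_eq_zero.1 h3 with h4 | h4
    · exact ha' (Ideal.mem_span_singleton.1 (Ideal.Quotient.eq_zero_iff_mem.1 h4))
    · exact hb' (Ideal.mem_span_singleton.1 (Ideal.Quotient.eq_zero_iff_mem.1 h4))
  exact NoZeroDivisors.to_isDomain _

/-- **(E4)** the root is a prime element. -/
theorem prime_root : Prime (AdjoinRoot.root H) := by
  haveI := h.isDomain_quot
  have hp : (Ideal.span {AdjoinRoot.root H}).IsPrime := Ideal.Quotient.isDomain_iff_prime _ |>.1 ‹_›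
  exact (Ideal.span_singleton_prime h.root_ne_zero).1 hp

end EisHyp

/-- **The Eisenstein step, summary.**  Under `EisHyp x y H`, the ring `S' = S[X]/(H)` is a noetherian
local domain, finite free over `S`, with `𝔪_{S'} = (y, root)`, the root is prime, and `S'/(root)` is a
principal ideal ring (indeed a DVR with uniformiser the class of `y`).  In particular the hypotheses of
`RED/CORE/LocalUFD15.exists_eq_span_singleton` and `.ufd` hold for `C := S'`, `π := root`. -/
theorem eisenstein_step {x y : S} (h : EisHyp x y H) :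
    ∃ (_ : IsLocalRing (AdjoinRoot H)) (_ : IsDomain (AdjoinRoot H)),
      IsNoetherianRing (AdjoinRoot H) ∧ Module.Finite S (AdjoinRoot H) ∧
      Module.Free S (AdjoinRoot H) ∧
      maximalIdeal (AdjoinRoot H) = Ideal.span {AdjoinRoot.of H y, AdjoinRoot.root H} ∧
      Prime (AdjoinRoot.root H) ∧
      IsPrincipalIdealRing (AdjoinRoot H ⧸ Ideal.span {AdjoinRoot.root H}) ∧
      (∀ N : ℕ, ¬ AdjoinRoot.root H ∣ AdjoinRoot.of H y ^ N) := by
  refine ⟨h.isLocalRing, h.isDomain, inferInstance, h.finite, h.free, ?_, h.prime_root,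
    h.isPrincipalIdealRing_quot, fun N hN => ?_⟩
  · haveI := h.isLocalRing
    exact maximalIdeal_eq_span_pair h.hm h.hdeg h.hH h.h0
  · rw [← map_pow] at hN
    exact h.not_coeff_zero_dvd_pow N (coeff_zero_dvd_of_root_dvd hN)


/-! ### The divided-difference polynomial `H = G / (Z - r)` -/

/-- If `G` is monic of degree `n ≥ 3` with all lower coefficients in `𝔪 = (b, r)`, and
`G.coeff 1 ≡ u b mod 𝔪²`, then `H := G /ₘ (X - C r)` satisfies the Eisenstein hypotheses
(`r` need not be a root of `G` for this). -/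
theorem eisHyp_divByMonic {b r : S} (hm : maximalIdeal S = Ideal.span {b, r}) (hr : Prime r)
    (hbr : ¬ r ∣ b) (G : S[X]) (hG : G.Monic) (hdeg : 3 ≤ G.natDegree)
    (hcoeff : ∀ i < G.natDegree, G.coeff i ∈ maximalIdeal S)
    (hg1 : ∃ u, IsUnit u ∧ G.coeff 1 - u * b ∈ maximalIdeal S ^ 2) :
    EisHyp b r (G /ₘ (X - C r)) := by
  have hrm : r ∈ maximalIdeal S := by rw [hm]; exact Ideal.subset_span (by simp)
  have hXr : (X - C r : S[X]).Monic := monic_X_sub_C r
  have hnd : (G /ₘ (X - C r)).natDegree = G.natDegree - 1 := by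
    rw [natDegree_divByMonic G hXr, natDegree_X_sub_C]
  have hle : (X - C r : S[X]).degree ≤ G.degree := by
    rw [degree_X_sub_C, degree_eq_natDegree hG.ne_zero]
    exact_mod_cast (by omega : 1 ≤ G.natDegree)
  have hmonic : (G /ₘ (X - C r)).Monic := by
    rw [Monic, leadingCoeff_divByMonic_of_monic hXr hle]
    exact hG
  have hpow : ∀ k : ℕ, 1 ≤ k → r ^ k ∈ maximalIdeal S := fun k hk =>
    Ideal.pow_mem_of_mem _ hrm k (by omega)
  refine ⟨hm, hr, hbr, hmonic, by omega, fun i hi => ?_, ?_⟩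
  · -- lower coefficients
    rw [coeff_divByMonic_X_sub_C]
    refine Ideal.sum_mem _ fun k hk => ?_
    rw [Finset.mem_Icc] at hk
    rcases lt_or_eq_of_le hk.2 with hlt | heq
    · exact Ideal.mul_mem_left _ _ (hcoeff k hlt)
    · refine Ideal.mul_mem_right _ _ (hpow _ ?_)
      rw [hnd] at hi
      omega
  · -- constant coefficient
    obtain ⟨u, hu, hmem⟩ := hg1
    refine ⟨u, hu, ?_⟩
    have hsum : (G /ₘ (X - C r)).coeff 0 - G.coeff 1 ∈ maximalIdeal S ^ 2 := by
      rw [coeff_divByMonic_X_sub_C, zero_add,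
        ← Finset.add_sum_Ioc_eq_sum_Icc (f := fun i => r ^ (i - 1) * G.coeff i)
          (by omega : 1 ≤ G.natDegree)]
      simp only [Nat.sub_self, pow_zero, one_mul, add_sub_cancel_left]
      refine Ideal.sum_mem _ fun k hk => ?_
      rw [Finset.mem_Ioc] at hk
      rcases lt_or_eq_of_le hk.2 with hlt | heq
      · rw [pow_two]
        exact Ideal.mul_mem_mul (hpow _ (by omega)) (hcoeff k hlt)
      · have h2 : r ^ (k - 1) ∈ maximalIdeal S ^ 2 := by
          have : k - 1 = 2 + (k - 3) := by omega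
          rw [this, pow_add]
          exact Ideal.mul_mem_right _ _ (Ideal.pow_mem_pow hrm 2)
        exact Ideal.mul_mem_right _ _ h2
    have := Ideal.add_mem _ hsum hmem
    rwa [sub_add_sub_cancel] at this

end Eis


/-! ### Identification of `S[X]/(H)` with a concrete extension -/

section Identify

/-- An injective integral ring hom from an integrally closed domain `A` onto a domain `T` all of whose
elements are fractions of elements of `A` is surjective. -/
theorem surjective_of_isIntegrallyClosed {A T : Type*} [CommRing A] [IsDomain A]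
    [IsIntegrallyClosed A] [CommRing T] [IsDomain T] (φ : A →+* T) (hφ : Function.Injective φ)
    (hint : φ.IsIntegral) (hfrac : ∀ t : T, ∃ a b : A, b ≠ 0 ∧ t * φ b = φ a) :
    Function.Surjective φ := by
  intro t
  obtain ⟨a, b, hb, hab⟩ := hfrac t
  obtain ⟨P, hP, hPt⟩ := hint t
  let K := FractionRing A
  let L := FractionRing T
  have hg : Function.Injective ((algebraMap T L).comp φ) :=
    (IsFractionRing.injective T L).comp hφ
  let ψ : K →+* L := IsFractionRing.lift hg
  have hψ : ∀ c : A, ψ (algebraMap A K c) = algebraMap T L (φ c) := fun c =>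
    IsFractionRing.lift_algebraMap hg c
  have hbK : algebraMap A K b ≠ 0 := by
    rw [Ne, map_eq_zero_iff _ (IsFractionRing.injective A K)]
    exact hb
  set κ : K := algebraMap A K a / algebraMap A K b with hκ
  have hψκ : ψ κ = algebraMap T L t := by
    have hφb : algebraMap T L (φ b) ≠ 0 := by
      rw [← hψ]
      exact (map_ne_zero ψ).2 hbK
    rw [hκ, map_div₀, hψ, hψ, div_eq_iff hφb, ← map_mul, hab]
  -- `κ` is integral over `A`
  have hκint : IsIntegral A κ := by
    refine ⟨P, hP, ?_⟩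
    have h1 : ψ (eval₂ (algebraMap A K) κ P) = 0 := by
      rw [Polynomial.hom_eval₂, hψκ]
      have h2 : ψ.comp (algebraMap A K) = (algebraMap T L).comp φ := by
        ext c; exact hψ c
      rw [h2, ← Polynomial.hom_eval₂, hPt, map_zero]
    exact (map_eq_zero ψ).1 h1
  obtain ⟨c, hc⟩ := IsIntegrallyClosed.isIntegral_iff.1 hκint
  refine ⟨c, ?_⟩
  have h3 : algebraMap T L (φ c) = algebraMap T L t := by
    rw [← hψ, hc, hψκ]
  exact IsFractionRing.injective T L h3

variable {S : Type*} [CommRing S] [IsDomain S] [IsLocalRing S] [IsNoetherianRing S]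
variable {H : S[X]} {x y : S}

/-- `S[X]/(H)` is a unique factorisation domain (LocalUFD15 with `π := root`). -/
theorem EisHyp.ufd (h : EisHyp x y H) [IsDomain (AdjoinRoot H)] :
    UniqueFactorizationMonoid (AdjoinRoot H) := by
  haveI := h.isLocalRing
  haveI := h.isPrincipalIdealRing_quot
  exact Fermat.Agent.RED.CORE.LocalUFD15.ufd (AdjoinRoot.root H) h.prime_root

/-- The evaluation `S[X]/(H) → T`, `X ↦ zT`, is injective whenever `S → T` is (and `T` is a domain). -/
theorem EisHyp.lift_injective (h : EisHyp x y H) {T : Type*} [CommRing T] [IsDomain T]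
    [Algebra S T] (hST : Function.Injective (algebraMap S T)) (zT : T)
    (hz : H.eval₂ (algebraMap S T) zT = 0) :
    Function.Injective (AdjoinRoot.lift (algebraMap S T) zT hz) := by
  haveI := h.isDomain
  haveI : Module.Finite S (AdjoinRoot H) := h.finite
  haveI : Algebra.IsIntegral S (AdjoinRoot H) := Algebra.IsIntegral.of_finite S _
  rw [injective_iff_map_eq_zero]
  intro a ha
  have hker : (RingHom.ker (AdjoinRoot.lift (algebraMap S T) zT hz)).comap
      (algebraMap S (AdjoinRoot H)) = ⊥ := by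
    rw [eq_bot_iff]
    intro c hc
    rw [Ideal.mem_comap, RingHom.mem_ker, AdjoinRoot.algebraMap_eq, AdjoinRoot.lift_of] at hc
    rw [Submodule.mem_bot]
    exact (map_eq_zero_iff _ hST).1 hc
  have := Ideal.eq_bot_of_comap_eq_bot hker
  have ha' : a ∈ RingHom.ker (AdjoinRoot.lift (algebraMap S T) zT hz) :=
    (RingHom.mem_ker).2 ha
  rw [this] at ha'
  exact ha'

/-- **Identification.**  Let `T` be a domain, integral over `S` (with `S → T` injective), `zT ∈ T` a
root of `H`, and assume every element of `T` becomes a polynomial in `zT` after multiplication by a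
nonzero element of `S` (i.e. `Frac T = Frac S (zT)`).  Then `S[X]/(H) → T` is bijective: `T` IS the
Eisenstein extension, in particular `T` is local, regular, factorial, `𝔪_T = (y, zT)`. -/
theorem EisHyp.lift_bijective (h : EisHyp x y H) {T : Type*} [CommRing T] [IsDomain T]
    [Algebra S T] [Algebra.IsIntegral S T] (hST : Function.Injective (algebraMap S T)) (zT : T)
    (hz : H.eval₂ (algebraMap S T) zT = 0)
    (hfrac : ∀ t : T, ∃ (s : S) (A : S[X]), s ≠ 0 ∧
      algebraMap S T s * t = A.eval₂ (algebraMap S T) zT) :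
    Function.Bijective (AdjoinRoot.lift (algebraMap S T) zT hz) := by
  haveI := h.isDomain
  haveI := h.ufd
  have hinj := h.lift_injective hST zT hz
  refine ⟨hinj, ?_⟩
  apply surjective_of_isIntegrallyClosed (AdjoinRoot.lift (algebraMap S T) zT hz) hinj
  · intro t
    have ht : IsIntegral S t := Algebra.IsIntegral.isIntegral t
    obtain ⟨P, hP, hPt⟩ := ht
    refine ⟨P.map (AdjoinRoot.of H), hP.map _, ?_⟩
    rw [Polynomial.eval₂_map, AdjoinRoot.lift_comp_of]
    exact hPt
  · intro t
    obtain ⟨s, A, hs, hsA⟩ := hfrac t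
    refine ⟨AdjoinRoot.mk H A, AdjoinRoot.of H s, ?_, ?_⟩
    · intro h0
      have : algebraMap S T s = 0 := by
        rw [← AdjoinRoot.lift_of hz, h0, map_zero]
      exact hs ((map_eq_zero_iff _ hST).1 this)
    · rw [AdjoinRoot.lift_of, AdjoinRoot.lift_mk, ← hsA, mul_comm]

end Identify

end Fermat.Agent.ES.P36.EisStep26
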