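/-
Program P (S36), chapter (SS)/REG, brick R6 (abstract half, helper29): the three vertical primes at a
TRIPLE point of the level-`M' q²` model and their pairwise TRANSVERSALITY (`S36_SS27` §1 III (c),(d)),
without associated graded rings.  Mathlib + `EisStep26` (E0) + `LocalUFD15` only.

`C` = the local ring `B″_{z″}` (a noetherian local domain), `t t₁ t₂ ∈ C` the three pull-backs of the
base parameter, `P₁ P₂ P₃` the centres of the three vertical valuations.  Put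

    A₁ := t₂ - t₁^q = β*(P₁'),   A₃ := t - t₁^q = α*(P₂'),
    A₁₂ := t₁ - t^q = α*(P₁'),   A₃₂ := t₁ - t₂^q = β*(P₂')

(`P₁' P₂'` the local equations of the two branches of the level-`M' q` node: `P₁' P₂' = π·unit`,
whence `hα`, `hβ`).  INPUT: `𝔪_C = (A₁, A₃)` (from the Eisenstein step: `𝔪 = (X, Z)`, `A₃ ≡ X`,
`A₁ ≡ Z mod 𝔪²`), the memberships read off the valuation table (G2), `hvert` (saturation: every prime
factor of `π` is vertical) and `hram` (`e(v₂) ≥ q - 1`: some `ξ ∈ P₂` with `π / ξ^{q-1} ∈ C_{P₂}`).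

OUTPUT (`triple_reg`): `P₁ = (A₁)`, `P₃ = (A₃)`, `P₂ = (x₂)`, all three prime elements with DVR
quotients, `C` a UFD, `π = w · A₁ · x₂^{q-1} · A₃`, and `𝔪_C = (A₁, x₂) = (x₂, A₃) = (A₁, A₃)`.

GENERAL FORM (`triple_reg_gen`, for closed points whose residue field is larger than `k`, where no
coordinate `t - c` exists): `A₁ A₃ A₁₂ A₃₂` are ARBITRARY elements with `A₁₂ A₃ = π·unit`,
`A₁ A₃₂ = π·unit` (pull-backs along `α₂`, `β₂` of the two local equations `x' y' = π·unit` of the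
level-`M' q` nodes below), `𝔪 = (A₁, A₃)` (`span_pair_of_congr`), and the two Frobenius congruences
`A₃₂ ≡ v A₃^q mod A₁`, `A₁₂ ≡ v' A₁^q mod A₃` (`v, v'` units) are HYPOTHESES (`hF1`, `hF3`; at the model
they come from `NormRam20.norm_congr_single_insep`).

KEY STEP (`frob_congr` + `transversal_of_fac`): modulo `A₁` one has `t₂ ≡ t₁^q`, `t₁ ≡ t^q`, `q ≡ 0`,
hence `A₃₂ ≡ A₃^q`; but `A₃₂ = A₃ · x₂^e · unit` with `e ≥ q - 1`; in the DVR `C/(A₁)` (uniformiser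
`A₃`) this forces `e = q - 1` and `x₂ ≡ unit · A₃`, i.e. `(A₁, x₂) = 𝔪`.  Mirror modulo `A₃`.
-/
import Mathlib
import Fermat.Agent.RED.CORE.LocalUFD15
import Fermat.Agent.ES.P36.EisStep26

set_option autoImplicit false

namespace Fermat.Agent.ES.P36.TripleTrans29

open Ideal IsLocalRing Fermat.Agent.RED.CORE Fermat.Agent.ES.P36

section Frobenius

variable {C : Type*} [CommRing C]

/-- Frobenius modulo a prime number `q`: `(a - b)^q = a^q - b^q + q z`. -/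
theorem sub_pow_prime_congr (q : ℕ) (hq : q.Prime) (a b : C) :
    ∃ z : C, (a - b) ^ q = a ^ q - b ^ q + (q : C) * z := by
  obtain ⟨r, hr⟩ := exists_add_pow_prime_eq hq a (-b)
  rcases hq.eq_two_or_odd' with h2 | hodd
  · subst h2
    refine ⟨b ^ 2 + a * (-b) * r, ?_⟩
    have : a - b = a + -b := by ring
    rw [this, hr]; push_cast; ring
  · refine ⟨a * (-b) * r, ?_⟩
    have : a - b = a + -b := by ring
    rw [this, hr, hodd.neg_pow]; ring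

/-- **Kronecker congruence along a branch.**  If `A := t₂ - t₁^q` divides `q` and `t₁ - t^q`, then
`t₁ - t₂^q ≡ (t - t₁^q)^q mod A`. -/
theorem frob_congr (q : ℕ) (hq : q.Prime) (t t₁ t₂ : C)
    (hAq : (t₂ - t₁ ^ q) ∣ (q : C)) (hA12 : (t₂ - t₁ ^ q) ∣ (t₁ - t ^ q)) :
    (t₂ - t₁ ^ q) ∣ (t₁ - t₂ ^ q) - (t - t₁ ^ q) ^ q := by
  set A := t₂ - t₁ ^ q with hA
  obtain ⟨z, hz⟩ := sub_pow_prime_congr q hq t (t₁ ^ q)
  have h1 : A ∣ t₂ ^ q - (t₁ ^ q) ^ q := sub_dvd_pow_sub_pow t₂ (t₁ ^ q) q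
  obtain ⟨d1, hd1⟩ := h1
  obtain ⟨d2, hd2⟩ := hAq
  obtain ⟨d3, hd3⟩ := hA12
  refine ⟨-d1 - d2 * z + d3, ?_⟩
  rw [hz, hd2]
  have e1 : t₂ ^ q = (t₁ ^ q) ^ q + A * d1 := by rw [← hd1]; ring
  have e3 : t ^ q = t₁ - A * d3 := by rw [← hd3]; ring
  rw [e1, e3]; ring

end Frobenius

section Local

variable {C : Type*} [CommRing C] [IsLocalRing C]

/-- **Transversality from the Kronecker congruence.**  `𝔪 = (A₁, A₃)`, `A₁` prime, `A₁ ∤ A₃`;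
`A₃₂ = A₃ x₂^e b'` with `e ≥ q - 1` and `A₃₂ ≡ v A₃^q mod A₁`, `v` a unit.  Then `e = q - 1` and
`𝔪 = (A₁, x₂)`. -/
theorem transversal_of_fac (q : ℕ) (hq2 : 2 ≤ q) (A₁ A₃ x₂ A₃₂ b' v : C) (e : ℕ)
    (hA₁ : Prime A₁) (hA₁₃ : ¬ A₁ ∣ A₃) (hA₃ : ¬ IsUnit A₃)
    (hm : maximalIdeal C = Ideal.span {A₁, A₃})
    (hx₂ : x₂ ∈ maximalIdeal C)
    (hfac : A₃₂ = A₃ * x₂ ^ e * b')
    (he : q - 1 ≤ e) (hv : IsUnit v)
    (hcong : A₁ ∣ A₃₂ - v * A₃ ^ q) :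
    e = q - 1 ∧ maximalIdeal C = Ideal.span {A₁, x₂} := by
  rw [hm] at hx₂
  obtain ⟨a, c, hac⟩ := Ideal.mem_span_pair.mp hx₂
  obtain ⟨k, rfl⟩ : ∃ k, q = k + 1 := ⟨q - 1, by omega⟩
  rw [Nat.add_sub_cancel] at he ⊢
  obtain ⟨j, rfl⟩ : ∃ j, e = k + j := ⟨e - k, by omega⟩
  -- `x₂ ^ e ≡ (c A₃) ^ e mod A₁`
  have h1 : A₁ ∣ x₂ ^ (k + j) - (c * A₃) ^ (k + j) := by
    have h := sub_dvd_pow_sub_pow x₂ (c * A₃) (k + j)
    have h' : x₂ - c * A₃ = A₁ * a := by rw [← hac]; ring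
    rw [h'] at h
    exact (Dvd.intro _ rfl).trans h
  obtain ⟨d1, hd1⟩ := h1
  obtain ⟨d2, hd2⟩ := hcong
  have h2 : A₁ ∣ A₃ ^ (k + 1) * (c ^ (k + j) * b' * A₃ ^ j - v) := by
    refine ⟨d2 - A₃ * d1 * b', ?_⟩
    have e1 : x₂ ^ (k + j) = (c * A₃) ^ (k + j) + A₁ * d1 := by rw [← hd1]; ring
    have e2 : v * A₃ ^ (k + 1) = A₃₂ - A₁ * d2 := by rw [← hd2]; ring
    have e3 : A₃ ^ (k + 1) * (c ^ (k + j) * b' * A₃ ^ j - v)
        = A₃ * (c * A₃) ^ (k + j) * b' - v * A₃ ^ (k + 1) := by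
      ring
    rw [e3, e2, hfac, e1]; ring
  have h3 : A₁ ∣ c ^ (k + j) * b' * A₃ ^ j - v := by
    rcases hA₁.dvd_or_dvd h2 with h | h
    · exact absurd (hA₁.dvd_of_dvd_pow h) hA₁₃
    · exact h
  have h4 : IsUnit (c ^ (k + j) * b' * A₃ ^ j) := by
    have hmem : c ^ (k + j) * b' * A₃ ^ j - v ∈ maximalIdeal C := by
      obtain ⟨d, hd⟩ := h3
      rw [hd, hm]
      exact Ideal.mul_mem_right _ _ (Ideal.subset_span (by simp))
    by_contra hnu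
    have h5 : c ^ (k + j) * b' * A₃ ^ j ∈ maximalIdeal C :=
      (IsLocalRing.mem_maximalIdeal _).mpr hnu
    have h6 : v ∈ maximalIdeal C := by
      have := Ideal.sub_mem _ h5 hmem
      rwa [sub_sub_cancel] at this
    exact (IsLocalRing.mem_maximalIdeal _).mp h6 hv
  have hcu : IsUnit c := by
    have h5 : IsUnit (c ^ (k + j)) := isUnit_of_mul_isUnit_left (isUnit_of_mul_isUnit_left h4)
    exact (isUnit_pow_iff (by omega)).mp h5
  have hj : j = 0 := by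
    by_contra hj0
    have h5 : IsUnit (A₃ ^ j) := isUnit_of_mul_isUnit_right h4
    exact hA₃ ((isUnit_pow_iff hj0).mp h5)
  refine ⟨by omega, ?_⟩
  rw [hm]
  apply le_antisymm
  · rw [Ideal.span_le]
    rintro z (rfl | rfl)
    · exact Ideal.subset_span (by simp)
    · obtain ⟨c', hc'⟩ := hcu.exists_left_inv
      have : z = c' * x₂ - c' * a * A₁ := by
        rw [← hac]
        linear_combination (-z) * hc'
      rw [this]
      exact Ideal.sub_mem _ (Ideal.mul_mem_left _ _ (Ideal.subset_span (by simp)))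
        (Ideal.mul_mem_left _ _ (Ideal.subset_span (by simp)))
  · rw [Ideal.span_le]
    rintro z (rfl | rfl)
    · exact Ideal.subset_span (by simp)
    · rw [← hac]
      exact Ideal.add_mem _ (Ideal.mul_mem_left _ _ (Ideal.subset_span (by simp)))
        (Ideal.mul_mem_left _ _ (Ideal.subset_span (by simp)))

variable [IsNoetherianRing C]

/-- **A regular parameter through a prime.**  `𝔪 = (x, y)`, `P` a prime with `x ∈ P`, `y ∉ P`,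
`x ≠ 0`.  Then `x` is a prime element, `P = (x)` and `C/(x)` is a discrete valuation ring (stated as
principal ideal ring + integrally closed, which need no `IsDomain` instance). -/
theorem quot_of_span_pair (x y : C) (hm : maximalIdeal C = Ideal.span {x, y}) (P : Ideal C)
    [hP : P.IsPrime] (hx : x ∈ P) (hy : y ∉ P) (hx0 : x ≠ 0) :
    Prime x ∧ P = Ideal.span {x} ∧ IsPrincipalIdealRing (C ⧸ Ideal.span {x}) ∧
      IsIntegrallyClosed (C ⧸ Ideal.span {x}) := by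
  have hxP : Ideal.span {x} ≤ P := by
    rw [Ideal.span_le, Set.singleton_subset_iff]; exact hx
  have hne : Ideal.span {x} ≠ (⊤ : Ideal C) := fun h => hP.ne_top (top_le_iff.mp (h ▸ hxP))
  have : Nontrivial (C ⧸ Ideal.span {x}) := Ideal.Quotient.nontrivial_iff.2 hne
  have : IsLocalRing (C ⧸ Ideal.span {x}) :=
    IsLocalRing.of_surjective' (Ideal.Quotient.mk _) Ideal.Quotient.mk_surjective
  have hmax : maximalIdeal (C ⧸ Ideal.span {x}) =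
      Ideal.span {Ideal.Quotient.mk (Ideal.span {x}) y} := by
    rw [EisStep26.maximalIdeal_quotient, hm, Ideal.map_span, Set.image_pair]
    have : Ideal.Quotient.mk (Ideal.span {x}) x = 0 :=
      Ideal.Quotient.eq_zero_iff_mem.2 (Ideal.mem_span_singleton_self _)
    rw [this]
    apply le_antisymm
    · rw [Ideal.span_le]
      rintro a (rfl | rfl)
      · exact Ideal.zero_mem _
      · exact Ideal.subset_span rfl
    · exact Ideal.span_mono (by simp)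
  have hnil : ∀ N : ℕ, (Ideal.Quotient.mk (Ideal.span {x}) y) ^ N ≠ 0 := by
    intro N hN
    rw [← map_pow, Ideal.Quotient.eq_zero_iff_mem] at hN
    exact hy (hP.mem_of_pow_mem N (hxP hN))
  have hdom : IsDomain (C ⧸ Ideal.span {x}) := EisStep26.isDomain_of_span_singleton hmax hnil
  have hdvr : IsDiscreteValuationRing (C ⧸ Ideal.span {x}) :=
    EisStep26.isDVR_of_span_singleton hmax hnil
  have hprime : Prime x :=
    (Ideal.span_singleton_prime hx0).mp ((Ideal.Quotient.isDomain_iff_prime _).mp hdom)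
  refine ⟨hprime, ?_, inferInstance, inferInstance⟩
  -- `P ≤ (x) ⊔ 𝔪 • P`, Nakayama
  apply le_antisymm _ hxP
  have hfg : P.FG := (isNoetherianRing_iff_ideal_fg C).mp inferInstance P
  have hjac : maximalIdeal C ≤ Ideal.jacobson (⊥ : Ideal C) := by
    rw [IsLocalRing.jacobson_eq_maximalIdeal ⊥ bot_ne_top]
  refine Submodule.le_of_le_smul_of_le_jacobson_bot hfg hjac ?_
  intro c hc
  have hcm : c ∈ maximalIdeal C := IsLocalRing.le_maximalIdeal hP.ne_top hc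
  rw [hm] at hcm
  obtain ⟨a, b, hab⟩ := Ideal.mem_span_pair.mp hcm
  have hbP : b ∈ P := by
    have h1 : b * y ∈ P := by
      have : b * y = c - a * x := by rw [← hab]; ring
      rw [this]; exact Ideal.sub_mem _ hc (Ideal.mul_mem_left _ _ hx)
    exact (hP.mem_or_mem h1).resolve_right hy
  rw [← hab]
  refine Submodule.add_mem_sup (Ideal.mul_mem_left _ _ (Ideal.subset_span rfl)) ?_
  rw [mul_comm, smul_eq_mul]
  refine Ideal.mul_mem_mul ?_ hbP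
  rw [hm]; exact Ideal.subset_span (by simp)

variable [IsDomain C]

omit [IsDomain C] in
/-- **Nakayama: a new pair of parameters.**  If `𝔪 = (X, Z)` and `a ≡ u Z`, `b ≡ v X mod 𝔪²` with
units `u, v`, then `𝔪 = (a, b)`.  (At a triple point: `a = A₁ = β*(y'_β)`, `b = A₃ = α*(x')`, `X, Z`
the two horizontal parameters produced by the two Eisenstein steps.) -/
theorem span_pair_of_congr (X Z a b u v : C) (hXZ : maximalIdeal C = Ideal.span {X, Z})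
    (hu : IsUnit u) (hv : IsUnit v)
    (ha : a - u * Z ∈ maximalIdeal C ^ 2) (hb : b - v * X ∈ maximalIdeal C ^ 2) :
    maximalIdeal C = Ideal.span {a, b} := by
  have hsq : maximalIdeal C ^ 2 ≤ maximalIdeal C := Ideal.pow_le_self two_ne_zero
  have hX : X ∈ maximalIdeal C := by rw [hXZ]; exact Ideal.subset_span (by simp)
  have hZ : Z ∈ maximalIdeal C := by rw [hXZ]; exact Ideal.subset_span (by simp)
  have ham : a ∈ maximalIdeal C := by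
    have : a = (a - u * Z) + u * Z := by ring
    rw [this]; exact Ideal.add_mem _ (hsq ha) (Ideal.mul_mem_left _ _ hZ)
  have hbm : b ∈ maximalIdeal C := by
    have : b = (b - v * X) + v * X := by ring
    rw [this]; exact Ideal.add_mem _ (hsq hb) (Ideal.mul_mem_left _ _ hX)
  apply le_antisymm
  · have hfg : (maximalIdeal C).FG := (isNoetherianRing_iff_ideal_fg C).mp inferInstance _
    have hjac : maximalIdeal C ≤ Ideal.jacobson (⊥ : Ideal C) := by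
      rw [IsLocalRing.jacobson_eq_maximalIdeal ⊥ bot_ne_top]
    refine Submodule.le_of_le_smul_of_le_jacobson_bot hfg hjac ?_
    obtain ⟨u', hu'⟩ := hu.exists_left_inv
    obtain ⟨v', hv'⟩ := hv.exists_left_inv
    have hZmem : Z ∈ Ideal.span {a, b} ⊔ maximalIdeal C • maximalIdeal C := by
      have : Z = u' * a + (-(u' * (a - u * Z))) := by linear_combination (-Z) * hu'
      rw [this]
      refine Submodule.add_mem_sup (Ideal.mul_mem_left _ _ (Ideal.subset_span (by simp))) ?_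
      rw [smul_eq_mul, ← pow_two]
      exact Ideal.neg_mem_iff _ |>.mpr (Ideal.mul_mem_left _ _ ha)
    have hXmem : X ∈ Ideal.span {a, b} ⊔ maximalIdeal C • maximalIdeal C := by
      have : X = v' * b + (-(v' * (b - v * X))) := by linear_combination (-X) * hv'
      rw [this]
      refine Submodule.add_mem_sup (Ideal.mul_mem_left _ _ (Ideal.subset_span (by simp))) ?_
      rw [smul_eq_mul, ← pow_two]
      exact Ideal.neg_mem_iff _ |>.mpr (Ideal.mul_mem_left _ _ hb)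
    intro z hz
    rw [hXZ] at hz
    obtain ⟨c, d, rfl⟩ := Ideal.mem_span_pair.mp hz
    exact Ideal.add_mem _ (Ideal.mul_mem_left _ _ hXmem) (Ideal.mul_mem_left _ _ hZmem)
  · rw [Ideal.span_le]
    rintro z (rfl | rfl)
    · exact ham
    · exact hbm

/-- **(R6, abstract, general form) The three vertical primes at a triple point and their
transversality.**  `A₃ = α*(x')`, `A₁₂ = α*(y')`, `A₁ = β*(y'_β)`, `A₃₂ = β*(x'_β)` the pull-backs of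
the local equations of the two branches of the level-`M' q` nodes below (`x' y' = π·unit`, whence
`hα`, `hβ`); `hF1`, `hF3` are the Frobenius congruences `A₃₂ ≡ v A₃^q mod A₁`, `A₁₂ ≡ v A₁^q mod A₃`
(from `NormRam20.norm_congr_single_insep`: the norm of a uniformiser along the purely inseparable
branch is its `q`-th power). -/
theorem triple_reg_gen (P₁ P₂ P₃ : Ideal C) [hP₁ : P₁.IsPrime] [hP₂ : P₂.IsPrime]
    [hP₃ : P₃.IsPrime] (q : ℕ) (hq2 : 2 ≤ q) (π A₁ A₃ A₁₂ A₃₂ e' e'' : C)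
    (hπ0 : π ≠ 0)
    (hm : maximalIdeal C = Ideal.span {A₁, A₃})
    (hα : A₁₂ * A₃ = π * e') (he' : IsUnit e')
    (hβ : A₁ * A₃₂ = π * e'') (he'' : IsUnit e'')
    (h1 : A₁ ∈ P₁) (h1' : A₃ ∉ P₁) (h1'' : A₃₂ ∉ P₁)
    (h3 : A₃ ∈ P₃) (h3' : A₁ ∉ P₃) (h3'' : A₁₂ ∉ P₃)
    (h2 : π ∈ P₂) (h2' : A₁ ∉ P₂) (h2'' : A₃ ∉ P₂)
    (hvert : ∀ p : C, Prime p → p ∣ π → p ∈ P₁ ∨ p ∈ P₂ ∨ p ∈ P₃)
    (hram : ∃ ξ ∈ P₂, ∃ a b : C, b ∉ P₂ ∧ π * b = ξ ^ (q - 1) * a)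
    (hF1 : A₁ ∣ π → A₁ ∣ A₁₂ → ∃ v : C, IsUnit v ∧ A₁ ∣ A₃₂ - v * A₃ ^ q)
    (hF3 : A₃ ∣ π → A₃ ∣ A₃₂ → ∃ v : C, IsUnit v ∧ A₃ ∣ A₁₂ - v * A₁ ^ q) :
    ∃ x₂ : C,
      Prime A₁ ∧ Prime x₂ ∧ Prime A₃ ∧
      P₁ = Ideal.span {A₁} ∧ P₂ = Ideal.span {x₂} ∧ P₃ = Ideal.span {A₃} ∧
      maximalIdeal C = Ideal.span {A₁, x₂} ∧
      maximalIdeal C = Ideal.span {x₂, A₃} ∧
      UniqueFactorizationMonoid C ∧
      (IsPrincipalIdealRing (C ⧸ Ideal.span {A₁}) ∧ IsIntegrallyClosed (C ⧸ Ideal.span {A₁})) ∧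
      (IsPrincipalIdealRing (C ⧸ Ideal.span {x₂}) ∧ IsIntegrallyClosed (C ⧸ Ideal.span {x₂})) ∧
      (IsPrincipalIdealRing (C ⧸ Ideal.span {A₃}) ∧ IsIntegrallyClosed (C ⧸ Ideal.span {A₃})) ∧
      (¬ A₁ ∣ x₂ ∧ ¬ A₁ ∣ A₃ ∧ ¬ x₂ ∣ A₃) ∧
      ∃ w : C, IsUnit w ∧ π = w * A₁ * x₂ ^ (q - 1) * A₃ := by
  classical
  -- units are outside proper primes
  have hunit : ∀ (P : Ideal C) [P.IsPrime] {z : C}, IsUnit z → z ∉ P := fun P hP z hz hzP =>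
    (Ideal.IsPrime.ne_top hP) (Ideal.eq_top_of_isUnit_mem _ hzP hz)
  -- `π ∈ P₁`, `π ∈ P₃`
  have hπ1 : π ∈ P₁ := by
    have : π * e'' ∈ P₁ := by rw [← hβ]; exact Ideal.mul_mem_right _ _ h1
    exact (hP₁.mem_or_mem this).resolve_right (hunit P₁ he'')
  have hπ3 : π ∈ P₃ := by
    have : π * e' ∈ P₃ := by rw [← hα]; exact Ideal.mul_mem_left _ _ h3
    exact (hP₃.mem_or_mem this).resolve_right (hunit P₃ he')
  have hA₁0 : A₁ ≠ 0 := by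
    intro h0
    rw [h0, zero_mul] at hβ
    exact (mul_ne_zero hπ0 he''.ne_zero) hβ.symm
  have hA₃0 : A₃ ≠ 0 := by
    intro h0
    rw [h0, mul_zero] at hα
    exact (mul_ne_zero hπ0 he'.ne_zero) hα.symm
  have hm' : maximalIdeal C = Ideal.span {A₃, A₁} := by rw [hm, Ideal.span_pair_comm]
  -- the two outer branches
  obtain ⟨hpA₁, hP₁eq, hpir₁, hic₁⟩ := quot_of_span_pair A₁ A₃ hm P₁ h1 h1' hA₁0
  obtain ⟨hpA₃, hP₃eq, hpir₃, hic₃⟩ := quot_of_span_pair A₃ A₁ hm' P₃ h3 h3' hA₃0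
  have hmemP₁ : ∀ c : C, c ∈ P₁ ↔ A₁ ∣ c := fun c => by
    rw [hP₁eq, Ideal.mem_span_singleton]
  have hmemP₃ : ∀ c : C, c ∈ P₃ ↔ A₃ ∣ c := fun c => by
    rw [hP₃eq, Ideal.mem_span_singleton]
  have hA₁₃ : ¬ A₁ ∣ A₃ := fun h => h1' ((hmemP₁ _).mpr h)
  have hA₃₁ : ¬ A₃ ∣ A₁ := fun h => h3' ((hmemP₃ _).mpr h)
  have hufd : UniqueFactorizationMonoid C := LocalUFD15.ufd A₁ hpA₁
  -- the middle branch
  have hP₂0 : P₂ ≠ ⊥ := fun h => hπ0 (by rw [h] at h2; exact h2)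
  obtain ⟨x₂, hx₂P, hpx₂, hP₂eq⟩ :=
    LocalUFD15.exists_eq_span_singleton A₁ hpA₁.not_isUnit P₂ hP₂0 h2'
  have hmemP₂ : ∀ c : C, c ∈ P₂ ↔ x₂ ∣ c := fun c => by
    rw [hP₂eq, Ideal.mem_span_singleton]
  have hx₂A₁ : ¬ x₂ ∣ A₁ := fun h => h2' ((hmemP₂ _).mpr h)
  have hx₂A₃ : ¬ x₂ ∣ A₃ := fun h => h2'' ((hmemP₂ _).mpr h)
  have hA₁x₂ : ¬ A₁ ∣ x₂ := by
    intro h
    obtain ⟨c, hc⟩ := h
    rcases hpx₂.irreducible.isUnit_or_isUnit hc with hu | hu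
    · exact hpA₁.not_isUnit hu
    · apply hx₂A₁
      obtain ⟨c', hc'⟩ := hu.exists_right_inv
      exact ⟨c', by rw [hc, mul_assoc, hc', mul_one]⟩
  -- `A₃ ∣ A₃₂`, `A₁ ∣ A₁₂`
  have hA₃π : A₃ ∣ π := (hmemP₃ _).mp hπ3
  have hA₁π : A₁ ∣ π := (hmemP₁ _).mp hπ1
  have hx₂π : x₂ ∣ π := (hmemP₂ _).mp h2
  have hA₃A₃₂ : A₃ ∣ A₃₂ := by
    have : A₃ ∣ A₁ * A₃₂ := by rw [hβ]; exact Dvd.dvd.mul_right hA₃π _
    exact (hpA₃.dvd_or_dvd this).resolve_left hA₃₁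
  have hA₁A₁₂ : A₁ ∣ A₁₂ := by
    have : A₁ ∣ A₁₂ * A₃ := by rw [hα]; exact Dvd.dvd.mul_right hA₁π _
    exact (hpA₁.dvd_or_dvd this).resolve_right hA₁₃
  obtain ⟨b₃, hb₃⟩ := hA₃A₃₂
  have hA₃₂0 : A₃₂ ≠ 0 := by
    intro h0
    rw [h0, mul_zero] at hβ
    exact (mul_ne_zero hπ0 he''.ne_zero) hβ.symm
  have hb₃0 : b₃ ≠ 0 := by
    rintro rfl
    rw [mul_zero] at hb₃
    exact hA₃₂0 hb₃
  obtain ⟨n, b', hxb', hb₃fac⟩ := WfDvdMonoid.max_power_factor hb₃0 hpx₂.irreducible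
  have hb'0 : b' ≠ 0 := by
    rintro rfl
    rw [mul_zero] at hb₃fac
    exact hb₃0 hb₃fac
  have hfac₃₂ : A₃₂ = A₃ * x₂ ^ n * b' := by rw [hb₃, hb₃fac]; ring
  -- `b'` is a unit
  have hb'u : IsUnit b' := by
    refine LocalUFD15.isUnit_of_forall_prime_not_dvd A₁ hpA₁ b' hb'0 fun f hf hfb' => ?_
    have hfA₃₂ : f ∣ A₃₂ := by rw [hfac₃₂]; exact Dvd.dvd.mul_left hfb' _
    have hfπ : f ∣ π := by
      have : f ∣ π * e'' := by rw [← hβ]; exact Dvd.dvd.mul_left hfA₃₂ _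
      rcases hf.dvd_or_dvd this with h | h
      · exact h
      · exact absurd (isUnit_of_dvd_unit h he'') hf.not_isUnit
    rcases hvert f hf hfπ with h | h | h
    · -- `A₁ ∣ f ∣ b'`, so `A₃₂ ∈ P₁`
      have : A₁ ∣ A₃₂ := ((hmemP₁ f).mp h).trans hfA₃₂
      exact h1'' ((hmemP₁ _).mpr this)
    · exact hxb' (((hmemP₂ f).mp h).trans hfb')
    · -- `A₃ ∣ b'`, so `A₃ ^ 2 ∣ A₃₂`, so `A₃ ∣ A₁₂`
      obtain ⟨c, hc⟩ := ((hmemP₃ f).mp h).trans hfb'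
      have h5 : A₃ * (A₁₂ * e'') = A₃ * (A₃ * (A₁ * x₂ ^ n * c * e')) := by
        have h6 : A₁₂ * A₃ * e'' = A₁ * A₃₂ * e' := by rw [hα, hβ]; ring
        rw [hfac₃₂, hc] at h6
        linear_combination h6
      have h7 := mul_left_cancel₀ hA₃0 h5
      have h8 : A₃ ∣ A₁₂ * e'' := ⟨_, h7⟩
      rcases hpA₃.dvd_or_dvd h8 with h9 | h9
      · exact h3'' ((hmemP₃ _).mpr h9)
      · exact hpA₃.not_isUnit (isUnit_of_dvd_unit h9 he'')
  -- the factorisation of `π`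
  obtain ⟨ei, hei⟩ := he''.exists_right_inv
  have hπfac : π = (b' * ei) * A₁ * x₂ ^ n * A₃ := by
    have : π = π * e'' * ei := by rw [mul_assoc, hei, mul_one]
    rw [this, ← hβ, hfac₃₂]; ring
  have hwu : IsUnit (b' * ei) := hb'u.mul (IsUnit.of_mul_eq_one_right e'' hei)
  -- `q - 1 ≤ n`
  have hn : q - 1 ≤ n := by
    by_contra hlt
    obtain ⟨ξ, hξ, a, b, hb, hπb⟩ := hram
    obtain ⟨c, hc⟩ := (hmemP₂ ξ).mp hξ
    obtain ⟨d, hd⟩ : ∃ d, q - 1 = n + (d + 1) := ⟨q - 1 - n - 1, by omega⟩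
    have h5 : x₂ ^ n * ((b' * ei) * A₁ * A₃ * b) = x₂ ^ n * (x₂ * (x₂ ^ d * c ^ (q - 1) * a)) := by
      have : π * b = (x₂ * c) ^ (q - 1) * a := by rw [hπb, hc]
      rw [mul_pow, hd] at this
      rw [← hd] at this
      have h6 : x₂ ^ (n + (d + 1)) = x₂ ^ n * (x₂ * x₂ ^ d) := by ring
      rw [hd] at this
      rw [h6] at this
      rw [← hd] at this
      rw [hπfac] at this
      linear_combination this
    have h7 := mul_left_cancel₀ (pow_ne_zero n hpx₂.ne_zero) h5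
    have h8 : x₂ ∣ (b' * ei) * A₁ * A₃ * b := ⟨_, h7⟩
    rcases hpx₂.dvd_or_dvd h8 with h9 | h9
    · rcases hpx₂.dvd_or_dvd h9 with h10 | h10
      · rcases hpx₂.dvd_or_dvd h10 with h11 | h11
        · exact hpx₂.not_isUnit (isUnit_of_dvd_unit h11 hwu)
        · exact hx₂A₁ h11
      · exact hx₂A₃ h10
    · exact hb ((hmemP₂ _).mpr h9)
  -- transversality of the first and the middle branch
  have hx₂m : x₂ ∈ maximalIdeal C := (IsLocalRing.mem_maximalIdeal _).mpr hpx₂.not_isUnit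
  obtain ⟨v1, hv1, hcong1⟩ := hF1 hA₁π hA₁A₁₂
  obtain ⟨hnq, hm12⟩ := transversal_of_fac q hq2 A₁ A₃ x₂ A₃₂ b' v1 n hpA₁ hA₁₃ hpA₃.not_isUnit hm
    hx₂m hfac₃₂ hn hv1 hcong1
  -- mirror: `A₁₂ = A₁ x₂ ^ n (w e')`
  have hfac₁₂ : A₁₂ = A₁ * x₂ ^ n * ((b' * ei) * e') := by
    have h5 : A₃ * A₁₂ = A₃ * (A₁ * x₂ ^ n * ((b' * ei) * e')) := by
      have h6 : A₁₂ * A₃ = π * e' := hα
      rw [hπfac] at h6
      linear_combination h6
    exact mul_left_cancel₀ hA₃0 h5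
  obtain ⟨v3, hv3, hcong3⟩ := hF3 hA₃π ⟨b₃, hb₃⟩
  obtain ⟨-, hm32⟩ := transversal_of_fac q hq2 A₃ A₁ x₂ A₁₂ ((b' * ei) * e') v3 n hpA₃ hA₃₁
    hpA₁.not_isUnit hm' hx₂m hfac₁₂ hn hv3 hcong3
  have hm23 : maximalIdeal C = Ideal.span {x₂, A₃} := by rw [hm32, Ideal.span_pair_comm]
  -- the middle quotient
  obtain ⟨-, -, hpir₂, hic₂⟩ := quot_of_span_pair x₂ A₃ hm23 P₂ hx₂P h2'' hpx₂.ne_zero
  refine ⟨x₂, hpA₁, hpx₂, hpA₃, hP₁eq, hP₂eq, hP₃eq, hm12, hm23, hufd, ⟨hpir₁, hic₁⟩,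
    ⟨hpir₂, hic₂⟩, ⟨hpir₃, hic₃⟩, ⟨hA₁x₂, hA₁₃, hx₂A₃⟩, b' * ei, hwu, ?_⟩
  rw [← hnq]; exact hπfac

/-- **(R6, abstract) explicit form**, with `A₁ = t₂ - t₁^q`, `A₃ = t - t₁^q`, `A₁₂ = t₁ - t^q`,
`A₃₂ = t₁ - t₂^q` (`t` with Frobenius-stable expansion, `k`-rational point): the Frobenius
congruences are automatic (`frob_congr`). -/
theorem triple_reg (P₁ P₂ P₃ : Ideal C) [hP₁ : P₁.IsPrime] [hP₂ : P₂.IsPrime] [hP₃ : P₃.IsPrime]
    (q : ℕ) (hq : q.Prime) (π r t t₁ t₂ e' e'' : C)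
    (hπ0 : π ≠ 0) (hqπ : (q : C) = π * r)
    (hm : maximalIdeal C = Ideal.span {t₂ - t₁ ^ q, t - t₁ ^ q})
    (hα : (t₁ - t ^ q) * (t - t₁ ^ q) = π * e') (he' : IsUnit e')
    (hβ : (t₂ - t₁ ^ q) * (t₁ - t₂ ^ q) = π * e'') (he'' : IsUnit e'')
    (h1 : t₂ - t₁ ^ q ∈ P₁) (h1' : t - t₁ ^ q ∉ P₁) (h1'' : t₁ - t₂ ^ q ∉ P₁)
    (h3 : t - t₁ ^ q ∈ P₃) (h3' : t₂ - t₁ ^ q ∉ P₃) (h3'' : t₁ - t ^ q ∉ P₃)
    (h2 : π ∈ P₂) (h2' : t₂ - t₁ ^ q ∉ P₂) (h2'' : t - t₁ ^ q ∉ P₂)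
    (hvert : ∀ p : C, Prime p → p ∣ π → p ∈ P₁ ∨ p ∈ P₂ ∨ p ∈ P₃)
    (hram : ∃ ξ ∈ P₂, ∃ a b : C, b ∉ P₂ ∧ π * b = ξ ^ (q - 1) * a) :
    ∃ x₂ : C,
      Prime (t₂ - t₁ ^ q) ∧ Prime x₂ ∧ Prime (t - t₁ ^ q) ∧
      P₁ = Ideal.span {t₂ - t₁ ^ q} ∧ P₂ = Ideal.span {x₂} ∧ P₃ = Ideal.span {t - t₁ ^ q} ∧
      maximalIdeal C = Ideal.span {t₂ - t₁ ^ q, x₂} ∧
      maximalIdeal C = Ideal.span {x₂, t - t₁ ^ q} ∧
      UniqueFactorizationMonoid C ∧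
      (IsPrincipalIdealRing (C ⧸ Ideal.span {t₂ - t₁ ^ q}) ∧
        IsIntegrallyClosed (C ⧸ Ideal.span {t₂ - t₁ ^ q})) ∧
      (IsPrincipalIdealRing (C ⧸ Ideal.span {x₂}) ∧ IsIntegrallyClosed (C ⧸ Ideal.span {x₂})) ∧
      (IsPrincipalIdealRing (C ⧸ Ideal.span {t - t₁ ^ q}) ∧
        IsIntegrallyClosed (C ⧸ Ideal.span {t - t₁ ^ q})) ∧
      (¬ (t₂ - t₁ ^ q) ∣ x₂ ∧ ¬ (t₂ - t₁ ^ q) ∣ (t - t₁ ^ q) ∧ ¬ x₂ ∣ (t - t₁ ^ q)) ∧
      ∃ w : C, IsUnit w ∧ π = w * (t₂ - t₁ ^ q) * x₂ ^ (q - 1) * (t - t₁ ^ q) := by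
  refine triple_reg_gen P₁ P₂ P₃ q hq.two_le π (t₂ - t₁ ^ q) (t - t₁ ^ q) (t₁ - t ^ q)
    (t₁ - t₂ ^ q) e' e'' hπ0 hm hα he' hβ he'' h1 h1' h1'' h3 h3' h3'' h2 h2' h2'' hvert hram ?_ ?_
  · intro h1π h112
    refine ⟨1, isUnit_one, ?_⟩
    rw [one_mul]
    exact frob_congr q hq t t₁ t₂ (by rw [hqπ]; exact Dvd.dvd.mul_right h1π _) h112
  · intro h3π h332
    refine ⟨1, isUnit_one, ?_⟩
    rw [one_mul]
    exact frob_congr q hq t₂ t₁ t (by rw [hqπ]; exact Dvd.dvd.mul_right h3π _) h332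

end Local

end Fermat.Agent.ES.P36.TripleTrans29
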