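/-
Program P (S36), chapter (SS)/REG, brick R6 (CHART FORM, helper29): from the abstract triple-point
regularity `TripleTrans29.triple_reg_gen` to the LITERAL contract `TripleReg13.TripleReg` on the
localised chart `C := NodalSmooth13.locSub B 𝔪 ⊂ F` (Program N/O/P vocabulary: `B : Subalgebra R F`,
`𝔪 : Ideal B`, `O : ι → ValuationSubring F`).

* `vcentre C Ov hC` : the centre `{c ∈ C | v(c) < 1}` of a valuation ring `Ov ⊇ C` (a prime ideal;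
  the GENUINE valuation ideal, not `C ∩ π Ov` — the middle component has `e = q - 1`).
* `locSat_of_cover` : local saturation at a closed point through which only the components of a set
  `on` pass (`b ∈ B_𝔪`, `b = π c`, `c ∈ O j` for the `j` in `on` ⇒ `c ∈ B_𝔪`); generalises
  `LocTools13.locSat_of_offBranch`.
* `vert_of_sat` : every prime divisor of `π` in `B_𝔪` lies in one of the three centres (`hvert`).
* `ram_of_val` : `hram` of `triple_reg_gen` from the VALUATION form `∃ ξ : F, v₂(ξ)^(q-1) = v₂(π)`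
  (literally the second case of `NewtonTwo23.dichotomy`), once `P₂ = (x₂)` in the UFD `C`.
* **`tripleReg_of_gen`** : hypotheses of `triple_reg_gen` in valuation form on the chart
  ⊢ `∃ x₂, TripleReg q π B O 𝔪 i₁ i₂ i₃ A₁ x₂ A₃`.
-/
import Mathlib
import Fermat.Agent.ES.N34.NodalSmooth13
import Fermat.Agent.ES.P36.TripleReg13
import Fermat.Agent.ES.P36.TripleTrans29

set_option autoImplicit false

namespace Fermat.Agent.ES.P36.TripleRegChart29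

open IsLocalRing Fermat.Agent.RED.CORE Fermat.Agent.ES.N34.NodalCore13
  Fermat.Agent.ES.N34.NodalSmooth13 Fermat.Agent.ES.P36.TripleReg13

/-! ### Valuation subrings: units and non-units -/

section Val

variable {F : Type*} [Field F] (Ov : ValuationSubring F)

theorem val_lt_one_of_inv_notMem {x : F} (hx : x ∈ Ov) (hinv : x⁻¹ ∉ Ov) :
    Ov.valuation x < 1 := by
  rcases lt_or_eq_of_le ((Ov.valuation_le_one_iff x).mpr hx) with h | h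
  · exact h
  · exfalso
    apply hinv
    rw [← Ov.valuation_le_one_iff, map_inv₀, h, inv_one]

theorem inv_mem_of_not_val_lt_one {x : F} (hx : x ∈ Ov) (h : ¬ Ov.valuation x < 1) :
    x⁻¹ ∈ Ov := by
  by_contra hinv
  exact h (val_lt_one_of_inv_notMem Ov hx hinv)

theorem not_val_lt_one_of_inv_mem {x : F} (hx0 : x ≠ 0) (hinv : x⁻¹ ∈ Ov) :
    ¬ Ov.valuation x < 1 := by
  intro h
  have h1 : Ov.valuation x⁻¹ ≤ 1 := (Ov.valuation_le_one_iff _).mpr hinv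
  have h0 : Ov.valuation x ≠ 0 := (Valuation.ne_zero_iff _).mpr hx0
  have h2 : Ov.valuation x * Ov.valuation x⁻¹ = 1 := by
    rw [← map_mul, mul_inv_cancel₀ hx0, map_one]
  have h3 : Ov.valuation x * Ov.valuation x⁻¹ < 1 :=
    lt_of_le_of_lt (mul_le_of_le_one_right' h1) h
  exact absurd h2 (ne_of_lt h3)

theorem inv_notMem_of_val_lt_one {x : F} (hx0 : x ≠ 0) (h : Ov.valuation x < 1) : x⁻¹ ∉ Ov :=
  fun hinv => not_val_lt_one_of_inv_mem Ov hx0 hinv h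

theorem val_eq_one_of_mem_of_inv_mem {x : F} (hx0 : x ≠ 0) (hx : x ∈ Ov) (hinv : x⁻¹ ∈ Ov) :
    Ov.valuation x = 1 :=
  le_antisymm ((Ov.valuation_le_one_iff x).mpr hx)
    (not_lt.mp (not_val_lt_one_of_inv_mem Ov hx0 hinv))

/-- `x = p o` with `o ∈ Ov` and `p` a non-unit of `Ov`: `v(x) < 1`. -/
theorem val_lt_one_of_mul {p o x : F} (hp : p ∈ Ov) (hpinv : p⁻¹ ∉ Ov) (ho : o ∈ Ov)
    (hx : x = p * o) : Ov.valuation x < 1 := by
  rw [hx, map_mul]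
  have h1 : Ov.valuation o ≤ 1 := (Ov.valuation_le_one_iff _).mpr ho
  exact lt_of_le_of_lt (mul_le_of_le_one_right' h1) (val_lt_one_of_inv_notMem Ov hp hpinv)

end Val

variable {R F : Type*} [CommRing R] [Field F] [Algebra R F]

/-! ### The centre of a valuation ring on a subalgebra -/

section Centre

variable (C : Subalgebra R F) (Ov : ValuationSubring F)

/-- The centre on `C ⊆ Ov` of the valuation ring `Ov`: the elements of valuation `< 1`. -/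
def vcentre (hC : ∀ c ∈ C, c ∈ Ov) : Ideal ↥C where
  carrier := {c | Ov.valuation (c : F) < 1}
  zero_mem' := by
    show Ov.valuation ((0 : ↥C) : F) < 1
    rw [ZeroMemClass.coe_zero, map_zero]
    exact zero_lt_one
  add_mem' := by
    intro a b ha hb
    show Ov.valuation ((a + b : ↥C) : F) < 1
    push_cast
    exact Valuation.map_add_lt _ ha hb
  smul_mem' := by
    intro a b hb
    show Ov.valuation ((a * b : ↥C) : F) < 1
    push_cast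
    rw [map_mul]
    have h1 : Ov.valuation (a : F) ≤ 1 := (Ov.valuation_le_one_iff _).mpr (hC _ a.2)
    exact lt_of_le_of_lt (mul_le_of_le_one_left' h1) hb

variable {C Ov}

theorem mem_vcentre (hC : ∀ c ∈ C, c ∈ Ov) (c : ↥C) :
    c ∈ vcentre C Ov hC ↔ Ov.valuation (c : F) < 1 := Iff.rfl

instance vcentre_isPrime (hC : ∀ c ∈ C, c ∈ Ov) : (vcentre C Ov hC).IsPrime := by
  refine ⟨fun h => ?_, fun {a b} hab => ?_⟩
  · have h1 : (1 : ↥C) ∈ vcentre C Ov hC := by rw [h]; trivial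
    rw [mem_vcentre, OneMemClass.coe_one, map_one] at h1
    exact lt_irrefl _ h1
  · rw [mem_vcentre] at hab ⊢
    rw [mem_vcentre]
    by_contra hcon
    rw [not_or, not_lt, not_lt] at hcon
    have h1 : (1 : _) ≤ Ov.valuation (a : F) * Ov.valuation (b : F) := Left.one_le_mul hcon.1 hcon.2
    have h2 : Ov.valuation ((a * b : ↥C) : F) = Ov.valuation (a : F) * Ov.valuation (b : F) := by
      push_cast; rw [map_mul]
    rw [h2] at hab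
    exact absurd hab (not_lt.mpr h1)

theorem mem_vcentre_of_inv_notMem (hC : ∀ c ∈ C, c ∈ Ov) {c : ↥C} (h : ((c : F))⁻¹ ∉ Ov) :
    c ∈ vcentre C Ov hC :=
  val_lt_one_of_inv_notMem Ov (hC _ c.2) h

theorem notMem_vcentre_of_inv_mem (hC : ∀ c ∈ C, c ∈ Ov) {c : ↥C} (hc0 : c ≠ 0)
    (h : ((c : F))⁻¹ ∈ Ov) : c ∉ vcentre C Ov hC := by
  have hc0' : (c : F) ≠ 0 := fun h0 => hc0 (Subtype.ext h0)
  exact not_val_lt_one_of_inv_mem Ov hc0' h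

theorem inv_mem_of_notMem_vcentre (hC : ∀ c ∈ C, c ∈ Ov) {c : ↥C}
    (h : c ∉ vcentre C Ov hC) : ((c : F))⁻¹ ∈ Ov :=
  inv_mem_of_not_val_lt_one Ov (hC _ c.2) h

theorem inv_notMem_of_mem_vcentre (hC : ∀ c ∈ C, c ∈ Ov) {c : ↥C} (hc0 : c ≠ 0)
    (h : c ∈ vcentre C Ov hC) : ((c : F))⁻¹ ∉ Ov := by
  have hc0' : (c : F) ≠ 0 := fun h0 => hc0 (Subtype.ext h0)
  exact inv_notMem_of_val_lt_one Ov hc0' h

end Centre

/-! ### Local saturation -/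

section Sat

/-- **Local saturation** at a closed point through which only the components in `on` pass. -/
theorem locSat_of_cover {ι : Type*} [Finite ι] (π : R) (B : Subalgebra R F)
    (O : ι → ValuationSubring F) (on : ι → Prop)
    (leO : ∀ j, ∀ x ∈ B, x ∈ O j)
    (arch : ∀ j, ∀ x : F, ∃ k : ℕ, algebraMap R F π ^ k * x ∈ O j)
    (sat : ∀ b ∈ B, ∀ c : F, (∀ j, c ∈ O j) → b = algebraMap R F π * c → c ∈ B)
    (𝔪 : Ideal B) [h𝔪 : 𝔪.IsPrime]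
    (hcover : ∀ j, on j ∨ OffBranch π B (O j) 𝔪)
    (b : F) (hb : b ∈ locSub B 𝔪) (c : F) (hc : ∀ j, on j → c ∈ O j)
    (hbc : b = algebraMap R F π * c) : c ∈ locSub B 𝔪 := by
  classical
  have := Fintype.ofFinite ι
  obtain ⟨a, d, hd, had⟩ := hb
  -- multipliers `E j ∉ 𝔪` with `E j * (c d) ∈ O j`
  have hmul : ∀ j, ∃ E : B, E ∉ 𝔪 ∧ (E : F) * (c * (d : F)) ∈ O j := by
    intro j
    by_cases hj : on j
    · exact ⟨1, fun h1 => h𝔪.ne_top ((Ideal.eq_top_iff_one 𝔪).mpr h1), by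
        simpa using (O j).mul_mem _ _ (hc j hj) (leO j _ d.2)⟩
    · exact exists_multiplier_mem π B (O j) (arch j) 𝔪 _ (Or.inr ((hcover j).resolve_left hj))
  choose E hE hEO using hmul
  set P : B := ∏ j, E j with hP
  have hPnot : P ∉ 𝔪 := by
    intro h
    obtain ⟨j, -, hj⟩ := (h𝔪.prod_mem_iff).mp h
    exact hE j hj
  have hmem : c * (d : F) * (P : F) ∈ B := by
    refine sat ((P : F) * (a : F)) (B.mul_mem P.2 a.2) _ (fun j => ?_) ?_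
    · have hPj : P = E j * ∏ l ∈ Finset.univ.erase j, E l := by
        rw [hP, Finset.mul_prod_erase _ _ (Finset.mem_univ j)]
      have : c * (d : F) * (P : F)
          = ((∏ l ∈ Finset.univ.erase j, E l : B) : F) * ((E j : F) * (c * (d : F))) := by
        rw [hPj]; push_cast; ring
      rw [this]
      exact (O j).mul_mem _ _ (leO j _ (Subtype.coe_prop _)) (hEO j)
    · rw [← had, hbc]; ring
  exact ⟨⟨_, hmem⟩, d * P, fun hh => (h𝔪.mem_or_mem hh).elim hd hPnot, by push_cast; ring⟩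

/-- **`hvert`**: a prime divisor of `π` in `B_𝔪` lies in the centre of one of the components
passing through `𝔪`. -/
theorem vert_of_sat {ι : Type*} [Finite ι] (π : R) (B : Subalgebra R F)
    (O : ι → ValuationSubring F) (i₁ i₂ i₃ : ι)
    (leO : ∀ j, ∀ x ∈ B, x ∈ O j)
    (arch : ∀ j, ∀ x : F, ∃ k : ℕ, algebraMap R F π ^ k * x ∈ O j)
    (sat : ∀ b ∈ B, ∀ c : F, (∀ j, c ∈ O j) → b = algebraMap R F π * c → c ∈ B)
    (𝔪 : Ideal B) [h𝔪 : 𝔪.IsPrime]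
    (hcover : ∀ j, j = i₁ ∨ j = i₂ ∨ j = i₃ ∨ OffBranch π B (O j) 𝔪)
    (hC₁ : ∀ c ∈ locSub B 𝔪, c ∈ O i₁) (hC₂ : ∀ c ∈ locSub B 𝔪, c ∈ O i₂)
    (hC₃ : ∀ c ∈ locSub B 𝔪, c ∈ O i₃)
    (p : ↥(locSub B 𝔪)) (hp : ¬ IsUnit p) (hpπ : p ∣ algebraMap R ↥(locSub B 𝔪) π) :
    p ∈ vcentre (locSub B 𝔪) (O i₁) hC₁ ∨ p ∈ vcentre (locSub B 𝔪) (O i₂) hC₂ ∨
      p ∈ vcentre (locSub B 𝔪) (O i₃) hC₃ := by
  by_contra hcon
  rw [not_or, not_or] at hcon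
  obtain ⟨hn₁, hn₂, hn₃⟩ := hcon
  have hi₁ := inv_mem_of_notMem_vcentre hC₁ hn₁
  have hi₂ := inv_mem_of_notMem_vcentre hC₂ hn₂
  have hi₃ := inv_mem_of_notMem_vcentre hC₃ hn₃
  obtain ⟨r, hr⟩ := hpπ
  have hrF : algebraMap R F π = (p : F) * (r : F) := by
    have := congrArg (fun z : ↥(locSub B 𝔪) => (z : F)) hr
    simpa using this
  by_cases hp0 : (p : F) = 0
  · -- then `π = 0` and `p⁻¹ = 0`; still `p` is a unit candidate: contradiction through `hn₁`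
    apply hn₁
    rw [mem_vcentre, hp0, map_zero]
    exact zero_lt_one
  have hmem : ((p : F))⁻¹ ∈ locSub B 𝔪 := by
    refine locSat_of_cover π B O (fun j => j = i₁ ∨ j = i₂ ∨ j = i₃) leO arch sat 𝔪
      (fun j => ?_) (r : F) r.2 _ (fun j hj => ?_) ?_
    · rcases hcover j with h | h | h | h
      · exact Or.inl (Or.inl h)
      · exact Or.inl (Or.inr (Or.inl h))
      · exact Or.inl (Or.inr (Or.inr h))
      · exact Or.inr h
    · rcases hj with rfl | rfl | rfl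
      · exact hi₁
      · exact hi₂
      · exact hi₃
    · rw [hrF]; field_simp
  apply hp
  refine ⟨⟨p, ⟨_, hmem⟩, ?_, ?_⟩, rfl⟩
  · apply Subtype.ext
    show (p : F) * ((p : F))⁻¹ = 1
    exact mul_inv_cancel₀ hp0
  · apply Subtype.ext
    show ((p : F))⁻¹ * (p : F) = 1
    exact inv_mul_cancel₀ hp0

end Sat

/-! ### The ramification hypothesis in valuation form -/

section Ram

variable (C : Subalgebra R F) [IsNoetherianRing ↥C] (Ov : ValuationSubring F)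

/-- `v(c) = v(x) ^ k` for `c ≠ 0` when the centre of `Ov` on `C` is `(x)`, `x` prime. -/
theorem exists_val_eq_pow (hC : ∀ c ∈ C, c ∈ Ov) {x : ↥C} (hx : Prime x)
    (hP : vcentre C Ov hC = Ideal.span {x}) {c : ↥C} (hc : c ≠ 0) :
    ∃ (k : ℕ) (c' : ↥C), c = x ^ k * c' ∧ ¬ x ∣ c' ∧
      Ov.valuation (c : F) = Ov.valuation (x : F) ^ k := by
  obtain ⟨k, c', hxc', hcfac⟩ := WfDvdMonoid.max_power_factor hc hx.irreducible
  refine ⟨k, c', hcfac, hxc', ?_⟩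
  have hc'P : c' ∉ vcentre C Ov hC := by
    rw [hP, Ideal.mem_span_singleton]; exact hxc'
  have hc'1 : Ov.valuation (c' : F) = 1 :=
    le_antisymm ((Ov.valuation_le_one_iff _).mpr (hC _ c'.2)) (not_lt.mp hc'P)
  rw [hcfac]
  push_cast
  rw [map_mul, map_pow, hc'1, mul_one]

/-- **`hram` from the valuation form.** -/
theorem ram_of_val (hC : ∀ c ∈ C, c ∈ Ov)
    (frac : ∀ y : F, ∃ a ∈ C, ∃ b ∈ C, b ≠ 0 ∧ y * b = a)
    {x : ↥C} (hx : Prime x) (hP : vcentre C Ov hC = Ideal.span {x})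
    (q : ℕ) (hq2 : 2 ≤ q) (p : ↥C) (hp0 : p ≠ 0) (hxp : x ∣ p)
    (hram : ∃ ξ : F, Ov.valuation ξ ^ (q - 1) = Ov.valuation (p : F)) :
    ∃ ξ ∈ vcentre C Ov hC, ∃ a b : ↥C, b ∉ vcentre C Ov hC ∧ p * b = ξ ^ (q - 1) * a := by
  obtain ⟨ξ, hξ⟩ := hram
  set γ := Ov.valuation (x : F) with hγ
  have hx0 : (x : F) ≠ 0 := fun h0 => hx.ne_zero (Subtype.ext h0)
  have hγ0 : 0 < γ := by
    rw [hγ]; exact zero_lt_iff.mpr ((Valuation.ne_zero_iff _).mpr hx0)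
  have hγ1 : γ < 1 := by
    have : x ∈ vcentre C Ov hC := by rw [hP]; exact Ideal.mem_span_singleton_self x
    exact this
  have hp0' : (p : F) ≠ 0 := fun h0 => hp0 (Subtype.ext h0)
  obtain ⟨a₀, ha₀, b₀, hb₀, hb₀0, hab⟩ := frac ξ
  have hξ0 : ξ ≠ 0 := by
    rintro rfl
    obtain ⟨d, hd⟩ : ∃ d, q - 1 = d + 1 := ⟨q - 2, by omega⟩
    rw [map_zero, hd, pow_succ, mul_zero] at hξ
    exact (Valuation.ne_zero_iff _).mpr hp0' hξ.symm
  have ha₀0 : (⟨a₀, ha₀⟩ : ↥C) ≠ 0 := by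
    intro h0
    have : a₀ = 0 := congrArg Subtype.val h0
    rw [this] at hab
    exact (mul_ne_zero hξ0 hb₀0) hab
  have hb₀0' : (⟨b₀, hb₀⟩ : ↥C) ≠ 0 := fun h0 => hb₀0 (congrArg Subtype.val h0)
  obtain ⟨k₁, -, -, -, hv₁⟩ := exists_val_eq_pow C Ov hC hx hP ha₀0
  obtain ⟨k₂, -, -, -, hv₂⟩ := exists_val_eq_pow C Ov hC hx hP hb₀0'
  obtain ⟨n, p', hpfac, hxp', hvp⟩ := exists_val_eq_pow C Ov hC hx hP hp0
  -- `γ ^ (k₁ (q-1)) = γ ^ (n + k₂ (q-1))`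
  have hkey : γ ^ (k₁ * (q - 1)) = γ ^ (n + k₂ * (q - 1)) := by
    have h1 : Ov.valuation ξ * γ ^ k₂ = γ ^ k₁ := by
      rw [← hv₁, ← hv₂, ← map_mul]
      exact congrArg _ hab
    calc γ ^ (k₁ * (q - 1)) = (γ ^ k₁) ^ (q - 1) := by rw [pow_mul]
      _ = (Ov.valuation ξ * γ ^ k₂) ^ (q - 1) := by rw [h1]
      _ = Ov.valuation ξ ^ (q - 1) * γ ^ (k₂ * (q - 1)) := by rw [mul_pow, ← pow_mul]
      _ = γ ^ n * γ ^ (k₂ * (q - 1)) := by rw [hξ, hvp]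
      _ = γ ^ (n + k₂ * (q - 1)) := by rw [pow_add]
  have hexp : k₁ * (q - 1) = n + k₂ * (q - 1) :=
    pow_right_injective₀ hγ0 (ne_of_lt hγ1) hkey
  -- `n ≥ 1`
  have hn : 1 ≤ n := by
    by_contra hlt
    have hn0 : n = 0 := by omega
    rw [hn0, pow_zero, one_mul] at hpfac
    exact hxp' (hpfac ▸ hxp)
  have hk : k₂ < k₁ := by
    by_contra hle
    have : k₁ * (q - 1) ≤ k₂ * (q - 1) := Nat.mul_le_mul_right _ (not_lt.mp hle)
    omega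
  obtain ⟨k, hk'⟩ : ∃ k, k₁ = k₂ + (k + 1) := ⟨k₁ - k₂ - 1, by omega⟩
  have hnk : n = (k + 1) * (q - 1) := by
    rw [hk', add_mul] at hexp
    omega
  refine ⟨x ^ (k + 1), ?_, p', 1, ?_, ?_⟩
  · rw [hP, pow_succ]
    exact Ideal.mul_mem_left _ _ (Ideal.mem_span_singleton_self x)
  · rw [mem_vcentre, OneMemClass.coe_one, map_one]
    exact lt_irrefl _
  · rw [mul_one, ← pow_mul, ← hnk, ← hpfac]

end Ram

/-! ### The chart form of (R6) -/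

section Main

/-- **(R6, chart form).** The hypotheses of `TripleTrans29.triple_reg_gen` in valuation form on the
localised chart `C = B_𝔪`; conclusion: the literal contract `TripleReg13.TripleReg`. -/
theorem tripleReg_of_gen {ι : Type*} [Finite ι] (q : ℕ) (hq2 : 2 ≤ q) (π : R)
    (B : Subalgebra R F) (O : ι → ValuationSubring F) (𝔪 : Ideal B) [h𝔪 : 𝔪.IsPrime]
    (i₁ i₂ i₃ : ι) (noethB : IsNoetherianRing B)
    (frac : ∀ y : F, ∃ a ∈ B, ∃ b ∈ B, b ≠ 0 ∧ y * b = a)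
    (leO : ∀ j, ∀ y ∈ B, y ∈ O j)
    (arch : ∀ j, ∀ y : F, ∃ k : ℕ, algebraMap R F π ^ k * y ∈ O j)
    (sat : ∀ b ∈ B, ∀ c : F, (∀ j, c ∈ O j) → b = algebraMap R F π * c → c ∈ B)
    (pi_ne : algebraMap R F π ≠ 0) (pi_nonunit₂ : (algebraMap R F π)⁻¹ ∉ O i₂)
    (hcover : ∀ j, j = i₁ ∨ j = i₂ ∨ j = i₃ ∨ OffBranch π B (O j) 𝔪)
    (hC₁ : ∀ c ∈ locSub B 𝔪, c ∈ O i₁) (hC₂ : ∀ c ∈ locSub B 𝔪, c ∈ O i₂)
    (hC₃ : ∀ c ∈ locSub B 𝔪, c ∈ O i₃)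
    (A₁ A₃ A₁₂ A₃₂ e' e'' : ↥(locSub B 𝔪))
    (hm : maximalIdeal ↥(locSub B 𝔪) = Ideal.span {A₁, A₃})
    (hα : A₁₂ * A₃ = algebraMap R ↥(locSub B 𝔪) π * e') (he' : IsUnit e')
    (hβ : A₁ * A₃₂ = algebraMap R ↥(locSub B 𝔪) π * e'') (he'' : IsUnit e'')
    (h1 : ((A₁ : F))⁻¹ ∉ O i₁) (h1' : ((A₃ : F))⁻¹ ∈ O i₁) (h1'' : ((A₃₂ : F))⁻¹ ∈ O i₁)
    (h3 : ((A₃ : F))⁻¹ ∉ O i₃) (h3' : ((A₁ : F))⁻¹ ∈ O i₃) (h3'' : ((A₁₂ : F))⁻¹ ∈ O i₃)
    (h2' : ((A₁ : F))⁻¹ ∈ O i₂) (h2'' : ((A₃ : F))⁻¹ ∈ O i₂)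
    (hram : ∃ ξ : F, (O i₂).valuation ξ ^ (q - 1) = (O i₂).valuation (algebraMap R F π))
    (hF1 : ∃ v : ↥(locSub B 𝔪), IsUnit v ∧
      (O i₁).valuation ((A₃₂ : F) - (v : F) * (A₃ : F) ^ q) < 1)
    (hF3 : ∃ v : ↥(locSub B 𝔪), IsUnit v ∧
      (O i₃).valuation ((A₁₂ : F) - (v : F) * (A₁ : F) ^ q) < 1) :
    ∃ x₂ : ↥(locSub B 𝔪), TripleReg q π B O 𝔪 i₁ i₂ i₃ A₁ x₂ A₃ := by
  classical
  have hnoethC : IsNoetherianRing ↥(locSub B 𝔪) :=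
    IsLocalization.isNoetherianRing 𝔪.primeCompl _ noethB
  set p : ↥(locSub B 𝔪) := algebraMap R ↥(locSub B 𝔪) π with hp
  have hpF : (p : F) = algebraMap R F π := rfl
  have hp0 : p ≠ 0 := fun h0 => pi_ne (by rw [← hpF, h0]; rfl)
  have hfracC : ∀ y : F, ∃ a ∈ locSub B 𝔪, ∃ b ∈ locSub B 𝔪, b ≠ 0 ∧ y * b = a := by
    intro y
    obtain ⟨a, ha, b, hb, hb0, hab⟩ := frac y
    exact ⟨a, le_locSub B 𝔪 ha, b, le_locSub B 𝔪 hb, hb0, hab⟩
  -- non-vanishing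
  have hA₁0 : A₁ ≠ 0 := by
    intro h0
    rw [h0, zero_mul] at hβ
    exact (mul_ne_zero hp0 he''.ne_zero) hβ.symm
  have hA₃0 : A₃ ≠ 0 := by
    intro h0
    rw [h0, mul_zero] at hα
    exact (mul_ne_zero hp0 he'.ne_zero) hα.symm
  have hA₁₂0 : A₁₂ ≠ 0 := by
    intro h0
    rw [h0, zero_mul] at hα
    exact (mul_ne_zero hp0 he'.ne_zero) hα.symm
  have hA₃₂0 : A₃₂ ≠ 0 := by
    intro h0
    rw [h0, mul_zero] at hβ
    exact (mul_ne_zero hp0 he''.ne_zero) hβ.symm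
  -- the three centres
  set P₁ := vcentre (locSub B 𝔪) (O i₁) hC₁ with hP₁
  set P₂ := vcentre (locSub B 𝔪) (O i₂) hC₂ with hP₂
  set P₃ := vcentre (locSub B 𝔪) (O i₃) hC₃ with hP₃
  have m1 : A₁ ∈ P₁ := mem_vcentre_of_inv_notMem hC₁ h1
  have m1' : A₃ ∉ P₁ := notMem_vcentre_of_inv_mem hC₁ hA₃0 h1'
  have m1'' : A₃₂ ∉ P₁ := notMem_vcentre_of_inv_mem hC₁ hA₃₂0 h1''
  have m3 : A₃ ∈ P₃ := mem_vcentre_of_inv_notMem hC₃ h3
  have m3' : A₁ ∉ P₃ := notMem_vcentre_of_inv_mem hC₃ hA₁0 h3'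
  have m3'' : A₁₂ ∉ P₃ := notMem_vcentre_of_inv_mem hC₃ hA₁₂0 h3''
  have m2 : p ∈ P₂ := mem_vcentre_of_inv_notMem hC₂ (by rw [hpF]; exact pi_nonunit₂)
  have m2' : A₁ ∉ P₂ := notMem_vcentre_of_inv_mem hC₂ hA₁0 h2'
  have m2'' : A₃ ∉ P₂ := notMem_vcentre_of_inv_mem hC₂ hA₃0 h2''
  -- the outer branches (needed to convert `hram`, `hF1`, `hF3`)
  have hm' : maximalIdeal ↥(locSub B 𝔪) = Ideal.span {A₃, A₁} := by
    rw [hm, Ideal.span_pair_comm]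
  obtain ⟨hpA₁, hP₁eq, hpir₁, -⟩ := TripleTrans29.quot_of_span_pair A₁ A₃ hm P₁ m1 m1' hA₁0
  obtain ⟨hpA₃, hP₃eq, -, -⟩ := TripleTrans29.quot_of_span_pair A₃ A₁ hm' P₃ m3 m3' hA₃0
  have hP₂0 : P₂ ≠ ⊥ := fun h => hp0 (by rw [h] at m2; exact m2)
  obtain ⟨y₂, -, hpy₂, hP₂eq⟩ :=
    LocalUFD15.exists_eq_span_singleton A₁ hpA₁.not_isUnit P₂ hP₂0 m2'
  have hy₂p : y₂ ∣ p := by
    rw [hP₂eq, Ideal.mem_span_singleton] at m2; exact m2
  have hramC := ram_of_val (locSub B 𝔪) (O i₂) hC₂ hfracC hpy₂ hP₂eq q hq2 p hp0 hy₂p hram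
  -- `hvert`
  have hvert : ∀ f : ↥(locSub B 𝔪), Prime f → f ∣ p → f ∈ P₁ ∨ f ∈ P₂ ∨ f ∈ P₃ :=
    fun f hf hfp => vert_of_sat π B O i₁ i₂ i₃ leO arch sat 𝔪 hcover hC₁ hC₂ hC₃ f
      hf.not_isUnit hfp
  -- the Frobenius congruences
  have hF1' : A₁ ∣ p → A₁ ∣ A₁₂ → ∃ v : ↥(locSub B 𝔪), IsUnit v ∧ A₁ ∣ A₃₂ - v * A₃ ^ q := by
    intro _ _
    obtain ⟨v, hv, hval⟩ := hF1
    refine ⟨v, hv, ?_⟩
    have : A₃₂ - v * A₃ ^ q ∈ P₁ := by
      rw [hP₁, mem_vcentre]; push_cast; exact hval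
    rwa [hP₁eq, Ideal.mem_span_singleton] at this
  have hF3' : A₃ ∣ p → A₃ ∣ A₃₂ → ∃ v : ↥(locSub B 𝔪), IsUnit v ∧ A₃ ∣ A₁₂ - v * A₁ ^ q := by
    intro _ _
    obtain ⟨v, hv, hval⟩ := hF3
    refine ⟨v, hv, ?_⟩
    have : A₁₂ - v * A₁ ^ q ∈ P₃ := by
      rw [hP₃, mem_vcentre]; push_cast; exact hval
    rwa [hP₃eq, Ideal.mem_span_singleton] at this
  obtain ⟨x₂, hq₁, hq₂, hq₃, hE₁, hE₂, hE₃, hm12, hm23, hufd, ⟨-, hic₁⟩, ⟨-, hic₂⟩, ⟨-, hic₃⟩,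
    ⟨hd12, hd13, hd23⟩, w, hw, hfac⟩ :=
    TripleTrans29.triple_reg_gen P₁ P₂ P₃ q hq2 p A₁ A₃ A₁₂ A₃₂ e' e'' hp0 hm hα he' hβ he''
      m1 m1' m1'' m3 m3' m3'' m2 m2' m2'' hvert hramC hF1' hF3'
  refine ⟨x₂, hcover, hufd, hq₁, hq₂, hq₃, hd12, hd13, hd23, hic₁, hic₂, hic₃, hm12, hm, hm23,
    ⟨fun c => hC₁ _ c.2, fun c hc => ?_, ?_⟩, ⟨fun c => hC₂ _ c.2, fun c hc => ?_, ?_⟩,
    ⟨fun c => hC₃ _ c.2, fun c hc => ?_, ?_⟩, hw.unit, 1, q - 1, 1, one_pos, by omega, by omega,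
    by omega, one_pos, by omega, ?_⟩
  · refine inv_mem_of_notMem_vcentre hC₁ (c := c) ?_
    show c ∉ P₁
    rw [hE₁, Ideal.mem_span_singleton]; exact hc
  · refine inv_notMem_of_mem_vcentre hC₁ hq₁.ne_zero ?_
    show A₁ ∈ P₁
    exact m1
  · refine inv_mem_of_notMem_vcentre hC₂ (c := c) ?_
    show c ∉ P₂
    rw [hE₂, Ideal.mem_span_singleton]; exact hc
  · refine inv_notMem_of_mem_vcentre hC₂ hq₂.ne_zero ?_
    show x₂ ∈ P₂
    rw [hE₂]; exact Ideal.mem_span_singleton_self x₂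
  · refine inv_mem_of_notMem_vcentre hC₃ (c := c) ?_
    show c ∉ P₃
    rw [hE₃, Ideal.mem_span_singleton]; exact hc
  · refine inv_notMem_of_mem_vcentre hC₃ hq₃.ne_zero ?_
    show A₃ ∈ P₃
    exact m3
  · rw [pow_one, pow_one, IsUnit.unit_spec]
    exact hfac

end Main

end Fermat.Agent.ES.P36.TripleRegChart29
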