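/-
Program P (S36), chapter (SS)/REG, brick R6 (KRONECKER FORM, helper29): the inputs `hm`, `hF1`, `hF3`
of `TripleRegChart29.tripleReg_of_gen` from the ELEMENTWISE KRONECKER DATA at a triple point — no
norms, no coordinates `t - c` (closed points with residue field larger than `k` are covered).

In `C = B″_{z″}` put `X := α₂(s_α)`, `Z := β₂(s'_β)`, `Y := α₂(s'_α) = β₂(s_β)` (`s, s'` Program N's
Kronecker parameters at the two nodes `α₂(z″)`, `β₂(z″)` of level `M' q`; at the model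
`X = α₂α(c₁)`, `Y = α₂β(x₀) = β₂α(x₀)`, `Z = β₂β(c₀)` for a chain `c₁ ← x₀ → c₀` of `KronItems`) and
`A₃ := α₂(x_α)`, `A₁₂ := α₂(y_α)`, `A₁ := β₂(y_β)`, `A₃₂ := β₂(x_β)` (node generators).  Then

    X = g A₃ + c^q,      Y = g_a A₁₂ + c_a^q   (images of `s = g x + c^q`, `s' = g' y + c'^q` in `S_α`),
    Y = g_b A₃₂ + c_b^q,  Z = g' A₁ + c'^q     (the same in `S_β`),
    Y - X^q ∈ π O₁ (Kronecker on `v₁`),   Y - Z^q ∈ π O₃ (Kronecker on `v₃`),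

with units `g g' g_a g_b`, `c c' ∈ 𝔪_C`, `c_a ∈ (A₁₂, A₃)`, `c_b ∈ (A₃₂, A₁)`.

* `frob_of_kron` (pure algebra): `A₃₂ - v A₃^q ∈ P` for a unit `v`, from `Y - X^q ∈ P ∋ A₁`.
* **`tripleReg_of_kron`** : `𝔪_C = (X, Z)` (helper10's `TripleNode10.tripleNode_chart`) + the data
  above + the valuation table + `hram` ⊢ `∃ x₂, TripleReg q π B O 𝔪 i₁ i₂ i₃ A₁ x₂ A₃`.
-/
import Mathlib
import Fermat.Agent.ES.P36.TripleRegChart29

set_option autoImplicit false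

namespace Fermat.Agent.ES.P36.TripleKron29

open IsLocalRing Fermat.Agent.ES.N34.NodalCore13 Fermat.Agent.ES.N34.NodalSmooth13
  Fermat.Agent.ES.P36.TripleReg13 Fermat.Agent.ES.P36.TripleRegChart29

section Abstract

variable {C : Type*} [CommRing C] [IsLocalRing C]

omit [IsLocalRing C] in
/-- `(a u + b w)^q ≡ (b w)^q` modulo `u`. -/
theorem exists_pow_eq_of_mem_span_pair {u w c : C} (hc : c ∈ Ideal.span {u, w}) (q : ℕ) :
    ∃ b r : C, c ^ q = b ^ q * w ^ q + u * r := by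
  obtain ⟨a, b, rfl⟩ := Ideal.mem_span_pair.mp hc
  obtain ⟨r, hr⟩ := sub_dvd_pow_sub_pow (a * u + b * w) (b * w) q
  refine ⟨b, a * r, ?_⟩
  have : (a * u + b * w) ^ q = (b * w) ^ q + (a * u + b * w - b * w) * r := by
    rw [← hr]; ring
  rw [this, mul_pow]; ring

/-- `g + b w^k` is a unit when `g` is a unit, `w ∈ 𝔪`, `k ≥ 1`. -/
theorem isUnit_add_mul_pow {g b w : C} (hg : IsUnit g) (hw : w ∈ maximalIdeal C) {k : ℕ}
    (hk : 1 ≤ k) : IsUnit (g + b * w ^ k) := by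
  by_contra hnu
  have h1 : g + b * w ^ k ∈ maximalIdeal C := (mem_maximalIdeal _).mpr hnu
  have h2 : b * w ^ k ∈ maximalIdeal C := by
    obtain ⟨j, rfl⟩ : ∃ j, k = j + 1 := ⟨k - 1, by omega⟩
    rw [pow_succ, ← mul_assoc]
    exact Ideal.mul_mem_left _ _ hw
  have h3 : g ∈ maximalIdeal C := by
    have : g = (g + b * w ^ k) - b * w ^ k := by ring
    rw [this]; exact Ideal.sub_mem _ h1 h2
  exact (mem_maximalIdeal _).mp h3 hg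

/-- **The Frobenius congruence from the Kronecker relation.**  `P ∋ A₁` an ideal,
`X = g A₃ + c^q` with `c ∈ (A₁, A₃)`, `Y = g_b A₃₂ + c_b^q` with `c_b ∈ (A₁, A₃₂)`, `Y - X^q ∈ P`:
then `A₃₂ - v A₃^q ∈ P` for a unit `v`. -/
theorem frob_of_kron (P : Ideal C) {q : ℕ} (hq : 2 ≤ q) {A₁ A₃ A₃₂ X Y g gb c cb : C}
    (hA₁ : A₁ ∈ P) (hA₃ : A₃ ∈ maximalIdeal C) (hA₃₂ : A₃₂ ∈ maximalIdeal C)
    (hg : IsUnit g) (hgb : IsUnit gb)
    (hc : c ∈ Ideal.span {A₁, A₃}) (hcb : cb ∈ Ideal.span {A₁, A₃₂})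
    (hX : X = g * A₃ + c ^ q) (hY : Y = gb * A₃₂ + cb ^ q) (hK : Y - X ^ q ∈ P) :
    ∃ v : C, IsUnit v ∧ A₃₂ - v * A₃ ^ q ∈ P := by
  obtain ⟨k, hk⟩ : ∃ k, q = k + 1 := ⟨q - 1, by omega⟩
  have hk1 : 1 ≤ k := by omega
  obtain ⟨b, r, hcq⟩ := exists_pow_eq_of_mem_span_pair hc q
  obtain ⟨b', r', hcbq⟩ := exists_pow_eq_of_mem_span_pair hcb q
  -- `X = u₂ A₃ + A₁ r`, `Y = u₁ A₃₂ + A₁ r'`
  set u₂ : C := g + b ^ q * A₃ ^ k with hu₂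
  set u₁ : C := gb + b' ^ q * A₃₂ ^ k with hu₁
  have hu₂u : IsUnit u₂ := isUnit_add_mul_pow hg hA₃ hk1
  have hu₁u : IsUnit u₁ := isUnit_add_mul_pow hgb hA₃₂ hk1
  have hX' : X = u₂ * A₃ + A₁ * r := by
    rw [hX, hcq, hu₂, hk]; ring
  have hY' : Y = u₁ * A₃₂ + A₁ * r' := by
    rw [hY, hcbq, hu₁, hk]; ring
  -- `X^q ≡ (u₂ A₃)^q` modulo `A₁`
  obtain ⟨r'', hr''⟩ := sub_dvd_pow_sub_pow X (u₂ * A₃) q
  have hXq : X ^ q = u₂ ^ q * A₃ ^ q + A₁ * (r * r'') := by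
    have h1 : X - u₂ * A₃ = A₁ * r := by rw [hX']; ring
    have h2 : X ^ q = (u₂ * A₃) ^ q + (X - u₂ * A₃) * r'' := by rw [← hr'']; ring
    rw [h2, h1, mul_pow]; ring
  obtain ⟨w, hw⟩ := hu₁u.exists_left_inv
  have hw' : u₁ * w = 1 := by rw [mul_comm]; exact hw
  refine ⟨w * u₂ ^ q, (IsUnit.of_mul_eq_one_right u₁ hw').mul (hu₂u.pow q), ?_⟩
  have hkey : A₃₂ - w * u₂ ^ q * A₃ ^ q = w * (Y - X ^ q) + A₁ * (w * (r * r'' - r')) := by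
    rw [hXq, hY']
    linear_combination (-A₃₂) * hw
  rw [hkey]
  exact Ideal.add_mem _ (Ideal.mul_mem_left _ _ hK) (Ideal.mul_mem_right _ _ hA₁)

end Abstract

section Chart

variable {R F : Type*} [CommRing R] [Field F] [Algebra R F]

/-- **(R6, Kronecker form on the chart).**  `𝔪_C = (X, Z)` (Eisenstein step), the Kronecker data of
the two nodes below transported to `C = B_𝔪` (see the file header), the valuation table and the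
ramification of the middle component ⊢ the literal contract `TripleReg13.TripleReg`. -/
theorem tripleReg_of_kron {ι : Type*} [Finite ι] (q : ℕ) (hq2 : 2 ≤ q) (π : R)
    (B : Subalgebra R F) (O : ι → ValuationSubring F) (𝔪 : Ideal B) [h𝔪 : 𝔪.IsPrime]
    (i₁ i₂ i₃ : ι) (noethB : IsNoetherianRing B)
    (frac : ∀ y : F, ∃ a ∈ B, ∃ b ∈ B, b ≠ 0 ∧ y * b = a)
    (leO : ∀ j, ∀ y ∈ B, y ∈ O j)
    (arch : ∀ j, ∀ y : F, ∃ k : ℕ, algebraMap R F π ^ k * y ∈ O j)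
    (sat : ∀ b ∈ B, ∀ c : F, (∀ j, c ∈ O j) → b = algebraMap R F π * c → c ∈ B)
    (pi_ne : algebraMap R F π ≠ 0)
    (pi_nonunit₁ : (algebraMap R F π)⁻¹ ∉ O i₁) (pi_nonunit₂ : (algebraMap R F π)⁻¹ ∉ O i₂)
    (pi_nonunit₃ : (algebraMap R F π)⁻¹ ∉ O i₃)
    (hcover : ∀ j, j = i₁ ∨ j = i₂ ∨ j = i₃ ∨ OffBranch π B (O j) 𝔪)
    (hC₁ : ∀ c ∈ locSub B 𝔪, c ∈ O i₁) (hC₂ : ∀ c ∈ locSub B 𝔪, c ∈ O i₂)
    (hC₃ : ∀ c ∈ locSub B 𝔪, c ∈ O i₃)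
    (A₁ A₃ A₁₂ A₃₂ e' e'' X Y Z g g' ga gb c c' ca cb : ↥(locSub B 𝔪))
    (hXZ : maximalIdeal ↥(locSub B 𝔪) = Ideal.span {X, Z})
    (hα : A₁₂ * A₃ = algebraMap R ↥(locSub B 𝔪) π * e') (he' : IsUnit e')
    (hβ : A₁ * A₃₂ = algebraMap R ↥(locSub B 𝔪) π * e'') (he'' : IsUnit e'')
    (hg : IsUnit g) (hg' : IsUnit g') (hga : IsUnit ga) (hgb : IsUnit gb)
    (hc : c ∈ maximalIdeal ↥(locSub B 𝔪)) (hc' : c' ∈ maximalIdeal ↥(locSub B 𝔪))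
    (hca : ca ∈ Ideal.span {A₃, A₁₂}) (hcb : cb ∈ Ideal.span {A₁, A₃₂})
    (hX : X = g * A₃ + c ^ q) (hZ : Z = g' * A₁ + c' ^ q)
    (hYa : Y = ga * A₁₂ + ca ^ q) (hYb : Y = gb * A₃₂ + cb ^ q)
    (hK1 : ∃ o ∈ O i₁, (Y : F) - (X : F) ^ q = algebraMap R F π * o)
    (hK3 : ∃ o ∈ O i₃, (Y : F) - (Z : F) ^ q = algebraMap R F π * o)
    (h1 : ((A₁ : F))⁻¹ ∉ O i₁) (h1' : ((A₃ : F))⁻¹ ∈ O i₁) (h1'' : ((A₃₂ : F))⁻¹ ∈ O i₁)
    (h3 : ((A₃ : F))⁻¹ ∉ O i₃) (h3' : ((A₁ : F))⁻¹ ∈ O i₃) (h3'' : ((A₁₂ : F))⁻¹ ∈ O i₃)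
    (h2' : ((A₁ : F))⁻¹ ∈ O i₂) (h2'' : ((A₃ : F))⁻¹ ∈ O i₂)
    (hram : ∃ ξ : F, (O i₂).valuation ξ ^ (q - 1) = (O i₂).valuation (algebraMap R F π)) :
    ∃ x₂ : ↥(locSub B 𝔪), TripleReg q π B O 𝔪 i₁ i₂ i₃ A₁ x₂ A₃ := by
  classical
  have hnoethC : IsNoetherianRing ↥(locSub B 𝔪) :=
    IsLocalization.isNoetherianRing 𝔪.primeCompl _ noethB
  set p : ↥(locSub B 𝔪) := algebraMap R ↥(locSub B 𝔪) π with hp
  have hpF : (p : F) = algebraMap R F π := rfl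
  have hp0 : p ≠ 0 := fun h0 => pi_ne (by rw [← hpF, h0]; rfl)
  have hpO : ∀ j, algebraMap R F π ∈ O j := fun j => leO j _ (B.algebraMap_mem π)
  -- `𝔪 = (A₁, A₃)`
  obtain ⟨gi, hgi⟩ := hg.exists_left_inv
  obtain ⟨gi', hgi'⟩ := hg'.exists_left_inv
  have hpowsq : ∀ {w : ↥(locSub B 𝔪)}, w ∈ maximalIdeal ↥(locSub B 𝔪) →
      w ^ q ∈ maximalIdeal ↥(locSub B 𝔪) ^ 2 := fun hw =>
    Ideal.pow_le_pow_right hq2 (Ideal.pow_mem_pow hw q)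
  have hm : maximalIdeal ↥(locSub B 𝔪) = Ideal.span {A₁, A₃} := by
    refine TripleTrans29.span_pair_of_congr X Z A₁ A₃ gi' gi hXZ
      (IsUnit.of_mul_eq_one_right g' (by rw [mul_comm]; exact hgi'))
      (IsUnit.of_mul_eq_one_right g (by rw [mul_comm]; exact hgi)) ?_ ?_
    · have : A₁ - gi' * Z = -gi' * c' ^ q := by rw [hZ]; linear_combination (-A₁) * hgi'
      rw [this]
      exact Ideal.mul_mem_left _ _ (hpowsq hc')
    · have : A₃ - gi * X = -gi * c ^ q := by rw [hX]; linear_combination (-A₃) * hgi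
      rw [this]
      exact Ideal.mul_mem_left _ _ (hpowsq hc)
  have hA₁m : A₁ ∈ maximalIdeal ↥(locSub B 𝔪) := by
    rw [hm]; exact Ideal.subset_span (by simp)
  have hA₃m : A₃ ∈ maximalIdeal ↥(locSub B 𝔪) := by
    rw [hm]; exact Ideal.subset_span (by simp)
  -- non-vanishing
  have hA₁0 : A₁ ≠ 0 := by
    intro h0
    rw [h0, zero_mul] at hβ
    exact (mul_ne_zero hp0 he''.ne_zero) hβ.symm
  have hA₃0 : A₃ ≠ 0 := by
    intro h0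
    rw [h0, mul_zero] at hα
    exact (mul_ne_zero hp0 he'.ne_zero) hα.symm
  -- `A₁₂`, `A₃₂` are non-units
  have hA₁₂m : A₁₂ ∈ maximalIdeal ↥(locSub B 𝔪) := by
    rw [mem_maximalIdeal, mem_nonunits_iff]
    intro hu
    obtain ⟨w, hw⟩ := hu.exists_left_inv
    -- `A₃ = π (w e')`
    have hA₃ : A₃ = p * (w * e') := by
      have : A₃ = w * (A₁₂ * A₃) := by rw [← mul_assoc, hw, one_mul]
      rw [this, hα]; ring
    have hA₃F : (A₃ : F) = algebraMap R F π * ((w * e' : ↥(locSub B 𝔪)) : F) := by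
      have := congrArg (fun z : ↥(locSub B 𝔪) => (z : F)) hA₃
      rw [← hpF]
      simpa using this
    have hlt : (O i₁).valuation (A₃ : F) < 1 :=
      val_lt_one_of_mul (O i₁) (hpO i₁) pi_nonunit₁ (hC₁ _ (w * e').2) hA₃F
    have hA₃0' : (A₃ : F) ≠ 0 := fun h0 => hA₃0 (Subtype.ext h0)
    exact not_val_lt_one_of_inv_mem (O i₁) hA₃0' h1' hlt
  have hA₃₂m : A₃₂ ∈ maximalIdeal ↥(locSub B 𝔪) := by
    rw [mem_maximalIdeal, mem_nonunits_iff]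
    intro hu
    obtain ⟨w, hw⟩ := hu.exists_left_inv
    have hA₁ : A₁ = p * (w * e'') := by
      have : A₁ = w * (A₁ * A₃₂) := by rw [mul_comm A₁, ← mul_assoc, hw, one_mul]
      rw [this, hβ]; ring
    have hA₁F : (A₁ : F) = algebraMap R F π * ((w * e'' : ↥(locSub B 𝔪)) : F) := by
      have := congrArg (fun z : ↥(locSub B 𝔪) => (z : F)) hA₁
      rw [← hpF]
      simpa using this
    have hlt : (O i₃).valuation (A₁ : F) < 1 :=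
      val_lt_one_of_mul (O i₃) (hpO i₃) pi_nonunit₃ (hC₃ _ (w * e'').2) hA₁F
    have hA₁0' : (A₁ : F) ≠ 0 := fun h0 => hA₁0 (Subtype.ext h0)
    exact not_val_lt_one_of_inv_mem (O i₃) hA₁0' h3' hlt
  -- the Kronecker relations in the centres
  have hK1' : Y - X ^ q ∈ vcentre (locSub B 𝔪) (O i₁) hC₁ := by
    obtain ⟨o, ho, hYo⟩ := hK1
    rw [mem_vcentre]
    push_cast
    exact val_lt_one_of_mul (O i₁) (hpO i₁) pi_nonunit₁ ho hYo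
  have hK3' : Y - Z ^ q ∈ vcentre (locSub B 𝔪) (O i₃) hC₃ := by
    obtain ⟨o, ho, hYo⟩ := hK3
    rw [mem_vcentre]
    push_cast
    exact val_lt_one_of_mul (O i₃) (hpO i₃) pi_nonunit₃ ho hYo
  have m1 : A₁ ∈ vcentre (locSub B 𝔪) (O i₁) hC₁ := mem_vcentre_of_inv_notMem hC₁ h1
  have m3 : A₃ ∈ vcentre (locSub B 𝔪) (O i₃) hC₃ := mem_vcentre_of_inv_notMem hC₃ h3
  -- the two Frobenius congruences
  have hcm : c ∈ Ideal.span {A₁, A₃} := by rw [← hm]; exact hc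
  have hcm' : c' ∈ Ideal.span {A₃, A₁} := by rw [Ideal.span_pair_comm, ← hm]; exact hc'
  obtain ⟨v1, hv1, hv1mem⟩ := frob_of_kron (vcentre (locSub B 𝔪) (O i₁) hC₁) hq2 m1 hA₃m hA₃₂m
    hg hgb hcm hcb hX hYb hK1'
  obtain ⟨v3, hv3, hv3mem⟩ := frob_of_kron (vcentre (locSub B 𝔪) (O i₃) hC₃) hq2 m3 hA₁m hA₁₂m
    hg' hga hcm' hca hZ hYa hK3'
  refine tripleReg_of_gen q hq2 π B O 𝔪 i₁ i₂ i₃ noethB frac leO arch sat pi_ne pi_nonunit₂ hcover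
    hC₁ hC₂ hC₃ A₁ A₃ A₁₂ A₃₂ e' e'' hm hα he' hβ he'' h1 h1' h1'' h3 h3' h3'' h2' h2'' hram
    ⟨v1, hv1, ?_⟩ ⟨v3, hv3, ?_⟩
  · rw [mem_vcentre] at hv1mem
    push_cast at hv1mem
    exact hv1mem
  · rw [mem_vcentre] at hv3mem
    push_cast at hv3mem
    exact hv3mem

end Chart

end Fermat.Agent.ES.P36.TripleKron29
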