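/-
Program P (S36), chapter (SS)/REG, brick R6 (TWO-EISENSTEIN FORM, helper29): the regular triple point
from the TWO Eisenstein steps (along `α₂` and along `β₂`) and the Kronecker relations, with NO
compatibility requirement between the uniformising parameters chosen at the two nodes below.

In `C = B″_{z″}`:  `A₃ = α₂(x_α)`, `A₁₂ = α₂(y_α)`, `A₁ = β₂(y_β)`, `A₃₂ = β₂(x_β)` (node generators);

* `α`-side (helper10's `TripleNode10.tripleNode_chart`): `𝔪_C = (X, Z)`, `X = α₂(s_α) = g A₃ + c^q`,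
  `Z = z_α = β₂β(c₀)` — so `Z ∈ (A₁, A₃₂)` (it comes from `𝔪_{S_β}`);
  Kronecker: `Y_a - Z^q ∈ π O₃` with `Y_a = α₂(s'_α) = g_a A₁₂ + c_a^q` a unit at `v₃`
  (`s'_α` is a uniformiser of the OTHER branch at the node), whence `Z ∉ P₃`;
* `β`-side (the mirror): `𝔪_C = (X', Z')`, `X' = β₂(s'_β) = g' A₁ + c'^q`, `Z' = z_β = α₂α(k)`
  `∈ (A₃, A₁₂)`; Kronecker: `Y_b - Z'^q ∈ π O₁` with `Y_b = β₂(s_β) = g_b A₃₂ + c_b^q` a unit at `v₁`.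

KEY STEP (`unit_coeff_of_span_pair`): `𝔪 = (A₃, Z)`, `Z = a A₁ + b A₃₂`, `A₃ ∣ A₃₂`, `Z ∉ (A₃)` force `a`
to be a unit (Nakayama), whence `𝔪 = (A₁, A₃)` and `Z ≡ a A₁ mod A₃`; with the Kronecker relation this
is the Frobenius congruence `A₁₂ ≡ v A₁^q mod A₃` (`frob_of_congr`).

**`tripleReg_of_two_eis`** ⊢ `∃ x₂, TripleReg q π B O 𝔪 i₁ i₂ i₃ A₁ x₂ A₃`.
-/
import Mathlib
import Fermat.Agent.ES.P36.TripleKron29

set_option autoImplicit false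

namespace Fermat.Agent.ES.P36.TripleEis29

open IsLocalRing Fermat.Agent.ES.N34.NodalCore13 Fermat.Agent.ES.N34.NodalSmooth13
  Fermat.Agent.ES.P36.TripleReg13 Fermat.Agent.ES.P36.TripleRegChart29
  Fermat.Agent.ES.P36.TripleKron29

section Abstract

variable {C : Type*} [CommRing C] [IsLocalRing C]

/-- `X = g A₃ + c^q` with `c ∈ (A₁, A₃)`: then `X ≡ u A₃ mod A₁` for a unit `u`. -/
theorem exists_unit_congr_of_kron {q : ℕ} (hq : 2 ≤ q) {A₁ A₃ X g c : C}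
    (hA₃ : A₃ ∈ maximalIdeal C) (hg : IsUnit g) (hc : c ∈ Ideal.span {A₁, A₃})
    (hX : X = g * A₃ + c ^ q) : ∃ u : C, IsUnit u ∧ A₁ ∣ X - u * A₃ := by
  obtain ⟨k, hk⟩ : ∃ k, q = k + 1 := ⟨q - 1, by omega⟩
  have hk1 : 1 ≤ k := by omega
  obtain ⟨b, r, hcq⟩ := exists_pow_eq_of_mem_span_pair hc q
  refine ⟨g + b ^ q * A₃ ^ k, isUnit_add_mul_pow hg hA₃ hk1, r, ?_⟩
  rw [hX, hcq, hk]; ring

omit [IsLocalRing C] in
/-- **The Frobenius congruence from the Kronecker relation, congruence form.** -/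
theorem frob_of_congr (P : Ideal C) (q : ℕ) {A₁ A₃ A₃₂ X Y : C} (hA₁ : A₁ ∈ P)
    (hX : ∃ u : C, IsUnit u ∧ A₁ ∣ X - u * A₃) (hY : ∃ u : C, IsUnit u ∧ A₁ ∣ Y - u * A₃₂)
    (hK : Y - X ^ q ∈ P) : ∃ v : C, IsUnit v ∧ A₃₂ - v * A₃ ^ q ∈ P := by
  obtain ⟨u₂, hu₂, r, hr⟩ := hX
  obtain ⟨u₁, hu₁, r', hr'⟩ := hY
  obtain ⟨r'', hr''⟩ := sub_dvd_pow_sub_pow X (u₂ * A₃) q
  have hXq : X ^ q = u₂ ^ q * A₃ ^ q + A₁ * (r * r'') := by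
    have h2 : X ^ q = (u₂ * A₃) ^ q + (X - u₂ * A₃) * r'' := by rw [← hr'']; ring
    rw [h2, hr, mul_pow]; ring
  have hY' : Y = u₁ * A₃₂ + A₁ * r' := by rw [← hr']; ring
  obtain ⟨w, hw⟩ := hu₁.exists_left_inv
  have hw' : u₁ * w = 1 := by rw [mul_comm]; exact hw
  refine ⟨w * u₂ ^ q, (IsUnit.of_mul_eq_one_right u₁ hw').mul (hu₂.pow q), ?_⟩
  have hkey : A₃₂ - w * u₂ ^ q * A₃ ^ q = w * (Y - X ^ q) + A₁ * (w * (r * r'' - r')) := by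
    rw [hXq, hY']
    linear_combination (-A₃₂) * hw
  rw [hkey]
  exact Ideal.add_mem _ (Ideal.mul_mem_left _ _ hK) (Ideal.mul_mem_right _ _ hA₁)

variable [IsNoetherianRing C]

/-- **The coefficient of `A₁` in `Z` is a unit.**  `𝔪 = (A₃, Z)`, `Z = a A₁ + b A₃₂`, `A₃ ∣ A₃₂`,
`A₁ ∈ 𝔪`, `Z ∉ (A₃)`: then `a` is a unit, `𝔪 = (A₁, A₃)` and `A₃ ∣ Z - a A₁`. -/
theorem unit_coeff_of_span_pair {A₁ A₃ A₃₂ Z a b : C}
    (hm : maximalIdeal C = Ideal.span {A₃, Z}) (hA₁ : A₁ ∈ maximalIdeal C)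
    (hZ : Z = a * A₁ + b * A₃₂) (hdvd : A₃ ∣ A₃₂) (hZA₃ : ¬ A₃ ∣ Z) :
    IsUnit a ∧ maximalIdeal C = Ideal.span {A₁, A₃} ∧ A₃ ∣ Z - a * A₁ := by
  obtain ⟨r₃, hr₃⟩ := hdvd
  have hA₃m : A₃ ∈ maximalIdeal C := by rw [hm]; exact Ideal.subset_span (by simp)
  have hcong : Z - a * A₁ = A₃ * (b * r₃) := by rw [hZ, hr₃]; ring
  have hau : IsUnit a := by
    by_contra hnu
    have ham : a ∈ maximalIdeal C := (mem_maximalIdeal _).mpr hnu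
    -- `𝔪 ≤ (A₃) ⊔ 𝔪 • 𝔪`, hence `𝔪 ≤ (A₃)`
    have hle : maximalIdeal C ≤ Ideal.span {A₃} := by
      have hfg : (maximalIdeal C).FG := (isNoetherianRing_iff_ideal_fg C).mp inferInstance _
      have hjac : maximalIdeal C ≤ Ideal.jacobson (⊥ : Ideal C) := by
        rw [IsLocalRing.jacobson_eq_maximalIdeal ⊥ bot_ne_top]
      refine Submodule.le_of_le_smul_of_le_jacobson_bot hfg hjac ?_
      conv_lhs => rw [hm]
      rw [Ideal.span_le]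
      rintro w (rfl | rfl)
      · exact Ideal.mem_sup_left (Ideal.mem_span_singleton_self _)
      · have : w = A₃ * (b * r₃) + a * A₁ := by linear_combination hcong
        rw [this]
        refine Submodule.add_mem_sup (Ideal.mul_mem_right _ _ (Ideal.mem_span_singleton_self _)) ?_
        rw [smul_eq_mul]
        exact Ideal.mul_mem_mul ham hA₁
    have hZm : Z ∈ maximalIdeal C := by rw [hm]; exact Ideal.subset_span (by simp)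
    exact hZA₃ (Ideal.mem_span_singleton.mp (hle hZm))
  refine ⟨hau, ?_, ⟨b * r₃, hcong⟩⟩
  apply le_antisymm
  · conv_lhs => rw [hm]
    rw [Ideal.span_le]
    rintro w (rfl | rfl)
    · exact Ideal.subset_span (by simp)
    · have : w = a * A₁ + (b * r₃) * A₃ := by linear_combination hcong
      rw [this]
      exact Ideal.add_mem _ (Ideal.mul_mem_left _ _ (Ideal.subset_span (by simp)))
        (Ideal.mul_mem_left _ _ (Ideal.subset_span (by simp)))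
  · rw [Ideal.span_le]
    rintro w (rfl | rfl)
    · exact hA₁
    · exact hA₃m

end Abstract

section Chart

variable {R F : Type*} [CommRing R] [Field F] [Algebra R F]

/-- a non-unit of a valuation ring containing `C = B_𝔪` is a non-unit of `C`. -/
theorem mem_maximalIdeal_of_inv_notMem (B : Subalgebra R F) (𝔪 : Ideal B) [h𝔪 : 𝔪.IsPrime]
    (Ov : ValuationSubring F) (hC : ∀ c ∈ locSub B 𝔪, c ∈ Ov) {a : ↥(locSub B 𝔪)}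
    (h : ((a : F))⁻¹ ∉ Ov) : a ∈ maximalIdeal ↥(locSub B 𝔪) := by
  rw [mem_maximalIdeal, mem_nonunits_iff]
  intro hu
  obtain ⟨w, hw⟩ := hu.exists_right_inv
  apply h
  have hwF : (a : F) * (w : F) = 1 := by
    have := congrArg (fun z : ↥(locSub B 𝔪) => (z : F)) hw
    simpa using this
  rw [inv_eq_of_mul_eq_one_right hwF]
  exact hC _ w.2

/-- **(R6, two-Eisenstein form on the chart).** -/
theorem tripleReg_of_two_eis {ι : Type*} [Finite ι] (q : ℕ) (hq2 : 2 ≤ q) (π : R)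
    (B : Subalgebra R F) (O : ι → ValuationSubring F) (𝔪 : Ideal B) [h𝔪 : 𝔪.IsPrime]
    (i₁ i₂ i₃ : ι) (noethB : IsNoetherianRing B)
    (frac : ∀ y : F, ∃ a ∈ B, ∃ b ∈ B, b ≠ 0 ∧ y * b = a)
    (leO : ∀ j, ∀ y ∈ B, y ∈ O j)
    (arch : ∀ j, ∀ y : F, ∃ k : ℕ, algebraMap R F π ^ k * y ∈ O j)
    (sat : ∀ b ∈ B, ∀ c : F, (∀ j, c ∈ O j) → b = algebraMap R F π * c → c ∈ B)
    (pi_ne : algebraMap R F π ≠ 0)
    (pi_nonunit₁ : (algebraMap R F π)⁻¹ ∉ O i₁) (pi_nonunit₂ : (algebraMap R F π)⁻¹ ∉ O i₂)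
    (pi_nonunit₃ : (algebraMap R F π)⁻¹ ∉ O i₃)
    (hcover : ∀ j, j = i₁ ∨ j = i₂ ∨ j = i₃ ∨ OffBranch π B (O j) 𝔪)
    (hC₁ : ∀ c ∈ locSub B 𝔪, c ∈ O i₁) (hC₂ : ∀ c ∈ locSub B 𝔪, c ∈ O i₂)
    (hC₃ : ∀ c ∈ locSub B 𝔪, c ∈ O i₃)
    (A₁ A₃ A₁₂ A₃₂ e' e'' X Z X' Z' Ya Yb g g' ga gb c c' ca cb : ↥(locSub B 𝔪))
    (hα : A₁₂ * A₃ = algebraMap R ↥(locSub B 𝔪) π * e') (he' : IsUnit e')
    (hβ : A₁ * A₃₂ = algebraMap R ↥(locSub B 𝔪) π * e'') (he'' : IsUnit e'')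
    -- the `α`-side Eisenstein step and Kronecker relation
    (hXZ : maximalIdeal ↥(locSub B 𝔪) = Ideal.span {X, Z})
    (hg : IsUnit g) (hc : c ∈ maximalIdeal ↥(locSub B 𝔪)) (hX : X = g * A₃ + c ^ q)
    (hZ : Z ∈ Ideal.span {A₁, A₃₂})
    (hga : IsUnit ga) (hca : ca ∈ Ideal.span {A₃, A₁₂}) (hYa : Ya = ga * A₁₂ + ca ^ q)
    (hYa0 : Ya ≠ 0) (hYa3 : ((Ya : F))⁻¹ ∈ O i₃)
    (hK3 : ∃ o ∈ O i₃, (Ya : F) - (Z : F) ^ q = algebraMap R F π * o)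
    -- the `β`-side Eisenstein step and Kronecker relation
    (hXZ' : maximalIdeal ↥(locSub B 𝔪) = Ideal.span {X', Z'})
    (hg' : IsUnit g') (hc' : c' ∈ maximalIdeal ↥(locSub B 𝔪)) (hX' : X' = g' * A₁ + c' ^ q)
    (hZ' : Z' ∈ Ideal.span {A₃, A₁₂})
    (hgb : IsUnit gb) (hcb : cb ∈ Ideal.span {A₁, A₃₂}) (hYb : Yb = gb * A₃₂ + cb ^ q)
    (hYb0 : Yb ≠ 0) (hYb1 : ((Yb : F))⁻¹ ∈ O i₁)
    (hK1 : ∃ o ∈ O i₁, (Yb : F) - (Z' : F) ^ q = algebraMap R F π * o)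
    -- the valuation table
    (h1 : ((A₁ : F))⁻¹ ∉ O i₁) (h1' : ((A₃ : F))⁻¹ ∈ O i₁) (h1'' : ((A₃₂ : F))⁻¹ ∈ O i₁)
    (h1n : ((A₁₂ : F))⁻¹ ∉ O i₁)
    (h3 : ((A₃ : F))⁻¹ ∉ O i₃) (h3' : ((A₁ : F))⁻¹ ∈ O i₃) (h3'' : ((A₁₂ : F))⁻¹ ∈ O i₃)
    (h3n : ((A₃₂ : F))⁻¹ ∉ O i₃)
    (h2' : ((A₁ : F))⁻¹ ∈ O i₂) (h2'' : ((A₃ : F))⁻¹ ∈ O i₂)
    (hram : ∃ ξ : F, (O i₂).valuation ξ ^ (q - 1) = (O i₂).valuation (algebraMap R F π)) :
    ∃ x₂ : ↥(locSub B 𝔪), TripleReg q π B O 𝔪 i₁ i₂ i₃ A₁ x₂ A₃ := by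
  classical
  have hnoethC : IsNoetherianRing ↥(locSub B 𝔪) :=
    IsLocalization.isNoetherianRing 𝔪.primeCompl _ noethB
  set p : ↥(locSub B 𝔪) := algebraMap R ↥(locSub B 𝔪) π with hp
  have hpF : (p : F) = algebraMap R F π := rfl
  have hp0 : p ≠ 0 := fun h0 => pi_ne (by rw [← hpF, h0]; rfl)
  have hpO : ∀ j, algebraMap R F π ∈ O j := fun j => leO j _ (B.algebraMap_mem π)
  have hpowsq : ∀ {w : ↥(locSub B 𝔪)}, w ∈ maximalIdeal ↥(locSub B 𝔪) →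
      w ^ q ∈ maximalIdeal ↥(locSub B 𝔪) ^ 2 := fun hw =>
    Ideal.pow_le_pow_right hq2 (Ideal.pow_mem_pow hw q)
  -- non-vanishing and non-units
  have hA₁0 : A₁ ≠ 0 := by
    intro h0
    rw [h0, zero_mul] at hβ
    exact (mul_ne_zero hp0 he''.ne_zero) hβ.symm
  have hA₃0 : A₃ ≠ 0 := by
    intro h0
    rw [h0, mul_zero] at hα
    exact (mul_ne_zero hp0 he'.ne_zero) hα.symm
  have hA₁m : A₁ ∈ maximalIdeal ↥(locSub B 𝔪) := mem_maximalIdeal_of_inv_notMem B 𝔪 _ hC₁ h1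
  have hA₃m : A₃ ∈ maximalIdeal ↥(locSub B 𝔪) := mem_maximalIdeal_of_inv_notMem B 𝔪 _ hC₃ h3
  have hA₁₂m : A₁₂ ∈ maximalIdeal ↥(locSub B 𝔪) :=
    mem_maximalIdeal_of_inv_notMem B 𝔪 _ hC₁ h1n
  have hA₃₂m : A₃₂ ∈ maximalIdeal ↥(locSub B 𝔪) :=
    mem_maximalIdeal_of_inv_notMem B 𝔪 _ hC₃ h3n
  -- the centres
  set P₁ := vcentre (locSub B 𝔪) (O i₁) hC₁ with hP₁
  set P₃ := vcentre (locSub B 𝔪) (O i₃) hC₃ with hP₃
  have m1 : A₁ ∈ P₁ := mem_vcentre_of_inv_notMem hC₁ h1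
  have m3 : A₃ ∈ P₃ := mem_vcentre_of_inv_notMem hC₃ h3
  have m1₂ : A₁₂ ∈ P₁ := mem_vcentre_of_inv_notMem hC₁ h1n
  have m3₂ : A₃₂ ∈ P₃ := mem_vcentre_of_inv_notMem hC₃ h3n
  -- the Kronecker relations in the centres
  have hK1' : Yb - Z' ^ q ∈ P₁ := by
    obtain ⟨o, ho, hYo⟩ := hK1
    rw [hP₁, mem_vcentre]
    push_cast
    exact val_lt_one_of_mul (O i₁) (hpO i₁) pi_nonunit₁ ho hYo
  have hK3' : Ya - Z ^ q ∈ P₃ := by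
    obtain ⟨o, ho, hYo⟩ := hK3
    rw [hP₃, mem_vcentre]
    push_cast
    exact val_lt_one_of_mul (O i₃) (hpO i₃) pi_nonunit₃ ho hYo
  -- `Z ∉ P₃`, `Z' ∉ P₁`
  obtain ⟨k, hk⟩ : ∃ k, q = k + 1 := ⟨q - 1, by omega⟩
  have mZ : Z ∉ P₃ := by
    intro hZP
    apply notMem_vcentre_of_inv_mem hC₃ hYa0 hYa3
    have : Ya = (Ya - Z ^ q) + Z ^ k * Z := by rw [hk, pow_succ]; ring
    rw [this]
    exact Ideal.add_mem _ hK3' (Ideal.mul_mem_left _ _ hZP)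
  have mZ' : Z' ∉ P₁ := by
    intro hZP
    apply notMem_vcentre_of_inv_mem hC₁ hYb0 hYb1
    have : Yb = (Yb - Z' ^ q) + Z' ^ k * Z' := by rw [hk, pow_succ]; ring
    rw [this]
    exact Ideal.add_mem _ hK1' (Ideal.mul_mem_left _ _ hZP)
  -- `𝔪 = (A₃, Z) = (A₁, Z')`
  obtain ⟨gi, hgi⟩ := hg.exists_left_inv
  obtain ⟨gi', hgi'⟩ := hg'.exists_left_inv
  have hm₃ : maximalIdeal ↥(locSub B 𝔪) = Ideal.span {A₃, Z} := by
    rw [Ideal.span_pair_comm]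
    refine TripleTrans29.span_pair_of_congr X Z Z A₃ 1 gi hXZ isUnit_one
      (IsUnit.of_mul_eq_one_right g (by rw [mul_comm]; exact hgi)) ?_ ?_
    · rw [one_mul, sub_self]; exact Ideal.zero_mem _
    · have : A₃ - gi * X = -gi * c ^ q := by rw [hX]; linear_combination (-A₃) * hgi
      rw [this]
      exact Ideal.mul_mem_left _ _ (hpowsq hc)
  have hm₁ : maximalIdeal ↥(locSub B 𝔪) = Ideal.span {A₁, Z'} := by
    rw [Ideal.span_pair_comm]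
    refine TripleTrans29.span_pair_of_congr X' Z' Z' A₁ 1 gi' hXZ' isUnit_one
      (IsUnit.of_mul_eq_one_right g' (by rw [mul_comm]; exact hgi')) ?_ ?_
    · rw [one_mul, sub_self]; exact Ideal.zero_mem _
    · have : A₁ - gi' * X' = -gi' * c' ^ q := by rw [hX']; linear_combination (-A₁) * hgi'
      rw [this]
      exact Ideal.mul_mem_left _ _ (hpowsq hc')
  -- the outer primes
  obtain ⟨-, hP₃eq, -, -⟩ := TripleTrans29.quot_of_span_pair A₃ Z hm₃ P₃ m3 mZ hA₃0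
  obtain ⟨-, hP₁eq, -, -⟩ := TripleTrans29.quot_of_span_pair A₁ Z' hm₁ P₁ m1 mZ' hA₁0
  have hA₃A₃₂ : A₃ ∣ A₃₂ := by
    rw [hP₃eq, Ideal.mem_span_singleton] at m3₂; exact m3₂
  have hA₁A₁₂ : A₁ ∣ A₁₂ := by
    rw [hP₁eq, Ideal.mem_span_singleton] at m1₂; exact m1₂
  have hZA₃ : ¬ A₃ ∣ Z := fun h => mZ (by rw [hP₃eq, Ideal.mem_span_singleton]; exact h)
  have hZ'A₁ : ¬ A₁ ∣ Z' := fun h => mZ' (by rw [hP₁eq, Ideal.mem_span_singleton]; exact h)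
  -- the unit coefficients
  obtain ⟨a, b, hab⟩ := Ideal.mem_span_pair.mp hZ
  obtain ⟨a', b', hab'⟩ := Ideal.mem_span_pair.mp hZ'
  obtain ⟨hau, hm, hZcong⟩ := unit_coeff_of_span_pair hm₃ hA₁m hab.symm hA₃A₃₂ hZA₃
  obtain ⟨ha'u, -, hZ'cong⟩ := unit_coeff_of_span_pair hm₁ hA₃m hab'.symm hA₁A₁₂ hZ'A₁
  -- the two Frobenius congruences
  obtain ⟨v1, hv1, hv1mem⟩ := frob_of_congr P₁ q m1 ⟨a', ha'u, hZ'cong⟩
    (exists_unit_congr_of_kron hq2 hA₃₂m hgb hcb hYb) hK1'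
  obtain ⟨v3, hv3, hv3mem⟩ := frob_of_congr P₃ q m3 ⟨a, hau, hZcong⟩
    (exists_unit_congr_of_kron hq2 hA₁₂m hga hca hYa) hK3'
  refine tripleReg_of_gen q hq2 π B O 𝔪 i₁ i₂ i₃ noethB frac leO arch sat pi_ne pi_nonunit₂ hcover
    hC₁ hC₂ hC₃ A₁ A₃ A₁₂ A₃₂ e' e'' hm hα he' hβ he'' h1 h1' h1'' h3 h3' h3'' h2' h2'' hram
    ⟨v1, hv1, ?_⟩ ⟨v3, hv3, ?_⟩
  · rw [hP₁, mem_vcentre] at hv1mem
    push_cast at hv1mem
    exact hv1mem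
  · rw [hP₃, mem_vcentre] at hv3mem
    push_cast at hv3mem
    exact hv3mem

end Chart

end Fermat.Agent.ES.P36.TripleEis29
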