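/-
Program P (S36), chapter (SS)/REG, brick R6 (ASSEMBLY OVER THE TWO NODES, helper29): from the shared
contract `EisItems29.EisData` at the two level-`q` nodes below a closed point `𝔪` of the level-`q²` chart
(`φ`-side and `ψ`-side) to the literal contract `TripleReg13.TripleReg` — the transport of
`TripleEis29.tripleReg_of_two_eis` from `C = B_𝔪` to the node rings `S_φ = B'_{𝔫_φ}`, `S_ψ = B'_{𝔫_ψ}`.

* `locHom` lemmas: injective, compatible with `algebraMap R`, local (`locHom_mem_maximalIdeal`);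
* `unit_cofactor` : `x ∣ s − c^q`, `𝔪_S ≤ (y) ⊔ (s)` ⇒ `s = g x + c^q` with `g` a unit
  (= `TripleKron10.exists_unit_cofactor`, restated here so that this file imports `main` only);
* consequences of `EisData` (`EisData.x1 … EisData.le_V`): the units/non-units table at `W1`, `W2`, the two
  unit cofactors, `s'` a unit of `W2`, and `C ⊆ V` for every `V` over `W1` or `W2` along `φ`;
* **`tripleReg_of_eisData`** : `EisData` on the `φ`-side (rings `W1, W2`, far component `O i₃`) and on the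
  `ψ`-side (rings `W2, W1`, far component `O i₁`), the position table (G2), the chart facts of level `q²`
  and the ramification of the middle component ⊢ `∃ x₂, TripleReg q π B O 𝔪 i₁ i₂ i₃ (ψ x_ψ) x₂ (φ x_φ)`;
* **`crossAt_of_eisAt`** : `EisAt` on both sides ⊢ the two targets of R6 (`PtsModel9.CrossAt` shape).
-/
import Mathlib
import Fermat.Agent.ES.P36.EisItems29
import Fermat.Agent.ES.P36.TripleEis29
import Fermat.Agent.ES.P36.NodeReg10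

set_option autoImplicit false
set_option linter.unusedSectionVars false

namespace Fermat.Agent.ES.P36.CrossAsm29

open IsLocalRing Fermat.Agent.ES.N34.NodalCore13 Fermat.Agent.ES.N34.NodalSmooth13
  Fermat.Agent.ES.P36.TripleReg13 Fermat.Agent.ES.P36.PtsAsm9 Fermat.Agent.ES.P36.EisItems29

/-! ### The unit cofactor -/

section Cofactor

variable {S : Type*} [CommRing S] [IsLocalRing S] [IsNoetherianRing S] [IsDomain S]

/-- `s = g x + c ^ q` with `g` a unit, when `s` is a uniformiser of the other branch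
(`𝔪 ≤ (y) ⊔ (s)`). -/
theorem unit_cofactor {x y s c : S} {q : ℕ} (hq : 2 ≤ q) (hy : Prime y) (hyx : ¬ y ∣ x)
    (hxm : x ∈ maximalIdeal S) (hc : c ∈ maximalIdeal S) (hs : x ∣ s - c ^ q)
    (hgen : maximalIdeal S ≤ Ideal.span {y} ⊔ Ideal.span {s}) :
    ∃ g : S, IsUnit g ∧ s = g * x + c ^ q := by
  have hpowsq : c ^ q ∈ maximalIdeal S ^ 2 := Ideal.pow_le_pow_right hq (Ideal.pow_mem_pow hc q)
  have hsqle : maximalIdeal S ^ 2 ≤ maximalIdeal S := Ideal.pow_le_self two_ne_zero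
  have : (Ideal.span {y}).IsPrime := (Ideal.span_singleton_prime hy.ne_zero).mpr hy
  obtain ⟨g, hg⟩ := hs
  have hseq : s = g * x + c ^ q := by linear_combination hg
  have hsm : s ∈ maximalIdeal S := by
    rw [hseq]
    exact Ideal.add_mem _ (Ideal.mul_mem_left _ _ hxm) (hsqle hpowsq)
  have hsy : s ∉ Ideal.span {y} := by
    intro h
    have hle : maximalIdeal S ≤ Ideal.span {y} := by
      refine hgen.trans (sup_le le_rfl ?_)
      exact (Ideal.span_singleton_le_iff_mem _).mpr h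
    exact hyx (Ideal.mem_span_singleton.mp (hle hxm))
  have hns := NodeReg10.notMem_sup_sq (Ideal.span {y}) hsm hsy hgen
  refine ⟨g, ?_, hseq⟩
  by_contra hgu
  apply hns
  rw [hseq]
  refine Ideal.mem_sup_right (Ideal.add_mem _ ?_ hpowsq)
  rw [pow_two]
  exact Ideal.mul_mem_mul ((mem_maximalIdeal _).mpr hgu) hxm

/-- the uniformiser `s` of the branch complementary to `(y)` is not divisible by `y`. -/
theorem not_dvd_of_gen {x y s : S} (hyx : ¬ y ∣ x) (hxm : x ∈ maximalIdeal S)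
    (hgen : maximalIdeal S ≤ Ideal.span {y} ⊔ Ideal.span {s}) : ¬ y ∣ s := by
  intro h
  have hle : maximalIdeal S ≤ Ideal.span {y} := by
    refine hgen.trans (sup_le le_rfl ?_)
    exact (Ideal.span_singleton_le_iff_mem _).mpr (Ideal.mem_span_singleton.mpr h)
  exact hyx (Ideal.mem_span_singleton.mp (hle hxm))

end Cofactor

variable {R F' F : Type*} [CommRing R] [Field F'] [Field F] [Algebra R F'] [Algebra R F]

/-! ### The local homomorphism `B'_𝔫 → B_𝔪` -/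

section LocHom

variable (φ : F' →+* F) (B' : Subalgebra R F') (𝔫 : Ideal B') [h𝔫 : 𝔫.IsPrime]
  (B : Subalgebra R F) (𝔪 : Ideal B) [h𝔪 : 𝔪.IsPrime]
  (hφB : ∀ b ∈ B', φ b ∈ B)
  (hcontr : ∀ b : B', (⟨φ b, hφB b b.2⟩ : B) ∈ 𝔪 → b ∈ 𝔫)

theorem locHom_injective : Function.Injective (locHom φ B' 𝔫 B 𝔪 hφB hcontr) := by
  intro a b hab
  have h : φ (a : F') = φ (b : F') := congrArg (fun z : ↥(locSub B 𝔪) => (z : F)) hab
  exact Subtype.ext (φ.injective h)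

theorem locHom_algebraMap (hφR : ∀ r : R, φ (algebraMap R F' r) = algebraMap R F r) (r : R) :
    locHom φ B' 𝔫 B 𝔪 hφB hcontr (algebraMap R ↥(locSub B' 𝔫) r) =
      algebraMap R ↥(locSub B 𝔪) r :=
  Subtype.ext (hφR r)

/-- `locHom` is a local homomorphism. -/
theorem locHom_mem_maximalIdeal
    (hcontr' : ∀ b : B', b ∈ 𝔫 → (⟨φ b, hφB b b.2⟩ : B) ∈ 𝔪)
    {c : ↥(locSub B' 𝔫)} (hc : c ∈ maximalIdeal ↥(locSub B' 𝔫)) :
    locHom φ B' 𝔫 B 𝔪 hφB hcontr c ∈ maximalIdeal ↥(locSub B 𝔪) := by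
  rw [mem_maximalIdeal, mem_nonunits_iff] at hc ⊢
  obtain ⟨a, d, hd, had⟩ := c.2
  have ha : a ∈ 𝔫 := num_mem_of_not_isUnit B' 𝔫 hc hd had
  have ha' : (⟨φ a, hφB a a.2⟩ : B) ∈ 𝔪 := hcontr' a ha
  intro hu
  have hdu : IsUnit (algebraMap ↥B ↥(locSub B 𝔪) ⟨φ d, hφB d d.2⟩) :=
    (IsLocalization.AtPrime.isUnit_to_map_iff ↥(locSub B 𝔪) 𝔪 _).mpr (fun h => hd (hcontr d h))
  have heq : locHom φ B' 𝔫 B 𝔪 hφB hcontr c * algebraMap ↥B ↥(locSub B 𝔪) ⟨φ d, hφB d d.2⟩ =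
      algebraMap ↥B ↥(locSub B 𝔪) ⟨φ a, hφB a a.2⟩ := by
    apply Subtype.ext
    show φ (c : F') * φ (d : F') = φ (a : F')
    rw [← map_mul, had]
  exact not_isUnit_of_mem B 𝔪 ha' (heq ▸ hu.mul hdu)

/-- the image of `𝔪_S = (x, y)` lies in `(L x, L y)`. -/
theorem locHom_mem_span_pair {x y c : ↥(locSub B' 𝔫)}
    (hmax : maximalIdeal ↥(locSub B' 𝔫) = Ideal.span {x, y})
    (hc : c ∈ maximalIdeal ↥(locSub B' 𝔫)) :
    locHom φ B' 𝔫 B 𝔪 hφB hcontr c ∈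
      Ideal.span {locHom φ B' 𝔫 B 𝔪 hφB hcontr x, locHom φ B' 𝔫 B 𝔪 hφB hcontr y} := by
  rw [hmax, Ideal.mem_span_pair] at hc
  obtain ⟨a, b, hab⟩ := hc
  rw [Ideal.mem_span_pair]
  exact ⟨locHom φ B' 𝔫 B 𝔪 hφB hcontr a, locHom φ B' 𝔫 B 𝔪 hφB hcontr b, by
    rw [← hab, map_add, map_mul, map_mul]⟩

include hcontr in
/-- an element of `B'` whose image lies in `𝔪_C` lies in the contraction, hence in `𝔪_S`. -/
theorem algebraMap_mem_maximalIdeal_of_map_mem {z : ↥B'}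
    (hz : (⟨φ (z : F'), le_locSub B 𝔪 (hφB _ z.2)⟩ : ↥(locSub B 𝔪)) ∈
      maximalIdeal ↥(locSub B 𝔪)) :
    algebraMap ↥B' ↥(locSub B' 𝔫) z ∈ maximalIdeal ↥(locSub B' 𝔫) := by
  have hmem : (⟨φ z, hφB z z.2⟩ : B) ∈ 𝔪 := by
    by_contra hnot
    have hu : IsUnit (algebraMap ↥B ↥(locSub B 𝔪) ⟨φ z, hφB z z.2⟩) :=
      (IsLocalization.AtPrime.isUnit_to_map_iff ↥(locSub B 𝔪) 𝔪 _).mpr hnot
    exact ((mem_maximalIdeal _).mp hz) hu
  exact (mem_maximalIdeal _).mpr (not_isUnit_of_mem B' 𝔫 (hcontr z hmem))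

/-- units and non-units of a valuation ring through `V.comap φ = W`. -/
theorem inv_mem_of_comap {V : ValuationSubring F} {W : ValuationSubring F'} (hVW : V.comap φ = W)
    {z : F'} (hz : z⁻¹ ∈ W) : (φ z)⁻¹ ∈ V := by
  have : z⁻¹ ∈ V.comap φ := by rw [hVW]; exact hz
  rw [← map_inv₀]; exact this

theorem inv_notMem_of_comap {V : ValuationSubring F} {W : ValuationSubring F'} (hVW : V.comap φ = W)
    {z : F'} (hz : z⁻¹ ∉ W) : (φ z)⁻¹ ∉ V := by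
  intro h
  apply hz
  rw [← hVW]
  show φ z⁻¹ ∈ V
  rw [map_inv₀]; exact h

/-- integral over a subring mapped into a valuation ring ⇒ in the valuation ring. -/
theorem mem_of_isIntegralElem {S : Subalgebra R F'} (V : ValuationSubring F)
    (hS : ∀ a ∈ S, φ a ∈ V) {w : F} (hw : (φ.comp (algebraMap ↥S F')).IsIntegralElem w) :
    w ∈ V := by
  obtain ⟨p, hp, hpw⟩ := hw
  let g : ↥S →+* ↥V :=
    { toFun := fun c => ⟨φ (c : F'), hS _ c.2⟩
      map_one' := Subtype.ext (by simp)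
      map_mul' := fun a b => Subtype.ext (by simp)
      map_zero' := Subtype.ext (by simp)
      map_add' := fun a b => Subtype.ext (by simp) }
  have hwV : IsIntegral ↥V w := by
    refine ⟨p.map g, hp.map g, ?_⟩
    rw [Polynomial.eval₂_map]
    have hcomp : (algebraMap ↥V F).comp g = φ.comp (algebraMap ↥S F') := RingHom.ext fun c => rfl
    rw [hcomp]
    exact hpw
  obtain ⟨v, hv⟩ := (isIntegrallyClosed_iff F).mp (inferInstance : IsIntegrallyClosed ↥V) hwV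
  rw [← hv]
  exact v.2

end LocHom

/-! ### Units and non-units at a vertical ring, from the divisibility clause of R3 -/

section Table

variable {π : R} {S : Subalgebra R F'} {W : ValuationSubring F'} {p : ↥S}

theorem inv_mem_of_not_dvd (hSW : ∀ a ∈ S, a ∈ W)
    (unif : ∀ a ∈ W, a⁻¹ ∉ W → ∃ o ∈ W, a = algebraMap R F' π * o)
    (hO : ∀ a : ↥S, (∃ o ∈ W, (a : F') = algebraMap R F' π * o) ↔ p ∣ a)
    {a : ↥S} (h : ¬ p ∣ a) : ((a : F'))⁻¹ ∈ W := by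
  by_contra hinv
  exact h ((hO a).mp (unif _ (hSW _ a.2) hinv))

theorem inv_notMem_of_dvd (pi_nonunit : (algebraMap R F' π)⁻¹ ∉ W)
    (hO : ∀ a : ↥S, (∃ o ∈ W, (a : F') = algebraMap R F' π * o) ↔ p ∣ a)
    {a : ↥S} (ha : a ≠ 0) (h : p ∣ a) : ((a : F'))⁻¹ ∉ W := by
  intro hinv
  obtain ⟨o, ho, hao⟩ := (hO a).mpr h
  have ha0 : (a : F') ≠ 0 := fun h0 => ha (Subtype.ext h0)
  apply pi_nonunit
  have hπ0 : algebraMap R F' π ≠ 0 := by
    intro h0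
    rw [h0, zero_mul] at hao
    exact ha0 hao
  have ho0 : o ≠ 0 := by
    intro h0
    rw [h0, mul_zero] at hao
    exact ha0 hao
  have : (algebraMap R F' π)⁻¹ = o * ((a : F'))⁻¹ := by
    rw [hao, mul_inv, mul_comm ((algebraMap R F' π)⁻¹), ← mul_assoc, mul_inv_cancel₀ ho0, one_mul]
  rw [this]
  exact W.mul_mem _ _ ho hinv

end Table

/-! ### Consequences of `EisData` -/

section Data

variable {q : ℕ} {π : R} {φ ψ : F' →+* F} {B' : Subalgebra R F'} {B : Subalgebra R F}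
  {hφB : ∀ b ∈ B', φ b ∈ B} {hψB : ∀ b ∈ B', ψ b ∈ B} {𝔪 : Ideal ↥B} [h𝔪 : 𝔪.IsPrime]
  {W1 W2 : ValuationSubring F'} {Vfar : ValuationSubring F}
  {x y s s' c c' : ↥(locSub B' (contract φ B' B hφB 𝔪))} {z : ↥B'}

theorem eisData_xm (D : EisData q π φ ψ B' B hφB hψB 𝔪 W1 W2 Vfar x y s s' c c' z) :
    x ∈ maximalIdeal ↥(locSub B' (contract φ B' B hφB 𝔪)) := by
  rw [D.hmax]; exact Ideal.subset_span (by simp)

theorem eisData_ym (D : EisData q π φ ψ B' B hφB hψB 𝔪 W1 W2 Vfar x y s s' c c' z) :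
    y ∈ maximalIdeal ↥(locSub B' (contract φ B' B hφB 𝔪)) := by
  rw [D.hmax]; exact Ideal.subset_span (by simp)

theorem eisData_x1 (D : EisData q π φ ψ B' B hφB hψB 𝔪 W1 W2 Vfar x y s s' c c' z) :
    ((x : F'))⁻¹ ∈ W1 :=
  inv_mem_of_not_dvd D.hSW1 D.unif1 D.hO1 D.hyx

theorem eisData_x2 (D : EisData q π φ ψ B' B hφB hψB 𝔪 W1 W2 Vfar x y s s' c c' z) :
    ((x : F'))⁻¹ ∉ W2 :=
  inv_notMem_of_dvd D.pi_nonunit2 D.hO2 D.hx.ne_zero dvd_rfl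

theorem eisData_y1 (D : EisData q π φ ψ B' B hφB hψB 𝔪 W1 W2 Vfar x y s s' c c' z) :
    ((y : F'))⁻¹ ∉ W1 :=
  inv_notMem_of_dvd D.pi_nonunit1 D.hO1 D.hy.ne_zero dvd_rfl

theorem eisData_y2 (D : EisData q π φ ψ B' B hφB hψB 𝔪 W1 W2 Vfar x y s s' c c' z) :
    ((y : F'))⁻¹ ∈ W2 :=
  inv_mem_of_not_dvd D.hSW2 D.unif2 D.hO2 D.hxy

theorem eisData_noethS (D : EisData q π φ ψ B' B hφB hψB 𝔪 W1 W2 Vfar x y s s' c c' z) :
    IsNoetherianRing ↥(locSub B' (contract φ B' B hφB 𝔪)) :=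
  IsLocalization.isNoetherianRing (contract φ B' B hφB 𝔪).primeCompl _ D.noeth

theorem eisData_exists_g (D : EisData q π φ ψ B' B hφB hψB 𝔪 W1 W2 Vfar x y s s' c c' z)
    (hq : 2 ≤ q) :
    ∃ g : ↥(locSub B' (contract φ B' B hφB 𝔪)), IsUnit g ∧ s = g * x + c ^ q := by
  have := eisData_noethS D
  exact unit_cofactor hq D.hy D.hyx (eisData_xm D) D.hc D.hs D.hgen1

theorem eisData_exists_g' (D : EisData q π φ ψ B' B hφB hψB 𝔪 W1 W2 Vfar x y s s' c c' z)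
    (hq : 2 ≤ q) :
    ∃ g : ↥(locSub B' (contract φ B' B hφB 𝔪)), IsUnit g ∧ s' = g * y + c' ^ q := by
  have := eisData_noethS D
  exact unit_cofactor hq D.hx D.hxy (eisData_ym D) D.hc' D.hs' D.hgen2

theorem eisData_not_dvd_s' (D : EisData q π φ ψ B' B hφB hψB 𝔪 W1 W2 Vfar x y s s' c c' z) :
    ¬ x ∣ s' := by
  have := eisData_noethS D
  exact not_dvd_of_gen D.hxy (eisData_ym D) D.hgen2

theorem eisData_s'_ne (D : EisData q π φ ψ B' B hφB hψB 𝔪 W1 W2 Vfar x y s s' c c' z) :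
    s' ≠ 0 := fun h0 => (eisData_not_dvd_s' D) (h0 ▸ dvd_zero x)

theorem eisData_s'2 (D : EisData q π φ ψ B' B hφB hψB 𝔪 W1 W2 Vfar x y s s' c c' z) :
    ((s' : F'))⁻¹ ∈ W2 :=
  inv_mem_of_not_dvd D.hSW2 D.unif2 D.hO2 (eisData_not_dvd_s' D)

/-- `C ⊆ V` for every valuation ring `V` of `F` lying over `W1` or over `W2` along `φ`. -/
theorem eisData_le_V (D : EisData q π φ ψ B' B hφB hψB 𝔪 W1 W2 Vfar x y s s' c c' z)
    {V : ValuationSubring F} (hV : V.comap φ = W1 ∨ V.comap φ = W2) :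
    ∀ w ∈ locSub B 𝔪, w ∈ V := by
  intro w hw
  refine mem_of_isIntegralElem φ V ?_ (D.hint w hw)
  intro a ha
  rcases hV with h | h
  · have : a ∈ V.comap φ := by rw [h]; exact D.hSW1 a ha
    exact this
  · have : a ∈ V.comap φ := by rw [h]; exact D.hSW2 a ha
    exact this

end Data


/-! ### The assembly over the two nodes -/

section Main

variable {ι : Type*} [Finite ι]

/-- `C ⊆ V` and `π` a non-unit of `V` ⇒ the component `V` passes through `𝔪`. -/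
theorem not_offBranch_of_le {π : R} (B : Subalgebra R F) (𝔪 : Ideal ↥B) [h𝔪 : 𝔪.IsPrime]
    {V : ValuationSubring F} (hC : ∀ c ∈ locSub B 𝔪, c ∈ V)
    (pi_nonunit : (algebraMap R F π)⁻¹ ∉ V) : ¬ OffBranch π B V 𝔪 := by
  rintro ⟨e, he, c, hc, hec⟩
  have hinv : ((e : F))⁻¹ ∈ V := hC _ (inv_mem_locSub B 𝔪 he)
  have he0 : (e : F) ≠ 0 := coe_ne_zero_of_notMem B 𝔪 he
  have hc0 : c ≠ 0 := by
    intro h0
    rw [h0, mul_zero] at hec
    exact he0 hec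
  apply pi_nonunit
  have : (algebraMap R F π)⁻¹ = c * ((e : F))⁻¹ := by
    rw [hec, mul_inv, mul_comm ((algebraMap R F π)⁻¹), ← mul_assoc, mul_inv_cancel₀ hc0, one_mul]
  rw [this]
  exact V.mul_mem _ _ hc hinv

set_option maxHeartbeats 1000000 in
/-- **R6, assembly over the two nodes**: `EisData` on the `φ`-side and on the `ψ`-side ⇒ regular triple
point with `x₁ = ψ x_ψ`, `x₃ = φ x_φ`. -/
theorem tripleReg_of_eisData {q : ℕ} (hq2 : 2 ≤ q) {π : R} {φ ψ : F' →+* F}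
    (hφR : ∀ r : R, φ (algebraMap R F' r) = algebraMap R F r)
    (hψR : ∀ r : R, ψ (algebraMap R F' r) = algebraMap R F r)
    {B' : Subalgebra R F'} {B : Subalgebra R F}
    {hφB : ∀ b ∈ B', φ b ∈ B} {hψB : ∀ b ∈ B', ψ b ∈ B} {𝔪 : Ideal ↥B} [h𝔪 : 𝔪.IsPrime]
    {W1 W2 : ValuationSubring F'} (O : ι → ValuationSubring F) (i₁ i₂ i₃ : ι)
    (cφ1 : (O i₁).comap φ = W1) (cφ2 : (O i₂).comap φ = W1) (cφ3 : (O i₃).comap φ = W2)
    (cψ1 : (O i₁).comap ψ = W1) (cψ2 : (O i₂).comap ψ = W2) (cψ3 : (O i₃).comap ψ = W2)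
    (noethB : IsNoetherianRing B)
    (frac : ∀ y : F, ∃ a ∈ B, ∃ b ∈ B, b ≠ 0 ∧ y * b = a)
    (leO : ∀ j, ∀ y ∈ B, y ∈ O j)
    (arch : ∀ j, ∀ y : F, ∃ k : ℕ, algebraMap R F π ^ k * y ∈ O j)
    (sat : ∀ b ∈ B, ∀ c : F, (∀ j, c ∈ O j) → b = algebraMap R F π * c → c ∈ B)
    (pi_ne : algebraMap R F π ≠ 0)
    (pi_nonunit₁ : (algebraMap R F π)⁻¹ ∉ O i₁) (pi_nonunit₂ : (algebraMap R F π)⁻¹ ∉ O i₂)
    (pi_nonunit₃ : (algebraMap R F π)⁻¹ ∉ O i₃)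
    (hcover : ∀ j, j = i₁ ∨ j = i₂ ∨ j = i₃ ∨ OffBranch π B (O j) 𝔪)
    {xa ya sa sa' ca ca' : ↥(locSub B' (contract φ B' B hφB 𝔪))} {za : ↥B'}
    (Da : EisData q π φ ψ B' B hφB hψB 𝔪 W1 W2 (O i₃) xa ya sa sa' ca ca' za)
    {xb yb sb sb' cb cb' : ↥(locSub B' (contract ψ B' B hψB 𝔪))} {zb : ↥B'}
    (Db : EisData q π ψ φ B' B hψB hφB 𝔪 W2 W1 (O i₁) xb yb sb sb' cb cb' zb)
    (hram : ∃ ξ : F, (O i₂).valuation ξ ^ (q - 1) = (O i₂).valuation (algebraMap R F π)) :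
    ∃ x₂ : ↥(locSub B 𝔪), TripleReg q π B O 𝔪 i₁ i₂ i₃
      (locHom ψ B' (contract ψ B' B hψB 𝔪) B 𝔪 hψB (fun _ h => h) xb) x₂
      (locHom φ B' (contract φ B' B hφB 𝔪) B 𝔪 hφB (fun _ h => h) xa) := by
  classical
  set La := locHom φ B' (contract φ B' B hφB 𝔪) B 𝔪 hφB (fun _ h => h) with hLa
  set Lb := locHom ψ B' (contract ψ B' B hψB 𝔪) B 𝔪 hψB (fun _ h => h) with hLb
  obtain ⟨ea, hea, hxya⟩ := Da.hprod
  obtain ⟨eb, heb, hxyb⟩ := Db.hprod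
  obtain ⟨g, hg, hsa⟩ := eisData_exists_g Da hq2
  obtain ⟨ga, hga, hsa'⟩ := eisData_exists_g' Da hq2
  obtain ⟨g', hg', hsb⟩ := eisData_exists_g Db hq2
  obtain ⟨gb, hgb, hsb'⟩ := eisData_exists_g' Db hq2
  have hLam : ∀ {c : ↥(locSub B' (contract φ B' B hφB 𝔪))},
      c ∈ maximalIdeal ↥(locSub B' (contract φ B' B hφB 𝔪)) →
      La c ∈ maximalIdeal ↥(locSub B 𝔪) := fun hc =>
    locHom_mem_maximalIdeal φ B' _ B 𝔪 hφB (fun _ h => h) (fun _ h => h) hc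
  have hLbm : ∀ {c : ↥(locSub B' (contract ψ B' B hψB 𝔪))},
      c ∈ maximalIdeal ↥(locSub B' (contract ψ B' B hψB 𝔪)) →
      Lb c ∈ maximalIdeal ↥(locSub B 𝔪) := fun hc =>
    locHom_mem_maximalIdeal ψ B' _ B 𝔪 hψB (fun _ h => h) (fun _ h => h) hc
  have hLaπ : La (algebraMap R ↥(locSub B' (contract φ B' B hφB 𝔪)) π) =
      algebraMap R ↥(locSub B 𝔪) π := locHom_algebraMap φ B' _ B 𝔪 hφB (fun _ h => h) hφR π
  have hLbπ : Lb (algebraMap R ↥(locSub B' (contract ψ B' B hψB 𝔪)) π) =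
      algebraMap R ↥(locSub B 𝔪) π := locHom_algebraMap ψ B' _ B 𝔪 hψB (fun _ h => h) hψR π
  -- the second generators
  set Z : ↥(locSub B 𝔪) := ⟨ψ (za : F'), le_locSub B 𝔪 (hψB _ za.2)⟩ with hZdef
  set Z' : ↥(locSub B 𝔪) := ⟨φ (zb : F'), le_locSub B 𝔪 (hφB _ zb.2)⟩ with hZ'def
  have hEa : maximalIdeal ↥(locSub B 𝔪) = Ideal.span {La sa, Z} := Da.hEis
  have hEb : maximalIdeal ↥(locSub B 𝔪) = Ideal.span {Lb sb, Z'} := Db.hEis
  have hZm : Z ∈ maximalIdeal ↥(locSub B 𝔪) := by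
    rw [hEa]; exact Ideal.subset_span (by simp)
  have hZ'm : Z' ∈ maximalIdeal ↥(locSub B 𝔪) := by
    rw [hEb]; exact Ideal.subset_span (by simp)
  have hZspan : Z ∈ Ideal.span {Lb xb, Lb yb} := by
    have h1 := algebraMap_mem_maximalIdeal_of_map_mem ψ B' (contract ψ B' B hψB 𝔪) B 𝔪 hψB
      (fun _ h => h) (z := za) hZm
    have h2 := locHom_mem_span_pair ψ B' _ B 𝔪 hψB (fun _ h => h) Db.hmax h1
    have h3 : Lb (algebraMap ↥B' ↥(locSub B' (contract ψ B' B hψB 𝔪)) za) = Z := Subtype.ext rfl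
    rwa [h3] at h2
  have hZ'span : Z' ∈ Ideal.span {La xa, La ya} := by
    have h1 := algebraMap_mem_maximalIdeal_of_map_mem φ B' (contract φ B' B hφB 𝔪) B 𝔪 hφB
      (fun _ h => h) (z := zb) hZ'm
    have h2 := locHom_mem_span_pair φ B' _ B 𝔪 hφB (fun _ h => h) Da.hmax h1
    have h3 : La (algebraMap ↥B' ↥(locSub B' (contract φ B' B hφB 𝔪)) zb) = Z' := Subtype.ext rfl
    rwa [h3] at h2
  -- the products
  have hα : La ya * La xa = algebraMap R ↥(locSub B 𝔪) π * La ea := by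
    have := congrArg La hxya
    rw [map_mul, map_mul, hLaπ] at this
    rw [mul_comm]; exact this
  have hβ : Lb xb * Lb yb = algebraMap R ↥(locSub B 𝔪) π * Lb eb := by
    have := congrArg Lb hxyb
    rw [map_mul, map_mul, hLbπ] at this
    exact this
  -- the Kronecker parametrisations
  have hX : La sa = La g * La xa + La ca ^ q := by
    have := congrArg La hsa
    rwa [map_add, map_mul, map_pow] at this
  have hYa : La sa' = La ga * La ya + La ca' ^ q := by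
    have := congrArg La hsa'
    rwa [map_add, map_mul, map_pow] at this
  have hX' : Lb sb = Lb g' * Lb xb + Lb cb ^ q := by
    have := congrArg Lb hsb
    rwa [map_add, map_mul, map_pow] at this
  have hYb : Lb sb' = Lb gb * Lb yb + Lb cb' ^ q := by
    have := congrArg Lb hsb'
    rwa [map_add, map_mul, map_pow] at this
  have hYa0 : La sa' ≠ 0 :=
    (map_ne_zero_iff La (locHom_injective φ B' _ B 𝔪 hφB (fun _ h => h))).mpr (eisData_s'_ne Da)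
  have hYb0 : Lb sb' ≠ 0 :=
    (map_ne_zero_iff Lb (locHom_injective ψ B' _ B 𝔪 hψB (fun _ h => h))).mpr (eisData_s'_ne Db)
  exact TripleEis29.tripleReg_of_two_eis q hq2 π B O 𝔪 i₁ i₂ i₃ noethB frac leO arch sat pi_ne
    pi_nonunit₁ pi_nonunit₂ pi_nonunit₃ hcover
    (eisData_le_V Da (Or.inl cφ1)) (eisData_le_V Da (Or.inl cφ2)) (eisData_le_V Da (Or.inr cφ3))
    (Lb xb) (La xa) (La ya) (Lb yb) (La ea) (Lb eb) (La sa) Z (Lb sb) Z' (La sa') (Lb sb')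
    (La g) (Lb g') (La ga) (Lb gb) (La ca) (Lb cb) (La ca') (Lb cb')
    hα (hea.map La) hβ (heb.map Lb)
    hEa (hg.map La) (hLam Da.hc) hX hZspan
    (hga.map La) (locHom_mem_span_pair φ B' _ B 𝔪 hφB (fun _ h => h) Da.hmax Da.hc') hYa hYa0
    (inv_mem_of_comap φ cφ3 (eisData_s'2 Da)) Da.hK
    hEb (hg'.map Lb) (hLbm Db.hc) hX' hZ'span
    (hgb.map Lb) (locHom_mem_span_pair ψ B' _ B 𝔪 hψB (fun _ h => h) Db.hmax Db.hc') hYb hYb0
    (inv_mem_of_comap ψ cψ1 (eisData_s'2 Db)) Db.hK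
    (inv_notMem_of_comap ψ cψ1 (eisData_x2 Db)) (inv_mem_of_comap φ cφ1 (eisData_x1 Da))
    (inv_mem_of_comap ψ cψ1 (eisData_y2 Db)) (inv_notMem_of_comap φ cφ1 (eisData_y1 Da))
    (inv_notMem_of_comap φ cφ3 (eisData_x2 Da)) (inv_mem_of_comap ψ cψ3 (eisData_x1 Db))
    (inv_mem_of_comap φ cφ3 (eisData_y2 Da)) (inv_notMem_of_comap ψ cψ3 (eisData_y1 Db))
    (inv_mem_of_comap ψ cψ2 (eisData_x1 Db)) (inv_mem_of_comap φ cφ2 (eisData_x1 Da))
    hram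

end Main


/-! ### The two targets of R6 from the shared contract -/

section Cross

set_option maxHeartbeats 1000000 in
/-- **R6 for one chart**: `EisAt` on the `φ`-side and on the `ψ`-side ⇒ the two targets `hR6α`, `hR6β` of
`PtsAsm9.pts_of_targets` (= `PtsModel9.CrossAt` for `φ` and for `ψ`). -/
theorem crossAt_of_eisAt {q : ℕ} (hq2 : 2 ≤ q) {π : R} {φ ψ : F' →+* F}
    (hφR : ∀ r : R, φ (algebraMap R F' r) = algebraMap R F r)
    (hψR : ∀ r : R, ψ (algebraMap R F' r) = algebraMap R F r)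
    {B' : Subalgebra R F'} {B : Subalgebra R F}
    (hφB : ∀ b ∈ B', φ b ∈ B) (hψB : ∀ b ∈ B', ψ b ∈ B)
    {W1 W2 : ValuationSubring F'} (O : Fin 3 → ValuationSubring F)
    (cφ0 : (O 0).comap φ = W1) (cφ1 : (O 1).comap φ = W1) (cφ2 : (O 2).comap φ = W2)
    (cψ0 : (O 0).comap ψ = W1) (cψ1 : (O 1).comap ψ = W2) (cψ2 : (O 2).comap ψ = W2)
    (noethB : IsNoetherianRing B)
    (frac : ∀ y : F, ∃ a ∈ B, ∃ b ∈ B, b ≠ 0 ∧ y * b = a)
    (leO : ∀ j, ∀ y ∈ B, y ∈ O j)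
    (arch : ∀ j, ∀ y : F, ∃ k : ℕ, algebraMap R F π ^ k * y ∈ O j)
    (sat : ∀ b ∈ B, ∀ c : F, (∀ j, c ∈ O j) → b = algebraMap R F π * c → c ∈ B)
    (pi_ne : algebraMap R F π ≠ 0)
    (pi_nonunit : ∀ j, (algebraMap R F π)⁻¹ ∉ O j)
    (hram : ∃ ξ : F, (O 1).valuation ξ ^ (q - 1) = (O 1).valuation (algebraMap R F π))
    (hEa : EisAt q π φ ψ B' B W1 W2 (O 2)) (hEb : EisAt q π ψ φ B' B W2 W1 (O 0)) :
    (∀ (𝔪 : Ideal ↥B) (h𝔪 : 𝔪.IsMaximal), algebraMap R ↥B π ∈ 𝔪 →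
      ¬ OffBranch π B' W1 (contract φ B' B hφB 𝔪) →
      ¬ OffBranch π B' W2 (contract φ B' B hφB 𝔪) →
      ∃ (x₁ x₂ x₃ : ↥(@locSub R F _ _ _ B 𝔪 h𝔪.isPrime)),
        @TripleReg R F _ _ _ q π B (Fin 3) O 𝔪 h𝔪.isPrime 0 1 2 x₁ x₂ x₃) ∧
    (∀ (𝔪 : Ideal ↥B) (h𝔪 : 𝔪.IsMaximal), algebraMap R ↥B π ∈ 𝔪 →
      ¬ OffBranch π B' W1 (contract ψ B' B hψB 𝔪) →
      ¬ OffBranch π B' W2 (contract ψ B' B hψB 𝔪) →
      ∃ (x₁ x₂ x₃ : ↥(@locSub R F _ _ _ B 𝔪 h𝔪.isPrime)),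
        @TripleReg R F _ _ _ q π B (Fin 3) O 𝔪 h𝔪.isPrime 0 1 2 x₁ x₂ x₃) := by
  have hcover : ∀ (𝔪 : Ideal ↥B) (j : Fin 3), j = 0 ∨ j = 1 ∨ j = 2 ∨ OffBranch π B (O j) 𝔪 := by
    intro 𝔪 j
    fin_cases j
    · exact Or.inl rfl
    · exact Or.inr (Or.inl rfl)
    · exact Or.inr (Or.inr (Or.inl rfl))
  constructor
  · intro 𝔪 h𝔪 hπ𝔪 h1 h2
    have := h𝔪.isPrime
    obtain ⟨xa, ya, sa, sa', ca, ca', za, Da⟩ := hEa hφB hψB 𝔪 h𝔪 hπ𝔪 h1 h2
    have h1ψ : ¬ OffBranch π B' W1 (contract ψ B' B hψB 𝔪) := fun h =>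
      not_offBranch_of_le B 𝔪 (eisData_le_V Da (Or.inl cφ0)) (pi_nonunit 0)
        (offBranch_of_contract ψ hψR B' B hψB 𝔪 π cψ0 h)
    have h2ψ : ¬ OffBranch π B' W2 (contract ψ B' B hψB 𝔪) := fun h =>
      not_offBranch_of_le B 𝔪 (eisData_le_V Da (Or.inr cφ2)) (pi_nonunit 2)
        (offBranch_of_contract ψ hψR B' B hψB 𝔪 π cψ2 h)
    obtain ⟨xb, yb, sb, sb', cb, cb', zb, Db⟩ := hEb hψB hφB 𝔪 h𝔪 hπ𝔪 h2ψ h1ψ
    obtain ⟨x₂, h⟩ := tripleReg_of_eisData hq2 hφR hψR O 0 1 2 cφ0 cφ1 cφ2 cψ0 cψ1 cψ2 noethB frac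
      leO arch sat pi_ne (pi_nonunit 0) (pi_nonunit 1) (pi_nonunit 2) (hcover 𝔪) Da Db hram
    exact ⟨_, x₂, _, h⟩
  · intro 𝔪 h𝔪 hπ𝔪 h1 h2
    have := h𝔪.isPrime
    obtain ⟨xb, yb, sb, sb', cb, cb', zb, Db⟩ := hEb hψB hφB 𝔪 h𝔪 hπ𝔪 h2 h1
    have h1φ : ¬ OffBranch π B' W1 (contract φ B' B hφB 𝔪) := fun h =>
      not_offBranch_of_le B 𝔪 (eisData_le_V Db (Or.inr cψ0)) (pi_nonunit 0)
        (offBranch_of_contract φ hφR B' B hφB 𝔪 π cφ0 h)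
    have h2φ : ¬ OffBranch π B' W2 (contract φ B' B hφB 𝔪) := fun h =>
      not_offBranch_of_le B 𝔪 (eisData_le_V Db (Or.inl cψ2)) (pi_nonunit 2)
        (offBranch_of_contract φ hφR B' B hφB 𝔪 π cφ2 h)
    obtain ⟨xa, ya, sa, sa', ca, ca', za, Da⟩ := hEa hφB hψB 𝔪 h𝔪 hπ𝔪 h1φ h2φ
    obtain ⟨x₂, h⟩ := tripleReg_of_eisData hq2 hφR hψR O 0 1 2 cφ0 cφ1 cφ2 cψ0 cψ1 cψ2 noethB frac
      leO arch sat pi_ne (pi_nonunit 0) (pi_nonunit 1) (pi_nonunit 2) (hcover 𝔪) Da Db hram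
    exact ⟨_, x₂, _, h⟩

end Cross

end Fermat.Agent.ES.P36.CrossAsm29
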