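/-
Program P (S36), chapter MODEL-P, brick M7-abstract (helper9): **the generic part of
`MultiCore13.MultiChartModel`** — twin of `ChartN26.nodalTwoChartModel_of` for a FAMILY of vertical
valuation rings of arbitrary multiplicities (no uniformiser fields).

For the charts `chart R t`, `chart R t⁻¹` all fields of `MultiChartModel` that do not involve the
vertical valuation rings hold; `le_O_*` follow from `R ⊆ O i`, `t^{±1} ∈ O i`; the remaining fields
(`pi_ne`, `pi_nonunit`, `arch`, `sat0`, `sat1`) are hypotheses.
(For the middle valuation `v₂`, known only through `ModelDefsP9.IsMid`: `arch` is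
`TwoExtCor22.arch_of_comap` on main.)
-/
import Mathlib
import Fermat.Agent.ES.N34.ChartN26
import Fermat.Agent.ES.P36.MultiCore13

set_option autoImplicit false

namespace Fermat.Agent.ES.P36.ModelAsmP9

open Polynomial Fermat.Agent.RED.PUR.ChartGeneric22 Fermat.Agent.ES.P36.MultiCore13

section Abstract

variable {R K F : Type*} [CommRing R] [IsDomain R] [Field K] [Field F] [Algebra R K] [Algebra K F]
  [Algebra R F] [IsScalarTower R K F] [IsFractionRing R K] [IsNoetherianRing R]
  [IsIntegrallyClosed R] [CharZero K]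

/-- **The generic part of `MultiChartModel`.** -/
theorem multiChartModel_of {π : R} {t : F} {ι : Type*} [Nonempty ι] (O : ι → ValuationSubring F)
    [FiniteDimensional (IntermediateField.adjoin K {t}) F] (htr : Transcendental K t)
    (R_le_O : ∀ i, ∀ r : R, algebraMap R F r ∈ O i)
    (t_mem_O : ∀ i, t ∈ O i) (tinv_mem_O : ∀ i, t⁻¹ ∈ O i)
    (pi_ne : algebraMap R F π ≠ 0)
    (pi_nonunit : ∀ i, (algebraMap R F π)⁻¹ ∉ O i)
    (arch : ∀ i, ∀ x : F, ∃ k : ℕ, algebraMap R F π ^ k * x ∈ O i)
    (sat0 : ∀ b ∈ chart R t, ∀ c : F, (∀ i, c ∈ O i) → b = algebraMap R F π * c → c ∈ chart R t)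
    (sat1 : ∀ b ∈ chart R t⁻¹, ∀ c : F, (∀ i, c ∈ O i) → b = algebraMap R F π * c →
      c ∈ chart R t⁻¹) :
    MultiChartModel R F π t (chart R t) (chart R t⁻¹) O := by
  have ht0 : t ≠ 0 := by
    rintro rfl
    exact htr (isAlgebraic_zero)
  have hmem : t ∈ IntermediateField.adjoin K {t} := IntermediateField.mem_adjoin_simple_self K t
  obtain ⟨-, -, hg0⟩ := chart_facts (R := R) (IntermediateField.adjoin K {t}) hmem le_rfl htr
  exact
    { noethR := inferInstance
      nonempty := inferInstance
      t_ne := ht0
      t_mem := self_mem_chart t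
      tinv_mem := self_mem_chart t⁻¹
      intcl0 := chart_intcl t
      intcl1 := chart_intcl t⁻¹
      int0 := fun x hx => hx
      int1 := fun x hx => hx
      fin0 := hg0
      ov0 := fun x hx => exists_pow_mul_mem_chart ht0 hx
      ov1 := fun x hx => by
        have hx' : x ∈ chart R (t⁻¹)⁻¹ := by rwa [inv_inv]
        exact exists_pow_mul_mem_chart (inv_ne_zero ht0) hx'
      le_O_0 := fun i => chart_le_valuationSubring (O i) (R_le_O i) (t_mem_O i)
      le_O_1 := fun i => chart_le_valuationSubring (O i) (R_le_O i) (tinv_mem_O i)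
      tinv_mem_O := tinv_mem_O
      pi_ne := pi_ne
      pi_nonunit := pi_nonunit
      arch := arch
      sat0 := sat0
      sat1 := sat1 }

end Abstract

end Fermat.Agent.ES.P36.ModelAsmP9
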