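/-
Program P (S36), chapter MODEL-P, brick M7 (helper4), GENERIC half: **the MODEL-P/REG contract
`NumInputP13.NumInputP` over a Gauss base** `(O, E)`, `O ⊂ K` a DVR, `E ≤ K((𝐪))`,
`t ∈ E ∩ gaussRing O` with transcendental residue and `[E : K(t)] ≠ 0`, charts `chart ↥O t^{±1}`,
for a FAMILY `Of : ι → ValuationSubring ↥E` of vertical valuation rings ALL LYING OVER the Gauss
valuation of `K(t)`.

* `VertFacts π t V` — the elementary vertical facts about ONE valuation ring (`R ⊆ V`, `t^{±1} ∈ V`,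
  `π⁻¹ ∉ V`, rank one);
* `vertFacts_of_pullback` — they hold for a Gauss pull-back (`GaussEmb22`);
* `vertFacts_of_over` — they transfer to EVERY valuation ring with the same restriction to `K(t)`
  (all of `R`, `t`, `t⁻¹`, `π⁻¹` lie in `K(t)`; rank one by `TwoExtCor22.arch_of_comap`) — this is
  how the MIDDLE ring `v₂`, known only through `ModelDefsP9.IsMid`, is handled;
* `multiChartModel_of_sat` — the model `MultiCore13.MultiChartModel` from `sat0`/`sat1`;
* `numInputP_of_model`, `numInputP_of_sat` — the contract from the model resp. from `sat0`/`sat1`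
  (+ `pts0`/`pts1`, `q`-data);
* `hcen_of_pullback` — the centre of a Gauss pull-back on `O[t^{±1}]` is `(π)` (the `hcen0/hcen1`
  of `SatFam22.sat_both_fam`).
No number fields here: everything is generic in `(K, O, E)`.
-/
import Mathlib
import Fermat.Agent.ES.N34.ChartN26
import Fermat.Agent.ES.N34.GaussEmb22
import Fermat.Agent.ES.N34.G2Out22
import Fermat.Agent.ES.P36.MultiCore13
import Fermat.Agent.ES.P36.NumInputP13
import Fermat.Agent.ES.P36.ModelAsmP9

set_option autoImplicit false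

noncomputable section

open HahnSeries IntermediateField

namespace Fermat.Agent.ES.P36.ModelGauss4

open Fermat.Agent.RED.PUR.GaussGen8 Fermat.Agent.RED.PUR.KtGauss8
  Fermat.Agent.RED.PUR.ChartGeneric22 Fermat.Agent.RED.NumInst4 Fermat.Agent.RED.ModelAsm4
  Fermat.Agent.ES.N34.GaussEmb22 Fermat.Agent.ES.N34.ChartN26
  Fermat.Agent.ES.P36.MultiCore13 Fermat.Agent.ES.P36.NumInputP13
  Fermat.Agent.ES.P36.NumAbsP13 Fermat.Agent.ES.P36.TripleReg13
  Fermat.Agent.ES.N34.NodalSmooth13

section VertDef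

variable {R F : Type*} [CommRing R] [Field F] [Algebra R F]

/-- The elementary vertical facts about ONE valuation ring `V` of `F`. -/
structure VertFacts (π : R) (t : F) (V : ValuationSubring F) : Prop where
  R_le : ∀ r : R, algebraMap R F r ∈ V
  t_mem : t ∈ V
  tinv_mem : t⁻¹ ∈ V
  pi_nonunit : (algebraMap R F π)⁻¹ ∉ V
  arch : ∀ x : F, ∃ k : ℕ, algebraMap R F π ^ k * x ∈ V

end VertDef

section Vert

variable {R K F : Type*} [CommRing R] [Field K] [Field F] [Algebra R K] [Algebra K F]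
  [Algebra R F] [IsScalarTower R K F]

/-- Equal restrictions to `K(t)`, elementwise. -/
theorem mem_iff_of_comap_eq {t : F} {V W : ValuationSubring F}
    (hover : W.comap (algebraMap (IntermediateField.adjoin K {t}) F) =
      V.comap (algebraMap (IntermediateField.adjoin K {t}) F)) :
    ∀ a : F, a ∈ IntermediateField.adjoin K {t} → (a ∈ W ↔ a ∈ V) := by
  intro a ha
  have := congrArg (fun U : ValuationSubring (IntermediateField.adjoin K {t}) =>
    (⟨a, ha⟩ : IntermediateField.adjoin K {t}) ∈ U) hover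
  simp only [ValuationSubring.mem_comap, eq_iff_iff] at this
  exact this

theorem comap_eq_of_mem_iff {t : F} {V W : ValuationSubring F}
    (h : ∀ a : F, a ∈ IntermediateField.adjoin K {t} → (a ∈ W ↔ a ∈ V)) :
    W.comap (algebraMap (IntermediateField.adjoin K {t}) F) =
      V.comap (algebraMap (IntermediateField.adjoin K {t}) F) := by
  ext a
  rw [ValuationSubring.mem_comap, ValuationSubring.mem_comap]
  exact h _ a.2

/-- **Transfer along equal restrictions to `K(t)`.** -/
theorem vertFacts_of_over {π : R} {t : F} {V W : ValuationSubring F}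
    [Algebra.IsAlgebraic (IntermediateField.adjoin K {t}) F]
    (hV : VertFacts π t V)
    (hover : W.comap (algebraMap (IntermediateField.adjoin K {t}) F) =
      V.comap (algebraMap (IntermediateField.adjoin K {t}) F)) : VertFacts π t W := by
  have hmem := mem_iff_of_comap_eq (K := K) hover
  have ht : t ∈ IntermediateField.adjoin K {t} := IntermediateField.mem_adjoin_simple_self K t
  have hR : ∀ r : R, algebraMap R F r ∈ IntermediateField.adjoin K {t} := by
    intro r
    rw [IsScalarTower.algebraMap_apply R K F]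
    exact (IntermediateField.adjoin K {t}).algebraMap_mem _
  refine ⟨fun r => (hmem _ (hR r)).mpr (hV.R_le r), (hmem _ ht).mpr hV.t_mem,
    (hmem _ (inv_mem ht)).mpr hV.tinv_mem, fun h => hV.pi_nonunit ((hmem _ (inv_mem (hR π))).mp h),
    ?_⟩
  have key := Fermat.Agent.ES.N34.TwoExtCor22.arch_of_comap
    (E := IntermediateField.adjoin K {t}) (F := F) W (⟨algebraMap R F π, hR π⟩ :
      IntermediateField.adjoin K {t}) (by
      intro a
      obtain ⟨k, hk⟩ := hV.arch (a : F)
      refine ⟨k, ?_⟩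
      rw [hover, ValuationSubring.mem_comap]
      exact hk)
  exact key

end Vert

section Pts

variable {R F : Type*} [CommRing R] [Field F] [Algebra R F]

/-- The classification of the closed points of the special fibre of ONE chart `B` (the literal
`pts0`/`pts1` field of `NumInputP13.NumInputP`): every maximal ideal `𝔪 ∋ π` is a single-branch
point (`NumAbsP13.OneBranch`) or a regular ordinary triple point of the components `j₁ j₂ j₃`
(`TripleReg13.TripleReg`).  Target shape of brick R9. -/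
def PtsAt (q : ℕ) (π : R) (B : Subalgebra R F) {ι : Type*} (Of : ι → ValuationSubring F)
    (j₁ j₂ j₃ : ι) : Prop :=
  ∀ (𝔪 : Ideal B) (h𝔪 : 𝔪.IsMaximal), algebraMap R B π ∈ 𝔪 →
    @OneBranch R F _ _ _ q π B ι Of 𝔪 h𝔪.isPrime ∨
    ∃ (x₁ x₂ x₃ : ↥(@locSub R F _ _ _ B 𝔪 h𝔪.isPrime)),
      @TripleReg R F _ _ _ q π B ι Of 𝔪 h𝔪.isPrime j₁ j₂ j₃ x₁ x₂ x₃

end Pts

section Gauss

variable {K : Type*} [Field K] {O : ValuationSubring K} [IsDiscreteValuationRing ↥O]
  {E : IntermediateField K (LaurentSeries K)}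

/-- **The vertical facts for a Gauss pull-back.** -/
theorem vertFacts_of_pullback {π : ↥O} (hπ : Irreducible π)
    {ι₁ : ↥E →ₐ[K] LaurentSeries K} {V : ValuationSubring ↥E} (hV : IsGaussPullback O ι₁ V)
    {t : ↥E} (ht : ι₁ t ∈ gaussRing O)
    (htr : Transcendental (Res O) (gaussRed O ⟨ι₁ t, ht⟩)) : VertFacts π t V := by
  have : IsScalarTower ↥O K ↥E := isScalarTower_OE O E
  refine ⟨algebraMap_O_mem hV, (hV t).mpr ht,
    (hV _).mpr (Fermat.Agent.ES.N34.G2Out22.map_inv_mem ht htr), ?_, ?_⟩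
  · rw [algebraMap_O_eq]; exact pi_inv_not_mem hV hπ
  · intro x
    obtain ⟨k, hk⟩ := arch hV hπ x
    exact ⟨k, by rw [algebraMap_O_eq]; exact hk⟩

/-- **The centre of a Gauss pull-back on `O[t]` and `O[t⁻¹]` is `(π)`.** -/
theorem hcen_of_pullback {π : ↥O} (hπ : Irreducible π)
    {ι₁ : ↥E →ₐ[K] LaurentSeries K} {V : ValuationSubring ↥E} (hV : IsGaussPullback O ι₁ V)
    {t : ↥E} (ht : ι₁ t ∈ gaussRing O)
    (htr : Transcendental (Res O) (gaussRed O ⟨ι₁ t, ht⟩)) :
    V.valuation (algebraMap ↥O ↥E π) < 1 ∧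
    (∀ p ∈ Algebra.adjoin ↥O {t}, V.valuation p < 1 →
      ∃ p' ∈ Algebra.adjoin ↥O {t}, p = algebraMap ↥O ↥E π * p') ∧
    (∀ p ∈ Algebra.adjoin ↥O {t⁻¹}, V.valuation p < 1 →
      ∃ p' ∈ Algebra.adjoin ↥O {t⁻¹}, p = algebraMap ↥O ↥E π * p') := by
  have : IsScalarTower ↥O K ↥E := isScalarTower_OE O E
  refine ⟨by rw [algebraMap_O_eq]; exact val_pi_lt_one hV hπ, center_adjoin hV hπ ht htr,
    center_adjoin hV hπ (Fermat.Agent.ES.N34.G2Out22.map_inv_mem ht htr)
      (Fermat.Agent.ES.N34.G2Out22.transcendental_inv ht htr)⟩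

variable [CharZero K]

/-- **The multi-component two-chart model over a Gauss base**, from the vertical facts and
saturation. -/
theorem multiChartModel_of_sat {π : ↥O} (hπ : Irreducible π)
    (t : ↥E) (ht : (t : LaurentSeries K) ∈ gaussRing O)
    (htr : Transcendental (Res O) (gaussRed O ⟨(t : LaurentSeries K), ht⟩))
    (hn : relfinrank (Kt O ⟨(t : LaurentSeries K), ht⟩) E ≠ 0)
    {ι : Type*} [Nonempty ι] (Of : ι → ValuationSubring ↥E)
    (hvert : ∀ i, VertFacts π t (Of i))
    (sat0 : ∀ b ∈ chart ↥O t, ∀ c : ↥E, (∀ i, c ∈ Of i) → b = algebraMap ↥O ↥E π * c →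
      c ∈ chart ↥O t)
    (sat1 : ∀ b ∈ chart ↥O t⁻¹, ∀ c : ↥E, (∀ i, c ∈ Of i) → b = algebraMap ↥O ↥E π * c →
      c ∈ chart ↥O t⁻¹) :
    MultiChartModel ↥O ↥E π t (chart ↥O t) (chart ↥O t⁻¹) Of := by
  have : IsScalarTower ↥O K ↥E := isScalarTower_OE O E
  have : FiniteDimensional ↥(IntermediateField.adjoin K {t}) ↥E := finiteDimensional_adjoin t hn
  have htrK : Transcendental K t :=
    transcendental_of_coe t (transcendental_t (tG := ⟨(t : LaurentSeries K), ht⟩) hπ htr)
  have hπ0 : algebraMap ↥O ↥E π ≠ 0 := by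
    rw [algebraMap_O_eq (K := K)]
    intro h0
    exact hπ.ne_zero (Subtype.ext ((map_eq_zero_iff _ (algebraMap K ↥E).injective).mp h0))
  exact Fermat.Agent.ES.P36.ModelAsmP9.multiChartModel_of (R := ↥O) (K := K) (F := ↥E) Of
    htrK (fun i => (hvert i).R_le) (fun i => (hvert i).t_mem) (fun i => (hvert i).tinv_mem)
    hπ0 (fun i => (hvert i).pi_nonunit) (fun i => (hvert i).arch) sat0 sat1

set_option maxHeartbeats 1600000 in
/-- **The contract `NumInputP` over a Gauss base**, from the model, the `q`-data and the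
classification of the closed points. -/
theorem numInputP_of_model {π : ↥O} (hπ : Irreducible π)
    (t : ↥E) (ht : (t : LaurentSeries K) ∈ gaussRing O)
    (htr : Transcendental (Res O) (gaussRed O ⟨(t : LaurentSeries K), ht⟩))
    (hn : relfinrank (Kt O ⟨(t : LaurentSeries K), ht⟩) E ≠ 0)
    {q : ℕ} (hq : q.Prime) (hqπ : ∃ r : ↥O, (q : ↥O) = π * r)
    {ι : Type*} (Of : ι → ValuationSubring ↥E)
    (hmodel : MultiChartModel ↥O ↥E π t (chart ↥O t) (chart ↥O t⁻¹) Of)
    (j₁ j₂ j₃ : ι)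
    (pts0 : PtsAt q π (chart ↥O t) Of j₁ j₂ j₃) (pts1 : PtsAt q π (chart ↥O t⁻¹) Of j₁ j₂ j₃) :
    haveI := isScalarTower_OE O E
    NumInputP ↥O K ↥E q π t (chart ↥O t) (chart ↥O t⁻¹) Of j₁ j₂ j₃ := by
  have : IsScalarTower ↥O K ↥E := isScalarTower_OE O E
  have : FiniteDimensional ↥(IntermediateField.adjoin K {t}) ↥E := finiteDimensional_adjoin t hn
  have htrK : Transcendental K t :=
    transcendental_of_coe t (transcendental_t (tG := ⟨(t : LaurentSeries K), ht⟩) hπ htr)
  obtain ⟨hn0, hn1, hf0, hf1⟩ := chart_noeth_frac (R := ↥O) (K := K) (F := ↥E) htrK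
  exact
    { model := hmodel
      fracR := inferInstance
      dvrR := dvr_factor hπ
      noeth0 := hn0
      noeth1 := hn1
      frac0 := hf0
      frac1 := hf1
      qprime := hq
      qpi := hqπ
      algClosed := fun y hy => by
        obtain ⟨c, hc⟩ :=
          Fermat.Agent.RED.PUR.GaussBridge10.exists_algebraMap_eq_of_isAlgebraic E hy
        exact ⟨c, hc.symm⟩
      pts0 := pts0
      pts1 := pts1 }

set_option maxHeartbeats 1600000 in
/-- **The contract `NumInputP` over a Gauss base**, from the vertical facts, saturation, the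
`q`-data and the classification of the closed points. -/
theorem numInputP_of_sat {π : ↥O} (hπ : Irreducible π)
    (t : ↥E) (ht : (t : LaurentSeries K) ∈ gaussRing O)
    (htr : Transcendental (Res O) (gaussRed O ⟨(t : LaurentSeries K), ht⟩))
    (hn : relfinrank (Kt O ⟨(t : LaurentSeries K), ht⟩) E ≠ 0)
    {q : ℕ} (hq : q.Prime) (hqπ : ∃ r : ↥O, (q : ↥O) = π * r)
    {ι : Type*} [Nonempty ι] (Of : ι → ValuationSubring ↥E)
    (hvert : ∀ i, VertFacts π t (Of i))
    (sat0 : ∀ b ∈ chart ↥O t, ∀ c : ↥E, (∀ i, c ∈ Of i) → b = algebraMap ↥O ↥E π * c →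
      c ∈ chart ↥O t)
    (sat1 : ∀ b ∈ chart ↥O t⁻¹, ∀ c : ↥E, (∀ i, c ∈ Of i) → b = algebraMap ↥O ↥E π * c →
      c ∈ chart ↥O t⁻¹)
    (j₁ j₂ j₃ : ι)
    (pts0 : PtsAt q π (chart ↥O t) Of j₁ j₂ j₃) (pts1 : PtsAt q π (chart ↥O t⁻¹) Of j₁ j₂ j₃) :
    haveI := isScalarTower_OE O E
    NumInputP ↥O K ↥E q π t (chart ↥O t) (chart ↥O t⁻¹) Of j₁ j₂ j₃ :=
  numInputP_of_model hπ t ht htr hn hq hqπ Of
    (multiChartModel_of_sat hπ t ht htr hn Of hvert sat0 sat1) j₁ j₂ j₃ pts0 pts1

end Gauss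

end Fermat.Agent.ES.P36.ModelGauss4
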