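/-
Program P (S36), chapter (MODEL-P), brick (SAT-family), helper22: saturation of a normal chart in
the intersection of a FAMILY of valuation rings, ABSTRACT form.  Family version of
`ES/N34/SatTwo22` (same proof: Hartogs + completeness of the list of vertical valuation rings).

`O : ι → ValuationSubring F`, `i₀ : ι` a distinguished member (`O i₀ ⊇ B` with centre `(π)` on `P`),
and EVERY valuation subring of `F` with the same restriction to `E` as `O i₀` is some `O i`
(`ES/P36/FundIneq22.eq_or_eq_of_valIndep`, applied along a tower).  Then `B` is `π`-saturated in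
`⋂ᵢ O i`: `b ∈ B`, `b = π c`, `c ∈ O i` for all `i` imply `c ∈ B`.  This is `sat0`/`sat1` of
`MultiCore13.MultiChartModel`.
-/
import Mathlib
import Fermat.Agent.RED.PUR.Hartogs22
import Fermat.Agent.RED.PUR.UniqueExt20
import Fermat.Agent.RED.PUR.SatUniq24
import Fermat.Agent.RED.PUR.SatChart24
import Fermat.Agent.RED.PUR.ChartGeneric22

set_option autoImplicit false

namespace Fermat.Agent.ES.P36.SatFam22

open Fermat.Agent.RED.PUR

section Abstract

variable {P B E F : Type*} [CommRing P] [IsDomain P] [IsNoetherianRing P] [IsIntegrallyClosed P]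
  [Field E] [Algebra P E] [IsFractionRing P E]
  [CommRing B] [IsDomain B] [IsNoetherianRing B] [IsIntegrallyClosed B]
  [Algebra P B] [Algebra.IsIntegral P B] [FaithfulSMul P B]
  [Field F] [Algebra B F] [IsFractionRing B F]
  [Algebra E F] [Algebra P F] [IsScalarTower P B F] [IsScalarTower P E F]

/-- **Saturation from completeness of the family.** -/
theorem sat_of_family (π : P) (hπ : Prime π) {ι : Type*} (O : ι → ValuationSubring F) (i₀ : ι)
    (hB : ∀ b : B, algebraMap B F b ∈ O i₀)
    (hcen : ∀ p : P, (O i₀).valuation (algebraMap P F p) < 1 ↔ π ∣ p)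
    (hall : ∀ V : ValuationSubring F,
      V.comap (algebraMap E F) = (O i₀).comap (algebraMap E F) → ∃ i, V = O i)
    (b : B) (c : F) (hc : ∀ i, c ∈ O i)
    (hbc : algebraMap B F b = algebraMap P F π * c) :
    ∃ b' : B, algebraMap B F b' = c := by
  have hprime : (Ideal.span {π}).IsPrime := (Ideal.span_singleton_prime hπ.ne_zero).mpr hπ
  have hPF : ∀ p : P, algebraMap P F p = algebraMap B F (algebraMap P B p) := fun p =>
    IsScalarTower.algebraMap_apply P B F p
  have hPEF : ∀ p : P, algebraMap P F p = algebraMap E F (algebraMap P E p) := fun p =>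
    IsScalarTower.algebraMap_apply P E F p
  have key : c ∈ (algebraMap B F).range := by
    rw [Hartogs22.mem_range_iff_forall_mem_valuationSubringAt]
    intro 𝔮 _ h
    by_cases hπ𝔮 : algebraMap P B π ∈ 𝔮
    · -- the vertical height-one primes
      have h1 : (Ideal.span {π}).height = 1 := SatUniq24.height_span_eq_one π hπ 𝔮 h hπ𝔮
      have hunder := SatUniq24.under_eq_span π hπ 𝔮 h hπ𝔮
      set V := Hartogs22.valuationSubringAt (K := F) 𝔮 h with hV
      have hVc : V.comap (algebraMap E F) = Hartogs22.valuationSubringAt (K := E) _ h1 := by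
        apply Hartogs22.eq_valuationSubringAt_of_center
        · intro p
          rw [ValuationSubring.mem_comap, ← hPEF, hPF]
          exact Hartogs22.algebraMap_mem_valuationSubringAt 𝔮 h _
        · intro p
          rw [UniqueExt20.comap_val_lt_one_iff, ← hPEF, hPF,
            Hartogs22.valuation_algebraMap_lt_one_iff, ← hunder]
          rfl
      have hOc : (O i₀).comap (algebraMap E F) = Hartogs22.valuationSubringAt (K := E) _ h1 := by
        apply Hartogs22.eq_valuationSubringAt_of_center
        · intro p
          rw [ValuationSubring.mem_comap, ← hPEF, hPF]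
          exact hB _
        · intro p
          rw [UniqueExt20.comap_val_lt_one_iff, ← hPEF, hcen, Ideal.mem_span_singleton]
      obtain ⟨i, hVO⟩ := hall V (hVc.trans hOc.symm)
      rw [hVO]; exact hc i
    · -- the horizontal height-one primes
      refine Hartogs22.mem_valuationSubringAt_iff.2 ⟨b, algebraMap P B π, hπ𝔮, ?_⟩
      rw [hbc, ← hPF]; ring
  obtain ⟨b', hb'⟩ := key
  exact ⟨b', hb'⟩

end Abstract

section Chart

open Polynomial Fermat.Agent.RED.PUR.ChartGeneric22

variable {R K F : Type*} [CommRing R] [IsDomain R] [Field K] [Field F] [Algebra R K] [Algebra K F]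
  [Algebra R F] [IsScalarTower R K F] [IsFractionRing R K] [IsNoetherianRing R]
  [IsIntegrallyClosed R] [CharZero K]

/-- **(SAT-family) saturation for a chart** `chart R s` (`= ` integral closure of `R[s]` in `F`) in
`⋂ᵢ O i`. -/
theorem sat_chart_fam {π : R} (hπ : Prime π) (E : IntermediateField K F) [FiniteDimensional E F]
    {s : F} (hs : s ∈ E) (hE : E ≤ IntermediateField.adjoin K {s}) (htr : Transcendental K s)
    {ι : Type*} (O : ι → ValuationSubring F) (i₀ : ι)
    (hR : ∀ r : R, algebraMap R F r ∈ O i₀) (hsOv : s ∈ O i₀)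
    (hπv : (O i₀).valuation (algebraMap R F π) < 1)
    (hcen : ∀ p ∈ Algebra.adjoin R {s}, (O i₀).valuation p < 1 →
      ∃ p' ∈ Algebra.adjoin R {s}, p = algebraMap R F π * p')
    (hall : ∀ V : ValuationSubring F,
      V.comap (algebraMap E F) = (O i₀).comap (algebraMap E F) → ∃ i, V = O i) :
    ∀ b ∈ chart R s, ∀ c, (∀ i, c ∈ O i) → b = algebraMap R F π * c → c ∈ chart R s := by
  intro b hb c hc hbc
  let _ : Algebra (Algebra.adjoin R {s}) E := (adjoinToField E hs).toAlgebra
  have : IsFractionRing (Algebra.adjoin R {s}) E := isFractionRing_adjoin E hs hE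
  have : IsScalarTower (Algebra.adjoin R {s}) E F := IsScalarTower.of_algebraMap_eq (fun _ => rfl)
  have : CharZero F := charZero_of_injective_algebraMap (algebraMap K F).injective
  have : CharZero E := charZero_of_injective_algebraMap (R := K) (algebraMap K E).injective
  have : Algebra.IsSeparable E F := inferInstance
  have htrR : Transcendental R s := transcendental_of_field htr
  have : IsIntegrallyClosed (Algebra.adjoin R {s}) := isIntegrallyClosed_adjoin htrR
  have : IsNoetherianRing (integralClosure (Algebra.adjoin R {s}) F) :=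
    integralClosure.isNoetherianRing (A := Algebra.adjoin R {s}) (K := E) F
  have : IsIntegrallyClosed (integralClosure (Algebra.adjoin R {s}) F) :=
    integralClosure.isIntegrallyClosedOfFiniteExtension E
  have : IsFractionRing (integralClosure (Algebra.adjoin R {s}) F) F :=
    integralClosure.isFractionRing_of_finite_extension E F
  have : FaithfulSMul (Algebra.adjoin R {s}) (integralClosure (Algebra.adjoin R {s}) F) :=
    (faithfulSMul_iff_algebraMap_injective _ _).2 (fun a a' h => Subtype.ext
      (congrArg (fun z : integralClosure (Algebra.adjoin R {s}) F => (z : F)) h))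
  have hπP : Prime (algebraMap R (Algebra.adjoin R {s}) π) :=
    SatChart24.prime_algebraMap_adjoin hπ htrR
  have hle := chart_le_valuationSubring (O i₀) hR hsOv
  obtain ⟨b', hb'⟩ := sat_of_family (P := Algebra.adjoin R {s})
    (B := integralClosure (Algebra.adjoin R {s}) F) (E := E) (F := F)
    (algebraMap R (Algebra.adjoin R {s}) π) hπP O i₀
    (fun x => hle _ x.2)
    (by
      intro p
      constructor
      · intro h
        obtain ⟨p', hp', hpp⟩ := hcen (p : F) p.2 h
        exact ⟨⟨p', hp'⟩, Subtype.ext hpp⟩
      · rintro ⟨p', rfl⟩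
        have h1 : (O i₀).valuation ((p' : F)) ≤ 1 :=
          ((O i₀).valuation_le_one_iff _).2 (hle _ (adjoin_le_chart s p'.2))
        have h2 : (algebraMap (Algebra.adjoin R {s}) F)
            (algebraMap R (Algebra.adjoin R {s}) π * p') = algebraMap R F π * (p' : F) := rfl
        rw [h2, map_mul]
        calc (O i₀).valuation (algebraMap R F π) * (O i₀).valuation (p' : F)
            ≤ (O i₀).valuation (algebraMap R F π) * 1 := by gcongr
          _ < 1 := by rw [mul_one]; exact hπv)
    hall ⟨b, hb⟩ c hc hbc
  rw [← hb']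
  exact b'.2

/-- **(SAT-family) for both charts** `chart R t`, `chart R t⁻¹`. -/
theorem sat_both_fam {π : R} (hπ : Prime π) {t : F}
    [FiniteDimensional (IntermediateField.adjoin K {t}) F] (htr : Transcendental K t)
    {ι : Type*} (O : ι → ValuationSubring F) (i₀ : ι)
    (hR : ∀ r : R, algebraMap R F r ∈ O i₀) (ht : t ∈ O i₀)
    (htinv : t⁻¹ ∈ O i₀) (hπv : (O i₀).valuation (algebraMap R F π) < 1)
    (hcen0 : ∀ p ∈ Algebra.adjoin R {t}, (O i₀).valuation p < 1 →
      ∃ p' ∈ Algebra.adjoin R {t}, p = algebraMap R F π * p')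
    (hcen1 : ∀ p ∈ Algebra.adjoin R {t⁻¹}, (O i₀).valuation p < 1 →
      ∃ p' ∈ Algebra.adjoin R {t⁻¹}, p = algebraMap R F π * p')
    (hall : ∀ V : ValuationSubring F,
      V.comap (algebraMap (IntermediateField.adjoin K {t}) F) =
        (O i₀).comap (algebraMap (IntermediateField.adjoin K {t}) F) → ∃ i, V = O i) :
    (∀ b ∈ chart R t, ∀ c, (∀ i, c ∈ O i) → b = algebraMap R F π * c → c ∈ chart R t) ∧
    (∀ b ∈ chart R t⁻¹, ∀ c, (∀ i, c ∈ O i) → b = algebraMap R F π * c → c ∈ chart R t⁻¹) := by
  have hmem : t ∈ IntermediateField.adjoin K {t} := IntermediateField.mem_adjoin_simple_self K t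
  have hinv_mem : t⁻¹ ∈ IntermediateField.adjoin K {t} := inv_mem hmem
  have hE' : IntermediateField.adjoin K {t} ≤ IntermediateField.adjoin K {t⁻¹} := by
    rw [IntermediateField.adjoin_le_iff, Set.singleton_subset_iff]
    have h1 : t⁻¹ ∈ IntermediateField.adjoin K {t⁻¹} :=
      IntermediateField.mem_adjoin_simple_self K t⁻¹
    have h2 := inv_mem h1
    rwa [inv_inv] at h2
  have htr' : Transcendental K t⁻¹ := fun h => htr (IsAlgebraic.inv_iff.1 h)
  exact ⟨sat_chart_fam hπ _ hmem le_rfl htr O i₀ hR ht hπv hcen0 hall,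
    sat_chart_fam hπ _ hinv_mem hE' htr' O i₀ hR htinv hπv hcen1 hall⟩

end Chart

end Fermat.Agent.ES.P36.SatFam22
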