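/-
Program P (S36), chapter MODEL-P, brick M7 (helper4), GENERIC half, part 2: **the contract
`NumCoreP13.NumInputAt` over a Gauss base for THREE vertical valuation rings** `![V₁, V₂, V₃]`:
`V₁` the Gauss ring of `E ⊂ K((𝐪))`, `V₃` a Gauss pull-back along another expansion `ι₃`, and a MIDDLE
ring `V₂` known only to agree with `V₁` on `K(t)`; completeness of `{V₁, V₂, V₃}` over the Gauss
valuation of `K(t)` in the ELEMENTWISE form.  Saturation by `SatFam22.sat_both_fam`.

* `mem_iff_of_comap_algHom` — `V₂ ∩ φ(F') = V₁ ∩ φ(F')` ⇒ `V₂`, `V₁` agree on `K(φ t')`;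
* `all_of_comap` — completeness in the comap form ⇒ completeness in the elementwise form;
* `multiChartModel_three` — the model `MultiCore13.MultiChartModel` for `![V₁, V₂, V₃]` (no closed
  points needed: this is what R9 consumes);
* `numInputAt_of_model`, `numInputAt_three` — the contract.
Generic in `(K, O, E)`; the instance at the `ModelDefsP9` data is `ModelP4`.
-/
import Mathlib
import Fermat.Agent.ES.P36.SatFam22
import Fermat.Agent.ES.P36.ModelGauss4
import Fermat.Agent.ES.P36.NumCoreP13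

set_option autoImplicit false

noncomputable section

open HahnSeries IntermediateField

namespace Fermat.Agent.ES.P36.ModelThree4

open Fermat.Agent.RED.PUR.GaussGen8 Fermat.Agent.RED.PUR.KtGauss8
  Fermat.Agent.RED.PUR.ChartGeneric22 Fermat.Agent.RED.NumInst4 Fermat.Agent.RED.ModelAsm4
  Fermat.Agent.ES.N34.GaussEmb22
  Fermat.Agent.ES.P36.MultiCore13 Fermat.Agent.ES.P36.NumInputP13
  Fermat.Agent.ES.P36.ModelGauss4 Fermat.Agent.ES.P36.NumCoreP13

section Mid

variable {K F' F : Type*} [Field K] [Field F'] [Field F] [Algebra K F'] [Algebra K F]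

/-- If `V₂` and `V₁` have the same restriction along `φ : F' → F`, they agree on `K(φ t')`. -/
theorem mem_iff_of_comap_algHom (φ : F' →ₐ[K] F) (t' : F') {V₁ V₂ : ValuationSubring F}
    (h : V₂.comap φ.toRingHom = V₁.comap φ.toRingHom) :
    ∀ a : F, a ∈ IntermediateField.adjoin K {φ t'} → (a ∈ V₂ ↔ a ∈ V₁) := by
  intro a ha
  have hle : IntermediateField.adjoin K {φ t'} ≤ φ.fieldRange := by
    rw [IntermediateField.adjoin_le_iff, Set.singleton_subset_iff]
    exact ⟨t', rfl⟩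
  obtain ⟨x, rfl⟩ := hle ha
  have := congrArg (fun U : ValuationSubring F' => x ∈ U) h
  simp only [ValuationSubring.mem_comap, eq_iff_iff] at this
  exact this

/-- Completeness of a three-element family: the comap form (literal `hall` of
`SatFam22.sat_both_fam`) gives the elementwise form. -/
theorem all_of_comap {t : F} {V₁ V₂ V₃ : ValuationSubring F}
    (h : ∀ V : ValuationSubring F,
      V.comap (algebraMap (IntermediateField.adjoin K {t}) F) =
        ((![V₁, V₂, V₃] : Fin 3 → ValuationSubring F) 0).comap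
          (algebraMap (IntermediateField.adjoin K {t}) F) →
      ∃ i, V = (![V₁, V₂, V₃] : Fin 3 → ValuationSubring F) i) :
    ∀ V : ValuationSubring F,
      (∀ a : F, a ∈ IntermediateField.adjoin K {t} → (a ∈ V ↔ a ∈ V₁)) →
      V = V₁ ∨ V = V₂ ∨ V = V₃ := by
  intro V hV
  obtain ⟨i, hi⟩ := h V (comap_eq_of_mem_iff hV)
  fin_cases i
  · exact Or.inl hi
  · exact Or.inr (Or.inl hi)
  · exact Or.inr (Or.inr hi)

end Mid

section Three

variable {K : Type*} [Field K] {O : ValuationSubring K} [IsDiscreteValuationRing ↥O]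
  {E : IntermediateField K (LaurentSeries K)} [CharZero K]

set_option maxHeartbeats 1600000 in
/-- **The multi-component two-chart model over a Gauss base, three vertical rings.** -/
theorem multiChartModel_three {π : ↥O} (hπ : Irreducible π)
    (t : ↥E) (ht : (t : LaurentSeries K) ∈ gaussRing O)
    (htr : Transcendental (Res O) (gaussRed O ⟨(t : LaurentSeries K), ht⟩))
    (hn : relfinrank (Kt O ⟨(t : LaurentSeries K), ht⟩) E ≠ 0)
    {V₁ V₂ V₃ : ValuationSubring ↥E}
    (hV₁ : IsGaussPullback O E.val V₁)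
    {ι₃ : ↥E →ₐ[K] LaurentSeries K} (hV₃ : IsGaussPullback O ι₃ V₃)
    (h3 : ∃ h3 : ι₃ t ∈ gaussRing O, Transcendental (Res O) (gaussRed O ⟨ι₃ t, h3⟩))
    (hmid : ∀ a : ↥E, a ∈ IntermediateField.adjoin K {t} → (a ∈ V₂ ↔ a ∈ V₁))
    (hall : ∀ V : ValuationSubring ↥E,
      (∀ a : ↥E, a ∈ IntermediateField.adjoin K {t} → (a ∈ V ↔ a ∈ V₁)) →
      V = V₁ ∨ V = V₂ ∨ V = V₃) :
    MultiChartModel ↥O ↥E π t (chart ↥O t) (chart ↥O t⁻¹)
      (![V₁, V₂, V₃] : Fin 3 → ValuationSubring ↥E) := by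
  have hST : IsScalarTower ↥O K ↥E := isScalarTower_OE O E
  have hfd : FiniteDimensional ↥(IntermediateField.adjoin K {t}) ↥E :=
    finiteDimensional_adjoin t hn
  have halg : Algebra.IsAlgebraic ↥(IntermediateField.adjoin K {t}) ↥E :=
    Algebra.IsAlgebraic.of_finite _ _
  have htrK : Transcendental K t :=
    transcendental_of_coe t (transcendental_t (tG := ⟨(t : LaurentSeries K), ht⟩) hπ htr)
  obtain ⟨h3G, h3tr⟩ := h3
  -- the three rings lie over the Gauss valuation of `K(t)`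
  have hover3 : V₃.comap (algebraMap (IntermediateField.adjoin K {t}) ↥E) =
      V₁.comap (algebraMap (IntermediateField.adjoin K {t}) ↥E) :=
    comap_eq (t := t) hV₃ hV₁ hπ h3G h3tr ht htr
  have hover2 : V₂.comap (algebraMap (IntermediateField.adjoin K {t}) ↥E) =
      V₁.comap (algebraMap (IntermediateField.adjoin K {t}) ↥E) := comap_eq_of_mem_iff hmid
  -- the vertical facts
  have hv1 : VertFacts π t V₁ := vertFacts_of_pullback hπ hV₁ (t := t) ht htr
  have hv2 : VertFacts π t V₂ := vertFacts_of_over (K := K) hv1 hover2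
  have hv3 : VertFacts π t V₃ := vertFacts_of_over (K := K) hv1 hover3
  have hvert : ∀ i, VertFacts π t ((![V₁, V₂, V₃] : Fin 3 → ValuationSubring ↥E) i) := by
    intro i
    fin_cases i
    · exact hv1
    · exact hv2
    · exact hv3
  -- saturation
  obtain ⟨hπv, hcen0, hcen1⟩ := hcen_of_pullback hπ hV₁ (t := t) ht htr
  have hall' : ∀ V : ValuationSubring ↥E,
      V.comap (algebraMap (IntermediateField.adjoin K {t}) ↥E) =
        ((![V₁, V₂, V₃] : Fin 3 → ValuationSubring ↥E) 0).comap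
          (algebraMap (IntermediateField.adjoin K {t}) ↥E) →
      ∃ i, V = (![V₁, V₂, V₃] : Fin 3 → ValuationSubring ↥E) i := by
    intro V hV
    rcases hall V (mem_iff_of_comap_eq (K := K) hV) with h | h | h
    · exact ⟨0, h⟩
    · exact ⟨1, h⟩
    · exact ⟨2, h⟩
  obtain ⟨sat0, sat1⟩ := Fermat.Agent.ES.P36.SatFam22.sat_both_fam (R := ↥O) (K := K)
    hπ.prime htrK (![V₁, V₂, V₃] : Fin 3 → ValuationSubring ↥E) 0 hv1.R_le hv1.t_mem hv1.tinv_mem
    hπv hcen0 hcen1 hall'
  exact multiChartModel_of_sat hπ t ht htr hn _ hvert sat0 sat1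

set_option maxHeartbeats 1600000 in
/-- **The MODEL-P/REG contract over a Gauss base, from the model and the closed points.** -/
theorem numInputAt_of_model {π : ↥O} (hπ : Irreducible π)
    (t : ↥E) (ht : (t : LaurentSeries K) ∈ gaussRing O)
    (htr : Transcendental (Res O) (gaussRed O ⟨(t : LaurentSeries K), ht⟩))
    (hn : relfinrank (Kt O ⟨(t : LaurentSeries K), ht⟩) E ≠ 0)
    {q : ℕ} (hq : q.Prime) (hqπ : ∃ r : ↥O, (q : ↥O) = π * r)
    {ι : Type*} (Of : ι → ValuationSubring ↥E)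
    (hmodel : MultiChartModel ↥O ↥E π t (chart ↥O t) (chart ↥O t⁻¹) Of) (j₁ j₂ j₃ : ι)
    (hp0 : PtsAt q π (chart ↥O t) Of j₁ j₂ j₃) (hp1 : PtsAt q π (chart ↥O t⁻¹) Of j₁ j₂ j₃) :
    NumInputAt O E q π t (chart ↥O t) (chart ↥O t⁻¹) Of j₁ j₂ j₃ :=
  numInputP_of_model hπ t ht htr hn hq hqπ Of hmodel j₁ j₂ j₃ hp0 hp1

/-- **The MODEL-P/REG contract over a Gauss base, three vertical rings.** -/
theorem numInputAt_three {π : ↥O} (hπ : Irreducible π)
    (t : ↥E) (ht : (t : LaurentSeries K) ∈ gaussRing O)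
    (htr : Transcendental (Res O) (gaussRed O ⟨(t : LaurentSeries K), ht⟩))
    (hn : relfinrank (Kt O ⟨(t : LaurentSeries K), ht⟩) E ≠ 0)
    {q : ℕ} (hq : q.Prime) (hqπ : ∃ r : ↥O, (q : ↥O) = π * r)
    {V₁ V₂ V₃ : ValuationSubring ↥E}
    (hV₁ : IsGaussPullback O E.val V₁)
    {ι₃ : ↥E →ₐ[K] LaurentSeries K} (hV₃ : IsGaussPullback O ι₃ V₃)
    (h3 : ∃ h3 : ι₃ t ∈ gaussRing O, Transcendental (Res O) (gaussRed O ⟨ι₃ t, h3⟩))
    (hmid : ∀ a : ↥E, a ∈ IntermediateField.adjoin K {t} → (a ∈ V₂ ↔ a ∈ V₁))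
    (hall : ∀ V : ValuationSubring ↥E,
      (∀ a : ↥E, a ∈ IntermediateField.adjoin K {t} → (a ∈ V ↔ a ∈ V₁)) →
      V = V₁ ∨ V = V₂ ∨ V = V₃)
    (hp0 : PtsAt q π (chart ↥O t) ![V₁, V₂, V₃] 0 1 2)
    (hp1 : PtsAt q π (chart ↥O t⁻¹) ![V₁, V₂, V₃] 0 1 2) :
    NumInputAt O E q π t (chart ↥O t) (chart ↥O t⁻¹) ![V₁, V₂, V₃] 0 1 2 :=
  numInputAt_of_model hπ t ht htr hn hq hqπ _
    (multiChartModel_three hπ t ht htr hn hV₁ hV₃ h3 hmid hall) 0 1 2 hp0 hp1

end Three

end Fermat.Agent.ES.P36.ModelThree4
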