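/-
Program P (S36), chapter NUM-P (helper13): the FINAL ALGEBRA of NUM-P, abstract form.

Inputs (all over ONE field `K`, generic data `R K F π t B0 B1 O`):
* `I : NumInputP13.NumInputP …` (MODEL-P + REG, brick M7);
* `f ≠ 0` with `m ∣ ord_v f` at all places;
* (G) [bricks G3/G4]: `κ ≠ 0`, `h ≠ 0` with (U1) for `u := f ^ c₀ * κ * h ^ m`;
* (N3) [bricks S5/S6]: a global multiplier `s ≠ 0` with (U1) for `s ^ m` and equal branch values
  (`NumInputP13.BranchEqAt`) for `u₂ := u ^ (q ^ 2 - 1) * s ^ m` on both charts.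
Output: `f ^ (c₀ * (q ^ 2 - 1) * q ^ 2) = κ' * S ^ m`.

Also: the `PiOM` calculus (`PiOM.mul`, `PiOM.pow`) and (U2) for products
(`dvd_ord_mul_const_mul_pow`).
-/
import Mathlib
import Fermat.Agent.X0.FFPlace
import Fermat.Agent.ES.P36.NumInputP13

set_option autoImplicit false

namespace Fermat.Agent.ES.P36.NumFinalP13

open AlgebraicCurve Fermat.Agent.ES.P36.MultiCore13 Fermat.Agent.ES.P36.NumInputP13

section PiOM

variable {R F : Type*} [CommRing R] [Field F] [Algebra R F]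

/-- `(1 + π a) (1 + π b) ≡ 1 mod π ⋂ O_i`. -/
theorem PiOM.mul {π : R} {ι : Type*} {O : ι → ValuationSubring F}
    (hπ : ∀ i, algebraMap R F π ∈ O i) {x y : F}
    (hx : PiOM π O (x - 1)) (hy : PiOM π O (y - 1)) : PiOM π O (x * y - 1) := by
  obtain ⟨a, ha, hxa⟩ := hx
  obtain ⟨b, hb, hyb⟩ := hy
  refine ⟨a + b + algebraMap R F π * a * b, fun i => ?_, ?_⟩
  · exact (O i).add_mem _ _ ((O i).add_mem _ _ (ha i) (hb i))
      ((O i).mul_mem _ _ ((O i).mul_mem _ _ (hπ i) (ha i)) (hb i))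
  · have h1 : x = 1 + algebraMap R F π * a := by linear_combination hxa
    have h2 : y = 1 + algebraMap R F π * b := by linear_combination hyb
    rw [h1, h2]; ring

/-- `(1 + π a) ^ k ≡ 1 mod π ⋂ O_i`. -/
theorem PiOM.pow {π : R} {ι : Type*} {O : ι → ValuationSubring F}
    (hπ : ∀ i, algebraMap R F π ∈ O i) {x : F} (hx : PiOM π O (x - 1)) (k : ℕ) :
    PiOM π O (x ^ k - 1) := by
  induction k with
  | zero => exact ⟨0, fun i => (O i).zero_mem, by simp⟩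
  | succ k ih =>
    rw [pow_succ]
    exact PiOM.mul hπ ih hx

end PiOM

section Ord

variable {K F : Type*} [Field K] [Field F] [Algebra K F]

/-- (U2) for `f ^ a * κ * H ^ m`. -/
theorem dvd_ord_mul_const_mul_pow (v : Place K F) (m a : ℕ) {f H : F} {κ : K} (hf : f ≠ 0)
    (hH : H ≠ 0) (hκ : κ ≠ 0) (hord : (m : ℤ) ∣ v.ord f) :
    (m : ℤ) ∣ v.ord (f ^ a * algebraMap K F κ * H ^ m) := by
  have hκF : algebraMap K F κ ≠ 0 := by
    rwa [Ne, map_eq_zero_iff _ (algebraMap K F).injective]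
  rw [v.ord_mul (mul_ne_zero (pow_ne_zero a hf) hκF) (pow_ne_zero m hH),
    v.ord_mul (pow_ne_zero a hf) hκF, Fermat.Agent.X0.FF.ffp_ord_algebraMap v κ, add_zero,
    ← zpow_natCast f a, ← zpow_natCast H m, v.ord_zpow, v.ord_zpow]
  exact dvd_add (Dvd.dvd.mul_left hord _) (Dvd.intro _ rfl)

end Ord

section Final

variable {R K F : Type*} [CommRing R] [Field K] [Field F] [Algebra R K] [Algebra K F]
  [Algebra R F] [IsScalarTower R K F]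

/-- **The final algebra of NUM-P.** -/
theorem numFinal {ι : Type*} [Finite ι] (q : ℕ) (π : R) (t : F) (B0 B1 : Subalgebra R F)
    (O : ι → ValuationSubring F) (j₁ j₂ j₃ : ι) (I : NumInputP R K F q π t B0 B1 O j₁ j₂ j₃)
    (m : ℕ) (hm : 0 < m) (minv : R) (hminv : (m : R) * minv = 1)
    (f : F) (hf : f ≠ 0) (hord : ∀ v : Place K F, (m : ℤ) ∣ v.ord f)
    (c₀ : ℕ) (κ : K) (h : F) (hκ : κ ≠ 0) (hh : h ≠ 0)
    (hu1 : PiOM π O (f ^ c₀ * algebraMap K F κ * h ^ m - 1))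
    (s : F) (hs : s ≠ 0) (hs1 : PiOM π O (s ^ m - 1))
    (hN3_0 : BranchEqAt q π B0 O j₁ j₂ j₃ m
      ((f ^ c₀ * algebraMap K F κ * h ^ m) ^ (q ^ 2 - 1) * s ^ m))
    (hN3_1 : BranchEqAt q π B1 O j₁ j₂ j₃ m
      ((f ^ c₀ * algebraMap K F κ * h ^ m) ^ (q ^ 2 - 1) * s ^ m)) :
    ∃ (κ' : K) (S : F), κ' ≠ 0 ∧ S ≠ 0 ∧
      f ^ (c₀ * (q ^ 2 - 1) * q ^ 2) = algebraMap K F κ' * S ^ m := by
  have hπO : ∀ i, algebraMap R F π ∈ O i := fun i => I.model.le_O_0 i _ (B0.algebraMap_mem π)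
  set u : F := f ^ c₀ * algebraMap K F κ * h ^ m with hu
  set u₂ : F := u ^ (q ^ 2 - 1) * s ^ m with hu₂
  have hκF : algebraMap K F κ ≠ 0 := by
    rwa [Ne, map_eq_zero_iff _ (algebraMap K F).injective]
  -- (U1), (U2) for `u₂`
  have hu₂1 : PiOM π O (u₂ - 1) := PiOM.mul hπO (PiOM.pow hπO hu1 _) hs1
  have hu₂eq : u₂ = f ^ (c₀ * (q ^ 2 - 1)) * algebraMap K F (κ ^ (q ^ 2 - 1)) *
      (h ^ (q ^ 2 - 1) * s) ^ m := by
    rw [hu₂, hu, map_pow]; ring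
  have hH0 : h ^ (q ^ 2 - 1) * s ≠ 0 := mul_ne_zero (pow_ne_zero _ hh) hs
  have hu₂2 : ∀ v : Place K F, (m : ℤ) ∣ v.ord u₂ := by
    intro v
    rw [hu₂eq]
    exact dvd_ord_mul_const_mul_pow v m _ hf hH0 (pow_ne_zero _ hκ) (hord v)
  obtain ⟨S₀, hS₀, c, hc, hSc⟩ :=
    numP_of_input (K := K) q π t B0 B1 O j₁ j₂ j₃ I m hm minv hminv u₂ hu₂1 hu₂2 hN3_0 hN3_1
  have hcF : algebraMap K F c ≠ 0 := by
    rwa [Ne, map_eq_zero_iff _ (algebraMap K F).injective]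
  refine ⟨c⁻¹ * (κ ^ ((q ^ 2 - 1) * q ^ 2))⁻¹, S₀ * ((h ^ (q ^ 2 - 1) * s) ^ (q ^ 2))⁻¹,
    mul_ne_zero (inv_ne_zero hc) (inv_ne_zero (pow_ne_zero _ hκ)),
    mul_ne_zero hS₀ (inv_ne_zero (pow_ne_zero _ hH0)), ?_⟩
  have h1 : u₂ ^ (q ^ 2) = f ^ (c₀ * (q ^ 2 - 1) * q ^ 2) *
      algebraMap K F κ ^ ((q ^ 2 - 1) * q ^ 2) * ((h ^ (q ^ 2 - 1) * s) ^ (q ^ 2)) ^ m := by
    rw [hu₂eq, map_pow]; ring
  rw [mul_pow, hSc, h1, map_mul, map_inv₀, map_inv₀, map_pow, inv_pow]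
  have hk0 : algebraMap K F κ ^ ((q ^ 2 - 1) * q ^ 2) ≠ 0 := pow_ne_zero _ hκF
  have hH0' : ((h ^ (q ^ 2 - 1) * s) ^ (q ^ 2)) ^ m ≠ 0 := pow_ne_zero _ (pow_ne_zero _ hH0)
  field_simp

end Final

end Fermat.Agent.ES.P36.NumFinalP13
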