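/-
Program P (S36), chapter NUM-P (helper13), brick C2, MODEL-LEVEL form: **NUM-P over ONE number field
`K`** from the three per-`K` supplier packages, in `ModelDefsP9`'s vocabulary.

Data `(n, e, q, M', A, K)`: `R := A ∩ K`, `F'' := K·F_{M' q²}`, `ht : tq K n e ∈ FK M' K`, `π` a
uniformiser of `R`, `O2` a middle valuation ring (`ModelDefsP9.IsMid`), family
`Ofam hπ O2 = ![O1, O2, O3]`.

* `ModelItemsP` (brick M7: MODEL-P + REG): `NumInputP13.NumInputP` at the model data, for every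
  `ht`, every uniformiser `π`, every middle valuation ring `O2`;
* `MidItemsP` (brick M4): a middle valuation ring exists;
* `GenItemsP c₀` (bricks G3/G4, chapter (G)): for `f` new in Kummer form there are `κ ∈ K^×`,
  `h ∈ F''^×` with (U1) for `u := f ^ c₀ * κ * h ^ m`;
* `BranchItemsP c₀` (bricks S5/S6, chapter (N3)): for such `(f, κ, h)` there is a global multiplier
  `s` with (U1) for `s ^ m` and equal branch values of `u ^ (q² − 1) * s ^ m` at all regular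
  triple points of both charts;
* `ThetaItemsP c₀ m` (S5, helper15) + `ApproxItemsP` (M6/G4) ⊢ `BranchItemsP c₀ m`
  (`branchItemsP_of_theta`: S6's multiplier via `TripleAsm18.exists_multiplier_gen`);
* `numCoreAtP` / `numCoreP` : the four packages ⊢ `f ^ (c₀ (q² − 1) q²) = κ' • S ^ m` over `K`
  (`FixCoreAtP … m` / `FixCoreP (c₀ * (q ^ 2 - 1) * q ^ 2) q M' K`).  All packages are PER EXPONENT
  `m`, so that suppliers may use `m`-dependent readiness hypotheses on `K` (roots of unity).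
-/
import Mathlib
import Fermat.Agent.RED.NumInst4
import Fermat.Agent.ES.HECKE.BaseChange19
import Fermat.Agent.ES.P36.ModelDefsP9
import Fermat.Agent.ES.P36.NumFinalP13
import Fermat.Agent.ES.P36.BranchAsmP13

set_option autoImplicit false
set_option synthInstance.maxHeartbeats 400000

open HahnSeries AlgebraicCurve ModularCurve

noncomputable section

namespace Fermat.Agent.ES.P36.NumCoreP13

open Fermat.Agent.RED.Interface4 Fermat.Agent.RED.PUR.GaussGen8 Fermat.Agent.RED.BASE.EtaQuot12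
  Fermat.Agent.ES.P36.ModelDefsP9 Fermat.Agent.ES.P36.MultiCore13
  Fermat.Agent.ES.P36.NumInputP13 Fermat.Agent.ES.P36.BranchAsmP13
open Fermat.Agent.ES.HECKE.BaseChange19 (normAlong)

section Generic

variable {Kt : Type*} [Field Kt]

/-- `NumInputP` over `(O, E)` with the scalar tower supplied (as `ModelInput13.NodalDataAt`). -/
def NumInputAt (O : ValuationSubring Kt) (E : IntermediateField Kt (LaurentSeries Kt)) (q : ℕ)
    (π : O) (t : E) (B0 B1 : Subalgebra ↥O ↥E) {ι : Type*} (Of : ι → ValuationSubring ↥E)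
    (j₁ j₂ j₃ : ι) : Prop :=
  haveI := Fermat.Agent.RED.NumInst4.isScalarTower_OE O E
  NumInputP ↥O Kt ↥E q π t B0 B1 Of j₁ j₂ j₃

theorem numInputAt_iff (O : ValuationSubring Kt) (E : IntermediateField Kt (LaurentSeries Kt))
    [IsScalarTower ↥O Kt ↥E] (q : ℕ) (π : O) (t : E) (B0 B1 : Subalgebra ↥O ↥E) {ι : Type*}
    (Of : ι → ValuationSubring ↥E) (j₁ j₂ j₃ : ι) :
    NumInputAt O E q π t B0 B1 Of j₁ j₂ j₃ ↔ NumInputP ↥O Kt ↥E q π t B0 B1 Of j₁ j₂ j₃ :=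
  Iff.rfl

end Generic

variable (n e q M' : ℕ) [NeZero n] [NeZero M'] [NeZero q] (A : ValuationSubring Qbar)
  (K : IntermediateField ℚ Qbar)

set_option maxHeartbeats 4000000 in
/-- **The hypotheses on `f`** (all over `K`): orders divisible by `m`, `q`-new in Kummer form. -/
def FixHypP (m : ℕ) (f : FK (M' * q * q) K) : Prop :=
  f ≠ 0 ∧ (∀ v : Place K (FK (M' * q * q) K), (m : ℤ) ∣ v.ord f) ∧
  (∃ (c : K) (g : FK (M' * q) K), c ≠ 0 ∧ g ≠ 0 ∧ normAlong (alpha2 K M' q) f = c • g ^ m) ∧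
  (∃ (c : K) (g : FK (M' * q) K), c ≠ 0 ∧ g ≠ 0 ∧ normAlong (beta2 K M' q) f = c • g ^ m)

/-- **(K_c) over `K` for one exponent `m`, conclusion over `K`.** -/
def FixCoreAtP (c m : ℕ) : Prop :=
  ∀ f : FK (M' * q * q) K, FixHypP q M' K m f →
    ∃ (κ : K) (S : FK (M' * q * q) K), κ ≠ 0 ∧ S ≠ 0 ∧ f ^ c = κ • S ^ m

/-- **(K_c) over `K`, conclusion over `K`.** -/
def FixCoreP (c : ℕ) : Prop :=
  ∀ m : ℕ, ¬ q ∣ m → FixCoreAtP q M' K c m

/-- **MODEL-P + REG at `K`** (brick M7). -/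
def ModelItemsP : Prop :=
  ∀ (ht : tq (↥K) n e ∈ FK M' K) (π : ↥(AK A K)) (hπ : IsUnif (AK A K) π)
    (O2 : ValuationSubring ↥(FK (M' * q * q) K)), IsMid M' q hπ O2 →
    NumInputAt (AK A K) (FK (M' * q * q) K) q π (t q ht) (B0 A q ht) (B1 A q ht)
      (Ofam M' q hπ O2) 0 1 2

/-- **Existence of a middle valuation ring at `K`** (brick M4). -/
def MidItemsP : Prop :=
  ∀ (π : ↥(AK A K)) (hπ : IsUnif (AK A K) π),
    ∃ O2 : ValuationSubring ↥(FK (M' * q * q) K), IsMid M' q hπ O2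

/-- **Chapter (G) at `K`, exponent `m`** (bricks G3/G4): (U1) for `f ^ c₀ * κ * h ^ m`. -/
def GenItemsP (c₀ m : ℕ) : Prop :=
  ∀ (π : ↥(AK A K)) (hπ : IsUnif (AK A K) π) (O2 : ValuationSubring ↥(FK (M' * q * q) K)),
    IsMid M' q hπ O2 → ∀ f : FK (M' * q * q) K, FixHypP q M' K m f →
    ∃ (κ : K) (h : FK (M' * q * q) K), κ ≠ 0 ∧ h ≠ 0 ∧
      PiOM π (Ofam M' q hπ O2)
        (f ^ c₀ * algebraMap K (FK (M' * q * q) K) κ * h ^ m - 1)

/-- **Chapter (N3) at `K`, exponent `m`** (bricks S5/S6): the global multiplier. -/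
def BranchItemsP (c₀ m : ℕ) : Prop :=
  ∀ (ht : tq (↥K) n e ∈ FK M' K) (π : ↥(AK A K)) (hπ : IsUnif (AK A K) π)
    (O2 : ValuationSubring ↥(FK (M' * q * q) K)), IsMid M' q hπ O2 →
    ∀ f : FK (M' * q * q) K, FixHypP q M' K m f →
    ∀ (κ : K) (h : FK (M' * q * q) K), κ ≠ 0 → h ≠ 0 →
      PiOM π (Ofam M' q hπ O2)
        (f ^ c₀ * algebraMap K (FK (M' * q * q) K) κ * h ^ m - 1) →
      ∃ s : FK (M' * q * q) K, s ≠ 0 ∧ PiOM π (Ofam M' q hπ O2) (s ^ m - 1) ∧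
        BranchEqAt q π (B0 A q ht) (Ofam M' q hπ O2) 0 1 2 m
          ((f ^ c₀ * algebraMap K (FK (M' * q * q) K) κ * h ^ m) ^ (q ^ 2 - 1) * s ^ m) ∧
        BranchEqAt q π (B1 A q ht) (Ofam M' q hπ O2) 0 1 2 m
          ((f ^ c₀ * algebraMap K (FK (M' * q * q) K) κ * h ^ m) ^ (q ^ 2 - 1) * s ^ m)

/-- **S5 at `K`, exponent `m`** (helper15): two GLOBAL `m`-th roots of unity `Θα Θβ` of `R` and the
two branch relations at every regular triple point of both charts, for every representative tuple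
(`BranchAsmP13.ThetaAt`). -/
def ThetaItemsP (c₀ m : ℕ) : Prop :=
  ∀ (ht : tq (↥K) n e ∈ FK M' K) (π : ↥(AK A K)) (hπ : IsUnif (AK A K) π)
    (O2 : ValuationSubring ↥(FK (M' * q * q) K)), IsMid M' q hπ O2 →
    ∀ f : FK (M' * q * q) K, FixHypP q M' K m f →
    ∀ (κ : K) (h : FK (M' * q * q) K), κ ≠ 0 → h ≠ 0 →
      PiOM π (Ofam M' q hπ O2)
        (f ^ c₀ * algebraMap K (FK (M' * q * q) K) κ * h ^ m - 1) →
      ∃ Θα Θβ : ↥(AK A K), Θα ^ m = 1 ∧ Θβ ^ m = 1 ∧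
        ThetaAt q π (B0 A q ht) (Ofam M' q hπ O2) 0 1 2 m
          (f ^ c₀ * algebraMap K (FK (M' * q * q) K) κ * h ^ m) Θα Θβ ∧
        ThetaAt q π (B1 A q ht) (Ofam M' q hπ O2) 0 1 2 m
          (f ^ c₀ * algebraMap K (FK (M' * q * q) K) κ * h ^ m) Θα Θβ

/-- **The approximation facts for the three vertical rings at `K`** (M6/G4): pairwise
incomparable, and `v(q) ≥ v(π)`, `q · v(x) ≥ v(π)` for `v(x) > 0`. -/
def ApproxItemsP : Prop :=
  ∀ (π : ↥(AK A K)) (hπ : IsUnif (AK A K) π) (O2 : ValuationSubring ↥(FK (M' * q * q) K)),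
    IsMid M' q hπ O2 →
    Approx3v9.Incomp3 (O1 M' q hπ) O2 (O3 M' q hπ) ∧
    ∀ V : ValuationSubring ↥(FK (M' * q * q) K), (V = O1 M' q hπ ∨ V = O2 ∨ V = O3 M' q hπ) →
      V.valuation ((q : ℕ) : ↥(FK (M' * q * q) K)) ≤
          V.valuation (algebraMap ↥(AK A K) ↥(FK (M' * q * q) K) π) ∧
        ∀ x : ↥(FK (M' * q * q) K), V.valuation x < 1 →
          V.valuation x ^ q ≤ V.valuation (algebraMap ↥(AK A K) ↥(FK (M' * q * q) K) π)

variable {n e q M' A K}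

set_option maxHeartbeats 4000000 in
/-- **(N3) at `K`** from S5's output (`ThetaItemsP`), the approximation facts and MODEL-P:
the global multiplier of S6 (`TripleAsm18.exists_multiplier_gen`) and
`BranchAsmP13.branchEqAt_of_thetaAt`. -/
theorem branchItemsP_of_theta (hq : q.Prime) {c₀ m : ℕ} (hm : ¬ q ∣ m)
    (hmodel : ModelItemsP n e q M' A K) (happ : ApproxItemsP q M' A K)
    (hth : ThetaItemsP n e q M' A K c₀ m) : BranchItemsP n e q M' A K c₀ m := by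
  intro ht π hπ O2 hO2 f hf κ h hκ hh hu1
  have hm0 : m ≠ 0 := fun h0 => hm (h0 ▸ dvd_zero q)
  have := Fermat.Agent.RED.NumInst4.isScalarTower_OE (AK A K) (FK (M' * q * q) K)
  have I : NumInputP ↥(AK A K) ↥K ↥(FK (M' * q * q) K) q π (t q ht) (B0 A q ht) (B1 A q ht)
      (Ofam M' q hπ O2) 0 1 2 := hmodel ht π hπ O2 hO2
  obtain ⟨Θα, Θβ, hΘα, hΘβ, hth0, hth1⟩ := hth ht π hπ O2 hO2 f hf κ h hκ hh hu1
  obtain ⟨hinc, hval⟩ := happ π hπ O2 hO2
  obtain ⟨hqπ₁, hxq₁⟩ := hval _ (Or.inl rfl)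
  obtain ⟨hqπ₂, hxq₂⟩ := hval _ (Or.inr (Or.inl rfl))
  obtain ⟨hqπ₃, hxq₃⟩ := hval _ (Or.inr (Or.inr rfl))
  have hl₁ : (algebraMap ↥(AK A K) ↥(FK (M' * q * q) K) (Θα * Θβ ^ q)) ^ m = 1 := by
    rw [← map_pow, mul_pow, ← pow_mul, mul_comm q m, pow_mul, hΘα, hΘβ, one_pow, one_mul, map_one]
  have hl₃ : (algebraMap ↥(AK A K) ↥(FK (M' * q * q) K) (Θβ * Θα ^ q)) ^ m = 1 := by
    rw [← map_pow, mul_pow, ← pow_mul, mul_comm q m, pow_mul, hΘα, hΘβ, one_pow, one_mul, map_one]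
  obtain ⟨s, hs0, ⟨hsi₁, hsi₂, hsi₃⟩, hs₁, hs₂, hs₃, c, hc₁, hc₂, hc₃, hsc⟩ :=
    TripleAsm18.exists_multiplier_gen hinc hq hm I.model.pi_ne hqπ₁ hxq₁ hqπ₂ hxq₂ hqπ₃ hxq₃
      hl₁ (one_pow m) hl₃
  have hu2 : ∀ v : Place K (FK (M' * q * q) K), (m : ℤ) ∣
      v.ord (f ^ c₀ * algebraMap K (FK (M' * q * q) K) κ * h ^ m) := fun v =>
    NumFinalP13.dvd_ord_mul_const_mul_pow v m c₀ hf.1 hh hκ (hf.2.1 v)
  refine ⟨s, hs0, ⟨c, fun i => ?_, hsc⟩, ?_, ?_⟩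
  · fin_cases i
    · exact hc₁
    · exact hc₂
    · exact hc₃
  · exact BranchAsmP13.branchEqAt_of_thetaAt (K := ↥K) q hq π (B0 A q ht) (Ofam M' q hπ O2) 0 1 2
      I.fracR I.dvrR I.frac0 I.model.pi_ne m hm0 _ hu1 hu2 Θα Θβ hth0 s hs0 hsi₁ hsi₂ hsi₃
      hs₁ hs₂ hs₃
  · exact BranchAsmP13.branchEqAt_of_thetaAt (K := ↥K) q hq π (B1 A q ht) (Ofam M' q hπ O2) 0 1 2
      I.fracR I.dvrR I.frac1 I.model.pi_ne m hm0 _ hu1 hu2 Θα Θβ hth1 s hs0 hsi₁ hsi₂ hsi₃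
      hs₁ hs₂ hs₃

set_option maxHeartbeats 4000000 in
/-- **NUM-P over one `K`, one exponent `m`** from the four supplier packages. -/
theorem numCoreAtP (ht : tq (↥K) n e ∈ FK M' K)
    (hunif : ∃ π : ↥(AK A K), IsUnif (AK A K) π)
    {m : ℕ} (hm : ¬ q ∣ m) (minv : ↥(AK A K)) (hminv : (m : ↥(AK A K)) * minv = 1)
    (c₀ : ℕ) (hmodel : ModelItemsP n e q M' A K) (hmid : MidItemsP q M' A K)
    (hgen : GenItemsP q M' A K c₀ m) (hbranch : BranchItemsP n e q M' A K c₀ m) :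
    FixCoreAtP q M' K (c₀ * (q ^ 2 - 1) * q ^ 2) m := by
  intro f hf
  obtain ⟨π, hπ⟩ := hunif
  obtain ⟨O2, hO2⟩ := hmid π hπ
  have hm0 : 0 < m := Nat.pos_of_ne_zero fun h => hm (h ▸ dvd_zero q)
  obtain ⟨κ, h, hκ, hh, hu1⟩ := hgen π hπ O2 hO2 f hf
  obtain ⟨s, hs, hs1, hN0, hN1⟩ := hbranch ht π hπ O2 hO2 f hf κ h hκ hh hu1
  have := Fermat.Agent.RED.NumInst4.isScalarTower_OE (AK A K) (FK (M' * q * q) K)
  have I := hmodel ht π hπ O2 hO2
  obtain ⟨κ', S, hκ', hS, hfin⟩ := NumFinalP13.numFinal (K := ↥K) q π (t q ht) (B0 A q ht)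
    (B1 A q ht) (Ofam M' q hπ O2) 0 1 2 I m hm0 minv hminv f hf.1 hf.2.1 c₀ κ h hκ hh hu1 s hs
    hs1 hN0 hN1
  exact ⟨κ', S, hκ', hS, by rw [hfin, Algebra.smul_def]⟩

/-- **NUM-P over one `K`** (all exponents `m` prime to `q`). -/
theorem numCoreP (ht : tq (↥K) n e ∈ FK M' K)
    (hunif : ∃ π : ↥(AK A K), IsUnif (AK A K) π)
    (hinv : ∀ m : ℕ, ¬ q ∣ m → ∃ minv : ↥(AK A K), (m : ↥(AK A K)) * minv = 1)
    (c₀ : ℕ) (hmodel : ModelItemsP n e q M' A K) (hmid : MidItemsP q M' A K)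
    (hgen : ∀ m, ¬ q ∣ m → GenItemsP q M' A K c₀ m)
    (hbranch : ∀ m, ¬ q ∣ m → BranchItemsP n e q M' A K c₀ m) :
    FixCoreP q M' K (c₀ * (q ^ 2 - 1) * q ^ 2) := by
  intro m hm
  obtain ⟨minv, hminv⟩ := hinv m hm
  exact numCoreAtP ht hunif hm minv hminv c₀ hmodel hmid (hgen m hm) (hbranch m hm)

end Fermat.Agent.ES.P36.NumCoreP13
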