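/-
Program P (S36), chapter MODEL-P, brick M7 (helper4), INSTANCE half: **`NumCoreP13.ModelItemsP`
at ONE number field `K`** (no `∃ K₀`, no normality), at the `ModelDefsP9` data
`(AK A K, FK (M' q²) K, t, B0, B1, ![O1, O2, O3])`.

Everything of the contract `NumInputP13.NumInputP` is PROVED here except four named inputs:
Exports: `gaussFacts_t`, `multiChartModel_at` / `multiItemsP_at` (the model alone, from (K2), M3, M6 —
this is what R9 `PtsModel9.ptsItemsP_of` consumes), `numInputAt_of_model` / `modelItemsP_of_model`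
(model + closed points ⊢ contract), `numInputAt_of` / `modelItemsP_at` (all four inputs ⊢ contract).
* `hJ`   — leaf (K2): `jqModC K ∈ K(tq)` (`CoeffField4.j_mem_adjoin`, every `K`);
* `V3At` — brick M3 (`v₃`): the expansion at `0` of `t` is Gauss-integral with transcendental
  residue (`GaussVThree8.v3_export`);
* `AllAt` — brick M6 (completeness of `{v₁, v₂, v₃}` over the Gauss valuation of `K(t)`), in the
  ELEMENTWISE form `(∀ a ∈ K(t), a ∈ V ↔ a ∈ O1) → V = O1 ∨ V = O2 ∨ V = O3`;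
* `ModelGauss4.PtsAt` for both charts — brick R9 (classification of the closed points).

Proved here (through the generic `ModelThree4.numInputAt_three`): the vertical facts of `O1` (Gauss),
of `O3` (Gauss pull-back along `iota3`; lies over the Gauss valuation of `K(t)` by
`GaussEmb22.comap_eq`), of the MIDDLE ring `O2` (lies over the Gauss valuation of `K(t)` because
`K(t) ⊆ α₂(F')` and `O2 ∩ α₂(F') = α₂(O1q) = O1 ∩ α₂(F')`: `IsMid` + `O1_comap_alpha2`), saturation
(`SatFam22.sat_both_fam`), the chart facts (noetherian, fraction field, `K` algebraically closed in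
`F''`), `π ∣ q`.  All instance search happens at the generic level; this file only instantiates.
-/
import Mathlib
import Fermat.Agent.RED.DESC.NumberFieldDVR27
import Fermat.Agent.ES.N34.ChartNInst26
import Fermat.Agent.ES.P36.ModelDefsP9
import Fermat.Agent.ES.P36.ModelThree4
import Fermat.Agent.ES.P36.NumCoreP13

set_option autoImplicit false
set_option synthInstance.maxHeartbeats 400000

noncomputable section

open HahnSeries ModularCurve IntermediateField

namespace Fermat.Agent.ES.P36.ModelP4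

open Fermat.Agent.RED.Interface4 Fermat.Agent.RED.PUR.GaussGen8 Fermat.Agent.RED.PUR.KtGauss8
  Fermat.Agent.RED.ModelTargets4 Fermat.Agent.RED.BASE.EtaQuot12 Fermat.Agent.X0
  Fermat.Agent.RED.DESC.NumberFieldDVR27 Fermat.Agent.RED.ModelMain4
  Fermat.Agent.RED.BASE.Interface12 Fermat.Agent.RED.PUR.ChartGeneric22
  Fermat.Agent.RED.PUR.GaussBridge10
  Fermat.Agent.ES.N34.GaussEmb22 Fermat.Agent.ES.N34
  Fermat.Agent.ES.P36.ModelDefsP9 Fermat.Agent.ES.P36.ModelGauss4 Fermat.Agent.ES.P36.ModelThree4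
  Fermat.Agent.ES.P36.NumCoreP13

variable {n e M' : ℕ} [NeZero n] [NeZero M'] (q : ℕ) [NeZero q] {A : ValuationSubring Qbar}
  {K : IntermediateField ℚ Qbar}

/-! ### The named inputs -/

/-- **M3 at `K`**: the expansion at the cusp `0` of the Hauptmodul `t` is Gauss-integral with
transcendental residue. -/
def V3At (ht : tq (↥K) n e ∈ FK M' K) : Prop :=
  ∃ h3 : iota3 K M' q (t q ht) ∈ gaussRing (AK A K),
    Transcendental (Res (AK A K)) (gaussRed (AK A K) ⟨iota3 K M' q (t q ht), h3⟩)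

/-- **M6 at `K`** (elementwise form): every valuation subring of `F''` which agrees with `O1` on
`K(t)` is one of `O1`, `O2`, `O3`. -/
def AllAt (ht : tq (↥K) n e ∈ FK M' K) {π : ↥(AK A K)} (hπ : IsUnif (AK A K) π)
    (O2 : ValuationSubring ↥(FK (M' * q * q) K)) : Prop :=
  ∀ V : ValuationSubring ↥(FK (M' * q * q) K),
    (∀ a : ↥(FK (M' * q * q) K), a ∈ IntermediateField.adjoin (↥K) {t q ht} →
      (a ∈ V ↔ a ∈ O1 M' q hπ)) →
    V = O1 M' q hπ ∨ V = O2 ∨ V = O3 M' q hπ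

/-- **M6 at `K`**, comap form: the literal `hall` of `SatFam22.sat_both_fam` for the family
`Ofam M' q hπ O2` and `t`. -/
def AllAtComap (ht : tq (↥K) n e ∈ FK M' K) {π : ↥(AK A K)} (hπ : IsUnif (AK A K) π)
    (O2 : ValuationSubring ↥(FK (M' * q * q) K)) : Prop :=
  ∀ V : ValuationSubring ↥(FK (M' * q * q) K),
    V.comap (algebraMap (IntermediateField.adjoin (↥K) {t q ht}) ↥(FK (M' * q * q) K)) =
      (Ofam M' q hπ O2 0).comap
        (algebraMap (IntermediateField.adjoin (↥K) {t q ht}) ↥(FK (M' * q * q) K)) →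
    ∃ i, V = Ofam M' q hπ O2 i

/-- The comap form of M6 gives the elementwise form. -/
theorem allAt_of_comap (ht : tq (↥K) n e ∈ FK M' K) {π : ↥(AK A K)} (hπ : IsUnif (AK A K) π)
    (O2 : ValuationSubring ↥(FK (M' * q * q) K)) (h : AllAtComap q ht hπ O2) :
    AllAt q ht hπ O2 :=
  all_of_comap (K := ↥K) h

/-! ### The Gauss facts of `t` at level `M' q²` -/

/-- The Gauss facts of the Hauptmodul `t` of `F''` at ONE `K` (same block as
`ChartAt26.chartInputs_tN_at`, one level up). -/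
theorem gaussFacts_t [FiniteDimensional ℚ K] (ht : tq (↥K) n e ∈ FK M' K)
    (hJ : jqModC K ∈ IntermediateField.adjoin (↥K) {tq (↥K) n e}) :
    ∃ htG : ((t q ht : ↥(FK (M' * q * q) K)) : LaurentSeries K) ∈ gaussRing (AK A K),
      Transcendental (Res (AK A K))
        (gaussRed (AK A K) ⟨((t q ht : ↥(FK (M' * q * q) K)) : LaurentSeries K), htG⟩) ∧
      relfinrank (Kt (AK A K) ⟨((t q ht : ↥(FK (M' * q * q) K)) : LaurentSeries K), htG⟩)
        (FK (M' * q * q) K) ≠ 0 := by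
  have htq : ((t q ht : ↥(FK (M' * q * q) K)) : LaurentSeries K) = tq (↥K) n e := coe_t q ht
  have htG : ((t q ht : ↥(FK (M' * q * q) K)) : LaurentSeries K) ∈ gaussRing (AK A K) := by
    rw [htq]; exact tq_mem_gaussRing (AK A K) n e
  have h1 : (⟨((t q ht : ↥(FK (M' * q * q) K)) : LaurentSeries K), htG⟩ :
      ↥(gaussRing (AK A K))) = ⟨tq (↥K) n e, tq_mem_gaussRing (AK A K) n e⟩ := Subtype.ext htq
  have htr : Transcendental (Res (AK A K))
      (gaussRed (AK A K) ⟨((t q ht : ↥(FK (M' * q * q) K)) : LaurentSeries K), htG⟩) := by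
    rw [h1]
    exact transcendental_gaussRed_tq (AK A K) n e
  have hjt : jqModC K ∈
      Kt (AK A K) ⟨((t q ht : ↥(FK (M' * q * q) K)) : LaurentSeries K), htG⟩ := by
    rw [h1]
    exact hJ
  have hNZ : NeZero (M' * q * q) :=
    ⟨Nat.mul_ne_zero (Nat.mul_ne_zero (NeZero.ne M') (NeZero.ne q)) (NeZero.ne q)⟩
  exact ⟨htG, htr, relfinrank_ne_zero (AK A K) (M' * q * q) _ (t q ht).2 hjt⟩

omit [NeZero q] in
/-- `π ∣ q` in `AK A K`. -/
theorem q_eq_pi_mul (hA : A.LiesOverPrime q) {π : ↥(AK A K)} (hπ : IsUnif (AK A K) π) :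
    ∃ r : ↥(AK A K), (q : ↥(AK A K)) = π * r := by
  have hmem : (q : ↥(AK A K)) ∈ IsLocalRing.maximalIdeal ↥(AK A K) :=
    natCast_mem_maximalIdeal A K hA
  rw [hπ.max_eq, Ideal.mem_span_singleton] at hmem
  exact hmem

/-! ### The model at `K` -/

set_option maxHeartbeats 1600000 in
/-- **The multi-component two-chart model at ONE `K`** (no closed points needed; this is what R9
consumes: `le_O_0/1`, `sat0/1`, `pi_ne`, …), from (K2), M3, M6. -/
theorem multiChartModel_at (hq : q.Prime) (hA : A.LiesOverPrime q) [FiniteDimensional ℚ K]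
    (ht : tq (↥K) n e ∈ FK M' K)
    (hJ : jqModC K ∈ IntermediateField.adjoin (↥K) {tq (↥K) n e})
    {π : ↥(AK A K)} (hπ : IsUnif (AK A K) π)
    {O2 : ValuationSubring ↥(FK (M' * q * q) K)} (hO2 : IsMid M' q hπ O2)
    (h3 : V3At (A := A) q ht) (hall : AllAt q ht hπ O2) :
    Fermat.Agent.ES.P36.MultiCore13.MultiChartModel ↥(AK A K) ↥(FK (M' * q * q) K) π (t q ht)
      (B0 A q ht) (B1 A q ht) (Ofam M' q hπ O2) := by
  have hdvr : IsDiscreteValuationRing ↥(AK A K) := isDiscreteValuationRing_AK A K hq.ne_zero hA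
  have hirr : Irreducible π := (IsDiscreteValuationRing.irreducible_iff_uniformizer π).mpr hπ.max_eq
  obtain ⟨htG, htr, hn⟩ := gaussFacts_t (A := A) q ht hJ
  exact multiChartModel_three hirr (t q ht) htG htr hn (V₁ := O1 M' q hπ) (V₂ := O2)
    (V₃ := O3 M' q hπ) (fun x => mem_O1_iff M' q hπ x) (ι₃ := iota3 K M' q)
    (fun x => mem_O3_iff M' q hπ x) h3
    (mem_iff_of_comap_algHom (alpha2 K M' q) (ModelDefs9.tN q ht)
      (hO2.1.trans (O1_comap_alpha2 M' q hπ).symm)) hall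

/-! ### The contract at `K` -/

set_option maxHeartbeats 1600000 in
/-- **`NumInputAt` at the model, at ONE `K`**, from the model and the closed points. -/
theorem numInputAt_of_model (hq : q.Prime) (hA : A.LiesOverPrime q) [FiniteDimensional ℚ K]
    (ht : tq (↥K) n e ∈ FK M' K)
    (hJ : jqModC K ∈ IntermediateField.adjoin (↥K) {tq (↥K) n e})
    {π : ↥(AK A K)} (hπ : IsUnif (AK A K) π)
    {O2 : ValuationSubring ↥(FK (M' * q * q) K)}
    (hmodel : Fermat.Agent.ES.P36.MultiCore13.MultiChartModel ↥(AK A K) ↥(FK (M' * q * q) K) π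
      (t q ht) (B0 A q ht) (B1 A q ht) (Ofam M' q hπ O2))
    (hp0 : PtsAt q π (B0 A q ht) (Ofam M' q hπ O2) 0 1 2)
    (hp1 : PtsAt q π (B1 A q ht) (Ofam M' q hπ O2) 0 1 2) :
    NumInputAt (AK A K) (FK (M' * q * q) K) q π (t q ht) (B0 A q ht) (B1 A q ht)
      (Ofam M' q hπ O2) 0 1 2 := by
  have hdvr : IsDiscreteValuationRing ↥(AK A K) := isDiscreteValuationRing_AK A K hq.ne_zero hA
  have hirr : Irreducible π := (IsDiscreteValuationRing.irreducible_iff_uniformizer π).mpr hπ.max_eq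
  obtain ⟨htG, htr, hn⟩ := gaussFacts_t (A := A) q ht hJ
  exact Fermat.Agent.ES.P36.ModelThree4.numInputAt_of_model hirr (t q ht) htG htr hn hq
    (q_eq_pi_mul q hA hπ) (Ofam M' q hπ O2) hmodel 0 1 2 hp0 hp1

/-- **`NumInputAt` at the model, at ONE `K`**, from the four named inputs. -/
theorem numInputAt_of (hq : q.Prime) (hA : A.LiesOverPrime q) [FiniteDimensional ℚ K]
    (ht : tq (↥K) n e ∈ FK M' K)
    (hJ : jqModC K ∈ IntermediateField.adjoin (↥K) {tq (↥K) n e})
    {π : ↥(AK A K)} (hπ : IsUnif (AK A K) π)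
    {O2 : ValuationSubring ↥(FK (M' * q * q) K)} (hO2 : IsMid M' q hπ O2)
    (h3 : V3At (A := A) q ht) (hall : AllAt q ht hπ O2)
    (hp0 : PtsAt q π (B0 A q ht) (Ofam M' q hπ O2) 0 1 2)
    (hp1 : PtsAt q π (B1 A q ht) (Ofam M' q hπ O2) 0 1 2) :
    NumInputAt (AK A K) (FK (M' * q * q) K) q π (t q ht) (B0 A q ht) (B1 A q ht)
      (Ofam M' q hπ O2) 0 1 2 :=
  numInputAt_of_model q hq hA ht hJ hπ (multiChartModel_at q hq hA ht hJ hπ hO2 h3 hall) hp0 hp1

/-- **`ModelItemsP` at ONE `K`** from the model and the closed points (the form consumed after R9: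
`hmodel` is `PtsModel9.MultiItemsP`, `hpts` is `PtsModel9.PtsItemsP`). -/
theorem modelItemsP_of_model (hq : q.Prime) (hA : A.LiesOverPrime q) [FiniteDimensional ℚ K]
    (hJ : jqModC K ∈ IntermediateField.adjoin (↥K) {tq (↥K) n e})
    (hmodel : ∀ (ht : tq (↥K) n e ∈ FK M' K) (π : ↥(AK A K)) (hπ : IsUnif (AK A K) π)
      (O2 : ValuationSubring ↥(FK (M' * q * q) K)), IsMid M' q hπ O2 →
      Fermat.Agent.ES.P36.MultiCore13.MultiChartModel ↥(AK A K) ↥(FK (M' * q * q) K) π
        (t q ht) (B0 A q ht) (B1 A q ht) (Ofam M' q hπ O2))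
    (hpts : ∀ (ht : tq (↥K) n e ∈ FK M' K) (π : ↥(AK A K)) (hπ : IsUnif (AK A K) π)
      (O2 : ValuationSubring ↥(FK (M' * q * q) K)), IsMid M' q hπ O2 →
      PtsAt q π (B0 A q ht) (Ofam M' q hπ O2) 0 1 2 ∧
      PtsAt q π (B1 A q ht) (Ofam M' q hπ O2) 0 1 2) :
    ModelItemsP n e q M' A K := fun ht π hπ O2 hO2 =>
  numInputAt_of_model q hq hA ht hJ hπ (hmodel ht π hπ O2 hO2) (hpts ht π hπ O2 hO2).1
    (hpts ht π hπ O2 hO2).2

/-- **The model part of M7 at ONE `K`** (= `PtsModel9.MultiItemsP n e q M' A K`), from (K2), M3,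
M6. -/
theorem multiItemsP_at (hq : q.Prime) (hA : A.LiesOverPrime q) [FiniteDimensional ℚ K]
    (hJ : jqModC K ∈ IntermediateField.adjoin (↥K) {tq (↥K) n e})
    (h3 : ∀ ht : tq (↥K) n e ∈ FK M' K, V3At (A := A) q ht)
    (hall : ∀ (ht : tq (↥K) n e ∈ FK M' K) (π : ↥(AK A K)) (hπ : IsUnif (AK A K) π)
      (O2 : ValuationSubring ↥(FK (M' * q * q) K)), IsMid M' q hπ O2 → AllAt q ht hπ O2) :
    ∀ (ht : tq (↥K) n e ∈ FK M' K) (π : ↥(AK A K)) (hπ : IsUnif (AK A K) π)
      (O2 : ValuationSubring ↥(FK (M' * q * q) K)), IsMid M' q hπ O2 →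
      Fermat.Agent.ES.P36.MultiCore13.MultiChartModel ↥(AK A K) ↥(FK (M' * q * q) K) π
        (t q ht) (B0 A q ht) (B1 A q ht) (Ofam M' q hπ O2) := fun ht π hπ O2 hO2 =>
  multiChartModel_at q hq hA ht hJ hπ hO2 (h3 ht) (hall ht π hπ O2 hO2)

/-- **`ModelItemsP` at ONE `K`** (brick M7), from (K2), M3, M6, R9. -/
theorem modelItemsP_at (hq : q.Prime) (hA : A.LiesOverPrime q) [FiniteDimensional ℚ K]
    (hJ : jqModC K ∈ IntermediateField.adjoin (↥K) {tq (↥K) n e})
    (h3 : ∀ ht : tq (↥K) n e ∈ FK M' K, V3At (A := A) q ht)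
    (hall : ∀ (ht : tq (↥K) n e ∈ FK M' K) (π : ↥(AK A K)) (hπ : IsUnif (AK A K) π)
      (O2 : ValuationSubring ↥(FK (M' * q * q) K)), IsMid M' q hπ O2 → AllAt q ht hπ O2)
    (hpts : ∀ (ht : tq (↥K) n e ∈ FK M' K) (π : ↥(AK A K)) (hπ : IsUnif (AK A K) π)
      (O2 : ValuationSubring ↥(FK (M' * q * q) K)), IsMid M' q hπ O2 →
      PtsAt q π (B0 A q ht) (Ofam M' q hπ O2) 0 1 2 ∧
      PtsAt q π (B1 A q ht) (Ofam M' q hπ O2) 0 1 2) :
    ModelItemsP n e q M' A K := fun ht π hπ O2 hO2 =>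
  numInputAt_of q hq hA ht hJ hπ hO2 (h3 ht) (hall ht π hπ O2 hO2) (hpts ht π hπ O2 hO2).1
    (hpts ht π hπ O2 hO2).2

end Fermat.Agent.ES.P36.ModelP4
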