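/-
Program P (S36), chapter (SS)/REG, brick R6 — THE MODEL PLUG (helper29, ruling p39/p42):
`PtsModel9.CrossItemsP n e q M' A K` from the shared contract `EisItems29.EisItemsP n e q M' A K`.

* `crossAt_pair` (Gauss-layer spelling of `CrossAsm29.crossAt_of_eisAt`): for one chart, `EisAt` on the
  `a`-side and on the `b`-side ⊢ `PtsModel9.CrossAt … a …` ∧ `PtsModel9.CrossAt … b …`;
* `chart_noeth_frac_gauss` : both charts of a Gauss base are noetherian with fraction field `E`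
  (the first lines of `ModelGauss4.numInputP_of_model`);
* **`crossItemsP_of_eis`** : `EisItemsP` + the model part of M7 (`PtsModel9.MultiItemsP`: `le_O`, `arch`,
  `sat`, `pi_ne`, `pi_nonunit`) + table (G2) (`BranchModel15.TableItemsP`: the six positions and
  `hTπ : v₂(π) = v₂(T)^(q-1)`) + S2 (`ModelN4.ModEqItems`: `β₂ B' ⊆ B″`) + (K2) `hJ` (noetherianity and
  fraction field of `B0″`, `B1″`) ⊢ `CrossItemsP`.
-/
import Mathlib
import Fermat.Agent.ES.P36.CrossAsm29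
import Fermat.Agent.ES.P36.BranchModel15
import Fermat.Agent.ES.P36.ModelP4

set_option autoImplicit false
set_option linter.unusedSectionVars false
set_option synthInstance.maxHeartbeats 400000

open HahnSeries ModularCurve IntermediateField

noncomputable section

namespace Fermat.Agent.ES.P36.CrossModel29

open Fermat.Agent.RED.PUR.ChartGeneric22 Fermat.Agent.ES.N34.NodalCore13
  Fermat.Agent.ES.N34.NodalSmooth13 Fermat.Agent.ES.P36.MultiCore13
  Fermat.Agent.ES.P36.TripleReg13 Fermat.Agent.ES.P36.PtsAsm9 Fermat.Agent.ES.P36.PtsModel9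
  Fermat.Agent.ES.P36.EisItems29 Fermat.Agent.ES.P36.CrossAsm29

/-! ### Generic layer -/

section Generic

variable {Kt : Type*} [Field Kt] {O : ValuationSubring Kt}
  {E' E : IntermediateField Kt (LaurentSeries Kt)}

/-- **R6 for one chart, Gauss-layer form.** -/
theorem crossAt_pair {q : ℕ} (hq2 : 2 ≤ q) {π : ↥O} (a b : ↥E' →ₐ[Kt] ↥E)
    (B' : Subalgebra ↥O ↥E') (B : Subalgebra ↥O ↥E)
    (haB : ∀ x ∈ B', (a : ↥E' →+* ↥E) x ∈ B) (hbB : ∀ x ∈ B', (b : ↥E' →+* ↥E) x ∈ B)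
    (W1 W2 : ValuationSubring ↥E') (Of : Fin 3 → ValuationSubring ↥E)
    (ca0 : (Of 0).comap (a : ↥E' →+* ↥E) = W1) (ca1 : (Of 1).comap (a : ↥E' →+* ↥E) = W1)
    (ca2 : (Of 2).comap (a : ↥E' →+* ↥E) = W2)
    (cb0 : (Of 0).comap (b : ↥E' →+* ↥E) = W1) (cb1 : (Of 1).comap (b : ↥E' →+* ↥E) = W2)
    (cb2 : (Of 2).comap (b : ↥E' →+* ↥E) = W2)
    (noethB : IsNoetherianRing ↥B)
    (frac : ∀ y : ↥E, ∃ u ∈ B, ∃ v ∈ B, v ≠ 0 ∧ y * v = u)
    (leO : ∀ j, ∀ x ∈ B, x ∈ Of j)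
    (arch : ∀ j, ∀ y : ↥E, ∃ k : ℕ, algebraMap ↥O ↥E π ^ k * y ∈ Of j)
    (sat : ∀ x ∈ B, ∀ c : ↥E, (∀ j, c ∈ Of j) → x = algebraMap ↥O ↥E π * c → c ∈ B)
    (pi_ne : algebraMap ↥O ↥E π ≠ 0)
    (pi_nonunit : ∀ j, (algebraMap ↥O ↥E π)⁻¹ ∉ Of j)
    (hram : ∃ ξ : ↥E, (Of 1).valuation ξ ^ (q - 1) = (Of 1).valuation (algebraMap ↥O ↥E π))
    (hEa : EisAt q π (a : ↥E' →+* ↥E) (b : ↥E' →+* ↥E) B' B W1 W2 (Of 2))
    (hEb : EisAt q π (b : ↥E' →+* ↥E) (a : ↥E' →+* ↥E) B' B W2 W1 (Of 0)) :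
    CrossAt O E' E q π a B' B W1 W2 Of ∧ CrossAt O E' E q π b B' B W1 W2 Of :=
  ⟨fun hφB => (crossAt_of_eisAt hq2
      (Fermat.Agent.ES.N34.ModelN4.algHom_algebraMap_O O E' E a)
      (Fermat.Agent.ES.N34.ModelN4.algHom_algebraMap_O O E' E b) hφB hbB Of ca0 ca1 ca2 cb0 cb1 cb2
      noethB frac leO arch sat pi_ne pi_nonunit hram hEa hEb).1,
   fun hψB => (crossAt_of_eisAt hq2
      (Fermat.Agent.ES.N34.ModelN4.algHom_algebraMap_O O E' E a)
      (Fermat.Agent.ES.N34.ModelN4.algHom_algebraMap_O O E' E b) haB hψB Of ca0 ca1 ca2 cb0 cb1 cb2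
      noethB frac leO arch sat pi_ne pi_nonunit hram hEa hEb).2⟩

end Generic

/-! ### Noetherianity and fraction field of the charts of a Gauss base -/

section Gauss

open Fermat.Agent.RED.PUR.GaussGen8 Fermat.Agent.RED.PUR.KtGauss8 Fermat.Agent.RED.NumInst4
  Fermat.Agent.RED.ModelAsm4 Fermat.Agent.ES.N34.ChartN26

variable {K : Type*} [Field K] {O : ValuationSubring K} [IsDiscreteValuationRing ↥O]
  {E : IntermediateField K (LaurentSeries K)} [CharZero K]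

theorem chart_noeth_frac_gauss {π : ↥O} (hπ : Irreducible π)
    (t : ↥E) (ht : (t : LaurentSeries K) ∈ gaussRing O)
    (htr : Transcendental (Res O) (gaussRed O ⟨(t : LaurentSeries K), ht⟩))
    (hn : relfinrank (Kt O ⟨(t : LaurentSeries K), ht⟩) E ≠ 0) :
    IsNoetherianRing ↥(chart ↥O t) ∧ IsNoetherianRing ↥(chart ↥O t⁻¹) ∧
    (∀ x : ↥E, ∃ u ∈ chart ↥O t, ∃ v ∈ chart ↥O t, v ≠ 0 ∧ x * v = u) ∧
    (∀ x : ↥E, ∃ u ∈ chart ↥O t⁻¹, ∃ v ∈ chart ↥O t⁻¹, v ≠ 0 ∧ x * v = u) := by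
  have : IsScalarTower ↥O K ↥E := isScalarTower_OE O E
  have : FiniteDimensional ↥(IntermediateField.adjoin K {t}) ↥E := finiteDimensional_adjoin t hn
  have htrK : Transcendental K t :=
    transcendental_of_coe t (transcendental_t (tG := ⟨(t : LaurentSeries K), ht⟩) hπ htr)
  exact chart_noeth_frac (R := ↥O) (K := K) (F := ↥E) htrK

end Gauss

/-! ### The model plug -/

section Model

open Fermat.Agent.RED.Interface4 Fermat.Agent.RED.PUR.GaussGen8 Fermat.Agent.RED.BASE.EtaQuot12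
  Fermat.Agent.ES.N34 Fermat.Agent.ES.P36.ModelDefsP9 Fermat.Agent.ES.P36.GenTable11
  Fermat.Agent.ES.P36.OrdVal20 Fermat.Agent.RED.DESC.NumberFieldDVR27

variable {n e q M' : ℕ} [NeZero n] [NeZero M'] [NeZero q] {A : ValuationSubring Qbar}
  {K : IntermediateField ℚ Qbar}

set_option maxHeartbeats 4000000 in
/-- **R6 over one number field `K`**: `CrossItemsP` from the shared contract `EisItemsP`. -/
theorem crossItemsP_of_eis (hq : q.Prime) (hA : A.LiesOverPrime q) [FiniteDimensional ℚ K]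
    (hJ : jqModC K ∈ IntermediateField.adjoin (↥K) {tq (↥K) n e})
    (hS2 : ModelN4.ModEqItems n e q M' A K)
    (hmodel : MultiItemsP n e q M' A K)
    (htab : BranchModel15.TableItemsP q M' A K)
    (heis : EisItemsP n e q M' A K) : CrossItemsP n e q M' A K := by
  intro ht π hπ O2 hO2
  obtain ⟨hy0, hy1⟩ := hS2 ht
  obtain ⟨T, H⟩ := htab π hπ O2 hO2
  have model : MultiChartModel ↥(AK A K) ↥(FK (M' * q * q) K) π (t q ht) (B0 A q ht) (B1 A q ht)
      (Ofam M' q hπ O2) := hmodel ht π hπ O2 hO2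
  obtain ⟨e0a, e0b, e1a, e1b⟩ := heis ht π hπ O2 hO2
  have hdvr : IsDiscreteValuationRing ↥(AK A K) := isDiscreteValuationRing_AK A K hq.ne_zero hA
  have hirr : Irreducible π := (IsDiscreteValuationRing.irreducible_iff_uniformizer π).mpr hπ.max_eq
  obtain ⟨htG, htr, hn⟩ := ModelP4.gaussFacts_t (A := A) q ht hJ
  obtain ⟨hn0, hn1, hf0, hf1⟩ := chart_noeth_frac_gauss hirr (t q ht) htG htr hn
  -- the ramification of the middle component
  have hram : ∃ ξ : ↥(FK (M' * q * q) K), (Ofam M' q hπ O2 1).valuation ξ ^ (q - 1) =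
      (Ofam M' q hπ O2 1).valuation (algebraMap ↥(AK A K) ↥(FK (M' * q * q) K) π) := by
    refine ⟨T, ?_⟩
    have h := H.hTπ
    unfold HasOrd at h
    have hq1 : ((q : ℤ) - 1) = ((q - 1 : ℕ) : ℤ) := by
      rw [Nat.cast_sub hq.one_lt.le]; simp
    rw [hq1, zpow_natCast] at h
    show O2.valuation T ^ (q - 1) = O2.valuation _
    rw [← h]
    rfl
  -- the four inclusions of charts
  have ha0 : ∀ x ∈ ModelDefs9.B0 A q ht, ((alpha2 K M' q : _ →ₐ[↥K] _) : _ →+* _) x ∈ B0 A q ht :=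
    fun _ hx => ChartMaps9.alpha2_mem_B0 ht hx
  have hb0 : ∀ x ∈ ModelDefs9.B0 A q ht, ((beta2 K M' q : _ →ₐ[↥K] _) : _ →+* _) x ∈ B0 A q ht :=
    fun _ hx => ChartMaps9.beta2_mem_B0 ht hy0 hx
  have ha1 : ∀ x ∈ ModelDefs9.B1 A q ht, ((alpha2 K M' q : _ →ₐ[↥K] _) : _ →+* _) x ∈ B1 A q ht :=
    fun _ hx => ChartMaps9.alpha2_mem_B1 ht hx
  have hb1 : ∀ x ∈ ModelDefs9.B1 A q ht, ((beta2 K M' q : _ →ₐ[↥K] _) : _ →+* _) x ∈ B1 A q ht :=
    fun _ hx => ChartMaps9.beta2_mem_B1 ht hy1 hx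
  have h0 := crossAt_pair (O := AK A K) (E' := FK (M' * q) K) (E := FK (M' * q * q) K) hq.two_le
    (alpha2 K M' q) (beta2 K M' q) (ModelDefs9.B0 A q ht) (B0 A q ht) ha0 hb0
    (O1q M' q hπ) (O2q M' q hπ) (Ofam M' q hπ O2) H.cα1 H.cα2 H.cα3 H.cβ1 H.cβ2 H.cβ3
    hn0 hf0 model.le_O_0 model.arch model.sat0 model.pi_ne model.pi_nonunit hram e0a e0b
  have h1 := crossAt_pair (O := AK A K) (E' := FK (M' * q) K) (E := FK (M' * q * q) K) hq.two_le
    (alpha2 K M' q) (beta2 K M' q) (ModelDefs9.B1 A q ht) (B1 A q ht) ha1 hb1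
    (O1q M' q hπ) (O2q M' q hπ) (Ofam M' q hπ O2) H.cα1 H.cα2 H.cα3 H.cβ1 H.cβ2 H.cβ3
    hn1 hf1 model.le_O_1 model.arch model.sat1 model.pi_ne model.pi_nonunit hram e1a e1b
  exact ⟨h0.1, h0.2, h1.1, h1.2⟩

end Model

end Fermat.Agent.ES.P36.CrossModel29
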