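/-
Program P (S36), chapter REG, brick R7c part C (helper3): **(b1) — a cusp place through a type-I point
`x1` of the level-`M' q` chart is unramified over the good level `M'`** (abstract layer).

Geometric content: the cusp sections of the level-`M'` model are transversal to the special fibre
(`B₀ / 𝔓 ≅ R` by the constant coefficient of the cusp expansion), `R̃ = (B')_{x1}` has
`𝔪 = (π, φ s₀)` with `s₀` from level `M'` (type-I point: only the component on which `α` is an
isomorphism passes through `x1`), hence `𝔪_{R̃} = (π, φ g)` with `g ∈ 𝔓`, and `φ g` generates the centre of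
every horizontal place through `x1` lying over the cusp section.

* `ord_eq_one_of_span_pair` : (C4) `R` noetherian local with `𝔪 = (π, s)`, mapping to the valuation ring of
  a place `w` of `F = Frac R`, `π` a `w`-unit, `s` a `w`-non-unit ⟹ `ord_w s = 1` (Nakayama + descent);
* `exists_ord_eq_one`       : **(b1), abstract chart form** (lower chart `B₀`, retraction `ev : B₀ → R`,
  upper chart `B' ⊆ F'`, `x1`, `w`);
* `exists_ev`               : (C1) the retraction `ev : chart O t → O` from ONE cusp expansion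
  `ι t = c + u X^e` (`CuspPS6.exists_iotaPS`), `ev (t - c) = 0`, kernel = positive `ι`-order;
* `ord_pos_of_order_pos`    : archimedean comparison `ι`-order / `w`-order.
-/
import Mathlib
import Fermat.Agent.X0.FFPlace
import Fermat.Agent.X0.FFDict
import Fermat.Agent.ES.P36.RegLocal3
import Fermat.Agent.RED.CUSP.CuspPS6
import Fermat.Agent.RED.CUSP.CuspIface23

set_option autoImplicit false
set_option linter.unusedSectionVars false
set_option linter.unusedVariables false
set_option linter.style.haveILetI false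

noncomputable section

namespace Fermat.Agent.ES.P36.CuspBranch3

open AlgebraicCurve IsLocalRing Fermat.Agent.X0.FF

section Abstract

variable {K F : Type*} [Field K] [Field F] [Algebra K F] (w : Place K F)

/-- **(C4), abstract.**  `R` a noetherian local ring mapping to the valuation ring of the place `w`,
with `𝔪_R = (π, s)`, `π` a unit at `w` and `s` a non-unit at `w`, every element of `F` a quotient of
elements of `R`.  Then `s` is a uniformiser at `w`. -/
theorem ord_eq_one_of_span_pair {R : Type*} [CommRing R] [IsLocalRing R] [IsNoetherianRing R]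
    (ψ : R →+* F) (hψ : ∀ r, ψ r ∈ w.toValuationSubring)
    (π s : R) (h𝔪 : maximalIdeal R = Ideal.span {π, s})
    (hπ0 : ψ π ≠ 0) (hπ : w.ord (ψ π) = 0) (hs : 0 < w.ord (ψ s))
    (hfrac : ∀ x : F, ∃ a b : R, ψ b ≠ 0 ∧ x * ψ b = ψ a) :
    w.ord (ψ s) = 1 := by
  classical
  set ψ' : R →+* w.toValuationSubring := ψ.codRestrict w.toValuationSubring hψ with hψ'
  have hψ'c : ∀ r, ((ψ' r : w.toValuationSubring) : F) = ψ r := fun r => rfl
  set 𝔮 : Ideal R := (maximalIdeal w.toValuationSubring).comap ψ' with h𝔮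
  have hprime : 𝔮.IsPrime := Ideal.comap_isPrime ψ' _
  have hmem : ∀ r, r ∈ 𝔮 ↔ ψ r = 0 ∨ 0 < w.ord (ψ r) := by
    intro r
    rw [h𝔮, Ideal.mem_comap]
    by_cases h0 : ψ' r = 0
    · have h1 : ψ r = 0 := by rw [← hψ'c, h0]; rfl
      rw [h0]
      exact ⟨fun _ => Or.inl h1, fun _ => Ideal.zero_mem _⟩
    · have h1 : ψ r ≠ 0 := fun h => h0 (Subtype.ext (by rw [hψ'c, h]; rfl))
      rw [ffp_mem_maximalIdeal_iff w _ h0, hψ'c]
      exact ⟨fun h => Or.inr h, fun h => h.resolve_left h1⟩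
  have hπq : π ∉ 𝔮 := by
    rw [hmem]
    rintro (h | h)
    · exact hπ0 h
    · omega
  have hsq : s ∈ 𝔮 := (hmem s).mpr (Or.inr hs)
  -- Nakayama: `𝔮 = (s)`
  have hle : 𝔮 ≤ Ideal.span {s} := by
    apply Submodule.le_of_le_smul_of_le_jacobson_bot (I := Ideal.span {π})
      (IsNoetherian.noetherian 𝔮)
    · rw [IsLocalRing.jacobson_eq_maximalIdeal ⊥ bot_ne_top, h𝔪]
      exact Ideal.span_mono (by intro x hx; rw [Set.mem_singleton_iff] at hx; rw [hx]; simp)
    · intro y hy
      have hy' : y ∈ maximalIdeal R := IsLocalRing.le_maximalIdeal hprime.ne_top hy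
      rw [h𝔪, Ideal.mem_span_pair] at hy'
      obtain ⟨a, b, hab⟩ := hy'
      have ha : a ∈ 𝔮 := by
        have h1 : a * π ∈ 𝔮 := by
          have : a * π = y - b * s := by rw [← hab]; ring
          rw [this]
          exact 𝔮.sub_mem hy (𝔮.mul_mem_left _ hsq)
        exact (hprime.mem_or_mem h1).resolve_right hπq
      rw [← hab]
      refine Submodule.add_mem_sup ?_ ?_ |> fun h => by rw [add_comm]; exact h
      · exact Ideal.mem_span_singleton'.mpr ⟨b, rfl⟩
      · rw [smul_eq_mul, mul_comm a π]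
        exact Ideal.mul_mem_mul (Ideal.mem_span_singleton_self π) ha
  -- every order is a multiple of `m₀ = ord s`
  have hdvd : ∀ n : ℕ, ∀ r : R, ψ r ≠ 0 → w.ord (ψ r) = n → w.ord (ψ s) ∣ (n : ℤ) := by
    intro n
    induction n using Nat.strong_induction_on with
    | _ n ih =>
      intro r hr hn
      rcases Nat.eq_zero_or_pos n with rfl | hpos
      · simp
      · have hrq : r ∈ 𝔮 := (hmem r).mpr (Or.inr (by rw [hn]; exact_mod_cast hpos))
        obtain ⟨r', hr'⟩ := Ideal.mem_span_singleton'.mp (hle hrq)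
        have hψr : ψ r = ψ r' * ψ s := by rw [← hr', map_mul]
        have hr'0 : ψ r' ≠ 0 := fun h => hr (by rw [hψr, h, zero_mul])
        have hs0 : ψ s ≠ 0 := fun h => hr (by rw [hψr, h, mul_zero])
        have hord : w.ord (ψ r) = w.ord (ψ r') + w.ord (ψ s) := by
          rw [hψr, w.ord_mul hr'0 hs0]
        have hnn : 0 ≤ w.ord (ψ r') := ffp_ord_nonneg_of_mem w (hψ r')
        obtain ⟨k, hk⟩ := Int.eq_ofNat_of_zero_le hnn
        have hlt : k < n := by
          have : (k : ℤ) < n := by omega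
          exact_mod_cast this
        have h1 := ih k hlt r' hr'0 hk
        have : (n : ℤ) = (k : ℤ) + w.ord (ψ s) := by omega
        rw [this]
        exact dvd_add h1 dvd_rfl
  -- a uniformiser of `w` is a quotient
  obtain ⟨ϖ, hϖ⟩ := ffp_exists_irreducible w
  have hϖ1 : w.ord (ϖ : F) = 1 := w.ord_coe_irreducible hϖ
  have hϖ0 : (ϖ : F) ≠ 0 := by
    intro h
    rw [h, Place.ord_zero] at hϖ1
    exact zero_ne_one hϖ1
  obtain ⟨a, b, hb, hab⟩ := hfrac (ϖ : F)
  have ha : ψ a ≠ 0 := by rw [← hab]; exact mul_ne_zero hϖ0 hb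
  have hord : w.ord (ψ a) = 1 + w.ord (ψ b) := by rw [← hab, w.ord_mul hϖ0 hb, hϖ1]
  obtain ⟨ka, hka⟩ := Int.eq_ofNat_of_zero_le (ffp_ord_nonneg_of_mem w (hψ a))
  obtain ⟨kb, hkb⟩ := Int.eq_ofNat_of_zero_le (ffp_ord_nonneg_of_mem w (hψ b))
  have h1 := hdvd ka a ha hka
  have h2 := hdvd kb b hb hkb
  have h3 : w.ord (ψ s) ∣ 1 := by
    have : (1 : ℤ) = (ka : ℤ) - (kb : ℤ) := by omega
    rw [this]
    exact dvd_sub h1 h2
  exact Int.eq_one_of_dvd_one hs.le h3

end Abstract

section Chart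

variable {R K F' : Type*} [CommRing R] [Field K] [Field F'] [Algebra K F'] [Algebra R F']
  {B₀ : Type*} [CommRing B₀] [Algebra R B₀]

/-- **(b1), abstract chart form.**  `B'` the upper chart (noetherian, fraction field `F'`), `B₀` the
lower chart with `φB : B₀ → B'`; `ev : B₀ → R` a retraction of `R → B₀` ("value at the cusp section");
`x1` a prime of `B'` over `π`, locally generated by `π` and `φB s₀` (type-I point), its contraction to
`B₀` locally generated by `π` and one more element (level-`M'` smoothness); `w` a place of `F'` centred in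
`x1`, with `π` a unit, at which the elements of `ker ev` have positive order (`w` lies over the cusp
section).  Then some element of `B₀` is a uniformiser at `w`. -/
theorem exists_ord_eq_one (B' : Subalgebra R F') [IsNoetherianRing B'] (φB : B₀ →+* B')
    (hφR : ∀ r, φB (algebraMap R B₀ r) = algebraMap R B' r)
    (π : R) (hR : ∀ r : R, IsUnit r ∨ π ∣ r)
    (ev : B₀ →+* R) (hev : ∀ r : R, ev (algebraMap R B₀ r) = r)
    (x1 : Ideal B') [hx1 : x1.IsPrime] (hπ1 : algebraMap R B' π ∈ x1)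
    (w : Place K F') (hB'w : ∀ b : B', (b : F') ∈ w.toValuationSubring)
    (hcen : ∀ d : B', d ∉ x1 → ((d : F'))⁻¹ ∈ w.toValuationSubring)
    (hπ0 : algebraMap R F' π ≠ 0) (hπw : (algebraMap R F' π)⁻¹ ∈ w.toValuationSubring)
    (hevw : ∀ b : B₀, ev b = 0 → ((φB b : B') : F') = 0 ∨ 0 < w.ord ((φB b : B') : F'))
    (hτ : ∃ τ : B₀, ev τ = 0 ∧ ((φB τ : B') : F') ≠ 0)
    (hπmax : (Ideal.span {π} : Ideal R).IsMaximal)
    (hsm0 : ∀ x0 : Ideal B₀, x0.IsMaximal → algebraMap R B₀ π ∈ x0 → (∀ b, ev b = 0 → b ∈ x0) →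
      ∃ s : B₀, s ∈ x0 ∧ ∀ y ∈ x0, ∃ d, d ∉ x0 ∧ d * y ∈ Ideal.span {algebraMap R B₀ π, s})
    (hsm1 : ∃ s₀ : B₀, φB s₀ ∈ x1 ∧ ∀ y ∈ x1, ∃ d, d ∉ x1 ∧
      d * y ∈ Ideal.span {algebraMap R B' π, φB s₀})
    (hfrac : ∀ x : F', ∃ a b : B', b ≠ 0 ∧ x * (b : F') = (a : F')) :
    ∃ g : B₀, w.ord ((φB g : B') : F') = 1 := by
  classical
  -- the kernel of `ev` goes into `x1`
  have hker : ∀ b : B₀, ev b = 0 → φB b ∈ x1 := by
    intro b hb
    by_contra hnot
    have hinv := hcen _ hnot
    rcases hevw b hb with h0 | hpos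
    · apply hnot
      have : φB b = 0 := Subtype.ext h0
      rw [this]
      exact x1.zero_mem
    · have := ffp_ord_nonneg_of_mem w hinv
      rw [w.ord_inv] at this
      omega
  -- the contraction of `x1` is the maximal ideal `ev⁻¹(π)`
  have hevsurj : Function.Surjective ev := fun r => ⟨algebraMap R B₀ r, hev r⟩
  have hπ0' : algebraMap R B₀ π ∈ x1.comap φB := by
    rw [Ideal.mem_comap, hφR]; exact hπ1
  have hmax0 : (x1.comap φB).IsMaximal := by
    have h𝔫 : ((Ideal.span {π} : Ideal R).comap ev).IsMaximal :=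
      Ideal.comap_isMaximal_of_surjective ev hevsurj
    have hle : (Ideal.span {π} : Ideal R).comap ev ≤ x1.comap φB := by
      intro b hb
      rw [Ideal.mem_comap, Ideal.mem_span_singleton] at hb
      obtain ⟨r, hr⟩ := hb
      have h1 : ev (b - algebraMap R B₀ (π * r)) = 0 := by rw [map_sub, hev, hr, sub_self]
      have h2 := hker _ h1
      have h3 : b = (b - algebraMap R B₀ (π * r)) + algebraMap R B₀ π * algebraMap R B₀ r := by
        rw [map_mul]; ring
      rw [h3]
      exact Ideal.add_mem _ h2 (Ideal.mul_mem_right _ _ hπ0')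
    have hne : x1.comap φB ≠ ⊤ := (Ideal.comap_ne_top φB hx1.ne_top)
    rw [← h𝔫.eq_of_le hne hle]
    exact h𝔫
  -- the generator `g ∈ ker ev` of the lower point
  obtain ⟨s, hs0, hs⟩ := hsm0 (x1.comap φB) hmax0 hπ0' (fun b hb => hker b hb)
  set r₀ : R := ev s with hr₀
  set g : B₀ := s - algebraMap R B₀ r₀ with hg
  have hevg : ev g = 0 := by rw [hg, map_sub, hev, hr₀, sub_self]
  have hgx : φB g ∈ x1 := hker g hevg
  have hr₀x : algebraMap R B' r₀ ∈ x1 := by
    have h1 : φB s ∈ x1 := hs0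
    have h2 : algebraMap R B' r₀ = φB s - φB g := by
      rw [hg, map_sub, hφR]; ring
    rw [h2]
    exact x1.sub_mem h1 hgx
  obtain ⟨r₁, hr₁⟩ : π ∣ r₀ := by
    rcases hR r₀ with hu | hd
    · exfalso
      exact hx1.ne_top (Ideal.eq_top_of_isUnit_mem _ hr₀x (hu.map _))
    · exact hd
  have hsg : s = g + algebraMap R B₀ π * algebraMap R B₀ r₁ := by
    rw [hg, ← map_mul, ← hr₁]; ring
  have hg0 : ∀ y ∈ x1.comap φB, ∃ d, d ∉ x1.comap φB ∧
      d * y ∈ Ideal.span {algebraMap R B₀ π, g} := by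
    intro y hy
    obtain ⟨d, hd, hdy⟩ := hs y hy
    refine ⟨d, hd, ?_⟩
    have hle : Ideal.span {algebraMap R B₀ π, s} ≤ Ideal.span {algebraMap R B₀ π, g} := by
      rw [Ideal.span_le]
      rintro z (rfl | rfl)
      · exact Ideal.subset_span (by simp)
      · rw [hsg]
        exact Ideal.add_mem _ (Ideal.subset_span (by simp))
          (Ideal.mul_mem_right _ _ (Ideal.subset_span (by simp)))
    exact hle hdy
  -- transport to the upper point
  obtain ⟨s₀, hs₀x, hs₀⟩ := hsm1
  obtain ⟨d₀, hd₀, hd₀s⟩ := hg0 s₀ hs₀x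
  rw [Ideal.mem_span_pair] at hd₀s
  obtain ⟨a₀, b₀, hab₀⟩ := hd₀s
  have hab₀' : φB a₀ * algebraMap R B' π + φB b₀ * φB g = φB d₀ * φB s₀ := by
    rw [← hφR, ← map_mul, ← map_mul, ← map_add, hab₀, map_mul]
  have hg1 : ∀ y ∈ x1, ∃ d, d ∉ x1 ∧ d * y ∈ Ideal.span {algebraMap R B' π, φB g} := by
    intro y hy
    obtain ⟨d, hd, hdy⟩ := hs₀ y hy
    rw [Ideal.mem_span_pair] at hdy
    obtain ⟨a', b', hab'⟩ := hdy
    refine ⟨φB d₀ * d, fun h => (hx1.mem_or_mem h).elim hd₀ hd, ?_⟩
    rw [Ideal.mem_span_pair]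
    refine ⟨φB d₀ * a' + b' * φB a₀, b' * φB b₀, ?_⟩
    calc (φB d₀ * a' + b' * φB a₀) * algebraMap R B' π + b' * φB b₀ * φB g
        = φB d₀ * (a' * algebraMap R B' π) + b' * (φB a₀ * algebraMap R B' π + φB b₀ * φB g) := by
          ring
      _ = φB d₀ * (a' * algebraMap R B' π) + b' * (φB d₀ * φB s₀) := by rw [hab₀']
      _ = φB d₀ * (a' * algebraMap R B' π + b' * φB s₀) := by ring
      _ = φB d₀ * d * y := by rw [hab']; ring
  -- choose the parameter `s*`
  obtain ⟨τ, hevτ, hτ0⟩ := hτ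
  have hτx : φB τ ∈ x1 := hker τ hevτ
  obtain ⟨g', hevg', hg'0, hg'x, hg'1⟩ : ∃ g' : B₀, ev g' = 0 ∧ ((φB g' : B') : F') ≠ 0 ∧
      φB g' ∈ x1 ∧ ∀ y ∈ x1, ∃ d, d ∉ x1 ∧ d * y ∈ Ideal.span {algebraMap R B' π, φB g'} := by
    by_cases hgz : ((φB g : B') : F') = 0
    · refine ⟨τ, hevτ, hτ0, hτx, fun y hy => ?_⟩
      obtain ⟨d, hd, hdy⟩ := hg1 y hy
      refine ⟨d, hd, ?_⟩
      have hgz' : φB g = 0 := Subtype.ext hgz
      rw [hgz'] at hdy
      have hle : Ideal.span {algebraMap R B' π, (0 : B')} ≤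
          Ideal.span {algebraMap R B' π, φB τ} := by
        rw [Ideal.span_le]
        rintro z (rfl | rfl)
        · exact Ideal.subset_span (by simp)
        · exact Ideal.zero_mem _
      exact hle hdy
    · exact ⟨g, hevg, hgz, hgx, hg1⟩
  have hpos : 0 < w.ord ((φB g' : B') : F') := (hevw g' hevg').resolve_left hg'0
  refine ⟨g', ?_⟩
  -- the local ring at `x1`
  have h𝔪 := RegLocal3.maximalIdeal_atPrime_eq_span_pair x1 (algebraMap R B' π) (φB g') hπ1 hg'x hg'1
  have : IsNoetherianRing (Localization.AtPrime x1) :=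
    IsLocalization.isNoetherianRing x1.primeCompl (Localization.AtPrime x1) inferInstance
  have hunits : ∀ y : x1.primeCompl, IsUnit (B'.val.toRingHom (y : B')) := by
    intro y
    apply IsUnit.mk0
    intro h0
    apply y.2
    have : (y : B') = 0 := Subtype.ext h0
    rw [this]
    exact x1.zero_mem
  set ψ : Localization.AtPrime x1 →+* F' := IsLocalization.lift (M := x1.primeCompl) hunits with hψdef
  have hψalg : ∀ b : B', ψ (algebraMap B' (Localization.AtPrime x1) b) = (b : F') := fun b =>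
    IsLocalization.lift_eq hunits b
  have hψ : ∀ r, ψ r ∈ w.toValuationSubring := by
    intro r
    obtain ⟨a, d, rfl⟩ := IsLocalization.exists_mk'_eq x1.primeCompl r
    have h1 : ψ (IsLocalization.mk' (Localization.AtPrime x1) a d) * ((d : B') : F') = (a : F') := by
      rw [← hψalg (d : B'), ← map_mul, IsLocalization.mk'_spec, hψalg]
    have hd0 : ((d : B') : F') ≠ 0 := (hunits d).ne_zero
    have h2 : ψ (IsLocalization.mk' (Localization.AtPrime x1) a d) = (a : F') * ((d : B') : F')⁻¹ := by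
      rw [← h1, mul_assoc, mul_inv_cancel₀ hd0, mul_one]
    rw [h2]
    exact w.toValuationSubring.mul_mem _ _ (hB'w a) (hcen _ d.2)
  have hπF : ((algebraMap R B' π : B') : F') = algebraMap R F' π := rfl
  refine ord_eq_one_of_span_pair w ψ hψ _ _ h𝔪 ?_ ?_ ?_ ?_ |> fun h => by rwa [hψalg] at h
  · rw [hψalg, hπF]; exact hπ0
  · rw [hψalg, hπF]
    have h1 := ffp_ord_nonneg_of_mem w hπw
    rw [w.ord_inv] at h1
    have h2 := ffp_ord_nonneg_of_mem w (hB'w (algebraMap R B' π))
    rw [hπF] at h2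
    omega
  · rw [hψalg]; exact hpos
  · intro x
    obtain ⟨a, b, hb, hab⟩ := hfrac x
    refine ⟨algebraMap B' _ a, algebraMap B' _ b, ?_, ?_⟩
    · rw [hψalg]
      intro h0
      exact hb (Subtype.ext h0)
    · rw [hψalg, hψalg]; exact hab

end Chart

section Ev

open Polynomial Fermat.Agent.RED.CUSP.IntClosedPS16 Fermat.Agent.RED.PUR.IntClosBase13
  Fermat.Agent.RED.PUR.ChartGeneric22 Fermat.Agent.RED.CUSP.PolyToPS16

variable {K : Type*} [Field K] (O : ValuationSubring K) [IsDiscreteValuationRing ↥O]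
  (E : IntermediateField K (LaurentSeries K))

omit [IsDiscreteValuationRing ↥O] in
/-- the underlying element of `t - c` in the chart. -/
theorem coe_sub_const (t : ↥E) (c : ↥O) :
    ((((⟨t, self_mem_chart t⟩ : ↥(chart ↥O t)) - algebraMap ↥O ↥(chart ↥O t) c :
      ↥(chart ↥O t)) : ↥E)) = t - algebraMap ↥O ↥E c := by
  rw [Subalgebra.coe_sub, Subalgebra.coe_algebraMap]

/-- **(C1) The value at the cusp section.**  A cusp expansion `ι` of `E` with coefficients in `Frac O⟦X⟧`,
`ι t = c + u X^e`, gives a retraction `ev : chart O t → O` of the structure map (the constant coefficient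
of the expansion), killing `t - c`, whose kernel consists of elements of positive `ι`-order. -/
theorem exists_ev (t : ↥E) (ι : ↥E →+* LaurentSeries K)
    (hconst : ∀ a : ↥O, ι (algebraMap ↥O ↥E a) = HahnSeries.C (algebraMap ↥O K a))
    (hfrac : ∀ f, ι f ∈ psFrac ↥O K) (c : ↥O) (u : PowerSeries ↥O) (e : ℕ) (he : 0 < e)
    (hshape : ι t = HahnSeries.C (algebraMap ↥O K c) + toLS ↥O K (u * PowerSeries.X ^ e)) :
    ∃ ev : ↥(chart ↥O t) →+* ↥O,
      (∀ a : ↥O, ev (algebraMap ↥O ↥(chart ↥O t) a) = a) ∧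
      (∀ b : ↥(chart ↥O t), ev b = 0 → (b : ↥E) = 0 ∨ 0 < (ι (b : ↥E)).order) ∧
      ev ((⟨t, self_mem_chart t⟩ : ↥(chart ↥O t)) - algebraMap ↥O ↥(chart ↥O t) c) = 0 := by
  classical
  have hcoe := coe_sub_const O E t c
  letI : Algebra (↥O)[X] ↥E := polyAlgebra (A := ↥O) t
  haveI : IsScalarTower ↥O (↥O)[X] ↥E := polyAlgebra_isScalarTower (A := ↥O) t
  have hX : algebraMap (↥O)[X] ↥E X = t := polyAlgebra_algebraMap_X (A := ↥O) t
  obtain ⟨ιPS, h1, -⟩ := Fermat.Agent.RED.CUSP.CuspPS6.exists_iotaPS hX ι hconst hfrac c u e he hshape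
  set toIC : ↥(chart ↥O t) →+* ↥(integralClosure (↥O)[X] ↥E) :=
    (chart ↥O t).val.toRingHom.codRestrict (integralClosure (↥O)[X] ↥E)
      (fun b => (isIntegral_iff hX (b : ↥E)).mpr b.2) with htoIC
  have htoIC' : ∀ b : ↥(chart ↥O t), ((toIC b : ↥(integralClosure (↥O)[X] ↥E)) : ↥E) = (b : ↥E) :=
    fun b => rfl
  set P : ↥(chart ↥O t) →+* PowerSeries ↥O := ιPS.comp toIC with hP
  have hP1 : ∀ b : ↥(chart ↥O t), toLS ↥O K (P b) = ι (b : ↥E) := by
    intro b
    rw [hP, RingHom.comp_apply, h1, htoIC']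
  have htoLSC : ∀ a : ↥O, toLS ↥O K (PowerSeries.C a) = HahnSeries.C (algebraMap ↥O K a) := by
    intro a
    rw [toLS_apply, PowerSeries.map_C, HahnSeries.ofPowerSeries_C]
  refine ⟨PowerSeries.constantCoeff.comp P, ?_, ?_, ?_⟩
  · intro a
    have h2 : P (algebraMap ↥O ↥(chart ↥O t) a) = PowerSeries.C a := by
      apply toLS_injective ↥O K
      rw [hP1, htoLSC]
      exact hconst a
    rw [RingHom.comp_apply, h2, PowerSeries.constantCoeff_C]
  · intro b hb
    rw [RingHom.comp_apply] at hb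
    by_cases h0 : ι (b : ↥E) = 0
    · left
      exact (map_eq_zero ι).mp h0
    · right
      have h2 : (1 : ℤ) ≤ (ι (b : ↥E)).order := by
        rw [HahnSeries.le_order_iff_forall h0]
        intro j hj
        rw [← hP1]
        have hj' : j ≤ 0 := by omega
        rcases hj'.lt_or_eq with hneg | rfl
        · exact toLS_coeff_neg ↥O K _ j hneg
        · have := toLS_coeff ↥O K (P b) 0
          rw [Nat.cast_zero] at this
          rw [this, PowerSeries.coeff_zero_eq_constantCoeff_apply, hb, map_zero]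
      omega
  · have h2 : P ((⟨t, self_mem_chart t⟩ : ↥(chart ↥O t)) - algebraMap ↥O ↥(chart ↥O t) c) =
        u * PowerSeries.X ^ e := by
      apply toLS_injective ↥O K
      rw [hP1]
      rw [hcoe, map_sub, hshape, hconst]
      ring
    rw [RingHom.comp_apply, h2, map_mul, map_pow, PowerSeries.constantCoeff_X,
      zero_pow he.ne', mul_zero]

/-- **Archimedean comparison.**  If the place `w` contains the valuation ring of the expansion `ι` and
some `τ` has positive order for both, then positive `ι`-order implies positive `w`-order. -/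
theorem ord_pos_of_order_pos (ι : ↥E →+* LaurentSeries K) (w : Place K ↥E)
    (hsub : ∀ z : ↥E, z ≠ 0 → 0 ≤ (ι z).order → z ∈ w.toValuationSubring)
    (τ : ↥E) (hτι : 0 < (ι τ).order) (hτw : 0 < w.ord τ)
    (b : ↥E) (hb : b ≠ 0) (hbι : 0 < (ι b).order) : 0 < w.ord b := by
  have hτ0 : τ ≠ 0 := by
    intro h
    rw [h, map_zero, HahnSeries.order_zero] at hτι
    exact lt_irrefl _ hτι
  obtain ⟨m, hm⟩ := Int.eq_ofNat_of_zero_le hbι.le
  obtain ⟨e', he'⟩ := Int.eq_ofNat_of_zero_le hτι.le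
  have hm0 : 0 < m := by
    have : (0 : ℤ) < m := by rw [← hm]; exact hbι
    exact_mod_cast this
  have he0 : 0 < e' := by
    have : (0 : ℤ) < e' := by rw [← he']; exact hτι
    exact_mod_cast this
  -- `z = b^{e'} / τ^m` has `ι`-order `0`
  set z : ↥E := b ^ e' / τ ^ m with hz
  have hz0 : z ≠ 0 := div_ne_zero (pow_ne_zero _ hb) (pow_ne_zero _ hτ0)
  have hzι : (ι z).order = 0 := by
    have h1 : ι z * ι τ ^ m = ι b ^ e' := by
      rw [hz, map_div₀, map_pow, map_pow, div_mul_cancel₀]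
      exact pow_ne_zero _ ((map_ne_zero ι).mpr hτ0)
    have h2 := congrArg HahnSeries.order h1
    rw [HahnSeries.order_mul ((map_ne_zero ι).mpr hz0)
      (pow_ne_zero _ ((map_ne_zero ι).mpr hτ0)), HahnSeries.order_pow, HahnSeries.order_pow,
      hm, he'] at h2
    simp only [nsmul_eq_mul] at h2
    have : (m : ℤ) * (e' : ℤ) = (e' : ℤ) * (m : ℤ) := mul_comm _ _
    omega
  have hzmem : z ∈ w.toValuationSubring := hsub z hz0 hzι.ge
  have h3 := ffp_ord_nonneg_of_mem w hzmem
  have h4 : w.ord z = (e' : ℤ) * w.ord b - (m : ℤ) * w.ord τ := by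
    rw [hz, div_eq_mul_inv, w.ord_mul (pow_ne_zero _ hb) (inv_ne_zero (pow_ne_zero _ hτ0)),
      w.ord_inv, ← zpow_natCast, ← zpow_natCast, w.ord_zpow, w.ord_zpow]
    ring
  have h5 : (0 : ℤ) < (m : ℤ) * w.ord τ := mul_pos (by exact_mod_cast hm0) hτw
  have h6 : (0 : ℤ) < (e' : ℤ) * w.ord b := by omega
  by_contra hneg
  rw [not_lt] at hneg
  have : (e' : ℤ) * w.ord b ≤ 0 := mul_nonpos_of_nonneg_of_nonpos (by positivity) hneg
  omega

end Ev

end Fermat.Agent.ES.P36.CuspBranch3
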