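/-
Program P (S36), MODEL-P, brick M7a-1 — helper4: **Program H's level-`M` package AT ONE NUMBER FIELD**
(no `∃ K₀`): for every number field `K ⊂ ℚ̄` with `ζ_M ∈ K` (no other condition: `tq K n e ∈ FK M K`
and `j ∈ K(t)` hold for every `K` by `CoeffField4`, and the finite cusp values lie in `ℚ(ζ_M)`),
every `A` over `ℓ ∤ M` and every uniformiser `ϖ` of `A ∩ K`:

* `cuspValue_mem` : the finite cusp values of the Hauptmodul lie in `K`;
* `smoothOff_at`, `smoothOver_at`, `smoothInf_at` : the three targets of `ModelTargets4` at `K`;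
* `levelM_at` : `LevelM20.LevelM (AK A K) (FK M K) ϖ (tM ht)` and the same for `(tM ht)⁻¹`;
* `levelItems_at`, `levelItems_four_at`, `levelItems_nine_at` : `PrinItems12.LevelItems n e M A K`.

These are per-`K` twins of `OffHoriz4.hH_off/offTarget`, `CuspHoriz4.hH_over/hH_inf`,
`CuspConcrete23.overTarget_of_hunr/infTarget_of_hunr`, `LevelM20.levelM_of_targets` (same proofs, the
lower bounds `K₁ … K₅` replaced by the single hypothesis `ζ_M ∈ K`).  Needed because in Program P the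
number fields must be unramified at `A`, so an uncontrolled `K₀` is useless, while `ℚ(ζ_M)` is
unramified at every `ℓ ∤ M`.
-/
import Mathlib
import Fermat.Agent.ES.P36.CoeffField4
import Fermat.Agent.RED.PUR.OffHoriz4
import Fermat.Agent.RED.CUSP.CuspHoriz4
import Fermat.Agent.ES.N34.LevelM20
import Fermat.Agent.ES.N34.PrinItems12

set_option autoImplicit false
set_option linter.unusedSectionVars false
set_option linter.unusedVariables false
set_option linter.style.haveILetI false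
set_option synthInstance.maxHeartbeats 400000
set_option maxHeartbeats 1600000

open HahnSeries ModularCurve IntermediateField
open scoped MatrixGroups

noncomputable section

namespace Fermat.Agent.ES.P36.LevelMAt4

open Fermat.Agent.RED.Interface4 Fermat.Agent.RED.PUR.GaussGen8 Fermat.Agent.RED.PUR.KtGauss8
  Fermat.Agent.RED.PUR.G1Package8 Fermat.Agent.RED.ModelIface4 Fermat.Agent.RED.ModelTargets4
  Fermat.Agent.RED.BASE.EtaQuot12 Fermat.Agent.X0 Fermat.Agent.RED.NumInst4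
  Fermat.Agent.RED.DESC.NumberFieldDVR27 Fermat.Agent.RED.BASE.Interface12
  Fermat.Agent.RED.DESC.PlaceExtend27 Fermat.Agent.RED.BASE.Hauptmodul12
  Fermat.Agent.RED.CUSP.CuspEmbK16 Fermat.Agent.RED.CUSP.CuspIface23
  Fermat.Agent.RED.PUR.OffIface4 Fermat.Agent.RED.BASE
  Fermat.Agent.ES.P36.CoeffField4

variable {n e : ℕ} [NeZero n] {M : ℕ} [NeZero M] {A : ValuationSubring Qbar}
  {K : IntermediateField ℚ Qbar}

/-! ### The finite cusp values lie in `ℚ(ζ_M)` -/

/-- the coefficient `0` of a cusp shape with finite value `c` is `c`. -/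
theorem coeff_zero_of_shape {E : LaurentSeries Kbar} {c lam : Kbar} {a : ℕ} (ha : 0 < a)
    {V : PowerSeries Kbar}
    (hE : E = HahnSeries.C c + HahnSeries.C lam * HahnSeries.single (a : ℤ) 1 *
      HahnSeries.ofPowerSeries ℤ Kbar V) : E.coeff 0 = c := by
  have h1 : (HahnSeries.C lam * HahnSeries.single (a : ℤ) (1 : Kbar) *
      HahnSeries.ofPowerSeries ℤ Kbar V).coeff 0 = 0 := by
    have h2 : HahnSeries.C lam * HahnSeries.single (a : ℤ) (1 : Kbar) =
        HahnSeries.single (a : ℤ) lam := by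
      rw [HahnSeries.C_apply, HahnSeries.single_mul_single, zero_add, mul_one]
    rw [h2]
    have h3 : (0 : ℤ) = (-(a : ℤ)) + (a : ℤ) := by ring
    rw [h3, HahnSeries.coeff_single_mul_add]
    have h4 : (HahnSeries.ofPowerSeries ℤ Kbar V).coeff (-(a : ℤ)) = 0 := by
      have : ((V : LaurentSeries Kbar)).coeff (-(a : ℤ)) = 0 := by
        rw [PowerSeries.coeff_coe]
        have : (-(a : ℤ)) < 0 := by
          have : (0 : ℤ) < a := by exact_mod_cast ha
          omega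
        rw [if_pos this]
      exact this
    rw [h4, mul_zero]
  rw [hE, HahnSeries.coeff_add, h1, add_zero, HahnSeries.C_apply, HahnSeries.coeff_single_same]

/-- **The finite cusp values of `t` lie in every field containing `ζ_M`.** -/
theorem cuspValue_mem (cv : SL(2, ℤ) → Option Kbar) (hcv : CuspExp n e M cv)
    (hζ : zetaK M ∈ K) (γ : SL(2, ℤ)) (c : Kbar) (hγ : cv γ = some c) : c ∈ K := by
  obtain ⟨h, hC⟩ := hcv
  have htK : tq (↥K) n e ∈ FK M K := tq_mem_FK n e M h K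
  have hemb : baseChangeHom M K ⟨tq (↥K) n e, htK⟩ = tF M h :=
    Fermat.Agent.RED.CUSP.RankConcrete16.baseChangeHom_eq_tF M K h ⟨tq (↥K) n e, htK⟩ rfl
  have hshape := hC γ
  rw [hγ] at hshape
  obtain ⟨a, lam, V, ha, -, -, -, -, hE⟩ := hshape
  have h0 := coeff_zero_of_shape ha hE
  rw [← h0, ← hemb]
  exact T_coeff_mem hζ γ _ 0

/-! ### The common Gauss data at `K` -/

/-- `A ∩ K` contains the finite cusp values. -/
theorem cuspValue_mem_AK {ℓ : ℕ} (hℓ : ℓ.Prime) (hnM : n ∣ M) (hℓM : ¬ ℓ ∣ M)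
    (hA : A.LiesOverPrime ℓ) (cv : SL(2, ℤ) → Option Kbar) (hcv : CuspExp n e M cv)
    (hζ : zetaK M ∈ K) :
    ∀ γ c, cv γ = some c → ∃ a : ↥(AK A K), algebraMap ↥K Kbar (a : ↥K) = c := by
  intro γ c hγ
  have hℓn : ¬ ℓ ∣ n := fun hdvd => hℓM (hdvd.trans hnM)
  have hnA : ((n : Kbar))⁻¹ ∈ A := inv_natCast_mem hℓ hA n hℓn
  have hcK : c ∈ K := cuspValue_mem cv hcv hζ γ c hγ
  obtain ⟨h, hC⟩ := hcv
  have hshape := hC γ
  rw [hγ] at hshape
  obtain ⟨a, lam, V, -, -, -, -, hcint, -⟩ := hshape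
  have hcA : c ∈ A := hcint.mem_of_inv_mem A hnA (NeZero.ne n)
  exact ⟨⟨⟨c, hcK⟩, hcA⟩, rfl⟩

/-! ### The three targets at `K` -/

/-- **(LOC) at the non-cusp closed points of the chart `t`, at one `K ∋ ζ_M`.** -/
theorem smoothOff_at (hb : BaseHyp n e) (hnM : n ∣ M) {ℓ : ℕ} [Fact ℓ.Prime]
    (hℓM : ¬ ℓ ∣ M) (hA : A.LiesOverPrime ℓ) (cv : SL(2, ℤ) → Option Kbar)
    (hcv : MainCusp12.CuspExports n e M cv) [FiniteDimensional ℚ K] (hζ : zetaK M ∈ K)
    (ϖ : ↥(AK A K)) (hϖ : Irreducible ϖ) (t : ↥(FK M K))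
    (htq : (t : LaurentSeries K) = tq K n e) :
    SmoothOff (AK A K) (FK M K) ϖ t (cuspSet A K cv) := by
  classical
  have hℓ : ℓ.Prime := Fact.out
  have hB := Main12.baseExports hb M hnM
  have hdvr : IsDiscreteValuationRing ↥(AK A K) := isDiscreteValuationRing_AK A K hℓ.ne_zero hA
  have hchar : CharP (Res (AK A K)) ℓ := charP_residueField_AK A K hℓ hA
  have hfinres : Finite (Res (AK A K)) := finite_residueField_AK A K hℓ.ne_zero hA
  haveI halg : Algebra.IsAlgebraic ↥K Kbar := algebraic_Qbar_over4 K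
  -- the horizontal bridge
  have hH : HUNROff (AK A K) (FK M K) ϖ t (cuspSet A K cv) := by
    obtain ⟨h, hC⟩ := hcv.cuspExp
    obtain ⟨h', hU⟩ := hB.unbranched
    obtain ⟨h'', hgen⟩ := hB.isGen
    have hconst : ∀ c : Kbar, tF M h ≠ algebraMap Kbar (FF M) c := fun c h0 =>
      hgen.sub_algebraMap_ne_zero c (sub_eq_zero.mpr h0)
    exact Fermat.Agent.RED.PUR.OffHoriz4.hunrOff_generic n e M cv h hU hC hconst (AK A K) (FK M K)
      (cuspValue_mem_AK hℓ hnM hℓM hA cv hcv.cuspExp hζ)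
      (baseChangeHom M K) (baseChangeHom_algebraMap M K) t
      (Fermat.Agent.RED.CUSP.RankConcrete16.baseChangeHom_eq_tF M K h t htq)
      (exists_place_above M K) hϖ
  have hE : FK M K ≤ fracField (AK A K) :=
    Fermat.Agent.RED.PUR.GaussBridge10.FK_le_fracField A K M
  have ht : ((t : ↥(FK M K)) : LaurentSeries K) ∈ gaussRing (AK A K) := by
    rw [htq]; exact tq_mem_gaussRing (AK A K) n e
  have htr : Transcendental (Res (AK A K))
      (gaussRed (AK A K) ⟨((t : ↥(FK M K)) : LaurentSeries K), ht⟩) := by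
    have h1 : (⟨((t : ↥(FK M K)) : LaurentSeries K), ht⟩ : gaussRing (AK A K)) =
        ⟨tq K n e, tq_mem_gaussRing (AK A K) n e⟩ := Subtype.ext htq
    rw [h1]
    exact transcendental_gaussRed_tq (AK A K) n e
  have hjt : jqModC K ∈ Kt (AK A K) ⟨((t : ↥(FK M K)) : LaurentSeries K), ht⟩ := by
    show jqModC K ∈ IntermediateField.adjoin K {((t : ↥(FK M K)) : LaurentSeries K)}
    rw [htq]
    exact j_mem_adjoin n e hB.genBase K
  have htE' : ((t : ↥(FK M K)) : LaurentSeries K) ∈ FK M K := t.2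
  obtain ⟨nn, -, hdeg, hirr⟩ := Fermat.Agent.RED.PUR.GaussInst25.exists_degLe_irr_FK A K hϖ ℓ M hℓM
    ⟨((t : ↥(FK M K)) : LaurentSeries K), ht⟩ htE' hjt
  have hn : relfinrank (Kt (AK A K) ⟨((t : ↥(FK M K)) : LaurentSeries K), ht⟩) (FK M K) ≠ 0 :=
    Fermat.Agent.RED.ModelMain4.relfinrank_ne_zero (AK A K) M _ htE' hjt
  have hfd : FiniteDimensional ↥(IntermediateField.adjoin K {t}) ↥(FK M K) :=
    Fermat.Agent.RED.ModelAsm4.finiteDimensional_adjoin t hn
  have htrK : Transcendental K t :=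
    Fermat.Agent.RED.ModelAsm4.transcendental_of_coe t
      (transcendental_t (tG := ⟨((t : ↥(FK M K)) : LaurentSeries K), ht⟩) hϖ htr)
  have hord := Fermat.Agent.RED.PUR.TqOrder26.isCoprime_order_gaussRed (AK A K) n e t ht htq (ℓ : ℤ)
  exact smoothOff_of_hunrOff hϖ hE t ht htr hdeg hirr ℓ hord htrK (cuspSet A K cv) hH

/-- **(LOC) at the closed points over the finite cusp values, at one `K ∋ ζ_M`.** -/
theorem smoothOver_at (hb : BaseHyp n e) (hnM : n ∣ M) {ℓ : ℕ} [Fact ℓ.Prime]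
    (hℓM : ¬ ℓ ∣ M) (hA : A.LiesOverPrime ℓ) (cv : SL(2, ℤ) → Option Kbar)
    (hcv : MainCusp12.CuspExports n e M cv) [FiniteDimensional ℚ K] (hζ : zetaK M ∈ K)
    (ϖ : ↥(AK A K)) (hϖ : Irreducible ϖ) (t : ↥(FK M K))
    (htq : (t : LaurentSeries K) = tq K n e) :
    ∀ c ∈ cuspSet A K cv, SmoothOver (AK A K) (FK M K) ϖ t c := by
  classical
  intro c hc
  have hℓ : ℓ.Prime := Fact.out
  have hB := Main12.baseExports hb M hnM
  have hdvr : IsDiscreteValuationRing ↥(AK A K) := isDiscreteValuationRing_AK A K hℓ.ne_zero hA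
  have hchar : CharP (Res (AK A K)) ℓ := charP_residueField_AK A K hℓ hA
  have hfinres : Finite (Res (AK A K)) := finite_residueField_AK A K hℓ.ne_zero hA
  haveI halg : Algebra.IsAlgebraic ↥K Kbar := algebraic_Qbar_over4 K
  have hℓn : ¬ ℓ ∣ n := fun hdvd => hℓM (hdvd.trans hnM)
  have hnA : ((n : Kbar))⁻¹ ∈ A := inv_natCast_mem hℓ hA n hℓn
  obtain ⟨γ₀, hγ₀⟩ := hc
  -- the horizontal bridge
  have hH : HUNRCusp (AK A K) (FK M K) ϖ t c := by
    obtain ⟨h, hC⟩ := hcv.cuspExp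
    obtain ⟨h', hU⟩ := hB.unbranched
    obtain ⟨h'', hgen⟩ := hB.isGen
    have hconst : ∀ c : Kbar, tF M h ≠ algebraMap Kbar (FF M) c := fun c h0 =>
      hgen.sub_algebraMap_ne_zero c (sub_eq_zero.mpr h0)
    have hsep : ∀ a : ↥(AK A K), (∃ γ, cv γ = some (algebraMap ↥K Kbar (a : ↥K))) →
        a = c ∨ IsUnit (c - a) := by
      rintro a ⟨γ, hγ⟩
      rcases hcv.separated γ₀ γ _ _ hγ₀ hγ with heq | hunit
      · left
        have h1 : ((c : ↥(AK A K)) : ↥K) = ((a : ↥(AK A K)) : ↥K) :=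
          (algebraMap ↥K Kbar).injective heq
        exact (Subtype.ext h1).symm
      · right
        obtain ⟨hx, hxinv⟩ := hunit.inv_mem_of_inv_mem A hnA (NeZero.ne n)
        have hne : (((c - a : ↥(AK A K)) : ↥(AK A K)) : ↥K) ≠ 0 := by
          intro h0
          apply hunit.1
          have h1 : ((c : ↥(AK A K)) : ↥K) - ((a : ↥(AK A K)) : ↥K) = 0 := h0
          rw [← map_sub, h1, map_zero]
        have hmem : ((((c - a : ↥(AK A K)) : ↥(AK A K)) : ↥K))⁻¹ ∈ AK A K := by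
          show algebraMap ↥K Qbar ((((c - a : ↥(AK A K)) : ↥(AK A K)) : ↥K))⁻¹ ∈ A
          rw [map_inv₀]
          have h1 : algebraMap ↥K Qbar (((c - a : ↥(AK A K)) : ↥(AK A K)) : ↥K) =
              algebraMap ↥K Kbar ((c : ↥(AK A K)) : ↥K) -
                algebraMap ↥K Kbar ((a : ↥(AK A K)) : ↥K) := by
            rw [← map_sub]; rfl
          rw [h1]
          exact hxinv
        exact isUnit_iff_exists_inv.mpr ⟨⟨_, hmem⟩, Subtype.ext (mul_inv_cancel₀ hne)⟩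
    exact Fermat.Agent.RED.CUSP.CuspHoriz4.hunrCusp_generic n e M cv h hU hC hconst (AK A K)
      (FK M K) (cuspValue_mem_AK hℓ hnM hℓM hA cv hcv.cuspExp hζ)
      (baseChangeHom M K) (baseChangeHom_algebraMap M K) t
      (Fermat.Agent.RED.CUSP.RankConcrete16.baseChangeHom_eq_tF M K h t htq)
      (exists_place_above M K) hϖ c hsep
  have hE : FK M K ≤ fracField (AK A K) :=
    Fermat.Agent.RED.PUR.GaussBridge10.FK_le_fracField A K M
  have hJK : jqModC K ∈ IntermediateField.adjoin K {tq K n e} := j_mem_adjoin n e hB.genBase K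
  have ht : ((t : ↥(FK M K)) : LaurentSeries K) ∈ gaussRing (AK A K) := by
    rw [htq]; exact tq_mem_gaussRing (AK A K) n e
  have htr : Transcendental (Res (AK A K))
      (gaussRed (AK A K) ⟨((t : ↥(FK M K)) : LaurentSeries K), ht⟩) := by
    have h1 : (⟨((t : ↥(FK M K)) : LaurentSeries K), ht⟩ : gaussRing (AK A K)) =
        ⟨tq K n e, tq_mem_gaussRing (AK A K) n e⟩ := Subtype.ext htq
    rw [h1]
    exact transcendental_gaussRed_tq (AK A K) n e
  have hjt : jqModC K ∈ Kt (AK A K) ⟨((t : ↥(FK M K)) : LaurentSeries K), ht⟩ := by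
    show jqModC K ∈ IntermediateField.adjoin K {((t : ↥(FK M K)) : LaurentSeries K)}
    rw [htq]
    exact hJK
  have htE' : ((t : ↥(FK M K)) : LaurentSeries K) ∈ FK M K := t.2
  obtain ⟨nn, -, hdeg, hirr⟩ := Fermat.Agent.RED.PUR.GaussInst25.exists_degLe_irr_FK A K hϖ ℓ M hℓM
    ⟨((t : ↥(FK M K)) : LaurentSeries K), ht⟩ htE' hjt
  have hn : relfinrank (Kt (AK A K) ⟨((t : ↥(FK M K)) : LaurentSeries K), ht⟩) (FK M K) ≠ 0 :=
    Fermat.Agent.RED.ModelMain4.relfinrank_ne_zero (AK A K) M _ htE' hjt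
  have hfd : FiniteDimensional ↥(IntermediateField.adjoin K {t}) ↥(FK M K) :=
    Fermat.Agent.RED.ModelAsm4.finiteDimensional_adjoin t hn
  have htrK : Transcendental K t :=
    Fermat.Agent.RED.ModelAsm4.transcendental_of_coe t
      (transcendental_t (tG := ⟨((t : ↥(FK M K)) : LaurentSeries K), ht⟩) hϖ htr)
  have hord := Fermat.Agent.RED.PUR.TqOrder26.isCoprime_order_gaussRed (AK A K) n e t ht htq (ℓ : ℤ)
  have hMA : ((M : Qbar))⁻¹ ∈ A := inv_natCast_mem hℓ hA M hℓM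
  have hembt : baseChangeHom M K t = tF M hB.mem :=
    Fermat.Agent.RED.CUSP.RankConcrete16.baseChangeHom_eq_tF M K hB.mem t htq
  have hfam := Fermat.Agent.RED.CUSP.CuspConcrete23.hasCuspFamily_some A hb hnM cv hcv.cuspExp
    hB.mem hζ hMA t hembt c γ₀ hγ₀
  rw [← Fermat.Agent.RED.CUSP.RankConcrete16.finrank_adjoin_tF M K hB.mem t htq hJK] at hfam
  exact smoothOver_of_family hϖ hE t ht htr hdeg hirr ℓ hord htrK c hfam hH

/-- **(LOC) at the closed points `t⁻¹ = 0` of the chart `t⁻¹`, at one `K ∋ ζ_M`.** -/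
theorem smoothInf_at (hb : BaseHyp n e) (hnM : n ∣ M) {ℓ : ℕ} [Fact ℓ.Prime]
    (hℓM : ¬ ℓ ∣ M) (hA : A.LiesOverPrime ℓ) (cv : SL(2, ℤ) → Option Kbar)
    (hcv : MainCusp12.CuspExports n e M cv) [FiniteDimensional ℚ K] (hζ : zetaK M ∈ K)
    (ϖ : ↥(AK A K)) (hϖ : Irreducible ϖ) (t : ↥(FK M K))
    (htq : (t : LaurentSeries K) = tq K n e) :
    SmoothOver (AK A K) (FK M K) ϖ t⁻¹ 0 := by
  classical
  have hℓ : ℓ.Prime := Fact.out
  have hB := Main12.baseExports hb M hnM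
  have hdvr : IsDiscreteValuationRing ↥(AK A K) := isDiscreteValuationRing_AK A K hℓ.ne_zero hA
  have hchar : CharP (Res (AK A K)) ℓ := charP_residueField_AK A K hℓ hA
  have hfinres : Finite (Res (AK A K)) := finite_residueField_AK A K hℓ.ne_zero hA
  haveI halg : Algebra.IsAlgebraic ↥K Kbar := algebraic_Qbar_over4 K
  -- the horizontal bridge
  have hH : HUNRCusp (AK A K) (FK M K) ϖ t⁻¹ 0 := by
    obtain ⟨h, hC⟩ := hcv.cuspExp
    obtain ⟨h', hU⟩ := hB.unbranched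
    obtain ⟨h'', hgen⟩ := hB.isGen
    have hconst : ∀ c : Kbar, tF M h ≠ algebraMap Kbar (FF M) c := fun c h0 =>
      hgen.sub_algebraMap_ne_zero c (sub_eq_zero.mpr h0)
    exact Fermat.Agent.RED.CUSP.CuspHoriz4.hunrCuspInv_generic n e M cv h hU hC hconst (AK A K)
      (FK M K) (cuspValue_mem_AK hℓ hnM hℓM hA cv hcv.cuspExp hζ)
      (baseChangeHom M K) (baseChangeHom_algebraMap M K) t
      (Fermat.Agent.RED.CUSP.RankConcrete16.baseChangeHom_eq_tF M K h t htq)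
      (exists_place_above M K) hϖ
  have hE : FK M K ≤ fracField (AK A K) :=
    Fermat.Agent.RED.PUR.GaussBridge10.FK_le_fracField A K M
  have hJK : jqModC K ∈ IntermediateField.adjoin K {tq K n e} := j_mem_adjoin n e hB.genBase K
  have ht : ((t : ↥(FK M K)) : LaurentSeries K) ∈ gaussRing (AK A K) := by
    rw [htq]; exact tq_mem_gaussRing (AK A K) n e
  have htr : Transcendental (Res (AK A K))
      (gaussRed (AK A K) ⟨((t : ↥(FK M K)) : LaurentSeries K), ht⟩) := by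
    have h1 : (⟨((t : ↥(FK M K)) : LaurentSeries K), ht⟩ : gaussRing (AK A K)) =
        ⟨tq K n e, tq_mem_gaussRing (AK A K) n e⟩ := Subtype.ext htq
    rw [h1]
    exact transcendental_gaussRed_tq (AK A K) n e
  have hjt : jqModC K ∈ Kt (AK A K) ⟨((t : ↥(FK M K)) : LaurentSeries K), ht⟩ := by
    show jqModC K ∈ IntermediateField.adjoin K {((t : ↥(FK M K)) : LaurentSeries K)}
    rw [htq]
    exact hJK
  have htE' : ((t : ↥(FK M K)) : LaurentSeries K) ∈ FK M K := t.2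
  obtain ⟨nn, -, hdeg, hirr⟩ := Fermat.Agent.RED.PUR.GaussInst25.exists_degLe_irr_FK A K hϖ ℓ M hℓM
    ⟨((t : ↥(FK M K)) : LaurentSeries K), ht⟩ htE' hjt
  have hn : relfinrank (Kt (AK A K) ⟨((t : ↥(FK M K)) : LaurentSeries K), ht⟩) (FK M K) ≠ 0 :=
    Fermat.Agent.RED.ModelMain4.relfinrank_ne_zero (AK A K) M _ htE' hjt
  have hfd : FiniteDimensional ↥(IntermediateField.adjoin K {t}) ↥(FK M K) :=
    Fermat.Agent.RED.ModelAsm4.finiteDimensional_adjoin t hn
  have htrK : Transcendental K t :=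
    Fermat.Agent.RED.ModelAsm4.transcendental_of_coe t
      (transcendental_t (tG := ⟨((t : ↥(FK M K)) : LaurentSeries K), ht⟩) hϖ htr)
  -- the inverse coordinate
  have hcoe : (((t⁻¹ : ↥(FK M K)) : ↥(FK M K)) : LaurentSeries K) =
      ((t : ↥(FK M K)) : LaurentSeries K)⁻¹ := rfl
  have hs : (((t⁻¹ : ↥(FK M K)) : ↥(FK M K)) : LaurentSeries K) ∈ gaussRing (AK A K) := by
    rw [hcoe]
    exact Fermat.Agent.RED.PUR.GaussInv8.inv_mem_gaussRing
      (⟨((t : ↥(FK M K)) : LaurentSeries K), ht⟩ : gaussRing (AK A K)) htr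
  have htrs := Fermat.Agent.RED.PUR.GaussInv8.transcendental_gaussRed
    (⟨((t : ↥(FK M K)) : LaurentSeries K), ht⟩ : gaussRing (AK A K))
    (⟨(((t⁻¹ : ↥(FK M K)) : ↥(FK M K)) : LaurentSeries K), hs⟩ : gaussRing (AK A K)) hcoe htr
  have hdegs := Fermat.Agent.RED.PUR.GaussInv8.degLe_of_inv
    (⟨((t : ↥(FK M K)) : LaurentSeries K), ht⟩ : gaussRing (AK A K))
    (⟨(((t⁻¹ : ↥(FK M K)) : ↥(FK M K)) : LaurentSeries K), hs⟩ : gaussRing (AK A K)) hcoe
    (FK M K) hdeg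
  have hirrs := Fermat.Agent.RED.PUR.GaussInv8.irr_of_inv
    (⟨((t : ↥(FK M K)) : LaurentSeries K), ht⟩ : gaussRing (AK A K))
    (⟨(((t⁻¹ : ↥(FK M K)) : ↥(FK M K)) : LaurentSeries K), hs⟩ : gaussRing (AK A K)) hcoe htr
    (FK M K) hirr
  have hsq : (((t⁻¹ : ↥(FK M K)) : ↥(FK M K)) : LaurentSeries K) = (tq K n e)⁻¹ := by
    rw [hcoe, htq]
  have hords := Fermat.Agent.RED.PUR.TqOrder26.isCoprime_order_gaussRed_inv (AK A K) n e
    (t⁻¹ : ↥(FK M K)) hs hsq (ℓ : ℤ)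
  have htrKs : Transcendental K (t⁻¹ : ↥(FK M K)) := fun hal => htrK (IsAlgebraic.inv_iff.1 hal)
  have hEE : IntermediateField.adjoin K {t} = IntermediateField.adjoin K {(t⁻¹ : ↥(FK M K))} :=
    (Fermat.Agent.RED.CUSP.RankConcrete16.adjoin_inv_eq (k := ↥K) t).symm
  have hfds : FiniteDimensional ↥(IntermediateField.adjoin K {(t⁻¹ : ↥(FK M K))}) ↥(FK M K) :=
    hEE ▸ hfd
  have hMA : ((M : Qbar))⁻¹ ∈ A := inv_natCast_mem hℓ hA M hℓM
  have hembt : baseChangeHom M K t = tF M hB.mem :=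
    Fermat.Agent.RED.CUSP.RankConcrete16.baseChangeHom_eq_tF M K hB.mem t htq
  have hfam := Fermat.Agent.RED.CUSP.CuspConcrete23.hasCuspFamily_none A hb hnM cv hcv.cuspExp
    hB.mem hζ hMA t hembt
  rw [← Fermat.Agent.RED.CUSP.RankConcrete16.finrank_adjoin_inv_tF M K hB.mem t htq hJK] at hfam
  exact smoothOver_of_family hϖ hE (t⁻¹ : ↥(FK M K)) hs htrs hdegs hirrs ℓ hords htrKs 0 hfam hH

/-! ### The level-`M` package at `K` -/

open Fermat.Agent.ES.N34.LevelM20 Fermat.Agent.ES.N34.ModelDefs9 Fermat.Agent.RED.ModelAsm4 in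
/-- **The level-`M` package of Program H at one number field `K ∋ ζ_M`**, every uniformiser. -/
theorem levelM_at (hb : BaseHyp n e) (hnM : n ∣ M) {q : ℕ} (hq : q.Prime) (hqM : ¬ q ∣ M)
    (hA : A.LiesOverPrime q) (cv : SL(2, ℤ) → Option Kbar)
    (hcv : MainCusp12.CuspExports n e M cv) [FiniteDimensional ℚ K] (hζ : zetaK M ∈ K) :
    ∃ ht : tq (↥K) n e ∈ FK M K,
      jqModC (↥K) ∈ Kt (AK A K) (Fermat.Agent.RED.BASE.TBridge15.tG (AK A K) n e) ∧
      ∀ ϖ : ↥(AK A K), Irreducible ϖ →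
        LevelM (AK A K) (FK M K) ϖ (tM ht) ∧ LevelM (AK A K) (FK M K) ϖ (tM ht)⁻¹ := by
  have : Fact q.Prime := ⟨hq⟩
  have hB := Main12.baseExports hb M hnM
  have hdvr : IsDiscreteValuationRing ↥(AK A K) := isDiscreteValuationRing_AK A K hq.ne_zero hA
  have hchar : CharP (Res (AK A K)) q := charP_residueField_AK A K hq hA
  have hEM : FK M K ≤ fracField (AK A K) :=
    Fermat.Agent.RED.PUR.GaussBridge10.FK_le_fracField A K M
  have htE : tq (↥K) n e ∈ FK M K := tq_mem_FK n e M hB.mem K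
  have hjt : jqModC (↥K) ∈ Kt (AK A K) (Fermat.Agent.RED.BASE.TBridge15.tG (AK A K) n e) :=
    j_mem_adjoin n e hB.genBase K
  refine ⟨htE, hjt, fun ϖ hϖ => ?_⟩
  have hfin : Finite (↥(AK A K) ⧸ (Ideal.span {ϖ} : Ideal ↥(AK A K))) := by
    have h1 : Finite (IsLocalRing.ResidueField ↥(AK A K)) :=
      finite_residueField_AK A K hq.ne_zero hA
    rw [← hϖ.maximalIdeal_eq]
    exact h1
  have ht : ((tM htE : ↥(FK M K)) : LaurentSeries K) ∈ gaussRing (AK A K) :=
    tq_mem_gaussRing (AK A K) n e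
  have htr : Transcendental (Res (AK A K))
      (gaussRed (AK A K) ⟨((tM htE : ↥(FK M K)) : LaurentSeries K), ht⟩) :=
    transcendental_gaussRed_tq (AK A K) n e
  have hjt' : jqModC (↥K) ∈ Kt (AK A K) ⟨((tM htE : ↥(FK M K)) : LaurentSeries K), ht⟩ := hjt
  obtain ⟨nn, -, hdeg, hirr⟩ := Fermat.Agent.RED.PUR.GaussInst25.exists_degLe_irr_FK A K hϖ q M
    hqM ⟨((tM htE : ↥(FK M K)) : LaurentSeries K), ht⟩ htE hjt'
  have hn : relfinrank (Kt (AK A K) ⟨((tM htE : ↥(FK M K)) : LaurentSeries K), ht⟩) (FK M K)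
      ≠ 0 := Fermat.Agent.RED.ModelMain4.relfinrank_ne_zero (AK A K) M _ htE hjt'
  have h0 : SmoothChart (AK A K) (FK M K) ϖ (tM htE) :=
    smoothChart_of_split (smoothOff_at hb hnM hqM hA cv hcv hζ ϖ hϖ (tM htE) rfl)
      (smoothOver_at hb hnM hqM hA cv hcv hζ ϖ hϖ (tM htE) rfl)
  have hL : LevelM (AK A K) (FK M K) ϖ (tM htE) :=
    { irr := hϖ
      hEM := hEM
      htM := ht
      htrM := htr
      hn' := hn
      deg_irr := ⟨nn, hdeg, hirr⟩
      hsm := h0 }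
  have hfd : FiniteDimensional ↥(IntermediateField.adjoin (↥K) {tM htE}) ↥(FK M K) :=
    hL.finiteDimensional
  exact ⟨hL, hL.inv (smoothChart_inv_of_split hϖ hL.transcendental h0
    (smoothInf_at hb hnM hqM hA cv hcv hζ ϖ hϖ (tM htE) rfl))⟩

/-- `PrinItems12.LevelItems` at one `K ∋ ζ_M`. -/
theorem levelItems_at (hb : BaseHyp n e) (hnM : n ∣ M) {q : ℕ} (hq : q.Prime) (hqM : ¬ q ∣ M)
    (hA : A.LiesOverPrime q) (cv : SL(2, ℤ) → Option Kbar)
    (hcv : MainCusp12.CuspExports n e M cv) [FiniteDimensional ℚ K] (hζ : zetaK M ∈ K) :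
    Fermat.Agent.ES.N34.PrinItems12.LevelItems n e M A K :=
  levelM_at hb hnM hq hqM hA cv hcv hζ

/-- `q` odd: `4 ∣ M`, Hauptmodul `tq K 4 8`. -/
theorem levelItems_four_at {q : ℕ} (hq : q.Prime) (hqM : ¬ q ∣ M) (hM : 4 ∣ M)
    (hA : A.LiesOverPrime q) [FiniteDimensional ℚ K] (hζ : zetaK M ∈ K) :
    Fermat.Agent.ES.N34.PrinItems12.LevelItems 4 8 M A K :=
  levelItems_at Hauptmodul12.baseHyp_four hM hq hqM hA _ (MainCusp12.base_four M hM).2 hζ

/-- `q = 2`: `9 ∣ M`, Hauptmodul `tq K 9 3`. -/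
theorem levelItems_nine_at {q : ℕ} (hq : q.Prime) (hqM : ¬ q ∣ M) (hM : 9 ∣ M)
    (hA : A.LiesOverPrime q) [FiniteDimensional ℚ K] (hζ : zetaK M ∈ K) :
    Fermat.Agent.ES.N34.PrinItems12.LevelItems 9 3 M A K :=
  levelItems_at Hauptmodul12.baseHyp_nine hM hq hqM hA _ (MainCusp12.base_nine M hM).2 hζ

end Fermat.Agent.ES.P36.LevelMAt4
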