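/-
# Programme P: the cusp value function of `t` does not depend on the level  (helper3)

`CuspExp n e M cv` determines `cv` (`cv = cvT n e M`, the value read off the cusp expansions), and
`cvT n e M = cvT n e n` (`CuspExpLevel11.cvT_eq_base`).  Hence

* `cuspExp_level` / `cuspExports_level` — `CuspExp` / `CuspExports` transfer between any two levels
  `M`, `M'` divisible by `n` (same `cv`);
* `cuspValue_mem_of_zeta` — the finite cusp values at ANY level `M` lie in every field `K ∋ ζ_{M'}`
  (`n ∣ M'`): the `hcvK` of `HunrLevel3.hunrOff_at` / `HunrPlace26` / `HunrSq26` at the levels `M' q`,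
  `M' q q` from the readiness hypothesis `zetaK M' ∈ K`;
* `cuspSet_level` — the sets `cuspSet A K cv` agree (trivially: same `cv`), stated for convenience as
  "a cusp value at level `M` is a cusp value at level `M'`".
-/
import Mathlib
import Fermat.Agent.RED.BASE.CuspExpLevel11
import Fermat.Agent.RED.BASE.MainCusp12
import Fermat.Agent.ES.P36.LevelMAt4

set_option autoImplicit false
set_option linter.unusedSectionVars false
set_option linter.unusedVariables false

open HahnSeries ModularCurve
open scoped MatrixGroups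

namespace Fermat.Agent.ES.P36.CuspValLevel3

open Fermat.Agent.X0 Fermat.Agent.RED.Interface4
open Fermat.Agent.RED.BASE Fermat.Agent.RED.BASE.Interface12 Fermat.Agent.RED.BASE.EtaQuot12
  Fermat.Agent.RED.BASE.Hauptmodul12 Fermat.Agent.RED.BASE.CuspExpMain11
  Fermat.Agent.RED.BASE.CuspExpLevel11

/-- the cusp shape determines the cusp value. -/
theorem cvE_of_cuspShape {m : ℕ} {E : LaurentSeries Kbar} {c : Option Kbar}
    (h : CuspShape m E c) : cvE E = c := by
  obtain ⟨a, lam, V, ha, hlam, hV, -, hE⟩ := h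
  have hXa : (HahnSeries.single (a : ℤ) (1 : Kbar)) =
      HahnSeries.ofPowerSeries ℤ Kbar ((PowerSeries.X : PowerSeries Kbar) ^ a) := by
    rw [HahnSeries.ofPowerSeries_X_pow]
  cases c with
  | none =>
    have hE' : E⁻¹ = HahnSeries.ofPowerSeries ℤ Kbar
        (PowerSeries.C lam * PowerSeries.X ^ a * V) := by
      rw [map_mul, map_mul, HahnSeries.ofPowerSeries_C, ← hXa]
      exact hE
    have hne : E⁻¹ ≠ 0 := by
      rw [hE']
      intro h0
      have h1 : PowerSeries.C lam * PowerSeries.X ^ a * V = 0 :=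
        HahnSeries.ofPowerSeries_injective (Γ := ℤ) (by rw [h0, map_zero])
      have h2 := congrArg (PowerSeries.coeff a) h1
      rw [mul_assoc, PowerSeries.coeff_C_mul, PowerSeries.coeff_X_pow_mul', if_pos le_rfl,
        Nat.sub_self, PowerSeries.coeff_zero_eq_constantCoeff_apply, hV, mul_one, map_zero] at h2
      exact hlam.1 h2
    have hE0 : E ≠ 0 := fun h0 => hne (by rw [h0, inv_zero])
    apply cvE_eq_none (Q := PowerSeries.C lam * PowerSeries.X ^ a * V)
    · rw [← hE']
      exact mul_inv_cancel₀ hE0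
    · rw [map_mul, map_mul, map_pow, PowerSeries.constantCoeff_X, zero_pow ha.ne', mul_zero,
        zero_mul]
  | some c =>
    obtain ⟨-, hE⟩ := hE
    have hE' : E = HahnSeries.ofPowerSeries ℤ Kbar
        (PowerSeries.C c + PowerSeries.C lam * PowerSeries.X ^ a * V) := by
      rw [map_add, map_mul, map_mul, HahnSeries.ofPowerSeries_C, HahnSeries.ofPowerSeries_C, ← hXa]
      exact hE
    rw [hE', cvE_ofPS, map_add, map_mul, map_mul, map_pow, PowerSeries.constantCoeff_X,
      zero_pow ha.ne', mul_zero, zero_mul, add_zero, PowerSeries.constantCoeff_C]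

variable {n e : ℕ} [NeZero n]

/-- **`CuspExp` determines the value function.** -/
theorem cv_eq_cvT {M : ℕ} [NeZero M] {cv : SL(2, ℤ) → Option Kbar} (hcv : CuspExp n e M cv) :
    cv = cvT n e M := by
  obtain ⟨h, hC⟩ := hcv
  funext γ
  rw [cvT_eq n e M h γ, cvE_of_cuspShape (hC γ)]

/-- **Level independence of `CuspExp`.** -/
theorem cuspExp_level (hb : BaseHyp n e) {M M' : ℕ} [NeZero M] [NeZero M'] (hnM : n ∣ M)
    (hnM' : n ∣ M') {cv : SL(2, ℤ) → Option Kbar} (hcv : CuspExp n e M cv) :
    CuspExp n e M' cv := by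
  obtain ⟨cv₀, -, h₀⟩ := CuspExpLevel11.cuspExp hb
  have h1 : cv = cvT n e M := cv_eq_cvT hcv
  have h2 : cv₀ = cvT n e M := cv_eq_cvT (h₀ M hnM)
  rw [h1, ← h2]
  exact h₀ M' hnM'

/-- **Level independence of the cusp exports.** -/
theorem cuspExports_level (hb : BaseHyp n e) {M M' : ℕ} [NeZero M] [NeZero M'] (hnM : n ∣ M)
    (hnM' : n ∣ M') {cv : SL(2, ℤ) → Option Kbar} (hcv : MainCusp12.CuspExports n e M cv) :
    MainCusp12.CuspExports n e M' cv :=
  MainCusp12.cuspExports_of hb hnM' ⟨cuspExp_level hb hnM hnM' hcv.cuspExp, hcv.separated⟩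

/-- **The finite cusp values at any level lie in every field containing `ζ_{M'}`** (`n ∣ M'`). -/
theorem cuspValue_mem_of_zeta (hb : BaseHyp n e) {M M' : ℕ} [NeZero M] [NeZero M'] (hnM : n ∣ M)
    (hnM' : n ∣ M') {cv : SL(2, ℤ) → Option Kbar} (hcv : CuspExp n e M cv)
    {K : IntermediateField ℚ Qbar} (hζ : zetaK M' ∈ K) :
    ∀ (γ : SL(2, ℤ)) (c : Kbar), cv γ = some c → c ∈ K :=
  fun γ c hγ => LevelMAt4.cuspValue_mem cv (cuspExp_level hb hnM hnM' hcv) hζ γ c hγ

end Fermat.Agent.ES.P36.CuspValLevel3
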