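/-
# Programme P, R7c(b), supplier side: the level-`M'` inputs `hfam`, `hsm0`  (helper3)

The inputs `hfam : HasCuspFamily …` and `hsm0 : SmoothOver …` of
`HunrCuspSq3.unif_of_cusp_sq_at / _inf_at`, at one number field `K ∋ ζ_{M'}`, for a cusp value function
`cv` given at the TOP level `M' q q` (transfer to the level `M'` by `CuspValLevel3`).

* `hasCuspFamily_at`, `hasCuspFamily_inf_at` — `CuspConcrete23.hasCuspFamily_some / _none` per `K`;
* `cusp_inputs_at`, `cusp_inputs_inf_at` — the pair `(hfam, hsm0)` in the `ModelDefs9` vocabulary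
  (`tM ht`), `hsm0` from `LevelMAt4.smoothOver_at / smoothInf_at`.
-/
import Mathlib
import Fermat.Agent.ES.P36.CuspValLevel3
import Fermat.Agent.ES.N34.ModelDefs9
import Fermat.Agent.RED.CUSP.CuspConcrete23

set_option autoImplicit false
set_option linter.unusedSectionVars false
set_option linter.unusedVariables false
set_option linter.style.haveILetI false
set_option synthInstance.maxHeartbeats 400000
set_option maxHeartbeats 1600000

open HahnSeries ModularCurve IntermediateField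
open scoped MatrixGroups

noncomputable section

namespace Fermat.Agent.ES.P36.CuspLevelM3

open Fermat.Agent.RED.Interface4 Fermat.Agent.RED.ModelIface4 Fermat.Agent.RED.ModelTargets4
  Fermat.Agent.RED.BASE.EtaQuot12 Fermat.Agent.X0 Fermat.Agent.RED.NumInst4
  Fermat.Agent.RED.BASE.Interface12 Fermat.Agent.RED.BASE.Hauptmodul12
  Fermat.Agent.RED.CUSP.CuspEmbK16 Fermat.Agent.RED.CUSP.CuspIface23
  Fermat.Agent.RED.BASE Fermat.Agent.ES.N34 Fermat.Agent.RED.DESC.PlaceExtend27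

section Level

variable {n e : ℕ} [NeZero n] {M : ℕ} [NeZero M] {A : ValuationSubring Qbar}
  {K : IntermediateField ℚ Qbar}

/-- the cusp family over a finite cusp value, at one `K ∋ ζ_M`. -/
theorem hasCuspFamily_at (hb : BaseHyp n e) (hnM : n ∣ M) {ℓ : ℕ} (hℓ : ℓ.Prime)
    (hℓM : ¬ ℓ ∣ M) (hA : A.LiesOverPrime ℓ) (cv : SL(2, ℤ) → Option Kbar)
    (hcv : CuspExp n e M cv) [FiniteDimensional ℚ K] (hζ : zetaK M ∈ K)
    (t : ↥(FK M K)) (htq : (t : LaurentSeries K) = tq K n e)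
    (c : ↥(AK A K)) (hc : c ∈ cuspSet A K cv) :
    ∃ N : ℕ, HasCuspFamily (AK A K) (FK M K) t c N := by
  have hB := Main12.baseExports hb M hnM
  haveI hdvr : IsDiscreteValuationRing ↥(AK A K) :=
    Fermat.Agent.RED.DESC.NumberFieldDVR27.isDiscreteValuationRing_AK A K hℓ.ne_zero hA
  obtain ⟨γ₀, hγ₀⟩ := hc
  have hMA : ((M : Qbar))⁻¹ ∈ A := inv_natCast_mem hℓ hA M hℓM
  have hembt : baseChangeHom M K t = tF M hB.mem :=
    Fermat.Agent.RED.CUSP.RankConcrete16.baseChangeHom_eq_tF M K hB.mem t htq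
  exact ⟨_, Fermat.Agent.RED.CUSP.CuspConcrete23.hasCuspFamily_some A hb hnM cv hcv hB.mem hζ hMA t
    hembt c γ₀ hγ₀⟩

/-- the cusp family over the poles of `t`, at one `K ∋ ζ_M`. -/
theorem hasCuspFamily_inf_at (hb : BaseHyp n e) (hnM : n ∣ M) {ℓ : ℕ} (hℓ : ℓ.Prime)
    (hℓM : ¬ ℓ ∣ M) (hA : A.LiesOverPrime ℓ) (cv : SL(2, ℤ) → Option Kbar)
    (hcv : CuspExp n e M cv) [FiniteDimensional ℚ K] (hζ : zetaK M ∈ K)
    (t : ↥(FK M K)) (htq : (t : LaurentSeries K) = tq K n e) :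
    ∃ N : ℕ, HasCuspFamily (AK A K) (FK M K) t⁻¹ 0 N := by
  have hB := Main12.baseExports hb M hnM
  haveI hdvr : IsDiscreteValuationRing ↥(AK A K) :=
    Fermat.Agent.RED.DESC.NumberFieldDVR27.isDiscreteValuationRing_AK A K hℓ.ne_zero hA
  have hMA : ((M : Qbar))⁻¹ ∈ A := inv_natCast_mem hℓ hA M hℓM
  have hembt : baseChangeHom M K t = tF M hB.mem :=
    Fermat.Agent.RED.CUSP.RankConcrete16.baseChangeHom_eq_tF M K hB.mem t htq
  exact ⟨_, Fermat.Agent.RED.CUSP.CuspConcrete23.hasCuspFamily_none A hb hnM cv hcv hB.mem hζ hMA t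
    hembt⟩

end Level

section Model

variable {n e : ℕ} [NeZero n] {M' q : ℕ} [NeZero M'] [NeZero q] {A : ValuationSubring Qbar}
  {K : IntermediateField ℚ Qbar}

/-- **`hfam` and `hsm0` of `HunrCuspSq3.unif_of_cusp_sq_at`** at one `K ∋ ζ_{M'}`; `cv` is the cusp
value function of the TOP level `M' q q`. -/
theorem cusp_inputs_at (hb : BaseHyp n e) (hnM : n ∣ M') (hq : q.Prime) (hqM : ¬ q ∣ M')
    (hA : A.LiesOverPrime q) (cv : SL(2, ℤ) → Option Kbar)
    (hcv : MainCusp12.CuspExports n e (M' * q * q) cv) [FiniteDimensional ℚ K]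
    (hζ : zetaK M' ∈ K) (ht : tq (↥K) n e ∈ FK M' K) (π : ↥(AK A K)) (hπ : Irreducible π)
    (c : ↥(AK A K)) (hc : c ∈ cuspSet A K cv) :
    ∃ N : ℕ, HasCuspFamily (AK A K) (FK M' K) (ModelDefs9.tM ht) c N ∧
      SmoothOver (AK A K) (FK M' K) π (ModelDefs9.tM ht) c := by
  haveI : Fact q.Prime := ⟨hq⟩
  have hnM2 : n ∣ M' * q * q := (hnM.mul_right q).mul_right q
  have hcv' : MainCusp12.CuspExports n e M' cv := CuspValLevel3.cuspExports_level hb hnM2 hnM hcv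
  obtain ⟨N, hN⟩ := hasCuspFamily_at hb hnM hq hqM hA cv hcv'.cuspExp hζ (ModelDefs9.tM ht) rfl c hc
  exact ⟨N, hN, LevelMAt4.smoothOver_at hb hnM hqM hA cv hcv' hζ π hπ (ModelDefs9.tM ht) rfl c hc⟩

/-- **`hfam` and `hsm0` of `HunrCuspSq3.unif_of_cusp_sq_inf_at`** at one `K ∋ ζ_{M'}`. -/
theorem cusp_inputs_inf_at (hb : BaseHyp n e) (hnM : n ∣ M') (hq : q.Prime) (hqM : ¬ q ∣ M')
    (hA : A.LiesOverPrime q) (cv : SL(2, ℤ) → Option Kbar)
    (hcv : MainCusp12.CuspExports n e (M' * q * q) cv) [FiniteDimensional ℚ K]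
    (hζ : zetaK M' ∈ K) (ht : tq (↥K) n e ∈ FK M' K) (π : ↥(AK A K)) (hπ : Irreducible π) :
    ∃ N : ℕ, HasCuspFamily (AK A K) (FK M' K) (ModelDefs9.tM ht)⁻¹ 0 N ∧
      SmoothOver (AK A K) (FK M' K) π (ModelDefs9.tM ht)⁻¹ 0 := by
  haveI : Fact q.Prime := ⟨hq⟩
  have hnM2 : n ∣ M' * q * q := (hnM.mul_right q).mul_right q
  have hcv' : MainCusp12.CuspExports n e M' cv := CuspValLevel3.cuspExports_level hb hnM2 hnM hcv
  obtain ⟨N, hN⟩ := hasCuspFamily_inf_at hb hnM hq hqM hA cv hcv'.cuspExp hζ (ModelDefs9.tM ht) rfl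
  exact ⟨N, hN, LevelMAt4.smoothInf_at hb hnM hqM hA cv hcv' hζ π hπ (ModelDefs9.tM ht) rfl⟩

end Model

end Fermat.Agent.ES.P36.CuspLevelM3
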