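/-
Scouting brick for S36 (Carayol at `q² ∥ M`), chapter HECKE-P (helper19): the degrees of the two
degeneracy maps `α = heckeAlphaBar` (inclusion) and `β = heckeBetaBar` (`𝐪 ↦ 𝐪^ℓ`) at a prime `ℓ ∣ N`
(Program I only has `ℓ ∤ N`, degree `ℓ + 1`):

* `relfinrank_alpha_of_dvd` : `[F_{Nℓ} : F_N] = ℓ`,  `relfinrank_beta_of_dvd` : `[F_{Nℓ} : V(F_N)] = ℓ`;
* `finrankAlong_alpha_of_dvd`, `finrankAlong_beta_of_dvd`, finiteness, integrality;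
* over `ℚbar`: the norm formulas along `α`, `β`.
-/
import Mathlib
import Fermat.Agent.ES.HECKE.AlongDegree25
import Fermat.Agent.ES.HECKE.InputsFinal15
import Fermat.Agent.IG.PR.Counting20

set_option autoImplicit false
set_option linter.unusedSectionVars false

noncomputable section

open HahnSeries ModularCurve IntermediateField AlgebraicCurve

namespace Fermat.Agent.ES.P36.HeckeDeg19

open Fermat.Agent.IG Fermat.Agent.RED.PUR Fermat.Agent.ES.HECKE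

theorem psi_mul_prime_of_dvd (N ℓ : ℕ) (hℓ : ℓ.Prime) (hN : N ≠ 0) (hℓN : ℓ ∣ N) :
    dedekindPsi (N * ℓ) = dedekindPsi N * ℓ := by
  rw [mul_comm N ℓ, PR.Counting20.psi_prime_mul_of_dvd hℓ hN hℓN, mul_comm]

section Degree

variable (κ : Type) [Field κ] [CharZero κ] (N ℓ : ℕ) [NeZero N] [NeZero ℓ]

/-- **`[F_{Nℓ} : F_N] = ℓ`** for a prime `ℓ ∣ N`. -/
theorem relfinrank_alpha_of_dvd (hℓ : ℓ.Prime) (hℓN : ℓ ∣ N) :
    relfinrank (modularFunctionFieldFullC κ N) (modularFunctionFieldFullC κ (N * ℓ)) = ℓ := by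
  have h1 := DegBaseChange25.relfinrank_fullC_eq_psi_of_charZero κ N
  have h2 := DegBaseChange25.relfinrank_fullC_eq_psi_of_charZero κ (N * ℓ)
  have hmul := relfinrank_mul_relfinrank (DegreeL25.simple_le_fullC κ N)
    (full_degeneracyC_le κ (dvd_mul_right N ℓ))
  rw [h1, h2, psi_mul_prime_of_dvd N ℓ hℓ (NeZero.ne N) hℓN] at hmul
  exact Nat.eq_of_mul_eq_mul_left (Fermat.Agent.X0.GNPsi.gnp_dedekindPsi_pos (NeZero.ne N)) hmul

/-- **`[F_{Nℓ} : V(F_N)] = ℓ`** for a prime `ℓ ∣ N`, `V = (𝐪 ↦ 𝐪^ℓ)`. -/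
theorem relfinrank_beta_of_dvd (hℓ : ℓ.Prime) (hℓN : ℓ ∣ N) :
    relfinrank ((modularFunctionFieldFullC κ N).map (qExpandAlgHomC κ ℓ))
      (modularFunctionFieldFullC κ (N * ℓ)) = ℓ := by
  have hψN := DegBaseChange25.relfinrank_fullC_eq_psi_of_charZero κ N
  have hψNℓ := DegBaseChange25.relfinrank_fullC_eq_psi_of_charZero κ (N * ℓ)
  have hψpos := Fermat.Agent.X0.GNPsi.gnp_dedekindPsi_pos (NeZero.ne N)
  have hℓκ : (ℓ : κ) ≠ 0 := Nat.cast_ne_zero.mpr hℓ.ne_zero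
  obtain ⟨⟨-, hleft⟩, ⟨-, hright⟩⟩ := PR.Main20.primeLevel ℓ hℓ.two_le (AN.ModPoly3.p0 ℓ hℓ)
    AN.FormalJ10.p1 (AN.P2Final9.p2 ℓ) κ hℓκ
  -- the fields
  have hA : κ⟮jqModC κ⟯ ≤ κ⟮jqModC κ⟯ ⊔ κ⟮qExpand κ ℓ (jqModC κ)⟯ := le_sup_left
  have hAℓ : κ⟮qExpand κ ℓ (jqModC κ)⟯ ≤ κ⟮jqModC κ⟯ ⊔ κ⟮qExpand κ ℓ (jqModC κ)⟯ := le_sup_right
  have hjℓ : qExpand κ ℓ (jqModC κ) ∈ modularFunctionFieldFullC κ (N * ℓ) :=
    jqModCd_mem_full κ (N * ℓ) (dvd_mul_left ℓ N)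
  have hC : κ⟮jqModC κ⟯ ⊔ κ⟮qExpand κ ℓ (jqModC κ)⟯ ≤ modularFunctionFieldFullC κ (N * ℓ) :=
    sup_le (DegreeL25.simple_le_fullC κ (N * ℓ)) (adjoin_simple_le_iff.mpr hjℓ)
  -- `(ℓ + 1) [F_{Nℓ} : κ(j, j_ℓ)] = ψ(N) ℓ`
  have h1 := relfinrank_mul_relfinrank hA hC
  rw [hleft, hψNℓ, psi_mul_prime_of_dvd N ℓ hℓ (NeZero.ne N) hℓN] at h1
  -- `[F_{Nℓ} : κ(j_ℓ)] = (ℓ + 1) [F_{Nℓ} : κ(j, j_ℓ)] = ψ(N) ℓ`
  have h2 := relfinrank_mul_relfinrank hAℓ hC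
  rw [hright, h1] at h2
  -- `V(κ(j)) = κ(j_ℓ) ≤ V(F_N) ≤ F_{Nℓ}`
  have hmapA : (κ⟮jqModC κ⟯).map (qExpandAlgHomC κ ℓ) = κ⟮qExpand κ ℓ (jqModC κ)⟯ := by
    rw [adjoin_map, Set.image_singleton, qExpandAlgHomC_apply]
  have hle1 : κ⟮qExpand κ ℓ (jqModC κ)⟯ ≤
      (modularFunctionFieldFullC κ N).map (qExpandAlgHomC κ ℓ) := by
    rw [← hmapA]
    exact IntermediateField.map_mono _ (DegreeL25.simple_le_fullC κ N)
  have hle2 : (modularFunctionFieldFullC κ N).map (qExpandAlgHomC κ ℓ) ≤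
      modularFunctionFieldFullC κ (N * ℓ) := full_degeneracyC_map_le κ N ℓ
  have h3 : relfinrank κ⟮qExpand κ ℓ (jqModC κ)⟯
      ((modularFunctionFieldFullC κ N).map (qExpandAlgHomC κ ℓ)) = dedekindPsi N := by
    rw [← hmapA, relfinrank_map_map, hψN]
  have h4 := relfinrank_mul_relfinrank hle1 hle2
  rw [h3, ← h2] at h4
  exact Nat.eq_of_mul_eq_mul_left hψpos h4

end Degree

section Along

variable (L : Type) [Field L] [Algebra ℚ L] (N ℓ : ℕ) [NeZero N] [NeZero ℓ]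

/-- **`[F̄_{Nℓ} : α(F̄_N)] = ℓ`** for a prime `ℓ ∣ N`, in the Prelude's `Along` form. -/
theorem finrankAlong_alpha_of_dvd (hℓ : ℓ.Prime) (hℓN : ℓ ∣ N) :
    finrankAlong L (heckeAlphaBar L N ℓ) = ℓ := by
  have := AlongDegree25.charZero_of_algebraRat L
  rw [AlongDegree25.finrankAlong_eq_relfinrank _ _ (heckeAlphaBar L N ℓ)
    (AlgHom.id L (LaurentSeries L)) (fun a => by rw [coe_heckeAlphaBar]; rfl),
    IntermediateField.map_id, DegBaseChange25.laurentBaseChange_full_eq,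
    DegBaseChange25.laurentBaseChange_full_eq]
  exact relfinrank_alpha_of_dvd L N ℓ hℓ hℓN

/-- **`[F̄_{Nℓ} : β(F̄_N)] = ℓ`** for a prime `ℓ ∣ N`, in the Prelude's `Along` form. -/
theorem finrankAlong_beta_of_dvd (hℓ : ℓ.Prime) (hℓN : ℓ ∣ N) :
    finrankAlong L (heckeBetaBar L N ℓ) = ℓ := by
  have := AlongDegree25.charZero_of_algebraRat L
  rw [AlongDegree25.finrankAlong_eq_relfinrank _ _ (heckeBetaBar L N ℓ) (qExpandAlgHomC L ℓ)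
    (fun a => by rw [coe_heckeBetaBar, qExpandAlgHomC_apply]),
    DegBaseChange25.laurentBaseChange_full_eq, DegBaseChange25.laurentBaseChange_full_eq]
  exact relfinrank_beta_of_dvd L N ℓ hℓ hℓN

theorem finiteAlong_alpha_of_dvd (hℓ : ℓ.Prime) (hℓN : ℓ ∣ N) :
    FiniteAlong L (heckeAlphaBar L N ℓ) :=
  AlongDegree25.finiteAlong_of_finrankAlong_pos _
    (by rw [finrankAlong_alpha_of_dvd L N ℓ hℓ hℓN]; exact hℓ.pos)

theorem finiteAlong_beta_of_dvd (hℓ : ℓ.Prime) (hℓN : ℓ ∣ N) :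
    FiniteAlong L (heckeBetaBar L N ℓ) :=
  AlongDegree25.finiteAlong_of_finrankAlong_pos _
    (by rw [finrankAlong_beta_of_dvd L N ℓ hℓ hℓN]; exact hℓ.pos)

theorem heckeAlphaBarIntegral_of_dvd (hℓ : ℓ.Prime) (hℓN : ℓ ∣ N) : HeckeAlphaBarIntegral L N ℓ :=
  AlongDegree25.isIntegral_of_finiteAlong _ (finiteAlong_alpha_of_dvd L N ℓ hℓ hℓN)

theorem heckeBetaBarIntegral_of_dvd (hℓ : ℓ.Prime) (hℓN : ℓ ∣ N) : HeckeBetaBarIntegral L N ℓ :=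
  AlongDegree25.isIntegral_of_finiteAlong _ (finiteAlong_beta_of_dvd L N ℓ hℓ hℓN)

end Along

section Qbar

open Fermat.Agent.X0 Fermat.Agent.RED.TOP Fermat.Agent.ES.HECKE.InputsMain19

variable (N ℓ : ℕ) [NeZero N] [NeZero ℓ]

/-- the norm formula along `α : Fbar N → Fbar (N ℓ)`, `ℓ ∣ N`. -/
theorem normFormulaAlong_alpha_of_dvd (hℓ : ℓ.Prime) (hℓN : ℓ ∣ N) :
    NormFormulaAlong Qb (heckeAlphaBar Qb N ℓ) (finiteAlong_alpha_of_dvd Qb N ℓ hℓ hℓN) :=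
  NormFormula15.normFormulaAlong_of_isGen (heckeAlphaBar Qb N ℓ)
    (finiteAlong_alpha_of_dvd Qb N ℓ hℓ hℓN) (FbarFacts20.isGen_j (N * ℓ))

/-- the norm formula along `β : Fbar N → Fbar (N ℓ)`, `ℓ ∣ N`. -/
theorem normFormulaAlong_beta_of_dvd (hℓ : ℓ.Prime) (hℓN : ℓ ∣ N) :
    NormFormulaAlong Qb (heckeBetaBar Qb N ℓ) (finiteAlong_beta_of_dvd Qb N ℓ hℓ hℓN) :=
  NormFormula15.normFormulaAlong_of_isGen (heckeBetaBar Qb N ℓ)
    (finiteAlong_beta_of_dvd Qb N ℓ hℓ hℓN) (FbarFacts20.isGen_j (N * ℓ))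

/-- **HECKE-P** in the literal shape of `S36Top12.HeckePStmt` (helper12): the two degeneracy maps
`Fbar (M₀ q) → Fbar (M₀ q²)` at the pair `(N, ℓ) = (M₀ q, q)` are integral, finite and satisfy the
norm formula. -/
theorem heckeP (M₀ q : ℕ) [NeZero M₀] [NeZero q] (hq : q.Prime) (_hqM : ¬ q ∣ M₀) :
    ∃ (_hα : (heckeAlphaBar Qb (M₀ * q) q).toRingHom.IsIntegral)
      (hfα : FiniteAlong Qb (heckeAlphaBar Qb (M₀ * q) q))
      (_hβ : (heckeBetaBar Qb (M₀ * q) q).toRingHom.IsIntegral)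
      (hfβ : FiniteAlong Qb (heckeBetaBar Qb (M₀ * q) q)),
      NormFormulaAlong Qb (heckeAlphaBar Qb (M₀ * q) q) hfα ∧
      NormFormulaAlong Qb (heckeBetaBar Qb (M₀ * q) q) hfβ :=
  ⟨heckeAlphaBarIntegral_of_dvd Qb (M₀ * q) q hq (dvd_mul_left q M₀),
    finiteAlong_alpha_of_dvd Qb (M₀ * q) q hq (dvd_mul_left q M₀),
    heckeBetaBarIntegral_of_dvd Qb (M₀ * q) q hq (dvd_mul_left q M₀),
    finiteAlong_beta_of_dvd Qb (M₀ * q) q hq (dvd_mul_left q M₀),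
    normFormulaAlong_alpha_of_dvd (M₀ * q) q hq (dvd_mul_left q M₀),
    normFormulaAlong_beta_of_dvd (M₀ * q) q hq (dvd_mul_left q M₀)⟩

end Qbar

end Fermat.Agent.ES.P36.HeckeDeg19
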