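/-
# Programme P, R7c(b), supplier side  (helper3)

The inputs `halg1`, `halg2` of `HunrCuspSq3.unif_of_cusp_sq_at / _inf_at` from results on main
(the input `hsm1` is helper17's `CuspSm1Inst17.hsm1_B0 / hsm1_B1`).

* `halg_alpha`, `halg_alpha_of_dvd` — algebraicity of the upper level over the image of
  `heckeAlphaBar` (`halg1 := halg_alpha ↥K M' q hq hqM`;
  `halg2 := halg_alpha_of_dvd ↥K (M' * q) q hq (dvd_mul_left q M')`), from `AlongDegree25` /
  `HeckeDeg19`.
-/
import Mathlib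
import Fermat.Agent.ES.P36.HeckeDeg19

set_option autoImplicit false
set_option linter.unusedSectionVars false
set_option linter.unusedVariables false

namespace Fermat.Agent.ES.P36.CuspSqSupply3

section Alg

open ModularCurve

variable (L : Type) [Field L] [Algebra ℚ L] (N ℓ : ℕ) [NeZero N] [NeZero ℓ]

/-- the upper level is algebraic over the image of `heckeAlphaBar` (`ℓ ∤ N`). -/
theorem halg_alpha (hℓ : ℓ.Prime) (hℓN : ¬ ℓ ∣ N)
    (x : ↥(laurentBaseChange L (modularFunctionFieldFull (N * ℓ)))) :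
    ∃ p : Polynomial ↥(laurentBaseChange L (modularFunctionFieldFull N)), p ≠ 0 ∧
      Polynomial.eval₂ ((heckeAlphaBar L N ℓ : _ →ₐ[L] _) :
        ↥(laurentBaseChange L (modularFunctionFieldFull N)) →+*
          ↥(laurentBaseChange L (modularFunctionFieldFull (N * ℓ)))) x p = 0 := by
  obtain ⟨p, hp, hpx⟩ := Fermat.Agent.ES.HECKE.AlongDegree25.heckeAlphaBarIntegral L N ℓ hℓ hℓN x
  exact ⟨p, hp.ne_zero, hpx⟩

/-- the upper level is algebraic over the image of `heckeAlphaBar` (`ℓ ∣ N`). -/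
theorem halg_alpha_of_dvd (hℓ : ℓ.Prime) (hℓN : ℓ ∣ N)
    (x : ↥(laurentBaseChange L (modularFunctionFieldFull (N * ℓ)))) :
    ∃ p : Polynomial ↥(laurentBaseChange L (modularFunctionFieldFull N)), p ≠ 0 ∧
      Polynomial.eval₂ ((heckeAlphaBar L N ℓ : _ →ₐ[L] _) :
        ↥(laurentBaseChange L (modularFunctionFieldFull N)) →+*
          ↥(laurentBaseChange L (modularFunctionFieldFull (N * ℓ)))) x p = 0 := by
  obtain ⟨p, hp, hpx⟩ :=
    Fermat.Agent.ES.P36.HeckeDeg19.heckeAlphaBarIntegral_of_dvd L N ℓ hℓ hℓN x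
  exact ⟨p, hp.ne_zero, hpx⟩

end Alg

end Fermat.Agent.ES.P36.CuspSqSupply3
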