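/-
Program P (S36), chapter REG, brick R7c part A (helper3): **widths of the cusps of `X₀(N)` and
ramification of the cusp places along the inclusion of levels** — over `ℚ̄`, pure characteristic `0`.

`CuspExact16` (Program H) has, EXACTLY, `-ord_{placeOf N γ} j = cuspW N γ` (the size of the `⟨T⟩`-orbit
of `γ⁻¹Γ₀(N)`) and `ord (C.T γ f) = cuspR · ord_{placeOf N γ} f`; `CuspExpLevel11.T_inclFF` compares
the cusp expansions of two levels.  This file adds the group theory and the comparison: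

* `conj_T_pow_one_zero` : `(γ T^k γ⁻¹)₁₀ = -k c²`, `c = γ₁₀`;
* `cuspW_dvd_iff`       : `cuspW N γ ∣ k ↔ N ∣ k c²`   (so `cuspW N γ = N / gcd(N, c²)`);
  `cuspW_eq_one_iff`, `cuspW_eq_self_of_isCoprime`, `cuspW_mul_eq_of_dvd`, `cuspW_dvd_cuspW_mul`,
  `dvd_of_cuspW_mul_eq`;
* `cuspW_sq_eq`         : `q` prime, `q ∤ N₀`: `cuspW (N₀ q) γ = cuspW N₀ γ → cuspW (N₀ q q) γ =
  cuspW (N₀ q) γ` (both say `q ∣ c`);
* `ord_inclFF`          : `cuspW n γ · ord_{placeOf (n c) γ} (incl x) = cuspW (n c) γ · ord_{placeOf n γ} x`;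
* `ord_sq_of_ord_eq_one`: **if a function `g` of level `N₀` is a uniformiser at the cusp place `v'_γ` of
  level `N₀ q`, then `v''_γ` (level `N₀ q q`) is unramified over `v'_γ`** and `g` is a uniformiser there.
-/
import Mathlib
import Fermat.Agent.RED.CUSP.CuspExact16
import Fermat.Agent.RED.BASE.CuspExpLevel11

set_option autoImplicit false
set_option linter.unusedSectionVars false

namespace Fermat.Agent.ES.P36.CuspWidth3

open Fermat.Agent.X0 AlgebraicCurve ModularCurve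
open MulAction Subgroup CongruenceSubgroup
open scoped MatrixGroups
open Fermat.Agent.RED.CUSP.CuspExact16 Fermat.Agent.RED.BASE.CuspExpMain11
  Fermat.Agent.RED.BASE.CuspExpLevel11

/-- the lower-left entry of `γ T^k γ⁻¹` is `-k c²`, `c = γ₁₀`. -/
theorem conj_T_pow_one_zero (γ : SL(2, ℤ)) (k : ℕ) :
    (γ * ModularGroup.T ^ k * γ⁻¹) 1 0 = -((k : ℤ) * (γ 1 0) ^ 2) := by
  have hT : (↑(ModularGroup.T ^ k) : Matrix (Fin 2) (Fin 2) ℤ) = !![1, (k : ℤ); 0, 1] := by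
    rw [← zpow_natCast, ModularGroup.coe_T_zpow]
  have hinv0 : (↑(γ⁻¹) : Matrix (Fin 2) (Fin 2) ℤ) 0 0 = γ 1 1 := by
    rw [Matrix.SpecialLinearGroup.SL2_inv_expl]; rfl
  have hinv1 : (↑(γ⁻¹) : Matrix (Fin 2) (Fin 2) ℤ) 1 0 = -γ 1 0 := by
    rw [Matrix.SpecialLinearGroup.SL2_inv_expl]; rfl
  have h00 : (↑(ModularGroup.T ^ k) : Matrix (Fin 2) (Fin 2) ℤ) 0 0 = 1 := by rw [hT]; rfl
  have h01 : (↑(ModularGroup.T ^ k) : Matrix (Fin 2) (Fin 2) ℤ) 0 1 = k := by rw [hT]; rfl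
  have h10 : (↑(ModularGroup.T ^ k) : Matrix (Fin 2) (Fin 2) ℤ) 1 0 = 0 := by rw [hT]; rfl
  have h11 : (↑(ModularGroup.T ^ k) : Matrix (Fin 2) (Fin 2) ℤ) 1 1 = 1 := by rw [hT]; rfl
  show (↑(γ * ModularGroup.T ^ k * γ⁻¹) : Matrix (Fin 2) (Fin 2) ℤ) 1 0 = _
  rw [Matrix.SpecialLinearGroup.coe_mul, Matrix.SpecialLinearGroup.coe_mul, Matrix.mul_apply,
    Fin.sum_univ_two, Matrix.mul_apply, Matrix.mul_apply, Fin.sum_univ_two, Fin.sum_univ_two,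
    hinv0, hinv1, h00, h01, h10, h11]
  have hdet := Matrix.SpecialLinearGroup.det_coe γ
  rw [Matrix.det_fin_two] at hdet
  ring

variable (N : ℕ) [NeZero N]

/-- `T^k` fixes the coset `γ⁻¹Γ₀(N)` iff `N ∣ k c²`. -/
theorem T_pow_smul_cuspCoset_iff (γ : SL(2, ℤ)) (k : ℕ) :
    ModularGroup.T ^ k • cuspCoset N γ = cuspCoset N γ ↔ (N : ℤ) ∣ (k : ℤ) * (γ 1 0) ^ 2 := by
  rw [cuspCoset, MulAction.Quotient.smul_mk, smul_eq_mul, eq_comm, QuotientGroup.eq, inv_inv,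
    ← mul_assoc, Gamma0_mem, conj_T_pow_one_zero, ZMod.intCast_zmod_eq_zero_iff_dvd, dvd_neg]

/-- **Widths**: `cuspW N γ ∣ k ↔ N ∣ k c²`. -/
theorem cuspW_dvd_iff (γ : SL(2, ℤ)) (k : ℕ) :
    cuspW N γ ∣ k ↔ (N : ℤ) ∣ (k : ℤ) * (γ 1 0) ^ 2 := by
  have hw : cuspW N γ = Function.minimalPeriod (ModularGroup.T • ·) (cuspCoset N γ) :=
    OrbitCount.card_orbit_zpowers ModularGroup.T (cuspCoset N γ)
  rw [← T_pow_smul_cuspCoset_iff, pow_smul_eq_iff_minimalPeriod_dvd, hw]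

/-- width one. -/
theorem cuspW_eq_one_iff (γ : SL(2, ℤ)) : cuspW N γ = 1 ↔ (N : ℤ) ∣ (γ 1 0) ^ 2 := by
  rw [← Nat.dvd_one, cuspW_dvd_iff, Nat.cast_one, one_mul]

/-- full width `N` when `c` is prime to `N`. -/
theorem cuspW_eq_self_of_isCoprime (γ : SL(2, ℤ)) (h : IsCoprime (N : ℤ) (γ 1 0)) :
    cuspW N γ = N := by
  apply Nat.dvd_antisymm (cuspW_dvd N γ)
  have h1 := (cuspW_dvd_iff N γ _).mp (dvd_refl (cuspW N γ))
  have h2 : IsCoprime (N : ℤ) ((γ 1 0) ^ 2) := h.pow_right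
  exact Int.natCast_dvd_natCast.mp (h2.dvd_of_dvd_mul_right h1)

/-- two levels with the same divisibility condition have the same width. -/
theorem cuspW_eq_of_forall {N N' : ℕ} [NeZero N] [NeZero N'] (γ : SL(2, ℤ))
    (h : ∀ k : ℕ, (N : ℤ) ∣ (k : ℤ) * (γ 1 0) ^ 2 ↔ (N' : ℤ) ∣ (k : ℤ) * (γ 1 0) ^ 2) :
    cuspW N γ = cuspW N' γ :=
  Nat.dvd_antisymm
    ((cuspW_dvd_iff N γ _).mpr ((h _).mpr ((cuspW_dvd_iff N' γ _).mp dvd_rfl)))
    ((cuspW_dvd_iff N' γ _).mpr ((h _).mp ((cuspW_dvd_iff N γ _).mp dvd_rfl)))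

/-- a factor `m` of the level, prime to the rest, with `m ∣ c²`, does not change the width. -/
theorem cuspW_mul_eq_of_dvd {N₀ m : ℕ} [NeZero N₀] [NeZero m] (hcop : Nat.Coprime N₀ m)
    (γ : SL(2, ℤ)) (hm : (m : ℤ) ∣ (γ 1 0) ^ 2) : cuspW (N₀ * m) γ = cuspW N₀ γ := by
  apply cuspW_eq_of_forall
  intro k
  constructor
  · intro h
    exact dvd_trans (by push_cast; exact dvd_mul_right _ _) h
  · intro h
    have hc : IsCoprime (N₀ : ℤ) (m : ℤ) := Nat.isCoprime_iff_coprime.mpr hcop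
    push_cast
    exact hc.mul_dvd h (dvd_mul_of_dvd_right hm _)

/-- `cuspW N₀ γ ∣ cuspW (N₀ m) γ`. -/
theorem cuspW_dvd_cuspW_mul (N₀ m : ℕ) [NeZero N₀] [NeZero m] (γ : SL(2, ℤ)) :
    cuspW N₀ γ ∣ cuspW (N₀ * m) γ := by
  rw [cuspW_dvd_iff]
  have h := (cuspW_dvd_iff (N₀ * m) γ _).mp dvd_rfl
  exact dvd_trans (by push_cast; exact dvd_mul_right _ _) h

/-- if a prime `q ∤ N₀` does not change the width, then `q ∣ c`. -/
theorem dvd_of_cuspW_mul_eq {N₀ q : ℕ} [NeZero N₀] [NeZero q] (hq : q.Prime) (hqN : ¬ q ∣ N₀)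
    (γ : SL(2, ℤ)) (h : cuspW (N₀ * q) γ = cuspW N₀ γ) : (q : ℤ) ∣ γ 1 0 := by
  have h1 : ((N₀ * q : ℕ) : ℤ) ∣ (cuspW (N₀ * q) γ : ℤ) * (γ 1 0) ^ 2 :=
    (cuspW_dvd_iff (N₀ * q) γ _).mp dvd_rfl
  rw [h] at h1
  have h2 : (q : ℤ) ∣ (cuspW N₀ γ : ℤ) * (γ 1 0) ^ 2 :=
    dvd_trans (by push_cast; exact dvd_mul_left _ _) h1
  have hqp : Prime (q : ℤ) := Nat.prime_iff_prime_int.mp hq
  rcases hqp.dvd_or_dvd h2 with h3 | h3
  · exfalso
    exact hqN ((Int.natCast_dvd_natCast.mp h3).trans (cuspW_dvd N₀ γ))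
  · exact hqp.dvd_of_dvd_pow h3

/-- **The group theory of (b2)**: for `q` prime, `q ∤ N₀`: if the width does not grow from `N₀` to
`N₀ q`, it does not grow from `N₀ q` to `N₀ q q`. -/
theorem cuspW_sq_eq {N₀ q : ℕ} [NeZero N₀] [NeZero q] (hq : q.Prime) (hqN : ¬ q ∣ N₀)
    (γ : SL(2, ℤ)) (h : cuspW (N₀ * q) γ = cuspW N₀ γ) :
    cuspW (N₀ * q * q) γ = cuspW (N₀ * q) γ := by
  have hc := dvd_of_cuspW_mul_eq hq hqN γ h
  have hcop : Nat.Coprime N₀ (q * q) :=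
    Nat.Coprime.mul_right ((Nat.Prime.coprime_iff_not_dvd hq).mpr hqN).symm
      ((Nat.Prime.coprime_iff_not_dvd hq).mpr hqN).symm
  have h2 : cuspW (N₀ * (q * q)) γ = cuspW N₀ γ := by
    apply cuspW_mul_eq_of_dvd hcop
    push_cast
    rw [sq]
    exact mul_dvd_mul hc hc
  rw [h]
  apply cuspW_eq_of_forall
  intro k
  have h3 := cuspW_dvd_iff (N₀ * (q * q)) γ k
  rw [h2] at h3
  rw [← cuspW_dvd_iff N₀ γ k, h3]
  push_cast
  rw [mul_assoc]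

/-- **Orders along the inclusion of levels**: `w_n · ord_{v''} (incl x) = w_{nc} · ord_{v'} x`. -/
theorem ord_inclFF (n c : ℕ) [NeZero n] [NeZero c] (γ : SL(2, ℤ)) (x : FF n) :
    (cuspW n γ : ℤ) * (placeOf (n * c) γ).ord (inclFF (Dvd.intro c rfl) x) =
      (cuspW (n * c) γ : ℤ) * (placeOf n γ).ord x := by
  rcases eq_or_ne x 0 with rfl | hx
  · rw [map_zero, Place.ord_zero, Place.ord_zero, mul_zero, mul_zero]
  have hx' : inclFF (Dvd.intro c rfl : n ∣ n * c) x ≠ 0 :=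
    (map_ne_zero_iff _ (inclFF (Dvd.intro c rfl : n ∣ n * c)).injective).mpr hx
  have h1 := order_T_eq (n * c) γ _ hx'
  rw [T_inclFF, order_qExpand, order_T_eq n γ x hx] at h1
  have hR1 : ((cuspR n γ : ℕ) : ℤ) * (cuspW n γ : ℤ) = (n : ℤ) := by
    exact_mod_cast cuspR_mul_cuspW n γ
  have hR2 : ((cuspR (n * c) γ : ℕ) : ℤ) * (cuspW (n * c) γ : ℤ) = ((n : ℤ) * (c : ℤ)) := by
    exact_mod_cast cuspR_mul_cuspW (n * c) γ
  have hnc : ((n : ℤ) * (c : ℤ)) ≠ 0 := by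
    have h1 : (n : ℤ) ≠ 0 := by exact_mod_cast NeZero.ne n
    have h2 : (c : ℤ) ≠ 0 := by exact_mod_cast NeZero.ne c
    exact mul_ne_zero h1 h2
  apply mul_left_cancel₀ hnc
  calc ((n : ℤ) * (c : ℤ)) * ((cuspW n γ : ℤ) * (placeOf (n * c) γ).ord (inclFF _ x))
      = (cuspW n γ : ℤ) * (cuspW (n * c) γ : ℤ) *
          (((cuspR (n * c) γ : ℕ) : ℤ) * (placeOf (n * c) γ).ord (inclFF _ x)) := by
        rw [← hR2]; ring
    _ = (cuspW n γ : ℤ) * (cuspW (n * c) γ : ℤ) *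
          ((c : ℤ) * (((cuspR n γ : ℕ) : ℤ) * (placeOf n γ).ord x)) := by rw [h1]
    _ = ((n : ℤ) * (c : ℤ)) * ((cuspW (n * c) γ : ℤ) * (placeOf n γ).ord x) := by
        rw [← hR1]; ring

/-- equal widths: the upper cusp place is unramified over the lower one. -/
theorem ord_inclFF_of_cuspW_eq (n c : ℕ) [NeZero n] [NeZero c] (γ : SL(2, ℤ))
    (h : cuspW (n * c) γ = cuspW n γ) (x : FF n) :
    (placeOf (n * c) γ).ord (inclFF (Dvd.intro c rfl) x) = (placeOf n γ).ord x := by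
  have h1 := ord_inclFF n c γ x
  rw [h] at h1
  have hw : (cuspW n γ : ℤ) ≠ 0 := by exact_mod_cast (cuspW_pos n γ).ne'
  exact mul_left_cancel₀ hw h1

/-- a function of the lower level which is a uniformiser upstairs forces equal widths. -/
theorem cuspW_eq_of_ord_eq_one (n c : ℕ) [NeZero n] [NeZero c] (γ : SL(2, ℤ)) (x : FF n)
    (h : (placeOf (n * c) γ).ord (inclFF (Dvd.intro c rfl) x) = 1) :
    cuspW (n * c) γ = cuspW n γ := by
  have h1 := ord_inclFF n c γ x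
  rw [h, mul_one] at h1
  obtain ⟨e, he⟩ := cuspW_dvd_cuspW_mul n c γ
  have hw : (cuspW n γ : ℤ) ≠ 0 := by exact_mod_cast (cuspW_pos n γ).ne'
  rw [he] at h1
  push_cast at h1
  have h2 : (e : ℤ) * (placeOf n γ).ord x = 1 := by
    apply mul_left_cancel₀ hw
    rw [mul_one, ← mul_assoc]
    exact h1.symm
  have h3 : (e : ℤ) = 1 := Int.eq_one_of_mul_eq_one_right (by positivity) h2
  have h4 : e = 1 := by exact_mod_cast h3
  rw [he, h4, mul_one]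

/-- **Part A of R7c.**  `q` prime, `q ∤ N₀`, `γ ∈ SL(2, ℤ)`.  If a function `g` of level `N₀` is a
uniformiser at the cusp place `v'_γ` of level `N₀ q`, then the cusp place `v''_γ` of level `N₀ q q`
is unramified over `v'_γ`; in particular `g` is a uniformiser at `v''_γ`. -/
theorem ord_sq_of_ord_eq_one {N₀ q : ℕ} [NeZero N₀] [NeZero q] (hq : q.Prime) (hqN : ¬ q ∣ N₀)
    (γ : SL(2, ℤ)) (g : FF N₀)
    (h : (placeOf (N₀ * q) γ).ord (inclFF (Dvd.intro q rfl) g) = 1) :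
    (∀ y : FF (N₀ * q), (placeOf (N₀ * q * q) γ).ord (inclFF (Dvd.intro q rfl) y) =
      (placeOf (N₀ * q) γ).ord y) ∧
    (placeOf (N₀ * q * q) γ).ord
      (inclFF (Dvd.intro q rfl) (inclFF (Dvd.intro q rfl : N₀ ∣ N₀ * q) g)) = 1 := by
  have h1 := cuspW_eq_of_ord_eq_one N₀ q γ g h
  have h2 := cuspW_sq_eq hq hqN γ h1
  have h3 := ord_inclFF_of_cuspW_eq (N₀ * q) q γ h2
  exact ⟨h3, by rw [h3, h]⟩

end Fermat.Agent.ES.P36.CuspWidth3
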