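/-
Program P (S36), chapter REG, brick R7c part B (helper3): **descent of the cusp-width comparison from
`ℚ̄` to ONE number field `K`** (no hypothesis on `K` beyond `[FiniteDimensional ℚ K]`).

Levels `M'` (good), `M' q`, `M' q q` (`q` prime, `q ∤ M'`); `α = ModelDefs9.alpha : K·F_{M'} → K·F_{M'q}`,
`α₂ = ModelDefsP9.alpha2 : K·F_{M'q} → K·F_{M'qq}` (inclusions of `𝐪`-expansions).

* `baseChangeHom_alpha`, `baseChangeHom_alpha2` : base change to `ℚ̄` commutes with `α`, `α₂`
  (`= CuspExpMain11.inclFF`);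
* `exists_placeOf_above` : a place of `K·F_M` which is a zero of `t - c` (`c` a finite cusp value) or a
  pole of `t` lies below some `CuspExact16.placeOf M γ` (`CuspFibre14`);
* `ord_alpha2_of_placeOf` : core — `w2` below `placeOf (M' q q) γ`, `w1` its restriction along `α₂`;
  if some `g` of level `M'` has `ord_{w1} (α g) = 1`, then `ord_{w2} ∘ α₂ = ord_{w1}`
  (`ConstUnram1.ord_baseChangeHom_eq` twice + `CuspWidth3.ord_sq_of_ord_eq_one`);
* `ord_alpha2_of_cusp` : **Part B**, the same with the cusp condition in `t`-form.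
-/
import Mathlib
import Fermat.Agent.ES.P36.CuspWidth3
import Fermat.Agent.ES.P36.ConstUnram1
import Fermat.Agent.ES.P36.ModelDefsP9
import Fermat.Agent.RED.CUSP.CuspFibre14
import Fermat.Agent.RED.CUSP.RankConcrete16

set_option autoImplicit false
set_option linter.unusedSectionVars false
set_option linter.unusedVariables false
set_option synthInstance.maxHeartbeats 400000

open ModularCurve IntermediateField Polynomial
open scoped MatrixGroups

noncomputable section

namespace Fermat.Agent.ES.P36.CuspDescSq3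

open Fermat.Agent.X0 Fermat.Agent.X0.FF AlgebraicCurve
open Fermat.Agent.RED.Interface4 Fermat.Agent.RED.DESC.PlaceExtend27
open Fermat.Agent.RED.CUSP.CuspExact16 Fermat.Agent.RED.BASE.CuspExpMain11
open Fermat.Agent.ES.N34 Fermat.Agent.ES.P36.ModelDefsP9

variable {M' q : ℕ} [NeZero M'] [NeZero q] (K : IntermediateField ℚ Qbar)

/-- base change commutes with the inclusion of levels `M' q → M' q q`. -/
theorem baseChangeHom_alpha2 (f : FK (M' * q) K) :
    baseChangeHom (M' * q * q) K (alpha2 K M' q f) =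
      inclFF (Dvd.intro q rfl) (baseChangeHom (M' * q) K f) := by
  apply Subtype.ext
  rw [coe_baseChangeHom, coe_alpha2]
  rfl

/-- base change commutes with the inclusion of levels `M' → M' q`. -/
theorem baseChangeHom_alpha (f : FK M' K) :
    baseChangeHom (M' * q) K (ModelDefs9.alpha K M' q f) =
      inclFF (Dvd.intro q rfl) (baseChangeHom M' K f) := by
  apply Subtype.ext
  rw [coe_baseChangeHom, ModelDefs9.coe_alpha]
  rfl

/-- sign transfer along the inclusion of levels at the cusp places of one `γ`. -/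
theorem ord_nonneg_inclFF_iff (n c : ℕ) [NeZero n] [NeZero c] (γ : SL(2, ℤ)) (x : FF n) :
    0 ≤ (placeOf (n * c) γ).ord (inclFF (Dvd.intro c rfl) x) ↔ 0 ≤ (placeOf n γ).ord x := by
  have h := CuspWidth3.ord_inclFF n c γ x
  have h1 : (0 : ℤ) < cuspW n γ := by exact_mod_cast cuspW_pos n γ
  have h2 : (0 : ℤ) < cuspW (n * c) γ := by exact_mod_cast cuspW_pos (n * c) γ
  constructor
  · intro h3
    by_contra h4
    rw [not_le] at h4
    have := mul_neg_of_pos_of_neg h2 h4
    have := mul_nonneg h1.le h3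
    omega
  · intro h3
    by_contra h4
    rw [not_le] at h4
    have := mul_neg_of_pos_of_neg h1 h4
    have := mul_nonneg h2.le h3
    omega

variable [FiniteDimensional ℚ K]

/-- **Core of part B.**  `w2` a place of `K·F_{M'qq}` below the cusp place `placeOf (M' q q) γ`, `w1` its
restriction to `K·F_{M'q}`.  If some function `g` of the good level `M'` is a uniformiser of `w1`, then
`w2` is unramified over `w1`. -/
theorem ord_alpha2_of_placeOf (hq : q.Prime) (hqM : ¬ q ∣ M')
    (w2 : Place K (FK (M' * q * q) K)) (w1 : Place K (FK (M' * q) K))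
    (hres : ∀ f : FK (M' * q) K,
      f ∈ w1.toValuationSubring ↔ alpha2 K M' q f ∈ w2.toValuationSubring)
    (γ : SL(2, ℤ))
    (hmem : ∀ x : FK (M' * q * q) K,
      baseChangeHom (M' * q * q) K x ∈ (placeOf (M' * q * q) γ).toValuationSubring ↔
        x ∈ w2.toValuationSubring)
    (g : FK M' K) (hg : w1.ord (ModelDefs9.alpha K M' q g) = 1) :
    ∀ f : FK (M' * q) K, w2.ord (alpha2 K M' q f) = w1.ord f := by
  have h2 := ConstUnram1.ord_baseChangeHom_eq (M' * q * q) K w2 (placeOf (M' * q * q) γ) hmem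
  have hmem1 : ∀ x : FK (M' * q) K,
      baseChangeHom (M' * q) K x ∈ (placeOf (M' * q) γ).toValuationSubring ↔
        x ∈ w1.toValuationSubring := by
    intro x
    rw [hres, ← hmem, baseChangeHom_alpha2, ffp_mem_iff_ord_nonneg, ffp_mem_iff_ord_nonneg,
      ord_nonneg_inclFF_iff]
  have h1 := ConstUnram1.ord_baseChangeHom_eq (M' * q) K w1 (placeOf (M' * q) γ) hmem1
  have hg' : (placeOf (M' * q) γ).ord (inclFF (Dvd.intro q rfl) (baseChangeHom M' K g)) = 1 := by
    rw [← baseChangeHom_alpha, h1, hg]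
  obtain ⟨hA, -⟩ := CuspWidth3.ord_sq_of_ord_eq_one hq hqM γ (baseChangeHom M' K g) hg'
  intro f
  rw [← h2, baseChangeHom_alpha2, hA, h1]

section Tform

open Fermat.Agent.RED.BASE Fermat.Agent.RED.BASE.Interface12 Fermat.Agent.RED.BASE.EtaQuot12
  Fermat.Agent.RED.BASE.Hauptmodul12

variable {n e : ℕ} [NeZero n] {M : ℕ} [NeZero M]

/-- **A place of `K·F_M` over a finite cusp value or over `t = ∞` lies below some `placeOf M γ`.** -/
theorem exists_placeOf_above (hb : BaseHyp n e) (hnM : n ∣ M) (cv : SL(2, ℤ) → Option Kbar)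
    (hcv : CuspExp n e M cv) (t : FK M K) (htq : (t : LaurentSeries K) = tq K n e)
    (w : Place K (FK M K))
    (hcusp : (∃ (γ₀ : SL(2, ℤ)) (c : K), cv γ₀ = some (algebraMap K Qbar c) ∧
        0 < w.ord (t - algebraMap K (FK M K) c)) ∨ w.ord t < 0) :
    ∃ γ : SL(2, ℤ), ∀ x : FK M K,
      baseChangeHom M K x ∈ (placeOf M γ).toValuationSubring ↔ x ∈ w.toValuationSubring := by
  have hB := Main12.baseExports hb M hnM
  obtain ⟨v, d, hd, hord, hmem⟩ := exists_place_above_mem M K w
  have hd' : (0 : ℤ) < d := by exact_mod_cast hd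
  have ht : baseChangeHom M K t = tF M hB.mem :=
    Fermat.Agent.RED.CUSP.RankConcrete16.baseChangeHom_eq_tF M K hB.mem t htq
  rcases hcusp with ⟨γ₀, c, hγ₀, hpos⟩ | hneg
  · have hpos' : 0 < v.ord (tF M hB.mem - algebraMap Kbar (FF M) (algebraMap K Qbar c)) := by
      have h1 := hord (t - algebraMap K (FK M K) c)
      rw [map_sub, ht, baseChangeHom_algebraMap] at h1
      exact lt_of_lt_of_eq (mul_pos hd' hpos) h1.symm
    obtain ⟨γ, hγ, -⟩ := Fermat.Agent.RED.CUSP.CuspFibre14.exists_placeOf_of_zero hb hnM cv hcv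
      hB.mem v γ₀ _ hγ₀ hpos'
    exact ⟨γ, fun x => by rw [hγ]; exact hmem x⟩
  · have hneg' : v.ord (tF M hB.mem) < 0 := by
      rw [← ht, hord]
      exact mul_neg_of_pos_of_neg hd' hneg
    obtain ⟨γ, hγ, -⟩ := Fermat.Agent.RED.CUSP.CuspFibre14.exists_placeOf_of_pole hb hnM cv hcv
      hB.mem v hneg'
    exact ⟨γ, fun x => by rw [hγ]; exact hmem x⟩

/-- **Part B of R7c.**  `w2` a CUSP place of `K·F_{M'qq}` (a zero of `t - c`, `c` a finite cusp value,
or a pole of `t`), `w1` its restriction to `K·F_{M'q}` along `α₂`.  If some function `g` of the good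
level `M'` is a uniformiser of `w1` (`e(w1 | w1 ∩ F₀) = 1`), then `w2` is unramified over `w1`:
`ord_{w2} ∘ α₂ = ord_{w1}`. -/
theorem ord_alpha2_of_cusp (hb : BaseHyp n e) (hnM : n ∣ M') (hq : q.Prime) (hqM : ¬ q ∣ M')
    (cv : SL(2, ℤ) → Option Kbar) (hcv : CuspExp n e (M' * q * q) cv)
    (t : FK (M' * q * q) K) (htq : (t : LaurentSeries K) = tq K n e)
    (w2 : Place K (FK (M' * q * q) K)) (w1 : Place K (FK (M' * q) K))
    (hres : ∀ f : FK (M' * q) K,
      f ∈ w1.toValuationSubring ↔ alpha2 K M' q f ∈ w2.toValuationSubring)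
    (hcusp : (∃ (γ₀ : SL(2, ℤ)) (c : K), cv γ₀ = some (algebraMap K Qbar c) ∧
        0 < w2.ord (t - algebraMap K (FK (M' * q * q) K) c)) ∨ w2.ord t < 0)
    (g : FK M' K) (hg : w1.ord (ModelDefs9.alpha K M' q g) = 1) :
    ∀ f : FK (M' * q) K, w2.ord (alpha2 K M' q f) = w1.ord f := by
  have hnM2 : n ∣ M' * q * q := (hnM.mul_right q).mul_right q
  obtain ⟨γ, hmem⟩ := exists_placeOf_above K hb hnM2 cv hcv t htq w2 hcusp
  exact ord_alpha2_of_placeOf K hq hqM w2 w1 hres γ hmem g hg

end Tform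

end Fermat.Agent.ES.P36.CuspDescSq3
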