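/-
# Programme P, R7c(b): cusp places of the top level `M' q q` through a type-I cusp point of the level
`M' q` have a uniformiser in the level-`M' q` chart  (helper3)

This is the `hcp` input of `HunrPlace26.hUNR_of_split` (chart `t`) and the first disjunct of the `hcp`
input of `HunrPlace26.hUNR_of_split_inv` (chart `t⁻¹`).

* generic `(O, E₀, F₁, F₂, α, α₂)` part: `exists_unif_lower` ((b1): a place of `F₁` centred in a type-I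
  point `x1` over a cusp section has a uniformiser coming from the LOWER chart; `CuspBranch3`),
  `unif_of_cusp_sq_gen`, `unif_of_cusp_sq_gen'` (same with a named coordinate `s₁ = α s₀`);
* concrete part at one number field `K` (levels `M'`, `M' q`, `M' q q` in the `ModelDefs9`/`ModelDefsP9`
  vocabulary): `unif_of_cusp_sq_at` (chart `t`, finite cusp value `c`) and `unif_of_cusp_sq_inf_at`
  (chart `t⁻¹`, value `0`); the width input is `CuspDescSq3.ord_alpha2_of_cusp`.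
-/
import Mathlib
import Fermat.Agent.ES.P36.CuspBranch3
import Fermat.Agent.RED.CUSP.CuspGeneric23
import Fermat.Agent.RED.LVL.PlaceRestrict2
import Fermat.Agent.RED.PUR.HorizPlace20
import Fermat.Agent.RED.ModelIface4
import Fermat.Agent.ES.N34.CompHyp16
import Fermat.Agent.RED.CORE.LocalStep15
import Fermat.Agent.RED.ModelAsm4
import Fermat.Agent.ES.P36.CuspDescSq3
import Fermat.Agent.RED.ModelTargets4

set_option autoImplicit false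
set_option linter.unusedSectionVars false
set_option linter.unusedVariables false
set_option linter.style.haveILetI false
set_option synthInstance.maxHeartbeats 400000
set_option maxHeartbeats 800000

noncomputable section

namespace Fermat.Agent.ES.P36.HunrCuspSq3

open AlgebraicCurve IsLocalRing Polynomial Fermat.Agent.X0.FF
open Fermat.Agent.RED.CUSP.IntClosedPS16 Fermat.Agent.RED.CUSP.CuspIface23
  Fermat.Agent.RED.PUR.ChartGeneric22 Fermat.Agent.RED.ModelIface4 Fermat.Agent.RED.ChartTransfer3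
  Fermat.Agent.ES.N34.CompHyp16

section Generic

variable {K : Type*} [Field K] (O : ValuationSubring K) [IsDiscreteValuationRing ↥O]
  (E₀ : IntermediateField K (LaurentSeries K))
  {F₁ : Type*} [Field F₁] [Algebra K F₁] [Algebra ↥O F₁] [IsScalarTower ↥O K F₁]

/-- a non-unit of the valuation ring of a place has positive order. -/
theorem ord_pos_of_inv_notMem {F : Type*} [Field F] [Algebra K F] (w : Place K F) {x : F}
    (hx : x ∈ w.toValuationSubring) (hxi : x⁻¹ ∉ w.toValuationSubring) : 0 < w.ord x := by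
  have h1 := ffp_ord_nonneg_of_mem w hx
  rcases h1.lt_or_eq with h | h
  · exact h
  · exfalso
    apply hxi
    apply ffp_mem_of_ord_nonneg
    rw [w.ord_inv, ← h]
    simp

/-- `α` commutes with the structure maps from `O`. -/
theorem alpha_algebraMap (α : ↥E₀ →ₐ[K] F₁) (r : ↥O) :
    α (algebraMap ↥O ↥E₀ r) = algebraMap ↥O F₁ r := by
  haveI : IsScalarTower ↥O K ↥E₀ := Fermat.Agent.RED.NumInst4.isScalarTower_OE O E₀
  rw [IsScalarTower.algebraMap_apply ↥O K ↥E₀, AlgHom.commutes,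
    ← IsScalarTower.algebraMap_apply ↥O K F₁]

/-- `α` maps the chart of `s₀` into the chart of `α s₀`. -/
theorem alpha_mem_chart (α : ↥E₀ →ₐ[K] F₁) (s₀ : ↥E₀) (b : ↥(chart ↥O s₀)) :
    α (b : ↥E₀) ∈ chart ↥O (α s₀) := by
  haveI : IsScalarTower ↥O K ↥E₀ := Fermat.Agent.RED.NumInst4.isScalarTower_OE O E₀
  have h := hφB_of_chart (α.restrictScalars ↥O) (chart ↥O s₀) (chart ↥O (α s₀)) s₀ (α s₀)
    (fun _ hb => hb) (fun _ hy => hy) (self_mem_chart (R := ↥O) (α s₀)) b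
  exact h

/-- the ring homomorphism `chart O s₀ → chart O (α s₀)` induced by `α`. -/
def chartMap (α : ↥E₀ →ₐ[K] F₁) (s₀ : ↥E₀) : ↥(chart ↥O s₀) →+* ↥(chart ↥O (α s₀)) :=
  ((α : ↥E₀ →+* F₁).comp (chart ↥O s₀).val.toRingHom).codRestrict (chart ↥O (α s₀))
    (fun b => alpha_mem_chart O E₀ α s₀ b)

@[simp] theorem coe_chartMap (α : ↥E₀ →ₐ[K] F₁) (s₀ : ↥E₀) (b : ↥(chart ↥O s₀)) :
    ((chartMap O E₀ α s₀ b : ↥(chart ↥O (α s₀))) : F₁) = α (b : ↥E₀) := rfl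

/-- **(b1), generic `(O, E₀)` form.**  A place `w1` of `F₁` centred in the type-I point `x1` of the chart
of `α s₀`, with `π` a unit, which is a zero of `α s₀ - c` (`c` a value with a cusp family at the lower
level): some element of the LOWER chart is a uniformiser at `w1`. -/
theorem exists_unif_lower (α : ↥E₀ →ₐ[K] F₁)
    (halg1 : ∀ x : F₁, ∃ p : Polynomial ↥E₀, p ≠ 0 ∧ Polynomial.eval₂ (α : ↥E₀ →+* F₁) x p = 0)
    {π : ↥O} (hπ : Irreducible π) (s₀ : ↥E₀) (c : ↥O) (N : ℕ)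
    (hfam : HasCuspFamily O E₀ s₀ c N)
    (hsm0 : SmoothOver O E₀ π s₀ c)
    (x1 : Ideal ↥(chart ↥O (α s₀))) [hx1 : x1.IsPrime]
    (hπx : algebraMap ↥O ↥(chart ↥O (α s₀)) π ∈ x1)
    (hsm1 : ∃ z₀ : ↥(chart ↥O s₀), ∃ hz : α (z₀ : ↥E₀) ∈ chart ↥O (α s₀),
      (⟨α (z₀ : ↥E₀), hz⟩ : ↥(chart ↥O (α s₀))) ∈ x1 ∧ ∀ y ∈ x1, ∃ d, d ∉ x1 ∧
      d * y ∈ Ideal.span {algebraMap ↥O ↥(chart ↥O (α s₀)) π,
        (⟨α (z₀ : ↥E₀), hz⟩ : ↥(chart ↥O (α s₀)))})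
    [hnoeth : IsNoetherianRing ↥(chart ↥O (α s₀))]
    (hfrac : ∀ x : F₁, ∃ a ∈ chart ↥O (α s₀), ∃ b ∈ chart ↥O (α s₀), b ≠ 0 ∧ x * b = a)
    (w1 : Place K F₁) (hBw : ∀ b : ↥(chart ↥O (α s₀)), (b : F₁) ∈ w1.toValuationSubring)
    (hcen : ∀ d : ↥(chart ↥O (α s₀)), d ∉ x1 → ((d : F₁))⁻¹ ∈ w1.toValuationSubring)
    (hπw : (algebraMap ↥O F₁ π)⁻¹ ∈ w1.toValuationSubring)
    (hcusp : 0 < w1.ord (α s₀ - algebraMap ↥O F₁ c)) :
    ∃ g : ↥(chart ↥O s₀), w1.ord (α (g : ↥E₀)) = 1 := by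
  classical
  haveI : IsScalarTower ↥O K ↥E₀ := Fermat.Agent.RED.NumInst4.isScalarTower_OE O E₀
  have hsm1' : ∃ z₀ : ↥(chart ↥O s₀), chartMap O E₀ α s₀ z₀ ∈ x1 ∧ ∀ y ∈ x1, ∃ d, d ∉ x1 ∧
      d * y ∈ Ideal.span {algebraMap ↥O ↥(chart ↥O (α s₀)) π, chartMap O E₀ α s₀ z₀} := by
    obtain ⟨z₀, hz, h1, h2⟩ := hsm1
    exact ⟨z₀, h1, h2⟩
  obtain ⟨w0, e₀, he₀, hord0, -⟩ :=
    Fermat.Agent.RED.LVL.PlaceRestrict2.exists_restrict_of_isAlgebraic α halg1 w1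
  have he₀' : (0 : ℤ) < e₀ := by exact_mod_cast he₀
  set τ : ↥E₀ := s₀ - algebraMap ↥O ↥E₀ c with hτdef
  have hατ : α τ = α s₀ - algebraMap ↥O F₁ c := by
    rw [hτdef, map_sub, alpha_algebraMap]
  have hcusp0 : 0 < w0.ord τ := by
    have h1 := hord0 τ
    rw [hατ] at h1
    rw [h1] at hcusp
    by_contra hneg
    rw [not_lt] at hneg
    have := mul_nonpos_of_nonneg_of_nonpos he₀'.le hneg
    omega
  obtain ⟨Cκ, _, _, ι, e, u, hconst, hfracι, he, heA, hu, hshape, hplaces, -⟩ := hfam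
  obtain ⟨k, hk⟩ := hplaces w0 hcusp0
  obtain ⟨ev, hev1, hev2, hev3⟩ := CuspBranch3.exists_ev O E₀ s₀ (ι k) (hconst k) (hfracι k) c
    (u k) (e k) (he k) (hshape k)
  have hτι : 0 < (ι k τ).order := by
    have h1 : ι k τ = toLS ↥O K (u k * PowerSeries.X ^ e k) := by
      rw [hτdef, map_sub, hshape, hconst, add_sub_cancel_left]
    rw [h1, Fermat.Agent.RED.CUSP.CuspGeneric23.order_toLS_mul_X_pow ↥O K (u k) (hu k).ne_zero (e k)]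
    exact_mod_cast he k
  have hτ0 : τ ≠ 0 := by
    intro h
    rw [h, map_zero, HahnSeries.order_zero] at hτι
    exact lt_irrefl _ hτι
  have hπne : π ≠ 0 := hπ.ne_zero
  have hπ0 : algebraMap ↥O F₁ π ≠ 0 := by
    rw [IsScalarTower.algebraMap_apply ↥O K F₁]
    intro h
    have h2 := (map_eq_zero (algebraMap K F₁)).mp h
    exact hπne (Subtype.ext h2)
  have hR : ∀ r : ↥O, IsUnit r ∨ π ∣ r := by
    intro r
    by_cases hr : IsUnit r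
    · exact Or.inl hr
    · right
      have : r ∈ maximalIdeal ↥O := hr
      rw [hπ.maximalIdeal_eq, Ideal.mem_span_singleton] at this
      exact this
  have hπmax : (Ideal.span {π} : Ideal ↥O).IsMaximal := by
    rw [← hπ.maximalIdeal_eq]
    exact maximalIdeal.isMaximal ↥O
  have hφR : ∀ r : ↥O, chartMap O E₀ α s₀ (algebraMap ↥O ↥(chart ↥O s₀) r) =
      algebraMap ↥O ↥(chart ↥O (α s₀)) r := by
    intro r
    apply Subtype.ext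
    rw [coe_chartMap, Subalgebra.coe_algebraMap, alpha_algebraMap, Subalgebra.coe_algebraMap]
  obtain ⟨g, hg⟩ := CuspBranch3.exists_ord_eq_one (chart ↥O (α s₀)) (chartMap O E₀ α s₀) hφR π hR
    ev hev1 x1 hπx w1 hBw hcen hπ0 hπw
    (fun b hb => by
      rcases hev2 b hb with h0 | hpos
      · left
        rw [coe_chartMap, h0, map_zero]
      · right
        have hb0 : (b : ↥E₀) ≠ 0 := by
          intro h
          rw [h, map_zero, HahnSeries.order_zero] at hpos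
          exact lt_irrefl _ hpos
        have h1 := CuspBranch3.ord_pos_of_order_pos E₀ (ι k) w0 hk τ hτι hcusp0 (b : ↥E₀) hb0 hpos
        rw [coe_chartMap, hord0]
        exact mul_pos he₀' h1)
    ⟨(⟨s₀, self_mem_chart s₀⟩ : ↥(chart ↥O s₀)) - algebraMap ↥O ↥(chart ↥O s₀) c, hev3, by
      rw [coe_chartMap, CuspBranch3.coe_sub_const]
      exact (map_ne_zero α).mpr hτ0⟩
    hπmax
    (fun x0 hx0 hπx0 hker => hsm0 x0 hx0 hπx0 (hker _ hev3))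
    hsm1'
    (fun x => by
      obtain ⟨a, ha, b, hb, hb0, hab⟩ := hfrac x
      exact ⟨⟨a, ha⟩, ⟨b, hb⟩, fun h => hb0 (congrArg Subtype.val h), hab⟩)
  exact ⟨g, hg⟩

variable {F₂ : Type*} [Field F₂] [Algebra K F₂] [Algebra ↥O F₂] [IsScalarTower ↥O K F₂]

/-- an `K`-algebra map commutes with the structure maps from `O`. -/
theorem algHom_algebraMap_O (α₂ : F₁ →ₐ[K] F₂) (r : ↥O) :
    α₂ (algebraMap ↥O F₁ r) = algebraMap ↥O F₂ r := by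
  rw [IsScalarTower.algebraMap_apply ↥O K F₁, AlgHom.commutes,
    ← IsScalarTower.algebraMap_apply ↥O K F₂]

/-- **R7c(b), generic form: the cusp places of the top level through a type-I cusp point `x1` of the
middle level have a uniformiser in the middle chart.**  `hBdesc` is the width input
(`CuspDescSq3.ord_alpha2_of_cusp`), `hfam`/`hsm0` are Program H at the lower level, `hsm1` is the type-I
structure of `x1` (generator coming from the lower chart). -/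
theorem unif_of_cusp_sq_gen (α : ↥E₀ →ₐ[K] F₁) (α₂ : F₁ →ₐ[K] F₂)
    (halg1 : ∀ x : F₁, ∃ p : Polynomial ↥E₀, p ≠ 0 ∧ Polynomial.eval₂ (α : ↥E₀ →+* F₁) x p = 0)
    (halg2 : ∀ x : F₂, ∃ p : Polynomial F₁, p ≠ 0 ∧ Polynomial.eval₂ (α₂ : F₁ →+* F₂) x p = 0)
    {π : ↥O} (hπ : Irreducible π) (s₀ : ↥E₀) (c : ↥O) (N : ℕ)
    (hfam : HasCuspFamily O E₀ s₀ c N)
    (hsm0 : SmoothOver O E₀ π s₀ c)
    (x1 : Ideal ↥(chart ↥O (α s₀))) [hx1 : x1.IsPrime]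
    (hπx : algebraMap ↥O ↥(chart ↥O (α s₀)) π ∈ x1)
    (hsm1 : ∃ z₀ : ↥(chart ↥O s₀), ∃ hz : α (z₀ : ↥E₀) ∈ chart ↥O (α s₀),
      (⟨α (z₀ : ↥E₀), hz⟩ : ↥(chart ↥O (α s₀))) ∈ x1 ∧ ∀ y ∈ x1, ∃ d, d ∉ x1 ∧
      d * y ∈ Ideal.span {algebraMap ↥O ↥(chart ↥O (α s₀)) π,
        (⟨α (z₀ : ↥E₀), hz⟩ : ↥(chart ↥O (α s₀)))})
    [hnoeth : IsNoetherianRing ↥(chart ↥O (α s₀))]
    (hfrac : ∀ x : F₁, ∃ a ∈ chart ↥O (α s₀), ∃ b ∈ chart ↥O (α s₀), b ≠ 0 ∧ x * b = a)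
    (hBdesc : ∀ (w2 : Place K F₂) (w1 : Place K F₁),
      (∀ f : F₁, f ∈ w1.toValuationSubring ↔ α₂ f ∈ w2.toValuationSubring) →
      0 < w2.ord (α₂ (α s₀) - algebraMap ↥O F₂ c) →
      ∀ g : ↥E₀, w1.ord (α g) = 1 → ∀ f : F₁, w2.ord (α₂ f) = w1.ord f)
    (O2 : ValuationSubring F₂) (hO2 : IsDiscreteValuationRing O2)
    (hB2 : ∀ b : ↥(chart ↥O (α s₀)), α₂ (b : F₁) ∈ O2)
    (hcen : ∀ d : ↥(chart ↥O (α s₀)), d ∉ x1 → (α₂ (d : F₁))⁻¹ ∈ O2)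
    (hπ2 : (algebraMap ↥O F₂ π)⁻¹ ∈ O2)
    (hcusp : (α₂ (α s₀) - algebraMap ↥O F₂ c)⁻¹ ∉ O2) :
    ∃ g : ↥(chart ↥O (α s₀)), (α₂ (g : F₁))⁻¹ ∉ O2 ∧
      ∀ y ∈ O2, y⁻¹ ∉ O2 → y / α₂ (g : F₁) ∈ O2 := by
  classical
  haveI := hO2
  have hπne : π ≠ 0 := hπ.ne_zero
  have hπ0 : algebraMap ↥O F₂ π ≠ 0 := by
    rw [IsScalarTower.algebraMap_apply ↥O K F₂]
    intro h
    have h2 := (map_eq_zero (algebraMap K F₂)).mp h
    exact hπne (Subtype.ext h2)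
  have hA : ∀ r : ↥O, algebraMap ↥O F₂ r ∈ O2 := by
    intro r
    have := hB2 (algebraMap ↥O ↥(chart ↥O (α s₀)) r)
    rwa [Subalgebra.coe_algebraMap, algHom_algebraMap_O] at this
  have hK : ∀ a : K, ∃ (r : ↥O) (k : ℕ),
      algebraMap K F₂ a * algebraMap ↥O F₂ π ^ k = algebraMap ↥O F₂ r := by
    intro a
    obtain ⟨r, k, hrk⟩ := Fermat.Agent.RED.CORE.LocalStep15.hK_of_dvr (R := ↥O) (K := K)
      (C := ↥O) (F := F₂) π (Fermat.Agent.RED.ModelAsm4.dvr_factor hπ) a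
    exact ⟨r, k, hrk⟩
  have hK2 : ∀ a : K, algebraMap K F₂ a ∈ O2 :=
    Fermat.Agent.RED.PUR.HorizPlace20.algebraMap_mem_of_inv_mem O2 π hK hA hπ0 hπ2
  set w2 : Place K F₂ := Fermat.Agent.RED.PUR.HorizPlace20.placeOfDVR O2 hK2 with hw2
  have hw2vs : w2.toValuationSubring = O2 := rfl
  obtain ⟨w1, e, he, hord, hmem⟩ :=
    Fermat.Agent.RED.LVL.PlaceRestrict2.exists_restrict_of_isAlgebraic α₂ halg2 w2
  have he' : (0 : ℤ) < e := by exact_mod_cast he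
  -- the cusp function
  have hτmem : α s₀ - algebraMap ↥O F₁ c ∈ chart ↥O (α s₀) :=
    Subalgebra.sub_mem _ (self_mem_chart _) (Subalgebra.algebraMap_mem _ c)
  have hα₂τ : α₂ (α s₀ - algebraMap ↥O F₁ c) = α₂ (α s₀) - algebraMap ↥O F₂ c := by
    rw [map_sub, algHom_algebraMap_O]
  have hcusp2 : 0 < w2.ord (α₂ (α s₀) - algebraMap ↥O F₂ c) := by
    apply ord_pos_of_inv_notMem w2
    · rw [hw2vs, ← hα₂τ]
      exact hB2 ⟨_, hτmem⟩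
    · rw [hw2vs]; exact hcusp
  have hcusp1 : 0 < w1.ord (α s₀ - algebraMap ↥O F₁ c) := by
    have h1 := hord (α s₀ - algebraMap ↥O F₁ c)
    rw [hα₂τ] at h1
    rw [h1] at hcusp2
    by_contra hneg
    rw [not_lt] at hneg
    have := mul_nonpos_of_nonneg_of_nonpos he'.le hneg
    omega
  obtain ⟨g, hg⟩ := exists_unif_lower O E₀ α halg1 hπ s₀ c N hfam hsm0 x1 hπx hsm1 hfrac w1
    (fun b => (hmem _).mpr (by rw [hw2vs]; exact hB2 b))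
    (fun d hd => (hmem _).mpr (by rw [hw2vs, map_inv₀]; exact hcen d hd))
    ((hmem _).mpr (by rw [hw2vs, map_inv₀, algHom_algebraMap_O]; exact hπ2))
    hcusp1
  have hall := hBdesc w2 w1 hmem hcusp2 (g : ↥E₀) hg
  have h1 : w2.ord (α₂ (α (g : ↥E₀))) = 1 := by rw [hall, hg]
  refine ⟨chartMap O E₀ α s₀ g, ?_⟩
  rw [coe_chartMap]
  exact Fermat.Agent.RED.PUR.HorizPlace20.uniformizer_of_ord_eq_one w2 _ h1

/-- `unif_of_cusp_sq_gen` with a named coordinate `s₁ = α s₀` of the middle chart. -/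
theorem unif_of_cusp_sq_gen' (α : ↥E₀ →ₐ[K] F₁) (α₂ : F₁ →ₐ[K] F₂)
    (halg1 : ∀ x : F₁, ∃ p : Polynomial ↥E₀, p ≠ 0 ∧ Polynomial.eval₂ (α : ↥E₀ →+* F₁) x p = 0)
    (halg2 : ∀ x : F₂, ∃ p : Polynomial F₁, p ≠ 0 ∧ Polynomial.eval₂ (α₂ : F₁ →+* F₂) x p = 0)
    {π : ↥O} (hπ : Irreducible π) (s₀ : ↥E₀) (s₁ : F₁) (hs₁ : α s₀ = s₁) (c : ↥O) (N : ℕ)
    (hfam : HasCuspFamily O E₀ s₀ c N)
    (hsm0 : SmoothOver O E₀ π s₀ c)
    (x1 : Ideal ↥(chart ↥O s₁)) [hx1 : x1.IsPrime]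
    (hπx : algebraMap ↥O ↥(chart ↥O s₁) π ∈ x1)
    (hsm1 : ∃ z₀ : ↥(chart ↥O s₀), ∃ hz : α (z₀ : ↥E₀) ∈ chart ↥O s₁,
      (⟨α (z₀ : ↥E₀), hz⟩ : ↥(chart ↥O s₁)) ∈ x1 ∧ ∀ y ∈ x1, ∃ d, d ∉ x1 ∧
      d * y ∈ Ideal.span {algebraMap ↥O ↥(chart ↥O s₁) π,
        (⟨α (z₀ : ↥E₀), hz⟩ : ↥(chart ↥O s₁))})
    [hnoeth : IsNoetherianRing ↥(chart ↥O s₁)]
    (hfrac : ∀ x : F₁, ∃ a ∈ chart ↥O s₁, ∃ b ∈ chart ↥O s₁, b ≠ 0 ∧ x * b = a)
    (hBdesc : ∀ (w2 : Place K F₂) (w1 : Place K F₁),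
      (∀ f : F₁, f ∈ w1.toValuationSubring ↔ α₂ f ∈ w2.toValuationSubring) →
      0 < w2.ord (α₂ s₁ - algebraMap ↥O F₂ c) →
      ∀ g : ↥E₀, w1.ord (α g) = 1 → ∀ f : F₁, w2.ord (α₂ f) = w1.ord f)
    (O2 : ValuationSubring F₂) (hO2 : IsDiscreteValuationRing O2)
    (hB2 : ∀ b : ↥(chart ↥O s₁), α₂ (b : F₁) ∈ O2)
    (hcen : ∀ d : ↥(chart ↥O s₁), d ∉ x1 → (α₂ (d : F₁))⁻¹ ∈ O2)
    (hπ2 : (algebraMap ↥O F₂ π)⁻¹ ∈ O2)
    (hcusp : (α₂ s₁ - algebraMap ↥O F₂ c)⁻¹ ∉ O2) :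
    ∃ g : ↥(chart ↥O s₁), (α₂ (g : F₁))⁻¹ ∉ O2 ∧
      ∀ y ∈ O2, y⁻¹ ∉ O2 → y / α₂ (g : F₁) ∈ O2 := by
  subst hs₁
  exact unif_of_cusp_sq_gen O E₀ α α₂ halg1 halg2 hπ s₀ c N hfam hsm0 x1 hπx hsm1 hfrac hBdesc O2 hO2
    hB2 hcen hπ2 hcusp

end Generic

open ModularCurve
open scoped MatrixGroups
open Fermat.Agent.X0
open Fermat.Agent.RED.Interface4 Fermat.Agent.RED.ModelTargets4
open Fermat.Agent.RED.BASE Fermat.Agent.RED.BASE.Interface12 Fermat.Agent.RED.BASE.EtaQuot12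
  Fermat.Agent.RED.BASE.Hauptmodul12
open Fermat.Agent.ES.N34 Fermat.Agent.ES.P36.ModelDefsP9

section Concrete

variable {n e : ℕ} [NeZero n] {M' q : ℕ} [NeZero M'] [NeZero q] {A : ValuationSubring Qbar}
  (K : IntermediateField ℚ Qbar) [FiniteDimensional ℚ K]

set_option maxHeartbeats 6400000 in
/-- **R7c(b), chart `t`, at one number field `K`.**  Levels `M'`, `M' q`, `M' q q` (`q` prime, `q ∤ M'`,
`A` over `q`).  `x1` a prime of the level-`M' q` chart of `t` over `π`, of type I with generator from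
the level-`M'` chart (`hsm1`); `c` a finite cusp value with its cusp family (`hfam`) and (LOC)
(`hsm0`) at level `M'`.  Every DVR `O2` of `K·F_{M'qq}` containing (the image of) the level-`M' q`
chart, centred over `x1`, with `π` a unit and `t - c` a NON-unit (a cusp place) has a uniformiser in
the level-`M' q` chart. -/
theorem unif_of_cusp_sq_at (hb : BaseHyp n e) (hnM : n ∣ M') (hq : q.Prime) (hqM : ¬ q ∣ M')
    [hdvr : IsDiscreteValuationRing ↥(AK A K)]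
    (cv : SL(2, ℤ) → Option Kbar) (hcv : CuspExp n e (M' * q * q) cv)
    (ht : tq (↥K) n e ∈ FK M' K) {π : ↥(AK A K)} (hπ : Irreducible π)
    (c : ↥(AK A K)) (hc : c ∈ cuspSet A K cv) (N : ℕ)
    (hfam : HasCuspFamily (AK A K) (FK M' K) (ModelDefs9.tM ht) c N)
    (hsm0 : SmoothOver (AK A K) (FK M' K) π (ModelDefs9.tM ht) c)
    (halg1 : ∀ x : ↥(FK (M' * q) K), ∃ p : Polynomial ↥(FK M' K), p ≠ 0 ∧
      Polynomial.eval₂ (ModelDefs9.alpha K M' q : ↥(FK M' K) →+* ↥(FK (M' * q) K)) x p = 0)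
    (halg2 : ∀ x : ↥(FK (M' * q * q) K), ∃ p : Polynomial ↥(FK (M' * q) K), p ≠ 0 ∧
      Polynomial.eval₂ (alpha2 K M' q : ↥(FK (M' * q) K) →+* ↥(FK (M' * q * q) K)) x p = 0)
    (x1 : Ideal ↥(chart ↥(AK A K) (ModelDefs9.tN q ht))) [hx1 : x1.IsPrime]
    (hπx : algebraMap ↥(AK A K) ↥(chart ↥(AK A K) (ModelDefs9.tN q ht)) π ∈ x1)
    (hsm1 : ∃ z₀ : ↥(chart ↥(AK A K) (ModelDefs9.tM ht)),
      ∃ hz : ModelDefs9.alpha K M' q (z₀ : ↥(FK M' K)) ∈ chart ↥(AK A K) (ModelDefs9.tN q ht),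
      (⟨_, hz⟩ : ↥(chart ↥(AK A K) (ModelDefs9.tN q ht))) ∈ x1 ∧ ∀ y ∈ x1, ∃ d, d ∉ x1 ∧
      d * y ∈ Ideal.span {algebraMap ↥(AK A K) ↥(chart ↥(AK A K) (ModelDefs9.tN q ht)) π,
        (⟨_, hz⟩ : ↥(chart ↥(AK A K) (ModelDefs9.tN q ht)))})
    [hnoeth : IsNoetherianRing ↥(chart ↥(AK A K) (ModelDefs9.tN q ht))]
    (hfrac : ∀ x : ↥(FK (M' * q) K), ∃ a ∈ chart ↥(AK A K) (ModelDefs9.tN q ht),
      ∃ b ∈ chart ↥(AK A K) (ModelDefs9.tN q ht), b ≠ 0 ∧ x * b = a)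
    (O2 : ValuationSubring ↥(FK (M' * q * q) K)) (hO2 : IsDiscreteValuationRing O2)
    (hB2 : ∀ b : ↥(chart ↥(AK A K) (ModelDefs9.tN q ht)), alpha2 K M' q (b : ↥(FK (M' * q) K)) ∈ O2)
    (hcen : ∀ d : ↥(chart ↥(AK A K) (ModelDefs9.tN q ht)), d ∉ x1 →
      (alpha2 K M' q (d : ↥(FK (M' * q) K)))⁻¹ ∈ O2)
    (hπ2 : (algebraMap ↥(AK A K) ↥(FK (M' * q * q) K) π)⁻¹ ∈ O2)
    (hcusp : (ModelDefsP9.t q ht - algebraMap ↥(AK A K) ↥(FK (M' * q * q) K) c)⁻¹ ∉ O2) :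
    ∃ g : ↥(chart ↥(AK A K) (ModelDefs9.tN q ht)), (alpha2 K M' q (g : ↥(FK (M' * q) K)))⁻¹ ∉ O2 ∧
      ∀ y ∈ O2, y⁻¹ ∉ O2 → y / alpha2 K M' q (g : ↥(FK (M' * q) K)) ∈ O2 := by
  haveI h1 := Fermat.Agent.RED.NumInst4.isScalarTower_OE (AK A K) (FK (M' * q) K)
  haveI h2 := Fermat.Agent.RED.NumInst4.isScalarTower_OE (AK A K) (FK (M' * q * q) K)
  obtain ⟨γ₀, hγ₀⟩ := hc
  refine unif_of_cusp_sq_gen (AK A K) (FK M' K) (ModelDefs9.alpha K M' q) (alpha2 K M' q) halg1 halg2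
    hπ (ModelDefs9.tM ht) c N hfam hsm0 x1 (hx1 := hx1) hπx hsm1 (hnoeth := hnoeth) hfrac ?_ O2 hO2 hB2 hcen hπ2 hcusp
  intro w2 w1 hres hpos g hg
  refine CuspDescSq3.ord_alpha2_of_cusp K hb hnM hq hqM cv hcv (ModelDefsP9.t q ht)
    (ModelDefsP9.coe_t q ht) w2 w1 hres (Or.inl ⟨γ₀, (c : ↥K), hγ₀, hpos⟩) g hg

set_option maxHeartbeats 6400000 in
/-- **R7c(b), chart `t⁻¹`, at one number field `K`.**  Same at the point(s) `t⁻¹ = 0`: every DVR `O2`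
of `K·F_{M'qq}` containing the level-`M' q` chart of `t⁻¹`, centred over the type-I point `x1`, with
`π` a unit and `t⁻¹` a NON-unit (a pole of `t`) has a uniformiser in the level-`M' q` chart. -/
theorem unif_of_cusp_sq_inf_at (hb : BaseHyp n e) (hnM : n ∣ M') (hq : q.Prime) (hqM : ¬ q ∣ M')
    [hdvr : IsDiscreteValuationRing ↥(AK A K)]
    (cv : SL(2, ℤ) → Option Kbar) (hcv : CuspExp n e (M' * q * q) cv)
    (ht : tq (↥K) n e ∈ FK M' K) {π : ↥(AK A K)} (hπ : Irreducible π) (N : ℕ)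
    (hfam : HasCuspFamily (AK A K) (FK M' K) (ModelDefs9.tM ht)⁻¹ 0 N)
    (hsm0 : SmoothOver (AK A K) (FK M' K) π (ModelDefs9.tM ht)⁻¹ 0)
    (halg1 : ∀ x : ↥(FK (M' * q) K), ∃ p : Polynomial ↥(FK M' K), p ≠ 0 ∧
      Polynomial.eval₂ (ModelDefs9.alpha K M' q : ↥(FK M' K) →+* ↥(FK (M' * q) K)) x p = 0)
    (halg2 : ∀ x : ↥(FK (M' * q * q) K), ∃ p : Polynomial ↥(FK (M' * q) K), p ≠ 0 ∧
      Polynomial.eval₂ (alpha2 K M' q : ↥(FK (M' * q) K) →+* ↥(FK (M' * q * q) K)) x p = 0)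
    (x1 : Ideal ↥(chart ↥(AK A K) (ModelDefs9.tN q ht)⁻¹)) [hx1 : x1.IsPrime]
    (hπx : algebraMap ↥(AK A K) ↥(chart ↥(AK A K) (ModelDefs9.tN q ht)⁻¹) π ∈ x1)
    (hsm1 : ∃ z₀ : ↥(chart ↥(AK A K) (ModelDefs9.tM ht)⁻¹),
      ∃ hz : ModelDefs9.alpha K M' q (z₀ : ↥(FK M' K)) ∈ chart ↥(AK A K) (ModelDefs9.tN q ht)⁻¹,
      (⟨_, hz⟩ : ↥(chart ↥(AK A K) (ModelDefs9.tN q ht)⁻¹)) ∈ x1 ∧ ∀ y ∈ x1, ∃ d, d ∉ x1 ∧
      d * y ∈ Ideal.span {algebraMap ↥(AK A K) ↥(chart ↥(AK A K) (ModelDefs9.tN q ht)⁻¹) π,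
        (⟨_, hz⟩ : ↥(chart ↥(AK A K) (ModelDefs9.tN q ht)⁻¹))})
    [hnoeth : IsNoetherianRing ↥(chart ↥(AK A K) (ModelDefs9.tN q ht)⁻¹)]
    (hfrac : ∀ x : ↥(FK (M' * q) K), ∃ a ∈ chart ↥(AK A K) (ModelDefs9.tN q ht)⁻¹,
      ∃ b ∈ chart ↥(AK A K) (ModelDefs9.tN q ht)⁻¹, b ≠ 0 ∧ x * b = a)
    (O2 : ValuationSubring ↥(FK (M' * q * q) K)) (hO2 : IsDiscreteValuationRing O2)
    (hB2 : ∀ b : ↥(chart ↥(AK A K) (ModelDefs9.tN q ht)⁻¹),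
      alpha2 K M' q (b : ↥(FK (M' * q) K)) ∈ O2)
    (hcen : ∀ d : ↥(chart ↥(AK A K) (ModelDefs9.tN q ht)⁻¹), d ∉ x1 →
      (alpha2 K M' q (d : ↥(FK (M' * q) K)))⁻¹ ∈ O2)
    (hπ2 : (algebraMap ↥(AK A K) ↥(FK (M' * q * q) K) π)⁻¹ ∈ O2)
    (hcusp : ((ModelDefsP9.t q ht)⁻¹)⁻¹ ∉ O2) :
    ∃ g : ↥(chart ↥(AK A K) (ModelDefs9.tN q ht)⁻¹),
      (alpha2 K M' q (g : ↥(FK (M' * q) K)))⁻¹ ∉ O2 ∧
      ∀ y ∈ O2, y⁻¹ ∉ O2 → y / alpha2 K M' q (g : ↥(FK (M' * q) K)) ∈ O2 := by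
  haveI h1 := Fermat.Agent.RED.NumInst4.isScalarTower_OE (AK A K) (FK (M' * q) K)
  haveI h2 := Fermat.Agent.RED.NumInst4.isScalarTower_OE (AK A K) (FK (M' * q * q) K)
  have hs₁ : ModelDefs9.alpha K M' q (ModelDefs9.tM ht)⁻¹ = (ModelDefs9.tN q ht)⁻¹ :=
    map_inv₀ (ModelDefs9.alpha K M' q) (ModelDefs9.tM ht)
  have hs₂ : alpha2 K M' q (ModelDefs9.tN q ht)⁻¹ -
      algebraMap ↥(AK A K) ↥(FK (M' * q * q) K) 0 = (ModelDefsP9.t q ht)⁻¹ := by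
    rw [map_zero, sub_zero]
    exact map_inv₀ (alpha2 K M' q) (ModelDefs9.tN q ht)
  refine unif_of_cusp_sq_gen' (AK A K) (FK M' K) (ModelDefs9.alpha K M' q) (alpha2 K M' q) halg1
    halg2 hπ (ModelDefs9.tM ht)⁻¹ (ModelDefs9.tN q ht)⁻¹ hs₁ 0 N hfam hsm0 x1 (hx1 := hx1) hπx hsm1
    (hnoeth := hnoeth) hfrac ?_ O2 hO2 hB2 hcen hπ2 (by rw [hs₂]; exact hcusp)
  intro w2 w1 hres hpos g hg
  rw [hs₂, Place.ord_inv] at hpos
  refine CuspDescSq3.ord_alpha2_of_cusp K hb hnM hq hqM cv hcv (ModelDefsP9.t q ht)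
    (ModelDefsP9.coe_t q ht) w2 w1 hres (Or.inr (by omega)) g hg

end Concrete

end Fermat.Agent.ES.P36.HunrCuspSq3
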