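/-
# Programme P, R7c(b): the cusp-place hypotheses `hcp0`, `hcp1` of `HunrSqInv26.hUNRM_sq_chart0/1`
(helper3; packaging of `HunrCuspSq3.unif_of_cusp_sq_at / _inf_at` with all model inputs discharged)

`hcp0_at` / `hcp1_at` are LITERALLY the hypotheses `hcp0` / `hcp1` of `HunrSqInv26.hUNRM_sq_chart0/1` with
`W2 := ModelDefs9.O2 M' q hπ hE`.  Inputs: `hb hnM hq hqM hA`, the cusp exports `hcv` at the top level
`M' q q`, readiness `hζ : zetaK M' ∈ K`, the level-`M' q` items `PrinItems`, `GlueItems` (S34) and the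
chart facts `hnoeth`, `hfrac` of the level-`M' q` chart (`NodalNumData.noeth0/frac0`, `noeth1/frac1`).
Suppliers used: `CuspLevelM3.cusp_inputs_at/_inf_at` (hfam, hsm0), `CuspSqSupply3.halg_alpha(_of_dvd)`
(halg1, halg2), `CuspSm1Inst17.hsm1_B0/_B1` (hsm1), `ChartMaps9.alpha2_mem_B0/_B1` (hB2).
-/
import Mathlib
import Fermat.Agent.ES.P36.HunrCuspSq3
import Fermat.Agent.ES.P36.CuspSqSupply3
import Fermat.Agent.ES.P36.CuspLevelM3
import Fermat.Agent.ES.P36.CuspSm1Inst17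
import Fermat.Agent.ES.P36.ChartMaps9

set_option autoImplicit false
set_option linter.unusedSectionVars false
set_option linter.unusedVariables false
set_option linter.style.haveILetI false
set_option synthInstance.maxHeartbeats 400000
set_option maxHeartbeats 6400000

open ModularCurve
open scoped MatrixGroups

noncomputable section

namespace Fermat.Agent.ES.P36.CuspBranchInst3

open AlgebraicCurve IsLocalRing Polynomial Fermat.Agent.X0 Fermat.Agent.X0.FF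
open Fermat.Agent.RED.CUSP.IntClosedPS16 Fermat.Agent.RED.CUSP.CuspIface23
  Fermat.Agent.RED.PUR.ChartGeneric22 Fermat.Agent.RED.ModelIface4 Fermat.Agent.RED.ChartTransfer3
open Fermat.Agent.RED.Interface4 Fermat.Agent.RED.ModelTargets4
open Fermat.Agent.RED.BASE Fermat.Agent.RED.BASE.Interface12 Fermat.Agent.RED.BASE.EtaQuot12
  Fermat.Agent.RED.BASE.Hauptmodul12
open Fermat.Agent.ES.N34 Fermat.Agent.ES.P36 Fermat.Agent.ES.P36.ModelDefsP9
open Fermat.Agent.RED.PUR.GaussGen8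
open Fermat.Agent.ES.N34.NodalCore13 Fermat.Agent.ES.N34.ModelN4

variable {n e : ℕ} [NeZero n] {M' q : ℕ} [NeZero M'] [NeZero q] {A : ValuationSubring Qbar}
  {K : IntermediateField ℚ Qbar} [FiniteDimensional ℚ K]

/-- **`hcp0`: the cusp places through the type-I points of the chart `t` of level `M' q`.** -/
theorem hcp0_at (hb : BaseHyp n e) (hnM : n ∣ M') (hq : q.Prime) (hqM : ¬ q ∣ M')
    (hA : A.LiesOverPrime q) (cv : SL(2, ℤ) → Option Kbar)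
    (hcv : MainCusp12.CuspExports n e (M' * q * q) cv) (hζ : zetaK M' ∈ K)
    (hP : PrinItems n e q M' A K) (hG : GlueItems n e q M' A K)
    (ht : tq (↥K) n e ∈ FK M' K) (hE : FK (M' * q) K ≤ fracField (AK A K))
    {π : ↥(AK A K)} (hπ : IsUnif (AK A K) π)
    (hnoeth : IsNoetherianRing ↥(ModelDefs9.B0 A q ht))
    (hfrac : ∀ x : ↥(FK (M' * q) K), ∃ a ∈ ModelDefs9.B0 A q ht,
      ∃ b ∈ ModelDefs9.B0 A q ht, b ≠ 0 ∧ x * b = a) :
    ∀ x0 : Ideal ↥(ModelDefs9.B0 A q ht), x0.IsMaximal →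
      algebraMap ↥(AK A K) ↥(ModelDefs9.B0 A q ht) π ∈ x0 →
      OffBranch π (ModelDefs9.B0 A q ht) (ModelDefs9.O2 M' q hπ hE) x0 → ∀ c ∈ cuspSet A K cv,
      ∀ O : ValuationSubring ↥(FK (M' * q * q) K), IsDiscreteValuationRing O →
      (∀ s ∈ B0 A q ht, s ∈ O) →
      (∀ d : ↥(ModelDefs9.B0 A q ht), d ∉ x0 → (alpha2 K M' q (d : ↥(FK (M' * q) K)))⁻¹ ∈ O) →
      (algebraMap ↥(AK A K) ↥(FK (M' * q * q) K) π)⁻¹ ∈ O →
      (t q ht - algebraMap ↥(AK A K) ↥(FK (M' * q * q) K) c)⁻¹ ∉ O →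
      ∃ g : ↥(ModelDefs9.B0 A q ht), (alpha2 K M' q (g : ↥(FK (M' * q) K)))⁻¹ ∉ O ∧
        ∀ y ∈ O, y⁻¹ ∉ O → y / alpha2 K M' q (g : ↥(FK (M' * q) K)) ∈ O := by
  intro x1 hx1 hπx hoff c hc O hdvr hB hx hπO hcusp
  haveI hdvrA : IsDiscreteValuationRing ↥(AK A K) :=
    Fermat.Agent.RED.DESC.NumberFieldDVR27.isDiscreteValuationRing_AK A K hq.ne_zero hA
  have hirr : Irreducible π :=
    (IsDiscreteValuationRing.irreducible_iff_uniformizer π).mpr hπ.max_eq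
  have hx1p : x1.IsPrime := hx1.isPrime
  obtain ⟨N, hfam, hsm0⟩ := CuspLevelM3.cusp_inputs_at hb hnM hq hqM hA cv hcv hζ ht π hirr c hc
  have hsm1 := CuspSm1Inst17.hsm1_B0 hP hG ht hE hπ x1 hx1 hπx hoff
  exact HunrCuspSq3.unif_of_cusp_sq_at K hb hnM hq hqM cv hcv.cuspExp ht hirr c hc N hfam hsm0
    (CuspSqSupply3.halg_alpha ↥K M' q hq hqM)
    (CuspSqSupply3.halg_alpha_of_dvd ↥K (M' * q) q hq (dvd_mul_left q M'))
    x1 (hx1 := hx1p) hπx hsm1 (hnoeth := hnoeth) hfrac O hdvr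
    (fun b => hB _ (ChartMaps9.alpha2_mem_B0 ht b.2)) hx hπO hcusp

/-- **`hcp1`: the pole places through the type-I points of the chart `t⁻¹` of level `M' q`.** -/
theorem hcp1_at (hb : BaseHyp n e) (hnM : n ∣ M') (hq : q.Prime) (hqM : ¬ q ∣ M')
    (hA : A.LiesOverPrime q) (cv : SL(2, ℤ) → Option Kbar)
    (hcv : MainCusp12.CuspExports n e (M' * q * q) cv) (hζ : zetaK M' ∈ K)
    (hP : PrinItems n e q M' A K) (hG : GlueItems n e q M' A K)
    (ht : tq (↥K) n e ∈ FK M' K) (hE : FK (M' * q) K ≤ fracField (AK A K))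
    {π : ↥(AK A K)} (hπ : IsUnif (AK A K) π)
    (hnoeth : IsNoetherianRing ↥(ModelDefs9.B1 A q ht))
    (hfrac : ∀ x : ↥(FK (M' * q) K), ∃ a ∈ ModelDefs9.B1 A q ht,
      ∃ b ∈ ModelDefs9.B1 A q ht, b ≠ 0 ∧ x * b = a) :
    ∀ x1 : Ideal ↥(ModelDefs9.B1 A q ht), x1.IsMaximal →
      algebraMap ↥(AK A K) ↥(ModelDefs9.B1 A q ht) π ∈ x1 →
      OffBranch π (ModelDefs9.B1 A q ht) (ModelDefs9.O2 M' q hπ hE) x1 →
      ∀ O : ValuationSubring ↥(FK (M' * q * q) K), IsDiscreteValuationRing O →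
      (∀ s ∈ B1 A q ht, s ∈ O) →
      (∀ d : ↥(ModelDefs9.B1 A q ht), d ∉ x1 → (alpha2 K M' q (d : ↥(FK (M' * q) K)))⁻¹ ∈ O) →
      (algebraMap ↥(AK A K) ↥(FK (M' * q * q) K) π)⁻¹ ∈ O →
      ((t q ht)⁻¹)⁻¹ ∉ O →
      ∃ g : ↥(ModelDefs9.B1 A q ht), (alpha2 K M' q (g : ↥(FK (M' * q) K)))⁻¹ ∉ O ∧
        ∀ y ∈ O, y⁻¹ ∉ O → y / alpha2 K M' q (g : ↥(FK (M' * q) K)) ∈ O := by
  intro x1 hx1 hπx hoff O hdvr hB hx hπO hcusp
  haveI hdvrA : IsDiscreteValuationRing ↥(AK A K) :=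
    Fermat.Agent.RED.DESC.NumberFieldDVR27.isDiscreteValuationRing_AK A K hq.ne_zero hA
  have hirr : Irreducible π :=
    (IsDiscreteValuationRing.irreducible_iff_uniformizer π).mpr hπ.max_eq
  have hx1p : x1.IsPrime := hx1.isPrime
  obtain ⟨N, hfam, hsm0⟩ := CuspLevelM3.cusp_inputs_inf_at hb hnM hq hqM hA cv hcv hζ ht π hirr
  have hsm1 := CuspSm1Inst17.hsm1_B1 hP hG ht hE hπ x1 hx1 hπx hoff
  exact HunrCuspSq3.unif_of_cusp_sq_inf_at K hb hnM hq hqM cv hcv.cuspExp ht hirr N hfam hsm0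
    (CuspSqSupply3.halg_alpha ↥K M' q hq hqM)
    (CuspSqSupply3.halg_alpha_of_dvd ↥K (M' * q) q hq (dvd_mul_left q M'))
    x1 (hx1 := hx1p) hπx hsm1 (hnoeth := hnoeth) hfrac O hdvr
    (fun b => hB _ (ChartMaps9.alpha2_mem_B1 ht b.2)) hx hπO hcusp

end Fermat.Agent.ES.P36.CuspBranchInst3
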