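/-
Program P (S36), chapter REG, brick (J) (helper26): **the `j`-dictionary at the cusps, characteristic `0`.**

`ℓ` a prime, `N` a level.  In `Fbar_N = ℚbar(j(𝐪^d) : d ∣ N)`, with `j = jF N`, `j_d = jdF N d _`:

* `isIntegral_jdF`, `ord_jdF_nonneg` : `j_d` is integral over `ℚbar[j]` (modular equations `P0`), so `j_d`
  is regular wherever `j` is;
* `poles_level` : at level `1 * ℓ` the poles of `j` are the two places `P₁` (the `𝐪`-expansion) and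
  `P₂` (Atkin–Lehner, `Conjugates11.exists_W`) with `(ord j, ord j_ℓ) = (-1, -ℓ)`, `(-ℓ, -1)`;
* `j_dict_level` : for `ℓ ∣ N`, at every place `v` of `Fbar_N`:
  `ord_v j_ℓ < 0 → ord_v j < 0 ∧ -ord_v j_ℓ ≤ ℓ * -ord_v j`;
* `j_dict_gen`, `j_dict` : the same in the vocabulary `heckeAlphaBar` / `heckeBetaBar` (`j_dict` = the literal
  statement of helper16 for R4), `ord_beta_jF_nonneg` the regular case;
* `j_dict_beta`, `j_dict_sq` : for `ℓ ^ 2 ∣ N`: `ord_v j_{ℓ²} < 0 → ord_v j < 0 ∧ -ord_v j_{ℓ²} ≤ ℓ² * -ord_v j`,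
  and `ord_scaled_nonneg` : `0 ≤ ord_v (j_{ℓ²} * j⁻¹ ^ ℓ²)` wherever `ord_v j ≤ 0`
  (the horizontal half of the integrality of the scaled generator of R7 at cusp points).
-/
import Mathlib
import Fermat.Agent.ES.N34.ModEqBar23
import Fermat.Agent.IG.VAL.XdIntegral15
import Fermat.Agent.IG.AN.Main12
import Fermat.Agent.RED.BASE.FiniteAvoidsM14

set_option autoImplicit false
set_option linter.unusedSectionVars false
set_option linter.style.haveILetI false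

open ModularCurve AlgebraicCurve IntermediateField
open scoped IntermediateField

noncomputable section

namespace Fermat.Agent.ES.P36.JDict26

open Fermat.Agent.X0 Fermat.Agent.X0.Analytic Fermat.Agent.X0.FF
open Fermat.Agent.RED.BASE.Interface12 Fermat.Agent.ES.KRON.Conjugates11
open Fermat.Agent.ES.N34.ModEqBar23

section Integral

variable (N : ℕ) [NeZero N]

/-- `j_d` is integral over `ℚbar[j]` in `Fbar_N`. -/
theorem isIntegral_jdF (d : ℕ) [NeZero d] (hd : d ∣ N) :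
    IsIntegral (polyRing Kbar (jF N)) (jdF N d hd) := by
  apply Fermat.Agent.RED.PUR.PlaceIntegral3.isIntegral_polyRing_of_map (K := Kbar)
    (F' := LaurentSeries Kbar)
  have h1 : algebraMap (FF N) (LaurentSeries Kbar) (jF N) = jqModC Kbar := by
    show ((jF N : FF N) : LaurentSeries Kbar) = _
    rw [coe_jF, jqK_eq_jqModC]
  have h2 : algebraMap (FF N) (LaurentSeries Kbar) (jdF N d hd) =
      Fermat.Agent.IG.VAL.ValInterface8.xdC Kbar d := by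
    show ((jdF N d hd : FF N) : LaurentSeries Kbar) = _
    rw [coe_jdF_eq, jqK_eq_jqModC]
  rw [h1, h2]
  exact Fermat.Agent.IG.VAL.XdIntegral15.xdC_isIntegral_adjoin N
    (fun r hr _ _ => Fermat.Agent.IG.AN.Main12.p0 r hr) Kbar d hd

/-- `j_d` is regular wherever `j` is. -/
theorem ord_jdF_nonneg (d : ℕ) [NeZero d] (hd : d ∣ N) (v : Place Kbar (FF N))
    (hv : 0 ≤ v.ord (jF N)) : 0 ≤ v.ord (jdF N d hd) := by
  rw [← ffp_mem_iff_ord_nonneg] at hv ⊢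
  exact intRing_le_of_mem v hv ⟨jdF N d hd, isIntegral_jdF N d hd⟩

end Integral


section LevelOne

variable (ℓ : ℕ) [NeZero ℓ]

theorem order_jqK : (jqK).order = -1 := by
  rw [jqK_eq_jqModC]; exact Fermat.Agent.IG.AN.ModPoly3.order_jqModC Kbar

theorem order_qExpand_jqK : (qExpand Kbar ℓ jqK).order = -(ℓ : ℤ) := by
  rw [Fermat.Agent.IG.PR.ThetaV1.order_qExpand, order_jqK]; ring

/-- `α j = j` at level `N ℓ`. -/
theorem alpha_jF (N : ℕ) [NeZero N] : heckeAlphaBar Kbar N ℓ (jF N) = jF (N * ℓ) := by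
  apply Subtype.ext
  rw [coe_heckeAlphaBar, coe_jF, coe_jF]

/-- `β j = j_ℓ` at level `N ℓ`. -/
theorem beta_jF (N : ℕ) [NeZero N] :
    heckeBetaBar Kbar N ℓ (jF N) = jdF (N * ℓ) ℓ (dvd_mul_left ℓ N) := by
  apply Subtype.ext
  rw [coe_heckeBetaBar, coe_jF, coe_jdF_eq]

theorem finrank_level (hℓ : ℓ.Prime) :
    Module.finrank (Kbar⟮jF (1 * ℓ)⟯ : IntermediateField Kbar (FF (1 * ℓ))) (FF (1 * ℓ)) = ℓ + 1 := by
  rw [Degree.finrank_adjoin (1 * ℓ) (realizeData (1 * ℓ)) (cuspData (1 * ℓ))]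
  have h : dedekindPsi (1 * ℓ) = dedekindPsi ℓ := by rw [one_mul]
  rw [h, Fermat.Agent.IG.PR.Counting20.psi_prime hℓ]

/-- **The poles of `j` at level `ℓ`**: two places, with `(ord j, ord j_ℓ) = (-1, -ℓ)` resp. `(-ℓ, -1)`. -/
theorem poles_level (hℓ : ℓ.Prime) (w : Place Kbar (FF (1 * ℓ)))
    (hw : w.ord (jF (1 * ℓ)) < 0) :
    (w.ord (jF (1 * ℓ)) = -1 ∧ w.ord (jdF (1 * ℓ) ℓ (dvd_mul_left ℓ 1)) = -(ℓ : ℤ)) ∨
      (w.ord (jF (1 * ℓ)) = -(ℓ : ℤ) ∧ w.ord (jdF (1 * ℓ) ℓ (dvd_mul_left ℓ 1)) = -1) := by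
  classical
  have hℓ2 : (2 : ℤ) ≤ ℓ := by exact_mod_cast hℓ.two_le
  have hℓ1 : ¬ ℓ ∣ 1 := fun h => hℓ.one_lt.ne' (Nat.dvd_one.mp h)
  set a : FF (1 * ℓ) := jF (1 * ℓ) with ha
  set b : FF (1 * ℓ) := jdF (1 * ℓ) ℓ (dvd_mul_left ℓ 1) with hb
  have hgen : IsGen Kbar a := Degree.isGen_jF (1 * ℓ) (realizeData (1 * ℓ)) (cuspData (1 * ℓ))
  have ha0 : a ≠ 0 := hgen.ne_zero
  have hbeq : b = heckeBetaBar Kbar 1 ℓ (jF 1) := (beta_jF ℓ 1).symm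
  have haeq : a = heckeAlphaBar Kbar 1 ℓ (jF 1) := (alpha_jF ℓ 1).symm
  have hj10 : jF 1 ≠ 0 :=
    (Degree.isGen_jF 1 (realizeData 1) (cuspData 1)).ne_zero
  have hb0 : b ≠ 0 := by rw [hbeq]; exact (map_ne_zero _).mpr hj10
  -- the place at infinity
  set τ₁ := valHom (1 * ℓ) with hτ₁
  have hτ₁c := valHom_const (1 * ℓ)
  have h1a : (τ₁ a).order = -1 := by
    rw [hτ₁, valHom_apply, ha, coe_jF]; exact order_jqK
  have h1b : (τ₁ b).order = -(ℓ : ℤ) := by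
    rw [hτ₁, valHom_apply, hb, coe_jdF_eq]; exact order_qExpand_jqK ℓ
  have hnt₁ : ∃ f, f ≠ 0 ∧ (τ₁ f).order ≠ 0 := ⟨a, ha0, by rw [h1a]; decide⟩
  set P₁ := LaurentPlace.embPlace τ₁ hτ₁c hnt₁ with hP₁
  have hP₁a : P₁.ord a = -1 := by
    rw [hP₁, embPlace_ord_eq τ₁ hτ₁c hnt₁ ha0 h1a ha0, h1a]
  have hP₁b : P₁.ord b = -(ℓ : ℤ) := by
    rw [hP₁, embPlace_ord_eq τ₁ hτ₁c hnt₁ ha0 h1a hb0, h1b]
  -- the Atkin–Lehner place
  obtain ⟨W, hWβ, hWα⟩ := exists_W 1 ℓ hℓ hℓ1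
  have hWc : ∀ c : Kbar, W (algebraMap Kbar (FF (1 * ℓ)) c) = HahnSeries.C c := by
    intro c
    have h1 : algebraMap Kbar (FF (1 * ℓ)) c =
        heckeAlphaBar Kbar 1 ℓ (algebraMap Kbar (FF 1) c) := (AlgHom.commutes _ c).symm
    rw [h1, hWα]
    show qExpand Kbar ℓ (algebraMap Kbar (LaurentSeries Kbar) c) = HahnSeries.C c
    rw [algebraMap_laurentSeries_eq_single]
    exact qExpand_C ℓ c
  have h2b : (W b).order = -1 := by
    rw [hbeq, hWβ, coe_jF]; exact order_jqK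
  have h2a : (W a).order = -(ℓ : ℤ) := by
    rw [haeq, hWα, coe_jF]; exact order_qExpand_jqK ℓ
  have hnt₂ : ∃ f, f ≠ 0 ∧ (W f).order ≠ 0 := ⟨b, hb0, by rw [h2b]; decide⟩
  set P₂ := LaurentPlace.embPlace W hWc hnt₂ with hP₂
  have hP₂b : P₂.ord b = -1 := by
    rw [hP₂, embPlace_ord_eq W hWc hnt₂ hb0 h2b hb0, h2b]
  have hP₂a : P₂.ord a = -(ℓ : ℤ) := by
    rw [hP₂, embPlace_ord_eq W hWc hnt₂ hb0 h2b ha0, h2a]
  have hne : P₁ ≠ P₂ := by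
    intro h
    rw [h, hP₂a] at hP₁a
    omega
  have hmem := mem_of_ord_neg hgen {P₁, P₂}
    (by
      intro v hv
      rcases Finset.mem_insert.mp hv with rfl | hv
      · rw [hP₁a]; decide
      · rw [Finset.mem_singleton.mp hv, hP₂a]; omega)
    (by
      rw [Finset.sum_pair hne, hP₁a, hP₂a, finrank_level ℓ hℓ]
      push_cast
      ring) w hw
  rcases Finset.mem_insert.mp hmem with rfl | hw'
  · exact Or.inl ⟨hP₁a, hP₁b⟩
  · rw [Finset.mem_singleton.mp hw']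
    exact Or.inr ⟨hP₂a, hP₂b⟩

/-- **(J) at level `ℓ`.** -/
theorem j_dict_one (hℓ : ℓ.Prime) (w : Place Kbar (FF (1 * ℓ)))
    (hw : w.ord (jdF (1 * ℓ) ℓ (dvd_mul_left ℓ 1)) < 0) :
    w.ord (jF (1 * ℓ)) < 0 ∧
      -(w.ord (jdF (1 * ℓ) ℓ (dvd_mul_left ℓ 1))) ≤ (ℓ : ℤ) * -(w.ord (jF (1 * ℓ))) := by
  have hℓ2 : (2 : ℤ) ≤ ℓ := by exact_mod_cast hℓ.two_le
  have hneg : w.ord (jF (1 * ℓ)) < 0 := by
    by_contra h
    have := ord_jdF_nonneg (1 * ℓ) ℓ (dvd_mul_left ℓ 1) w (not_lt.mp h)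
    omega
  refine ⟨hneg, ?_⟩
  rcases poles_level ℓ hℓ w hneg with ⟨h1, h2⟩ | ⟨h1, h2⟩
  · rw [h1, h2]; omega
  · rw [h1, h2]; nlinarith

end LevelOne


section Level

variable (ℓ : ℕ) [NeZero ℓ]

/-- **(J) at any level `N` divisible by `ℓ`**: a pole of `j_ℓ = j(𝐪^ℓ)` is a pole of `j`, of order at least
`1/ℓ` times as large. -/
theorem j_dict_level (hℓ : ℓ.Prime) (N : ℕ) [NeZero N] (hN : ℓ ∣ N) (v : Place Kbar (FF N))
    (hv : v.ord (jdF N ℓ hN) < 0) :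
    v.ord (jF N) < 0 ∧ -(v.ord (jdF N ℓ hN)) ≤ (ℓ : ℤ) * -(v.ord (jF N)) := by
  have hdvd : 1 * ℓ ∣ N := by rw [one_mul]; exact hN
  obtain ⟨w, k, hk, hord⟩ := Fermat.Agent.RED.BASE.FiniteAvoidsM14.exists_base_place hdvd v
  have hkz : (0 : ℤ) < k := by exact_mod_cast hk
  have e1 : IntermediateField.inclusion (fbar_mono hdvd) (jF (1 * ℓ)) = jF N := by
    apply Subtype.ext
    rw [IntermediateField.coe_inclusion, coe_jF, coe_jF]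
  have e2 : IntermediateField.inclusion (fbar_mono hdvd) (jdF (1 * ℓ) ℓ (dvd_mul_left ℓ 1)) =
      jdF N ℓ hN := by
    apply Subtype.ext
    rw [IntermediateField.coe_inclusion, coe_jdF_eq, coe_jdF_eq]
  have h1 := hord (jF (1 * ℓ))
  have h2 := hord (jdF (1 * ℓ) ℓ (dvd_mul_left ℓ 1))
  rw [e1] at h1
  rw [e2] at h2
  have hw : w.ord (jdF (1 * ℓ) ℓ (dvd_mul_left ℓ 1)) < 0 := by
    by_contra h
    have : 0 ≤ (k : ℤ) * w.ord (jdF (1 * ℓ) ℓ (dvd_mul_left ℓ 1)) :=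
      mul_nonneg hkz.le (not_lt.mp h)
    omega
  obtain ⟨ha, hb⟩ := j_dict_one ℓ hℓ w hw
  rw [h1, h2]
  constructor
  · exact mul_neg_of_pos_of_neg hkz ha
  · nlinarith

/-- **(J), Hecke vocabulary** (the statement R4 consumes): at every place of `Fbar_{nℓ}`, a pole of `β j` is a
pole of `α j` and `-ord (β j) ≤ ℓ * -ord (α j)`. -/
theorem j_dict_gen {n : ℕ} [NeZero n] {ℓ : ℕ} [NeZero ℓ] (hℓ : ℓ.Prime)
    (v : Place Kbar (FF (n * ℓ)))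
    (hv : v.ord (heckeBetaBar Kbar n ℓ (jF n)) < 0) :
    v.ord (heckeAlphaBar Kbar n ℓ (jF n)) < 0 ∧
      -(v.ord (heckeBetaBar Kbar n ℓ (jF n))) ≤ (ℓ : ℤ) * -(v.ord (heckeAlphaBar Kbar n ℓ (jF n))) := by
  rw [beta_jF] at hv ⊢
  rw [alpha_jF]
  exact j_dict_level ℓ hℓ (n * ℓ) (dvd_mul_left ℓ n) v hv

/-- **(J)**, literal binder list of helper16's request (the hypothesis `hℓn` is not used). -/
theorem j_dict {n : ℕ} [NeZero n] {ℓ : ℕ} [NeZero ℓ] (hℓ : ℓ.Prime) (_hℓn : ¬ ℓ ∣ n)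
    (v : Place Kbar (FF (n * ℓ)))
    (hv : v.ord (heckeBetaBar Kbar n ℓ (jF n)) < 0) :
    v.ord (heckeAlphaBar Kbar n ℓ (jF n)) < 0 ∧
      -(v.ord (heckeBetaBar Kbar n ℓ (jF n))) ≤ (ℓ : ℤ) * -(v.ord (heckeAlphaBar Kbar n ℓ (jF n))) :=
  j_dict_gen hℓ v hv

/-- the regular case in the Hecke vocabulary. -/
theorem ord_beta_jF_nonneg {n : ℕ} [NeZero n] {ℓ : ℕ} [NeZero ℓ]
    (v : Place Kbar (FF (n * ℓ))) (hv : 0 ≤ v.ord (heckeAlphaBar Kbar n ℓ (jF n))) :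
    0 ≤ v.ord (heckeBetaBar Kbar n ℓ (jF n)) := by
  rw [alpha_jF] at hv
  rw [beta_jF]
  exact ord_jdF_nonneg (n * ℓ) ℓ (dvd_mul_left ℓ n) v hv

end Level

section Beta

variable (ℓ : ℕ) [NeZero ℓ] (N : ℕ) [NeZero N]

/-- `Fbar_{Nℓ}` is algebraic over `β (Fbar_N)` (any `N`, `ℓ`). -/
theorem exists_poly_beta (x : FF (N * ℓ)) :
    ∃ p : Polynomial (FF N), p ≠ 0 ∧
      Polynomial.eval₂ ((heckeBetaBar Kbar N ℓ : FF N →ₐ[Kbar] FF (N * ℓ)) : FF N →+* FF (N * ℓ))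
        x p = 0 := by
  classical
  set φ : FF N →ₐ[Kbar] FF (N * ℓ) := heckeBetaBar Kbar N ℓ with hφ
  set y : FF (N * ℓ) := φ (jF N) with hy
  have htr : Transcendental Kbar y := by
    intro halg
    apply transcendental_jF N
    exact (isAlgebraic_algHom_iff φ (RingHom.injective _)).mp halg
  haveI := Degree.finiteDimensional_adjoin (N * ℓ) (realizeData (N * ℓ)) (cuspData (N * ℓ))
  haveI hfin : FiniteDimensional Kbar⟮y⟯ (FF (N * ℓ)) :=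
    FF.ffx_finiteDimensional_of_transcendental (jF (N * ℓ)) y htr
  have hx1 : IsAlgebraic Kbar⟮y⟯ x := IsAlgebraic.of_finite _ _
  -- pass to the field range of `φ`
  have hle : (Kbar⟮y⟯ : IntermediateField Kbar (FF (N * ℓ))) ≤ φ.fieldRange := by
    rw [IntermediateField.adjoin_simple_le_iff]
    exact ⟨jF N, rfl⟩
  have hx2 : IsAlgebraic φ.fieldRange.toSubalgebra x :=
    IsAlgebraic.tower_top_of_subalgebra_le (A := (Kbar⟮y⟯).toSubalgebra)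
      (B := φ.fieldRange.toSubalgebra) hle hx1
  obtain ⟨P, hP0, hPx⟩ := hx2
  let e : FF N ≃ₐ[Kbar] φ.fieldRange := AlgEquiv.ofInjectiveField φ
  refine ⟨P.map (e.symm : φ.fieldRange →+* FF N), ?_, ?_⟩
  · exact (Polynomial.map_ne_zero_iff e.symm.injective).mpr hP0
  · rw [Polynomial.eval₂_map]
    have hcomp : ((φ : FF N →+* FF (N * ℓ))).comp (e.symm : φ.fieldRange →+* FF N) =
        algebraMap φ.fieldRange.toSubalgebra (FF (N * ℓ)) := by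
      refine RingHom.ext fun z => ?_
      show φ (e.symm z) = (z : FF (N * ℓ))
      have : e (e.symm z) = z := e.apply_symm_apply z
      exact congrArg Subtype.val this
    rw [hcomp]
    exact hPx

/-- **(J) pushed along `β`**: for `ℓ ∣ N`, at level `N ℓ`: a pole of `j_{ℓ²}` is a pole of `j_ℓ` and
`-ord j_{ℓ²} ≤ ℓ * -ord j_ℓ`. -/
theorem j_dict_beta (hℓ : ℓ.Prime) (hN : ℓ ∣ N) (v : Place Kbar (FF (N * ℓ)))
    (hv : v.ord (jdF (N * ℓ) (ℓ * ℓ) (mul_dvd_mul_right hN ℓ)) < 0) :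
    v.ord (jdF (N * ℓ) ℓ (dvd_mul_left ℓ N)) < 0 ∧
      -(v.ord (jdF (N * ℓ) (ℓ * ℓ) (mul_dvd_mul_right hN ℓ))) ≤
        (ℓ : ℤ) * -(v.ord (jdF (N * ℓ) ℓ (dvd_mul_left ℓ N))) := by
  obtain ⟨w, k, hk, hord, -⟩ := Fermat.Agent.RED.LVL.PlaceRestrict2.exists_restrict_of_isAlgebraic
    (heckeBetaBar Kbar N ℓ) (exists_poly_beta ℓ N) v
  have hkz : (0 : ℤ) < k := by exact_mod_cast hk
  have e1 : heckeBetaBar Kbar N ℓ (jF N) = jdF (N * ℓ) ℓ (dvd_mul_left ℓ N) := beta_jF ℓ N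
  have e2 : heckeBetaBar Kbar N ℓ (jdF N ℓ hN) =
      jdF (N * ℓ) (ℓ * ℓ) (mul_dvd_mul_right hN ℓ) := beta_jdF N ℓ ℓ hN _
  have h1 := hord (jF N)
  have h2 := hord (jdF N ℓ hN)
  rw [e1] at h1
  rw [e2] at h2
  have hw : w.ord (jdF N ℓ hN) < 0 := by
    by_contra h
    have : 0 ≤ (k : ℤ) * w.ord (jdF N ℓ hN) := mul_nonneg hkz.le (not_lt.mp h)
    omega
  obtain ⟨ha, hb⟩ := j_dict_level ℓ hℓ N hN w hw
  rw [h1, h2]
  constructor
  · exact mul_neg_of_pos_of_neg hkz ha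
  · nlinarith

/-- **(J) twice**: for `ℓ ∣ N`, at level `N ℓ`: a pole of `j_{ℓ²}` is a pole of `j` and
`-ord j_{ℓ²} ≤ ℓ² * -ord j`. -/
theorem j_dict_sq (hℓ : ℓ.Prime) (hN : ℓ ∣ N) (v : Place Kbar (FF (N * ℓ)))
    (hv : v.ord (jdF (N * ℓ) (ℓ * ℓ) (mul_dvd_mul_right hN ℓ)) < 0) :
    v.ord (jF (N * ℓ)) < 0 ∧
      -(v.ord (jdF (N * ℓ) (ℓ * ℓ) (mul_dvd_mul_right hN ℓ))) ≤
        ((ℓ : ℤ) * ℓ) * -(v.ord (jF (N * ℓ))) := by
  obtain ⟨h1, h2⟩ := j_dict_beta ℓ N hℓ hN v hv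
  obtain ⟨h3, h4⟩ := j_dict_level ℓ hℓ (N * ℓ) (dvd_mul_left ℓ N) v h1
  refine ⟨h3, ?_⟩
  have hℓ0 : (0 : ℤ) ≤ ℓ := by positivity
  nlinarith

/-- **The scaled generator is regular at the poles of `j`** (horizontal half of its integrality): for `ℓ ∣ N`,
at every place of `Fbar_{Nℓ}` with `ord j ≤ 0`: `0 ≤ ord (j_{ℓ²} * (j⁻¹) ^ (ℓ * ℓ))`. -/
theorem ord_scaled_nonneg (hℓ : ℓ.Prime) (hN : ℓ ∣ N) (v : Place Kbar (FF (N * ℓ)))
    (hj : v.ord (jF (N * ℓ)) ≤ 0) :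
    0 ≤ v.ord (jdF (N * ℓ) (ℓ * ℓ) (mul_dvd_mul_right hN ℓ) * (jF (N * ℓ))⁻¹ ^ (ℓ * ℓ)) := by
  have hgen : IsGen Kbar (jF (N * ℓ)) :=
    Degree.isGen_jF (N * ℓ) (realizeData (N * ℓ)) (cuspData (N * ℓ))
  have hj0 : jF (N * ℓ) ≠ 0 := hgen.ne_zero
  have hz0 : jdF (N * ℓ) (ℓ * ℓ) (mul_dvd_mul_right hN ℓ) ≠ 0 := by
    intro h0
    have h1 : ((jdF (N * ℓ) (ℓ * ℓ) (mul_dvd_mul_right hN ℓ) : FF (N * ℓ)) : LaurentSeries Kbar) = 0 := by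
      rw [h0]; rfl
    rw [coe_jdF_eq] at h1
    have h2 := order_qExpand_jqK (ℓ * ℓ)
    rw [h1, HahnSeries.order_zero] at h2
    have : (0 : ℤ) < ((ℓ * ℓ : ℕ) : ℤ) := by
      have := NeZero.ne ℓ
      positivity
    omega
  have hpow : v.ord ((jF (N * ℓ))⁻¹ ^ (ℓ * ℓ)) = ((ℓ * ℓ : ℕ) : ℤ) * -(v.ord (jF (N * ℓ))) := by
    rw [← zpow_natCast, v.ord_zpow, v.ord_inv]
  rw [v.ord_mul hz0 (pow_ne_zero _ (inv_ne_zero hj0)), hpow]
  by_cases hz : v.ord (jdF (N * ℓ) (ℓ * ℓ) (mul_dvd_mul_right hN ℓ)) < 0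
  · obtain ⟨-, h2⟩ := j_dict_sq ℓ N hℓ hN v hz
    push_cast
    nlinarith
  · push_cast
    have hℓ0 : (0 : ℤ) ≤ (ℓ : ℤ) * ℓ := by positivity
    nlinarith

end Beta

end Fermat.Agent.ES.P36.JDict26
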