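/-
Program P (S36), chapter (R4) = (D4), THIRD CUSPS: the instance of `CuspThirdK16.JFrac` and `JDict`
(helper16).

* `j_mem_adjoin_rat` : `j ∈ ℚ(t)` as Laurent series over `ℚ` (`CoeffField4`, coefficient-field descent
  `ℚbar ⇒ ℚ`);
* `exists_jFrac` : `j = N(t) / D0(t)` at the base level with `D0 ∈ ℤ[X]` PRIMITIVE and `N ∈ ℚbar[X]`
  coprime to `D0` (gcd division + integer normalisation + primitive part);
* `jDict` : (J) = `JDict26.j_dict`.
-/
import Mathlib
import Fermat.Agent.ES.P36.CuspThirdK16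
import Fermat.Agent.ES.P36.CoeffField4
import Fermat.Agent.ES.P36.JDict26
import Fermat.Agent.RED.BASE.Main12

set_option autoImplicit false
set_option linter.unusedSectionVars false
set_option linter.style.haveILetI false
set_option synthInstance.maxHeartbeats 400000
set_option maxHeartbeats 400000

open ModularCurve IntermediateField AlgebraicCurve Polynomial
open scoped MatrixGroups IntermediateField

noncomputable section

namespace Fermat.Agent.ES.P36.JFracInst16

open Fermat.Agent.X0 Fermat.Agent.RED.Interface4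
open Fermat.Agent.RED.BASE.Interface12 Fermat.Agent.RED.BASE.Hauptmodul12
open Fermat.Agent.RED.BASE.EtaQuot12 Fermat.Agent.RED.BASE
open Fermat.Agent.RED.DESC.CoeffDescent1
open Fermat.Agent.ES.P36.CuspPoly16 Fermat.Agent.ES.P36.CuspThirdK16

variable (n e : ℕ) [NeZero n]

/-- (J) = `JDict26.j_dict`. -/
theorem jDict {ℓ : ℕ} [NeZero ℓ] (hℓ : ℓ.Prime) (hℓn : ¬ ℓ ∣ n) : JDict n ℓ :=
  fun v hv => Fermat.Agent.ES.P36.JDict26.j_dict hℓ hℓn v hv

/-- **`j ∈ ℚ(t)`** as Laurent series over `ℚ`. -/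
theorem j_mem_adjoin_rat (hgen : TGenBase n e) : jqModC ℚ ∈ ℚ⟮tq ℚ n e⟯ := by
  have : Algebra.IsAlgebraic ℚ Qbar := AlgebraicClosure.isAlgebraic ℚ
  apply Fermat.Agent.ES.P36.CoeffField4.mem_adjoin_simple_of_coeffMap_mem (K₁ := Qbar)
  rw [coeffMap_tq, coeffMap_jqModC]
  obtain ⟨h, htop⟩ := hgen
  have hj : jF n ∈ Kbar⟮tF n h⟯ := by rw [htop]; exact IntermediateField.mem_top
  obtain ⟨r, s, hrs⟩ := IntermediateField.mem_adjoin_simple_iff Kbar (jF n) |>.mp hj
  rw [IntermediateField.mem_adjoin_simple_iff]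
  refine ⟨r, s, ?_⟩
  have hcoe : ∀ p : Polynomial Kbar,
      ((Polynomial.aeval (tF n h) p : FF n) : LaurentSeries Kbar) = Polynomial.aeval (tK n e) p :=
    fun p => (Polynomial.aeval_algHom_apply (modularFunctionFieldBar n).val (tF n h) p).symm
  rw [← Fermat.Agent.RED.BASE.JInKt25.coe_jF_eq n, hrs, ← hcoe, ← hcoe]
  rfl

/-- a rational function relation can be written with coprime numerator and denominator. -/
theorem exists_coprime_frac {L : Type*} [Field L] [Algebra ℚ L] {x y : L} (r s : ℚ[X])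
    (hs0 : aeval x s ≠ 0) (h : y = aeval x r / aeval x s) :
    ∃ r' s' : ℚ[X], IsCoprime r' s' ∧ s' ≠ 0 ∧ y * aeval x s' = aeval x r' := by
  have hs : s ≠ 0 := by rintro rfl; simp at hs0
  set g := EuclideanDomain.gcd r s with hg
  obtain ⟨r', hr'⟩ := EuclideanDomain.gcd_dvd_left r s
  obtain ⟨s', hs'⟩ := EuclideanDomain.gcd_dvd_right r s
  have hg0 : g ≠ 0 := by
    intro h0
    rw [← hg, h0, zero_mul] at hs'
    exact hs hs'
  have hbez : r' * EuclideanDomain.gcdA r s + s' * EuclideanDomain.gcdB r s = 1 := by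
    have h1 := EuclideanDomain.gcd_eq_gcd_ab r s
    rw [← hg] at h1 hr' hs'
    have h2 : g * (r' * EuclideanDomain.gcdA r s + s' * EuclideanDomain.gcdB r s) = g * 1 := by
      rw [mul_one]
      calc g * (r' * EuclideanDomain.gcdA r s + s' * EuclideanDomain.gcdB r s)
          = (g * r') * EuclideanDomain.gcdA r s + (g * s') * EuclideanDomain.gcdB r s := by ring
        _ = g := by rw [← hr', ← hs']; exact h1.symm
    exact mul_left_cancel₀ hg0 h2
  refine ⟨r', s', ⟨EuclideanDomain.gcdA r s, EuclideanDomain.gcdB r s, by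
    rw [mul_comm _ r', mul_comm _ s']; exact hbez⟩, ?_, ?_⟩
  · rintro rfl
    rw [mul_zero] at hs'
    exact hs hs'
  · rw [← hg] at hr' hs'
    have hgx : aeval x g ≠ 0 := by
      intro h0
      apply hs0
      rw [hs', map_mul, h0, zero_mul]
    have hsx : aeval x s' ≠ 0 := by
      intro h0
      apply hs0
      rw [hs', map_mul, h0, mul_zero]
    rw [h, hr', hs', map_mul, map_mul]
    field_simp

/-- a nonzero rational polynomial is a nonzero rational multiple of a primitive integer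
polynomial. -/
theorem exists_primitive_mul (s : ℚ[X]) (hs : s ≠ 0) :
    ∃ (D0 : ℤ[X]) (κ : ℚ), D0.IsPrimitive ∧ κ ≠ 0 ∧ D0.map (Int.castRingHom ℚ) = C κ * s := by
  obtain ⟨b, hbM, hb⟩ := IsLocalization.integerNormalization_spec (nonZeroDivisors ℤ) s
  set I := IsLocalization.integerNormalization (nonZeroDivisors ℤ) s with hI
  have hb0 : ((b : ℤ) : ℚ) ≠ 0 := by
    have := nonZeroDivisors.ne_zero hbM
    exact_mod_cast this
  have hI0 : I ≠ 0 := by
    intro h0
    rw [h0, Polynomial.map_zero] at hb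
    have : ((b : ℤ) • s) = C ((b : ℤ) : ℚ) * s := by
      rw [zsmul_eq_mul, ← map_intCast (C : ℚ →+* ℚ[X])]
    rw [this] at hb
    have := mul_ne_zero (C_ne_zero.mpr hb0) hs
    exact this hb.symm
  have hc0 : ((I.content : ℤ) : ℚ) ≠ 0 := by
    have : I.content ≠ 0 := fun h => hI0 (content_eq_zero_iff.mp h)
    exact_mod_cast this
  refine ⟨I.primPart, ((b : ℤ) : ℚ) / ((I.content : ℤ) : ℚ), isPrimitive_primPart I,
    div_ne_zero hb0 hc0, ?_⟩
  have h1 : I.map (Int.castRingHom ℚ) =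
      C ((I.content : ℤ) : ℚ) * I.primPart.map (Int.castRingHom ℚ) := by
    conv_lhs => rw [I.eq_C_content_mul_primPart]
    rw [Polynomial.map_mul, Polynomial.map_C]
    rfl
  have h2 : I.map (Int.castRingHom ℚ) = C ((b : ℤ) : ℚ) * s := by
    have : ((b : ℤ) • s) = C ((b : ℤ) : ℚ) * s := by
      rw [zsmul_eq_mul, ← map_intCast (C : ℚ →+* ℚ[X])]
    rw [← this]
    exact hb
  have h3 : C ((I.content : ℤ) : ℚ) * I.primPart.map (Int.castRingHom ℚ) =
      C ((I.content : ℤ) : ℚ) * (C (((b : ℤ) : ℚ) / ((I.content : ℤ) : ℚ)) * s) := by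
    rw [← h1, h2, ← mul_assoc, ← C_mul, mul_div_cancel₀ _ hc0]
  exact mul_left_cancel₀ (C_ne_zero.mpr hc0) h3

/-- **`j = N(t) / D0(t)` with `D0 ∈ ℤ[X]` primitive, `N` coprime to `D0`.** -/
theorem exists_jFrac (hb : BaseHyp n e) :
    ∃ (N : Kbar[X]) (D0 : ℤ[X]), D0.IsPrimitive ∧ JFrac n e hb N D0 := by
  have hgen : TGenBase n e := (Main12.baseExports hb n dvd_rfl).genBase
  obtain ⟨r, s, hrs⟩ :=
    (IntermediateField.mem_adjoin_simple_iff ℚ (jqModC ℚ)).mp (j_mem_adjoin_rat n e hgen)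
  have hs0 : aeval (tq ℚ n e) s ≠ 0 := by
    intro h0
    rw [h0, div_zero] at hrs
    exact jqModC_ne_zero_of_nontrivial ℚ hrs
  obtain ⟨r', s', hcop, hs', hrel⟩ := exists_coprime_frac r s hs0 hrs
  obtain ⟨D0, κ, hprim, hκ, hD0⟩ := exists_primitive_mul s' hs'
  set ψ : ℚ →+* Kbar := algebraMap ℚ Kbar with hψ
  refine ⟨(C κ * r').map ψ, D0, hprim, ?_, hprim.ne_zero, ?_⟩
  · -- coprimality
    have h1 : D0.map (Int.castRingHom Kbar) = (C κ * s').map ψ := by
      rw [← hD0, Polynomial.map_map]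
      congr 1
    rw [h1]
    have hu : IsUnit (C κ : ℚ[X]) := (isUnit_C).mpr (IsUnit.mk0 κ hκ)
    have h2 : IsCoprime (C κ * r') (C κ * s') :=
      (isCoprime_mul_unit_left_left hu _ _).mpr ((isCoprime_mul_unit_left_right hu _ _).mpr hcop)
    exact h2.map (Polynomial.mapRingHom ψ)
  · -- the relation, checked on Laurent series
    apply Subtype.ext
    have hcoe : ∀ p : Polynomial Kbar,
        ((Polynomial.aeval (tF n (tMem hb)) p : FF n) : LaurentSeries Kbar) =
          Polynomial.aeval (tK n e) p :=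
      fun p => (Polynomial.aeval_algHom_apply (modularFunctionFieldBar n).val
        (tF n (tMem hb)) p).symm
    have hcoeI : ((ival D0 (tF n (tMem hb)) : FF n) : LaurentSeries Kbar) = ival D0 (tK n e) :=
      map_ival (modularFunctionFieldBar n).val.toRingHom (tF n (tMem hb)) D0
    have hmul : ((jF n * ival D0 (tF n (tMem hb)) : FF n) : LaurentSeries Kbar) =
        ((jF n : FF n) : LaurentSeries Kbar) *
          ((ival D0 (tF n (tMem hb)) : FF n) : LaurentSeries Kbar) := rfl
    rw [hmul, hcoe, hcoeI, Fermat.Agent.RED.BASE.JInKt25.coe_jF_eq n]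
    -- push the `ℚ`-relation to `ℚbar`
    have hrel' : jqModC ℚ * aeval (tq ℚ n e) (C κ * s') = aeval (tq ℚ n e) (C κ * r') := by
      rw [map_mul, map_mul, ← hrel]; ring
    have h3 := congrArg (coeffMap ψ) hrel'
    rw [map_mul, Fermat.Agent.RED.BASE.JInKt25.coeffMap_aeval,
      Fermat.Agent.RED.BASE.JInKt25.coeffMap_aeval, coeffMap_jqModC, coeffMap_tq] at h3
    rw [← aeval_map_int (S := Kbar) (tK n e) D0]
    have h1 : D0.map (Int.castRingHom Kbar) = (C κ * s').map ψ := by
      rw [← hD0, Polynomial.map_map]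
      congr 1
    rw [h1]
    exact h3

end Fermat.Agent.ES.P36.JFracInst16
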