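/-
Program P (S36), chapter (R4) = (D4) "crossing points are not cusp reductions", FINAL per-`K` forms
for ALL finite cusp values (helper16).  ModelDefs9 vocabulary, level `M' q`, ONE `K`, no `∃ K₀`.

Abstract `O1 O2` with a `NodalCore13.NodalTwoChartModel` (S34's glue output), `yN ∈ B0`, `yN⁻¹ ∈ B1`
(`ModEqItems`), the Kronecker congruences (`KronChart15`) and the two unit facts
`D0(tN)⁻¹ ∈ O1`, `D0(yN)⁻¹ ∈ O2` (`CuspUnit16` for the concrete `O1, O2`):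
* `cusp_notMem_B0` : a prime of `B0` lying on both components contains no `tN - c`, `c ∈ cuspSet A K cv`;
* `cusp_notMem_B1` : a prime of `B1` lying on both components contains no `1 - c tN⁻¹`;
concrete `O1 M' q hu hE`, `O2 M' q hu hE`, `D0` := the primitive denominator of `JFracInst16`:
* `cusp_notMem_B0_model`, `cusp_notMem_B1_model`.
-/
import Mathlib
import Fermat.Agent.ES.P36.JFracInst16
import Fermat.Agent.ES.P36.CuspUnit16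
import Fermat.Agent.ES.N34.IsoM25

set_option autoImplicit false
set_option linter.unusedSectionVars false
set_option linter.style.haveILetI false
set_option synthInstance.maxHeartbeats 400000
set_option maxHeartbeats 400000

open ModularCurve IntermediateField AlgebraicCurve Polynomial
open scoped MatrixGroups

noncomputable section

namespace Fermat.Agent.ES.P36.CuspFinal16

open Fermat.Agent.X0 Fermat.Agent.RED.Interface4 Fermat.Agent.RED.PUR.GaussGen8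
open Fermat.Agent.RED.BASE.Interface12 Fermat.Agent.RED.BASE.Hauptmodul12
open Fermat.Agent.RED.BASE.EtaQuot12 Fermat.Agent.RED.ModelTargets4
open Fermat.Agent.ES.N34.ModelDefs9 Fermat.Agent.RED.PUR.ChartGeneric22
open Fermat.Agent.ES.N34.NodalCore13
open Fermat.Agent.ES.P36.CuspIntK16 Fermat.Agent.ES.P36.CuspPoly16
open Fermat.Agent.ES.P36.CuspThirdK16 Fermat.Agent.ES.P36.JFracInst16
open Fermat.Agent.ES.P36.CuspUnit16

variable (A : ValuationSubring Qbar) {K : IntermediateField ℚ Qbar} {M' : ℕ} (q : ℕ)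
  [NeZero M'] [NeZero q] {n e : ℕ} [NeZero n]

theorem ival_tN_ne_zero (ht : tq (↥K) n e ∈ FK M' K) (D0 : ℤ[X]) (hD0 : D0 ≠ 0) :
    ival D0 (tN q ht) ≠ 0 := by
  have h : ival D0 (tN q ht) = alpha K M' q (ival D0 (tM ht)) := by
    rw [tN]
    exact (map_ival (alpha K M' q).toRingHom (tM ht) D0).symm
  rw [h]
  refine (_root_.map_ne_zero _).mpr ?_
  intro h0
  apply ival_tq_ne_zero (K := K) (n := n) (e := e) D0 hD0
  have := congrArg (fun x : FK M' K => (x : LaurentSeries ↥K)) h0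
  simp only [coe_ival] at this
  exact this

set_option maxHeartbeats 4000000 in
/-- **(D4), chart `0`, every finite cusp value** (abstract `O1 O2`). -/
theorem cusp_notMem_B0 (hb : BaseHyp n e) (hq : q.Prime) (hqn : ¬ q ∣ n)
    (ht : tq (↥K) n e ∈ FK M' K) (π : ↥(AK A K))
    (dvrR : ∀ r : ↥(AK A K), r ≠ 0 → ∃ (k : ℕ) (v : (↥(AK A K))ˣ), r = π ^ k * v)
    (hqπ : π ∣ (q : ↥(AK A K)))
    (O1 O2 : ValuationSubring ↥(FK (M' * q) K))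
    (model : NodalTwoChartModel ↥(AK A K) ↥(FK (M' * q) K) π (tN q ht) (B0 A q ht) (B1 A q ht)
      O1 O2)
    (hyB0 : yN q ht ∈ B0 A q ht)
    (N : Kbar[X]) (D0 : ℤ[X]) (hND : JFrac n e hb N D0)
    (hDt1 : (ival D0 (tN q ht))⁻¹ ∈ O1) (hD2 : (ival D0 (yN q ht))⁻¹ ∈ O2)
    (hK1 : ∃ o ∈ O1, yN q ht - (tN q ht) ^ q =
      algebraMap ↥(AK A K) ↥(FK (M' * q) K) π * o)
    (hK2 : ∃ o ∈ O2, tN q ht - (yN q ht) ^ q =
      algebraMap ↥(AK A K) ↥(FK (M' * q) K) π * o)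
    {M : ℕ} [NeZero M] (hnM : n ∣ M) (cv : SL(2, ℤ) → Option Kbar) (hcv : CuspExp n e M cv)
    (𝔪 : Ideal ↥(B0 A q ht)) (h𝔪 : 𝔪 ≠ ⊤)
    (h1 : ¬ OffBranch π (B0 A q ht) O1 𝔪) (h2 : ¬ OffBranch π (B0 A q ht) O2 𝔪)
    (c : ↥(AK A K)) (hc : c ∈ cuspSet A K cv) :
    (⟨tN q ht - algebraMap ↥(AK A K) ↥(FK (M' * q) K) c,
      (B0 A q ht).sub_mem (self_mem_chart (tN q ht)) ((B0 A q ht).algebraMap_mem c)⟩ :
      ↥(B0 A q ht)) ∉ 𝔪 := by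
  have hR1 : ∀ r : ↥(AK A K), algebraMap ↥(AK A K) ↥(FK (M' * q) K) r ∈ O1 :=
    fun r => model.le_O1_0 _ ((B0 A q ht).algebraMap_mem r)
  have hD1 : (ival D0 (yN q ht))⁻¹ ∈ O1 :=
    ival_inv_mem_of_kron π q hq hqπ O1 hR1 model.pi_nonunit1 (model.le_O1_0 _ hyB0)
      (model.le_O1_0 _ model.t_mem) hK1 D0 hDt1 (ival_tN_ne_zero q ht D0 hND.2.1)
  have hx := ival_tN_notMem_of_on_both A q hb hq hqn ht π dvrR hqπ O1 O2 model.le_O1_0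
    model.le_O2_0 model.sat0 hyB0 N D0 hND (jDict n hq hqn) hD1 hD2 hK1 hK2 𝔪 h𝔪 h1 h2
  exact sub_cusp_notMem_B0 A q ht D0 𝔪 hx c (ival_cusp_eq_zero A hb hnM cv hcv N D0 hND c hc)

set_option maxHeartbeats 4000000 in
/-- **(D4), chart `1`, every finite cusp value** (abstract `O1 O2`). -/
theorem cusp_notMem_B1 (hb : BaseHyp n e) (hq : q.Prime) (hqn : ¬ q ∣ n)
    (ht : tq (↥K) n e ∈ FK M' K) (π : ↥(AK A K))
    (dvrR : ∀ r : ↥(AK A K), r ≠ 0 → ∃ (k : ℕ) (v : (↥(AK A K))ˣ), r = π ^ k * v)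
    (hqπ : π ∣ (q : ↥(AK A K)))
    (O1 O2 : ValuationSubring ↥(FK (M' * q) K))
    (model : NodalTwoChartModel ↥(AK A K) ↥(FK (M' * q) K) π (tN q ht) (B0 A q ht) (B1 A q ht)
      O1 O2)
    (hyB0 : yN q ht ∈ B0 A q ht) (hyB1 : (yN q ht)⁻¹ ∈ B1 A q ht)
    (N : Kbar[X]) (D0 : ℤ[X]) (hND : JFrac n e hb N D0)
    (hDt1 : (ival D0 (tN q ht))⁻¹ ∈ O1) (hD2 : (ival D0 (yN q ht))⁻¹ ∈ O2)
    (hK1 : ∃ o ∈ O1, (yN q ht)⁻¹ - ((tN q ht)⁻¹) ^ q =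
      algebraMap ↥(AK A K) ↥(FK (M' * q) K) π * o)
    (hK2 : ∃ o ∈ O2, (tN q ht)⁻¹ - ((yN q ht)⁻¹) ^ q =
      algebraMap ↥(AK A K) ↥(FK (M' * q) K) π * o)
    {M : ℕ} [NeZero M] (hnM : n ∣ M) (cv : SL(2, ℤ) → Option Kbar) (hcv : CuspExp n e M cv)
    (𝔪 : Ideal ↥(B1 A q ht)) (h𝔪 : 𝔪 ≠ ⊤)
    (h1 : ¬ OffBranch π (B1 A q ht) O1 𝔪) (h2 : ¬ OffBranch π (B1 A q ht) O2 𝔪)
    (c : ↥(AK A K)) (hc : c ∈ cuspSet A K cv) :
    (⟨1 - algebraMap ↥(AK A K) ↥(FK (M' * q) K) c * (tN q ht)⁻¹,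
      (B1 A q ht).sub_mem (B1 A q ht).one_mem
        ((B1 A q ht).mul_mem ((B1 A q ht).algebraMap_mem c) (self_mem_chart (tN q ht)⁻¹))⟩ :
      ↥(B1 A q ht)) ∉ 𝔪 := by
  have hR1 : ∀ r : ↥(AK A K), algebraMap ↥(AK A K) ↥(FK (M' * q) K) r ∈ O1 :=
    fun r => model.le_O1_1 _ ((B1 A q ht).algebraMap_mem r)
  have htN0 := tN_ne_zero q ht
  have hyN0 := yN_ne_zero q ht
  have hDrt1 : (ival D0.reverse (tN q ht)⁻¹)⁻¹ ∈ O1 :=
    ival_reverse_inv_inv_mem O1 htN0 (model.le_O1_0 _ model.t_mem) D0 hDt1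
  have hDrt0 : ival D0.reverse (tN q ht)⁻¹ ≠ 0 := by
    rw [ival_reverse_inv htN0]
    exact mul_ne_zero (ival_tN_ne_zero q ht D0 hND.2.1) (pow_ne_zero _ (inv_ne_zero htN0))
  have hD1' : (ival D0.reverse (yN q ht)⁻¹)⁻¹ ∈ O1 :=
    ival_inv_mem_of_kron π q hq hqπ O1 hR1 model.pi_nonunit1 (model.le_O1_1 _ hyB1)
      (model.le_O1_1 _ model.tinv_mem) hK1 D0.reverse hDrt1 hDrt0
  have hD2' : (ival D0.reverse (yN q ht)⁻¹)⁻¹ ∈ O2 :=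
    ival_reverse_inv_inv_mem O2 hyN0 (model.le_O2_0 _ hyB0) D0 hD2
  have hx := ival_tN_inv_notMem_of_on_both A q hb hq hqn ht π dvrR hqπ O1 O2 model.le_O1_1
    model.le_O2_1 model.sat1 hyB1 N D0 hND (jDict n hq hqn) hD1' hD2' hK1 hK2 𝔪 h𝔪 h1 h2
  exact one_sub_cusp_mul_notMem_B1 A q ht D0 𝔪 hx c
    (ival_cusp_eq_zero A hb hnM cv hcv N D0 hND c hc)

/-- `π ∣ q` in `A_K`. -/
theorem pi_dvd_q [IsDiscreteValuationRing ↥(AK A K)] (hA : A.LiesOverPrime q)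
    {π : ↥(AK A K)} (hirr : Irreducible π) : π ∣ (q : ↥(AK A K)) := by
  have h1 := Fermat.Agent.RED.DESC.NumberFieldDVR27.natCast_mem_maximalIdeal A K hA
  rw [hirr.maximalIdeal_eq, Ideal.mem_span_singleton] at h1
  exact h1

set_option maxHeartbeats 4000000 in
/-- **(D4), chart `0`, every finite cusp value, the concrete `O1, O2` of `ModelDefs9`.** -/
theorem cusp_notMem_B0_model (hb : BaseHyp n e) (hq : q.Prime) (hqn : ¬ q ∣ n) (hqM : ¬ q ∣ M')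
    (hA : A.LiesOverPrime q) [FiniteDimensional ℚ K]
    (ht : tq (↥K) n e ∈ FK M' K) {π : ↥(AK A K)} (hirr : Irreducible π)
    (hu : IsUnif (AK A K) π) (hE : FK (M' * q) K ≤ fracField (AK A K))
    (model : NodalTwoChartModel ↥(AK A K) ↥(FK (M' * q) K) π (tN q ht) (B0 A q ht) (B1 A q ht)
      (O1 M' q hu hE) (O2 M' q hu hE))
    (hyB0 : yN q ht ∈ B0 A q ht)
    (hK1 : ∃ o ∈ O1 M' q hu hE, yN q ht - (tN q ht) ^ q =
      algebraMap ↥(AK A K) ↥(FK (M' * q) K) π * o)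
    (hK2 : ∃ o ∈ O2 M' q hu hE, tN q ht - (yN q ht) ^ q =
      algebraMap ↥(AK A K) ↥(FK (M' * q) K) π * o)
    {M : ℕ} [NeZero M] (hnM : n ∣ M) (cv : SL(2, ℤ) → Option Kbar) (hcv : CuspExp n e M cv)
    (𝔪 : Ideal ↥(B0 A q ht)) (h𝔪 : 𝔪 ≠ ⊤)
    (h1 : ¬ OffBranch π (B0 A q ht) (O1 M' q hu hE) 𝔪)
    (h2 : ¬ OffBranch π (B0 A q ht) (O2 M' q hu hE) 𝔪)
    (c : ↥(AK A K)) (hc : c ∈ cuspSet A K cv) :
    (⟨tN q ht - algebraMap ↥(AK A K) ↥(FK (M' * q) K) c,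
      (B0 A q ht).sub_mem (self_mem_chart (tN q ht)) ((B0 A q ht).algebraMap_mem c)⟩ :
      ↥(B0 A q ht)) ∉ 𝔪 := by
  obtain ⟨N, D0, hprim, hND⟩ := exists_jFrac n e hb
  haveI : Fact q.Prime := ⟨hq⟩
  haveI hdvr : IsDiscreteValuationRing ↥(AK A K) :=
    Fermat.Agent.RED.DESC.NumberFieldDVR27.isDiscreteValuationRing_AK A K hq.ne_zero hA
  have dvrR : ∀ r : ↥(AK A K), r ≠ 0 → ∃ (k : ℕ) (v : (↥(AK A K))ˣ), r = π ^ k * v := by
    intro r hr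
    obtain ⟨k, v, h⟩ := IsDiscreteValuationRing.eq_unit_mul_pow_irreducible hr hirr
    exact ⟨k, v, by rw [h, mul_comm]⟩
  have hqπ : π ∣ (q : ↥(AK A K)) := pi_dvd_q A q hA hirr
  haveI : CharP (Res (AK A K)) q :=
    Fermat.Agent.RED.DESC.NumberFieldDVR27.charP_residueField_AK A K hq hA
  have hDt1 := ival_tN_inv_mem_O1 M' q hu hE hq ht hprim
  have hD2 := ival_yN_inv_mem_O2 M' q hu hE hq
    (fun x => Fermat.Agent.ES.N34.IsoM25.isoM A K M' q hirr hqM x) ht hprim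
  exact cusp_notMem_B0 A q hb hq hqn ht π dvrR hqπ _ _ model hyB0 N D0 hND hDt1 hD2 hK1 hK2 hnM cv
    hcv 𝔪 h𝔪 h1 h2 c hc

set_option maxHeartbeats 4000000 in
/-- **(D4), chart `1`, every finite cusp value, the concrete `O1, O2` of `ModelDefs9`.** -/
theorem cusp_notMem_B1_model (hb : BaseHyp n e) (hq : q.Prime) (hqn : ¬ q ∣ n) (hqM : ¬ q ∣ M')
    (hA : A.LiesOverPrime q) [FiniteDimensional ℚ K]
    (ht : tq (↥K) n e ∈ FK M' K) {π : ↥(AK A K)} (hirr : Irreducible π)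
    (hu : IsUnif (AK A K) π) (hE : FK (M' * q) K ≤ fracField (AK A K))
    (model : NodalTwoChartModel ↥(AK A K) ↥(FK (M' * q) K) π (tN q ht) (B0 A q ht) (B1 A q ht)
      (O1 M' q hu hE) (O2 M' q hu hE))
    (hyB0 : yN q ht ∈ B0 A q ht) (hyB1 : (yN q ht)⁻¹ ∈ B1 A q ht)
    (hK1 : ∃ o ∈ O1 M' q hu hE, (yN q ht)⁻¹ - ((tN q ht)⁻¹) ^ q =
      algebraMap ↥(AK A K) ↥(FK (M' * q) K) π * o)
    (hK2 : ∃ o ∈ O2 M' q hu hE, (tN q ht)⁻¹ - ((yN q ht)⁻¹) ^ q =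
      algebraMap ↥(AK A K) ↥(FK (M' * q) K) π * o)
    {M : ℕ} [NeZero M] (hnM : n ∣ M) (cv : SL(2, ℤ) → Option Kbar) (hcv : CuspExp n e M cv)
    (𝔪 : Ideal ↥(B1 A q ht)) (h𝔪 : 𝔪 ≠ ⊤)
    (h1 : ¬ OffBranch π (B1 A q ht) (O1 M' q hu hE) 𝔪)
    (h2 : ¬ OffBranch π (B1 A q ht) (O2 M' q hu hE) 𝔪)
    (c : ↥(AK A K)) (hc : c ∈ cuspSet A K cv) :
    (⟨1 - algebraMap ↥(AK A K) ↥(FK (M' * q) K) c * (tN q ht)⁻¹,
      (B1 A q ht).sub_mem (B1 A q ht).one_mem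
        ((B1 A q ht).mul_mem ((B1 A q ht).algebraMap_mem c) (self_mem_chart (tN q ht)⁻¹))⟩ :
      ↥(B1 A q ht)) ∉ 𝔪 := by
  obtain ⟨N, D0, hprim, hND⟩ := exists_jFrac n e hb
  haveI : Fact q.Prime := ⟨hq⟩
  haveI hdvr : IsDiscreteValuationRing ↥(AK A K) :=
    Fermat.Agent.RED.DESC.NumberFieldDVR27.isDiscreteValuationRing_AK A K hq.ne_zero hA
  have dvrR : ∀ r : ↥(AK A K), r ≠ 0 → ∃ (k : ℕ) (v : (↥(AK A K))ˣ), r = π ^ k * v := by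
    intro r hr
    obtain ⟨k, v, h⟩ := IsDiscreteValuationRing.eq_unit_mul_pow_irreducible hr hirr
    exact ⟨k, v, by rw [h, mul_comm]⟩
  have hqπ : π ∣ (q : ↥(AK A K)) := pi_dvd_q A q hA hirr
  haveI : CharP (Res (AK A K)) q :=
    Fermat.Agent.RED.DESC.NumberFieldDVR27.charP_residueField_AK A K hq hA
  have hDt1 := ival_tN_inv_mem_O1 M' q hu hE hq ht hprim
  have hD2 := ival_yN_inv_mem_O2 M' q hu hE hq
    (fun x => Fermat.Agent.ES.N34.IsoM25.isoM A K M' q hirr hqM x) ht hprim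
  exact cusp_notMem_B1 A q hb hq hqn ht π dvrR hqπ _ _ model hyB0 hyB1 N D0 hND hDt1 hD2 hK1 hK2
    hnM cv hcv 𝔪 h𝔪 h1 h2 c hc

end Fermat.Agent.ES.P36.CuspFinal16
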