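/-
Program P (S36), chapter (R4) = (D4), characteristic-`0` input at the cusps `∞` and `0`
(helper16).  Vocabulary of `ES/N34/ModEqBar23` (`a = aF ℓ = αt`, `b = bF ℓ = βt ∈ Fbar_{nℓ}`).

* `poles_aF` : the poles of `αt` at level `n ℓ` are the place of the `q`-expansion
  (`ord αt = -1`, `ord βt = -ℓ`) and the Atkin–Lehner place (`ord αt = -ℓ`, `ord βt = -1`)
  (the proof of `ModEqBar23.ord_bF_neg_of_ord_aF_neg`, with the orders kept);
* `isIntegral_gInf`  : `βt / (αt)^ℓ` is integral over `ℚbar[(αt)⁻¹]`;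
  `isIntegral_gInf'` : `αt / (βt)^ℓ` is integral over `ℚbar[(βt)⁻¹]`;
* series forms: `isIntegral_gInf_series` (`t(q^ℓ) · (t⁻¹)^ℓ` over `ℚbar[t⁻¹]`) and, through the
  Fricke expansion, `isIntegral_gZero_series` (`t^ℓ · t(q^ℓ)⁻¹` over `ℚbar[t]`).
-/
import Mathlib
import Fermat.Agent.ES.N34.ModEqBar23

set_option autoImplicit false
set_option linter.unusedSectionVars false
set_option linter.style.haveILetI false

open ModularCurve AlgebraicCurve IntermediateField UpperHalfPlane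
open scoped IntermediateField MatrixGroups

noncomputable section

namespace Fermat.Agent.ES.P36.CuspInt16

open Fermat.Agent.X0 Fermat.Agent.X0.Analytic Fermat.Agent.X0.FF
open Fermat.Agent.RED.BASE.Interface12 Fermat.Agent.RED.BASE.Hauptmodul12
open Fermat.Agent.RED.BASE
open Fermat.Agent.RED.BASE.EtaQuot12
open Fermat.Agent.ES.N34.ModEqBar23 Fermat.Agent.ES.KRON.Conjugates11

variable {n e : ℕ} (ℓ : ℕ) [NeZero n] [NeZero ℓ]

/-- **Poles, with orders.** -/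
theorem poles_aF (hb : BaseHyp n e) (hℓ : ℓ.Prime) (hℓn : ¬ ℓ ∣ n)
    (v : Place Kbar (FF (n * ℓ))) (hv : v.ord (aF ℓ (tMem hb)) < 0) :
    (v.ord (aF ℓ (tMem hb)) = -1 ∧ v.ord (bF ℓ (tMem hb)) = -(ℓ : ℤ)) ∨
    (v.ord (aF ℓ (tMem hb)) = -(ℓ : ℤ) ∧ v.ord (bF ℓ (tMem hb)) = -1) := by
  classical
  set hn := tMem hb with hhn
  have hℓ2 : (2 : ℤ) ≤ ℓ := by exact_mod_cast hℓ.two_le
  have ht0 : tF n hn ≠ 0 := fun h0 => TGen19.tK_ne_zero n e (congrArg Subtype.val h0)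
  have ha0 : aF ℓ hn ≠ 0 := by
    rw [aF]; exact (map_ne_zero _).mpr ht0
  have hb0 : bF ℓ hn ≠ 0 := by
    rw [bF]; exact (map_ne_zero _).mpr ht0
  set τ₁ := valHom (n * ℓ) with hτ₁
  have hτ₁c := valHom_const (n * ℓ)
  have h1a : (τ₁ (aF ℓ hn)).order = -1 := by
    rw [hτ₁, valHom_apply, coe_aF]; exact order_tK'
  have h1b : (τ₁ (bF ℓ hn)).order = -(ℓ : ℤ) := by
    rw [hτ₁, valHom_apply, coe_bF]; exact order_qExpand_tK ℓ
  have hnt₁ : ∃ f, f ≠ 0 ∧ (τ₁ f).order ≠ 0 := ⟨aF ℓ hn, ha0, by rw [h1a]; decide⟩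
  set P₁ := LaurentPlace.embPlace τ₁ hτ₁c hnt₁ with hP₁
  have hP₁a : P₁.ord (aF ℓ hn) = -1 := by
    rw [hP₁, embPlace_ord_eq τ₁ hτ₁c hnt₁ ha0 h1a ha0, h1a]
  have hP₁b : P₁.ord (bF ℓ hn) = -(ℓ : ℤ) := by
    rw [hP₁, embPlace_ord_eq τ₁ hτ₁c hnt₁ ha0 h1a hb0, h1b]
  obtain ⟨W, hWβ, hWα⟩ := exists_W n ℓ hℓ hℓn
  have hWc : ∀ c : Kbar, W (algebraMap Kbar (FF (n * ℓ)) c) = HahnSeries.C c := by
    intro c
    have h1 : algebraMap Kbar (FF (n * ℓ)) c =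
        heckeAlphaBar Kbar n ℓ (algebraMap Kbar (FF n) c) := (AlgHom.commutes _ c).symm
    rw [h1, hWα]
    show qExpand Kbar ℓ (algebraMap Kbar (LaurentSeries Kbar) c) = HahnSeries.C c
    rw [algebraMap_laurentSeries_eq_single]
    exact qExpand_C ℓ c
  have h2b : (W (bF ℓ hn)).order = -1 := by
    rw [bF, hWβ]; exact order_tK'
  have h2a : (W (aF ℓ hn)).order = -(ℓ : ℤ) := by
    rw [aF, hWα]; exact order_qExpand_tK ℓ
  have hnt₂ : ∃ f, f ≠ 0 ∧ (W f).order ≠ 0 := ⟨bF ℓ hn, hb0, by rw [h2b]; decide⟩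
  set P₂ := LaurentPlace.embPlace W hWc hnt₂ with hP₂
  have hP₂b : P₂.ord (bF ℓ hn) = -1 := by
    rw [hP₂, embPlace_ord_eq W hWc hnt₂ hb0 h2b hb0, h2b]
  have hP₂a : P₂.ord (aF ℓ hn) = -(ℓ : ℤ) := by
    rw [hP₂, embPlace_ord_eq W hWc hnt₂ hb0 h2b ha0, h2a]
  have hne : P₁ ≠ P₂ := by
    intro h
    rw [h, hP₂a] at hP₁a
    omega
  have hmem := mem_of_ord_neg (isGen_aF ℓ hn) {P₁, P₂}
    (by
      intro w hw
      rcases Finset.mem_insert.mp hw with rfl | hw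
      · rw [hP₁a]; decide
      · rw [Finset.mem_singleton.mp hw, hP₂a]; omega)
    (by
      rw [Finset.sum_pair hne, hP₁a, hP₂a, finrank_aF ℓ hb hℓ hℓn]
      push_cast
      ring) v hv
  rcases Finset.mem_insert.mp hmem with rfl | hw
  · exact Or.inl ⟨hP₁a, hP₁b⟩
  · rw [Finset.mem_singleton.mp hw]
    exact Or.inr ⟨hP₂a, hP₂b⟩

/-- An element integral over `K[x]` lies in every place at which `x` is finite. -/
theorem mem_place_of_isIntegral_adjoin {K F : Type*} [Field K] [Field F] [Algebra K F]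
    (v : Place K F) {x z : F} (hx : x ∈ v.toValuationSubring)
    (hz : IsIntegral (Algebra.adjoin K {x}) z) : z ∈ v.toValuationSubring := by
  have hle' : ∀ y ∈ Algebra.adjoin K {x}, y ∈ v.toValuationSubring := by
    intro y hy
    refine Algebra.adjoin_induction (p := fun y _ => y ∈ v.toValuationSubring) ?_ ?_ ?_ ?_ hy
    · intro y hy
      rw [Set.mem_singleton_iff] at hy
      rw [hy]; exact hx
    · intro c; exact v.algebraMap_mem' c
    · intro y z _ _ hy hz; exact add_mem hy hz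
    · intro y z _ _ hy hz; exact mul_mem hy hz
  have hle : (Algebra.adjoin K {x}).toSubring ≤ v.toValuationSubring.toSubring :=
    fun y hy => hle' y hy
  have h1 : IsIntegral v.toValuationSubring z :=
    IsIntegral.map_of_comp_eq (Subring.inclusion hle) (RingHom.id F) (by ext r; rfl) hz
  obtain ⟨y, hy⟩ := (IsIntegrallyClosed.isIntegral_iff (R := v.toValuationSubring) (K := F)).mp h1
  rw [← hy]
  exact y.2

/-- the poles of `βt` are poles of `αt` (from (I1)). -/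
theorem ord_aF_neg_of_ord_bF_neg (hb : BaseHyp n e) (hℓ : ℓ.Prime) (hℓn : ¬ ℓ ∣ n)
    (v : Place Kbar (FF (n * ℓ))) (hv : v.ord (bF ℓ (tMem hb)) < 0) :
    v.ord (aF ℓ (tMem hb)) < 0 := by
  by_contra hneg
  have ha : aF ℓ (tMem hb) ∈ v.toValuationSubring :=
    (FF.ffp_mem_iff_ord_nonneg v).mpr (not_lt.mp hneg)
  have hbm := mem_place_of_isIntegral_adjoin v ha (isIntegral_bF ℓ hb hℓ hℓn)
  have := (FF.ffp_mem_iff_ord_nonneg v).mp hbm
  omega

/-- **(INT-∞)**: `βt · ((αt)⁻¹)^ℓ` is integral over `ℚbar[(αt)⁻¹]`. -/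
theorem isIntegral_gInf (hb : BaseHyp n e) (hℓ : ℓ.Prime) (hℓn : ¬ ℓ ∣ n) :
    IsIntegral (Algebra.adjoin Kbar {(aF ℓ (tMem hb))⁻¹})
      (bF ℓ (tMem hb) * ((aF ℓ (tMem hb))⁻¹) ^ ℓ) := by
  have hℓ2 : (2 : ℤ) ≤ ℓ := by exact_mod_cast hℓ.two_le
  have hgen := isGen_aF ℓ (tMem hb)
  have ha0 : aF ℓ (tMem hb) ≠ 0 := hgen.ne_zero
  have hb0 : bF ℓ (tMem hb) ≠ 0 := (isGen_bF ℓ (tMem hb)).ne_zero
  have h := Fermat.Agent.RED.PUR.PlaceIntegral3.mem_intRing_of_forall_place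
    hgen.inv (bF ℓ (tMem hb) * ((aF ℓ (tMem hb))⁻¹) ^ ℓ) (by
      intro v hav
      rw [FF.ffp_mem_iff_ord_nonneg] at hav ⊢
      have hne : bF ℓ (tMem hb) * ((aF ℓ (tMem hb))⁻¹) ^ ℓ ≠ 0 :=
        mul_ne_zero hb0 (pow_ne_zero _ (inv_ne_zero ha0))
      rw [v.ord_inv] at hav
      rw [v.ord_mul hb0 (pow_ne_zero _ (inv_ne_zero ha0)), FF.ord_pow, v.ord_inv]
      by_cases hv : v.ord (aF ℓ (tMem hb)) < 0
      · rcases poles_aF ℓ hb hℓ hℓn v hv with ⟨h1, h2⟩ | ⟨h1, h2⟩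
        · rw [h1, h2]; simp
        · rw [h1, h2]
          have : (0 : ℤ) ≤ (ℓ : ℤ) * ℓ - 1 := by nlinarith
          simp only [neg_neg]
          linarith
      · have h0 : v.ord (aF ℓ (tMem hb)) = 0 := by omega
        have hbv : 0 ≤ v.ord (bF ℓ (tMem hb)) := by
          by_contra hneg
          exact hv (ord_aF_neg_of_ord_bF_neg ℓ hb hℓ hℓn v (not_le.mp hneg))
        rw [h0]; simpa using hbv)
  exact h

/-- **(INT-∞), mirrored**: `αt · ((βt)⁻¹)^ℓ` is integral over `ℚbar[(βt)⁻¹]`. -/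
theorem isIntegral_gInf' (hb : BaseHyp n e) (hℓ : ℓ.Prime) (hℓn : ¬ ℓ ∣ n) :
    IsIntegral (Algebra.adjoin Kbar {(bF ℓ (tMem hb))⁻¹})
      (aF ℓ (tMem hb) * ((bF ℓ (tMem hb))⁻¹) ^ ℓ) := by
  have hℓ2 : (2 : ℤ) ≤ ℓ := by exact_mod_cast hℓ.two_le
  have hgen := isGen_bF ℓ (tMem hb)
  have ha0 : aF ℓ (tMem hb) ≠ 0 := (isGen_aF ℓ (tMem hb)).ne_zero
  have hb0 : bF ℓ (tMem hb) ≠ 0 := hgen.ne_zero
  have h := Fermat.Agent.RED.PUR.PlaceIntegral3.mem_intRing_of_forall_place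
    hgen.inv (aF ℓ (tMem hb) * ((bF ℓ (tMem hb))⁻¹) ^ ℓ) (by
      intro v hbv
      rw [FF.ffp_mem_iff_ord_nonneg] at hbv ⊢
      rw [v.ord_inv] at hbv
      rw [v.ord_mul ha0 (pow_ne_zero _ (inv_ne_zero hb0)), FF.ord_pow, v.ord_inv]
      by_cases hv : v.ord (aF ℓ (tMem hb)) < 0
      · rcases poles_aF ℓ hb hℓ hℓn v hv with ⟨h1, h2⟩ | ⟨h1, h2⟩
        · rw [h1, h2]
          have : (0 : ℤ) ≤ (ℓ : ℤ) * ℓ - 1 := by nlinarith
          simp only [neg_neg]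
          linarith
        · rw [h1, h2]; simp
      · have hbv0 : v.ord (bF ℓ (tMem hb)) = 0 := by
          by_contra hne
          have hlt : v.ord (bF ℓ (tMem hb)) < 0 := by omega
          exact hv (ord_aF_neg_of_ord_bF_neg ℓ hb hℓ hℓn v hlt)
        rw [hbv0]
        simp only [neg_zero, mul_zero, add_zero]
        omega)
  exact h

/-- **(INT-∞), series form**: `t(q^ℓ) · (t⁻¹)^ℓ` is integral over `ℚbar[t⁻¹]`. -/
theorem isIntegral_gInf_series (hb : BaseHyp n e) (hℓ : ℓ.Prime) (hℓn : ¬ ℓ ∣ n) :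
    IsIntegral (Algebra.adjoin Kbar {(tK n e)⁻¹})
      (qExpand Kbar ℓ (tK n e) * ((tK n e)⁻¹) ^ ℓ) := by
  have h := isIntegral_adjoin_map (modularFunctionFieldBar (n * ℓ)).val
    (isIntegral_gInf ℓ hb hℓ hℓn)
  have h1 : (modularFunctionFieldBar (n * ℓ)).val (bF ℓ (tMem hb)) = qExpand Kbar ℓ (tK n e) :=
    coe_bF ℓ (tMem hb)
  have h2 : (modularFunctionFieldBar (n * ℓ)).val (aF ℓ (tMem hb)) = tK n e := coe_aF ℓ (tMem hb)
  rw [map_mul, map_pow, map_inv₀, h1, h2] at h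
  exact h

/-- Integrality over `K[c x]` gives integrality over `K[x]`. -/
theorem isIntegral_of_adjoin_smul {K L : Type*} [Field K] [Field L] [Algebra K L] (c : K)
    {x z : L} (h : IsIntegral (Algebra.adjoin K {algebraMap K L c * x}) z) :
    IsIntegral (Algebra.adjoin K {x}) z :=
  IsIntegral.map_of_comp_eq (Subalgebra.inclusion (adjoin_smul_le c x)).toRingHom (RingHom.id L)
    (by ext r; rfl) h

/-- **(INT-0), series form**: `t^ℓ · t(q^ℓ)⁻¹` is integral over `ℚbar[t]` (the Fricke expansion of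
the mirrored (INT-∞)). -/
theorem isIntegral_gZero_series (hb : BaseHyp n e) (hℓ : ℓ.Prime) (hℓn : ¬ ℓ ∣ n) :
    IsIntegral (Algebra.adjoin Kbar {tK n e})
      ((tK n e) ^ ℓ * (qExpand Kbar ℓ (tK n e))⁻¹) := by
  obtain ⟨c₀, hc₀, ha, hbb⟩ := exists_fricke ℓ hb
  have h := isIntegral_adjoin_map (frickeHom ℓ) (isIntegral_gInf' ℓ hb hℓ hℓn)
  have ht0 : tK n e ≠ 0 := TGen19.tK_ne_zero n e
  have hc : algebraMap Kbar (LaurentSeries Kbar) c₀ ≠ 0 :=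
    (map_ne_zero (algebraMap Kbar (LaurentSeries Kbar))).mpr hc₀
  rw [map_mul, map_pow, map_inv₀, ha, hbb] at h
  have e1 : (algebraMap Kbar (LaurentSeries Kbar) c₀ * (tK n e)⁻¹)⁻¹
      = algebraMap Kbar (LaurentSeries Kbar) c₀⁻¹ * tK n e := by
    rw [map_inv₀]; field_simp
  rw [e1] at h
  have h' := isIntegral_of_adjoin_smul c₀⁻¹ h
  -- multiply by the constant `c₀ ^ (ℓ - 1)`
  have hconst : IsIntegral (Algebra.adjoin Kbar {tK n e})
      (algebraMap Kbar (LaurentSeries Kbar) (c₀ ^ ℓ * c₀⁻¹)) :=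
    isIntegral_algebraMap (R := Algebra.adjoin Kbar {tK n e}) (A := LaurentSeries Kbar)
      (x := ⟨algebraMap Kbar (LaurentSeries Kbar) (c₀ ^ ℓ * c₀⁻¹),
        Subalgebra.algebraMap_mem _ _⟩)
  have h3 := hconst.mul h'
  have e2 : algebraMap Kbar (LaurentSeries Kbar) (c₀ ^ ℓ * c₀⁻¹) *
      (algebraMap Kbar (LaurentSeries Kbar) c₀ * (qExpand Kbar ℓ (tK n e))⁻¹ *
        (algebraMap Kbar (LaurentSeries Kbar) c₀⁻¹ * tK n e) ^ ℓ)
      = (tK n e) ^ ℓ * (qExpand Kbar ℓ (tK n e))⁻¹ := by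
    rw [map_mul, map_pow, map_inv₀, mul_pow, inv_pow]
    field_simp
  rw [e2] at h3
  exact h3

end Fermat.Agent.ES.P36.CuspInt16
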