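/-
Program P (S36), chapter (R4) = (D4) "crossing points are not cusp reductions", ABSTRACT part
(helper16).

Setting: a chart `B ⊆ F` of the level `M' q` (or of the base level `n q`), the two vertical valuation
rings `O1, O2`, and `x, y ∈ B` with the Kronecker congruences
`y ≡ x ^ q mod π O1`, `x ≡ y ^ q mod π O2` (`x = αt - c`, `y = βt - c'`, or `x = 1/αt`, `y = 1/βt`),
`y` a unit of `O1` and of `O2`.  If `g = x ^ q / y` is regular at the prime `𝔪` of `B`
(`g * d = a` with `a, d ∈ B`, `d ∉ 𝔪`: the cusp dictionary + normality), then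
`g ≡ 1 mod π O1` and `g ≡ y ^ (q² - 1) mod π O2`, so a prime `𝔪` lying on BOTH components cannot
contain `x`: crossing points do not lie over the cusp value.
-/
import Mathlib
import Fermat.Agent.ES.N34.NodalCore13

set_option autoImplicit false

namespace Fermat.Agent.ES.P36.CuspOff16

open Fermat.Agent.ES.N34.NodalCore13

variable {R F : Type*} [CommRing R] [Field F] [Algebra R F]

/-- `(A + π c) ^ q ≡ A ^ q mod π O`. -/
theorem add_pow_sub_pow_mem (π : R) (O : ValuationSubring F) (hπ : algebraMap R F π ∈ O)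
    {A c : F} (hA : A ∈ O) (hc : c ∈ O) (q : ℕ) :
    ∃ c' ∈ O, (A + algebraMap R F π * c) ^ q - A ^ q = algebraMap R F π * c' := by
  induction q with
  | zero => exact ⟨0, O.zero_mem, by simp⟩
  | succ k ih =>
    obtain ⟨c', hc', h⟩ := ih
    have hAc : A + algebraMap R F π * c ∈ O := O.add_mem _ _ hA (O.mul_mem _ _ hπ hc)
    refine ⟨c' * (A + algebraMap R F π * c) + A ^ k * c,
      O.add_mem _ _ (O.mul_mem _ _ hc' hAc) (O.mul_mem _ _ (pow_mem hA k) hc), ?_⟩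
    have : (A + algebraMap R F π * c) ^ (k + 1) - A ^ (k + 1)
        = ((A + algebraMap R F π * c) ^ k - A ^ k) * (A + algebraMap R F π * c)
          + A ^ k * (algebraMap R F π * c) := by ring
    rw [this, h]; ring

/-- **(D4), abstract form.**  A prime of the chart lying on both components does not contain `x`,
as soon as `g = x ^ q / y` is regular at it. -/
theorem notMem_of_on_both (π : R) (B : Subalgebra R F) (O1 O2 : ValuationSubring F)
    (leO1 : ∀ b ∈ B, b ∈ O1) (leO2 : ∀ b ∈ B, b ∈ O2)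
    (q : ℕ) (hq : 2 ≤ q) (x y : B) (hy0 : (y : F) ≠ 0)
    (hy1 : ((y : F))⁻¹ ∈ O1) (hy2 : ((y : F))⁻¹ ∈ O2)
    (hK1 : ∃ c ∈ O1, (y : F) - (x : F) ^ q = algebraMap R F π * c)
    (hK2 : ∃ c ∈ O2, (x : F) - (y : F) ^ q = algebraMap R F π * c)
    (𝔪 : Ideal B)
    (hreg : ∃ a d : B, d ∉ 𝔪 ∧ (x : F) ^ q * (d : F) = (a : F) * (y : F))
    (h1 : ¬ OffBranch π B O1 𝔪) (h2 : ¬ OffBranch π B O2 𝔪) : x ∉ 𝔪 := by
  intro hx
  have on1 : ∀ e : B, (∃ c ∈ O1, (e : F) = algebraMap R F π * c) → e ∈ 𝔪 := by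
    intro e he
    by_contra he𝔪
    exact h1 ⟨e, he𝔪, he⟩
  have on2 : ∀ e : B, (∃ c ∈ O2, (e : F) = algebraMap R F π * c) → e ∈ 𝔪 := by
    intro e he
    by_contra he𝔪
    exact h2 ⟨e, he𝔪, he⟩
  obtain ⟨a, d, hd, had⟩ := hreg
  obtain ⟨c1, hc1, hk1⟩ := hK1
  obtain ⟨c2, hc2, hk2⟩ := hK2
  have hπ2 : algebraMap R F π ∈ O2 := leO2 _ (B.algebraMap_mem π)
  -- `y ∈ 𝔪`
  have hy : y ∈ 𝔪 := by
    have h : y - x ^ q ∈ 𝔪 := on1 (y - x ^ q) ⟨c1, hc1, by push_cast; exact hk1⟩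
    have : y = (y - x ^ q) + x ^ q := by ring
    rw [this]
    exact 𝔪.add_mem h (𝔪.pow_mem_of_mem hx q (by omega))
  -- `a - d ∈ 𝔭₁`
  have ha1 : a - d ∈ 𝔪 := by
    refine on1 (a - d) ⟨-(c1 * (d : F) * (y : F)⁻¹), ?_, ?_⟩
    · exact O1.neg_mem _ (O1.mul_mem _ _ (O1.mul_mem _ _ hc1 (leO1 _ d.2)) hy1)
    · have hxq : (x : F) ^ q = (y : F) - algebraMap R F π * c1 := by linear_combination -hk1
      have haF : (a : F) = (x : F) ^ q * (d : F) * (y : F)⁻¹ := by
        rw [had]; field_simp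
      push_cast
      rw [haF, hxq]
      field_simp
      ring
  -- `a - y ^ (q² - 1) d ∈ 𝔭₂`
  obtain ⟨c3, hc3, hk3⟩ := add_pow_sub_pow_mem π O2 hπ2 (pow_mem (leO2 _ y.2) q) hc2 q
  have hxq2 : (x : F) ^ q = ((y : F) ^ q) ^ q + algebraMap R F π * c3 := by
    have hx' : (x : F) = (y : F) ^ q + algebraMap R F π * c2 := by linear_combination hk2
    rw [hx']; linear_combination hk3
  have hqq : q * q = (q * q - 1) + 1 := by
    have : 1 ≤ q * q := by nlinarith
    omega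
  have ha2 : a - y ^ (q * q - 1) * d ∈ 𝔪 := by
    refine on2 (a - y ^ (q * q - 1) * d) ⟨c3 * (d : F) * (y : F)⁻¹, ?_, ?_⟩
    · exact O2.mul_mem _ _ (O2.mul_mem _ _ hc3 (leO2 _ d.2)) hy2
    · have haF : (a : F) = (x : F) ^ q * (d : F) * (y : F)⁻¹ := by
        rw [had]; field_simp
      have hpow : ((y : F) ^ q) ^ q = (y : F) ^ (q * q - 1) * (y : F) := by
        rw [← pow_mul, ← pow_succ, ← hqq]
      push_cast
      rw [haF, hxq2, hpow]
      field_simp
      ring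
  have hypow : y ^ (q * q - 1) ∈ 𝔪 := 𝔪.pow_mem_of_mem hy _ (by nlinarith)
  have ha : a ∈ 𝔪 := by
    have : a = (a - y ^ (q * q - 1) * d) + y ^ (q * q - 1) * d := by ring
    rw [this]
    exact 𝔪.add_mem ha2 (𝔪.mul_mem_right _ hypow)
  have : d ∈ 𝔪 := by
    have h : d = a - (a - d) := by ring
    rw [h]
    exact 𝔪.sub_mem ha ha1
  exact hd this

end Fermat.Agent.ES.P36.CuspOff16
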