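/-
Program P (S36), chapter (R4) = (D4), the cusps `∞` and `0` AT ONE NUMBER FIELD `K` (helper16).
ModelDefs9 vocabulary (`tN = αt`, `yN = βt ∈ F = FK (M' q) K`, charts `B0`, `B1`).

* series over `K` (descent `ℚbar ⇒ K` of `CuspInt16`, `ModEq23.descend`):
  `isIntegral_gInf_tq`, `isIntegral_gZero_tq`;
* in `F`: `isIntegral_gInf_N` (`yN · (tN⁻¹)^q` over `K[tN⁻¹]`), `isIntegral_gZero_N`
  (`tN^q · yN⁻¹` over `K[tN]`);
* `gZero_mem_B0`, `gInf_mem_B1` (saturation, `ModEq23.yN_mem_B0` pattern);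
* **(D4) at the cusps `0` and `∞`**: `tN_notMem_of_on_both` (chart `0`), `tN_inv_notMem_of_on_both`
  (chart `1`): a prime of the chart lying on both components `O1`, `O2` contains neither `tN` nor
  `tN⁻¹` (`CuspOff16.notMem_of_on_both`).
All statements are for arbitrary valuation subrings `O1 O2` with the listed elementary properties
(as in `ModEq23`), PER `K`, no `∃ K₀`.
-/
import Mathlib
import Fermat.Agent.ES.N34.ModEq23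
import Fermat.Agent.ES.P36.CuspInt16
import Fermat.Agent.ES.P36.CuspOff16
import Fermat.Agent.RED.BASE.TqTranscendental19

set_option autoImplicit false
set_option linter.unusedSectionVars false
set_option linter.style.haveILetI false
set_option synthInstance.maxHeartbeats 400000
set_option maxHeartbeats 400000

open ModularCurve IntermediateField

noncomputable section

namespace Fermat.Agent.ES.P36.CuspIntK16

open Fermat.Agent.X0 Fermat.Agent.RED.Interface4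
open Fermat.Agent.RED.BASE.Interface12 Fermat.Agent.RED.BASE.Hauptmodul12
open Fermat.Agent.RED.BASE.EtaQuot12
open Fermat.Agent.RED.PUR.PlaceIntegral3
open Fermat.Agent.ES.N34.ModEqBar23 Fermat.Agent.ES.N34.ModEq23
open Fermat.Agent.ES.P36.CuspInt16

section Series

variable (K : IntermediateField ℚ Qbar) {n e : ℕ} (ℓ : ℕ) [NeZero n] [NeZero ℓ]

/-- **(INT-∞) over `K`, series form.** -/
theorem isIntegral_gInf_tq (hb : BaseHyp n e) (hℓ : ℓ.Prime) (hℓn : ¬ ℓ ∣ n) :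
    IsIntegral (Algebra.adjoin K {(tq K n e)⁻¹})
      (qExpand K ℓ (tq K n e) * ((tq K n e)⁻¹) ^ ℓ) := by
  apply descend
  rw [map_mul, map_pow, map_inv₀, ModularCurve.coeffMap_qExpand, coeffMap_tq]
  exact isIntegral_gInf_series ℓ hb hℓ hℓn

/-- **(INT-0) over `K`, series form.** -/
theorem isIntegral_gZero_tq (hb : BaseHyp n e) (hℓ : ℓ.Prime) (hℓn : ¬ ℓ ∣ n) :
    IsIntegral (Algebra.adjoin K {tq K n e})
      ((tq K n e) ^ ℓ * (qExpand K ℓ (tq K n e))⁻¹) := by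
  apply descend
  rw [map_mul, map_pow, map_inv₀, ModularCurve.coeffMap_qExpand, coeffMap_tq]
  exact isIntegral_gZero_series ℓ hb hℓ hℓn

end Series

section Model

open Fermat.Agent.ES.N34.ModelDefs9 Fermat.Agent.RED.PUR.ChartGeneric22
open Fermat.Agent.ES.N34.SatIntegral18 Fermat.Agent.ES.N34.NodalCore13

variable (A : ValuationSubring Qbar) {K : IntermediateField ℚ Qbar} {M' : ℕ} (q : ℕ)
  [NeZero M'] [NeZero q] {n e : ℕ} [NeZero n]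

/-- **(INT-∞) in `F = FK (M' q) K`.** -/
theorem isIntegral_gInf_N (hb : BaseHyp n e) (hq : q.Prime) (hqn : ¬ q ∣ n)
    (ht : tq (↥K) n e ∈ FK M' K) :
    IsIntegral (Algebra.adjoin K {(tN q ht)⁻¹}) (yN q ht * ((tN q ht)⁻¹) ^ q) := by
  refine isIntegral_of_coe_eq K _ ?_ ?_ (isIntegral_gInf_tq K q hb hq hqn)
  · rw [IntermediateField.coe_inv, coe_tN]
  · rw [IntermediateField.coe_mul, IntermediateField.coe_pow, IntermediateField.coe_inv, coe_tN,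
      coe_yN]

/-- **(INT-0) in `F = FK (M' q) K`.** -/
theorem isIntegral_gZero_N (hb : BaseHyp n e) (hq : q.Prime) (hqn : ¬ q ∣ n)
    (ht : tq (↥K) n e ∈ FK M' K) :
    IsIntegral (Algebra.adjoin K {tN q ht}) ((tN q ht) ^ q * (yN q ht)⁻¹) := by
  refine isIntegral_of_coe_eq K _ (coe_tN q ht) ?_ (isIntegral_gZero_tq K q hb hq hqn)
  rw [IntermediateField.coe_mul, IntermediateField.coe_pow, IntermediateField.coe_inv, coe_tN,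
    coe_yN]

set_option maxHeartbeats 4000000 in
/-- `tN^q / yN ∈ B0`. -/
theorem gZero_mem_B0 (hb : BaseHyp n e) (hq : q.Prime) (hqn : ¬ q ∣ n)
    (ht : tq (↥K) n e ∈ FK M' K) (π : ↥(AK A K))
    (dvrR : ∀ r : ↥(AK A K), r ≠ 0 → ∃ (k : ℕ) (v : (↥(AK A K))ˣ), r = π ^ k * v)
    (O1 O2 : ValuationSubring ↥(FK (M' * q) K))
    (hπ1 : algebraMap ↥(AK A K) ↥(FK (M' * q) K) π ∈ O1)
    (hπ2 : algebraMap ↥(AK A K) ↥(FK (M' * q) K) π ∈ O2)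
    (sat0 : ∀ b ∈ B0 A q ht, ∀ c : ↥(FK (M' * q) K), c ∈ O1 → c ∈ O2 →
      b = algebraMap ↥(AK A K) ↥(FK (M' * q) K) π * c → c ∈ B0 A q ht)
    (ht1 : tN q ht ∈ O1) (ht2 : tN q ht ∈ O2)
    (hy1 : (yN q ht)⁻¹ ∈ O1) (hy2 : (yN q ht)⁻¹ ∈ O2) :
    (tN q ht) ^ q * (yN q ht)⁻¹ ∈ B0 A q ht := by
  have hB : ∀ x : ↥(FK (M' * q) K), IsIntegral (Algebra.adjoin ↥(AK A K) {tN q ht}) x →
      x ∈ B0 A q ht := by
    intro x hx
    unfold B0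
    exact mem_chart_iff.2 hx
  have hI := isIntegral_gZero_N q hb hq hqn ht
  exact mem_of_isIntegral_field (R := ↥(AK A K)) (K := ↥K) (F := ↥(FK (M' * q) K)) π dvrR
    (tN q ht) (B0 A q ht) hB O1 O2 hπ1 hπ2 sat0 hI (O1.mul_mem _ _ (pow_mem ht1 q) hy1)
    (O2.mul_mem _ _ (pow_mem ht2 q) hy2)

set_option maxHeartbeats 4000000 in
/-- `yN / tN^q ∈ B1`. -/
theorem gInf_mem_B1 (hb : BaseHyp n e) (hq : q.Prime) (hqn : ¬ q ∣ n)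
    (ht : tq (↥K) n e ∈ FK M' K) (π : ↥(AK A K))
    (dvrR : ∀ r : ↥(AK A K), r ≠ 0 → ∃ (k : ℕ) (v : (↥(AK A K))ˣ), r = π ^ k * v)
    (O1 O2 : ValuationSubring ↥(FK (M' * q) K))
    (hπ1 : algebraMap ↥(AK A K) ↥(FK (M' * q) K) π ∈ O1)
    (hπ2 : algebraMap ↥(AK A K) ↥(FK (M' * q) K) π ∈ O2)
    (sat1 : ∀ b ∈ B1 A q ht, ∀ c : ↥(FK (M' * q) K), c ∈ O1 → c ∈ O2 →
      b = algebraMap ↥(AK A K) ↥(FK (M' * q) K) π * c → c ∈ B1 A q ht)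
    (ht1 : (tN q ht)⁻¹ ∈ O1) (ht2 : (tN q ht)⁻¹ ∈ O2)
    (hy1 : yN q ht ∈ O1) (hy2 : yN q ht ∈ O2) :
    yN q ht * ((tN q ht)⁻¹) ^ q ∈ B1 A q ht := by
  have hB : ∀ x : ↥(FK (M' * q) K), IsIntegral (Algebra.adjoin ↥(AK A K) {(tN q ht)⁻¹}) x →
      x ∈ B1 A q ht := by
    intro x hx
    unfold B1
    exact mem_chart_iff.2 hx
  have hI := isIntegral_gInf_N q hb hq hqn ht
  exact mem_of_isIntegral_field (R := ↥(AK A K)) (K := ↥K) (F := ↥(FK (M' * q) K)) π dvrR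
    (tN q ht)⁻¹ (B1 A q ht) hB O1 O2 hπ1 hπ2 sat1 hI (O1.mul_mem _ _ hy1 (pow_mem ht1 q))
    (O2.mul_mem _ _ hy2 (pow_mem ht2 q))

theorem tM_ne_zero (ht : tq (↥K) n e ∈ FK M' K) : tM ht ≠ 0 := by
  intro h0
  exact Fermat.Agent.RED.BASE.TqTranscendental19.tq_ne_zero (↥K) n e (congrArg Subtype.val h0)

theorem tN_ne_zero (ht : tq (↥K) n e ∈ FK M' K) : tN q ht ≠ 0 := by
  rw [tN]; exact (map_ne_zero _).mpr (tM_ne_zero ht)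

theorem yN_ne_zero (ht : tq (↥K) n e ∈ FK M' K) : yN q ht ≠ 0 := by
  rw [yN]; exact (map_ne_zero _).mpr (tM_ne_zero ht)

set_option maxHeartbeats 4000000 in
/-- **(D4) at the cusp `t = 0`, chart `0`**: a prime of `B0` lying on both components does not
contain `tN`. -/
theorem tN_notMem_of_on_both (hb : BaseHyp n e) (hq : q.Prime) (hqn : ¬ q ∣ n)
    (ht : tq (↥K) n e ∈ FK M' K) (π : ↥(AK A K))
    (dvrR : ∀ r : ↥(AK A K), r ≠ 0 → ∃ (k : ℕ) (v : (↥(AK A K))ˣ), r = π ^ k * v)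
    (O1 O2 : ValuationSubring ↥(FK (M' * q) K))
    (leO1 : ∀ b ∈ B0 A q ht, b ∈ O1) (leO2 : ∀ b ∈ B0 A q ht, b ∈ O2)
    (sat0 : ∀ b ∈ B0 A q ht, ∀ c : ↥(FK (M' * q) K), c ∈ O1 → c ∈ O2 →
      b = algebraMap ↥(AK A K) ↥(FK (M' * q) K) π * c → c ∈ B0 A q ht)
    (hyB : yN q ht ∈ B0 A q ht)
    (hy1 : (yN q ht)⁻¹ ∈ O1) (hy2 : (yN q ht)⁻¹ ∈ O2)
    (hK1 : ∃ o ∈ O1, yN q ht - (tN q ht) ^ q =
      algebraMap ↥(AK A K) ↥(FK (M' * q) K) π * o)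
    (hK2 : ∃ o ∈ O2, tN q ht - (yN q ht) ^ q =
      algebraMap ↥(AK A K) ↥(FK (M' * q) K) π * o)
    (𝔪 : Ideal ↥(B0 A q ht)) (h𝔪 : 𝔪 ≠ ⊤)
    (h1 : ¬ OffBranch π (B0 A q ht) O1 𝔪) (h2 : ¬ OffBranch π (B0 A q ht) O2 𝔪) :
    (⟨tN q ht, self_mem_chart (tN q ht)⟩ : ↥(B0 A q ht)) ∉ 𝔪 := by
  have htB : tN q ht ∈ B0 A q ht := self_mem_chart (tN q ht)
  have hπ1 := leO1 _ ((B0 A q ht).algebraMap_mem π)
  have hπ2 := leO2 _ ((B0 A q ht).algebraMap_mem π)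
  have hg := gZero_mem_B0 A q hb hq hqn ht π dvrR O1 O2 hπ1 hπ2 sat0 (leO1 _ htB) (leO2 _ htB)
    hy1 hy2
  refine Fermat.Agent.ES.P36.CuspOff16.notMem_of_on_both π (B0 A q ht) O1 O2 leO1 leO2 q
    hq.two_le ⟨tN q ht, htB⟩ ⟨yN q ht, hyB⟩ (yN_ne_zero q ht) hy1 hy2 hK1 hK2 𝔪
    ⟨⟨_, hg⟩, 1, ?_, ?_⟩ h1 h2
  · exact fun h => h𝔪 ((Ideal.eq_top_iff_one 𝔪).mpr h)
  · show (tN q ht) ^ q * ((1 : ↥(B0 A q ht)) : ↥(FK (M' * q) K)) =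
      (tN q ht) ^ q * (yN q ht)⁻¹ * yN q ht
    have := yN_ne_zero q ht
    push_cast
    field_simp

set_option maxHeartbeats 4000000 in
/-- **(D4) at the cusp `t = ∞`, chart `1`**: a prime of `B1` lying on both components does not
contain `tN⁻¹`. -/
theorem tN_inv_notMem_of_on_both (hb : BaseHyp n e) (hq : q.Prime) (hqn : ¬ q ∣ n)
    (ht : tq (↥K) n e ∈ FK M' K) (π : ↥(AK A K))
    (dvrR : ∀ r : ↥(AK A K), r ≠ 0 → ∃ (k : ℕ) (v : (↥(AK A K))ˣ), r = π ^ k * v)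
    (O1 O2 : ValuationSubring ↥(FK (M' * q) K))
    (leO1 : ∀ b ∈ B1 A q ht, b ∈ O1) (leO2 : ∀ b ∈ B1 A q ht, b ∈ O2)
    (sat1 : ∀ b ∈ B1 A q ht, ∀ c : ↥(FK (M' * q) K), c ∈ O1 → c ∈ O2 →
      b = algebraMap ↥(AK A K) ↥(FK (M' * q) K) π * c → c ∈ B1 A q ht)
    (hyB : (yN q ht)⁻¹ ∈ B1 A q ht)
    (hy1 : yN q ht ∈ O1) (hy2 : yN q ht ∈ O2)
    (hK1 : ∃ o ∈ O1, (yN q ht)⁻¹ - ((tN q ht)⁻¹) ^ q =
      algebraMap ↥(AK A K) ↥(FK (M' * q) K) π * o)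
    (hK2 : ∃ o ∈ O2, (tN q ht)⁻¹ - ((yN q ht)⁻¹) ^ q =
      algebraMap ↥(AK A K) ↥(FK (M' * q) K) π * o)
    (𝔪 : Ideal ↥(B1 A q ht)) (h𝔪 : 𝔪 ≠ ⊤)
    (h1 : ¬ OffBranch π (B1 A q ht) O1 𝔪) (h2 : ¬ OffBranch π (B1 A q ht) O2 𝔪) :
    (⟨(tN q ht)⁻¹, self_mem_chart (tN q ht)⁻¹⟩ : ↥(B1 A q ht)) ∉ 𝔪 := by
  have htB : (tN q ht)⁻¹ ∈ B1 A q ht := self_mem_chart (tN q ht)⁻¹
  have hπ1 := leO1 _ ((B1 A q ht).algebraMap_mem π)
  have hπ2 := leO2 _ ((B1 A q ht).algebraMap_mem π)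
  have hg := gInf_mem_B1 A q hb hq hqn ht π dvrR O1 O2 hπ1 hπ2 sat1 (leO1 _ htB) (leO2 _ htB)
    hy1 hy2
  refine Fermat.Agent.ES.P36.CuspOff16.notMem_of_on_both π (B1 A q ht) O1 O2 leO1 leO2 q
    hq.two_le ⟨(tN q ht)⁻¹, htB⟩ ⟨(yN q ht)⁻¹, hyB⟩ (inv_ne_zero (yN_ne_zero q ht))
    (by rw [inv_inv]; exact hy1) (by rw [inv_inv]; exact hy2) hK1 hK2 𝔪
    ⟨⟨_, hg⟩, 1, ?_, ?_⟩ h1 h2
  · exact fun h => h𝔪 ((Ideal.eq_top_iff_one 𝔪).mpr h)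
  · show ((tN q ht)⁻¹) ^ q * ((1 : ↥(B1 A q ht)) : ↥(FK (M' * q) K)) =
      yN q ht * ((tN q ht)⁻¹) ^ q * (yN q ht)⁻¹
    have := yN_ne_zero q ht
    push_cast
    field_simp

end Model

end Fermat.Agent.ES.P36.CuspIntK16
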