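/-
Program P (S36), MODEL-P, brick M7a-2 — helper4: **Program N's LEVEL-`M' q` MODEL AT ONE NUMBER FIELD**
(no `∃ K₀`, no normality).

For a number field `K ⊂ ℚ̄` with `ζ_{M'} ∈ K` and a Frobenius inverse on `K`
(`FrobInvAt A K q` = the literal conclusion of `KronChart15.exists_frobInv`; in Programs N/O it came
from `Normal ℚ K`, in Program P it comes from `InertField27.exists_frobInv_of_isInertial`):
all five items of `ModelN4` at `K`, hence `TwoLevelInputs` and `NodalNumData` for the literal data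
of `ModelDefs9`, for EVERY uniformiser `π` of `A ∩ K`.

* `chartItems_at`  (S1; `tq ∈ FK M' K`, `j ∈ K(t)` for every `K` by `CoeffField4`);
* `glueItems_at`   (V2 + V3i; `GaussVTwoInst25.glueOut_tq`);
* `modEqItems_at`  (S2; `ItemsAd6.modEqItems_at`);
* `kronItems_at`   (S5-B; the body of `KronItems15.kronItems_at` with `ψ` explicit);
* `hcombItems_at`  (`CombA26.hcombAt_of`);
* `prinItems_at`   (S3i; the body of `PrinItems12.prinItems_at` with `ψ` explicit and the level-`M'`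
  package from `LevelMAt4`);
* `twoLevelInputs_at`, `nodalNumData_at`, and the two instances `_four_at` (`q` odd, `4 ∣ M'`),
  `_nine_at` (`q = 2`, `9 ∣ M'`).
-/
import Mathlib
import Fermat.Agent.ES.P36.LevelMAt4
import Fermat.Agent.ES.N34.ModelEnd4

set_option autoImplicit false
set_option synthInstance.maxHeartbeats 400000
set_option linter.unusedSectionVars false

noncomputable section

open HahnSeries ModularCurve IntermediateField
open scoped MatrixGroups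

namespace Fermat.Agent.ES.P36.ModelQAt4

open Fermat.Agent.RED.Interface4 Fermat.Agent.RED.PUR.GaussGen8 Fermat.Agent.RED.PUR.KtGauss8
  Fermat.Agent.RED.PUR.G1Package8 Fermat.Agent.RED.BASE.EtaQuot12
  Fermat.Agent.RED.PUR.ChartGeneric22 Fermat.Agent.RED.BASE.Interface12
  Fermat.Agent.RED.BASE.Hauptmodul12 Fermat.Agent.X0
  Fermat.Agent.ES.N34.ModelDefs9 Fermat.Agent.ES.N34.ModelN4 Fermat.Agent.ES.N34.SmoothN5
  Fermat.Agent.ES.N34.LevelM20 Fermat.Agent.ES.N34.ChartN26 Fermat.Agent.ES.N34.KronChart15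
  Fermat.Agent.ES.N34.KronN14 Fermat.Agent.ES.N34.FrickeFK8
  Fermat.Agent.ES.N34.NumData13 Fermat.Agent.ES.P36.CoeffField4

variable {n e M' : ℕ} [NeZero n] [NeZero M'] {q : ℕ} [NeZero q] {A : ValuationSubring Qbar}
  {K : IntermediateField ℚ Qbar}

/-- **A Frobenius inverse on `K`** (the literal conclusion of `KronChart15.exists_frobInv`). -/
def FrobInvAt (A : ValuationSubring Qbar) (K : IntermediateField ℚ Qbar) (q : ℕ) : Prop :=
  ∃ (ψ : K ≃ₐ[ℚ] K) (hψO : ∀ x ∈ AK A K, ((ψ : K ≃ₐ[ℚ] K) : K →+* K) x ∈ AK A K),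
    ∀ x : ↥(AK A K),
      res0 (AK A K) (restrictO (AK A K) ((ψ : K ≃ₐ[ℚ] K) : K →+* K) hψO x) ^ q =
        res0 (AK A K) x

/-- In Programs N/O's setting (`K` normal) a Frobenius inverse exists. -/
theorem frobInvAt_of_normal [Normal ℚ K] (hq : q.Prime) (hA : A.LiesOverPrime q) :
    FrobInvAt A K q :=
  exists_frobInv A K q hq hA

/-! ### S1 -/

/-- **S1 at one `K`** (every number field). -/
theorem chartItems_at (hq : q.Prime) (hA : A.LiesOverPrime q) (hmem : TMem n e M')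
    (hgen : TGenBase n e) [FiniteDimensional ℚ K] : ChartItems n e q M' A K := by
  have hdvr : IsDiscreteValuationRing ↥(AK A K) :=
    Fermat.Agent.RED.DESC.NumberFieldDVR27.isDiscreteValuationRing_AK A K hq.ne_zero hA
  have htM : tq (↥K) n e ∈ FK M' K := tq_mem_FK n e M' hmem K
  refine ⟨hdvr, htM, fun ϖ hϖ => ?_⟩
  have htq : ((tN q htM : ↥(FK (M' * q) K)) : LaurentSeries K) = tq (↥K) n e := coe_tN q htM
  have ht : ((tN q htM : ↥(FK (M' * q) K)) : LaurentSeries K) ∈ gaussRing (AK A K) := by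
    rw [htq]; exact Fermat.Agent.RED.ModelTargets4.tq_mem_gaussRing (AK A K) n e
  have h1 : (⟨((tN q htM : ↥(FK (M' * q) K)) : LaurentSeries K), ht⟩ : ↥(gaussRing (AK A K))) =
      ⟨tq (↥K) n e, Fermat.Agent.RED.ModelTargets4.tq_mem_gaussRing (AK A K) n e⟩ :=
    Subtype.ext htq
  have htr : Transcendental (Res (AK A K))
      (gaussRed (AK A K) ⟨((tN q htM : ↥(FK (M' * q) K)) : LaurentSeries K), ht⟩) := by
    rw [h1]
    exact Fermat.Agent.RED.ModelTargets4.transcendental_gaussRed_tq (AK A K) n e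
  have hjt : jqModC K ∈ Kt (AK A K) ⟨((tN q htM : ↥(FK (M' * q) K)) : LaurentSeries K), ht⟩ := by
    rw [h1]
    exact j_mem_adjoin n e hgen K
  have : NeZero (M' * q) := ⟨Nat.mul_ne_zero (NeZero.ne M') (NeZero.ne q)⟩
  have hn : relfinrank (Kt (AK A K) ⟨((tN q htM : ↥(FK (M' * q) K)) : LaurentSeries K), ht⟩)
      (FK (M' * q) K) ≠ 0 :=
    Fermat.Agent.RED.ModelMain4.relfinrank_ne_zero (AK A K) (M' * q) _ (tN q htM).2 hjt
  exact chartInputs_gauss hϖ (tN q htM) ht htr hn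

/-! ### V2 + V3i -/

/-- **V3i at one `K`** (every number field). -/
theorem glueItems_at (hq : q.Prime) (hqM : ¬ q ∣ M') (hA : A.LiesOverPrime q)
    (hgen : TGenBase n e) [FiniteDimensional ℚ K] : GlueItems n e q M' A K := by
  intro ht hE π hπ
  have hdvr : IsDiscreteValuationRing ↥(AK A K) :=
    Fermat.Agent.RED.DESC.NumberFieldDVR27.isDiscreteValuationRing_AK A K hq.ne_zero hA
  have hirr : Irreducible π := (IsDiscreteValuationRing.irreducible_iff_uniformizer π).mpr hπ.max_eq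
  have : Fact q.Prime := ⟨hq⟩
  have : CharP (Res (AK A K)) q :=
    Fermat.Agent.RED.DESC.NumberFieldDVR27.charP_residueField_AK A K hq hA
  exact Fermat.Agent.ES.N34.GaussVTwoInst25.glueOut_tq (A := A) M' q hirr hE hqM ht
    (j_mem_adjoin n e hgen K)

/-! ### S5-B -/

/-- **S5-B at one `K`** with a Frobenius inverse. -/
theorem kronItems_at (hq : q.Prime) (hqM : ¬ q ∣ M') (hA : A.LiesOverPrime q)
    [FiniteDimensional ℚ K] (hF : FrobInvAt A K q) : KronItems n e q M' A K := by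
  intro ht hE π hπ
  have hdvr : IsDiscreteValuationRing ↥(AK A K) :=
    Fermat.Agent.RED.DESC.NumberFieldDVR27.isDiscreteValuationRing_AK A K hq.ne_zero hA
  have hirr : Irreducible π := (IsDiscreteValuationRing.irreducible_iff_uniformizer π).mpr hπ.max_eq
  have : Fact q.Prime := ⟨hq⟩
  have : CharP (Res (AK A K)) q :=
    Fermat.Agent.RED.DESC.NumberFieldDVR27.charP_residueField_AK A K hq hA
  obtain ⟨ψ, hψO, hψ⟩ := hF
  have hiso : ∀ x : FK M' K, (x : LaurentSeries K) ∈ gaussRing (AK A K) →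
      ((frickeFK M' K x : FK M' K) : LaurentSeries K) ∈ gaussRing (AK A K) :=
    fun x hx => (Fermat.Agent.ES.N34.IsoM25.isoM A K M' q hirr hqM x).mp hx
  exact ⟨hKalpha_B0M M' q hπ hE ψ hψO hψ ht (Fermat.Agent.ES.N34.KronItems15.le_B0M hirr ht) hiso,
    hKbeta_B0M M' q hπ hE ψ hψO hψ ht (Fermat.Agent.ES.N34.KronItems15.le_B0M hirr ht),
    hKalpha_B1M M' q hπ hE ψ hψO hψ ht (Fermat.Agent.ES.N34.KronItems15.le_B1M hirr ht) hiso,
    hKbeta_B1M M' q hπ hE ψ hψO hψ ht (Fermat.Agent.ES.N34.KronItems15.le_B1M hirr ht)⟩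

/-! ### `hcomb` -/

/-- `hcomb` at `(O1, alpha)` at one `K` (every number field). -/
theorem hcombItems_at (hq : q.Prime) (hqM : ¬ q ∣ M') (hA : A.LiesOverPrime q)
    (hgen : TGenBase n e) [FiniteDimensional ℚ K] :
    Fermat.Agent.ES.N34.PrinItems12.HcombItems n e q M' A K :=
  Fermat.Agent.ES.N34.CombA26.hcombAt_of hq hqM hA K (j_mem_adjoin n e hgen K)

/-! ### S3i -/

set_option maxHeartbeats 4000000 in
/-- **(C-prin) ×4 at one `K`** with a Frobenius inverse (twin of `PrinItems12.prinItems_at`, same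
proof, `ψ` from `hF` instead of `Normal ℚ K`). -/
theorem prinItems_at (hq : q.Prime) (hqM : ¬ q ∣ M') (hA : A.LiesOverPrime q)
    [FiniteDimensional ℚ K] (hF : FrobInvAt A K q)
    (hL : Fermat.Agent.ES.N34.PrinItems12.LevelItems n e M' A K)
    (hG : GlueItems n e q M' A K) (hS2 : ModEqItems n e q M' A K)
    (hC : Fermat.Agent.ES.N34.PrinItems12.HcombItems n e q M' A K) :
    PrinItems n e q M' A K := by
  intro ht hE π hπ
  have hdvr : IsDiscreteValuationRing ↥(AK A K) :=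
    Fermat.Agent.RED.DESC.NumberFieldDVR27.isDiscreteValuationRing_AK A K hq.ne_zero hA
  have hirr : Irreducible π := (IsDiscreteValuationRing.irreducible_iff_uniformizer π).mpr hπ.max_eq
  have : Fact q.Prime := ⟨hq⟩
  have : CharP (Res (AK A K)) q :=
    Fermat.Agent.RED.DESC.NumberFieldDVR27.charP_residueField_AK A K hq hA
  obtain ⟨_, _, hLM⟩ := hL
  obtain ⟨L0, L1⟩ := hLM π hirr
  have L0' : LevelM (AK A K) (FK M' K) π (tM ht) := L0
  have L1' : LevelM (AK A K) (FK M' K) π (tM ht)⁻¹ := L1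
  obtain ⟨n0, hd0, hi0⟩ := L0'.deg_irr
  obtain ⟨n1, hd1, hi1⟩ := L1'.deg_irr
  have glue := hG ht hE π hπ
  obtain ⟨hy0, hy1⟩ := hS2 ht
  -- the isometry
  have hiso : ∀ x : FK M' K, (x : LaurentSeries ↥K) ∈ gaussRing (AK A K) ↔
      ((Fermat.Agent.ES.N34.FrickeFK8.frickeFK M' K x : FK M' K) : LaurentSeries ↥K) ∈
        gaussRing (AK A K) :=
    fun x => Fermat.Agent.ES.N34.IsoM25.isoM A K M' q hirr hqM x
  -- `hφO`
  have haO : ∀ z : ↥(FK M' K), alpha K M' q z ∈ O1 M' q hπ hE ↔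
      z ∈ OvE (AK A K) hirr (FK M' K) L0'.hEM := fun z =>
    (Fermat.Agent.ES.N34.BranchInt5.alpha_mem_O1_iff M' q hπ hE z).trans
      (mem_OvE_iff (AK A K) hirr (FK M' K) L0'.hEM z).symm
  have hbO : ∀ z : ↥(FK M' K), beta K M' q z ∈ O2 M' q hπ hE ↔
      z ∈ OvE (AK A K) hirr (FK M' K) L0'.hEM := fun z =>
    (Fermat.Agent.ES.N34.BranchInt5.beta_mem_O2_iff M' q hπ hE hiso z).trans
      (mem_OvE_iff (AK A K) hirr (FK M' K) L0'.hEM z).symm
  -- `hcomb`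
  have hc1' := hC ht hE π hπ
  have hc2' := Fermat.Agent.ES.N34.CombW5.hcomb_O2_of_O1 M' q hπ hE hiso hc1'
  have hc1 : ∀ x ∈ O1 M' q hπ hE, ∃ z ∈ OvE (AK A K) hirr (FK M' K) L0'.hEM,
      ∃ c ∈ O1 M' q hπ hE,
        x - alpha K M' q z = algebraMap ↥(AK A K) ↥(FK (M' * q) K) π * c := by
    intro x hx
    obtain ⟨z, hz, c, hc, h⟩ := hc1' x hx
    exact ⟨z, (mem_OvE_iff (AK A K) hirr (FK M' K) L0'.hEM z).mpr hz, c, hc, h⟩
  have hc2 : ∀ x ∈ O2 M' q hπ hE, ∃ z ∈ OvE (AK A K) hirr (FK M' K) L0'.hEM,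
      ∃ c ∈ O2 M' q hπ hE,
        x - beta K M' q z = algebraMap ↥(AK A K) ↥(FK (M' * q) K) π * c := by
    intro x hx
    obtain ⟨z, hz, c, hc, h⟩ := hc2' x hx
    exact ⟨z, (mem_OvE_iff (AK A K) hirr (FK M' K) L0'.hEM z).mpr hz, c, hc, h⟩
  -- (K) at the single elements `tM`, `tM⁻¹`
  obtain ⟨ψ, hψO, hψ⟩ := hF
  have hb0 : ((Fermat.Agent.ES.N34.FrickeFK8.frickeFK M' K (tM ht) : FK M' K) : LaurentSeries ↥K) ∈
      gaussRing (AK A K) := (hiso (tM ht)).mp L0'.htM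
  have hb1 : ((Fermat.Agent.ES.N34.FrickeFK8.frickeFK M' K (tM ht)⁻¹ : FK M' K) :
      LaurentSeries ↥K) ∈ gaussRing (AK A K) := (hiso (tM ht)⁻¹).mp L1'.htM
  have k0 := Fermat.Agent.ES.N34.KronChart15.hK0 M' q hπ hE ψ hψO hψ ht hb0
  have k1 := Fermat.Agent.ES.N34.KronChart15.hK1 M' q hπ hE ψ hψO hψ ht hb1
  -- Gauss pull-backs
  have hO1 := Fermat.Agent.ES.N34.ModelGlue22.isGaussPullback_O1 (A := A) (K := K) M' q hπ hE
  have hO2 := Fermat.Agent.ES.N34.ModelGlue22.isGaussPullback_O2 (A := A) (K := K) M' q hπ hE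
  refine ⟨?_, ?_, ?_, ?_⟩
  · exact Fermat.Agent.ES.N34.CompInstB12.prin01 hirr L0'.hEM (tM ht) L0'.htM L0'.htrM L0'.hn'
      hd0 hi0 L0'.hsm (alpha K M' q) hO1 glue.le_O1_0 haO hc1
  · exact Fermat.Agent.ES.N34.CompInstB12.prin02 hirr L0'.hEM (tM ht) L0'.htM L0'.htrM L0'.hn'
      hd0 hi0 L0'.hsm (alpha K M' q) (beta K M' q) hO2 glue.le_O2_0 hbO hy0 k0 hc2
  · exact Fermat.Agent.ES.N34.CompInstB12.prin11 hirr L0'.hEM (tM ht) L1'.htM L1'.htrM L1'.hn'
      hd1 hi1 L1'.hsm (alpha K M' q) hO1 glue.le_O1_1 haO hc1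
  · exact Fermat.Agent.ES.N34.CompInstB12.prin12 hirr L0'.hEM (tM ht) L1'.htM L1'.htrM L1'.hn'
      hd1 hi1 L1'.hsm (alpha K M' q) (beta K M' q) hO2 glue.le_O2_1 hbO hy1 k1 hc2

/-! ### Assembly at one `K` -/

/-- **All five items at one `K`**: `ζ_{M'} ∈ K` and a Frobenius inverse on `K` suffice. -/
theorem items_at (hb : BaseHyp n e) (hnM : n ∣ M') (hq : q.Prime) (hqn : ¬ q ∣ n)
    (hqM : ¬ q ∣ M') (hA : A.LiesOverPrime q) (cv : SL(2, ℤ) → Option Kbar)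
    (hcv : Fermat.Agent.RED.BASE.MainCusp12.CuspExports n e M' cv)
    [FiniteDimensional ℚ K] (hζ : zetaK M' ∈ K) (hF : FrobInvAt A K q) :
    ChartItems n e q M' A K ∧ GlueItems n e q M' A K ∧ ModEqItems n e q M' A K ∧
      KronItems n e q M' A K ∧ PrinItems n e q M' A K := by
  have hB := Fermat.Agent.RED.BASE.Main12.baseExports hb M' hnM
  have hBn := Fermat.Agent.RED.BASE.Main12.baseExports hb n dvd_rfl
  have h1 : ChartItems n e q M' A K := chartItems_at hq hA hB.mem hB.genBase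
  have h2 : GlueItems n e q M' A K := glueItems_at hq hqM hA hB.genBase
  have h3 : ModEqItems n e q M' A K :=
    Fermat.Agent.ES.N34.ItemsAd6.modEqItems_at hb hq hqn hqM hA h1 h2
  have h4 : KronItems n e q M' A K := kronItems_at hq hqM hA hF
  have h5 : PrinItems n e q M' A K :=
    prinItems_at hq hqM hA hF
      (Fermat.Agent.ES.P36.LevelMAt4.levelItems_at hb hnM hq hqM hA cv hcv hζ) h2 h3
      (hcombItems_at hq hqM hA hB.genBase)
  exact ⟨h1, h2, h3, h4, h5⟩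

/-- **`TwoLevelInputs` at one `K`.** -/
theorem twoLevelInputs_at (hb : BaseHyp n e) (hnM : n ∣ M') (hq : q.Prime) (hqn : ¬ q ∣ n)
    (hqM : ¬ q ∣ M') (hA : A.LiesOverPrime q) (cv : SL(2, ℤ) → Option Kbar)
    (hcv : Fermat.Agent.RED.BASE.MainCusp12.CuspExports n e M' cv)
    [FiniteDimensional ℚ K] (hζ : zetaK M' ∈ K) (hF : FrobInvAt A K q) :
    ∃ (ht : tq (↥K) n e ∈ FK M' K) (hE : FK (M' * q) K ≤ fracField (AK A K)),
      ∀ (π : ↥(AK A K)) (hπ : IsUnif (AK A K) π),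
        TwoLevelInputs (AK A K) (FK M' K) (FK (M' * q) K) (alpha K M' q) (beta K M' q) q π
          (tM ht) (O1 M' q hπ hE) (O2 M' q hπ hE) := by
  obtain ⟨h1, h2, h3, h4, h5⟩ := items_at hb hnM hq hqn hqM hA cv hcv hζ hF
  exact twoLevelInputs_of_items hq.two_le h1 h2 h3 h4 h5

/-- **`NodalNumData` at one `K`**: the level-`M' q` model of Program N over a number field `K`
with `ζ_{M'} ∈ K` and a Frobenius inverse — no `K₀`, no normality. -/
theorem nodalNumData_at (hb : BaseHyp n e) (hnM : n ∣ M') (hq : q.Prime) (hqn : ¬ q ∣ n)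
    (hqM : ¬ q ∣ M') (hA : A.LiesOverPrime q) (cv : SL(2, ℤ) → Option Kbar)
    (hcv : Fermat.Agent.RED.BASE.MainCusp12.CuspExports n e M' cv)
    [FiniteDimensional ℚ K] (hζ : zetaK M' ∈ K) (hF : FrobInvAt A K q) :
    ∃ (ht : tq (↥K) n e ∈ FK M' K) (hE : FK (M' * q) K ≤ fracField (AK A K)),
      ∀ (π : ↥(AK A K)) (hπ : IsUnif (AK A K) π),
        NodalNumData ↥(AK A K) ↥K ↥(FK (M' * q) K) π (tN q ht) (B0 A q ht) (B1 A q ht)
          (O1 M' q hπ hE) (O2 M' q hπ hE) := by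
  obtain ⟨ht, hE, h⟩ := twoLevelInputs_at hb hnM hq hqn hqM hA cv hcv hζ hF
  exact ⟨ht, hE, fun π hπ => nodalNumData_of_inputs (h π hπ)⟩

/-- `q` odd, `4 ∣ M'`, Hauptmodul `tq · 4 8`. -/
theorem items_four_at (hq : q.Prime) (hq2 : q ≠ 2) (hqM : ¬ q ∣ M') (hM : 4 ∣ M')
    (hA : A.LiesOverPrime q) [FiniteDimensional ℚ K] (hζ : zetaK M' ∈ K)
    (hF : FrobInvAt A K q) :
    ChartItems 4 8 q M' A K ∧ GlueItems 4 8 q M' A K ∧ ModEqItems 4 8 q M' A K ∧
      KronItems 4 8 q M' A K ∧ PrinItems 4 8 q M' A K := by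
  have hqn : ¬ q ∣ 4 := by
    intro h
    have h' : q ∣ 2 := hq.dvd_of_dvd_pow (show q ∣ 2 ^ 2 by simpa using h)
    exact hq2 ((Nat.prime_dvd_prime_iff_eq hq Nat.prime_two).1 h')
  exact items_at baseHyp_four hM hq hqn hqM hA _
    (Fermat.Agent.RED.BASE.MainCusp12.base_four M' hM).2 hζ hF

/-- `q = 2`, `9 ∣ M'`, Hauptmodul `tq · 9 3`. -/
theorem items_nine_at [NeZero 2] (hqM : ¬ 2 ∣ M') (hM : 9 ∣ M')
    (hA : A.LiesOverPrime 2) [FiniteDimensional ℚ K] (hζ : zetaK M' ∈ K)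
    (hF : FrobInvAt A K 2) :
    ChartItems 9 3 2 M' A K ∧ GlueItems 9 3 2 M' A K ∧ ModEqItems 9 3 2 M' A K ∧
      KronItems 9 3 2 M' A K ∧ PrinItems 9 3 2 M' A K :=
  items_at baseHyp_nine hM Nat.prime_two (by decide) hqM hA _
    (Fermat.Agent.RED.BASE.MainCusp12.base_nine M' hM).2 hζ hF

/-- `q` odd: `NodalNumData` at one `K`. -/
theorem nodalNumData_four_at (hq : q.Prime) (hq2 : q ≠ 2) (hqM : ¬ q ∣ M') (hM : 4 ∣ M')
    (hA : A.LiesOverPrime q) [FiniteDimensional ℚ K] (hζ : zetaK M' ∈ K)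
    (hF : FrobInvAt A K q) :
    ∃ (ht : tq (↥K) 4 8 ∈ FK M' K) (hE : FK (M' * q) K ≤ fracField (AK A K)),
      ∀ (π : ↥(AK A K)) (hπ : IsUnif (AK A K) π),
        NodalNumData ↥(AK A K) ↥K ↥(FK (M' * q) K) π (tN q ht) (B0 A q ht) (B1 A q ht)
          (O1 M' q hπ hE) (O2 M' q hπ hE) := by
  obtain ⟨h1, h2, h3, h4, h5⟩ := items_four_at hq hq2 hqM hM hA hζ hF
  obtain ⟨ht, hE, h⟩ := twoLevelInputs_of_items hq.two_le h1 h2 h3 h4 h5
  exact ⟨ht, hE, fun π hπ => nodalNumData_of_inputs (h π hπ)⟩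

/-- `q = 2`: `NodalNumData` at one `K`. -/
theorem nodalNumData_nine_at [NeZero 2] (hqM : ¬ 2 ∣ M') (hM : 9 ∣ M')
    (hA : A.LiesOverPrime 2) [FiniteDimensional ℚ K] (hζ : zetaK M' ∈ K)
    (hF : FrobInvAt A K 2) :
    ∃ (ht : tq (↥K) 9 3 ∈ FK M' K) (hE : FK (M' * 2) K ≤ fracField (AK A K)),
      ∀ (π : ↥(AK A K)) (hπ : IsUnif (AK A K) π),
        NodalNumData ↥(AK A K) ↥K ↥(FK (M' * 2) K) π (tN 2 ht) (B0 A 2 ht) (B1 A 2 ht)
          (O1 M' 2 hπ hE) (O2 M' 2 hπ hE) := by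
  obtain ⟨h1, h2, h3, h4, h5⟩ := items_nine_at hqM hM hA hζ hF
  obtain ⟨ht, hE, h⟩ := twoLevelInputs_of_items Nat.prime_two.two_le h1 h2 h3 h4 h5
  exact ⟨ht, hE, fun π hπ => nodalNumData_of_inputs (h π hπ)⟩

end Fermat.Agent.ES.P36.ModelQAt4
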