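/-
Program P (S36), MODEL-P, brick M7a-3 — helper4: **Program O's level-`M' q` items AT ONE NUMBER FIELD**
(no `∃ K₀`, no normality): `ψ`-twins of `CompItems16.compItems_at` and `SurjModel15.surjItems_at`
(same proofs, the Frobenius inverse from `ModelQAt4.FrobInvAt` instead of `Normal ℚ K`), and the
per-`K` forms of `IntNode16.IntNodeItems`, `NodeStrong4.StrongItems`, `NodeGlue4.GlueNodeItems`.

Everything for a number field `K` with `ζ_{M'} ∈ K` and `FrobInvAt A K q`: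
* `compItems_at`, `surjItems_at` (inputs: the per-`K` items);
* `levelO_four_at`, `levelO_nine_at` : `AllItems ∧ CompItems ∧ SurjItems ∧ IntNodeItems ∧ StrongItems ∧
  GlueNodeItems` at `K`.
-/
import Mathlib
import Fermat.Agent.ES.P36.ModelQAt4
import Fermat.Agent.ES.N35.CompItems16
import Fermat.Agent.ES.N35.SurjModel15
import Fermat.Agent.ES.N35.IntNode16
import Fermat.Agent.ES.N35.NodeStrong4
import Fermat.Agent.ES.N35.NodeGlue4

set_option autoImplicit false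
set_option synthInstance.maxHeartbeats 400000
set_option linter.unusedSectionVars false

noncomputable section

open HahnSeries ModularCurve IntermediateField
open scoped MatrixGroups

namespace Fermat.Agent.ES.P36.ModelOAt4

open Fermat.Agent.RED.Interface4 Fermat.Agent.RED.PUR.GaussGen8 Fermat.Agent.RED.PUR.KtGauss8
  Fermat.Agent.RED.PUR.G1Package8 Fermat.Agent.RED.BASE.EtaQuot12
  Fermat.Agent.RED.PUR.ChartGeneric22 Fermat.Agent.RED.ModelTargets4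
  Fermat.Agent.ES.N34.ModelDefs9 Fermat.Agent.ES.N34.ModelN4 Fermat.Agent.ES.N34.ModelTop4
  Fermat.Agent.ES.N34.LevelM20 Fermat.Agent.ES.N34.PrinItems12
  Fermat.Agent.ES.N35.CompData16 Fermat.Agent.ES.N35.CompItems16 Fermat.Agent.ES.N35.SurjModel15
  Fermat.Agent.ES.N35.IntNode16 Fermat.Agent.ES.N35.NodeStrong4 Fermat.Agent.ES.N35.NodeGlue4
  Fermat.Agent.ES.P36.ModelQAt4 Fermat.Agent.X0

variable {n e M' : ℕ} [NeZero n] [NeZero M'] {q : ℕ} [NeZero q] {A : ValuationSubring Qbar}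
  {K : IntermediateField ℚ Qbar}

set_option maxHeartbeats 4000000 in
/-- **`CompData` ×4 at one `K`** with a Frobenius inverse (twin of `CompItems16.compItems_at`). -/
theorem compItems_at (hq : q.Prime) (hqM : ¬ q ∣ M') (hA : A.LiesOverPrime q)
    [FiniteDimensional ℚ K] (hF : FrobInvAt A K q)
    (hL : LevelItems n e M' A K) (hG : GlueItems n e q M' A K) (hS2 : ModEqItems n e q M' A K)
    (hC : HcombItems n e q M' A K) : CompItems n e q M' A K := by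
  intro ht hE π hπ
  have hdvr : IsDiscreteValuationRing ↥(AK A K) :=
    Fermat.Agent.RED.DESC.NumberFieldDVR27.isDiscreteValuationRing_AK A K hq.ne_zero hA
  have hirr : Irreducible π := (IsDiscreteValuationRing.irreducible_iff_uniformizer π).mpr hπ.max_eq
  have : Fact q.Prime := ⟨hq⟩
  have : CharP (Res (AK A K)) q :=
    Fermat.Agent.RED.DESC.NumberFieldDVR27.charP_residueField_AK A K hq hA
  obtain ⟨_, _, hLM⟩ := hL
  obtain ⟨L0, L1⟩ := hLM π hirr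
  have L0' : LevelM (AK A K) (FK M' K) π (tM ht) := L0
  have L1' : LevelM (AK A K) (FK M' K) π (tM ht)⁻¹ := L1
  obtain ⟨n0, hd0, hi0⟩ := L0'.deg_irr
  obtain ⟨n1, hd1, hi1⟩ := L1'.deg_irr
  have glue := hG ht hE π hπ
  obtain ⟨hy0, hy1⟩ := hS2 ht
  -- the isometry
  have hiso : ∀ x : FK M' K, (x : LaurentSeries ↥K) ∈ gaussRing (AK A K) ↔
      ((Fermat.Agent.ES.N34.FrickeFK8.frickeFK M' K x : FK M' K) : LaurentSeries ↥K) ∈
        gaussRing (AK A K) :=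
    fun x => Fermat.Agent.ES.N34.IsoM25.isoM A K M' q hirr hqM x
  -- `hφO`
  have haO : ∀ z : ↥(FK M' K), alpha K M' q z ∈ O1 M' q hπ hE ↔
      z ∈ OvE (AK A K) hirr (FK M' K) L0'.hEM := fun z =>
    (Fermat.Agent.ES.N34.BranchInt5.alpha_mem_O1_iff M' q hπ hE z).trans
      (mem_OvE_iff (AK A K) hirr (FK M' K) L0'.hEM z).symm
  have hbO : ∀ z : ↥(FK M' K), beta K M' q z ∈ O2 M' q hπ hE ↔
      z ∈ OvE (AK A K) hirr (FK M' K) L0'.hEM := fun z =>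
    (Fermat.Agent.ES.N34.BranchInt5.beta_mem_O2_iff M' q hπ hE hiso z).trans
      (mem_OvE_iff (AK A K) hirr (FK M' K) L0'.hEM z).symm
  -- `hcomb`
  have hc1' := hC ht hE π hπ
  have hc2' := Fermat.Agent.ES.N34.CombW5.hcomb_O2_of_O1 M' q hπ hE hiso hc1'
  have hc1 : ∀ x ∈ O1 M' q hπ hE, ∃ z ∈ OvE (AK A K) hirr (FK M' K) L0'.hEM,
      ∃ c ∈ O1 M' q hπ hE,
        x - alpha K M' q z = algebraMap ↥(AK A K) ↥(FK (M' * q) K) π * c := by
    intro x hx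
    obtain ⟨z, hz, c, hc, h⟩ := hc1' x hx
    exact ⟨z, (mem_OvE_iff (AK A K) hirr (FK M' K) L0'.hEM z).mpr hz, c, hc, h⟩
  have hc2 : ∀ x ∈ O2 M' q hπ hE, ∃ z ∈ OvE (AK A K) hirr (FK M' K) L0'.hEM,
      ∃ c ∈ O2 M' q hπ hE,
        x - beta K M' q z = algebraMap ↥(AK A K) ↥(FK (M' * q) K) π * c := by
    intro x hx
    obtain ⟨z, hz, c, hc, h⟩ := hc2' x hx
    exact ⟨z, (mem_OvE_iff (AK A K) hirr (FK M' K) L0'.hEM z).mpr hz, c, hc, h⟩
  -- (K) at the single elements `tM`, `tM⁻¹`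
  obtain ⟨ψ, hψO, hψ⟩ := hF
  have hb0 : ((Fermat.Agent.ES.N34.FrickeFK8.frickeFK M' K (tM ht) : FK M' K) : LaurentSeries ↥K) ∈
      gaussRing (AK A K) := (hiso (tM ht)).mp L0'.htM
  have hb1 : ((Fermat.Agent.ES.N34.FrickeFK8.frickeFK M' K (tM ht)⁻¹ : FK M' K) :
      LaurentSeries ↥K) ∈ gaussRing (AK A K) := (hiso (tM ht)⁻¹).mp L1'.htM
  have k0 := Fermat.Agent.ES.N34.KronChart15.hK0 M' q hπ hE ψ hψO hψ ht hb0
  have k1 := Fermat.Agent.ES.N34.KronChart15.hK1 M' q hπ hE ψ hψO hψ ht hb1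
  -- Gauss pull-backs
  have hO1 := Fermat.Agent.ES.N34.ModelGlue22.isGaussPullback_O1 (A := A) (K := K) M' q hπ hE
  have hO2 := Fermat.Agent.ES.N34.ModelGlue22.isGaussPullback_O2 (A := A) (K := K) M' q hπ hE
  refine ⟨?_, ?_, ?_, ?_⟩
  · exact comp01 hirr L0'.hEM (tM ht) L0'.htM L0'.htrM L0'.hn'
      hd0 hi0 L0'.hsm (alpha K M' q) hO1 glue.le_O1_0 haO hc1
  · exact comp02 hirr L0'.hEM (tM ht) L0'.htM L0'.htrM L0'.hn'
      hd0 hi0 L0'.hsm (alpha K M' q) (beta K M' q) hO2 glue.le_O2_0 hbO hy0 k0 hc2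
  · exact comp11 hirr L0'.hEM (tM ht) L1'.htM L1'.htrM L1'.hn'
      hd1 hi1 L1'.hsm (alpha K M' q) hO1 glue.le_O1_1 haO hc1
  · exact comp12 hirr L0'.hEM (tM ht) L1'.htM L1'.htrM L1'.hn'
      hd1 hi1 L1'.hsm (alpha K M' q) (beta K M' q) hO2 glue.le_O2_1 hbO hy1 k1 hc2

set_option maxHeartbeats 4000000 in
/-- **(C) surjectivity ×4 at one `K`** with a Frobenius inverse (twin of
`SurjModel15.surjItems_at`). -/
theorem surjItems_at (hq : q.Prime) (hqM : ¬ q ∣ M') (hA : A.LiesOverPrime q)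
    [FiniteDimensional ℚ K] (hF : FrobInvAt A K q)
    (hL : LevelItems n e M' A K) (hG : GlueItems n e q M' A K) (hS2 : ModEqItems n e q M' A K)
    (hC : HcombItems n e q M' A K) : SurjItems n e q M' A K := by
  intro ht hE π hπ
  have hdvr : IsDiscreteValuationRing ↥(AK A K) :=
    Fermat.Agent.RED.DESC.NumberFieldDVR27.isDiscreteValuationRing_AK A K hq.ne_zero hA
  have hirr : Irreducible π := (IsDiscreteValuationRing.irreducible_iff_uniformizer π).mpr hπ.max_eq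
  have : Fact q.Prime := ⟨hq⟩
  have : CharP (Res (AK A K)) q :=
    Fermat.Agent.RED.DESC.NumberFieldDVR27.charP_residueField_AK A K hq hA
  obtain ⟨_, _, hLM⟩ := hL
  obtain ⟨L0, L1⟩ := hLM π hirr
  have L0' : LevelM (AK A K) (FK M' K) π (tM ht) := L0
  have L1' : LevelM (AK A K) (FK M' K) π (tM ht)⁻¹ := L1
  obtain ⟨n0, hd0, hi0⟩ := L0'.deg_irr
  obtain ⟨n1, hd1, hi1⟩ := L1'.deg_irr
  have glue := hG ht hE π hπ
  obtain ⟨hy0, hy1⟩ := hS2 ht
  -- the isometry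
  have hiso : ∀ x : FK M' K, (x : LaurentSeries ↥K) ∈ gaussRing (AK A K) ↔
      ((Fermat.Agent.ES.N34.FrickeFK8.frickeFK M' K x : FK M' K) : LaurentSeries ↥K) ∈
        gaussRing (AK A K) :=
    fun x => Fermat.Agent.ES.N34.IsoM25.isoM A K M' q hirr hqM x
  -- `hφO`
  have haO : ∀ z : ↥(FK M' K), alpha K M' q z ∈ O1 M' q hπ hE ↔
      z ∈ OvE (AK A K) hirr (FK M' K) L0'.hEM := fun z =>
    (Fermat.Agent.ES.N34.BranchInt5.alpha_mem_O1_iff M' q hπ hE z).trans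
      (mem_OvE_iff (AK A K) hirr (FK M' K) L0'.hEM z).symm
  have hbO : ∀ z : ↥(FK M' K), beta K M' q z ∈ O2 M' q hπ hE ↔
      z ∈ OvE (AK A K) hirr (FK M' K) L0'.hEM := fun z =>
    (Fermat.Agent.ES.N34.BranchInt5.beta_mem_O2_iff M' q hπ hE hiso z).trans
      (mem_OvE_iff (AK A K) hirr (FK M' K) L0'.hEM z).symm
  -- `hcomb`
  have hc1' := hC ht hE π hπ
  have hc2' := Fermat.Agent.ES.N34.CombW5.hcomb_O2_of_O1 M' q hπ hE hiso hc1'
  have hc1 : ∀ x ∈ O1 M' q hπ hE, ∃ z ∈ OvE (AK A K) hirr (FK M' K) L0'.hEM,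
      ∃ c ∈ O1 M' q hπ hE,
        x - alpha K M' q z = algebraMap ↥(AK A K) ↥(FK (M' * q) K) π * c := by
    intro x hx
    obtain ⟨z, hz, c, hc, h⟩ := hc1' x hx
    exact ⟨z, (mem_OvE_iff (AK A K) hirr (FK M' K) L0'.hEM z).mpr hz, c, hc, h⟩
  have hc2 : ∀ x ∈ O2 M' q hπ hE, ∃ z ∈ OvE (AK A K) hirr (FK M' K) L0'.hEM,
      ∃ c ∈ O2 M' q hπ hE,
        x - beta K M' q z = algebraMap ↥(AK A K) ↥(FK (M' * q) K) π * c := by
    intro x hx
    obtain ⟨z, hz, c, hc, h⟩ := hc2' x hx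
    exact ⟨z, (mem_OvE_iff (AK A K) hirr (FK M' K) L0'.hEM z).mpr hz, c, hc, h⟩
  -- (K) at the single elements `tM`, `tM⁻¹`
  obtain ⟨ψ, hψO, hψ⟩ := hF
  have hb0 : ((Fermat.Agent.ES.N34.FrickeFK8.frickeFK M' K (tM ht) : FK M' K) : LaurentSeries ↥K) ∈
      gaussRing (AK A K) := (hiso (tM ht)).mp L0'.htM
  have hb1 : ((Fermat.Agent.ES.N34.FrickeFK8.frickeFK M' K (tM ht)⁻¹ : FK M' K) :
      LaurentSeries ↥K) ∈ gaussRing (AK A K) := (hiso (tM ht)⁻¹).mp L1'.htM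
  have k0 := Fermat.Agent.ES.N34.KronChart15.hK0 M' q hπ hE ψ hψO hψ ht hb0
  have k1 := Fermat.Agent.ES.N34.KronChart15.hK1 M' q hπ hE ψ hψO hψ ht hb1
  -- Gauss pull-backs
  have hO1 := Fermat.Agent.ES.N34.ModelGlue22.isGaussPullback_O1 (A := A) (K := K) M' q hπ hE
  have hO2 := Fermat.Agent.ES.N34.ModelGlue22.isGaussPullback_O2 (A := A) (K := K) M' q hπ hE
  have hinv : alpha K M' q (tM ht)⁻¹ = (tN q ht)⁻¹ := by rw [map_inv₀]; rfl
  refine ⟨?_, ?_, ?_, ?_⟩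
  · exact surj_gauss hirr L0'.hEM (tM ht) L0'.htM L0'.htrM L0'.hn' hd0 hi0 L0'.hsm
      (alpha K M' q) (tN q ht) hO1 glue.le_O1_0 haO (self_mem_chart _)
      ⟨⟨tM ht, self_mem_chart _⟩, 0, (O1 M' q hπ hE).zero_mem, by
        show tN q ht - alpha K M' q (tM ht) = _
        rw [tN, sub_self, mul_zero]⟩ hc1
  · exact surj_gauss hirr L0'.hEM (tM ht) L0'.htM L0'.htrM L0'.hn' hd0 hi0 L0'.hsm
      (beta K M' q) (tN q ht) hO2 glue.le_O2_0 hbO hy0 k0 hc2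
  · exact surj_gauss hirr L0'.hEM (tM ht)⁻¹ L1'.htM L1'.htrM L1'.hn' hd1 hi1 L1'.hsm
      (alpha K M' q) (tN q ht)⁻¹ hO1 glue.le_O1_1 haO
      (by rw [hinv]; exact self_mem_chart _)
      ⟨⟨(tM ht)⁻¹, self_mem_chart _⟩, 0, (O1 M' q hπ hE).zero_mem, by
        show (tN q ht)⁻¹ - alpha K M' q (tM ht)⁻¹ = _
        rw [hinv, sub_self, mul_zero]⟩ hc1
  · exact surj_gauss hirr L0'.hEM (tM ht)⁻¹ L1'.htM L1'.htrM L1'.hn' hd1 hi1 L1'.hsm
      (beta K M' q) (tN q ht)⁻¹ hO2 glue.le_O2_1 hbO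
      (by rw [map_inv₀]; exact hy1) k1 hc2

/-- **All level-`M' q` items of Programs N and O at one `K`.** -/
theorem levelO_at (hb : Fermat.Agent.RED.BASE.Hauptmodul12.BaseHyp n e) (hnM : n ∣ M')
    (hq : q.Prime) (hqn : ¬ q ∣ n) (hqM : ¬ q ∣ M') (hA : A.LiesOverPrime q)
    (cv : SL(2, ℤ) → Option Kbar)
    (hcv : Fermat.Agent.RED.BASE.MainCusp12.CuspExports n e M' cv)
    [FiniteDimensional ℚ K] (hζ : zetaK M' ∈ K) (hF : FrobInvAt A K q) :
    AllItems n e q M' A K ∧ CompItems n e q M' A K ∧ SurjItems n e q M' A K ∧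
      IntNodeItems n e q M' A K ∧ StrongItems n e q M' A K ∧ GlueNodeItems n e q M' A K := by
  have hall : AllItems n e q M' A K := items_at hb hnM hq hqn hqM hA cv hcv hζ hF
  obtain ⟨h1, h2, h3, h4, h5⟩ := hall
  have hB := Fermat.Agent.RED.BASE.Main12.baseExports hb M' hnM
  have hL := Fermat.Agent.ES.P36.LevelMAt4.levelItems_at (A := A) hb hnM hq hqM hA cv hcv hζ
  have hC := hcombItems_at (A := A) (K := K) (M' := M') hq hqM hA hB.genBase
  have hcomp : CompItems n e q M' A K := compItems_at hq hqM hA hF hL h2 h3 hC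
  have hsurj : SurjItems n e q M' A K := surjItems_at hq hqM hA hF hL h2 h3 hC
  exact ⟨⟨h1, h2, h3, h4, h5⟩, hcomp, hsurj, intNodeItems_at K h2 hcomp,
    strongItems_of_items hq.two_le ⟨h1, h2, h3, h4, h5⟩,
    glueNodeItems_of_items hq.two_le ⟨h1, h2, h3, h4, h5⟩⟩

/-- `q` odd, `4 ∣ M'`, Hauptmodul `tq · 4 8`. -/
theorem levelO_four_at (hq : q.Prime) (hq2 : q ≠ 2) (hqM : ¬ q ∣ M') (hM : 4 ∣ M')
    (hA : A.LiesOverPrime q) [FiniteDimensional ℚ K] (hζ : zetaK M' ∈ K)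
    (hF : FrobInvAt A K q) :
    AllItems 4 8 q M' A K ∧ CompItems 4 8 q M' A K ∧ SurjItems 4 8 q M' A K ∧
      IntNodeItems 4 8 q M' A K ∧ StrongItems 4 8 q M' A K ∧ GlueNodeItems 4 8 q M' A K := by
  have hqn : ¬ q ∣ 4 := by
    intro h
    have h' : q ∣ 2 := hq.dvd_of_dvd_pow (show q ∣ 2 ^ 2 by simpa using h)
    exact hq2 ((Nat.prime_dvd_prime_iff_eq hq Nat.prime_two).1 h')
  exact levelO_at Fermat.Agent.RED.BASE.Hauptmodul12.baseHyp_four hM hq hqn hqM hA _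
    (Fermat.Agent.RED.BASE.MainCusp12.base_four M' hM).2 hζ hF

/-- `q = 2`, `9 ∣ M'`, Hauptmodul `tq · 9 3`. -/
theorem levelO_nine_at [NeZero 2] (hqM : ¬ 2 ∣ M') (hM : 9 ∣ M')
    (hA : A.LiesOverPrime 2) [FiniteDimensional ℚ K] (hζ : zetaK M' ∈ K)
    (hF : FrobInvAt A K 2) :
    AllItems 9 3 2 M' A K ∧ CompItems 9 3 2 M' A K ∧ SurjItems 9 3 2 M' A K ∧
      IntNodeItems 9 3 2 M' A K ∧ StrongItems 9 3 2 M' A K ∧ GlueNodeItems 9 3 2 M' A K :=
  levelO_at Fermat.Agent.RED.BASE.Hauptmodul12.baseHyp_nine hM Nat.prime_two (by decide) hqM hA _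
    (Fermat.Agent.RED.BASE.MainCusp12.base_nine M' hM).2 hζ hF

end Fermat.Agent.ES.P36.ModelOAt4
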