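/-
Program P scouting (S36), brick (D0) of helper2's "regularity by discriminants" (helper5): the LOCAL
case of the discriminant lemma, pure algebra (Mathlib only).

`W` a discrete valuation ring with uniformiser `π`, `B` a LOCAL `W`-algebra, free of rank `n` as a
`W`-module, with the same residue field as `W`.  Then
* `pow_pred_dvd_discr` : `π ^ (n - 1) ∣ disc (B / W)` always;
* `isDiscreteValuationRing_of_discr` : if `π ^ n ∤ disc (B / W)` then `B` is a discrete valuation ring
  (`exists_generator` : its maximal ideal is generated by a divisor of `π`).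

Use: `W = R0 / (T)`, `B = B1_{x₁} / (T)` at a crossing point `x₁` of `X0(q M')` over an unramified base:
`n = q + 1` and `v_π(disc) ≤ q`, so `B1_{x₁} / (T)` is a DVR and `B1_{x₁}` is regular.

Proof (no integral closures, no lengths, no Smith normal form): in a spanning family `v` adapted to
`𝔪_B` (`v i₀ = 1`, all other `v i ∈ 𝔪_B`) every entry of the Gram matrix `Tr (v_i v_j)` except the
corner is divisible by `π` (the trace of an element which is nilpotent mod `π` lies in `(π)`).  If some
`β ∈ 𝔪_B ∖ πB` had `Tr (β y) ∈ (π²)` for all `y ∈ 𝔪_B`, Cramer's rule (replace a row by the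
`β`-combination) and a weight count over the permutations would give `π ^ n ∣ disc`.  So the form
`Tr (x y) / π` on `𝔪_B / πB` is non-degenerate.  Taking `β` in the last power of `𝔪_B` not contained in
`πB` one gets `y ∈ 𝔪_B` with `β y = π · unit`, hence `𝔪_B = (y)`.  A noetherian local ring whose maximal
ideal is generated by a non-zero-divisor is a domain (Krull's intersection theorem) and a DVR.
-/
import Mathlib

set_option autoImplicit false
set_option linter.unusedSectionVars false

namespace Fermat.Agent.ES.P36.DiscReg5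

open Module IsLocalRing
open scoped Matrix

section Mat

variable {R : Type*} [CommRing R] {n : Type*} [Fintype n] [DecidableEq n]

/-- Weight count: row `i₀` is divisible by `p` off the column `i₀`, row `i ≠ i₀` is divisible by
`p` in the column `i₀` and by `p ^ 2` elsewhere, all other rows are divisible by `p`: then
`p ^ card n` divides the determinant. -/
theorem pow_card_dvd_det (p : R) (A : Matrix n n R) {i₀ i : n} (hne : i ≠ i₀)
    (h0 : ∀ j, j ≠ i₀ → p ∣ A i₀ j)
    (hi0 : p ∣ A i i₀) (hi : ∀ j, j ≠ i₀ → p ^ 2 ∣ A i j)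
    (hrest : ∀ a, a ≠ i₀ → a ≠ i → ∀ j, p ∣ A a j) :
    p ^ Fintype.card n ∣ A.det := by
  rw [← Matrix.det_transpose, Matrix.det_apply']
  refine Finset.dvd_sum fun σ _ => Dvd.dvd.mul_left ?_ _
  simp only [Matrix.transpose_apply]
  -- split off the rows `i₀` and `i`
  have hi_mem : i ∈ (Finset.univ : Finset n).erase i₀ := Finset.mem_erase.mpr ⟨hne, Finset.mem_univ _⟩
  rw [← Finset.mul_prod_erase Finset.univ (fun l => A l (σ l)) (Finset.mem_univ i₀),
    ← Finset.mul_prod_erase _ (fun l => A l (σ l)) hi_mem, ← mul_assoc]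
  have hcard : Fintype.card n = 2 + (((Finset.univ : Finset n).erase i₀).erase i).card := by
    rw [Finset.card_erase_of_mem hi_mem, Finset.card_erase_of_mem (Finset.mem_univ _),
      Finset.card_univ]
    have : 2 ≤ Fintype.card n := by
      rw [← Finset.card_univ]
      calc 2 = ({i, i₀} : Finset n).card := (Finset.card_pair hne).symm
        _ ≤ Finset.univ.card := Finset.card_le_card (Finset.subset_univ _)
    omega
  rw [hcard, pow_add]
  refine mul_dvd_mul ?_ ?_
  · by_cases hσ : σ i₀ = i₀
    · have : σ i ≠ i₀ := fun h => hne (σ.injective (h.trans hσ.symm))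
      exact Dvd.dvd.mul_left (hi _ this) _
    · rw [pow_two]
      refine mul_dvd_mul (h0 _ hσ) ?_
      by_cases hσi : σ i = i₀
      · rw [hσi]; exact hi0
      · exact dvd_trans (dvd_pow_self p two_ne_zero) (hi _ hσi)
  · rw [← Finset.prod_const]
    refine Finset.prod_dvd_prod_of_dvd _ _ fun a ha => ?_
    have ha1 : a ≠ i := (Finset.mem_erase.mp ha).1
    have ha0 : a ≠ i₀ := (Finset.mem_erase.mp (Finset.mem_erase.mp ha).2).1
    exact hrest a ha0 ha1 _

/-- All rows except `i₀` divisible by `p`: `p ^ (card n - 1)` divides the determinant. -/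
theorem pow_pred_card_dvd_det (p : R) (A : Matrix n n R) (i₀ : n)
    (hrest : ∀ a, a ≠ i₀ → ∀ j, p ∣ A a j) :
    p ^ (Fintype.card n - 1) ∣ A.det := by
  rw [← Matrix.det_transpose, Matrix.det_apply']
  refine Finset.dvd_sum fun σ _ => Dvd.dvd.mul_left ?_ _
  simp only [Matrix.transpose_apply]
  rw [← Finset.mul_prod_erase Finset.univ (fun l => A l (σ l)) (Finset.mem_univ i₀)]
  refine Dvd.dvd.mul_left ?_ _
  have hcard : Fintype.card n - 1 = ((Finset.univ : Finset n).erase i₀).card := by
    rw [Finset.card_erase_of_mem (Finset.mem_univ _), Finset.card_univ]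
  rw [hcard, ← Finset.prod_const]
  exact Finset.prod_dvd_prod_of_dvd _ _ fun a ha => hrest a (Finset.mem_erase.mp ha).1 _

end Mat

section Trace

variable {W : Type*} [CommRing W] {B : Type*} [CommRing B] [Algebra W B]
  {ι : Type*} [Fintype ι] [DecidableEq ι]

/-- An element which is nilpotent modulo `p` has trace in `(p)` (`(p)` prime). -/
theorem trace_mem_of_pow_mem (b : Basis ι W B) {p : W} (hp : (Ideal.span {p}).IsPrime)
    {x : B} {N : ℕ} (hx : x ^ N ∈ Ideal.span {algebraMap W B p}) :
    Algebra.trace W B x ∈ Ideal.span {p} := by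
  obtain ⟨c, hc⟩ := Ideal.mem_span_singleton'.mp hx
  rw [Algebra.trace_eq_matrix_trace b]
  set X := Algebra.leftMulMatrix b x with hX
  have hXN : X ^ N = p • Algebra.leftMulMatrix b c := by
    rw [hX, ← map_pow, ← hc, mul_comm, ← Algebra.smul_def, map_smul]
  set f := Ideal.Quotient.mk (Ideal.span {p}) with hf
  have hnil : IsNilpotent (f.mapMatrix X) := by
    refine ⟨N, ?_⟩
    rw [← map_pow, hXN]
    ext i j
    simp only [RingHom.mapMatrix_apply, Matrix.map_apply, Matrix.smul_apply, smul_eq_mul,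
      Matrix.zero_apply, map_mul]
    have : f p = 0 := Ideal.Quotient.eq_zero_iff_mem.mpr (Ideal.mem_span_singleton_self p)
    rw [this, zero_mul]
  have h1 := Matrix.isNilpotent_trace_of_isNilpotent hnil
  have h2 : (f.mapMatrix X).trace = f X.trace := by
    simp [Matrix.trace, RingHom.mapMatrix_apply, map_sum]
  rw [h2] at h1
  have : IsDomain (W ⧸ Ideal.span {p}) := Ideal.Quotient.isDomain _
  exact Ideal.Quotient.eq_zero_iff_mem.mp h1.eq_zero

end Trace

section Local

variable {W : Type*} [CommRing W] [IsDomain W] [IsDiscreteValuationRing W]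
  {B : Type*} [CommRing B] [Algebra W B] [Module.Free W B] [Module.Finite W B] [IsLocalRing B]
  {π : W}

/-- `π ∈ 𝔪_B`. -/
theorem algebraMap_pi_mem (hπ : Irreducible π) : algebraMap W B π ∈ maximalIdeal B := by
  by_contra h
  have hu : IsUnit (algebraMap W B π) := by
    by_contra h'
    exact h ((mem_maximalIdeal _).mpr h')
  obtain ⟨u, hu⟩ := hu
  have h1 : (⊤ : Submodule W B) ≤ Ideal.span {π} • (⊤ : Submodule W B) := by
    intro x _
    have : x = π • ((↑u⁻¹ : B) * x) := by
      rw [Algebra.smul_def, ← mul_assoc, ← hu, Units.mul_inv, one_mul]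
    rw [this]
    exact Submodule.smul_mem_smul (Ideal.mem_span_singleton_self π) Submodule.mem_top
  have h2 : Ideal.span {π} ≤ Ideal.jacobson (⊥ : Ideal W) := by
    rw [← hπ.maximalIdeal_eq]
    exact maximalIdeal_le_jacobson _
  have h3 := Submodule.eq_bot_of_le_smul_of_le_jacobson_bot (Ideal.span {π}) (⊤ : Submodule W B)
    Module.Finite.fg_top h1 h2
  have : (1 : B) ∈ (⊥ : Submodule W B) := h3 ▸ Submodule.mem_top
  exact one_ne_zero ((Submodule.mem_bot W).mp this)

/-- the trace of an element of `𝔪_B` lies in `(π)`. -/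
theorem trace_mem_of_mem_maximalIdeal (hπ : Irreducible π) {ι : Type*} [Fintype ι] [DecidableEq ι]
    (b : Basis ι W B) {x : B} (hx : x ∈ maximalIdeal B) :
    Algebra.trace W B x ∈ Ideal.span {π} := by
  have hprime : (Ideal.span {π}).IsPrime := by
    rw [← hπ.maximalIdeal_eq]; exact (maximalIdeal.isMaximal W).isPrime
  have hint : Algebra.IsIntegral W B := Algebra.IsIntegral.of_finite W B
  have hrad : maximalIdeal B ≤ (Ideal.span {algebraMap W B π}).radical := by
    rw [Ideal.radical_eq_sInf]
    refine le_sInf fun J hJ => ?_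
    obtain ⟨hJ1, hJ2⟩ := hJ
    have hmax : (J.comap (algebraMap W B)).IsMaximal := by
      have hle : maximalIdeal W ≤ J.comap (algebraMap W B) := by
        rw [hπ.maximalIdeal_eq, Ideal.span_le, Set.singleton_subset_iff]
        exact hJ1 (Ideal.mem_span_singleton_self _)
      have hne : J.comap (algebraMap W B) ≠ ⊤ := (Ideal.IsPrime.comap (algebraMap W B)).ne_top
      rw [← (maximalIdeal.isMaximal W).eq_of_le hne hle]
      exact maximalIdeal.isMaximal W
    have := Ideal.isMaximal_of_isIntegral_of_isMaximal_comap J hmax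
    rw [eq_maximalIdeal this]
  have hx' := hrad hx
  obtain ⟨N, hN⟩ := hx'
  exact trace_mem_of_pow_mem b hprime hN

end Local

section Adapted

variable {W : Type*} [CommRing W] [IsDomain W] [IsDiscreteValuationRing W]
  {B : Type*} [CommRing B] [Algebra W B] [Module.Free W B] [Module.Finite W B] [IsLocalRing B]
  {π : W} {ι : Type*} [Fintype ι] [DecidableEq ι]

omit [Module.Free W B] [Module.Finite W B] in
/-- elements of `W` which land in `𝔪_B` are multiples of `π`. -/
theorem mem_span_of_algebraMap_mem (hπ : Irreducible π) {x : W}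
    (hx : algebraMap W B x ∈ maximalIdeal B) : x ∈ Ideal.span {π} := by
  rw [← hπ.maximalIdeal_eq]
  by_contra h
  have hu : IsUnit x := by
    by_contra h'
    exact h ((mem_maximalIdeal _).mpr h')
  exact (mem_maximalIdeal _).mp hx (hu.map (algebraMap W B))

/-- **Adapted spanning family**: `v i₀ = 1`, all other `v i ∈ 𝔪_B`, same discriminant up to a
square. -/
theorem exists_adapted (hπ : Irreducible π)
    (hres : ∀ x : B, ∃ w : W, x - algebraMap W B w ∈ maximalIdeal B)
    (b : Basis ι W B) (k : ℕ) (hdisc : ¬ π ^ k ∣ Algebra.discr W b) :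
    ∃ (v : ι → B) (i₀ : ι), v i₀ = 1 ∧ (∀ i, i ≠ i₀ → v i ∈ maximalIdeal B) ∧
      Submodule.span W (Set.range v) = ⊤ ∧ ¬ π ^ k ∣ Algebra.discr W v := by
  classical
  -- a coordinate of `1` which is a unit
  obtain ⟨c, hc1⟩ : ∃ c : ι → W, ∑ j, c j • b j = 1 := ⟨fun j => b.repr 1 j, b.sum_repr 1⟩
  have h1 : ∃ i₀, IsUnit (c i₀) := by
    by_contra hno
    have hall : ∀ i, c i ∈ Ideal.span {π} := fun i => by
      rw [← hπ.maximalIdeal_eq]
      exact (mem_maximalIdeal _).mpr fun hu => hno ⟨i, hu⟩
    have h1mem : (1 : B) ∈ maximalIdeal B := by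
      rw [← hc1]
      refine Ideal.sum_mem _ fun i _ => ?_
      obtain ⟨d, hd⟩ := Ideal.mem_span_singleton'.mp (hall i)
      rw [← hd, mul_comm, mul_smul, Algebra.smul_def]
      exact Ideal.mul_mem_right _ _ (algebraMap_pi_mem hπ)
    exact (mem_maximalIdeal _).mp h1mem isUnit_one
  obtain ⟨i₀, hi₀⟩ := h1
  choose w hw using hres
  set v : ι → B := fun i => if i = i₀ then 1 else b i - algebraMap W B (w (b i)) with hv
  have hv0 : v i₀ = 1 := by simp [hv]
  have hvi : ∀ i, i ≠ i₀ → v i = b i - algebraMap W B (w (b i)) := fun i hi => by simp [hv, hi]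
  -- `v` spans
  have hspan : Submodule.span W (Set.range v) = ⊤ := by
    rw [eq_top_iff, ← b.span_eq, Submodule.span_le]
    have hone : (1 : B) ∈ Submodule.span W (Set.range v) :=
      hv0 ▸ Submodule.subset_span (Set.mem_range_self i₀)
    have hconst : ∀ c : W, algebraMap W B c ∈ Submodule.span W (Set.range v) := fun c => by
      rw [Algebra.algebraMap_eq_smul_one]; exact Submodule.smul_mem _ _ hone
    have hbi : ∀ i, i ≠ i₀ → b i ∈ Submodule.span W (Set.range v) := fun i hi => by
      have : b i = v i + algebraMap W B (w (b i)) := by rw [hvi i hi]; ring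
      rw [this]
      exact Submodule.add_mem _ (Submodule.subset_span (Set.mem_range_self i)) (hconst _)
    rintro _ ⟨i, rfl⟩
    by_cases hi : i = i₀
    · subst hi
      -- `b i₀ = u⁻¹ • (1 - ∑_{j ≠ i₀} c_j • b j)`
      obtain ⟨u, hu⟩ := hi₀
      have hsum : c i • b i + ∑ j ∈ Finset.univ.erase i, c j • b j = 1 := by
        rw [Finset.add_sum_erase _ (fun j => c j • b j) (Finset.mem_univ i)]
        exact hc1
      have hsub : (1 : B) - ∑ j ∈ Finset.univ.erase i, c j • b j = c i • b i := by
        rw [← hsum, add_sub_cancel_right]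
      have : b i = (↑u⁻¹ : W) • ((1 : B) - ∑ j ∈ Finset.univ.erase i, c j • b j) := by
        rw [hsub, ← hu, smul_smul, Units.inv_mul, one_smul]
      show b i ∈ Submodule.span W (Set.range v)
      rw [this]
      refine Submodule.smul_mem _ _ (Submodule.sub_mem _ hone (Submodule.sum_mem _ fun j hj => ?_))
      exact Submodule.smul_mem _ _ (hbi j (Finset.mem_erase.mp hj).1)
    · exact hbi i hi
  refine ⟨v, i₀, hv0, fun i hi => ?_, hspan, ?_⟩
  · rw [hvi i hi]; exact hw (b i)
  · -- `b = P *ᵥ v`
    have hex : ∀ i, ∃ f : ι → W, ∑ j, f j • v j = b i := fun i =>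
      (Submodule.mem_span_range_iff_exists_fun W).mp (hspan ▸ Submodule.mem_top)
    choose P hP using hex
    have hb : (b : ι → B) = (Matrix.of P).map (algebraMap W B) *ᵥ v := by
      funext i
      simp only [Matrix.mulVec, dotProduct, Matrix.map_apply, Matrix.of_apply]
      rw [← hP i]
      exact Finset.sum_congr rfl fun j _ => Algebra.smul_def _ _
    intro hdvd
    apply hdisc
    rw [hb, Algebra.discr_of_matrix_mulVec]
    exact Dvd.dvd.mul_left hdvd _

end Adapted

section Nondeg

variable {W : Type*} [CommRing W] [IsDomain W] [IsDiscreteValuationRing W]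
  {B : Type*} [CommRing B] [Algebra W B] [Module.Free W B] [Module.Finite W B] [IsLocalRing B]
  {π : W} {ι : Type*} [Fintype ι] [DecidableEq ι]

/-- **Nondegeneracy of `Tr(xy)/π` on `𝔪_B/πB`** when `π ^ n ∤ disc`: every `β ∈ 𝔪_B ∖ πB` pairs
with some `y ∈ 𝔪_B` to a trace outside `(π ^ 2)`. -/
theorem exists_trace_not_mem (hπ : Irreducible π) (b : Basis ι W B)
    (v : ι → B) (i₀ : ι) (hv0 : v i₀ = 1) (hvi : ∀ i, i ≠ i₀ → v i ∈ maximalIdeal B)
    (hspan : Submodule.span W (Set.range v) = ⊤)
    (hdisc : ¬ π ^ Fintype.card ι ∣ Algebra.discr W v)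
    {β : B} (hβ : β ∈ maximalIdeal B) (hβπ : β ∉ Ideal.span {algebraMap W B π}) :
    ∃ y ∈ maximalIdeal B, Algebra.trace W B (β * y) ∉ Ideal.span {π ^ 2} := by
  by_contra hno
  have hall : ∀ y ∈ maximalIdeal B, Algebra.trace W B (β * y) ∈ Ideal.span {π ^ 2} := by
    intro y hy
    by_contra h
    exact hno ⟨y, hy, h⟩
  apply hdisc
  -- coordinates of `β`
  obtain ⟨f, hf⟩ : ∃ f : ι → W, ∑ j, f j • v j = β :=
    (Submodule.mem_span_range_iff_exists_fun W).mp (hspan ▸ Submodule.mem_top)
  have htr : ∀ {x : B}, x ∈ maximalIdeal B → π ∣ Algebra.trace W B x := fun hx =>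
    Ideal.mem_span_singleton.mp (trace_mem_of_mem_maximalIdeal hπ b hx)
  -- the coordinate at `i₀` is a multiple of `π`
  have hsplit : f i₀ • v i₀ + ∑ j ∈ Finset.univ.erase i₀, f j • v j = β := by
    rw [Finset.add_sum_erase _ (fun j => f j • v j) (Finset.mem_univ i₀)]; exact hf
  have hrest_mem : ∑ j ∈ Finset.univ.erase i₀, f j • v j ∈ maximalIdeal B :=
    Ideal.sum_mem _ fun j hj => by
      rw [Algebra.smul_def]
      exact Ideal.mul_mem_left _ _ (hvi j (Finset.mem_erase.mp hj).1)
  -- some other coordinate is a unit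
  have hunit : ∃ i, i ≠ i₀ ∧ IsUnit (f i) := by
    by_contra hno'
    have hallπ : ∀ j, j ≠ i₀ → f j ∈ Ideal.span {π} := fun j hj => by
      rw [← hπ.maximalIdeal_eq]
      exact (mem_maximalIdeal _).mpr fun hu => hno' ⟨j, hj, hu⟩
    have h0 : f i₀ ∈ Ideal.span {π} := by
      apply mem_span_of_algebraMap_mem (B := B) hπ
      have : algebraMap W B (f i₀) = β - ∑ j ∈ Finset.univ.erase i₀, f j • v j := by
        rw [← hsplit, hv0, add_sub_cancel_right, Algebra.algebraMap_eq_smul_one]
      rw [this]
      exact Ideal.sub_mem _ hβ hrest_mem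
    apply hβπ
    rw [← hf]
    refine Ideal.sum_mem _ fun j _ => ?_
    have hj : f j ∈ Ideal.span {π} := by
      by_cases h : j = i₀
      · rw [h]; exact h0
      · exact hallπ j h
    obtain ⟨d, hd⟩ := Ideal.mem_span_singleton'.mp hj
    rw [← hd, mul_comm, mul_smul, Algebra.smul_def]
    exact Ideal.mul_mem_right _ _ (Ideal.mem_span_singleton_self _)
  obtain ⟨i, hi, hfi⟩ := hunit
  -- Cramer
  set M := Algebra.traceMatrix W v with hM
  have hrow : ∀ j, (∑ l, f l • M l) j = Algebra.trace W B (β * v j) := by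
    intro j
    rw [Finset.sum_apply, ← hf, Finset.sum_mul, map_sum]
    refine Finset.sum_congr rfl fun l _ => ?_
    rw [Pi.smul_apply, hM, Algebra.traceMatrix_apply, Algebra.traceForm_apply, smul_mul_assoc,
      map_smul]
  have hdet := Matrix.det_updateRow_sum M i f
  have hdvd : π ^ Fintype.card ι ∣ (M.updateRow i (∑ l, f l • M l)).det := by
    refine pow_card_dvd_det π _ hi ?_ ?_ ?_ ?_
    · intro j hj
      rw [Matrix.updateRow_ne (Ne.symm hi), hM, Algebra.traceMatrix_apply,
        Algebra.traceForm_apply, hv0, one_mul]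
      exact htr (hvi j hj)
    · rw [Matrix.updateRow_self, hrow, hv0, mul_one]
      exact htr hβ
    · intro j hj
      rw [Matrix.updateRow_self, hrow]
      exact Ideal.mem_span_singleton.mp (hall _ (hvi j hj))
    · intro a ha0 hai j
      rw [Matrix.updateRow_ne hai, hM, Algebra.traceMatrix_apply, Algebra.traceForm_apply]
      exact htr (Ideal.mul_mem_right _ _ (hvi a ha0))
  rw [hdet, smul_eq_mul] at hdvd
  rw [Algebra.discr_def]
  exact (hfi.dvd_mul_left).mp hdvd

end Nondeg

section Main

variable {W : Type*} [CommRing W] [IsDomain W] [IsDiscreteValuationRing W]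
  {B : Type*} [CommRing B] [Algebra W B] [Module.Free W B] [Module.Finite W B] [IsLocalRing B]
  {π : W} {ι : Type*} [Fintype ι] [DecidableEq ι]

/-- `π` is a non-zero-divisor of `B`. -/
theorem algebraMap_pi_mul_cancel (hπ : Irreducible π) {x y : B}
    (h : algebraMap W B π * x = algebraMap W B π * y) : x = y := by
  rw [← Algebra.smul_def, ← Algebra.smul_def] at h
  exact smul_right_injective B hπ.ne_zero h

/-- **(D0), local case, generator form**: the maximal ideal of `B` is generated by a divisor of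
`π`. -/
theorem exists_generator (hπ : Irreducible π)
    (hres : ∀ x : B, ∃ w : W, x - algebraMap W B w ∈ maximalIdeal B)
    (b : Basis ι W B) (hdisc : ¬ π ^ Fintype.card ι ∣ Algebra.discr W b) :
    ∃ z : B, maximalIdeal B = Ideal.span {z} ∧ z ∣ algebraMap W B π := by
  classical
  obtain ⟨v, i₀, hv0, hvi, hspan, hdv⟩ := exists_adapted hπ hres b _ hdisc
  have hint : Algebra.IsIntegral W B := Algebra.IsIntegral.of_finite W B
  have hnoeth : IsNoetherianRing B := IsNoetherianRing.of_finite W B
  have hP : algebraMap W B π ∈ maximalIdeal B := algebraMap_pi_mem hπ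
  -- a power of the maximal ideal lies in `πB`
  have hrad : maximalIdeal B ≤ (Ideal.span {algebraMap W B π}).radical := by
    rw [Ideal.radical_eq_sInf]
    refine le_sInf fun J hJ => ?_
    obtain ⟨hJ1, hJ2⟩ := hJ
    have hmax : (J.comap (algebraMap W B)).IsMaximal := by
      have hle : maximalIdeal W ≤ J.comap (algebraMap W B) := by
        rw [hπ.maximalIdeal_eq, Ideal.span_le, Set.singleton_subset_iff]
        exact hJ1 (Ideal.mem_span_singleton_self _)
      have hne : J.comap (algebraMap W B) ≠ ⊤ := (Ideal.IsPrime.comap (algebraMap W B)).ne_top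
      rw [← (maximalIdeal.isMaximal W).eq_of_le hne hle]
      exact maximalIdeal.isMaximal W
    have := Ideal.isMaximal_of_isIntegral_of_isMaximal_comap J hmax
    rw [eq_maximalIdeal this]
  have hpow : ∃ k, maximalIdeal B ^ k ≤ Ideal.span {algebraMap W B π} :=
    Ideal.exists_pow_le_of_le_radical_of_fg hrad (IsNoetherian.noetherian _)
  set k₀ := Nat.find hpow with hk₀
  have hk₀le : maximalIdeal B ^ k₀ ≤ Ideal.span {algebraMap W B π} := Nat.find_spec hpow
  have hk₀pos : k₀ ≠ 0 := by
    intro h0
    rw [h0, pow_zero, Ideal.one_eq_top, top_le_iff] at hk₀le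
    have : (1 : B) ∈ maximalIdeal B :=
      (Ideal.span_le.mpr (Set.singleton_subset_iff.mpr hP)) (hk₀le ▸ Submodule.mem_top)
    exact (mem_maximalIdeal _).mp this isUnit_one
  by_cases hk1 : k₀ = 1
  · -- unramified: `𝔪 = πB`
    refine ⟨algebraMap W B π, le_antisymm ?_ ?_, dvd_rfl⟩
    · rw [hk1, pow_one] at hk₀le; exact hk₀le
    · exact Ideal.span_le.mpr (Set.singleton_subset_iff.mpr hP)
  -- `k₀ ≥ 2`: pick `β ∈ 𝔪^(k₀-1) ∖ πB`
  have hk2 : 2 ≤ k₀ := by omega
  have hnot : ¬ maximalIdeal B ^ (k₀ - 1) ≤ Ideal.span {algebraMap W B π} :=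
    Nat.find_min hpow (by omega)
  obtain ⟨β, hβ1, hβ2⟩ := SetLike.not_le_iff_exists.mp hnot
  have hβ : β ∈ maximalIdeal B := by
    have h1 : maximalIdeal B ^ (k₀ - 1) ≤ maximalIdeal B := Ideal.pow_le_self (by omega)
    exact h1 hβ1
  have hβmul : ∀ y ∈ maximalIdeal B, β * y ∈ Ideal.span {algebraMap W B π} := by
    intro y hy
    apply hk₀le
    have : k₀ = (k₀ - 1) + 1 := by omega
    rw [this, pow_succ]
    exact Ideal.mul_mem_mul hβ1 hy
  obtain ⟨y, hy, hty⟩ := exists_trace_not_mem hπ b v i₀ hv0 hvi hspan hdv hβ hβ2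
  obtain ⟨c, hc⟩ := Ideal.mem_span_singleton'.mp (hβmul y hy)
  -- `c` is a unit
  have hcu : IsUnit c := by
    by_contra hcn
    have hcm : c ∈ maximalIdeal B := (mem_maximalIdeal _).mpr hcn
    apply hty
    obtain ⟨d, hd⟩ := Ideal.mem_span_singleton'.mp (trace_mem_of_mem_maximalIdeal hπ b hcm)
    rw [← hc, mul_comm, ← Algebra.smul_def, map_smul, ← hd, smul_eq_mul, Ideal.mem_span_singleton,
      pow_two]
    exact ⟨d, by ring⟩
  obtain ⟨u, rfl⟩ := hcu
  refine ⟨y, le_antisymm ?_ (Ideal.span_le.mpr (Set.singleton_subset_iff.mpr hy)), ?_⟩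
  · intro x hx
    obtain ⟨cx, hcx⟩ := Ideal.mem_span_singleton'.mp (hβmul x hx)
    -- `β * x = π cx`, `β * y = π u` ⇒ `x = y * (u⁻¹ cx)`
    have hβy : β * (y * (↑u⁻¹ * cx)) = β * x := by
      rw [← hcx, ← mul_assoc, ← hc]
      have : (↑u : B) * algebraMap W B π * (↑u⁻¹ * cx) = cx * algebraMap W B π := by
        rw [mul_comm (↑u : B), mul_assoc, ← mul_assoc (↑u : B), Units.mul_inv, one_mul, mul_comm]
      exact this
    -- `β` is a non-zero-divisor (it divides `π`)
    have hβdiv : β * (y * ↑u⁻¹) = algebraMap W B π := by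
      rw [← mul_assoc, ← hc, mul_comm (↑u : B), mul_assoc, Units.mul_inv, mul_one]
    have hcancel : y * (↑u⁻¹ * cx) = x := by
      apply algebraMap_pi_mul_cancel (B := B) hπ
      rw [← hβdiv]
      calc β * (y * ↑u⁻¹) * (y * (↑u⁻¹ * cx)) = (y * ↑u⁻¹) * (β * (y * (↑u⁻¹ * cx))) := by ring
        _ = (y * ↑u⁻¹) * (β * x) := by rw [hβy]
        _ = β * (y * ↑u⁻¹) * x := by ring
    rw [← hcancel]
    exact Ideal.mul_mem_right _ _ (Ideal.mem_span_singleton_self y)
  · exact ⟨β * ↑u⁻¹, by
      rw [← mul_assoc, mul_comm y β, ← hc, mul_comm (↑u : B), mul_assoc, Units.mul_inv, mul_one]⟩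

end Main

section DVR

variable {B : Type*} [CommRing B] [IsLocalRing B] [IsNoetherianRing B]

/-- A noetherian local ring whose maximal ideal is generated by a non-zero-divisor is a domain. -/
theorem isDomain_of_generator {z : B} (hz : maximalIdeal B = Ideal.span {z})
    (hreg : ∀ x : B, z * x = 0 → x = 0) : IsDomain B := by
  have hregpow : ∀ (k : ℕ) (x : B), z ^ k * x = 0 → x = 0 := by
    intro k
    induction k with
    | zero => intro x hx; simpa using hx
    | succ k ih =>
      intro x hx
      rw [pow_succ, mul_assoc] at hx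
      exact hreg x (ih _ hx)
  have hpow : ∀ k : ℕ, maximalIdeal B ^ k = Ideal.span {z ^ k} := fun k => by
    rw [hz, Ideal.span_singleton_pow]
  have hkrull : ⨅ k : ℕ, maximalIdeal B ^ k = ⊥ :=
    Ideal.iInf_pow_eq_bot_of_isLocalRing _ (Ideal.IsMaximal.ne_top (maximalIdeal.isMaximal B))
  -- every nonzero element is `z ^ k * unit`
  have hfact : ∀ x : B, x ≠ 0 → ∃ (k : ℕ) (u : B), IsUnit u ∧ x = z ^ k * u := by
    intro x hx
    have hex : ∃ k, x ∉ maximalIdeal B ^ k := by
      by_contra hno
      apply hx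
      have : x ∈ ⨅ k : ℕ, maximalIdeal B ^ k := by
        rw [Ideal.mem_iInf]
        intro k
        by_contra h
        exact hno ⟨k, h⟩
      rw [hkrull] at this
      exact this
    classical
    obtain ⟨k, hkspec, hkmin⟩ : ∃ k, x ∉ maximalIdeal B ^ k ∧ ∀ j < k, x ∈ maximalIdeal B ^ j :=
      ⟨Nat.find hex, Nat.find_spec hex, fun j hj => by
        by_contra h
        exact Nat.find_min hex hj h⟩
    have hk0 : k ≠ 0 := by
      intro h0
      rw [h0, pow_zero, Ideal.one_eq_top] at hkspec
      exact hkspec Submodule.mem_top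
    obtain ⟨j, rfl⟩ := Nat.exists_eq_succ_of_ne_zero hk0
    have hmem : x ∈ maximalIdeal B ^ j := hkmin j (Nat.lt_succ_self j)
    rw [hpow, Ideal.mem_span_singleton'] at hmem
    obtain ⟨u, hu⟩ := hmem
    refine ⟨j, u, ?_, by rw [mul_comm]; exact hu.symm⟩
    by_contra hnu
    have hum : u ∈ maximalIdeal B := (mem_maximalIdeal _).mpr hnu
    rw [hz, Ideal.mem_span_singleton'] at hum
    obtain ⟨a, ha⟩ := hum
    apply hkspec
    rw [hpow, Ideal.mem_span_singleton']
    refine ⟨a, ?_⟩
    rw [Nat.succ_eq_add_one, pow_succ]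
    calc a * (z ^ j * z) = (a * z) * z ^ j := by ring
      _ = x := by rw [ha, hu]
  have hnz : NoZeroDivisors B := by
    refine ⟨fun {x y} hxy => ?_⟩
    by_contra hne
    have hx : x ≠ 0 := fun h => hne (Or.inl h)
    have hy : y ≠ 0 := fun h => hne (Or.inr h)
    obtain ⟨k, u, hu, rfl⟩ := hfact x hx
    obtain ⟨l, u', hu', rfl⟩ := hfact y hy
    have h1 : z ^ (k + l) * (u * u') = 0 := by
      rw [← hxy, pow_add]; ring
    have h2 := hregpow _ _ h1
    exact (hu.mul hu').ne_zero h2
  exact NoZeroDivisors.to_isDomain B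

/-- ... and a discrete valuation ring, unless `z = 0`. -/
theorem isDiscreteValuationRing_of_generator {z : B} (hz : maximalIdeal B = Ideal.span {z})
    (hreg : ∀ x : B, z * x = 0 → x = 0) (hz0 : z ≠ 0) :
    ∃ _ : IsDomain B, IsDiscreteValuationRing B := by
  have hdom := isDomain_of_generator hz hreg
  refine ⟨hdom, ?_⟩
  have hnf : ¬ IsField B := by
    rw [IsLocalRing.isField_iff_maximalIdeal_eq, hz, Ideal.span_singleton_eq_bot]
    exact hz0
  have h04 := (IsDiscreteValuationRing.TFAE B hnf).out 0 4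
  exact h04.mpr ⟨⟨z, hz⟩⟩

end DVR

section Final

variable {W : Type*} [CommRing W] [IsDomain W] [IsDiscreteValuationRing W]
  {B : Type*} [CommRing B] [Algebra W B] [Module.Free W B] [Module.Finite W B] [IsLocalRing B]
  {π : W} {ι : Type*} [Fintype ι] [DecidableEq ι]

/-- **(D0), local case.** `W` a discrete valuation ring with uniformiser `π`, `B` a local
`W`-algebra, free of rank `n` as a `W`-module, with the same residue field; if `π ^ n` does not
divide the discriminant of `B/W` then `B` is a discrete valuation ring. -/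
theorem isDiscreteValuationRing_of_discr (hπ : Irreducible π)
    (hres : ∀ x : B, ∃ w : W, x - algebraMap W B w ∈ maximalIdeal B)
    (b : Basis ι W B) (hdisc : ¬ π ^ Fintype.card ι ∣ Algebra.discr W b) :
    ∃ _ : IsDomain B, IsDiscreteValuationRing B := by
  obtain ⟨z, hz, d, hd⟩ := exists_generator hπ hres b hdisc
  have hnoeth : IsNoetherianRing B := IsNoetherianRing.of_finite W B
  have hreg : ∀ x : B, z * x = 0 → x = 0 := by
    intro x hx
    apply algebraMap_pi_mul_cancel (B := B) hπ
    rw [mul_zero, hd, mul_comm z d, mul_assoc, hx, mul_zero]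
  refine isDiscreteValuationRing_of_generator hz hreg ?_
  rintro rfl
  rw [zero_mul] at hd
  have : algebraMap W B π * 1 = algebraMap W B π * 0 := by rw [hd, zero_mul, zero_mul]
  exact one_ne_zero (algebraMap_pi_mul_cancel (B := B) hπ this)

/-- The complementary inequality: `π ^ (n - 1)` always divides the discriminant. -/
theorem pow_pred_dvd_discr (hπ : Irreducible π)
    (hres : ∀ x : B, ∃ w : W, x - algebraMap W B w ∈ maximalIdeal B)
    (b : Basis ι W B) : π ^ (Fintype.card ι - 1) ∣ Algebra.discr W b := by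
  classical
  by_contra hdisc
  obtain ⟨v, i₀, hv0, hvi, hspan, hdv⟩ := exists_adapted hπ hres b _ hdisc
  apply hdv
  rw [Algebra.discr_def]
  refine pow_pred_card_dvd_det π _ i₀ fun a ha j => ?_
  rw [Algebra.traceMatrix_apply, Algebra.traceForm_apply]
  exact Ideal.mem_span_singleton.mp
    (trace_mem_of_mem_maximalIdeal hπ b (Ideal.mul_mem_right _ _ (hvi a ha)))

end Final

end Fermat.Agent.ES.P36.DiscReg5
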