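/-
Program P scouting (S36), brick (D0) of helper2's "regularity by discriminants" (helper5): the
SEMILOCAL case of the discriminant lemma, pure algebra (Mathlib + the local case `DiscReg5`).

`W` a discrete valuation ring with uniformiser `π`, `B` a `W`-algebra, free of rank `n` as a
`W`-module, whose maximal ideals are the `r` pairwise distinct ideals `𝔫 j` (`j : κ`), all with the
residue field of `W` (`hres`).  Then
* `pow_sub_dvd_discr` : `π ^ (n - r) ∣ disc (B / W)` always (`lt_card_of_not_dvd`: a small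
  discriminant forces many points);
* `exists_local_generator` : if `π ^ (n - r + 1) ∤ disc (B / W)` then every `𝔫 j₀` is locally
  principal, generated by a local divisor of `π`: there are `z ∈ 𝔫 j₀` and `σ ∉ 𝔫 j₀` with
  `σ • 𝔫 j₀ ⊆ (z)` and `z ∣ π σ`;
* `isDiscreteValuationRing_localization` : ... hence every localisation `B_{𝔫 j₀}` is a discrete
  valuation ring.

Use ((D2.4) of `S36_REG2.md`): `W = R̃ / (s)`, `B = B̃ / (s)` over a non-crossing point of `X0(q M')`:
`n = q`, `v_π(disc) ≤ q - 2`, so `r = 2` and `B̃` is regular at both points with `s` a regular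
parameter.

Proof: as in the local case with the Jacobson radical `J = ⋂ 𝔫 j` instead of the maximal ideal.  A
spanning family `v` adapted to `J` (all `v i ∈ J` except for `i` in a set `S` of at most `r`
indices; it exists because more than `r` elements are dependent modulo `J`) has a Gram matrix
`Tr (v_i v_j)` whose rows outside `S` are divisible by `π`, whence the lower bound.  If the bound is
attained then `(v_i)_{i ∈ S}` is independent modulo `J` and the form `Tr (x y) / π` is nondegenerate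
on `J / πB` (Cramer's rule and a weight count over the permutations).  With `e ≡ 1 mod 𝔫 j₀`,
`e ≡ 0 mod 𝔫 j` (`j ≠ j₀`) and `e' = e ^ N`, take `β` in the last `e' J ^ k` not contained in `πB`
and `y ∈ J` with `Tr (β y) ∉ (π ²)`: then `β y = π u` with `u ∉ 𝔫 j₀`, and `u e' 𝔫 j₀ ⊆ (y)`.
-/
import Mathlib
import Fermat.Agent.ES.P36.DiscReg5

set_option autoImplicit false
set_option linter.unusedSectionVars false

namespace Fermat.Agent.ES.P36.DiscRegSemi5

open Module
open scoped Matrix

section Mat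

variable {R : Type*} [CommRing R] {n : Type*} [Fintype n] [DecidableEq n]

/-- Weight count: all rows outside `S` are divisible by `p`: then `p ^ (card n - card S)` divides
the determinant. -/
theorem pow_sub_card_dvd_det (p : R) (A : Matrix n n R) (S : Finset n)
    (hrow : ∀ a, a ∉ S → ∀ j, p ∣ A a j) :
    p ^ (Fintype.card n - S.card) ∣ A.det := by
  rw [← Matrix.det_transpose, Matrix.det_apply']
  refine Finset.dvd_sum fun σ _ => Dvd.dvd.mul_left ?_ _
  simp only [Matrix.transpose_apply]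
  rw [← Finset.prod_mul_prod_compl S (fun l => A l (σ l))]
  refine Dvd.dvd.mul_left ?_ _
  rw [← Finset.card_compl, ← Finset.prod_const]
  exact Finset.prod_dvd_prod_of_dvd _ _ fun l hl => hrow l (Finset.mem_compl.mp hl) _

/-- Weight count with one distinguished row `i ∉ S`: rows in `S` are divisible by `p` in the columns
outside `S`, rows outside `S` are divisible by `p`, and the row `i` is divisible by `p ^ 2` in the
columns outside `S`: then `p ^ (card n - card S + 1)` divides the determinant. -/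
theorem pow_sub_card_succ_dvd_det (p : R) (A : Matrix n n R) (S : Finset n) {i : n} (hi : i ∉ S)
    (hS : ∀ a ∈ S, ∀ j, j ∉ S → p ∣ A a j)
    (hrow : ∀ a, a ∉ S → ∀ j, p ∣ A a j)
    (hi2 : ∀ j, j ∉ S → p ^ 2 ∣ A i j) :
    p ^ (Fintype.card n - S.card + 1) ∣ A.det := by
  rw [← Matrix.det_transpose, Matrix.det_apply']
  refine Finset.dvd_sum fun σ _ => Dvd.dvd.mul_left ?_ _
  simp only [Matrix.transpose_apply]
  rw [← Finset.prod_mul_prod_compl S (fun l => A l (σ l))]
  have hcompl : p ^ (Fintype.card n - S.card) ∣ ∏ l ∈ Sᶜ, A l (σ l) := by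
    rw [← Finset.card_compl, ← Finset.prod_const]
    exact Finset.prod_dvd_prod_of_dvd _ _ fun l hl => hrow l (Finset.mem_compl.mp hl) _
  by_cases hσ : σ i ∈ S
  · -- some row of `S` is sent outside `S`
    have hex : ∃ a ∈ S, σ a ∉ S := by
      by_contra hno
      have hall : ∀ a ∈ S, σ a ∈ S := fun a ha => by
        by_contra h
        exact hno ⟨a, ha, h⟩
      have himg : S.image σ = S := by
        apply Finset.eq_of_subset_of_card_le
        · intro x hx
          obtain ⟨a, ha, rfl⟩ := Finset.mem_image.mp hx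
          exact hall a ha
        · rw [Finset.card_image_of_injective _ σ.injective]
      rw [← himg] at hσ
      obtain ⟨a, ha, hai⟩ := Finset.mem_image.mp hσ
      exact hi (σ.injective hai ▸ ha)
    obtain ⟨a, ha, haσ⟩ := hex
    rw [pow_succ, mul_comm (p ^ _) p]
    refine mul_dvd_mul ?_ hcompl
    exact Dvd.dvd.trans (hS a ha _ haσ) (Finset.dvd_prod_of_mem (fun l => A l (σ l)) ha)
  · -- the row `i` contributes `p ^ 2`
    refine Dvd.dvd.mul_left ?_ _
    have hic : i ∈ Sᶜ := Finset.mem_compl.mpr hi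
    rw [← Finset.mul_prod_erase _ (fun l => A l (σ l)) hic]
    have hcard : Fintype.card n - S.card + 1 = 2 + (Sᶜ.erase i).card := by
      rw [Finset.card_erase_of_mem hic, Finset.card_compl]
      have : 1 ≤ Fintype.card n - S.card := by
        rw [← Finset.card_compl]; exact Finset.card_pos.mpr ⟨i, hic⟩
      omega
    rw [hcard, pow_add]
    refine mul_dvd_mul (hi2 _ hσ) ?_
    rw [← Finset.prod_const]
    exact Finset.prod_dvd_prod_of_dvd _ _ fun l hl =>
      hrow l (Finset.mem_compl.mp (Finset.mem_of_mem_erase hl)) _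

end Mat

section Basic

variable {W : Type*} [CommRing W] [IsDomain W] [IsDiscreteValuationRing W]
  {B : Type*} [CommRing B] [Algebra W B] [Module.Free W B] [Module.Finite W B]
  {π : W} {κ : Type*} {𝔫 : κ → Ideal B}

omit [Module.Free W B] in
/-- `π` lies in every maximal ideal of `B`. -/
theorem algebraMap_pi_mem_of_isMaximal (hπ : Irreducible π) {I : Ideal B} (hI : I.IsMaximal) :
    algebraMap W B π ∈ I := by
  have hint : Algebra.IsIntegral W B := Algebra.IsIntegral.of_finite W B
  have hmax : (I.comap (algebraMap W B)).IsMaximal :=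
    Ideal.isMaximal_comap_of_isIntegral_of_isMaximal I
  have heq : I.comap (algebraMap W B) = IsLocalRing.maximalIdeal W :=
    IsLocalRing.eq_maximalIdeal hmax
  have : π ∈ I.comap (algebraMap W B) := by
    rw [heq, hπ.maximalIdeal_eq]; exact Ideal.mem_span_singleton_self π
  exact this

omit [Module.Free W B] [Module.Finite W B] in
/-- elements of `W` which land in a proper ideal of `B` are multiples of `π`. -/
theorem dvd_of_algebraMap_mem (hπ : Irreducible π) {I : Ideal B} (hI : I ≠ ⊤) {c : W}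
    (hc : algebraMap W B c ∈ I) : π ∣ c := by
  rw [← Ideal.mem_span_singleton, ← hπ.maximalIdeal_eq]
  by_contra h
  have hu : IsUnit c := by
    by_contra h'
    exact h ((IsLocalRing.mem_maximalIdeal _).mpr h')
  exact hI (Ideal.eq_top_of_isUnit_mem _ hc (hu.map (algebraMap W B)))

omit [Module.Free W B] in
/-- The intersection of the maximal ideals lies in the radical of `πB`. -/
theorem iInf_le_radical (hπ : Irreducible π)
    (hall : ∀ I : Ideal B, I.IsMaximal → ∃ j, I = 𝔫 j) :
    (⨅ j, 𝔫 j) ≤ (Ideal.span {algebraMap W B π}).radical := by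
  have hint : Algebra.IsIntegral W B := Algebra.IsIntegral.of_finite W B
  rw [Ideal.radical_eq_sInf]
  refine le_sInf fun J hJ => ?_
  obtain ⟨hJ1, hJ2⟩ := hJ
  have hmax : (J.comap (algebraMap W B)).IsMaximal := by
    have hle : IsLocalRing.maximalIdeal W ≤ J.comap (algebraMap W B) := by
      rw [hπ.maximalIdeal_eq, Ideal.span_le, Set.singleton_subset_iff]
      exact hJ1 (Ideal.mem_span_singleton_self _)
    have hne : J.comap (algebraMap W B) ≠ ⊤ := (Ideal.IsPrime.comap (algebraMap W B)).ne_top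
    rw [← (IsLocalRing.maximalIdeal.isMaximal W).eq_of_le hne hle]
    exact IsLocalRing.maximalIdeal.isMaximal W
  have hJmax := Ideal.isMaximal_of_isIntegral_of_isMaximal_comap J hmax
  obtain ⟨j, rfl⟩ := hall J hJmax
  exact iInf_le _ j

/-- the trace of an element of the Jacobson radical lies in `(π)`. -/
theorem trace_mem_of_mem_iInf (hπ : Irreducible π)
    (hall : ∀ I : Ideal B, I.IsMaximal → ∃ j, I = 𝔫 j)
    {ι : Type*} [Fintype ι] [DecidableEq ι]
    (b : Basis ι W B) {x : B} (hx : x ∈ ⨅ j, 𝔫 j) :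
    π ∣ Algebra.trace W B x := by
  have hprime : (Ideal.span {π}).IsPrime := by
    rw [← hπ.maximalIdeal_eq]; exact (IsLocalRing.maximalIdeal.isMaximal W).isPrime
  obtain ⟨N, hN⟩ := iInf_le_radical hπ hall hx
  exact Ideal.mem_span_singleton.mp (DiscReg5.trace_mem_of_pow_mem b hprime hN)

end Basic

section Relation

variable {W : Type*} [CommRing W] [IsDomain W] [IsDiscreteValuationRing W]
  {B : Type*} [CommRing B] [Algebra W B] [Module.Free W B] [Module.Finite W B]
  {π : W} {κ : Type*} [Fintype κ] {𝔫 : κ → Ideal B} {ι : Type*} [Fintype ι] [DecidableEq ι]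

omit [Module.Free W B] [Fintype ι] in
/-- More than `card κ` elements of `B` are linearly dependent modulo the Jacobson radical (all
residue fields being equal to that of `W`). -/
theorem exists_relation (hπ : Irreducible π) (hmax : ∀ j, (𝔫 j).IsMaximal)
    (hres : ∀ j (x : B), ∃ w : W, x - algebraMap W B w ∈ 𝔫 j)
    (v : ι → B) (T : Finset ι) (hT : Fintype.card κ < T.card) :
    ∃ c : ι → W, (∃ i₀ ∈ T, IsUnit (c i₀)) ∧ ∑ i ∈ T, c i • v i ∈ ⨅ j, 𝔫 j := by
  classical
  choose A hA using fun j i => hres j (v i)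
  let M : Matrix κ T (IsLocalRing.ResidueField W) := fun j i => IsLocalRing.residue W (A j i)
  have hker : LinearMap.ker M.mulVecLin ≠ ⊥ := by
    apply LinearMap.ker_ne_bot_of_finrank_lt
    rw [Module.finrank_fintype_fun_eq_card, Module.finrank_fintype_fun_eq_card, Fintype.card_coe]
    exact hT
  obtain ⟨x, hxker, hx0⟩ := (Submodule.ne_bot_iff _).mp hker
  choose lift hlift using IsLocalRing.residue_surjective (R := W)
  set c : ι → W := fun i => if h : i ∈ T then lift (x ⟨i, h⟩) else 0 with hc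
  have hcT : ∀ i : T, c i = lift (x i) := fun i => by
    simp only [hc, i.2, dif_pos]
  refine ⟨c, ?_, ?_⟩
  · obtain ⟨i₀, hi₀⟩ := Function.ne_iff.mp hx0
    refine ⟨i₀, i₀.2, ?_⟩
    rw [← IsLocalRing.residue_ne_zero_iff_isUnit, hcT, hlift]
    exact hi₀
  · rw [Ideal.mem_iInf]
    intro j
    have hsplit : ∑ i ∈ T, c i • v i = ∑ i ∈ T, c i • (v i - algebraMap W B (A j i))
        + algebraMap W B (∑ i ∈ T, c i * A j i) := by
      rw [map_sum, ← Finset.sum_add_distrib]
      refine Finset.sum_congr rfl fun i _ => ?_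
      rw [map_mul, Algebra.smul_def, Algebra.smul_def]; ring
    rw [hsplit]
    refine Ideal.add_mem _ (Ideal.sum_mem _ fun i _ => ?_) ?_
    · rw [Algebra.smul_def]; exact Ideal.mul_mem_left _ _ (hA j i)
    · have hres0 : IsLocalRing.residue W (∑ i ∈ T, c i * A j i) = 0 := by
        have h1 : M.mulVecLin x = 0 := LinearMap.mem_ker.mp hxker
        have h2 := congrFun h1 j
        rw [Matrix.mulVecLin_apply] at h2
        simp only [Matrix.mulVec, dotProduct, Pi.zero_apply] at h2
        rw [map_sum, ← Finset.sum_coe_sort T, ← h2]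
        refine Finset.sum_congr rfl fun i _ => ?_
        rw [map_mul, hcT, hlift, mul_comm]
      rw [IsLocalRing.residue_eq_zero_iff, hπ.maximalIdeal_eq] at hres0
      obtain ⟨d, hd⟩ := Ideal.mem_span_singleton'.mp hres0
      rw [← hd, map_mul]
      exact Ideal.mul_mem_left _ _ (algebraMap_pi_mem_of_isMaximal hπ (hmax j))

end Relation

section Adapted

variable {W : Type*} [CommRing W] [IsDomain W] [IsDiscreteValuationRing W]
  {B : Type*} [CommRing B] [Algebra W B] [Module.Free W B] [Module.Finite W B]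
  {π : W} {κ : Type*} [Fintype κ] {𝔫 : κ → Ideal B} {ι : Type*} [Fintype ι] [DecidableEq ι]

omit [IsDomain W] [IsDiscreteValuationRing W] [Module.Free W B] [Module.Finite W B] in
/-- A spanning family indexed like a basis has, up to a square, the same discriminant. -/
theorem discr_dvd_of_span (b : Basis ι W B) (v : ι → B)
    (hspan : Submodule.span W (Set.range v) = ⊤) {d : W} (hd : d ∣ Algebra.discr W v) :
    d ∣ Algebra.discr W b := by
  have hex : ∀ i, ∃ f : ι → W, ∑ j, f j • v j = b i := fun i =>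
    (Submodule.mem_span_range_iff_exists_fun W).mp (hspan ▸ Submodule.mem_top)
  choose P hP using hex
  have hb : (b : ι → B) = (Matrix.of P).map (algebraMap W B) *ᵥ v := by
    funext i
    simp only [Matrix.mulVec, dotProduct, Matrix.map_apply, Matrix.of_apply]
    rw [← hP i]
    exact Finset.sum_congr rfl fun j _ => Algebra.smul_def _ _
  rw [hb, Algebra.discr_of_matrix_mulVec]
  exact Dvd.dvd.mul_left hd _

omit [Module.Free W B] in
/-- **Adapted spanning family**: all members outside a set `S` of at most `card κ` indices lie in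
the Jacobson radical. -/
theorem exists_adapted_semi (hπ : Irreducible π) (hmax : ∀ j, (𝔫 j).IsMaximal)
    (hres : ∀ j (x : B), ∃ w : W, x - algebraMap W B w ∈ 𝔫 j)
    (b : Basis ι W B) :
    ∃ (v : ι → B) (S : Finset ι), Submodule.span W (Set.range v) = ⊤ ∧
      S.card ≤ Fintype.card κ ∧ ∀ i, i ∉ S → v i ∈ ⨅ j, 𝔫 j := by
  classical
  have hex : ∃ m : ℕ, ∃ (v : ι → B) (S : Finset ι), Submodule.span W (Set.range v) = ⊤ ∧
      S.card = m ∧ ∀ i, i ∉ S → v i ∈ ⨅ j, 𝔫 j :=
    ⟨Fintype.card ι, b, Finset.univ, b.span_eq, Finset.card_univ,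
      fun i hi => absurd (Finset.mem_univ i) hi⟩
  obtain ⟨v, S, hspan, hcard, hJ⟩ := Nat.find_spec hex
  refine ⟨v, S, hspan, ?_, hJ⟩
  by_contra hlt
  rw [not_le] at hlt
  obtain ⟨c, ⟨i₀, hi₀S, hu⟩, hsum⟩ := exists_relation hπ hmax hres v S hlt
  set v' : ι → B := Function.update v i₀ (∑ i ∈ S, c i • v i) with hv'
  have hv'ne : ∀ i, i ≠ i₀ → v' i = v i := fun i hi => Function.update_of_ne hi _ _
  have hv'0 : v' i₀ = ∑ i ∈ S, c i • v i := Function.update_self _ _ _
  have hlt' : (S.erase i₀).card < Nat.find hex := by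
    rw [← hcard, Finset.card_erase_of_mem hi₀S]
    exact Nat.sub_lt (Finset.card_pos.mpr ⟨i₀, hi₀S⟩) Nat.one_pos
  refine Nat.find_min hex hlt' ⟨v', S.erase i₀, ?_, rfl, ?_⟩
  · rw [eq_top_iff, ← hspan, Submodule.span_le]
    have hmem : ∀ i, i ≠ i₀ → v i ∈ Submodule.span W (Set.range v') := fun i hi => by
      rw [← hv'ne i hi]; exact Submodule.subset_span (Set.mem_range_self i)
    rintro _ ⟨i, rfl⟩
    by_cases hi : i = i₀
    · subst hi
      obtain ⟨u, hu'⟩ := hu
      have hsplit : c i • v i + ∑ l ∈ S.erase i, c l • v l = v' i := by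
        rw [hv'0, Finset.add_sum_erase _ (fun l => c l • v l) hi₀S]
      have hsub : v' i - ∑ l ∈ S.erase i, c l • v l = c i • v i := by
        rw [← hsplit, add_sub_cancel_right]
      have : v i = (↑u⁻¹ : W) • (v' i - ∑ l ∈ S.erase i, c l • v l) := by
        rw [hsub, ← hu', smul_smul, Units.inv_mul, one_smul]
      show v i ∈ Submodule.span W (Set.range v')
      rw [this]
      refine Submodule.smul_mem _ _ (Submodule.sub_mem _
        (Submodule.subset_span (Set.mem_range_self i)) (Submodule.sum_mem _ fun l hl => ?_))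
      exact Submodule.smul_mem _ _ (hmem l (Finset.mem_erase.mp hl).1)
    · exact hmem i hi
  · intro i hi
    by_cases h : i = i₀
    · rw [h, hv'0]; exact hsum
    · rw [hv'ne i h]
      exact hJ i fun hiS => hi (Finset.mem_erase.mpr ⟨h, hiS⟩)

end Adapted

section Nondeg

variable {W : Type*} [CommRing W] [IsDomain W] [IsDiscreteValuationRing W]
  {B : Type*} [CommRing B] [Algebra W B] [Module.Free W B] [Module.Finite W B]
  {π : W} {κ : Type*} [Fintype κ] {𝔫 : κ → Ideal B} {ι : Type*} [Fintype ι] [DecidableEq ι]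

/-- **Lower bound**: `π ^ (n - r)` always divides the discriminant (`r` maximal ideals, all with
the residue field of `W`). -/
theorem pow_sub_dvd_discr (hπ : Irreducible π) (hmax : ∀ j, (𝔫 j).IsMaximal)
    (hall : ∀ I : Ideal B, I.IsMaximal → ∃ j, I = 𝔫 j)
    (hres : ∀ j (x : B), ∃ w : W, x - algebraMap W B w ∈ 𝔫 j)
    (b : Basis ι W B) :
    π ^ (Fintype.card ι - Fintype.card κ) ∣ Algebra.discr W b := by
  classical
  obtain ⟨v, S, hspan, hcard, hJ⟩ := exists_adapted_semi hπ hmax hres b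
  apply discr_dvd_of_span b v hspan
  have h1 : π ^ (Fintype.card ι - S.card) ∣ Algebra.discr W v := by
    rw [Algebra.discr_def]
    refine pow_sub_card_dvd_det π _ S fun a ha j => ?_
    rw [Algebra.traceMatrix_apply, Algebra.traceForm_apply]
    exact trace_mem_of_mem_iInf hπ hall b (Ideal.mul_mem_right _ _ (hJ a ha))
  exact (pow_dvd_pow π (Nat.sub_le_sub_left hcard _)).trans h1

/-- rows of the Gram matrix combine to the traces against the combination. -/
theorem sum_smul_traceMatrix_apply (v : ι → B) (f : ι → W) (j : ι) :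
    (∑ l, f l • Algebra.traceMatrix W v l) j = Algebra.trace W B ((∑ l, f l • v l) * v j) := by
  rw [Finset.sum_apply, Finset.sum_mul, map_sum]
  refine Finset.sum_congr rfl fun l _ => ?_
  rw [Pi.smul_apply, Algebra.traceMatrix_apply, Algebra.traceForm_apply, smul_mul_assoc, map_smul]

/-- **Independence modulo the radical** of the first part of an adapted family, when
`π ^ (n - r + 1) ∤ disc`. -/
theorem dvd_of_sum_mem (hπ : Irreducible π)
    (hall : ∀ I : Ideal B, I.IsMaximal → ∃ j, I = 𝔫 j)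
    (b : Basis ι W B) (v : ι → B) (S : Finset ι)
    (hcard : S.card ≤ Fintype.card κ) (hJ : ∀ i, i ∉ S → v i ∈ ⨅ j, 𝔫 j)
    (hdisc : ¬ π ^ (Fintype.card ι - Fintype.card κ + 1) ∣ Algebra.discr W v)
    (c : ι → W) (hc : ∑ i ∈ S, c i • v i ∈ ⨅ j, 𝔫 j) : ∀ i ∈ S, π ∣ c i := by
  classical
  intro i₀ hi₀
  by_contra hnd
  have hu : IsUnit (c i₀) := by
    by_contra h'
    have : c i₀ ∈ IsLocalRing.maximalIdeal W := (IsLocalRing.mem_maximalIdeal _).mpr h'
    rw [hπ.maximalIdeal_eq] at this
    exact hnd (Ideal.mem_span_singleton.mp this)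
  apply hdisc
  set f : ι → W := fun l => if l ∈ S then c l else 0 with hf
  have hfsum : ∑ l, f l • v l = ∑ i ∈ S, c i • v i := by
    rw [← Finset.sum_subset (Finset.subset_univ S)]
    · exact Finset.sum_congr rfl fun l hl => by simp only [hf, hl, if_pos]
    · intro l _ hl
      simp only [hf, hl, if_neg, zero_smul, not_false_eq_true]
  set M := Algebra.traceMatrix W v with hM
  have hdet := Matrix.det_updateRow_sum M i₀ f
  have hdvd : π ^ (Fintype.card ι - (S.erase i₀).card) ∣
      (M.updateRow i₀ (∑ l, f l • M l)).det := by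
    refine pow_sub_card_dvd_det π _ (S.erase i₀) fun a ha j => ?_
    by_cases hai : a = i₀
    · rw [hai, Matrix.updateRow_self, hM, sum_smul_traceMatrix_apply, hfsum]
      exact trace_mem_of_mem_iInf hπ hall b (Ideal.mul_mem_right _ _ hc)
    · rw [Matrix.updateRow_ne hai, hM, Algebra.traceMatrix_apply, Algebra.traceForm_apply]
      have haS : a ∉ S := fun h => ha (Finset.mem_erase.mpr ⟨hai, h⟩)
      exact trace_mem_of_mem_iInf hπ hall b (Ideal.mul_mem_right _ _ (hJ a haS))
  rw [hdet, smul_eq_mul] at hdvd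
  have hfi : f i₀ = c i₀ := by simp only [hf, hi₀, if_pos]
  rw [hfi] at hdvd
  have h2 : π ^ (Fintype.card ι - (S.erase i₀).card) ∣ M.det := (hu.dvd_mul_left).mp hdvd
  rw [Algebra.discr_def]
  refine (pow_dvd_pow π ?_).trans h2
  rw [Finset.card_erase_of_mem hi₀]
  have h1 : 1 ≤ S.card := Finset.card_pos.mpr ⟨i₀, hi₀⟩
  have h3 : S.card ≤ Fintype.card ι := Finset.card_le_univ S
  omega

/-- **Nondegeneracy of `Tr(xy)/π` on `J/πB`** (`J` the Jacobson radical) when
`π ^ (n - r + 1) ∤ disc`. -/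
theorem exists_trace_not_dvd (hπ : Irreducible π)
    (hall : ∀ I : Ideal B, I.IsMaximal → ∃ j, I = 𝔫 j)
    (b : Basis ι W B) (v : ι → B) (S : Finset ι)
    (hspan : Submodule.span W (Set.range v) = ⊤)
    (hcard : S.card ≤ Fintype.card κ) (hJ : ∀ i, i ∉ S → v i ∈ ⨅ j, 𝔫 j)
    (hdisc : ¬ π ^ (Fintype.card ι - Fintype.card κ + 1) ∣ Algebra.discr W v)
    {β : B} (hβ : β ∈ ⨅ j, 𝔫 j) (hβπ : β ∉ Ideal.span {algebraMap W B π}) :
    ∃ y ∈ ⨅ j, 𝔫 j, ¬ π ^ 2 ∣ Algebra.trace W B (β * y) := by
  classical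
  by_contra hno
  have hall2 : ∀ y ∈ ⨅ j, 𝔫 j, π ^ 2 ∣ Algebra.trace W B (β * y) := by
    intro y hy
    by_contra h
    exact hno ⟨y, hy, h⟩
  apply hdisc
  obtain ⟨f, hf⟩ : ∃ f : ι → W, ∑ j, f j • v j = β :=
    (Submodule.mem_span_range_iff_exists_fun W).mp (hspan ▸ Submodule.mem_top)
  -- the coordinates in `S` are multiples of `π`
  have hsplit : ∑ j ∈ S, f j • v j + ∑ j ∈ Sᶜ, f j • v j = β := by
    rw [Finset.sum_add_sum_compl]; exact hf
  have hcompl : ∑ j ∈ Sᶜ, f j • v j ∈ ⨅ j, 𝔫 j :=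
    Ideal.sum_mem _ fun j hj => by
      rw [Algebra.smul_def]
      exact Ideal.mul_mem_left _ _ (hJ j (Finset.mem_compl.mp hj))
  have hSmem : ∑ j ∈ S, f j • v j ∈ ⨅ j, 𝔫 j := by
    have : ∑ j ∈ S, f j • v j = β - ∑ j ∈ Sᶜ, f j • v j := by
      rw [← hsplit, add_sub_cancel_right]
    rw [this]
    exact Ideal.sub_mem _ hβ hcompl
  have hSdvd := dvd_of_sum_mem hπ hall b v S hcard hJ hdisc f hSmem
  -- some coordinate outside `S` is a unit
  have hunit : ∃ i, i ∉ S ∧ IsUnit (f i) := by
    by_contra hno'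
    apply hβπ
    rw [← hf]
    refine Ideal.sum_mem _ fun j _ => ?_
    have hj : π ∣ f j := by
      by_cases h : j ∈ S
      · exact hSdvd j h
      · have : f j ∈ IsLocalRing.maximalIdeal W :=
          (IsLocalRing.mem_maximalIdeal _).mpr fun hu => hno' ⟨j, h, hu⟩
        rw [hπ.maximalIdeal_eq] at this
        exact Ideal.mem_span_singleton.mp this
    obtain ⟨d, hd⟩ := hj
    rw [hd, mul_smul, Algebra.smul_def]
    exact Ideal.mul_mem_right _ _ (Ideal.mem_span_singleton_self _)
  obtain ⟨i, hiS, hfi⟩ := hunit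
  -- Cramer
  set M := Algebra.traceMatrix W v with hM
  have hdet := Matrix.det_updateRow_sum M i f
  have hdvd : π ^ (Fintype.card ι - S.card + 1) ∣ (M.updateRow i (∑ l, f l • M l)).det := by
    refine pow_sub_card_succ_dvd_det π _ S hiS ?_ ?_ ?_
    · intro a ha j hj
      have hai : a ≠ i := fun h => hiS (h ▸ ha)
      rw [Matrix.updateRow_ne hai, hM, Algebra.traceMatrix_apply, Algebra.traceForm_apply]
      exact trace_mem_of_mem_iInf hπ hall b (Ideal.mul_mem_left _ _ (hJ j hj))
    · intro a ha j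
      by_cases hai : a = i
      · rw [hai, Matrix.updateRow_self, hM, sum_smul_traceMatrix_apply, hf]
        exact trace_mem_of_mem_iInf hπ hall b (Ideal.mul_mem_right _ _ hβ)
      · rw [Matrix.updateRow_ne hai, hM, Algebra.traceMatrix_apply, Algebra.traceForm_apply]
        exact trace_mem_of_mem_iInf hπ hall b (Ideal.mul_mem_right _ _ (hJ a ha))
    · intro j hj
      rw [Matrix.updateRow_self, hM, sum_smul_traceMatrix_apply, hf]
      exact hall2 _ (hJ j hj)
  rw [hdet, smul_eq_mul] at hdvd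
  have h2 : π ^ (Fintype.card ι - S.card + 1) ∣ M.det := (hfi.dvd_mul_left).mp hdvd
  rw [Algebra.discr_def]
  refine (pow_dvd_pow π ?_).trans h2
  have := Nat.sub_le_sub_left hcard (Fintype.card ι)
  omega

end Nondeg

section Generator

variable {W : Type*} [CommRing W] [IsDomain W] [IsDiscreteValuationRing W]
  {B : Type*} [CommRing B] [Algebra W B] [Module.Free W B] [Module.Finite W B]
  {π : W} {κ : Type*} [Fintype κ] {𝔫 : κ → Ideal B} {ι : Type*} [Fintype ι] [DecidableEq ι]

omit [Module.Finite W B] in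
/-- `π` is a non-zero-divisor of `B`. -/
theorem pi_mul_cancel (hπ : Irreducible π) {x y : B}
    (h : algebraMap W B π * x = algebraMap W B π * y) : x = y := by
  rw [← Algebra.smul_def, ← Algebra.smul_def] at h
  exact smul_right_injective B hπ.ne_zero h

omit [IsDomain W] [IsDiscreteValuationRing W] [Algebra W B] [Module.Free W B] [Module.Finite W B] in
/-- Chinese remainder element: `≡ 1` modulo `𝔫 j₀`, `≡ 0` modulo the others. -/
theorem exists_crt (hmax : ∀ j, (𝔫 j).IsMaximal) (hinj : Function.Injective 𝔫) (j₀ : κ) :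
    ∃ e : B, e - 1 ∈ 𝔫 j₀ ∧ ∀ j, j ≠ j₀ → e ∈ 𝔫 j := by
  classical
  have htop : 𝔫 j₀ ⊔ ⨅ j ∈ Finset.univ.erase j₀, 𝔫 j = ⊤ :=
    Ideal.sup_iInf_eq_top fun j hj =>
      (hmax j₀).coprime_of_ne (hmax j) fun h => (Finset.mem_erase.mp hj).1 (hinj h).symm
  have h1 : (1 : B) ∈ 𝔫 j₀ ⊔ ⨅ j ∈ Finset.univ.erase j₀, 𝔫 j := htop ▸ Submodule.mem_top
  obtain ⟨a, ha, e, he, hae⟩ := Submodule.mem_sup.mp h1
  refine ⟨e, ?_, fun j hj => ?_⟩
  · have : e - 1 = -a := by rw [← hae]; ring
    rw [this]; exact Ideal.neg_mem_iff _ |>.mpr ha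
  · rw [Ideal.mem_iInf] at he
    have := he j
    rw [Ideal.mem_iInf] at this
    exact this (Finset.mem_erase.mpr ⟨hj, Finset.mem_univ j⟩)

/-- **(D0), semilocal case, generator form.** If `π ^ (n - r + 1) ∤ disc` then every maximal ideal
`𝔫 j₀` is locally generated by an element `z` dividing `π` (locally): there is `σ ∉ 𝔫 j₀` with
`σ • 𝔫 j₀ ⊆ (z)` and `z ∣ π σ`. -/
theorem exists_local_generator (hπ : Irreducible π) (hmax : ∀ j, (𝔫 j).IsMaximal)
    (hall : ∀ I : Ideal B, I.IsMaximal → ∃ j, I = 𝔫 j) (hinj : Function.Injective 𝔫)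
    (hres : ∀ j (x : B), ∃ w : W, x - algebraMap W B w ∈ 𝔫 j)
    (b : Basis ι W B)
    (hdisc : ¬ π ^ (Fintype.card ι - Fintype.card κ + 1) ∣ Algebra.discr W b) (j₀ : κ) :
    ∃ z ∈ 𝔫 j₀, ∃ σ : B, σ ∉ 𝔫 j₀ ∧ (∀ x ∈ 𝔫 j₀, z ∣ σ * x) ∧ z ∣ algebraMap W B π * σ := by
  classical
  obtain ⟨v, S, hspan, hcard, hJ⟩ := exists_adapted_semi hπ hmax hres b
  have hdv : ¬ π ^ (Fintype.card ι - Fintype.card κ + 1) ∣ Algebra.discr W v :=
    fun h => hdisc (discr_dvd_of_span b v hspan h)
  have hnoeth : IsNoetherianRing B := IsNoetherianRing.of_finite W B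
  have hprime : ∀ j, (𝔫 j).IsPrime := fun j => (hmax j).isPrime
  have hP : ∀ j, algebraMap W B π ∈ 𝔫 j := fun j => algebraMap_pi_mem_of_isMaximal hπ (hmax j)
  have hPle : ∀ j, Ideal.span {algebraMap W B π} ≤ 𝔫 j := fun j =>
    Ideal.span_le.mpr (Set.singleton_subset_iff.mpr (hP j))
  have hJle : ∀ j, (⨅ j, 𝔫 j) ≤ 𝔫 j := fun j => iInf_le _ j
  have hrad := iInf_le_radical (𝔫 := 𝔫) hπ hall
  -- the Chinese remainder element and its powers
  obtain ⟨e, he1, he0⟩ := exists_crt hmax hinj j₀
  have he_not : e ∉ 𝔫 j₀ := fun h => by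
    have : (1 : B) ∈ 𝔫 j₀ := by
      have h2 : (1 : B) = e - (e - 1) := by ring
      rw [h2]; exact Ideal.sub_mem _ h he1
    exact (hprime j₀).ne_top ((Ideal.eq_top_iff_one _).mpr this)
  have h1e : 1 - e ∈ 𝔫 j₀ := by
    have : 1 - e = -(e - 1) := by ring
    rw [this]; exact (Ideal.neg_mem_iff _).mpr he1
  have h1e_not : ∀ j, j ≠ j₀ → 1 - e ∉ 𝔫 j := fun j hj h => by
    have : (1 : B) ∈ 𝔫 j := by
      have h2 : (1 : B) = (1 - e) + e := by ring
      rw [h2]; exact Ideal.add_mem _ h (he0 j hj)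
    exact (hprime j).ne_top ((Ideal.eq_top_iff_one _).mpr this)
  have heJ : e * (1 - e) ∈ ⨅ j, 𝔫 j := by
    rw [Ideal.mem_iInf]
    intro j
    by_cases hj : j = j₀
    · rw [hj]; exact Ideal.mul_mem_left _ _ h1e
    · exact Ideal.mul_mem_right _ _ (he0 j hj)
  obtain ⟨N, hN⟩ := hrad heJ
  set e' := e ^ (N + 1) with he'
  set g := (1 - e) ^ (N + 1) with hg
  have he'g : e' * g ∈ Ideal.span {algebraMap W B π} := by
    rw [he', hg, ← mul_pow, pow_succ]
    exact Ideal.mul_mem_right _ _ hN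
  have he'_not : e' ∉ 𝔫 j₀ := fun h => he_not ((hprime j₀).mem_of_pow_mem _ h)
  have he'0 : ∀ j, j ≠ j₀ → e' ∈ 𝔫 j := fun j hj => by
    rw [he', pow_succ]; exact Ideal.mul_mem_left _ _ (he0 j hj)
  have hg_not : ∀ j, j ≠ j₀ → g ∉ 𝔫 j := fun j hj h =>
    h1e_not j hj ((hprime j).mem_of_pow_mem _ h)
  -- `e' x ∈ J` for `x ∈ 𝔫 j₀`
  have he'x : ∀ x ∈ 𝔫 j₀, e' * x ∈ ⨅ j, 𝔫 j := by
    intro x hx
    rw [Ideal.mem_iInf]
    intro j
    by_cases hj : j = j₀
    · rw [hj]; exact Ideal.mul_mem_left _ _ hx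
    · exact Ideal.mul_mem_right _ _ (he'0 j hj)
  -- the last `k` with `e' J ^ k ⊄ πB`
  have hpowJ : ∃ k, (⨅ j, 𝔫 j) ^ k ≤ Ideal.span {algebraMap W B π} :=
    Ideal.exists_pow_le_of_le_radical_of_fg hrad (IsNoetherian.noetherian _)
  have hpow : ∃ k, Ideal.span {e'} * (⨅ j, 𝔫 j) ^ k ≤ Ideal.span {algebraMap W B π} := by
    obtain ⟨k, hk⟩ := hpowJ
    exact ⟨k, Ideal.mul_le_right.trans hk⟩
  obtain ⟨k₀, hk₀le, hk₀min⟩ : ∃ k₀, Ideal.span {e'} * (⨅ j, 𝔫 j) ^ k₀ ≤
      Ideal.span {algebraMap W B π} ∧ ∀ k < k₀, ¬ Ideal.span {e'} * (⨅ j, 𝔫 j) ^ k ≤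
      Ideal.span {algebraMap W B π} :=
    ⟨Nat.find hpow, Nat.find_spec hpow, fun k hk => Nat.find_min hpow hk⟩
  have hk₀pos : k₀ ≠ 0 := by
    intro h0
    rw [h0, pow_zero, Ideal.one_eq_top, Ideal.mul_top] at hk₀le
    exact he'_not (hPle j₀ (hk₀le (Ideal.mem_span_singleton_self e')))
  by_cases hk1 : k₀ = 1
  · -- unramified at `𝔫 j₀`
    rw [hk1, pow_one] at hk₀le
    refine ⟨algebraMap W B π, hP j₀, e' * e', fun h => ?_, fun x hx => ?_, dvd_mul_right _ _⟩
    · exact he'_not (((hprime j₀).mem_or_mem h).elim id id)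
    · have : e' * (e' * x) ∈ Ideal.span {algebraMap W B π} :=
        hk₀le (Ideal.mul_mem_mul (Ideal.mem_span_singleton_self e') (he'x x hx))
      rw [mul_assoc]
      exact Ideal.mem_span_singleton.mp this
  -- `k₀ ≥ 2`
  have hk2 : 2 ≤ k₀ := by omega
  obtain ⟨β, hβ1, hβ2⟩ := SetLike.not_le_iff_exists.mp (hk₀min (k₀ - 1) (by omega))
  obtain ⟨β₁, hβ₁, hββ₁⟩ := Ideal.mem_span_singleton_mul.mp hβ1
  have hβ₁J : β₁ ∈ ⨅ j, 𝔫 j := by
    have h1 : (⨅ j, 𝔫 j) ^ (k₀ - 1) ≤ ⨅ j, 𝔫 j := Ideal.pow_le_self (by omega)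
    exact h1 hβ₁
  have hβJ : β ∈ ⨅ j, 𝔫 j := by
    rw [← hββ₁]; exact Ideal.mul_mem_left _ _ hβ₁J
  have hβmul : ∀ y ∈ ⨅ j, 𝔫 j, β * y ∈ Ideal.span {algebraMap W B π} := by
    intro y hy
    apply hk₀le
    have : k₀ = (k₀ - 1) + 1 := by omega
    rw [this, pow_succ, ← mul_assoc]
    exact Ideal.mul_mem_mul hβ1 hy
  obtain ⟨y, hy, hty⟩ := exists_trace_not_dvd hπ hall b v S hspan hcard hJ hdv hβJ hβ2
  obtain ⟨u, hu⟩ := Ideal.mem_span_singleton'.mp (hβmul y hy)
  -- `u ∉ J`
  have huJ : u ∉ ⨅ j, 𝔫 j := by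
    intro h
    apply hty
    obtain ⟨d, hd⟩ := trace_mem_of_mem_iInf hπ hall b h
    rw [← hu, mul_comm, ← Algebra.smul_def, map_smul, hd, smul_eq_mul, pow_two]
    exact ⟨d, by ring⟩
  -- `g u ∈ J`
  obtain ⟨t, ht⟩ := Ideal.mem_span_singleton'.mp he'g
  have hguJ : g * u ∈ ⨅ j, 𝔫 j := by
    have : g * u = t * β₁ * y := by
      apply pi_mul_cancel (B := B) hπ
      calc algebraMap W B π * (g * u) = g * (u * algebraMap W B π) := by ring
        _ = g * (β * y) := by rw [hu]
        _ = (e' * g) * β₁ * y := by rw [← hββ₁]; ring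
        _ = algebraMap W B π * (t * β₁ * y) := by rw [← ht]; ring
    rw [this]
    exact Ideal.mul_mem_left _ _ hy
  have hu_not : u ∉ 𝔫 j₀ := by
    intro h
    apply huJ
    rw [Ideal.mem_iInf]
    intro j
    by_cases hj : j = j₀
    · rw [hj]; exact h
    · exact ((hprime j).mem_or_mem (hJle j hguJ)).resolve_left (hg_not j hj)
  refine ⟨y, hJle j₀ hy, u * e', fun h => ?_, fun x hx => ?_, ?_⟩
  · exact ((hprime j₀).mem_or_mem h).elim hu_not he'_not
  · obtain ⟨w, hw⟩ := Ideal.mem_span_singleton'.mp (hβmul _ (he'x x hx))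
    refine ⟨w, ?_⟩
    apply pi_mul_cancel (B := B) hπ
    calc algebraMap W B π * (u * e' * x) = (u * algebraMap W B π) * (e' * x) := by ring
      _ = (β * y) * (e' * x) := by rw [hu]
      _ = y * (β * (e' * x)) := by ring
      _ = algebraMap W B π * (y * w) := by rw [← hw]; ring
  · exact ⟨β * e', by
      calc algebraMap W B π * (u * e') = (u * algebraMap W B π) * e' := by ring
        _ = y * (β * e') := by rw [hu]; ring⟩

end Generator

section DVR

variable {W : Type*} [CommRing W] [IsDomain W] [IsDiscreteValuationRing W]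
  {B : Type*} [CommRing B] [Algebra W B] [Module.Free W B] [Module.Finite W B]
  {π : W} {κ : Type*} [Fintype κ] {𝔫 : κ → Ideal B} {ι : Type*} [Fintype ι] [DecidableEq ι]

/-- **(D0), semilocal case.** `W` a discrete valuation ring with uniformiser `π`, `B` a `W`-algebra,
free of rank `n` as a `W`-module, whose maximal ideals are the `r` pairwise distinct `𝔫 j`, all
with the residue field of `W`.  If `π ^ (n - r + 1)` does not divide the discriminant of `B/W`
then every localisation of `B` at a maximal ideal is a discrete valuation ring. -/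
theorem isDiscreteValuationRing_localization (hπ : Irreducible π)
    (hmax : ∀ j, (𝔫 j).IsMaximal)
    (hall : ∀ I : Ideal B, I.IsMaximal → ∃ j, I = 𝔫 j) (hinj : Function.Injective 𝔫)
    (hres : ∀ j (x : B), ∃ w : W, x - algebraMap W B w ∈ 𝔫 j)
    (b : Basis ι W B)
    (hdisc : ¬ π ^ (Fintype.card ι - Fintype.card κ + 1) ∣ Algebra.discr W b) (j₀ : κ)
    [(𝔫 j₀).IsPrime] (L : Type*) [CommRing L] [Algebra B L] [IsLocalization.AtPrime L (𝔫 j₀)] :
    ∃ (_ : IsLocalRing L) (_ : IsDomain L), IsDiscreteValuationRing L := by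
  obtain ⟨z, hz, σ, hσ, hdiv, hzπ⟩ :=
    exists_local_generator hπ hmax hall hinj hres b hdisc j₀
  have hloc : IsLocalRing L := IsLocalization.AtPrime.isLocalRing L (𝔫 j₀)
  have hnoethB : IsNoetherianRing B := IsNoetherianRing.of_finite W B
  have hnoeth : IsNoetherianRing L :=
    IsLocalization.isNoetherianRing (𝔫 j₀).primeCompl L hnoethB
  have hσu : IsUnit (algebraMap B L σ) := IsLocalization.map_units L (⟨σ, hσ⟩ : (𝔫 j₀).primeCompl)
  -- the maximal ideal is generated by the image of `z`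
  have hgen : IsLocalRing.maximalIdeal L = Ideal.span {algebraMap B L z} := by
    apply le_antisymm
    · intro x hx
      obtain ⟨⟨a, s⟩, has⟩ := IsLocalization.surj (𝔫 j₀).primeCompl x
      simp only at has
      have hsu : IsUnit (algebraMap B L s) := IsLocalization.map_units L s
      have ha : a ∈ 𝔫 j₀ := by
        rw [← IsLocalization.AtPrime.to_map_mem_maximal_iff L (𝔫 j₀) a hloc, ← has]
        exact Ideal.mul_mem_right _ _ hx
      obtain ⟨t, ht⟩ := hdiv a ha
      obtain ⟨us, hus⟩ := hsu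
      obtain ⟨uσ, huσ⟩ := hσu
      have hx' : x = algebraMap B L z * (algebraMap B L t * ↑uσ⁻¹ * ↑us⁻¹) := by
        have h1 : algebraMap B L σ * algebraMap B L a = algebraMap B L z * algebraMap B L t := by
          rw [← map_mul, ← map_mul, ht]
        have h2 : x = algebraMap B L a * ↑us⁻¹ := by
          rw [← has, ← hus, mul_assoc, Units.mul_inv, mul_one]
        have h3 : algebraMap B L a = ↑uσ⁻¹ * (algebraMap B L z * algebraMap B L t) := by
          rw [← h1, ← huσ, ← mul_assoc, Units.inv_mul, one_mul]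
        rw [h2, h3]; ring
      rw [hx']
      exact Ideal.mul_mem_right _ _ (Ideal.mem_span_singleton_self _)
    · rw [Ideal.span_le, Set.singleton_subset_iff]
      exact (IsLocalization.AtPrime.to_map_mem_maximal_iff L (𝔫 j₀) z hloc).mpr hz
  -- the image of `z` is a non-zero-divisor
  have hreg : ∀ x : L, algebraMap B L z * x = 0 → x = 0 := by
    intro x hx
    obtain ⟨d, hd⟩ := hzπ
    obtain ⟨⟨a, s⟩, has⟩ := IsLocalization.surj (𝔫 j₀).primeCompl x
    simp only at has
    have h1 : algebraMap B L (algebraMap W B π * a) = 0 := by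
      have h2 : algebraMap B L (algebraMap W B π * σ) * x = 0 := by
        rw [hd, map_mul, mul_assoc, mul_comm (algebraMap B L d), ← mul_assoc, hx, zero_mul]
      have h3 : algebraMap B L (algebraMap W B π) * x = 0 := by
        rw [map_mul, mul_assoc, mul_comm (algebraMap B L σ), ← mul_assoc] at h2
        exact (hσu.mul_left_eq_zero).mp h2
      rw [map_mul, ← has, ← mul_assoc, h3, zero_mul]
    rw [IsLocalization.map_eq_zero_iff (𝔫 j₀).primeCompl] at h1
    obtain ⟨m, hm⟩ := h1
    have h4 : (m : B) * a = 0 := by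
      apply pi_mul_cancel (B := B) hπ
      rw [mul_zero, ← hm]; ring
    have h5 : algebraMap B L a = 0 := by
      rw [IsLocalization.map_eq_zero_iff (𝔫 j₀).primeCompl]
      exact ⟨m, h4⟩
    have hsu : IsUnit (algebraMap B L s) := IsLocalization.map_units L s
    rw [h5] at has
    exact (hsu.mul_left_eq_zero).mp has
  have hz0 : algebraMap B L z ≠ 0 := by
    intro h0
    have : (1 : L) = 0 := hreg 1 (by rw [h0, zero_mul])
    exact one_ne_zero this
  obtain ⟨hdom, hdvr⟩ := DiscReg5.isDiscreteValuationRing_of_generator hgen hreg hz0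
  exact ⟨hloc, hdom, hdvr⟩

end DVR

section Count

variable {W : Type*} [CommRing W] [IsDomain W] [IsDiscreteValuationRing W]
  {B : Type*} [CommRing B] [Algebra W B] [Module.Free W B] [Module.Finite W B]
  {π : W} {κ : Type*} [Fintype κ] {𝔫 : κ → Ideal B} {ι : Type*} [Fintype ι] [DecidableEq ι]

/-- A small discriminant forces many points: if `π ^ (n - m) ∤ disc` then `B` has more than `m`
maximal ideals. -/
theorem lt_card_of_not_dvd (hπ : Irreducible π) (hmax : ∀ j, (𝔫 j).IsMaximal)
    (hall : ∀ I : Ideal B, I.IsMaximal → ∃ j, I = 𝔫 j)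
    (hres : ∀ j (x : B), ∃ w : W, x - algebraMap W B w ∈ 𝔫 j)
    (b : Basis ι W B) {m : ℕ} (hdisc : ¬ π ^ (Fintype.card ι - m) ∣ Algebra.discr W b) :
    m < Fintype.card κ := by
  by_contra hle
  rw [not_lt] at hle
  exact hdisc ((pow_dvd_pow π (Nat.sub_le_sub_left hle _)).trans
    (pow_sub_dvd_discr hπ hmax hall hres b))

end Count

end Fermat.Agent.ES.P36.DiscRegSemi5
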