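/-
Program P (S36), chapter REG, glue between the bricks R1 (`RegLocal3`: `discr R0 b = π ^ a * u` over the
two-dimensional local base `R0`) and R0 (`DiscReg5`: the discriminant lemma over the DVR `W = R0 / (T)`)
— helper3.  Mathlib only.

`R` a commutative ring, `S` an `R`-algebra with a finite basis `b`, `I` ANY ideal of `R`
(Mathlib has this only for `I` the maximal ideal of a local ring: `basisQuotient`,
`Algebra.trace_quotient_mk`).

* `repr_mem_of_mem_map` / `mem_map_iff_repr_mem` : `x ∈ I S` iff all coordinates of `x` lie in `I`;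
* `quotBasis I b : Basis ι (R ⧸ I) (S ⧸ I S)`, with `quotBasis_apply`, `quotBasis_repr`;
* `trace_quot_mk` : `Tr_{(S/IS)/(R/I)} (x mod IS) = Tr_{S/R} x mod I`;
* `discr_quotBasis` : `discr (R ⧸ I) (quotBasis I b) = discr R b mod I`;
* `not_pow_dvd_discr_quotBasis` : the form consumed by `DiscReg5.isDiscreteValuationRing_of_discr`:
  if `discr R b = π ^ a * u`, `u` a unit, `a < n` and `π̄ ^ n ∤ π̄ ^ a` in `R ⧸ I` … packaged for a
  domain quotient in which `π̄` is a nonzero non-unit.
-/
import Mathlib

set_option autoImplicit false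
set_option linter.unusedSectionVars false

namespace Fermat.Agent.ES.P36.QuotDisc3

open Module

variable {R S : Type*} [CommRing R] [CommRing S] [Algebra R S]
  {ι : Type*} [Fintype ι] [DecidableEq ι] (I : Ideal R)

/-- the coordinates of an element of `I S` lie in `I`. -/
theorem repr_mem_of_mem_map (b : Basis ι R S) {x : S} (hx : x ∈ I.map (algebraMap R S)) (i : ι) :
    b.repr x i ∈ I := by
  rw [Ideal.map] at hx
  induction hx using Submodule.span_induction generalizing i with
  | mem y hy =>
    obtain ⟨a, ha, rfl⟩ := hy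
    rw [Algebra.algebraMap_eq_smul_one, map_smul, Finsupp.smul_apply, smul_eq_mul]
    exact I.mul_mem_right _ ha
  | zero => simp
  | add y z _ _ hy hz =>
    rw [map_add, Finsupp.add_apply]
    exact I.add_mem (hy i) (hz i)
  | smul s y _ hy =>
    -- `s • y = ∑ (repr y j) • (s * b j)`
    have h1 : s • y = ∑ j, b.repr y j • (s * b j) := by
      conv_lhs => rw [← b.sum_repr y]
      rw [Finset.smul_sum]
      refine Finset.sum_congr rfl fun j _ => ?_
      rw [smul_eq_mul, mul_smul_comm]
    rw [h1, map_sum, Finset.sum_apply']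
    refine I.sum_mem fun j _ => ?_
    rw [map_smul, Finsupp.smul_apply, smul_eq_mul]
    exact I.mul_mem_right _ (hy j)

/-- an element all of whose coordinates lie in `I` lies in `I S`. -/
theorem mem_map_of_repr_mem (b : Basis ι R S) {x : S} (hx : ∀ i, b.repr x i ∈ I) :
    x ∈ I.map (algebraMap R S) := by
  rw [← b.sum_repr x]
  refine Ideal.sum_mem _ fun i _ => ?_
  rw [Algebra.smul_def]
  exact Ideal.mul_mem_right _ _ (Ideal.mem_map_of_mem _ (hx i))

theorem mem_map_iff_repr_mem (b : Basis ι R S) {x : S} :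
    x ∈ I.map (algebraMap R S) ↔ ∀ i, b.repr x i ∈ I :=
  ⟨fun h i => repr_mem_of_mem_map I b h i, mem_map_of_repr_mem I b⟩

/-- the classes of a basis of `S` are linearly independent over `R ⧸ I` in `S ⧸ I S`. -/
theorem linearIndependent_mk (b : Basis ι R S) :
    LinearIndependent (R ⧸ I)
      (fun i => Ideal.Quotient.mk (I.map (algebraMap R S)) (b i)) := by
  rw [Fintype.linearIndependent_iff]
  intro c hc i
  have hr : ∀ j, ∃ r : R, Ideal.Quotient.mk I r = c j := fun j => Ideal.Quotient.mk_surjective _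
  choose r hr using hr
  have h1 : Ideal.Quotient.mk (I.map (algebraMap R S)) (∑ j, r j • b j) = 0 := by
    rw [← hc, map_sum]
    refine Finset.sum_congr rfl fun j _ => ?_
    rw [← hr j, Ideal.Quotient.mk_smul_mk_quotient_map_quotient, Algebra.smul_def]
  have h2 := repr_mem_of_mem_map I b (Ideal.Quotient.eq_zero_iff_mem.mp h1) i
  rw [b.repr_sum_self] at h2
  rw [← hr i]
  exact Ideal.Quotient.eq_zero_iff_mem.mpr h2

/-- the classes of a basis of `S` span `S ⧸ I S` over `R ⧸ I`. -/
theorem span_mk_eq_top (b : Basis ι R S) :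
    ⊤ ≤ Submodule.span (R ⧸ I)
      (Set.range fun i => Ideal.Quotient.mk (I.map (algebraMap R S)) (b i)) := by
  intro y _
  obtain ⟨x, rfl⟩ := Ideal.Quotient.mk_surjective y
  rw [← b.sum_repr x, map_sum]
  refine Submodule.sum_mem _ fun j _ => ?_
  rw [Algebra.smul_def, ← Ideal.Quotient.mk_smul_mk_quotient_map_quotient]
  exact Submodule.smul_mem _ _ (Submodule.subset_span ⟨j, rfl⟩)

/-- **The quotient basis** of `S ⧸ I S` over `R ⧸ I`. -/
noncomputable def quotBasis (b : Basis ι R S) :
    Basis ι (R ⧸ I) (S ⧸ I.map (algebraMap R S)) :=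
  Basis.mk (linearIndependent_mk I b) (span_mk_eq_top I b)

@[simp] theorem quotBasis_apply (b : Basis ι R S) (i : ι) :
    quotBasis I b i = Ideal.Quotient.mk (I.map (algebraMap R S)) (b i) := by
  rw [quotBasis, Basis.mk_apply]

theorem quotBasis_repr (b : Basis ι R S) (x : S) (i : ι) :
    (quotBasis I b).repr (Ideal.Quotient.mk (I.map (algebraMap R S)) x) i =
      Ideal.Quotient.mk I (b.repr x i) := by
  have h1 : Ideal.Quotient.mk (I.map (algebraMap R S)) x =
      ∑ j, Ideal.Quotient.mk I (b.repr x j) • quotBasis I b j := by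
    conv_lhs => rw [← b.sum_repr x]
    rw [map_sum]
    refine Finset.sum_congr rfl fun j _ => ?_
    rw [quotBasis_apply, Ideal.Quotient.mk_smul_mk_quotient_map_quotient, Algebra.smul_def]
  rw [h1, (quotBasis I b).repr_sum_self]

/-- **Trace and reduction commute** (any ideal `I`; `S` free with a finite basis). -/
theorem trace_quot_mk (b : Basis ι R S) (x : S) :
    Algebra.trace (R ⧸ I) (S ⧸ I.map (algebraMap R S))
        (Ideal.Quotient.mk (I.map (algebraMap R S)) x) =
      Ideal.Quotient.mk I (Algebra.trace R S x) := by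
  rw [Algebra.trace_eq_matrix_trace b, Algebra.trace_eq_matrix_trace (quotBasis I b),
    AddMonoidHom.map_trace]
  congr 1
  ext i j
  simp only [Algebra.leftMulMatrix_apply, Algebra.coe_lmul_eq_mul, LinearMap.toMatrix_apply,
    quotBasis_apply, LinearMap.mul_apply', Matrix.map_apply, ← map_mul, quotBasis_repr]

/-- **Discriminant and reduction commute.** -/
theorem discr_quotBasis (b : Basis ι R S) :
    Algebra.discr (R ⧸ I) (quotBasis I b) = Ideal.Quotient.mk I (Algebra.discr R b) := by
  rw [Algebra.discr_def, Algebra.discr_def, RingHom.map_det]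
  congr 1
  ext i j
  rw [Algebra.traceMatrix_apply, Algebra.traceForm_apply, quotBasis_apply, quotBasis_apply,
    ← map_mul, trace_quot_mk I b, RingHom.mapMatrix_apply, Matrix.map_apply,
    Algebra.traceMatrix_apply, Algebra.traceForm_apply]

/-- The hypothesis `hdisc` of `DiscReg5.isDiscreteValuationRing_of_discr` from
`discr R b = π ^ a * u` with `a < card ι`: in a quotient `R ⧸ I` which is a domain and in which the
class of `π` is a nonzero non-unit, `π̄ ^ card ι` does not divide the discriminant of the quotient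
basis. -/
theorem not_pow_dvd_discr_quotBasis [IsDomain (R ⧸ I)] (b : Basis ι R S) (π u : R) (a : ℕ)
    (hu : IsUnit u) (hdisc : Algebra.discr R b = π ^ a * u) (ha : a < Fintype.card ι)
    (hπ0 : Ideal.Quotient.mk I π ≠ 0) (hπu : ¬ IsUnit (Ideal.Quotient.mk I π)) :
    ¬ (Ideal.Quotient.mk I π) ^ Fintype.card ι ∣ Algebra.discr (R ⧸ I) (quotBasis I b) := by
  rw [discr_quotBasis, hdisc, map_mul, map_pow]
  intro hdvd
  have hu' : IsUnit (Ideal.Quotient.mk I u) := hu.map _
  have h1 : (Ideal.Quotient.mk I π) ^ Fintype.card ι ∣ (Ideal.Quotient.mk I π) ^ a :=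
    (hu'.dvd_mul_right).mp hdvd
  obtain ⟨k, hk⟩ : ∃ k, Fintype.card ι = a + (k + 1) := ⟨Fintype.card ι - a - 1, by omega⟩
  rw [hk, pow_add] at h1
  obtain ⟨c, hc⟩ := h1
  have h2 : (Ideal.Quotient.mk I π) ^ a * 1 =
      (Ideal.Quotient.mk I π) ^ a * ((Ideal.Quotient.mk I π) ^ (k + 1) * c) := by
    rw [mul_one, ← mul_assoc]; exact hc
  have h3 := mul_left_cancel₀ (pow_ne_zero a hπ0) h2
  apply hπu
  rw [pow_succ, mul_comm ((Ideal.Quotient.mk I π) ^ k), mul_assoc] at h3
  exact IsUnit.of_mul_eq_one _ h3.symm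

end Fermat.Agent.ES.P36.QuotDisc3
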