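/-
Program P (S36), chapter REG, brick R0 part 3 (helper5; ruling p9): the PACKAGED two-dimensional
forms of the discriminant lemma (D0), i.e. (D1.5) and (D2.4) of `S36_REG2.md`.
Imports `DiscReg5` (local case), `DiscRegSemi5` (semilocal case) and helper3's `QuotDisc3`
(reduction of bases, traces and discriminants modulo an arbitrary ideal).

Base: `R0` a noetherian local domain with `𝔪 = (π, T)`, `π` prime, `π ∤ T` (a smooth point of a
relative curve over an unramified DVR; `T` a horizontal parameter).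
* `base_quotient_dvr` : `R0 ⧸ (T)` is a DVR with uniformiser the class of `π`;
* `quotient_dvr_of_span_pair` : a noetherian local ring with `𝔪 = (s, z)`, `z` a non-zero-divisor
  modulo `s`, has `C ⧸ (s)` a DVR (feeds `RED/CORE/LocalUFD15.ufd`);
* **`exists_span_pair_of_discr`** = (D1.5): `S` a LOCAL `R0`-algebra with a basis of `n` elements,
  same residue field, `discr = π ^ a * unit`, `a < n` ⊢ `∃ z, 𝔪_S = (T, z)` and `S ⧸ (T)` is a DVR;
* **`exists_local_span_pair`** = (D2.4), element form: `Bt` an `R0`-algebra with a basis of `n`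
  elements whose maximal ideals are the `r` pairwise distinct `𝔫 j` (residue field of `R0`),
  `discr = π ^ a * unit`, `a + r ≤ n` ⊢ every `𝔫 j₀` is locally `(T, z)`: `σ • 𝔫 j₀ ⊆ (T, z)` with
  `σ ∉ 𝔫 j₀`, and `z ∣ π σ` modulo `T`;
* **`localization_quotient_dvr`** : ... and for the localisation `C` of `Bt` at `𝔫 j₀`:
  `𝔪_C = (T, z)` and `C ⧸ (T)` is a DVR;
* `exists_chart_form`, `exists_chart_form_of_local` : descent of these generator statements from a
  localisation `S = M⁻¹ B1` to the chart `B1` in the element form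
  `∃ z₁ ∈ x1, ∀ f ∈ x1, ∃ d ∉ x1, d * f ∈ span {t, z₁}` (helper13's `hgen` shape).
-/
import Mathlib
import Fermat.Agent.ES.P36.DiscReg5
import Fermat.Agent.ES.P36.DiscRegSemi5
import Fermat.Agent.ES.P36.QuotDisc3

set_option autoImplicit false
set_option linter.unusedSectionVars false

namespace Fermat.Agent.ES.P36.DiscLift5

open Module IsLocalRing

section Gen

variable {C : Type*} [CommRing C] [IsLocalRing C] [IsNoetherianRing C]

omit [IsNoetherianRing C] in
/-- the class of a non-unit modulo a proper ideal is a non-unit. -/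
theorem mk_mem_nonunits {I : Ideal C} (hI : I ≤ maximalIdeal C) {x : C} (hx : x ∈ maximalIdeal C) :
    ¬ IsUnit (Ideal.Quotient.mk I x) := by
  intro hu
  obtain ⟨y', hy'⟩ := hu.exists_right_inv
  obtain ⟨y, rfl⟩ := Ideal.Quotient.mk_surjective y'
  have h1 : x * y - 1 ∈ I := by
    rw [← Ideal.Quotient.eq_zero_iff_mem, map_sub, map_mul, hy', map_one, sub_self]
  have h2 : (1 : C) ∈ maximalIdeal C := by
    have : (1 : C) = x * y - (x * y - 1) := by ring
    rw [this]
    exact Ideal.sub_mem _ (Ideal.mul_mem_right _ _ hx) (hI h1)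
  exact (mem_maximalIdeal _).mp h2 isUnit_one

/-- **Regular of dimension two ⇒ the quotient by a parameter is a DVR**: `C` a noetherian local
ring with `𝔪 = (s, z)` and `z` a non-zero-divisor modulo `s`: then `C ⧸ (s)` is a discrete valuation
ring with uniformiser the class of `z`. -/
theorem quotient_dvr_of_span_pair (s z : C) (h𝔪 : maximalIdeal C = Ideal.span {s, z})
    (hreg : ∀ x : C, z * x ∈ Ideal.span {s} → x ∈ Ideal.span {s}) :
    ∃ (_ : IsDomain (C ⧸ Ideal.span {s})) (_ : IsDiscreteValuationRing (C ⧸ Ideal.span {s})),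
      Irreducible (Ideal.Quotient.mk (Ideal.span {s}) z) := by
  have hs : s ∈ maximalIdeal C := by rw [h𝔪]; exact Ideal.subset_span (by simp)
  have hz : z ∈ maximalIdeal C := by rw [h𝔪]; exact Ideal.subset_span (by simp)
  have hle : Ideal.span {s} ≤ maximalIdeal C :=
    Ideal.span_le.mpr (Set.singleton_subset_iff.mpr hs)
  have hne : Ideal.span {s} ≠ ⊤ := fun h => by
    rw [h] at hle
    exact (maximalIdeal.isMaximal C).ne_top (top_le_iff.mp hle)
  have hnt : Nontrivial (C ⧸ Ideal.span {s}) := Ideal.Quotient.nontrivial_iff.mpr hne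
  have hloc : IsLocalRing (C ⧸ Ideal.span {s}) :=
    IsLocalRing.of_surjective' (Ideal.Quotient.mk _) Ideal.Quotient.mk_surjective
  have hgen : maximalIdeal (C ⧸ Ideal.span {s}) =
      Ideal.span {Ideal.Quotient.mk (Ideal.span {s}) z} := by
    apply le_antisymm
    · intro x' hx'
      obtain ⟨x, rfl⟩ := Ideal.Quotient.mk_surjective x'
      have hx : x ∈ maximalIdeal C := by
        rw [mem_maximalIdeal]
        intro hu
        exact (mem_maximalIdeal _).mp hx' (hu.map _)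
      rw [h𝔪, Ideal.mem_span_pair] at hx
      obtain ⟨c, d, rfl⟩ := hx
      have hs0 : Ideal.Quotient.mk (Ideal.span {s}) s = 0 :=
        Ideal.Quotient.eq_zero_iff_mem.mpr (Ideal.mem_span_singleton_self s)
      rw [map_add, map_mul, map_mul, hs0, mul_zero, zero_add]
      exact Ideal.mul_mem_left _ _ (Ideal.mem_span_singleton_self _)
    · rw [Ideal.span_le, Set.singleton_subset_iff]
      exact (mem_maximalIdeal _).mpr (mk_mem_nonunits hle hz)
  have hregQ : ∀ x : C ⧸ Ideal.span {s},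
      Ideal.Quotient.mk (Ideal.span {s}) z * x = 0 → x = 0 := by
    intro x' hx'
    obtain ⟨x, rfl⟩ := Ideal.Quotient.mk_surjective x'
    rw [← map_mul, Ideal.Quotient.eq_zero_iff_mem] at hx'
    exact Ideal.Quotient.eq_zero_iff_mem.mpr (hreg x hx')
  have hz0 : Ideal.Quotient.mk (Ideal.span {s}) z ≠ 0 := by
    intro h0
    have : (1 : C ⧸ Ideal.span {s}) = 0 := hregQ 1 (by rw [h0, zero_mul])
    exact one_ne_zero this
  obtain ⟨hdom, hdvr⟩ := DiscReg5.isDiscreteValuationRing_of_generator hgen hregQ hz0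
  refine ⟨hdom, hdvr, ?_⟩
  exact (IsDiscreteValuationRing.irreducible_iff_uniformizer _).mpr hgen

end Gen

section Base

variable {R0 : Type*} [CommRing R0] [IsDomain R0]

/-- `π` is a non-zero-divisor modulo `T`. -/
theorem mem_span_of_pi_mul_mem {π T : R0} (hπ : Prime π) (hT : ¬ π ∣ T) {x : R0}
    (h : π * x ∈ Ideal.span {T}) : x ∈ Ideal.span {T} := by
  obtain ⟨y, hy⟩ := Ideal.mem_span_singleton'.mp h
  have hdvd : π ∣ y * T := ⟨x, hy⟩
  rcases hπ.dvd_or_dvd hdvd with h1 | h1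
  · obtain ⟨y', rfl⟩ := h1
    have : x = y' * T := mul_left_cancel₀ hπ.ne_zero (by rw [← hy]; ring)
    rw [this]
    exact Ideal.mul_mem_left _ _ (Ideal.mem_span_singleton_self T)
  · exact absurd h1 hT

variable [IsLocalRing R0] [IsNoetherianRing R0]

/-- **The base**: `R0` a noetherian local domain with `𝔪 = (π, T)`, `π` prime not dividing `T`:
then `R0 ⧸ (T)` is a discrete valuation ring with uniformiser the class of `π`. -/
theorem base_quotient_dvr (π T : R0) (h𝔪 : maximalIdeal R0 = Ideal.span {π, T})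
    (hπ : Prime π) (hT : ¬ π ∣ T) :
    ∃ (_ : IsDomain (R0 ⧸ Ideal.span {T})) (_ : IsDiscreteValuationRing (R0 ⧸ Ideal.span {T})),
      Irreducible (Ideal.Quotient.mk (Ideal.span {T}) π) := by
  refine quotient_dvr_of_span_pair T π ?_ fun x hx => mem_span_of_pi_mul_mem hπ hT hx
  rw [h𝔪, Set.pair_comm]

end Base

section Lying

variable {R0 : Type*} [CommRing R0] [IsLocalRing R0]
  {S : Type*} [CommRing S] [Algebra R0 S] [Module.Finite R0 S]

/-- the maximal ideal of the local base lands in every maximal ideal of a finite algebra. -/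
theorem algebraMap_mem_of_isMaximal {P : Ideal S} (hP : P.IsMaximal) {x : R0}
    (hx : x ∈ maximalIdeal R0) : algebraMap R0 S x ∈ P := by
  have hint : Algebra.IsIntegral R0 S := Algebra.IsIntegral.of_finite R0 S
  have hmax : (P.comap (algebraMap R0 S)).IsMaximal :=
    Ideal.isMaximal_comap_of_isIntegral_of_isMaximal P
  have heq : P.comap (algebraMap R0 S) = maximalIdeal R0 := eq_maximalIdeal hmax
  have : x ∈ P.comap (algebraMap R0 S) := by rw [heq]; exact hx
  exact this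

end Lying

section Pow

variable {W : Type*} [CommRing W] [IsDomain W]

/-- `ϖ ^ m ∤ ϖ ^ a * unit` for `a < m` (`ϖ` a nonzero non-unit of a domain). -/
theorem not_pow_dvd_pow_mul_unit {ϖ u : W} (hϖ0 : ϖ ≠ 0) (hϖu : ¬ IsUnit ϖ) (hu : IsUnit u)
    {a m : ℕ} (ha : a < m) : ¬ ϖ ^ m ∣ ϖ ^ a * u := by
  intro hdvd
  have h1 : ϖ ^ m ∣ ϖ ^ a := (hu.dvd_mul_right).mp hdvd
  obtain ⟨k, hk⟩ : ∃ k, m = a + (k + 1) := ⟨m - a - 1, by omega⟩
  rw [hk, pow_add] at h1
  obtain ⟨c, hc⟩ := h1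
  have h2 : ϖ ^ a * 1 = ϖ ^ a * (ϖ ^ (k + 1) * c) := by
    rw [mul_one, ← mul_assoc]; exact hc
  have h3 := mul_left_cancel₀ (pow_ne_zero a hϖ0) h2
  apply hϖu
  rw [pow_succ, mul_comm (ϖ ^ k), mul_assoc] at h3
  exact IsUnit.of_mul_eq_one _ h3.symm

end Pow

section LocalCase

variable {R0 : Type*} [CommRing R0] [IsDomain R0] [IsLocalRing R0] [IsNoetherianRing R0]
  {S : Type*} [CommRing S] [Algebra R0 S] [IsLocalRing S]
  {ι : Type*} [Fintype ι] [DecidableEq ι]

/-- **(D1.5), packaged.** `R0` a noetherian local domain with `𝔪 = (π, T)`, `π` prime, `π ∤ T`;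
`S` a LOCAL `R0`-algebra with a basis of `n` elements and the same residue field; if the
discriminant is `π ^ a * unit` with `a < n`, then `𝔪_S = (T, z)` for some `z`, and `S ⧸ (T)` is a
discrete valuation ring. -/
theorem exists_span_pair_of_discr (π T : R0) (h𝔪 : maximalIdeal R0 = Ideal.span {π, T})
    (hπ : Prime π) (hT : ¬ π ∣ T) (b : Basis ι R0 S)
    (hres : ∀ s : S, ∃ r : R0, s - algebraMap R0 S r ∈ maximalIdeal S)
    (a : ℕ) (u : R0) (hu : IsUnit u) (hdisc : Algebra.discr R0 b = π ^ a * u)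
    (ha : a < Fintype.card ι) :
    ∃ z : S, maximalIdeal S = Ideal.span {algebraMap R0 S T, z} ∧
      ∃ (_ : IsDomain (S ⧸ Ideal.span {algebraMap R0 S T})),
        IsDiscreteValuationRing (S ⧸ Ideal.span {algebraMap R0 S T}) := by
  classical
  obtain ⟨hdomW, hdvrW, hirr⟩ := base_quotient_dvr π T h𝔪 hπ hT
  have hfin : Module.Finite R0 S := Module.Finite.of_basis b
  have hnoethS : IsNoetherianRing S := IsNoetherianRing.of_finite R0 S
  set I : Ideal R0 := Ideal.span {T} with hI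
  have hTm : T ∈ maximalIdeal R0 := by rw [h𝔪]; exact Ideal.subset_span (by simp)
  have hTS : algebraMap R0 S T ∈ maximalIdeal S :=
    algebraMap_mem_of_isMaximal (maximalIdeal.isMaximal S) hTm
  have hmap : I.map (algebraMap R0 S) = Ideal.span {algebraMap R0 S T} := by
    rw [hI, Ideal.map_span, Set.image_singleton]
  have hIS : I.map (algebraMap R0 S) ≤ maximalIdeal S := by
    rw [hmap, Ideal.span_le, Set.singleton_subset_iff]; exact hTS
  have hnt : Nontrivial (S ⧸ I.map (algebraMap R0 S)) :=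
    Ideal.Quotient.nontrivial_iff.mpr fun h => by
      rw [h] at hIS
      exact (maximalIdeal.isMaximal S).ne_top (top_le_iff.mp hIS)
  have hlocB : IsLocalRing (S ⧸ I.map (algebraMap R0 S)) :=
    IsLocalRing.of_surjective' (Ideal.Quotient.mk _) Ideal.Quotient.mk_surjective
  have hfree : Module.Free (R0 ⧸ I) (S ⧸ I.map (algebraMap R0 S)) :=
    Module.Free.of_basis (QuotDisc3.quotBasis I b)
  have hfinB : Module.Finite (R0 ⧸ I) (S ⧸ I.map (algebraMap R0 S)) :=
    Module.Finite.of_basis (QuotDisc3.quotBasis I b)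
  have hmkmem : ∀ x : S, x ∈ maximalIdeal S →
      Ideal.Quotient.mk (I.map (algebraMap R0 S)) x ∈
        maximalIdeal (S ⧸ I.map (algebraMap R0 S)) := fun x hx =>
    (mem_maximalIdeal _).mpr (mk_mem_nonunits hIS hx)
  have hresB : ∀ x : S ⧸ I.map (algebraMap R0 S), ∃ w : R0 ⧸ I,
      x - algebraMap (R0 ⧸ I) (S ⧸ I.map (algebraMap R0 S)) w ∈
        maximalIdeal (S ⧸ I.map (algebraMap R0 S)) := by
    intro x'
    obtain ⟨x, rfl⟩ := Ideal.Quotient.mk_surjective x'
    obtain ⟨r, hr⟩ := hres x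
    refine ⟨Ideal.Quotient.mk I r, ?_⟩
    have : Ideal.Quotient.mk (I.map (algebraMap R0 S)) x -
        algebraMap (R0 ⧸ I) (S ⧸ I.map (algebraMap R0 S)) (Ideal.Quotient.mk I r) =
        Ideal.Quotient.mk (I.map (algebraMap R0 S)) (x - algebraMap R0 S r) := by
      rw [map_sub]; rfl
    rw [this]
    exact hmkmem _ hr
  have hdiscB : ¬ (Ideal.Quotient.mk I π) ^ Fintype.card ι ∣
      Algebra.discr (R0 ⧸ I) (QuotDisc3.quotBasis I b) := by
    rw [QuotDisc3.discr_quotBasis, hdisc, map_mul, map_pow]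
    exact not_pow_dvd_pow_mul_unit hirr.ne_zero hirr.not_isUnit (hu.map _) ha
  obtain ⟨z', hz', -⟩ := DiscReg5.exists_generator hirr hresB (QuotDisc3.quotBasis I b) hdiscB
  obtain ⟨hdomB, hdvrB⟩ :=
    DiscReg5.isDiscreteValuationRing_of_discr hirr hresB (QuotDisc3.quotBasis I b) hdiscB
  obtain ⟨z, rfl⟩ := Ideal.Quotient.mk_surjective z'
  have hzS : z ∈ maximalIdeal S := by
    rw [mem_maximalIdeal]
    intro hzu
    have h1 : Ideal.Quotient.mk (I.map (algebraMap R0 S)) z ∈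
        maximalIdeal (S ⧸ I.map (algebraMap R0 S)) := by
      rw [hz']; exact Ideal.mem_span_singleton_self _
    exact (mem_maximalIdeal _).mp h1 (hzu.map _)
  have hpair : maximalIdeal S = Ideal.span {algebraMap R0 S T, z} := by
    apply le_antisymm
    · intro x hx
      have h1 := hmkmem x hx
      rw [hz', Ideal.mem_span_singleton'] at h1
      obtain ⟨c', hc'⟩ := h1
      obtain ⟨c, rfl⟩ := Ideal.Quotient.mk_surjective c'
      have h2 : x - c * z ∈ I.map (algebraMap R0 S) := by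
        rw [← Ideal.Quotient.eq_zero_iff_mem, map_sub, map_mul, hc', sub_self]
      rw [hmap, Ideal.mem_span_singleton'] at h2
      obtain ⟨e, he⟩ := h2
      rw [Ideal.mem_span_pair]
      exact ⟨e, c, by rw [he]; ring⟩
    · rw [Ideal.span_le]
      rintro x (rfl | rfl)
      · exact hTS
      · exact hzS
  refine ⟨z, hpair, ?_⟩
  obtain ⟨hdom, hdvr, -⟩ := quotient_dvr_of_span_pair (algebraMap R0 S T) z hpair (by
    intro x hx
    rw [← hmap, ← Ideal.Quotient.eq_zero_iff_mem] at hx ⊢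
    rw [map_mul] at hx
    rcases mul_eq_zero.mp hx with h0 | h0
    · exfalso
      -- the generator of the maximal ideal of the DVR `B` is not zero
      have hzirr : Irreducible (Ideal.Quotient.mk (I.map (algebraMap R0 S)) z) :=
        (IsDiscreteValuationRing.irreducible_iff_uniformizer _).mpr hz'
      exact hzirr.ne_zero h0
    · exact h0)
  exact ⟨hdom, hdvr⟩

end LocalCase

section SemiCase

variable {R0 : Type*} [CommRing R0] [IsDomain R0] [IsLocalRing R0] [IsNoetherianRing R0]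
  {Bt : Type*} [CommRing Bt] [Algebra R0 Bt]
  {ι : Type*} [Fintype ι] [DecidableEq ι] {κ : Type*} [Fintype κ]

omit [IsDomain R0] [IsLocalRing R0] [IsNoetherianRing R0] [Algebra R0 Bt] in
/-- membership in the image of an ideal containing the kernel. -/
theorem mk_mem_map_iff {K N : Ideal Bt} (hKN : K ≤ N) {x : Bt} :
    Ideal.Quotient.mk K x ∈ N.map (Ideal.Quotient.mk K) ↔ x ∈ N := by
  constructor
  · intro h
    obtain ⟨y, hy, hxy⟩ :=
      (Ideal.mem_map_iff_of_surjective _ Ideal.Quotient.mk_surjective).mp h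
    have h1 : x - y ∈ K := by
      rw [← Ideal.Quotient.eq_zero_iff_mem, map_sub, hxy, sub_self]
    have : x = (x - y) + y := by ring
    rw [this]
    exact Ideal.add_mem _ (hKN h1) hy
  · exact fun h => Ideal.mem_map_of_mem _ h

/-- **(D2.4), packaged, element form.** `R0` a noetherian local domain with `𝔪 = (π, T)`, `π` prime,
`π ∤ T`; `Bt` an `R0`-algebra with a basis of `n` elements whose maximal ideals are the `r`
pairwise distinct `𝔫 j`, all with the residue field of `R0`; if the discriminant is `π ^ a * unit`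
with `a + r ≤ n`, then every `𝔫 j₀` is locally generated by `T` and one more element `z`, and `z`
divides `π` locally modulo `T`. -/
theorem exists_local_span_pair (π T : R0) (h𝔪 : maximalIdeal R0 = Ideal.span {π, T})
    (hπ : Prime π) (hT : ¬ π ∣ T) (𝔫 : κ → Ideal Bt)
    (hmax : ∀ j, (𝔫 j).IsMaximal)
    (hall : ∀ P : Ideal Bt, P.IsMaximal → ∃ j, P = 𝔫 j) (hinj : Function.Injective 𝔫)
    (hres : ∀ j (x : Bt), ∃ r : R0, x - algebraMap R0 Bt r ∈ 𝔫 j)
    (b : Basis ι R0 Bt) (a : ℕ) (u : R0) (hu : IsUnit u)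
    (hdisc : Algebra.discr R0 b = π ^ a * u) (ha : a + Fintype.card κ ≤ Fintype.card ι)
    (j₀ : κ) :
    ∃ z ∈ 𝔫 j₀, ∃ σ : Bt, σ ∉ 𝔫 j₀ ∧
      (∀ x ∈ 𝔫 j₀, σ * x ∈ Ideal.span {algebraMap R0 Bt T, z}) ∧
      ∃ d : Bt, z * d - algebraMap R0 Bt π * σ ∈ Ideal.span {algebraMap R0 Bt T} := by
  classical
  obtain ⟨hdomW, hdvrW, hirr⟩ := base_quotient_dvr π T h𝔪 hπ hT
  have hfin : Module.Finite R0 Bt := Module.Finite.of_basis b
  set I : Ideal R0 := Ideal.span {T} with hI
  have hTm : T ∈ maximalIdeal R0 := by rw [h𝔪]; exact Ideal.subset_span (by simp)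
  have hmap : I.map (algebraMap R0 Bt) = Ideal.span {algebraMap R0 Bt T} := by
    rw [hI, Ideal.map_span, Set.image_singleton]
  have hK : ∀ j, I.map (algebraMap R0 Bt) ≤ 𝔫 j := fun j => by
    rw [hmap, Ideal.span_le, Set.singleton_subset_iff]
    exact algebraMap_mem_of_isMaximal (hmax j) hTm
  have hfree : Module.Free (R0 ⧸ I) (Bt ⧸ I.map (algebraMap R0 Bt)) :=
    Module.Free.of_basis (QuotDisc3.quotBasis I b)
  have hfinB : Module.Finite (R0 ⧸ I) (Bt ⧸ I.map (algebraMap R0 Bt)) :=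
    Module.Finite.of_basis (QuotDisc3.quotBasis I b)
  -- the maximal ideals of the quotient
  set 𝔫' : κ → Ideal (Bt ⧸ I.map (algebraMap R0 Bt)) :=
    fun j => (𝔫 j).map (Ideal.Quotient.mk (I.map (algebraMap R0 Bt))) with h𝔫'
  have hmem : ∀ j (x : Bt),
      Ideal.Quotient.mk (I.map (algebraMap R0 Bt)) x ∈ 𝔫' j ↔ x ∈ 𝔫 j := fun j x =>
    mk_mem_map_iff (hK j)
  have hmax' : ∀ j, (𝔫' j).IsMaximal := fun j => by
    rcases Ideal.map_eq_top_or_isMaximal_of_surjective
      (Ideal.Quotient.mk (I.map (algebraMap R0 Bt))) Ideal.Quotient.mk_surjective (hmax j)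
      with h | h
    · exfalso
      have h1 : Ideal.Quotient.mk (I.map (algebraMap R0 Bt)) 1 ∈ 𝔫' j := by
        rw [h𝔫']; simp only; rw [h]; exact Submodule.mem_top
      exact (hmax j).ne_top ((Ideal.eq_top_iff_one _).mpr ((hmem j 1).mp h1))
    · exact h
  have hall' : ∀ P : Ideal (Bt ⧸ I.map (algebraMap R0 Bt)), P.IsMaximal → ∃ j, P = 𝔫' j := by
    intro P hP
    have hc : (P.comap (Ideal.Quotient.mk (I.map (algebraMap R0 Bt)))).IsMaximal :=
      Ideal.comap_isMaximal_of_surjective _ Ideal.Quotient.mk_surjective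
    obtain ⟨j, hj⟩ := hall _ hc
    refine ⟨j, ?_⟩
    rw [h𝔫']; simp only
    rw [← hj, Ideal.map_comap_of_surjective _ Ideal.Quotient.mk_surjective]
  have hinj' : Function.Injective 𝔫' := by
    intro j j' hjj'
    apply hinj
    ext x
    rw [← hmem j x, ← hmem j' x, hjj']
  have hres' : ∀ j (x : Bt ⧸ I.map (algebraMap R0 Bt)), ∃ w : R0 ⧸ I,
      x - algebraMap (R0 ⧸ I) (Bt ⧸ I.map (algebraMap R0 Bt)) w ∈ 𝔫' j := by
    intro j x'
    obtain ⟨x, rfl⟩ := Ideal.Quotient.mk_surjective x'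
    obtain ⟨r, hr⟩ := hres j x
    refine ⟨Ideal.Quotient.mk I r, ?_⟩
    have : Ideal.Quotient.mk (I.map (algebraMap R0 Bt)) x -
        algebraMap (R0 ⧸ I) (Bt ⧸ I.map (algebraMap R0 Bt)) (Ideal.Quotient.mk I r) =
        Ideal.Quotient.mk (I.map (algebraMap R0 Bt)) (x - algebraMap R0 Bt r) := by
      rw [map_sub]; rfl
    rw [this]
    exact (hmem j _).mpr hr
  have hdisc' : ¬ (Ideal.Quotient.mk I π) ^ (Fintype.card ι - Fintype.card κ + 1) ∣
      Algebra.discr (R0 ⧸ I) (QuotDisc3.quotBasis I b) := by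
    rw [QuotDisc3.discr_quotBasis, hdisc, map_mul, map_pow]
    exact not_pow_dvd_pow_mul_unit hirr.ne_zero hirr.not_isUnit (hu.map _) (by omega)
  obtain ⟨z', hz', σ', hσ', hdiv, hzπ⟩ :=
    DiscRegSemi5.exists_local_generator hirr hmax' hall' hinj' hres'
      (QuotDisc3.quotBasis I b) hdisc' j₀
  obtain ⟨z, rfl⟩ := Ideal.Quotient.mk_surjective z'
  obtain ⟨σ, rfl⟩ := Ideal.Quotient.mk_surjective σ'
  refine ⟨z, (hmem j₀ z).mp hz', σ, fun h => hσ' ((hmem j₀ σ).mpr h), fun x hx => ?_, ?_⟩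
  · obtain ⟨c', hc'⟩ := hdiv _ ((hmem j₀ x).mpr hx)
    obtain ⟨c, rfl⟩ := Ideal.Quotient.mk_surjective c'
    have h2 : σ * x - z * c ∈ I.map (algebraMap R0 Bt) := by
      rw [← Ideal.Quotient.eq_zero_iff_mem, map_sub, map_mul, map_mul, hc', sub_self]
    rw [hmap, Ideal.mem_span_singleton'] at h2
    obtain ⟨e, he⟩ := h2
    rw [Ideal.mem_span_pair]
    exact ⟨e, c, by rw [he]; ring⟩
  · obtain ⟨d', hd'⟩ := hzπ
    obtain ⟨d, rfl⟩ := Ideal.Quotient.mk_surjective d'
    refine ⟨d, ?_⟩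
    rw [← hmap, ← Ideal.Quotient.eq_zero_iff_mem, map_sub, map_mul, map_mul, ← hd']
    have : algebraMap (R0 ⧸ I) (Bt ⧸ I.map (algebraMap R0 Bt)) (Ideal.Quotient.mk I π) =
        Ideal.Quotient.mk (I.map (algebraMap R0 Bt)) (algebraMap R0 Bt π) := rfl
    rw [this, sub_self]

end SemiCase

section Loc

variable {Bt : Type*} [CommRing Bt] (P : Ideal Bt) [P.IsPrime]
  (C : Type*) [CommRing C] [Algebra Bt C] [IsLocalization.AtPrime C P] [IsLocalRing C]

/-- local generation by two elements passes to the localisation. -/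
theorem maximalIdeal_eq_span_pair_of_local {t z σ : Bt} (ht : t ∈ P) (hz : z ∈ P) (hσ : σ ∉ P)
    (h : ∀ x ∈ P, σ * x ∈ Ideal.span {t, z}) :
    maximalIdeal C = Ideal.span {algebraMap Bt C t, algebraMap Bt C z} := by
  have hloc : IsLocalRing C := inferInstance
  apply le_antisymm
  · intro x hx
    obtain ⟨⟨a, s⟩, has⟩ := IsLocalization.surj P.primeCompl x
    simp only at has
    have hsu : IsUnit (algebraMap Bt C s) := IsLocalization.map_units C s
    have hσu : IsUnit (algebraMap Bt C σ) :=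
      IsLocalization.map_units C (⟨σ, hσ⟩ : P.primeCompl)
    have ha : a ∈ P := by
      rw [← IsLocalization.AtPrime.to_map_mem_maximal_iff C P a hloc, ← has]
      exact Ideal.mul_mem_right _ _ hx
    obtain ⟨e, c, hec⟩ := Ideal.mem_span_pair.mp (h a ha)
    obtain ⟨us, hus⟩ := hsu
    obtain ⟨uσ, huσ⟩ := hσu
    have h1 : algebraMap Bt C σ * algebraMap Bt C a =
        algebraMap Bt C e * algebraMap Bt C t + algebraMap Bt C c * algebraMap Bt C z := by
      rw [← map_mul, ← map_mul, ← map_mul, ← map_add, hec]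
    have h2 : x = algebraMap Bt C a * ↑us⁻¹ := by
      rw [← has, ← hus, mul_assoc, Units.mul_inv, mul_one]
    have h3 : algebraMap Bt C a = ↑uσ⁻¹ *
        (algebraMap Bt C e * algebraMap Bt C t + algebraMap Bt C c * algebraMap Bt C z) := by
      rw [← h1, ← huσ, ← mul_assoc, Units.inv_mul, one_mul]
    rw [Ideal.mem_span_pair]
    refine ⟨↑uσ⁻¹ * ↑us⁻¹ * algebraMap Bt C e, ↑uσ⁻¹ * ↑us⁻¹ * algebraMap Bt C c, ?_⟩
    rw [h2, h3]; ring
  · rw [Ideal.span_le]
    rintro x (rfl | rfl)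
    · exact (IsLocalization.AtPrime.to_map_mem_maximal_iff C P t hloc).mpr ht
    · exact (IsLocalization.AtPrime.to_map_mem_maximal_iff C P z hloc).mpr hz

omit [IsLocalRing C] in
include P in
/-- a non-zero-divisor modulo `t` stays one in the localisation. -/
theorem mem_span_of_mul_mem_of_local {p t : Bt}
    (hp : ∀ x : Bt, p * x ∈ Ideal.span {t} → x ∈ Ideal.span {t}) {x : C}
    (hx : algebraMap Bt C p * x ∈ Ideal.span {algebraMap Bt C t}) :
    x ∈ Ideal.span {algebraMap Bt C t} := by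
  obtain ⟨w, hw⟩ := Ideal.mem_span_singleton'.mp hx
  obtain ⟨⟨a, s₁⟩, has⟩ := IsLocalization.surj P.primeCompl x
  obtain ⟨⟨c, s₂⟩, hcs⟩ := IsLocalization.surj P.primeCompl w
  simp only at has hcs
  have h1 : algebraMap Bt C (p * a * s₂) = algebraMap Bt C (t * c * s₁) := by
    rw [map_mul, map_mul, map_mul, map_mul, ← has, ← hcs]
    calc algebraMap Bt C p * (x * algebraMap Bt C s₁) * algebraMap Bt C s₂
        = (algebraMap Bt C p * x) * algebraMap Bt C s₁ * algebraMap Bt C s₂ := by ring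
      _ = (w * algebraMap Bt C t) * algebraMap Bt C s₁ * algebraMap Bt C s₂ := by rw [hw]
      _ = algebraMap Bt C t * (w * algebraMap Bt C s₂) * algebraMap Bt C s₁ := by ring
  obtain ⟨m, hm⟩ := (IsLocalization.eq_iff_exists P.primeCompl C).mp h1
  have h2 : p * ((m : Bt) * a * s₂) ∈ Ideal.span {t} := by
    have : p * ((m : Bt) * a * s₂) = ((m : Bt) * c * s₁) * t := by
      calc p * ((m : Bt) * a * s₂) = (m : Bt) * (p * a * s₂) := by ring
        _ = (m : Bt) * (t * c * s₁) := hm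
        _ = ((m : Bt) * c * s₁) * t := by ring
    rw [this]
    exact Ideal.mul_mem_left _ _ (Ideal.mem_span_singleton_self t)
  obtain ⟨f, hf⟩ := Ideal.mem_span_singleton'.mp (hp _ h2)
  have hmu : IsUnit (algebraMap Bt C m) := IsLocalization.map_units C m
  have hs₁u : IsUnit (algebraMap Bt C s₁) := IsLocalization.map_units C s₁
  have hs₂u : IsUnit (algebraMap Bt C s₂) := IsLocalization.map_units C s₂
  obtain ⟨um, hum⟩ := hmu
  obtain ⟨u₁, hu₁⟩ := hs₁u
  obtain ⟨u₂, hu₂⟩ := hs₂u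
  have h3 : algebraMap Bt C f * algebraMap Bt C t =
      algebraMap Bt C m * (x * algebraMap Bt C s₁) * algebraMap Bt C s₂ := by
    rw [has, ← map_mul, ← map_mul, ← map_mul, hf]
  have h4 : x = (↑um⁻¹ * ↑u₁⁻¹ * ↑u₂⁻¹ * algebraMap Bt C f) * algebraMap Bt C t := by
    rw [mul_assoc, h3, ← hum, ← hu₁, ← hu₂]
    calc x = (↑um⁻¹ * ↑um) * (↑u₁⁻¹ * ↑u₁) * (↑u₂⁻¹ * ↑u₂) * x := by
          rw [Units.inv_mul, Units.inv_mul, Units.inv_mul]; ring
      _ = ↑um⁻¹ * ↑u₁⁻¹ * ↑u₂⁻¹ * (↑um * (x * ↑u₁) * ↑u₂) := by ring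
  rw [h4]
  exact Ideal.mul_mem_left _ _ (Ideal.mem_span_singleton_self _)

omit [IsLocalRing C] in
/-- if `z` divides `p σ` modulo `t` with `σ ∉ P` and `p` is a non-zero-divisor modulo `t`, then
`z` is a non-zero-divisor modulo `t` in the localisation. -/
theorem reg_of_local {p t z σ d : Bt} (hσ : σ ∉ P)
    (hp : ∀ x : Bt, p * x ∈ Ideal.span {t} → x ∈ Ideal.span {t})
    (hd : z * d - p * σ ∈ Ideal.span {t}) {x : C}
    (hx : algebraMap Bt C z * x ∈ Ideal.span {algebraMap Bt C t}) :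
    x ∈ Ideal.span {algebraMap Bt C t} := by
  obtain ⟨y, hy⟩ := Ideal.mem_span_singleton'.mp hx
  obtain ⟨e₀, he₀⟩ := Ideal.mem_span_singleton'.mp hd
  have hσu : IsUnit (algebraMap Bt C σ) :=
    IsLocalization.map_units C (⟨σ, hσ⟩ : P.primeCompl)
  obtain ⟨uσ, huσ⟩ := hσu
  apply mem_span_of_mul_mem_of_local P C hp
  have h1 : algebraMap Bt C z * algebraMap Bt C d =
      algebraMap Bt C p * algebraMap Bt C σ + algebraMap Bt C e₀ * algebraMap Bt C t := by
    rw [← map_mul, ← map_mul, ← map_mul, ← map_add, he₀]; congr 1; ring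
  have h2 : algebraMap Bt C p * x =
      (↑uσ⁻¹ * (algebraMap Bt C d * y - algebraMap Bt C e₀ * x)) * algebraMap Bt C t := by
    have h3 : algebraMap Bt C p * ↑uσ * x =
        (algebraMap Bt C d * y - algebraMap Bt C e₀ * x) * algebraMap Bt C t := by
      rw [huσ]
      calc algebraMap Bt C p * algebraMap Bt C σ * x
          = (algebraMap Bt C z * algebraMap Bt C d - algebraMap Bt C e₀ * algebraMap Bt C t) * x := by
            rw [h1]; ring
        _ = algebraMap Bt C d * (algebraMap Bt C z * x) -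
            algebraMap Bt C e₀ * x * algebraMap Bt C t := by ring
        _ = (algebraMap Bt C d * y - algebraMap Bt C e₀ * x) * algebraMap Bt C t := by
            rw [← hy]; ring
    calc algebraMap Bt C p * x = (↑uσ⁻¹ * ↑uσ) * (algebraMap Bt C p * x) := by
          rw [Units.inv_mul, one_mul]
      _ = ↑uσ⁻¹ * (algebraMap Bt C p * ↑uσ * x) := by ring
      _ = _ := by rw [h3]; ring
  rw [h2]
  exact Ideal.mul_mem_left _ _ (Ideal.mem_span_singleton_self _)

end Loc

section SemiDVR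

variable {R0 : Type*} [CommRing R0] [IsDomain R0] [IsLocalRing R0] [IsNoetherianRing R0]
  {Bt : Type*} [CommRing Bt] [Algebra R0 Bt]
  {ι : Type*} [Fintype ι] [DecidableEq ι] {κ : Type*} [Fintype κ]

omit [IsLocalRing R0] [IsNoetherianRing R0] in
/-- `π` is a non-zero-divisor modulo `T` in a free `R0`-algebra. -/
theorem mem_span_of_pi_mul_mem_free {π T : R0} (hπ : Prime π) (hT : ¬ π ∣ T) (b : Basis ι R0 Bt)
    {x : Bt} (h : algebraMap R0 Bt π * x ∈ Ideal.span {algebraMap R0 Bt T}) :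
    x ∈ Ideal.span {algebraMap R0 Bt T} := by
  have hmap : (Ideal.span {T}).map (algebraMap R0 Bt) = Ideal.span {algebraMap R0 Bt T} := by
    rw [Ideal.map_span, Set.image_singleton]
  rw [← hmap, QuotDisc3.mem_map_iff_repr_mem _ b] at h ⊢
  intro i
  have := h i
  rw [← Algebra.smul_def, map_smul, Finsupp.smul_apply, smul_eq_mul] at this
  exact mem_span_of_pi_mul_mem hπ hT this

/-- **(D2.4), packaged, localisation form.** In the situation of `exists_local_span_pair`, the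
localisation `C` of `Bt` at `𝔫 j₀` has `𝔪_C = (T, z)` and `C ⧸ (T)` is a discrete valuation
ring. -/
theorem localization_quotient_dvr (π T : R0) (h𝔪 : maximalIdeal R0 = Ideal.span {π, T})
    (hπ : Prime π) (hT : ¬ π ∣ T) (𝔫 : κ → Ideal Bt)
    (hmax : ∀ j, (𝔫 j).IsMaximal)
    (hall : ∀ P : Ideal Bt, P.IsMaximal → ∃ j, P = 𝔫 j) (hinj : Function.Injective 𝔫)
    (hres : ∀ j (x : Bt), ∃ r : R0, x - algebraMap R0 Bt r ∈ 𝔫 j)
    (b : Basis ι R0 Bt) (a : ℕ) (u : R0) (hu : IsUnit u)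
    (hdisc : Algebra.discr R0 b = π ^ a * u) (ha : a + Fintype.card κ ≤ Fintype.card ι)
    (j₀ : κ) [(𝔫 j₀).IsPrime] (C : Type*) [CommRing C] [Algebra Bt C]
    [IsLocalization.AtPrime C (𝔫 j₀)] [IsLocalRing C] :
    ∃ z ∈ 𝔫 j₀,
      maximalIdeal C =
        Ideal.span {algebraMap Bt C (algebraMap R0 Bt T), algebraMap Bt C z} ∧
      ∃ (_ : IsDomain (C ⧸ Ideal.span {algebraMap Bt C (algebraMap R0 Bt T)})),
        IsDiscreteValuationRing (C ⧸ Ideal.span {algebraMap Bt C (algebraMap R0 Bt T)}) := by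
  obtain ⟨z, hz, σ, hσ, hgen, d, hd⟩ :=
    exists_local_span_pair π T h𝔪 hπ hT 𝔫 hmax hall hinj hres b a u hu hdisc ha j₀
  have hfin : Module.Finite R0 Bt := Module.Finite.of_basis b
  have hnoethB : IsNoetherianRing Bt := IsNoetherianRing.of_finite R0 Bt
  have hnoethC : IsNoetherianRing C :=
    IsLocalization.isNoetherianRing (𝔫 j₀).primeCompl C hnoethB
  have hTm : T ∈ maximalIdeal R0 := by rw [h𝔪]; exact Ideal.subset_span (by simp)
  have ht : algebraMap R0 Bt T ∈ 𝔫 j₀ := algebraMap_mem_of_isMaximal (hmax j₀) hTm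
  have hpair := maximalIdeal_eq_span_pair_of_local (𝔫 j₀) C ht hz hσ hgen
  refine ⟨z, hz, hpair, ?_⟩
  obtain ⟨hdom, hdvr, -⟩ := quotient_dvr_of_span_pair _ _ hpair fun x hx =>
    reg_of_local (𝔫 j₀) C hσ (fun y hy => mem_span_of_pi_mul_mem_free hπ hT b hy) hd hx
  exact ⟨hdom, hdvr⟩

end SemiDVR

section Chart

variable {B1 : Type*} [CommRing B1] (M : Submonoid B1)
  (S : Type*) [CommRing S] [Algebra B1 S] [IsLocalization M S] [IsLocalRing S]

include M in
/-- **Chart (element) form**: if the localisation `S = M⁻¹ B1` is local with `𝔪_S = (t, z)`,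
`t ∈ B1`, and `x1` is the contraction of `𝔪_S`, then `x1` is generated by `t` and some `z₁ ∈ x1`
up to a multiplier outside `x1`. -/
theorem exists_chart_form (x1 : Ideal B1)
    (hx1 : (maximalIdeal S).comap (algebraMap B1 S) = x1) (t : B1) (z : S)
    (h : maximalIdeal S = Ideal.span {algebraMap B1 S t, z}) :
    ∃ z₁ : B1, z₁ ∈ x1 ∧ ∀ f ∈ x1, ∃ d : B1, d ∉ x1 ∧ d * f ∈ Ideal.span {t, z₁} := by
  have hM : ∀ m : M, (m : B1) ∉ x1 := fun m hm => by
    rw [← hx1, Ideal.mem_comap] at hm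
    exact (mem_maximalIdeal _).mp hm (IsLocalization.map_units S m)
  obtain ⟨⟨z₁, m₁⟩, hz₁⟩ := IsLocalization.surj M z
  simp only at hz₁
  have hzS : z ∈ maximalIdeal S := by rw [h]; exact Ideal.subset_span (by simp)
  refine ⟨z₁, ?_, fun f hf => ?_⟩
  · rw [← hx1, Ideal.mem_comap, ← hz₁]
    exact Ideal.mul_mem_right _ _ hzS
  · have hfS : algebraMap B1 S f ∈ maximalIdeal S := by
      rw [← hx1] at hf; exact hf
    rw [h, Ideal.mem_span_pair] at hfS
    obtain ⟨a, c, hac⟩ := hfS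
    obtain ⟨⟨a₁, m₂⟩, ha₁⟩ := IsLocalization.surj M a
    obtain ⟨⟨c₁, m₃⟩, hc₁⟩ := IsLocalization.surj M c
    simp only at ha₁ hc₁
    have h1 : algebraMap B1 S ((m₁ : B1) * m₂ * m₃ * f) =
        algebraMap B1 S (a₁ * m₁ * m₃ * t + c₁ * m₂ * z₁) := by
      simp only [map_mul, map_add]
      rw [← hac, ← ha₁, ← hc₁, ← hz₁]; ring
    obtain ⟨m₄, hm₄⟩ := (IsLocalization.eq_iff_exists M S).mp h1
    refine ⟨(m₄ * m₁ * m₂ * m₃ : M), hM _, ?_⟩
    have : ((m₄ * m₁ * m₂ * m₃ : M) : B1) * f =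
        ((m₄ : B1) * a₁ * m₁ * m₃) * t + ((m₄ : B1) * c₁ * m₂) * z₁ := by
      calc ((m₄ * m₁ * m₂ * m₃ : M) : B1) * f = (m₄ : B1) * ((m₁ : B1) * m₂ * m₃ * f) := by
            push_cast; ring
        _ = (m₄ : B1) * (a₁ * m₁ * m₃ * t + c₁ * m₂ * z₁) := hm₄
        _ = _ := by ring
    rw [this, Ideal.mem_span_pair]
    exact ⟨_, _, rfl⟩

end Chart

section ChartSemi

variable {B1 : Type*} [CommRing B1] (M : Submonoid B1)
  (S : Type*) [CommRing S] [Algebra B1 S] [IsLocalization M S]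

include M in
/-- **Chart (element) form, semilocal version**: `S = M⁻¹ B1`, `𝔫` a prime of `S` with contraction
`y`; if `𝔫` is locally generated by the image of `t ∈ B1` and some `z ∈ 𝔫` (multiplier
`σ ∉ 𝔫`), then `y` is generated by `t` and some `z₁ ∈ y` up to multipliers outside `y`. -/
theorem exists_chart_form_of_local (y : Ideal B1) (𝔫 : Ideal S) [𝔫.IsPrime]
    (hy : 𝔫.comap (algebraMap B1 S) = y) (t : B1) {z σ : S} (hz : z ∈ 𝔫) (hσ : σ ∉ 𝔫)
    (h : ∀ x ∈ 𝔫, σ * x ∈ Ideal.span {algebraMap B1 S t, z}) :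
    ∃ z₁ : B1, z₁ ∈ y ∧ ∀ f ∈ y, ∃ d : B1, d ∉ y ∧ d * f ∈ Ideal.span {t, z₁} := by
  have hyprime : y.IsPrime := hy ▸ Ideal.IsPrime.comap (algebraMap B1 S)
  have hunit : ∀ m : M, algebraMap B1 S m ∉ 𝔫 := fun m hm =>
    (Ideal.IsPrime.ne_top ‹𝔫.IsPrime›) (Ideal.eq_top_of_isUnit_mem _ hm (IsLocalization.map_units S m))
  have hM : ∀ m : M, (m : B1) ∉ y := fun m hm => by
    rw [← hy, Ideal.mem_comap] at hm
    exact hunit m hm
  obtain ⟨⟨z₁, m₁⟩, hz₁⟩ := IsLocalization.surj M z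
  obtain ⟨⟨σ₁, m₀⟩, hσ₁⟩ := IsLocalization.surj M σ
  simp only at hz₁ hσ₁
  have hσ₁y : σ₁ ∉ y := fun hmem => by
    rw [← hy, Ideal.mem_comap, ← hσ₁] at hmem
    rcases (‹𝔫.IsPrime›).mem_or_mem hmem with h1 | h1
    · exact hσ h1
    · exact hunit m₀ h1
  refine ⟨z₁, ?_, fun f hf => ?_⟩
  · rw [← hy, Ideal.mem_comap, ← hz₁]
    exact Ideal.mul_mem_right _ _ hz
  · have hfS : algebraMap B1 S f ∈ 𝔫 := by
      rw [← hy] at hf; exact hf
    obtain ⟨a, c, hac⟩ := Ideal.mem_span_pair.mp (h _ hfS)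
    obtain ⟨⟨a₁, m₂⟩, ha₁⟩ := IsLocalization.surj M a
    obtain ⟨⟨c₁, m₃⟩, hc₁⟩ := IsLocalization.surj M c
    simp only at ha₁ hc₁
    have h1 : algebraMap B1 S (σ₁ * m₁ * m₂ * m₃ * f) =
        algebraMap B1 S (a₁ * m₀ * m₁ * m₃ * t + c₁ * m₀ * m₂ * z₁) := by
      simp only [map_mul, map_add]
      rw [← ha₁, ← hc₁, ← hz₁, ← hσ₁]
      calc σ * algebraMap B1 S m₀ * algebraMap B1 S m₁ * algebraMap B1 S m₂ * algebraMap B1 S m₃ *
            algebraMap B1 S f
          = (σ * algebraMap B1 S f) * (algebraMap B1 S m₀ * algebraMap B1 S m₁ *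
              algebraMap B1 S m₂ * algebraMap B1 S m₃) := by ring
        _ = (a * algebraMap B1 S t + c * z) * (algebraMap B1 S m₀ * algebraMap B1 S m₁ *
              algebraMap B1 S m₂ * algebraMap B1 S m₃) := by rw [hac]
        _ = _ := by ring
    obtain ⟨m₄, hm₄⟩ := (IsLocalization.eq_iff_exists M S).mp h1
    refine ⟨(m₄ : B1) * (σ₁ * m₁ * m₂ * m₃), fun hmem => ?_, ?_⟩
    · rcases hyprime.mem_or_mem hmem with h2 | h2
      · exact hM m₄ h2
      · rcases hyprime.mem_or_mem h2 with h3 | h3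
        · rcases hyprime.mem_or_mem h3 with h4 | h4
          · rcases hyprime.mem_or_mem h4 with h5 | h5
            · exact hσ₁y h5
            · exact hM m₁ h5
          · exact hM m₂ h4
        · exact hM m₃ h3
    · have : (m₄ : B1) * (σ₁ * m₁ * m₂ * m₃) * f =
          ((m₄ : B1) * a₁ * m₀ * m₁ * m₃) * t + ((m₄ : B1) * c₁ * m₀ * m₂) * z₁ := by
        calc (m₄ : B1) * (σ₁ * m₁ * m₂ * m₃) * f = (m₄ : B1) * (σ₁ * m₁ * m₂ * m₃ * f) := by ring
          _ = (m₄ : B1) * (a₁ * m₀ * m₁ * m₃ * t + c₁ * m₀ * m₂ * z₁) := hm₄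
          _ = _ := by ring
      rw [this, Ideal.mem_span_pair]
      exact ⟨_, _, rfl⟩

end ChartSemi

end Fermat.Agent.ES.P36.DiscLift5
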