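/-
Program P (S36), chapter REG, brick RegInst (helper21), ABSTRACT layer: the instance of
`RegLocal3.discr_eq_pi_pow_mul_unit` for a pair of chart rings `B0 ⊆ B1` (`B1` a finite `B0`-algebra,
both integrally closed noetherian domains), `x1` a prime of `B1` over `x0 := x1 ∩ B0`,
`R0 := RP x0 = (B0)_{x0}`, `S := SP B1 x0 = (B0 ∖ x0)⁻¹ B1` (`LocalFree26` vocabulary), assembled from
helper3's `ChartLocal3` (chart → localisation bridge) and `RegLocal3` ((D1.0)–(D1.2)).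

* `hUNR_of_chart`   : the hypothesis `hUNR` of `RegLocal3.discr_eq_pi_pow_mul_unit` from its CHART form
  (valuation rings of `F = Frac B1` containing `B1` and the inverses of `B0 ∖ x0`, uniformiser in `B0`);
* `regData`         : **the hypothesis list of `DiscLift5.exists_span_pair_of_discr` except the exponent
  bound**, for `(R0, S)`, with a basis indexed by `Fin n`, `n = finrank R0 S`;
* `exists_elt_form_of_exp` : with the exponent bound (`hexp`, R2) the element form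
  `∃ z ∈ x1, ∀ f ∈ x1, ∃ d ∉ x1, d * f ∈ span {T, z}` consumed by `NodeRegChart10.nodeReg_chart`.
-/
import Mathlib
import Fermat.Agent.RED.PUR.LocalFree26
import Fermat.Agent.RED.PUR.PurityMain26
import Fermat.Agent.ES.P36.RegLocal3
import Fermat.Agent.ES.P36.ChartLocal3
import Fermat.Agent.ES.P36.DiscLift5

set_option autoImplicit false
set_option linter.style.haveILetI false
set_option linter.unusedSectionVars false

namespace Fermat.Agent.ES.P36.RegAbs21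

open IsLocalRing Module Fermat.Agent.RED.PUR.LocalFree26 Fermat.Agent.RED.PUR.PurityMain26

section UNR

variable {B0 B1 : Type*} [CommRing B0] [IsDomain B0] [CommRing B1] [IsDomain B1] [Algebra B0 B1]
  [FaithfulSMul B0 B1] (F : Type*) [Field F] [Algebra B1 F] [IsFractionRing B1 F]
  (x0 : Ideal B0) [x0.IsPrime]

/-- **`hUNR` from its chart form.** -/
theorem hUNR_of_chart (π : B0)
    (hUNR : ∀ O : ValuationSubring F, (∀ s : B1, algebraMap B1 F s ∈ O) →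
      (∀ d : B0, d ∉ x0 → (algebraMap B1 F (algebraMap B0 B1 d))⁻¹ ∈ O) →
      IsDiscreteValuationRing O →
      (algebraMap B1 F (algebraMap B0 B1 π))⁻¹ ∈ O →
      ∃ g : B0, (algebraMap B1 F (algebraMap B0 B1 g))⁻¹ ∉ O ∧
        ∀ y ∈ O, y⁻¹ ∉ O → y / algebraMap B1 F (algebraMap B0 B1 g) ∈ O) :
    letI := algebraSPF B1 x0 F
    ∀ O : ValuationSubring F, (∀ s : SP B1 x0, algebraMap (SP B1 x0) F s ∈ O) →
      IsDiscreteValuationRing O →
      (algebraMap (SP B1 x0) F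
        (algebraMap (RP x0) (SP B1 x0) (algebraMap B0 (RP x0) π)))⁻¹ ∈ O →
      ∃ g0 : RP x0, (algebraMap (SP B1 x0) F (algebraMap (RP x0) (SP B1 x0) g0))⁻¹ ∉ O ∧
        ∀ y ∈ O, y⁻¹ ∉ O →
          y / algebraMap (SP B1 x0) F (algebraMap (RP x0) (SP B1 x0) g0) ∈ O := by
  letI := algebraSPF B1 x0 F
  haveI := isScalarTower_SPF B1 x0 F
  -- the image of `B0` in `F` through `R0`, `S`
  have hcomm : ∀ r : B0, algebraMap (SP B1 x0) F
      (algebraMap (RP x0) (SP B1 x0) (algebraMap B0 (RP x0) r)) =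
        algebraMap B1 F (algebraMap B0 B1 r) := by
    intro r
    rw [ChartLocal3.algebraMap_comm, ← IsScalarTower.algebraMap_apply]
  intro O hS hdvr hπ
  have hB1 : ∀ s : B1, algebraMap B1 F s ∈ O := fun s => by
    rw [IsScalarTower.algebraMap_apply B1 (SP B1 x0) F]
    exact hS _
  have hd : ∀ d : B0, d ∉ x0 → (algebraMap B1 F (algebraMap B0 B1 d))⁻¹ ∈ O := by
    intro d hd
    obtain ⟨u, hu⟩ := ChartLocal3.isUnit_algebraMap_of_notMem_base (B1 := B1) x0 hd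
    have h1 : algebraMap (SP B1 x0) F (↑u⁻¹ : SP B1 x0) =
        (algebraMap B1 F (algebraMap B0 B1 d))⁻¹ := by
      have h2 : algebraMap (SP B1 x0) F (↑u⁻¹ : SP B1 x0) *
          algebraMap B1 F (algebraMap B0 B1 d) = 1 := by
        rw [IsScalarTower.algebraMap_apply B1 (SP B1 x0) F, ← hu, ← map_mul, Units.inv_mul, map_one]
      exact eq_inv_of_mul_eq_one_left h2
    rw [← h1]
    exact hS _
  obtain ⟨g, hg1, hg2⟩ := hUNR O hB1 hd hdvr (by rw [← hcomm]; exact hπ)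
  refine ⟨algebraMap B0 (RP x0) g, ?_, ?_⟩
  · rw [hcomm]; exact hg1
  · intro y hy hy'
    rw [hcomm]
    exact hg2 y hy hy'

end UNR

section Main

variable {B0 B1 : Type*} [CommRing B0] [IsDomain B0] [IsNoetherianRing B0] [IsIntegrallyClosed B0]
  [CommRing B1] [IsDomain B1] [IsIntegrallyClosed B1] [Algebra B0 B1] [Module.Finite B0 B1]
  [FaithfulSMul B0 B1] (F : Type*) [Field F] [Algebra B1 F] [IsFractionRing B1 F]
  (x0 : Ideal B0) [x0.IsPrime]

/-- `S = SP B1 x0` is a domain. -/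
theorem isDomain_SP : IsDomain (SP B1 x0) :=
  IsLocalization.isDomain_of_le_nonZeroDivisors (SP B1 x0)
    (algebraMapSubmonoid_le_nonZeroDivisors B1 x0)

/-- `S` is a finite `R0`-module. -/
theorem finite_SP : Module.Finite (RP x0) (SP B1 x0) :=
  inferInstance

/-- **RegInst, abstract form: the hypothesis list of `DiscLift5.exists_span_pair_of_discr` except the
exponent bound.**  -/
theorem regData (x1 : Ideal B1) [hx1 : x1.IsPrime] (h : x1.comap (algebraMap B0 B1) = x0)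
    (π T : B0) (hπ : Prime π) (hπx : π ∈ x0) (hTx : T ∈ x0)
    (hsm : ∀ y ∈ x0, ∃ d, d ∉ x0 ∧ d * y ∈ Ideal.span {π, T})
    (hne : ∃ y ∈ x0, ¬ π ∣ y)
    (𝔭₁ 𝔭₂ : Ideal B1) (h12 : 𝔭₁ * 𝔭₂ ≤ Ideal.span {algebraMap B0 B1 π})
    (hsurj : ∀ s : B1, ∃ r : B0, s - algebraMap B0 B1 r ∈ 𝔭₁)
    (q : ℕ) (hq : 0 < q) (hinsep : ∀ s : B1, ∃ r : B0, s ^ q - algebraMap B0 B1 r ∈ 𝔭₂)
    (h1 : 𝔭₁ ≤ x1) (h2 : 𝔭₂ ≤ x1)
    (hchar : ∀ n : ℕ, n ≠ 0 → ∃ k : ℕ, (n : B0) ∣ π ^ k)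
    (hUNR : ∀ O : ValuationSubring F, (∀ s : B1, algebraMap B1 F s ∈ O) →
      (∀ d : B0, d ∉ x0 → (algebraMap B1 F (algebraMap B0 B1 d))⁻¹ ∈ O) →
      IsDiscreteValuationRing O →
      (algebraMap B1 F (algebraMap B0 B1 π))⁻¹ ∈ O →
      ∃ g : B0, (algebraMap B1 F (algebraMap B0 B1 g))⁻¹ ∉ O ∧
        ∀ y ∈ O, y⁻¹ ∉ O → y / algebraMap B1 F (algebraMap B0 B1 g) ∈ O) :
    ∃ (_ : IsLocalRing (SP B1 x0)),
      maximalIdeal (RP x0) =
        Ideal.span {algebraMap B0 (RP x0) π, algebraMap B0 (RP x0) T} ∧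
      Prime (algebraMap B0 (RP x0) π) ∧
      ¬ algebraMap B0 (RP x0) π ∣ algebraMap B0 (RP x0) T ∧
      (∀ s : SP B1 x0, ∃ r : RP x0,
        s - algebraMap (RP x0) (SP B1 x0) r ∈ maximalIdeal (SP B1 x0)) ∧
      maximalIdeal (SP B1 x0) = x1.map (algebraMap B1 (SP B1 x0)) ∧
      Module.Free (RP x0) (SP B1 x0) ∧ Module.Finite (RP x0) (SP B1 x0) ∧
      ∀ (n : ℕ) (b : Basis (Fin n) (RP x0) (SP B1 x0)),
        ∃ (a : ℕ) (u : RP x0), IsUnit u ∧
          Algebra.discr (RP x0) b = algebraMap B0 (RP x0) π ^ a * u := by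
  classical
  have hloc : IsLocalRing (SP B1 x0) :=
    ChartLocal3.isLocalRing_SP x0 π hπx x1 h 𝔭₁ 𝔭₂ h12 hsurj q hq hinsep h1 h2
  have hmax : maximalIdeal (RP x0) =
      Ideal.span {algebraMap B0 (RP x0) π, algebraMap B0 (RP x0) T} :=
    RegLocal3.maximalIdeal_atPrime_eq_span_pair x0 π T hπx hTx hsm
  have hπ' : Prime (algebraMap B0 (RP x0) π) := prime_pi x0 π hπ hπx
  have hT' : ¬ algebraMap B0 (RP x0) π ∣ algebraMap B0 (RP x0) T :=
    ChartLocal3.not_pi_dvd_T x0 π T hπ hπx hmax hne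
  haveI : IsNoetherianRing (RP x0) :=
    IsLocalization.isNoetherianRing x0.primeCompl (RP x0) inferInstance
  haveI hpid : IsPrincipalIdealRing (RP x0 ⧸ Ideal.span {algebraMap B0 (RP x0) π}) :=
    RegLocal3.isPrincipalIdealRing_quotient_of_span_pair _ _ hπ' hmax
  haveI hdomS : IsDomain (SP B1 x0) := isDomain_SP x0
  haveI hfinS : Module.Finite (RP x0) (SP B1 x0) := finite_SP x0
  have hπm : algebraMap B0 (RP x0) π ∈ maximalIdeal (RP x0) := pi_mem_maximalIdeal x0 π hπx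
  have hfree : Module.Free (RP x0) (SP B1 x0) :=
    RegLocal3.free_local (algebraMap B0 (RP x0) π) hπ' hπm
  have hres := ChartLocal3.residue_SP x0 x1 h 𝔭₁ hsurj h1
  have hmaxS := ChartLocal3.maximalIdeal_SP_eq x0 x1 h
  refine ⟨hloc, hmax, hπ', hT', hres, hmaxS, hfree, hfinS, fun n b => ?_⟩
  letI := algebraSPF B1 x0 F
  haveI := isFractionRing_SPF B1 x0 F
  have hchar' : ∀ n : ℕ, n ≠ 0 → ∃ k : ℕ, (n : RP x0) ∣ algebraMap B0 (RP x0) π ^ k := by
    intro n hn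
    obtain ⟨k, hk⟩ := hchar n hn
    refine ⟨k, ?_⟩
    have := map_dvd (algebraMap B0 (RP x0)) hk
    rwa [map_natCast, map_pow] at this
  have hTu : ¬ IsUnit (algebraMap B0 (RP x0) T) := by
    have : algebraMap B0 (RP x0) T ∈ maximalIdeal (RP x0) := by
      rw [hmax]; exact Ideal.subset_span (by simp)
    exact (mem_maximalIdeal _).mp this
  exact (RegLocal3.discr_eq_pi_pow_mul_unit F (algebraMap B0 (RP x0) π) hπ' hchar'
    (hUNR_of_chart F x0 π hUNR) (algebraMap B0 (RP x0) T) hTu hT' b).2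

/-- **RegInst, abstract form, with the exponent bound: the element form of "`x1` is locally generated
by `T` and one more element"** (the `htwo` of `NodeRegChart10.nodeReg_chart`). -/
theorem exists_elt_form_of_exp (x1 : Ideal B1) [hx1 : x1.IsPrime]
    (h : x1.comap (algebraMap B0 B1) = x0)
    (π T : B0) (hπ : Prime π) (hπx : π ∈ x0) (hTx : T ∈ x0)
    (hsm : ∀ y ∈ x0, ∃ d, d ∉ x0 ∧ d * y ∈ Ideal.span {π, T})
    (hne : ∃ y ∈ x0, ¬ π ∣ y)
    (𝔭₁ 𝔭₂ : Ideal B1) (h12 : 𝔭₁ * 𝔭₂ ≤ Ideal.span {algebraMap B0 B1 π})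
    (hsurj : ∀ s : B1, ∃ r : B0, s - algebraMap B0 B1 r ∈ 𝔭₁)
    (q : ℕ) (hq : 0 < q) (hinsep : ∀ s : B1, ∃ r : B0, s ^ q - algebraMap B0 B1 r ∈ 𝔭₂)
    (h1 : 𝔭₁ ≤ x1) (h2 : 𝔭₂ ≤ x1)
    (hchar : ∀ n : ℕ, n ≠ 0 → ∃ k : ℕ, (n : B0) ∣ π ^ k)
    (hUNR : ∀ O : ValuationSubring F, (∀ s : B1, algebraMap B1 F s ∈ O) →
      (∀ d : B0, d ∉ x0 → (algebraMap B1 F (algebraMap B0 B1 d))⁻¹ ∈ O) →
      IsDiscreteValuationRing O →
      (algebraMap B1 F (algebraMap B0 B1 π))⁻¹ ∈ O →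
      ∃ g : B0, (algebraMap B1 F (algebraMap B0 B1 g))⁻¹ ∉ O ∧
        ∀ y ∈ O, y⁻¹ ∉ O → y / algebraMap B1 F (algebraMap B0 B1 g) ∈ O)
    (hexp : ∀ (n : ℕ) (b : Basis (Fin n) (RP x0) (SP B1 x0)) (a : ℕ) (u : RP x0), IsUnit u →
      Algebra.discr (RP x0) b = algebraMap B0 (RP x0) π ^ a * u → a < n) :
    ∃ z ∈ x1, ∀ f ∈ x1, ∃ d, d ∉ x1 ∧ d * f ∈ Ideal.span {algebraMap B0 B1 T, z} := by
  classical
  obtain ⟨hloc, hmax, hπ', hT', hres, -, hfree, hfin, hdisc⟩ :=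
    regData F x0 x1 h π T hπ hπx hTx hsm hne 𝔭₁ 𝔭₂ h12 hsurj q hq hinsep h1 h2 hchar hUNR
  haveI := hloc
  haveI := hfree
  haveI := hfin
  haveI : IsNoetherianRing (RP x0) :=
    IsLocalization.isNoetherianRing x0.primeCompl (RP x0) inferInstance
  haveI : Nontrivial (RP x0) := inferInstance
  set b := Module.finBasis (RP x0) (SP B1 x0) with hb
  obtain ⟨a, u, hu, hd⟩ := hdisc _ b
  have ha : a < Fintype.card (Fin (Module.finrank (RP x0) (SP B1 x0))) := by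
    rw [Fintype.card_fin]
    exact hexp _ b a u hu hd
  obtain ⟨z', hz', -⟩ := DiscLift5.exists_span_pair_of_discr (algebraMap B0 (RP x0) π)
    (algebraMap B0 (RP x0) T) hmax hπ' hT' b hres a u hu hd ha
  exact ChartLocal3.exists_elt_form x0 x1 h T z' hz'

end Main

end Fermat.Agent.ES.P36.RegAbs21
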