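/-
Program P (S36), chapter REG, brick RegInst (helper21), CHART layer (Program N vocabulary:
`BM : Subalgebra R FM` the level-`M'` chart, `B : Subalgebra R F` the level-`M' q` chart,
`φ : FM →+* F` the degeneracy map with `φ (BM) ⊆ B`, `O1 O2 : ValuationSubring F` the two vertical
valuation rings, `x1 : Ideal B` a closed point lying on both components).

* `chartMap`, `chartAlgebra` : `B` as a `BM`-algebra through `φ`;
* `vert π B O` : the vertical prime `B ∩ π O` of `B` as an ideal;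
* `isIntegrallyClosed_of`, `isFractionRing_of`, `finite_of_generators`, `faithfulSMul_chart` :
  the instances needed by `RegAbs21` from the element-wise chart facts of Programs H/N;
* `regData_chart` : **the hypothesis list of `DiscLift5.exists_span_pair_of_discr` except the exponent
  bound** for `R0 := RP x0`, `S := SP B x0`, `x0 := x1 ∩ BM`;
* `exists_two_generators` : with the exponent bound `hexp` (R2), the `htwo` of
  `NodeRegChart10.nodeReg_chart`: `∃ a b ∈ x1, ∀ f ∈ x1, ∃ d ∉ x1, d * f ∈ span {a, b}`.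
-/
import Mathlib
import Fermat.Agent.ES.P36.RegAbs21

set_option autoImplicit false
set_option linter.style.haveILetI false
set_option linter.unusedSectionVars false

namespace Fermat.Agent.ES.P36.RegChart21

open IsLocalRing Module Fermat.Agent.RED.PUR.LocalFree26

variable {R FM F : Type*} [CommRing R] [Field FM] [Field F] [Algebra R FM] [Algebra R F]

section Map

variable (φ : FM →+* F) (BM : Subalgebra R FM) (B : Subalgebra R F)
  (hφB : ∀ b : BM, φ (b : FM) ∈ B)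

/-- the homomorphism of charts induced by `φ`. -/
def chartMap : ↥BM →+* ↥B where
  toFun b := ⟨φ (b : FM), hφB b⟩
  map_one' := Subtype.ext (map_one φ)
  map_mul' _ _ := Subtype.ext (map_mul φ _ _)
  map_zero' := Subtype.ext (map_zero φ)
  map_add' _ _ := Subtype.ext (map_add φ _ _)

/-- `B` as a `BM`-algebra through `φ`. -/
@[reducible] def chartAlgebra : Algebra ↥BM ↥B := (chartMap φ BM B hφB).toAlgebra

theorem coe_algebraMap_chart (b : BM) :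
    letI := chartAlgebra φ BM B hφB
    ((algebraMap ↥BM ↥B b : ↥B) : F) = φ (b : FM) := rfl

theorem algebraMap_chart_algebraMap (hφR : ∀ r : R, φ (algebraMap R FM r) = algebraMap R F r)
    (r : R) :
    letI := chartAlgebra φ BM B hφB
    algebraMap ↥BM ↥B (algebraMap R ↥BM r) = algebraMap R ↥B r :=
  Subtype.ext (hφR r)

theorem faithfulSMul_chart :
    letI := chartAlgebra φ BM B hφB
    FaithfulSMul ↥BM ↥B := by
  letI := chartAlgebra φ BM B hφB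
  rw [faithfulSMul_iff_algebraMap_injective]
  intro a b hab
  have h1 : φ (a : FM) = φ (b : FM) := congrArg (fun z : ↥B => (z : F)) hab
  exact Subtype.ext (φ.injective h1)

/-- `B` is a finite `BM`-module as soon as it is generated by finitely many elements over `φ (BM)`. -/
theorem finite_of_generators
    (hfin : ∃ (r : ℕ) (e : Fin r → F), (∀ i, e i ∈ B) ∧
      ∀ x ∈ B, ∃ c : Fin r → BM, x = ∑ i, φ (c i : FM) * e i) :
    letI := chartAlgebra φ BM B hφB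
    Module.Finite ↥BM ↥B := by
  classical
  letI := chartAlgebra φ BM B hφB
  obtain ⟨r, e, he, hgen⟩ := hfin
  refine ⟨⟨Finset.univ.image (fun i => (⟨e i, he i⟩ : ↥B)), ?_⟩⟩
  rw [eq_top_iff]
  rintro x -
  obtain ⟨c, hc⟩ := hgen x x.2
  have hx : x = ∑ i, c i • (⟨e i, he i⟩ : ↥B) := by
    apply Subtype.ext
    rw [hc, AddSubmonoidClass.coe_finsetSum]
    refine Finset.sum_congr rfl fun i _ => ?_
    rw [Algebra.smul_def]
    rfl
  rw [hx]
  refine Submodule.sum_mem _ fun i _ => Submodule.smul_mem _ _ (Submodule.subset_span ?_)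
  simp

end Map

section Chart

variable (B : Subalgebra R F)

/-- `F = Frac B` from the element-wise statement. -/
theorem isFractionRing_of (frac : ∀ x : F, ∃ a ∈ B, ∃ b ∈ B, b ≠ 0 ∧ x * b = a) :
    IsFractionRing ↥B F := by
  refine IsFractionRing.of_field ↥B F fun z => ?_
  obtain ⟨a, ha, b, hb, hb0, hab⟩ := frac z
  refine ⟨⟨a, ha⟩, ⟨b, hb⟩, ?_⟩
  show z = a / b
  rw [eq_div_iff hb0, hab]

/-- `B` is integrally closed from the element-wise statements. -/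
theorem isIntegrallyClosed_of (intcl : ∀ x : F, IsIntegral B x → x ∈ B)
    (frac : ∀ x : F, ∃ a ∈ B, ∃ b ∈ B, b ≠ 0 ∧ x * b = a) : IsIntegrallyClosed ↥B := by
  haveI := isFractionRing_of B frac
  refine (isIntegrallyClosed_iff F).mpr fun {x} hx => ?_
  exact ⟨⟨x, intcl x hx⟩, rfl⟩

/-- The vertical prime `B ∩ π O` of the chart `B`, as an ideal. -/
def vert (π : R) (O : ValuationSubring F) (leO : ∀ x ∈ B, x ∈ O) : Ideal ↥B where
  carrier := {b | ∃ c ∈ O, (b : F) = algebraMap R F π * c}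
  zero_mem' := ⟨0, O.zero_mem, by simp⟩
  add_mem' := by
    rintro a b ⟨o, ho, hao⟩ ⟨o', ho', hbo⟩
    exact ⟨o + o', O.add_mem _ _ ho ho', by push_cast; rw [hao, hbo]; ring⟩
  smul_mem' := by
    rintro a b ⟨o, ho, hbo⟩
    exact ⟨(a : F) * o, O.mul_mem _ _ (leO _ a.2) ho, by
      show ((a * b : ↥B) : F) = _
      push_cast; rw [hbo]; ring⟩

theorem mem_vert {π : R} {O : ValuationSubring F} {leO : ∀ x ∈ B, x ∈ O} {b : ↥B} :
    b ∈ vert B π O leO ↔ ∃ c ∈ O, (b : F) = algebraMap R F π * c := Iff.rfl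

end Chart

section Main

variable (π : R) (φ : FM →+* F) (BM : Subalgebra R FM) (B : Subalgebra R F)
  (hφB : ∀ b : BM, φ (b : FM) ∈ B)

/-- the common reduction of `regData_chart` and `exists_two_generators` to `RegAbs21`: all the
hypotheses of `RegAbs21.regData` for `B0 := ↥BM`, `B1 := ↥B`. -/
theorem abs_inputs (hφR : ∀ r : R, φ (algebraMap R FM r) = algebraMap R F r)
    (hsmM : ∀ x : Ideal BM, x.IsMaximal → algebraMap R BM π ∈ x →
      ∃ s₀ ∈ x, ∀ y ∈ x, ∃ d : BM, d ∉ x ∧ d * y ∈ Ideal.span {algebraMap R BM π, s₀})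
    (hfin : ∃ (r : ℕ) (e : Fin r → F), (∀ i, e i ∈ B) ∧
      ∀ x ∈ B, ∃ c : Fin r → BM, x = ∑ i, φ (c i : FM) * e i)
    (O1 O2 : ValuationSubring F) (leO1 : ∀ x ∈ B, x ∈ O1) (leO2 : ∀ x ∈ B, x ∈ O2)
    (pi_ne : algebraMap R F π ≠ 0)
    (sat : ∀ b ∈ B, ∀ c : F, c ∈ O1 → c ∈ O2 → b = algebraMap R F π * c → c ∈ B)
    (hsurj1 : ∀ y ∈ B, ∃ b : BM, ∃ c ∈ O1, y - φ (b : FM) = algebraMap R F π * c)
    (q : ℕ)
    (hinsep2 : ∀ y ∈ B, ∃ b : BM, ∃ c ∈ O2, y ^ q - φ (b : FM) = algebraMap R F π * c)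
    (x1 : Ideal B) [hx1 : x1.IsMaximal]
    (hon1 : ∀ b : B, (∃ c ∈ O1, (b : F) = algebraMap R F π * c) → b ∈ x1)
    (hon2 : ∀ b : B, (∃ c ∈ O2, (b : F) = algebraMap R F π * c) → b ∈ x1)
    (hne1 : ∃ f ∈ x1, ¬ ∃ c ∈ O1, (f : F) = algebraMap R F π * c)
    (hchar : ∀ n : ℕ, n ≠ 0 → ∃ k : ℕ, (n : R) ∣ π ^ k) :
    letI := chartAlgebra φ BM B hφB
    (algebraMap R ↥BM π ∈ x1.comap (algebraMap ↥BM ↥B)) ∧
    (∃ T ∈ x1.comap (algebraMap ↥BM ↥B), ∀ y ∈ x1.comap (algebraMap ↥BM ↥B),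
      ∃ d, d ∉ x1.comap (algebraMap ↥BM ↥B) ∧ d * y ∈ Ideal.span {algebraMap R ↥BM π, T}) ∧
    (∃ y ∈ x1.comap (algebraMap ↥BM ↥B), ¬ algebraMap R ↥BM π ∣ y) ∧
    (vert B π O1 leO1 * vert B π O2 leO2 ≤
      Ideal.span {algebraMap ↥BM ↥B (algebraMap R ↥BM π)}) ∧
    (∀ s : ↥B, ∃ r : ↥BM, s - algebraMap ↥BM ↥B r ∈ vert B π O1 leO1) ∧
    (∀ s : ↥B, ∃ r : ↥BM, s ^ q - algebraMap ↥BM ↥B r ∈ vert B π O2 leO2) ∧
    vert B π O1 leO1 ≤ x1 ∧ vert B π O2 leO2 ≤ x1 ∧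
    (∀ n : ℕ, n ≠ 0 → ∃ k : ℕ, (n : ↥BM) ∣ algebraMap R ↥BM π ^ k) := by
  letI := chartAlgebra φ BM B hφB
  haveI := finite_of_generators φ BM B hφB hfin
  have hπB : algebraMap ↥BM ↥B (algebraMap R ↥BM π) = algebraMap R ↥B π :=
    algebraMap_chart_algebraMap φ BM B hφB hφR π
  have hπx1 : algebraMap R ↥B π ∈ x1 :=
    hon1 _ ⟨1, O1.one_mem, by rw [mul_one]; rfl⟩
  have hπx0 : algebraMap R ↥BM π ∈ x1.comap (algebraMap ↥BM ↥B) := by
    rw [Ideal.mem_comap, hπB]; exact hπx1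
  haveI : Algebra.IsIntegral ↥BM ↥B := Algebra.IsIntegral.of_finite _ _
  have hx0max : (x1.comap (algebraMap ↥BM ↥B)).IsMaximal :=
    Ideal.isMaximal_comap_of_isIntegral_of_isMaximal x1
  refine ⟨hπx0, ?_, ?_, ?_, ?_, ?_, ?_, ?_, ?_⟩
  · obtain ⟨s₀, hs₀, hgen⟩ := hsmM _ hx0max hπx0
    exact ⟨s₀, hs₀, hgen⟩
  · -- an element of `x0` not divisible by `π`
    obtain ⟨f, hf, hfn⟩ := hne1
    obtain ⟨r, c, hc, hrc⟩ := hsurj1 f f.2
    have hφr : algebraMap ↥BM ↥B r ∈ x1 := by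
      have h1 : f - algebraMap ↥BM ↥B r ∈ x1 := hon1 _ ⟨c, hc, hrc⟩
      have h2 : algebraMap ↥BM ↥B r = f - (f - algebraMap ↥BM ↥B r) := by ring
      rw [h2]
      exact x1.sub_mem hf h1
    refine ⟨r, hφr, ?_⟩
    rintro ⟨r', hr'⟩
    apply hfn
    refine ⟨c + φ (r' : FM), O1.add_mem _ _ hc (leO1 _ (hφB r')), ?_⟩
    have h3 : φ (r : FM) = algebraMap R F π * φ (r' : FM) := by
      rw [hr']
      show φ (algebraMap R FM π * (r' : FM)) = _
      rw [map_mul, hφR]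
    have h4 : (f : F) = (f : F) - φ (r : FM) + φ (r : FM) := by ring
    rw [h4, hrc, h3]; ring
  · -- `𝔭₁ 𝔭₂ ⊆ (π)`
    rw [hπB, Ideal.mul_le]
    rintro a ⟨c1, hc1, ha⟩ b ⟨c2, hc2, hb⟩
    have hmem : c1 * (b : F) ∈ B := by
      refine sat ((a : F) * (b : F)) (B.mul_mem a.2 b.2) _ (O1.mul_mem _ _ hc1 (leO1 _ b.2)) ?_
        (by rw [ha]; ring)
      have : c1 * (b : F) = (a : F) * c2 := by
        apply mul_left_cancel₀ pi_ne
        rw [← mul_assoc, ← ha, hb]; ring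
      rw [this]
      exact O2.mul_mem _ _ (leO2 _ a.2) hc2
    rw [Ideal.mem_span_singleton]
    refine ⟨⟨_, hmem⟩, Subtype.ext ?_⟩
    show (a : F) * (b : F) = algebraMap R F π * (c1 * (b : F))
    rw [ha]; ring
  · intro s
    obtain ⟨r, c, hc, hrc⟩ := hsurj1 s s.2
    exact ⟨r, c, hc, hrc⟩
  · intro s
    obtain ⟨r, c, hc, hrc⟩ := hinsep2 s s.2
    exact ⟨r, c, hc, hrc⟩
  · exact fun b hb => hon1 b hb
  · exact fun b hb => hon2 b hb
  · intro n hn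
    obtain ⟨k, hk⟩ := hchar n hn
    refine ⟨k, ?_⟩
    have := map_dvd (algebraMap R ↥BM) hk
    rwa [map_natCast, map_pow] at this

/-- **RegInst, chart form: the hypothesis list of `DiscLift5.exists_span_pair_of_discr` except the
exponent bound**, for `R0 := RP x0`, `S := SP B x0`, `x0 := x1 ∩ BM`, at a closed point `x1` of the
level-`M' q` chart lying on both components. -/
theorem regData_chart (hφR : ∀ r : R, φ (algebraMap R FM r) = algebraMap R F r)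
    (noethBM : IsNoetherianRing BM)
    (intclBM : ∀ x : FM, IsIntegral BM x → x ∈ BM)
    (fracBM : ∀ x : FM, ∃ a ∈ BM, ∃ b ∈ BM, b ≠ 0 ∧ x * b = a)
    (hπBM : Prime (algebraMap R BM π))
    (hsmM : ∀ x : Ideal BM, x.IsMaximal → algebraMap R BM π ∈ x →
      ∃ s₀ ∈ x, ∀ y ∈ x, ∃ d : BM, d ∉ x ∧ d * y ∈ Ideal.span {algebraMap R BM π, s₀})
    (intclB : ∀ x : F, IsIntegral B x → x ∈ B)
    (fracB : ∀ x : F, ∃ a ∈ B, ∃ b ∈ B, b ≠ 0 ∧ x * b = a)
    (hfin : ∃ (r : ℕ) (e : Fin r → F), (∀ i, e i ∈ B) ∧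
      ∀ x ∈ B, ∃ c : Fin r → BM, x = ∑ i, φ (c i : FM) * e i)
    (O1 O2 : ValuationSubring F) (leO1 : ∀ x ∈ B, x ∈ O1) (leO2 : ∀ x ∈ B, x ∈ O2)
    (pi_ne : algebraMap R F π ≠ 0)
    (sat : ∀ b ∈ B, ∀ c : F, c ∈ O1 → c ∈ O2 → b = algebraMap R F π * c → c ∈ B)
    (hsurj1 : ∀ y ∈ B, ∃ b : BM, ∃ c ∈ O1, y - φ (b : FM) = algebraMap R F π * c)
    (q : ℕ) (hq : 0 < q)
    (hinsep2 : ∀ y ∈ B, ∃ b : BM, ∃ c ∈ O2, y ^ q - φ (b : FM) = algebraMap R F π * c)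
    (x1 : Ideal B) [hx1 : x1.IsMaximal]
    (hon1 : ∀ b : B, (∃ c ∈ O1, (b : F) = algebraMap R F π * c) → b ∈ x1)
    (hon2 : ∀ b : B, (∃ c ∈ O2, (b : F) = algebraMap R F π * c) → b ∈ x1)
    (hne1 : ∃ f ∈ x1, ¬ ∃ c ∈ O1, (f : F) = algebraMap R F π * c)
    (hchar : ∀ n : ℕ, n ≠ 0 → ∃ k : ℕ, (n : R) ∣ π ^ k)
    (hUNR : ∀ O : ValuationSubring F, (∀ s ∈ B, s ∈ O) →
      (∀ d : BM, (⟨φ (d : FM), hφB d⟩ : B) ∉ x1 → (φ (d : FM))⁻¹ ∈ O) →
      IsDiscreteValuationRing O → (algebraMap R F π)⁻¹ ∈ O →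
      ∃ g : BM, (φ (g : FM))⁻¹ ∉ O ∧ ∀ y ∈ O, y⁻¹ ∉ O → y / φ (g : FM) ∈ O) :
    letI := chartAlgebra φ BM B hφB
    ∃ T ∈ x1.comap (algebraMap ↥BM ↥B),
    ∃ (_ : IsLocalRing (SP ↥B (x1.comap (algebraMap ↥BM ↥B)))),
      maximalIdeal (RP (x1.comap (algebraMap ↥BM ↥B))) =
        Ideal.span {algebraMap ↥BM (RP (x1.comap (algebraMap ↥BM ↥B))) (algebraMap R ↥BM π),
          algebraMap ↥BM (RP (x1.comap (algebraMap ↥BM ↥B))) T} ∧
      Prime (algebraMap ↥BM (RP (x1.comap (algebraMap ↥BM ↥B))) (algebraMap R ↥BM π)) ∧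
      ¬ algebraMap ↥BM (RP (x1.comap (algebraMap ↥BM ↥B))) (algebraMap R ↥BM π) ∣
        algebraMap ↥BM (RP (x1.comap (algebraMap ↥BM ↥B))) T ∧
      (∀ s : SP ↥B (x1.comap (algebraMap ↥BM ↥B)),
        ∃ r : RP (x1.comap (algebraMap ↥BM ↥B)),
          s - algebraMap (RP (x1.comap (algebraMap ↥BM ↥B)))
            (SP ↥B (x1.comap (algebraMap ↥BM ↥B))) r ∈
              maximalIdeal (SP ↥B (x1.comap (algebraMap ↥BM ↥B)))) ∧
      maximalIdeal (SP ↥B (x1.comap (algebraMap ↥BM ↥B))) =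
        x1.map (algebraMap ↥B (SP ↥B (x1.comap (algebraMap ↥BM ↥B)))) ∧
      Module.Free (RP (x1.comap (algebraMap ↥BM ↥B))) (SP ↥B (x1.comap (algebraMap ↥BM ↥B))) ∧
      Module.Finite (RP (x1.comap (algebraMap ↥BM ↥B))) (SP ↥B (x1.comap (algebraMap ↥BM ↥B))) ∧
      ∀ (n : ℕ) (b : Basis (Fin n) (RP (x1.comap (algebraMap ↥BM ↥B)))
          (SP ↥B (x1.comap (algebraMap ↥BM ↥B)))),
        ∃ (a : ℕ) (u : RP (x1.comap (algebraMap ↥BM ↥B))), IsUnit u ∧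
          Algebra.discr (RP (x1.comap (algebraMap ↥BM ↥B))) b =
            algebraMap ↥BM (RP (x1.comap (algebraMap ↥BM ↥B))) (algebraMap R ↥BM π) ^ a * u := by
  letI := chartAlgebra φ BM B hφB
  haveI := noethBM
  haveI := finite_of_generators φ BM B hφB hfin
  haveI := faithfulSMul_chart φ BM B hφB
  haveI := isFractionRing_of B fracB
  haveI := isIntegrallyClosed_of B intclB fracB
  haveI := isIntegrallyClosed_of BM intclBM fracBM
  obtain ⟨hπx0, ⟨T, hT, hsm⟩, hne, h12, hsurj, hinsep, h1, h2, hchar'⟩ :=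
    abs_inputs π φ BM B hφB hφR hsmM hfin O1 O2 leO1 leO2 pi_ne sat hsurj1 q hinsep2 x1 hon1 hon2
      hne1 hchar
  refine ⟨T, hT, ?_⟩
  refine RegAbs21.regData F (x1.comap (algebraMap ↥BM ↥B)) x1 rfl (algebraMap R ↥BM π) T hπBM
    hπx0 hT hsm hne (vert B π O1 leO1) (vert B π O2 leO2) h12 hsurj q hq hinsep h1 h2 hchar' ?_
  intro O hB hd hdvr hπO
  exact hUNR O (fun s hs => hB ⟨s, hs⟩) (fun d hdx => hd d hdx) hdvr
    (by
      have : (algebraMap ↥B F (algebraMap ↥BM ↥B (algebraMap R ↥BM π))) = algebraMap R F π :=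
        hφR π
      rw [← this]; exact hπO)

/-- **RegInst, chart form, with the exponent bound (R2): the closed point `x1` is locally generated by
two elements** — the hypothesis `htwo` of `NodeRegChart10.nodeReg_chart`. -/
theorem exists_two_generators (hφR : ∀ r : R, φ (algebraMap R FM r) = algebraMap R F r)
    (noethBM : IsNoetherianRing BM)
    (intclBM : ∀ x : FM, IsIntegral BM x → x ∈ BM)
    (fracBM : ∀ x : FM, ∃ a ∈ BM, ∃ b ∈ BM, b ≠ 0 ∧ x * b = a)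
    (hπBM : Prime (algebraMap R BM π))
    (hsmM : ∀ x : Ideal BM, x.IsMaximal → algebraMap R BM π ∈ x →
      ∃ s₀ ∈ x, ∀ y ∈ x, ∃ d : BM, d ∉ x ∧ d * y ∈ Ideal.span {algebraMap R BM π, s₀})
    (intclB : ∀ x : F, IsIntegral B x → x ∈ B)
    (fracB : ∀ x : F, ∃ a ∈ B, ∃ b ∈ B, b ≠ 0 ∧ x * b = a)
    (hfin : ∃ (r : ℕ) (e : Fin r → F), (∀ i, e i ∈ B) ∧
      ∀ x ∈ B, ∃ c : Fin r → BM, x = ∑ i, φ (c i : FM) * e i)
    (O1 O2 : ValuationSubring F) (leO1 : ∀ x ∈ B, x ∈ O1) (leO2 : ∀ x ∈ B, x ∈ O2)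
    (pi_ne : algebraMap R F π ≠ 0)
    (sat : ∀ b ∈ B, ∀ c : F, c ∈ O1 → c ∈ O2 → b = algebraMap R F π * c → c ∈ B)
    (hsurj1 : ∀ y ∈ B, ∃ b : BM, ∃ c ∈ O1, y - φ (b : FM) = algebraMap R F π * c)
    (q : ℕ) (hq : 0 < q)
    (hinsep2 : ∀ y ∈ B, ∃ b : BM, ∃ c ∈ O2, y ^ q - φ (b : FM) = algebraMap R F π * c)
    (x1 : Ideal B) [hx1 : x1.IsMaximal]
    (hon1 : ∀ b : B, (∃ c ∈ O1, (b : F) = algebraMap R F π * c) → b ∈ x1)
    (hon2 : ∀ b : B, (∃ c ∈ O2, (b : F) = algebraMap R F π * c) → b ∈ x1)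
    (hne1 : ∃ f ∈ x1, ¬ ∃ c ∈ O1, (f : F) = algebraMap R F π * c)
    (hchar : ∀ n : ℕ, n ≠ 0 → ∃ k : ℕ, (n : R) ∣ π ^ k)
    (hUNR : ∀ O : ValuationSubring F, (∀ s ∈ B, s ∈ O) →
      (∀ d : BM, (⟨φ (d : FM), hφB d⟩ : B) ∉ x1 → (φ (d : FM))⁻¹ ∈ O) →
      IsDiscreteValuationRing O → (algebraMap R F π)⁻¹ ∈ O →
      ∃ g : BM, (φ (g : FM))⁻¹ ∉ O ∧ ∀ y ∈ O, y⁻¹ ∉ O → y / φ (g : FM) ∈ O)
    (hexp : letI := chartAlgebra φ BM B hφB
      ∀ (n : ℕ) (b : Basis (Fin n) (RP (x1.comap (algebraMap ↥BM ↥B)))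
          (SP ↥B (x1.comap (algebraMap ↥BM ↥B)))) (a : ℕ)
        (u : RP (x1.comap (algebraMap ↥BM ↥B))), IsUnit u →
        Algebra.discr (RP (x1.comap (algebraMap ↥BM ↥B))) b =
          algebraMap ↥BM (RP (x1.comap (algebraMap ↥BM ↥B))) (algebraMap R ↥BM π) ^ a * u →
        a < n) :
    ∃ a b : B, a ∈ x1 ∧ b ∈ x1 ∧ ∀ f ∈ x1, ∃ d : B, d ∉ x1 ∧ d * f ∈ Ideal.span {a, b} := by
  letI := chartAlgebra φ BM B hφB
  haveI := noethBM
  haveI := finite_of_generators φ BM B hφB hfin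
  haveI := faithfulSMul_chart φ BM B hφB
  haveI := isFractionRing_of B fracB
  haveI := isIntegrallyClosed_of B intclB fracB
  haveI := isIntegrallyClosed_of BM intclBM fracBM
  obtain ⟨hπx0, ⟨T, hT, hsm⟩, hne, h12, hsurj, hinsep, h1, h2, hchar'⟩ :=
    abs_inputs π φ BM B hφB hφR hsmM hfin O1 O2 leO1 leO2 pi_ne sat hsurj1 q hinsep2 x1 hon1 hon2
      hne1 hchar
  obtain ⟨z, hz, hgen⟩ := RegAbs21.exists_elt_form_of_exp F (x1.comap (algebraMap ↥BM ↥B)) x1 rfl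
    (algebraMap R ↥BM π) T hπBM hπx0 hT hsm hne (vert B π O1 leO1) (vert B π O2 leO2) h12 hsurj
    q hq hinsep h1 h2 hchar'
    (by
      intro O hB hd hdvr hπO
      exact hUNR O (fun s hs => hB ⟨s, hs⟩) (fun d hdx => hd d hdx) hdvr
        (by
          have : (algebraMap ↥B F (algebraMap ↥BM ↥B (algebraMap R ↥BM π))) =
              algebraMap R F π := hφR π
          rw [← this]; exact hπO))
    hexp
  exact ⟨algebraMap ↥BM ↥B T, z, hT, hz, hgen⟩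

end Main

end Fermat.Agent.ES.P36.RegChart21
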