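/-
Program P (S36), chapter REG, brick RegInst (helper21), GAUSS layer: the generic suppliers of the
hypotheses of `RegChart21.exists_two_generators` which are not literal outputs of Programs H/N/O.

* `hUNR_of_hunrOff_chart` : the CHART form of `hUNR` from Program H's `OffIface4.HUNROff` at the upper
  level, for a level-`M'` chart `BM` mapped to `E` by `φ'`, a prime `x0` of `BM`, and the coordinate
  `t = φ' a_t / φ' d_t` (`d_t ∉ x0`; chart `0`: `a_t = tM`, `d_t = 1`; chart `1`: `a_t = 1`,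
  `d_t = tM⁻¹`), provided `a_t - c d_t ∉ x0` for every finite cusp value `c` (R4).
* `not_piMul_of_kron` : `hne1` — `s - u ^ q ∉ π V` when `u - s ^ q ∈ π V` and the residue of `s` is
  transcendental (`V` a Gauss pull-back).
* `pow_sub_pow_piMul` : `y - u ∈ π V ⇒ y ^ q - u ^ q ∈ π V`.
* `hfin_of_generators` : generators over `R[t]` are generators over `φ (BM)`.
-/
import Mathlib
import Fermat.Agent.RED.PUR.OffIface4
import Fermat.Agent.RED.PUR.ChartGeneric22
import Fermat.Agent.ES.N34.ChartN26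
import Fermat.Agent.ES.N34.GaussEmb22
import Fermat.Agent.ES.P36.ConstRes21

set_option autoImplicit false
set_option linter.style.haveILetI false
set_option linter.unusedSectionVars false
set_option synthInstance.maxHeartbeats 400000

open Polynomial

namespace Fermat.Agent.ES.P36.RegGauss21

open Fermat.Agent.RED.PUR.OffIface4 Fermat.Agent.RED.PUR.ChartGeneric22

section UNR

variable {K : Type*} [Field K] (O : ValuationSubring K) (E : IntermediateField K (LaurentSeries K))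
  {BM : Type*} [CommRing BM] [Algebra ↥O BM] (φ' : BM →+* ↥E)
  (x0 : Ideal BM) [hx0 : x0.IsPrime]

/-- every polynomial expression in `t = φ' a_t / φ' d_t` is a fraction `φ' a / φ' d`, `d ∉ x0`. -/
theorem exists_frac_aeval (hφ'O : ∀ r : ↥O, φ' (algebraMap ↥O BM r) = algebraMap ↥O ↥E r)
    (t : ↥E) (a_t d_t : BM) (hd_t : d_t ∉ x0) (ht : t * φ' d_t = φ' a_t) (s : (↥O)[X]) :
    ∃ a d : BM, d ∉ x0 ∧ aeval t s * φ' d = φ' a := by
  induction s using Polynomial.induction_on with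
  | C c =>
    refine ⟨algebraMap ↥O BM c, 1, fun h => hx0.ne_top ((Ideal.eq_top_iff_one _).mpr h), ?_⟩
    rw [aeval_C, map_one, mul_one, hφ'O]
  | add p q hp hq =>
    obtain ⟨a1, d1, hd1, h1⟩ := hp
    obtain ⟨a2, d2, hd2, h2⟩ := hq
    refine ⟨a1 * d2 + a2 * d1, d1 * d2, fun h => (hx0.mem_or_mem h).elim hd1 hd2, ?_⟩
    rw [map_add, map_mul, map_add, map_mul, map_mul, ← h1, ← h2]
    ring
  | monomial n c hp =>
    obtain ⟨a, d, hd, h⟩ := hp
    refine ⟨a * a_t, d * d_t, fun h' => (hx0.mem_or_mem h').elim hd hd_t, ?_⟩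
    have e : aeval t (C c * X ^ (n + 1) : (↥O)[X]) = aeval t (C c * X ^ n : (↥O)[X]) * t := by
      rw [pow_succ, ← mul_assoc, map_mul (aeval t) (C c * X ^ n) X, aeval_X]
    rw [e, map_mul φ', map_mul φ', ← h, ← ht]
    ring

/-- the ideal of `O[X]` of the polynomials whose value at `t` lies in `x0 (BM)_{x0}`. -/
def centreIdeal (hφ'O : ∀ r : ↥O, φ' (algebraMap ↥O BM r) = algebraMap ↥O ↥E r)
    (t : ↥E) (a_t d_t : BM) (hd_t : d_t ∉ x0) (ht : t * φ' d_t = φ' a_t) : Ideal (↥O)[X] where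
  carrier := {r | ∃ a ∈ x0, ∃ d : BM, d ∉ x0 ∧ aeval t r * φ' d = φ' a}
  zero_mem' := ⟨0, x0.zero_mem, 1, fun h => hx0.ne_top ((Ideal.eq_top_iff_one _).mpr h), by simp⟩
  add_mem' := by
    rintro r1 r2 ⟨a1, ha1, d1, hd1, h1⟩ ⟨a2, ha2, d2, hd2, h2⟩
    refine ⟨a1 * d2 + a2 * d1, x0.add_mem (x0.mul_mem_right _ ha1) (x0.mul_mem_right _ ha2),
      d1 * d2, fun h => (hx0.mem_or_mem h).elim hd1 hd2, ?_⟩
    rw [map_add, map_mul, map_add, map_mul, map_mul, ← h1, ← h2]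
    ring
  smul_mem' := by
    rintro s r ⟨a, ha, d, hd, h⟩
    obtain ⟨a', d', hd', h'⟩ := exists_frac_aeval O E φ' x0 hφ'O t a_t d_t hd_t ht s
    refine ⟨a' * a, x0.mul_mem_left _ ha, d' * d, fun hh => (hx0.mem_or_mem hh).elim hd' hd, ?_⟩
    rw [smul_eq_mul, map_mul, map_mul, map_mul, ← h, ← h']
    ring

/-- **The chart form of `hUNR` from `HUNROff`.** -/
theorem hUNR_of_hunrOff_chart (ϖ : ↥O) (t : ↥E) (Sset : Set ↥O) (h : HUNROff O E ϖ t Sset)
    (hφ'O : ∀ r : ↥O, φ' (algebraMap ↥O BM r) = algebraMap ↥O ↥E r)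
    (hinj : Function.Injective φ')
    (a_t d_t : BM) (hd_t : d_t ∉ x0) (ht : t * φ' d_t = φ' a_t)
    (hcusp : ∀ c ∈ Sset, a_t - algebraMap ↥O BM c * d_t ∉ x0) :
    ∀ O' : ValuationSubring ↥E,
      (∀ s : ↥E, IsIntegral ↥(Algebra.adjoin ↥O {t}) s → s ∈ O') →
      (∀ b : BM, φ' b ∈ O') → (∀ d : BM, d ∉ x0 → (φ' d)⁻¹ ∈ O') →
      IsDiscreteValuationRing O' → (algebraMap ↥O ↥E ϖ)⁻¹ ∈ O' →
      ∃ g : BM, (φ' g)⁻¹ ∉ O' ∧ ∀ y ∈ O', y⁻¹ ∉ O' → y / φ' g ∈ O' := by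
  intro O' hchart hBM hd hdvr hπ
  have hne0 : ∀ d : BM, d ∉ x0 → φ' d ≠ 0 := by
    intro d hdx h0
    apply hdx
    have : d = 0 := hinj (by rw [h0, map_zero])
    rw [this]; exact x0.zero_mem
  set P := centreIdeal O E φ' x0 hφ'O t a_t d_t hd_t ht with hP
  have hPc : ∀ c ∈ Sset, (X - C c : (↥O)[X]) ∉ P := by
    rintro c hc ⟨a, ha, d, hdx, hda⟩
    apply hcusp c hc
    -- `(a_t - c d_t) d = a d_t`
    have h1 : φ' ((a_t - algebraMap ↥O BM c * d_t) * d) = φ' (a * d_t) := by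
      rw [map_mul, map_mul, ← hda, map_sub, map_mul, hφ'O, ← ht, map_sub, aeval_X, aeval_C]
      ring
    have h2 : (a_t - algebraMap ↥O BM c * d_t) * d ∈ x0 := by
      rw [hinj h1]; exact x0.mul_mem_right _ ha
    exact (hx0.mem_or_mem h2).resolve_right hdx
  obtain ⟨g0, hg1, hg2⟩ := h P hPc O' hchart hdvr hπ (by
    intro r hr
    obtain ⟨a, d, hdx, hda⟩ := exists_frac_aeval O E φ' x0 hφ'O t a_t d_t hd_t ht r
    have hax : a ∉ x0 := fun ha => hr ⟨a, ha, d, hdx, hda⟩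
    have h1 : (aeval t r)⁻¹ = φ' d * (φ' a)⁻¹ := by
      have : aeval t r = φ' a / φ' d := by rw [eq_div_iff (hne0 d hdx)]; exact hda
      rw [this, inv_div, div_eq_mul_inv]
    rw [h1]
    exact O'.mul_mem _ _ (hBM d) (hd a hax))
  obtain ⟨a, d, hdx, hda⟩ := exists_frac_aeval O E φ' x0 hφ'O t a_t d_t hd_t ht g0
  have hg : aeval t g0 = φ' a / φ' d := by rw [eq_div_iff (hne0 d hdx)]; exact hda
  refine ⟨a, ?_, ?_⟩
  · intro hinv
    apply hg1
    rw [hg, inv_div, div_eq_mul_inv]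
    exact O'.mul_mem _ _ (hBM d) hinv
  · intro y hy hy'
    have := hg2 y hy hy'
    have h2 : y / φ' a = y / aeval t g0 * (φ' d)⁻¹ := by
      rw [hg]
      have := hne0 d hdx
      by_cases ha0 : φ' a = 0
      · rw [ha0]; simp
      · field_simp
    rw [h2]
    exact O'.mul_mem _ _ this (hd d hdx)

end UNR

section Kron

open Fermat.Agent.RED.PUR.GaussGen8 Fermat.Agent.ES.N34.GaussEmb22

variable {K : Type*} [Field K] {O : ValuationSubring K} [IsDiscreteValuationRing ↥O]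
  {F : Type*} [Field F] [Algebra K F]
  {ι : F →ₐ[K] LaurentSeries K} {V : ValuationSubring F}

/-- `y - u ∈ π V ⇒ y ^ q - u ^ q ∈ π V` for `y, u ∈ V`. -/
theorem pow_sub_pow_piMul {p : F} {y u : F} (hy : y ∈ V) (hu : u ∈ V) (q : ℕ)
    (h : ∃ c ∈ V, y - u = p * c) : ∃ c ∈ V, y ^ q - u ^ q = p * c := by
  obtain ⟨c, hc, hyu⟩ := h
  obtain ⟨e, he⟩ := sub_dvd_pow_sub_pow (⟨y, hy⟩ : V) ⟨u, hu⟩ q
  refine ⟨c * (e : F), V.mul_mem _ _ hc e.2, ?_⟩
  have h1 : y ^ q - u ^ q = (y - u) * (e : F) := by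
    have := congrArg (fun z : V => (z : F)) he
    simpa using this
  rw [h1, hyu]; ring

/-- **`hne1`**: if `u ≡ s ^ q mod π V` and the residue of `s` is transcendental over the residue field,
then `s - u ^ q ∉ π V` (`1 < q`). -/
theorem not_piMul_of_kron {π : ↥O} (hπ : Irreducible π) (hV : IsGaussPullback O ι V) {s u : F}
    (hs : s ∈ V) (hu : u ∈ V)
    (htr : Transcendental (Res O) (gaussRed O ⟨ι s, (hV s).mp hs⟩))
    (q : ℕ) (hq : 1 < q)
    (h1 : ∃ c ∈ V, u - s ^ q = algebraMap K F (π : K) * c) :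
    ¬ ∃ c ∈ V, s - u ^ q = algebraMap K F (π : K) * c := by
  intro h2
  have hz : ∀ x : F, ∀ hx : x ∈ V, (∃ c ∈ V, x = algebraMap K F (π : K) * c) →
      redOf hV ⟨x, hx⟩ = 0 := by
    intro x hx hx'
    rw [redOf_eq_zero_iff]
    exact (Fermat.Agent.ES.P36.ConstRes21.val_lt_one_iff_exists_mul hπ hV x).mpr hx'
  set σ := redOf hV ⟨s, hs⟩ with hσ
  set υ := redOf hV ⟨u, hu⟩ with hυ
  have e1 : υ - σ ^ q = 0 := by
    have := hz (u - s ^ q) (sub_mem hu (pow_mem hs q)) h1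
    have h3 : (⟨u - s ^ q, sub_mem hu (pow_mem hs q)⟩ : V) = ⟨u, hu⟩ - ⟨s, hs⟩ ^ q := rfl
    rwa [h3, map_sub, map_pow] at this
  have e2 : σ - υ ^ q = 0 := by
    have := hz (s - u ^ q) (sub_mem hs (pow_mem hu q)) h2
    have h3 : (⟨s - u ^ q, sub_mem hs (pow_mem hu q)⟩ : V) = ⟨s, hs⟩ - ⟨u, hu⟩ ^ q := rfl
    rwa [h3, map_sub, map_pow] at this
  have e3 : σ ^ (q * q) - σ = 0 := by
    rw [pow_mul, ← sub_eq_zero.mp e1, ← sub_eq_zero.mp e2, sub_self]
  have hσ' : σ = gaussRed O ⟨ι s, (hV s).mp hs⟩ := rfl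
  apply htr
  rw [← hσ']
  refine ⟨X ^ (q * q) - X, FiniteField.X_pow_card_sub_X_ne_zero _ ?_, ?_⟩
  · nlinarith
  · rw [map_sub, map_pow, aeval_X]; exact e3

end Kron

section Gen

variable {R FM F : Type*} [CommRing R] [Field FM] [Field F] [Algebra R FM] [Algebra R F]

/-- generators of the chart of `φ s` over `R[φ s]` are generators over `φ (chart R s)`. -/
theorem hfin_of_generators (φ : FM →+* F)
    (hφR : ∀ r : R, φ (algebraMap R FM r) = algebraMap R F r) (s : FM)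
    (h : ∃ (r : ℕ) (e : Fin r → F), (∀ i, e i ∈ chart R (φ s)) ∧
      ∀ x ∈ chart R (φ s), ∃ P : Fin r → R[X], x = ∑ i, aeval (φ s) (P i) * e i) :
    ∃ (r : ℕ) (e : Fin r → F), (∀ i, e i ∈ chart R (φ s)) ∧
      ∀ x ∈ chart R (φ s), ∃ c : Fin r → ↥(chart R s), x = ∑ i, φ (c i : FM) * e i := by
  obtain ⟨r, e, he, hgen⟩ := h
  refine ⟨r, e, he, fun x hx => ?_⟩
  obtain ⟨P, hP⟩ := hgen x hx
  have hmem : ∀ p : R[X], aeval s p ∈ chart R s := fun p =>
    adjoin_le_chart s (by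
      rw [Algebra.adjoin_singleton_eq_range_aeval]; exact ⟨p, rfl⟩)
  refine ⟨fun i => ⟨aeval s (P i), hmem _⟩, ?_⟩
  rw [hP]
  refine Finset.sum_congr rfl fun i _ => ?_
  congr 1
  -- `aeval (φ s) p = φ (aeval s p)`
  show aeval (φ s) (P i) = φ (aeval s (P i))
  rw [aeval_def, aeval_def, hom_eval₂]
  congr 1
  ext r
  exact (hφR r).symm

end Gen

noncomputable section GaussGen

open HahnSeries IntermediateField
open Fermat.Agent.RED.PUR.GaussGen8 Fermat.Agent.RED.PUR.KtGauss8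
  Fermat.Agent.RED.PUR.G1Package8 Fermat.Agent.RED.NumInst4 Fermat.Agent.RED.ModelAsm4

variable {K : Type*} [Field K] {O : ValuationSubring K} [IsDiscreteValuationRing ↥O]
  {E : IntermediateField K (LaurentSeries K)}

/-- explicit finite generation of the chart `chart ↥O t ⊆ ↥E` over `O[t]`, Gauss form (the third
component of `ChartGeneric22.chart_facts` with the hypotheses of `ChartN26.chartInputs_gauss`). -/
theorem chart_generators_gauss [CharZero K] {π : ↥O} (hπ : Irreducible π) (t : ↥E)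
    (ht : (t : LaurentSeries K) ∈ gaussRing O)
    (htr : Transcendental (Res O) (gaussRed O ⟨(t : LaurentSeries K), ht⟩))
    (hn : relfinrank (Kt O ⟨(t : LaurentSeries K), ht⟩) E ≠ 0) :
    ∃ (r : ℕ) (e : Fin r → ↥E), (∀ i, e i ∈ chart ↥O t) ∧
      ∀ x ∈ chart ↥O t, ∃ P : Fin r → (↥O)[X], x = ∑ i, aeval t (P i) * e i := by
  have : IsScalarTower ↥O K ↥E := isScalarTower_OE O E
  have : FiniteDimensional ↥(IntermediateField.adjoin K {t}) ↥E := finiteDimensional_adjoin t hn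
  have htrK : Transcendental K t :=
    transcendental_of_coe t (transcendental_t (tG := ⟨(t : LaurentSeries K), ht⟩) hπ htr)
  exact (chart_facts (R := ↥O) (IntermediateField.adjoin K {t})
    (IntermediateField.mem_adjoin_simple_self K t) le_rfl htrK).2.2

end GaussGen

end Fermat.Agent.ES.P36.RegGauss21
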