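/-
Program P (S36), chapter REG, brick RegInst (helper21), MODEL layer part 1: the KRONECKER inputs at
the `ModelDefs9` data, for ONE number field `K` with an explicit Frobenius inverse `ψ`
(`ModelQAt4.FrobInvAt` unfolded), no normality:

* `symm_mem_AK`  : `ψ⁻¹ (A ∩ K) ⊆ A ∩ K` (`ψ` has finite order);
* `kron_rev_B0M`, `kron_rev_B1M` : the REVERSE Kronecker surjectivity
  `∀ b ∈ BM, ∃ r ∈ BM, (β b)^q - α r ∈ π O2` (`r := g_{ψ⁻¹} b`);
* `hinsep_of_comp` : `∀ y ∈ B, ∃ r ∈ BM, y^q - α r ∈ π O2` from `CompData.hsurj` for `(O2, β)`;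
* `hne1_B0`, `hne1_B1` : an element of `B ∩ π O2` which is not in `π O1` (`tN - yN^q`, resp.
  `tN⁻¹ - yN⁻q`).
-/
import Mathlib
import Fermat.Agent.ES.N34.KronChart15
import Fermat.Agent.ES.N34.KronItems15
import Fermat.Agent.ES.N34.ModelGlue22
import Fermat.Agent.ES.N35.CompData16
import Fermat.Agent.ES.P36.RegGauss21

set_option autoImplicit false
set_option linter.unusedSectionVars false
set_option linter.style.haveILetI false
set_option synthInstance.maxHeartbeats 400000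

noncomputable section

open HahnSeries ModularCurve

namespace Fermat.Agent.ES.P36.RegKron21

open Fermat.Agent.RED.Interface4 Fermat.Agent.RED.PUR.GaussGen8
  Fermat.Agent.RED.PUR.ChartGeneric22 Fermat.Agent.RED.BASE.EtaQuot12
  Fermat.Agent.ES.N34.FrickeFK8 Fermat.Agent.ES.N34.ModelDefs9 Fermat.Agent.ES.N34.KronN14
  Fermat.Agent.ES.N34.KronChart15 Fermat.Agent.ES.N35.CompData16

variable {A : ValuationSubring Qbar} {K : IntermediateField ℚ Qbar}

/-- `ψ⁻¹` preserves `A ∩ K` (finite order). -/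
theorem symm_mem_AK [FiniteDimensional ℚ K] (ψ : K ≃ₐ[ℚ] K)
    (hψO : ∀ x ∈ AK A K, ((ψ : K ≃ₐ[ℚ] K) : K →+* K) x ∈ AK A K) :
    ∀ x ∈ AK A K, ((ψ.symm : K ≃ₐ[ℚ] K) : K →+* K) x ∈ AK A K := by
  have hpow : ∀ k : ℕ, ∀ x ∈ AK A K, (ψ ^ k) x ∈ AK A K := by
    intro k
    induction k with
    | zero => intro x hx; simpa using hx
    | succ k ih =>
      intro x hx
      rw [pow_succ]
      exact ih _ (hψO x hx)
  obtain ⟨m, hm, hψm⟩ := isOfFinOrder_iff_pow_eq_one.mp (isOfFinOrder_of_finite ψ)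
  intro x hx
  have h1 : ψ.symm = ψ ^ (m - 1) := by
    have h2 : ψ * ψ ^ (m - 1) = 1 := by
      rw [← pow_succ', Nat.sub_add_cancel hm, hψm]
    have h3 : ψ⁻¹ = ψ ^ (m - 1) := inv_eq_of_mul_eq_one_right h2
    rw [← h3]; rfl
  show ψ.symm x ∈ AK A K
  rw [h1]
  exact hpow _ x hx

variable (M' q : ℕ) [NeZero M'] [NeZero q] {n e : ℕ} [NeZero n]
  [hq : Fact q.Prime] [CharP (Res (AK A K)) q]
  {π : ↥(AK A K)} (hπ : IsUnif (AK A K) π) (hE : FK (M' * q) K ≤ fracField (AK A K))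
  (ψ : K ≃ₐ[ℚ] K) (hψO : ∀ x ∈ AK A K, ((ψ : K ≃ₐ[ℚ] K) : K →+* K) x ∈ AK A K)
  (hψ : ∀ x : ↥(AK A K),
    res0 (AK A K) (restrictO (AK A K) ((ψ : K ≃ₐ[ℚ] K) : K →+* K) hψO x) ^ q = res0 (AK A K) x)

include hψ in
/-- **Reverse Kronecker, chart `0`.** -/
theorem kron_rev_B0M [FiniteDimensional ℚ K] (ht : tq (↥K) n e ∈ FK M' K)
    (hle : ∀ b ∈ B0M A ht, (b : LaurentSeries K) ∈ gaussRing (AK A K))
    (hiso : ∀ x : FK M' K, (x : LaurentSeries K) ∈ gaussRing (AK A K) →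
      ((frickeFK M' K x : FK M' K) : LaurentSeries K) ∈ gaussRing (AK A K)) :
    ∀ b : ↥(B0M A ht), ∃ r : ↥(B0M A ht), ∃ o ∈ O2 M' q hπ hE,
      (beta K M' q (b : FK M' K)) ^ q - alpha K M' q (r : FK M' K) =
        algebraMap ↥(AK A K) ↥(FK (M' * q) K) π * o := by
  intro b
  have hψsO := symm_mem_AK ψ hψO
  have hr : arithmeticRingAut (modularFunctionFieldFull M') ψ.symm (b : FK M' K) ∈ B0M A ht :=
    gpsi_mem_B0M M' ψ.symm hψsO ht b.2
  obtain ⟨o, ho, h⟩ := kron_two' M' q hπ hE ψ hψO hψ _ (hiso _ (hle _ hr))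
  have hback : arithmeticRingAut (modularFunctionFieldFull M') ψ
      (arithmeticRingAut (modularFunctionFieldFull M') ψ.symm (b : FK M' K)) = (b : FK M' K) :=
    (arithmeticRingAut (modularFunctionFieldFull M') ψ).apply_symm_apply _
  rw [hback] at h
  refine ⟨⟨_, hr⟩, -o, neg_mem ho, ?_⟩
  rw [mul_neg, ← h]; ring

include hψ in
/-- **Reverse Kronecker, chart `1`.** -/
theorem kron_rev_B1M [FiniteDimensional ℚ K] (ht : tq (↥K) n e ∈ FK M' K)
    (hle : ∀ b ∈ B1M A ht, (b : LaurentSeries K) ∈ gaussRing (AK A K))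
    (hiso : ∀ x : FK M' K, (x : LaurentSeries K) ∈ gaussRing (AK A K) →
      ((frickeFK M' K x : FK M' K) : LaurentSeries K) ∈ gaussRing (AK A K)) :
    ∀ b : ↥(B1M A ht), ∃ r : ↥(B1M A ht), ∃ o ∈ O2 M' q hπ hE,
      (beta K M' q (b : FK M' K)) ^ q - alpha K M' q (r : FK M' K) =
        algebraMap ↥(AK A K) ↥(FK (M' * q) K) π * o := by
  intro b
  have hψsO := symm_mem_AK ψ hψO
  have hr : arithmeticRingAut (modularFunctionFieldFull M') ψ.symm (b : FK M' K) ∈ B1M A ht :=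
    gpsi_mem_B1M M' ψ.symm hψsO ht b.2
  obtain ⟨o, ho, h⟩ := kron_two' M' q hπ hE ψ hψO hψ _ (hiso _ (hle _ hr))
  have hback : arithmeticRingAut (modularFunctionFieldFull M') ψ
      (arithmeticRingAut (modularFunctionFieldFull M') ψ.symm (b : FK M' K)) = (b : FK M' K) :=
    (arithmeticRingAut (modularFunctionFieldFull M') ψ).apply_symm_apply _
  rw [hback] at h
  refine ⟨⟨_, hr⟩, -o, neg_mem ho, ?_⟩
  rw [mul_neg, ← h]; ring

omit [NeZero M'] [NeZero q] hq [CharP (Res (AK A K)) q] in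
/-- `∀ y ∈ B, ∃ r, y ^ q - α r ∈ π O2` from the surjectivity `B → O2 / π` through `β` and the reverse
Kronecker congruence (generic). -/
theorem hinsep_of_surj {R F BMt : Type*} [CommRing R] [Field F] [Algebra R F] (am bm : BMt → F)
    (p : R) (B : Subalgebra R F) (O2 : ValuationSubring F) (leO2 : ∀ x ∈ B, x ∈ O2)
    (hbB : ∀ b, bm b ∈ B)
    (hsurj2 : ∀ y ∈ B, ∃ b : BMt, ∃ c ∈ O2, y - bm b = algebraMap R F p * c)
    (q : ℕ) (hrev : ∀ b : BMt, ∃ r : BMt, ∃ o ∈ O2, (bm b) ^ q - am r = algebraMap R F p * o) :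
    ∀ y ∈ B, ∃ r : BMt, ∃ c ∈ O2, y ^ q - am r = algebraMap R F p * c := by
  intro y hy
  obtain ⟨b, c, hc, hyb⟩ := hsurj2 y hy
  obtain ⟨c', hc', h1⟩ := RegGauss21.pow_sub_pow_piMul (V := O2) (p := algebraMap R F p)
    (leO2 _ hy) (leO2 _ (hbB b)) q ⟨c, hc, hyb⟩
  obtain ⟨r, o, ho, h2⟩ := hrev b
  refine ⟨r, c' + o, O2.add_mem _ _ hc' ho, ?_⟩
  have : y ^ q - am r = (y ^ q - bm b ^ q) + (bm b ^ q - am r) := by ring
  rw [this, h1, h2]; ring

set_option maxHeartbeats 2000000 in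
include hψ in
/-- **`hne1`, generic in the coordinate `s`** (`s = tM` or `tM⁻¹`, fixed by `ψ`): the element
`α s - (β s)^q` lies in `π O2` but not in `π O1`. -/
theorem hne1_of_fixed [IsDiscreteValuationRing ↥(AK A K)] (hirr : Irreducible π) (s : FK M' K)
    (hgs : arithmeticRingAut (modularFunctionFieldFull M') ψ s = s)
    (hs : (s : LaurentSeries K) ∈ gaussRing (AK A K))
    (htr : Transcendental (Res (AK A K)) (gaussRed (AK A K) ⟨(s : LaurentSeries K), hs⟩))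
    (hs2 : iotaTwo M' K s ∈ gaussRing (AK A K)) :
    (∃ o ∈ O2 M' q hπ hE, alpha K M' q s - (beta K M' q s) ^ q =
        algebraMap ↥(AK A K) ↥(FK (M' * q) K) π * o) ∧
      ¬ ∃ c ∈ O1 M' q hπ hE, alpha K M' q s - (beta K M' q s) ^ q =
        algebraMap ↥(AK A K) ↥(FK (M' * q) K) π * c := by
  constructor
  · obtain ⟨o, ho, h⟩ := kron_two' M' q hπ hE ψ hψO hψ s hs2
    rw [hgs] at h
    exact ⟨o, ho, h⟩
  · obtain ⟨o, ho, h⟩ := kron_one M' q hπ hE ψ hψO hψ s hs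
    rw [hgs] at h
    have hO1 := Fermat.Agent.ES.N34.ModelGlue22.isGaussPullback_O1 (A := A) (K := K) M' q hπ hE
    have hsO1 : alpha K M' q s ∈ O1 M' q hπ hE := by
      rw [mem_O1_iff, coe_alpha]; exact hs
    have huO1 : beta K M' q s ∈ O1 M' q hπ hE := by
      -- `β s = (α s)^q + π o`
      have : beta K M' q s = (alpha K M' q s) ^ q +
          algebraMap ↥(AK A K) ↥(FK (M' * q) K) π * o := by rw [← h]; ring
      rw [this]
      refine (O1 M' q hπ hE).add_mem _ _ (pow_mem hsO1 q) ((O1 M' q hπ hE).mul_mem _ _ ?_ ho)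
      exact Fermat.Agent.ES.N34.GaussEmb22.algebraMap_O_mem hO1 π
    have hcoe : (FK (M' * q) K).val (alpha K M' q s) = (s : LaurentSeries K) :=
      coe_alpha K M' q s
    have htr' : Transcendental (Res (AK A K)) (gaussRed (AK A K)
        ⟨(FK (M' * q) K).val (alpha K M' q s), (hO1 _).mp hsO1⟩) := by
      have h1 : (⟨(FK (M' * q) K).val (alpha K M' q s), (hO1 _).mp hsO1⟩ :
          ↥(gaussRing (AK A K))) = ⟨(s : LaurentSeries K), hs⟩ := Subtype.ext hcoe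
      rw [h1]; exact htr
    have key := RegGauss21.not_piMul_of_kron hirr hO1 hsO1 huO1 htr' q hq.out.one_lt
      ⟨o, ho, by rw [h, Fermat.Agent.ES.N34.GaussEmb22.algebraMap_O_eq]⟩
    intro hcon
    apply key
    obtain ⟨c, hc, hcc⟩ := hcon
    exact ⟨c, hc, by rw [hcc, Fermat.Agent.ES.N34.GaussEmb22.algebraMap_O_eq]⟩

set_option maxHeartbeats 2000000 in
include hψ in
/-- **`hne2`, generic in the coordinate `s`** (mirror of `hne1_of_fixed`): the element
`β s - (α s)^q` lies in `π O1` but not in `π O2`. -/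
theorem hne2_of_fixed [IsDiscreteValuationRing ↥(AK A K)] (hirr : Irreducible π) (s : FK M' K)
    (hgs : arithmeticRingAut (modularFunctionFieldFull M') ψ s = s)
    (hs : (s : LaurentSeries K) ∈ gaussRing (AK A K))
    (hs2 : iotaTwo M' K s ∈ gaussRing (AK A K))
    (htr2 : Transcendental (Res (AK A K)) (gaussRed (AK A K) ⟨iotaTwo M' K s, hs2⟩)) :
    (∃ o ∈ O1 M' q hπ hE, beta K M' q s - (alpha K M' q s) ^ q =
        algebraMap ↥(AK A K) ↥(FK (M' * q) K) π * o) ∧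
      ¬ ∃ c ∈ O2 M' q hπ hE, beta K M' q s - (alpha K M' q s) ^ q =
        algebraMap ↥(AK A K) ↥(FK (M' * q) K) π * c := by
  constructor
  · obtain ⟨o, ho, h⟩ := kron_one M' q hπ hE ψ hψO hψ s hs
    rw [hgs] at h
    exact ⟨o, ho, h⟩
  · obtain ⟨o, ho, h⟩ := kron_two' M' q hπ hE ψ hψO hψ s hs2
    rw [hgs] at h
    have hO2 := Fermat.Agent.ES.N34.ModelGlue22.isGaussPullback_O2 (A := A) (K := K) M' q hπ hE
    have hcoe : Fermat.Agent.ES.N34.ModelGlue22.iota2Alg K M' q (beta K M' q s) =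
        iotaTwo M' K s := Fermat.Agent.ES.N34.FrickeV11.iota2_beta K M' q s
    have hsO2 : beta K M' q s ∈ O2 M' q hπ hE := by
      rw [hO2, hcoe]; exact hs2
    have huO2 : alpha K M' q s ∈ O2 M' q hπ hE := by
      have : alpha K M' q s = (beta K M' q s) ^ q +
          algebraMap ↥(AK A K) ↥(FK (M' * q) K) π * o := by rw [← h]; ring
      rw [this]
      refine (O2 M' q hπ hE).add_mem _ _ (pow_mem hsO2 q) ((O2 M' q hπ hE).mul_mem _ _ ?_ ho)
      exact Fermat.Agent.ES.N34.GaussEmb22.algebraMap_O_mem hO2 π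
    have htr' : Transcendental (Res (AK A K)) (gaussRed (AK A K)
        ⟨Fermat.Agent.ES.N34.ModelGlue22.iota2Alg K M' q (beta K M' q s), (hO2 _).mp hsO2⟩) := by
      have h1 : (⟨Fermat.Agent.ES.N34.ModelGlue22.iota2Alg K M' q (beta K M' q s),
          (hO2 _).mp hsO2⟩ : ↥(gaussRing (AK A K))) = ⟨iotaTwo M' K s, hs2⟩ := Subtype.ext hcoe
      rw [h1]; exact htr2
    have key := RegGauss21.not_piMul_of_kron hirr hO2 hsO2 huO2 htr' q hq.out.one_lt
      ⟨o, ho, by rw [h, Fermat.Agent.ES.N34.GaussEmb22.algebraMap_O_eq]⟩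
    intro hcon
    apply key
    obtain ⟨c, hc, hcc⟩ := hcon
    exact ⟨c, hc, by rw [hcc, Fermat.Agent.ES.N34.GaussEmb22.algebraMap_O_eq]⟩

end Fermat.Agent.ES.P36.RegKron21
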