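/-
Program P (S36), chapter REG, brick RegInst (helper21), GAUSS layer (generic `(K, O, EM, E)`):
**`RegChart21.exists_two_generators` fed from the Program N/O packages** — `LevelM` at the good level,
`ChartN26.chartInputs_gauss` + `RegGauss21.chart_generators_gauss` at the bad level, `CompData` for
both branches, the reverse Kronecker congruence.  What stays open (as hypotheses) is exactly what
depends on the closed point `x1`: `hon1/hon2/hne1`, `hUNR` (chart form) and the exponent bound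
`hexp` (R2).
-/
import Mathlib
import Fermat.Agent.ES.N34.LevelM20
import Fermat.Agent.ES.N35.CompData16
import Fermat.Agent.ES.P36.RegChart21
import Fermat.Agent.ES.P36.RegKron21

set_option autoImplicit false
set_option linter.style.haveILetI false
set_option linter.unusedSectionVars false

noncomputable section

open HahnSeries Polynomial IntermediateField

namespace Fermat.Agent.ES.P36.RegCore21

open Fermat.Agent.RED.PUR.GaussGen8 Fermat.Agent.RED.PUR.KtGauss8 Fermat.Agent.RED.PUR.G1Package8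
  Fermat.Agent.RED.PUR.ChartGeneric22 Fermat.Agent.RED.ModelAsm4
  Fermat.Agent.RED.PUR.LocalFree26
  Fermat.Agent.ES.N34.LevelM20 Fermat.Agent.ES.N34.ChartN26 Fermat.Agent.ES.N34.ModelN4
  Fermat.Agent.ES.N35.CompData16

variable {K : Type*} [Field K] [CharZero K] {O : ValuationSubring K} [IsDiscreteValuationRing ↥O]
  {π : ↥O} {EM E : IntermediateField K (LaurentSeries K)}

omit [CharZero K] [IsDiscreteValuationRing ↥O] in
/-- `a` maps the chart of `s` into the chart of `a s`. -/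
theorem map_mem_chart_self (a : ↥EM →ₐ[K] ↥E) (s : ↥EM) :
    ∀ b : ↥(chart ↥O s), (a : ↥EM →+* ↥E) (b : ↥EM) ∈ chart ↥O (a s) := fun b =>
  map_mem_chart (a : ↥EM →+* ↥E) (algHom_algebraMap_O O EM E a)
    (show (a : ↥EM →+* ↥E) s ∈ chart ↥O (a s) from self_mem_chart _) b.2

/-- **RegInst, Gauss layer.** -/
theorem exists_two_generators_gauss (a b : ↥EM →ₐ[K] ↥E) (s : ↥EM)
    (Ls : LevelM O EM π s)
    (htG : ((a s : ↥E) : LaurentSeries K) ∈ gaussRing O)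
    (htrG : Transcendental (Res O) (gaussRed O ⟨((a s : ↥E) : LaurentSeries K), htG⟩))
    (hnG : relfinrank (Kt O ⟨((a s : ↥E) : LaurentSeries K), htG⟩) E ≠ 0)
    (O1 O2 : ValuationSubring ↥E)
    (leO1 : ∀ x ∈ chart ↥O (a s), x ∈ O1) (leO2 : ∀ x ∈ chart ↥O (a s), x ∈ O2)
    (pi_ne : algebraMap ↥O ↥E π ≠ 0)
    (sat : ∀ y ∈ chart ↥O (a s), ∀ c : ↥E, c ∈ O1 → c ∈ O2 → y = algebraMap ↥O ↥E π * c →
      c ∈ chart ↥O (a s))
    (cd1 : CompData π (chart ↥O (a s)) O1 (chartAlg O a s))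
    (cd2 : CompData π (chart ↥O (a s)) O2 (chartAlg O b s))
    (q : ℕ) (hq : 0 < q)
    (hrev : ∀ x : ↥(chart ↥O s), ∃ r : ↥(chart ↥O s), ∃ o ∈ O2,
      (b (x : ↥EM)) ^ q - a (r : ↥EM) = algebraMap ↥O ↥E π * o)
    (x1 : Ideal ↥(chart ↥O (a s))) [hx1 : x1.IsMaximal]
    (hon1 : ∀ y : ↥(chart ↥O (a s)), (∃ c ∈ O1, (y : ↥E) = algebraMap ↥O ↥E π * c) → y ∈ x1)
    (hon2 : ∀ y : ↥(chart ↥O (a s)), (∃ c ∈ O2, (y : ↥E) = algebraMap ↥O ↥E π * c) → y ∈ x1)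
    (hne1 : ∃ f ∈ x1, ¬ ∃ c ∈ O1, (f : ↥E) = algebraMap ↥O ↥E π * c)
    (hUNR : ∀ O' : ValuationSubring ↥E, (∀ y ∈ chart ↥O (a s), y ∈ O') →
      (∀ d : ↥(chart ↥O s), (⟨(a : ↥EM →+* ↥E) (d : ↥EM), map_mem_chart_self a s d⟩ :
        ↥(chart ↥O (a s))) ∉ x1 → ((a : ↥EM →+* ↥E) (d : ↥EM))⁻¹ ∈ O') →
      IsDiscreteValuationRing O' → (algebraMap ↥O ↥E π)⁻¹ ∈ O' →
      ∃ g : ↥(chart ↥O s), ((a : ↥EM →+* ↥E) (g : ↥EM))⁻¹ ∉ O' ∧
        ∀ y ∈ O', y⁻¹ ∉ O' → y / (a : ↥EM →+* ↥E) (g : ↥EM) ∈ O')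
    (hexp :
      letI := RegChart21.chartAlgebra (a : ↥EM →+* ↥E) (chart ↥O s) (chart ↥O (a s))
                (map_mem_chart_self a s)
      ∀ (n : ℕ) (bas : Module.Basis (Fin n)
          (RP (x1.comap (algebraMap ↥(chart ↥O s) ↥(chart ↥O (a s)))))
          (SP ↥(chart ↥O (a s)) (x1.comap (algebraMap ↥(chart ↥O s) ↥(chart ↥O (a s))))))
        (k : ℕ) (u : RP (x1.comap (algebraMap ↥(chart ↥O s) ↥(chart ↥O (a s))))), IsUnit u →
        Algebra.discr (RP (x1.comap (algebraMap ↥(chart ↥O s) ↥(chart ↥O (a s))))) bas =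
          algebraMap ↥(chart ↥O s) (RP (x1.comap (algebraMap ↥(chart ↥O s) ↥(chart ↥O (a s)))))
            (algebraMap ↥O ↥(chart ↥O s) π) ^ k * u →
        k < n) :
    ∃ f g : ↥(chart ↥O (a s)), f ∈ x1 ∧ g ∈ x1 ∧
      ∀ y ∈ x1, ∃ d : ↥(chart ↥O (a s)), d ∉ x1 ∧ d * y ∈ Ideal.span {f, g} := by
  haveI : IsScalarTower ↥O K ↥E := Fermat.Agent.RED.NumInst4.isScalarTower_OE O E
  haveI : IsScalarTower ↥O K ↥EM := Fermat.Agent.RED.NumInst4.isScalarTower_OE O EM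
  have hirr : Irreducible π := Ls.irr
  obtain ⟨n', hd, hi⟩ := Ls.deg_irr
  -- level `M'` chart facts
  have ciM := (chartInputs_gauss hirr s Ls.htM Ls.htrM Ls.hn').out
  have hprime := Fermat.Agent.ES.RED.FibreSurj17.isPrime_span_pi hirr Ls.hEM s Ls.htM Ls.htrM hd hi
  have hpiM0 : algebraMap ↥O ↥(chart ↥O s) π ≠ 0 := by
    intro h0
    have h1 : ((algebraMap ↥O ↥(chart ↥O s) π : ↥(chart ↥O s)) : ↥EM) =
        ((0 : ↥(chart ↥O s)) : ↥EM) := congrArg _ h0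
    exact Fermat.Agent.RED.PUR.G1Package8.algebraMap_pi_ne_zero (E := EM) hirr h1
  have hπBM : Prime (algebraMap ↥O ↥(chart ↥O s) π) :=
    (Ideal.span_singleton_prime hpiM0).mp hprime
  -- level `M' q` chart facts
  have ci := (chartInputs_gauss hirr (a s) htG htrG hnG).out
  have hfin := RegGauss21.hfin_of_generators (R := ↥O) (a : ↥EM →+* ↥E)
    (algHom_algebraMap_O O EM E a) s
    (RegGauss21.chart_generators_gauss hirr (a s) htG htrG hnG)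
  -- `hchar`
  have hchar : ∀ n : ℕ, n ≠ 0 → ∃ k : ℕ, (n : ↥O) ∣ π ^ k := by
    intro n hn
    have hn0 : (n : ↥O) ≠ 0 := by
      intro h0
      have : ((n : ↥O) : K) = 0 := by rw [h0]; rfl
      have h1 : (n : K) = 0 := by simpa using this
      exact hn (Nat.cast_eq_zero.mp h1)
    obtain ⟨k, v, hv⟩ := ci.dvrR (n : ↥O) hn0
    refine ⟨k, ⟨((v⁻¹ : (↥O)ˣ) : ↥O), ?_⟩⟩
    rw [hv, mul_assoc, Units.mul_inv, mul_one]
  exact RegChart21.exists_two_generators π (a : ↥EM →+* ↥E) (chart ↥O s) (chart ↥O (a s))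
    (map_mem_chart_self a s) (algHom_algebraMap_O O EM E a)
    ciM.noeth0 (chart_intcl s) ciM.frac0 hπBM Ls.hsm (chart_intcl (a s)) ci.frac0 hfin
    O1 O2 leO1 leO2 pi_ne sat cd1.hsurj q hq
    (RegKron21.hinsep_of_surj (fun x : ↥(chart ↥O s) => a (x : ↥EM))
      (fun x : ↥(chart ↥O s) => b (x : ↥EM)) π (chart ↥O (a s)) O2 leO2 cd2.hφB cd2.hsurj q hrev)
    x1 hon1 hon2 hne1 hchar hUNR hexp

omit [CharZero K] [IsDiscreteValuationRing ↥O] in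
/-- `a` maps the chart of `s` into the chart of `t = a s`. -/
theorem map_mem_chart_of_eq (a : ↥EM →ₐ[K] ↥E) (s : ↥EM) (t : ↥E) (hst : a s = t) :
    ∀ b : ↥(chart ↥O s), (a : ↥EM →+* ↥E) (b : ↥EM) ∈ chart ↥O t := by
  subst hst
  exact map_mem_chart_self a s

open Fermat.Agent.RED.PUR.OffIface4 in
/-- **RegInst, Gauss layer, with `hUNR` discharged by `HUNROff`** (`t' = t` in chart `0`,
`t' = t⁻¹` in chart `1`; `t' = a a_t / a d_t`). -/
theorem twoGen_gauss (a b : ↥EM →ₐ[K] ↥E) (s : ↥EM) (t : ↥E) (hst : a s = t)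
    (Ls : LevelM O EM π s)
    (htG : (t : LaurentSeries K) ∈ gaussRing O)
    (htrG : Transcendental (Res O) (gaussRed O ⟨(t : LaurentSeries K), htG⟩))
    (hnG : relfinrank (Kt O ⟨(t : LaurentSeries K), htG⟩) E ≠ 0)
    (O1 O2 : ValuationSubring ↥E)
    (leO1 : ∀ x ∈ chart ↥O t, x ∈ O1) (leO2 : ∀ x ∈ chart ↥O t, x ∈ O2)
    (pi_ne : algebraMap ↥O ↥E π ≠ 0)
    (sat : ∀ y ∈ chart ↥O t, ∀ c : ↥E, c ∈ O1 → c ∈ O2 → y = algebraMap ↥O ↥E π * c →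
      c ∈ chart ↥O t)
    (cd1 : CompData π (chart ↥O t) O1 (chartAlg O a s))
    (cd2 : CompData π (chart ↥O t) O2 (chartAlg O b s))
    (q : ℕ) (hq : 0 < q)
    (hrev : ∀ x : ↥(chart ↥O s), ∃ r : ↥(chart ↥O s), ∃ o ∈ O2,
      (b (x : ↥EM)) ^ q - a (r : ↥EM) = algebraMap ↥O ↥E π * o)
    (t' : ↥E) (Sset : Set ↥O) (hH : HUNROff O E π t' Sset)
    (a_t d_t : ↥(chart ↥O s)) (ht' : t' * a (d_t : ↥EM) = a (a_t : ↥EM))
    (x1 : Ideal ↥(chart ↥O t)) [hx1 : x1.IsMaximal]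
    (hon1 : ∀ y : ↥(chart ↥O t), (∃ c ∈ O1, (y : ↥E) = algebraMap ↥O ↥E π * c) → y ∈ x1)
    (hon2 : ∀ y : ↥(chart ↥O t), (∃ c ∈ O2, (y : ↥E) = algebraMap ↥O ↥E π * c) → y ∈ x1)
    (hne1 : ∃ f ∈ x1, ¬ ∃ c ∈ O1, (f : ↥E) = algebraMap ↥O ↥E π * c)
    (hdt : ∀ y : ↥(chart ↥O t), (y : ↥E) = a (d_t : ↥EM) → y ∉ x1)
    (hcusp : ∀ c ∈ Sset, ∀ y : ↥(chart ↥O t),
      (y : ↥E) = a (a_t : ↥EM) - algebraMap ↥O ↥E c * a (d_t : ↥EM) → y ∉ x1)
    (ht'O : ∀ O' : ValuationSubring ↥E, (∀ y ∈ chart ↥O t, y ∈ O') →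
      (a (d_t : ↥EM))⁻¹ ∈ O' → t' ∈ O')
    (hexp :
      letI := RegChart21.chartAlgebra (a : ↥EM →+* ↥E) (chart ↥O s) (chart ↥O t)
                (map_mem_chart_of_eq a s t hst)
      ∀ (n : ℕ) (bas : Module.Basis (Fin n)
          (RP (x1.comap (algebraMap ↥(chart ↥O s) ↥(chart ↥O t))))
          (SP ↥(chart ↥O t) (x1.comap (algebraMap ↥(chart ↥O s) ↥(chart ↥O t)))))
        (k : ℕ) (u : RP (x1.comap (algebraMap ↥(chart ↥O s) ↥(chart ↥O t)))), IsUnit u →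
        Algebra.discr (RP (x1.comap (algebraMap ↥(chart ↥O s) ↥(chart ↥O t)))) bas =
          algebraMap ↥(chart ↥O s) (RP (x1.comap (algebraMap ↥(chart ↥O s) ↥(chart ↥O t))))
            (algebraMap ↥O ↥(chart ↥O s) π) ^ k * u →
        k < n) :
    ∃ f g : ↥(chart ↥O t), f ∈ x1 ∧ g ∈ x1 ∧
      ∀ y ∈ x1, ∃ d : ↥(chart ↥O t), d ∉ x1 ∧ d * y ∈ Ideal.span {f, g} := by
  subst hst
  haveI : IsScalarTower ↥O K ↥E := Fermat.Agent.RED.NumInst4.isScalarTower_OE O E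
  haveI : IsScalarTower ↥O K ↥EM := Fermat.Agent.RED.NumInst4.isScalarTower_OE O EM
  -- the chart map and the point below
  set cm := RegChart21.chartMap (a : ↥EM →+* ↥E) (chart ↥O s) (chart ↥O (a s))
    (map_mem_chart_self a s) with hcm
  have hcmcoe : ∀ d : ↥(chart ↥O s), ((cm d : ↥(chart ↥O (a s))) : ↥E) = a (d : ↥EM) := fun _ => rfl
  let φ' : ↥(chart ↥O s) →+* ↥E := (a : ↥EM →+* ↥E).comp (algebraMap ↥(chart ↥O s) ↥EM)
  have hφ' : ∀ d : ↥(chart ↥O s), φ' d = a (d : ↥EM) := fun _ => rfl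
  haveI hx0 : (x1.comap cm).IsPrime := Ideal.comap_isPrime cm x1
  have hφ'O : ∀ r : ↥O, φ' (algebraMap ↥O ↥(chart ↥O s) r) = algebraMap ↥O ↥E r := fun r =>
    algHom_algebraMap_O O EM E a r
  have hinj : Function.Injective φ' := fun x y h =>
    Subtype.ext ((a : ↥EM →+* ↥E).injective h)
  have hd_t : d_t ∉ x1.comap cm := fun h => hdt (cm d_t) rfl h
  have hcusp' : ∀ c ∈ Sset, a_t - algebraMap ↥O ↥(chart ↥O s) c * d_t ∉ x1.comap cm := by
    intro c hc h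
    refine hcusp c hc (cm (a_t - algebraMap ↥O ↥(chart ↥O s) c * d_t)) ?_ h
    rw [hcmcoe]
    show a ((a_t : ↥EM) - algebraMap ↥O ↥EM c * (d_t : ↥EM)) = _
    rw [map_sub, map_mul, algHom_algebraMap_O O EM E a c]
  have key := RegGauss21.hUNR_of_hunrOff_chart O E φ' (x1.comap cm) π t' Sset hH hφ'O hinj
    a_t d_t hd_t ht' hcusp'
  refine exists_two_generators_gauss a b s Ls htG htrG hnG O1 O2 leO1 leO2 pi_ne sat cd1 cd2 q hq
    hrev x1 hon1 hon2 hne1 ?_ hexp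
  intro O' hB hd hdvr hπ
  have hdt' : (a (d_t : ↥EM))⁻¹ ∈ O' := hd d_t (fun h => hdt (cm d_t) rfl h)
  have ht'mem : t' ∈ O' := ht'O O' hB hdt'
  have hRO' : ∀ r : ↥O, algebraMap ↥O ↥E r ∈ O' := fun r =>
    hB _ (Subalgebra.algebraMap_mem _ r)
  exact key O' (fun y hy => chart_le_valuationSubring O' hRO' ht'mem y hy)
    (fun d => hB _ (map_mem_chart_self a s d)) (fun d hdx => hd d hdx) hdvr hπ

end Fermat.Agent.ES.P36.RegCore21
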