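/-
Program P (S36), chapter REG, brick RegInst (helper21), MODEL layer (`ModelDefs9` names, ONE number
field `K`, no `∃ K₀`, no normality): **the `htwo` of `NodeRegChart10.nodeReg_chart` for both charts
`B0 A q ht`, `B1 A q ht` of the level-`M' q` model**, together with `hne1`, `hne2`.

`TwoGenItems n e q M' A K` : for every `(ht, hE, π, hπ)` and every maximal ideal `x1` of `B0` (resp.
`B1`) lying on both vertical components: neither component is centred at `x1`, and `x1` is locally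
generated by two elements.

Inputs: Program N/O's per-`K` items (`LevelItems`, `GlueItems`, `ModEqItems`, `CompItems`), a Frobenius
inverse (`ModelQAt4.FrobInvAt`), `HUNROff` at level `M' q` (`HunrLevel3.hunrOff_at`), and the two open
named inputs
* `CuspOffItems` (R4, helper16): the points on both components avoid the cusp sections;
* `ExpItems` (R2): the exponent bound `a < n` of the local discriminant.
-/
import Mathlib
import Fermat.Agent.ES.N34.GaussVTwoInst25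
import Fermat.Agent.ES.P36.ModelOAt4
import Fermat.Agent.ES.P36.RegCore21

set_option autoImplicit false
set_option synthInstance.maxHeartbeats 400000
set_option linter.style.haveILetI false
set_option linter.unusedSectionVars false

noncomputable section

open HahnSeries ModularCurve IntermediateField

namespace Fermat.Agent.ES.P36.RegInst21

open Fermat.Agent.RED.Interface4 Fermat.Agent.RED.PUR.GaussGen8 Fermat.Agent.RED.PUR.KtGauss8
  Fermat.Agent.RED.PUR.G1Package8 Fermat.Agent.RED.BASE.EtaQuot12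
  Fermat.Agent.RED.PUR.ChartGeneric22 Fermat.Agent.RED.PUR.OffIface4
  Fermat.Agent.RED.PUR.LocalFree26
  Fermat.Agent.ES.N34.ModelDefs9 Fermat.Agent.ES.N34.ModelN4
  Fermat.Agent.ES.N34.LevelM20 Fermat.Agent.ES.N34.PrinItems12
  Fermat.Agent.ES.N34.FrickeFK8 Fermat.Agent.ES.N34.KronChart15
  Fermat.Agent.ES.N35.CompData16 Fermat.Agent.ES.N35.CompItems16
  Fermat.Agent.ES.P36.ModelQAt4

/-! ### Generic vocabulary -/

section Generic

variable {R FM F : Type*} [CommRing R] [Field FM] [Field F] [Algebra R FM] [Algebra R F]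

/-- "the component `Oj` passes through `x1`" (the negation of `NodalCore13.OffBranch`, in the
`hon` form of `NodeRegChart10.nodeReg_chart`). -/
def OnBranch (π : R) (B : Subalgebra R F) (Oj : ValuationSubring F) (x1 : Ideal ↥B) : Prop :=
  ∀ b : ↥B, (∃ c ∈ Oj, (b : F) = algebraMap R F π * c) → b ∈ x1

theorem onBranch_of_not_offBranch (π : R) (B : Subalgebra R F) (Oj : ValuationSubring F)
    (x1 : Ideal ↥B) (h : ¬ Fermat.Agent.ES.N34.NodalCore13.OffBranch π B Oj x1) :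
    OnBranch π B Oj x1 := by
  intro b hb
  by_contra hbx
  exact h ⟨b, hbx, hb⟩

/-- the conclusion of RegInst at one chart. -/
def TwoGenAt (π : R) (B : Subalgebra R F) (O1 O2 : ValuationSubring F) : Prop :=
  ∀ x1 : Ideal ↥B, x1.IsMaximal → OnBranch π B O1 x1 → OnBranch π B O2 x1 →
    (∃ f ∈ x1, ¬ ∃ c ∈ O1, (f : F) = algebraMap R F π * c) ∧
    (∃ f ∈ x1, ¬ ∃ c ∈ O2, (f : F) = algebraMap R F π * c) ∧
    ∃ a b : ↥B, a ∈ x1 ∧ b ∈ x1 ∧ ∀ f ∈ x1, ∃ d : ↥B, d ∉ x1 ∧ d * f ∈ Ideal.span {a, b}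

/-- the exponent bound (R2) at the point `x1` of the chart `B` over the chart `BM`. -/
def ExpAt (π : R) (φ : FM →+* F) (BM : Subalgebra R FM) (B : Subalgebra R F)
    (hφB : ∀ b : ↥BM, φ (b : FM) ∈ B) (x1 : Ideal ↥B) [x1.IsMaximal] : Prop :=
  letI := RegChart21.chartAlgebra φ BM B hφB
  ∀ (n : ℕ) (bas : Module.Basis (Fin n) (RP (x1.comap (algebraMap ↥BM ↥B)))
      (SP ↥B (x1.comap (algebraMap ↥BM ↥B))))
    (k : ℕ) (u : RP (x1.comap (algebraMap ↥BM ↥B))), IsUnit u →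
    Algebra.discr (RP (x1.comap (algebraMap ↥BM ↥B))) bas =
      algebraMap ↥BM (RP (x1.comap (algebraMap ↥BM ↥B))) (algebraMap R ↥BM π) ^ k * u →
    k < n

end Generic

/-! ### The model -/

variable (n e q M' : ℕ) [NeZero n] [NeZero M'] [NeZero q] (A : ValuationSubring Qbar)
  (K : IntermediateField ℚ Qbar)

/-- `alpha` maps the level-`M'` chart `B0M` into `B0`. -/
theorem alpha_mem_B0 {n e : ℕ} [NeZero n] (ht : tq (↥K) n e ∈ FK M' K) :
    ∀ b : ↥(B0M A ht),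
      (alpha K M' q : ↥(FK M' K) →+* ↥(FK (M' * q) K)) (b : ↥(FK M' K)) ∈ B0 A q ht :=
  RegCore21.map_mem_chart_of_eq (O := AK A K) (alpha K M' q) (tM ht) (tN q ht) rfl

/-- `alpha` maps the level-`M'` chart `B1M` into `B1`. -/
theorem alpha_mem_B1 {n e : ℕ} [NeZero n] (ht : tq (↥K) n e ∈ FK M' K) :
    ∀ b : ↥(B1M A ht),
      (alpha K M' q : ↥(FK M' K) →+* ↥(FK (M' * q) K)) (b : ↥(FK M' K)) ∈ B1 A q ht :=
  RegCore21.map_mem_chart_of_eq (O := AK A K) (alpha K M' q) (tM ht)⁻¹ (tN q ht)⁻¹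
    (map_inv₀ (alpha K M' q) (tM ht))

/-- **R4's output at `K`** (helper16): the closed points lying on both vertical components avoid
the cusp sections `t = c` (`c ∈ Sset`), and `t = ∞` in chart `1`. -/
def CuspOffItems (Sset : Set ↥(AK A K)) : Prop :=
  ∀ (ht : tq (↥K) n e ∈ FK M' K) (hE : FK (M' * q) K ≤ fracField (AK A K))
    (π : ↥(AK A K)) (hπ : IsUnif (AK A K) π),
    (∀ x1 : Ideal ↥(B0 A q ht), x1.IsMaximal →
      OnBranch π (B0 A q ht) (O1 M' q hπ hE) x1 → OnBranch π (B0 A q ht) (O2 M' q hπ hE) x1 →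
      ∀ c ∈ Sset, ∀ y : ↥(B0 A q ht),
        (y : ↥(FK (M' * q) K)) = tN q ht - algebraMap ↥(AK A K) ↥(FK (M' * q) K) c → y ∉ x1) ∧
    (∀ x1 : Ideal ↥(B1 A q ht), x1.IsMaximal →
      OnBranch π (B1 A q ht) (O1 M' q hπ hE) x1 → OnBranch π (B1 A q ht) (O2 M' q hπ hE) x1 →
      (∀ y : ↥(B1 A q ht), (y : ↥(FK (M' * q) K)) = (tN q ht)⁻¹ → y ∉ x1) ∧
      ∀ c ∈ Sset, ∀ y : ↥(B1 A q ht),
        (y : ↥(FK (M' * q) K)) =
          1 - algebraMap ↥(AK A K) ↥(FK (M' * q) K) c * (tN q ht)⁻¹ → y ∉ x1)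

/-- **R2's output at `K`**: the exponent bound at the closed points lying on both components. -/
def ExpItems : Prop :=
  ∀ (ht : tq (↥K) n e ∈ FK M' K) (hE : FK (M' * q) K ≤ fracField (AK A K))
    (π : ↥(AK A K)) (hπ : IsUnif (AK A K) π),
    (∀ (x1 : Ideal ↥(B0 A q ht)) (hx1 : x1.IsMaximal),
      OnBranch π (B0 A q ht) (O1 M' q hπ hE) x1 → OnBranch π (B0 A q ht) (O2 M' q hπ hE) x1 →
      ExpAt π (alpha K M' q : ↥(FK M' K) →+* ↥(FK (M' * q) K)) (B0M A ht) (B0 A q ht)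
        (alpha_mem_B0 q M' A K ht) x1) ∧
    (∀ (x1 : Ideal ↥(B1 A q ht)) (hx1 : x1.IsMaximal),
      OnBranch π (B1 A q ht) (O1 M' q hπ hE) x1 → OnBranch π (B1 A q ht) (O2 M' q hπ hE) x1 →
      ExpAt π (alpha K M' q : ↥(FK M' K) →+* ↥(FK (M' * q) K)) (B1M A ht) (B1 A q ht)
        (alpha_mem_B1 q M' A K ht) x1)

/-- **RegInst at `K`**: `hne1`, `hne2`, `htwo` of `NodeRegChart10.nodeReg_chart`, both charts. -/
def TwoGenItems : Prop :=
  ∀ (ht : tq (↥K) n e ∈ FK M' K) (hE : FK (M' * q) K ≤ fracField (AK A K))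
    (π : ↥(AK A K)) (hπ : IsUnif (AK A K) π),
    TwoGenAt π (B0 A q ht) (O1 M' q hπ hE) (O2 M' q hπ hE) ∧
    TwoGenAt π (B1 A q ht) (O1 M' q hπ hE) (O2 M' q hπ hE)

variable {n e q M' A K}

set_option maxHeartbeats 4000000 in
/-- **RegInst at one number field `K`.** -/
theorem twoGenItems_at (hq : q.Prime) (hqM : ¬ q ∣ M') (hA : A.LiesOverPrime q)
    [FiniteDimensional ℚ K] (hF : FrobInvAt A K q)
    (hL : LevelItems n e M' A K) (hG : GlueItems n e q M' A K) (hS2 : ModEqItems n e q M' A K)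
    (hComp : CompItems n e q M' A K)
    (Sset : Set ↥(AK A K))
    (hH : ∀ (ht : tq (↥K) n e ∈ FK M' K) (ϖ : ↥(AK A K)), Irreducible ϖ →
      HUNROff (AK A K) (FK (M' * q) K) ϖ (tN q ht) Sset)
    (hcusp : CuspOffItems n e q M' A K Sset) (hexp : ExpItems n e q M' A K) :
    TwoGenItems n e q M' A K := by
  intro ht hE π hπ
  have hdvr : IsDiscreteValuationRing ↥(AK A K) :=
    Fermat.Agent.RED.DESC.NumberFieldDVR27.isDiscreteValuationRing_AK A K hq.ne_zero hA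
  have hirr : Irreducible π := (IsDiscreteValuationRing.irreducible_iff_uniformizer π).mpr hπ.max_eq
  have : Fact q.Prime := ⟨hq⟩
  have : CharP (Res (AK A K)) q :=
    Fermat.Agent.RED.DESC.NumberFieldDVR27.charP_residueField_AK A K hq hA
  have : NeZero (M' * q) := ⟨Nat.mul_ne_zero (NeZero.ne M') (NeZero.ne q)⟩
  obtain ⟨_, hjt, hLM⟩ := hL
  obtain ⟨L0, L1⟩ := hLM π hirr
  have L0' : LevelM (AK A K) (FK M' K) π (tM ht) := L0
  have L1' : LevelM (AK A K) (FK M' K) π (tM ht)⁻¹ := L1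
  have glue := hG ht hE π hπ
  obtain ⟨hy0, hy1⟩ := hS2 ht
  obtain ⟨c01, c02, c11, c12⟩ := hComp ht hE π hπ
  obtain ⟨ψ, hψO, hψ⟩ := hF
  obtain ⟨hc0, hc1⟩ := hcusp ht hE π hπ
  obtain ⟨he0, he1⟩ := hexp ht hE π hπ
  have hiso : ∀ x : FK M' K, (x : LaurentSeries ↥K) ∈ gaussRing (AK A K) →
      ((frickeFK M' K x : FK M' K) : LaurentSeries ↥K) ∈ gaussRing (AK A K) :=
    fun x hx => (Fermat.Agent.ES.N34.IsoM25.isoM A K M' q hirr hqM x).mp hx
  -- Gauss data of `tN`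
  have htG : ((tN q ht : FK (M' * q) K) : LaurentSeries ↥K) ∈ gaussRing (AK A K) :=
    Fermat.Agent.ES.N34.ModelGlue22.tN_mem_gaussRing (A := A) M' q ht
  have heq := Fermat.Agent.ES.N34.ModelGlue22.tN_eq_tG (A := A) M' q ht htG
  have htrG : Transcendental (Res (AK A K))
      (gaussRed (AK A K) ⟨((tN q ht : FK (M' * q) K) : LaurentSeries ↥K), htG⟩) := by
    rw [heq]; exact Fermat.Agent.RED.BASE.TBridge15.transcendental_gaussRed_tG (AK A K) n e
  have hjt' : jqModC ↥K ∈ Kt (AK A K)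
      ⟨((tN q ht : FK (M' * q) K) : LaurentSeries ↥K), htG⟩ := by
    rw [heq]; exact hjt
  have hnG : relfinrank (Kt (AK A K) ⟨((tN q ht : FK (M' * q) K) : LaurentSeries ↥K), htG⟩)
      (FK (M' * q) K) ≠ 0 :=
    Fermat.Agent.RED.ModelMain4.relfinrank_ne_zero (AK A K) (M' * q) _ (tN q ht).2 hjt'
  have htN0 : tN q ht ≠ 0 :=
    (Fermat.Agent.ES.N34.ChartN26.chartInputs_gauss hirr (tN q ht) htG htrG hnG).out.t_ne
  have hinvα : alpha K M' q (tM ht)⁻¹ = (tN q ht)⁻¹ := map_inv₀ (alpha K M' q) (tM ht)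
  have hinvβ : beta K M' q (tM ht)⁻¹ = (yN q ht)⁻¹ := map_inv₀ (beta K M' q) (tM ht)
  -- the second expansions
  have hs2 : iotaTwo M' K (tM ht) ∈ gaussRing (AK A K) := hiso _ L0'.htM
  have htr2 : Transcendental (Res (AK A K)) (gaussRed (AK A K) ⟨iotaTwo M' K (tM ht), hs2⟩) :=
    Fermat.Agent.ES.N34.IsoM25.transcendental_frickeFK A K M' q hirr hqM (tM ht) L0'.htM
      L0'.htrM hs2
  have hs2' : iotaTwo M' K (tM ht)⁻¹ ∈ gaussRing (AK A K) := hiso _ L1'.htM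
  have htr2' : Transcendental (Res (AK A K))
      (gaussRed (AK A K) ⟨iotaTwo M' K (tM ht)⁻¹, hs2'⟩) :=
    Fermat.Agent.ES.N34.IsoM25.transcendental_frickeFK A K M' q hirr hqM (tM ht)⁻¹ L1'.htM
      L1'.htrM hs2'
  have hgs : arithmeticRingAut (modularFunctionFieldFull M') ψ (tM ht) = tM ht :=
    gpsi_tM M' ψ ht
  have hgs' : arithmeticRingAut (modularFunctionFieldFull M') ψ (tM ht)⁻¹ = (tM ht)⁻¹ := by
    rw [map_inv₀, gpsi_tM]
  refine ⟨?_, ?_⟩
  · -- chart `0`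
    intro x1 hx1 hon1 hon2
    have htB : tN q ht ∈ B0 A q ht := self_mem_chart _
    obtain ⟨⟨o1, ho1, h1⟩, hn1⟩ := RegKron21.hne1_of_fixed M' q hπ hE ψ hψO hψ hirr (tM ht) hgs
      L0'.htM L0'.htrM hs2
    obtain ⟨⟨o2, ho2, h2⟩, hn2⟩ := RegKron21.hne2_of_fixed M' q hπ hE ψ hψO hψ hirr (tM ht) hgs
      L0'.htM hs2 htr2
    have hne1 : ∃ f ∈ x1, ¬ ∃ c ∈ O1 M' q hπ hE,
        (f : ↥(FK (M' * q) K)) = algebraMap ↥(AK A K) ↥(FK (M' * q) K) π * c :=
      ⟨⟨tN q ht - yN q ht ^ q, sub_mem htB (pow_mem hy0 q)⟩,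
        hon2 _ ⟨o1, ho1, h1⟩, hn1⟩
    have hne2 : ∃ f ∈ x1, ¬ ∃ c ∈ O2 M' q hπ hE,
        (f : ↥(FK (M' * q) K)) = algebraMap ↥(AK A K) ↥(FK (M' * q) K) π * c :=
      ⟨⟨yN q ht - tN q ht ^ q, sub_mem hy0 (pow_mem htB q)⟩,
        hon1 _ ⟨o2, ho2, h2⟩, hn2⟩
    refine ⟨hne1, hne2, ?_⟩
    exact RegCore21.twoGen_gauss (O := AK A K) (alpha K M' q) (beta K M' q) (tM ht) (tN q ht) rfl
      L0' htG htrG hnG (O1 M' q hπ hE) (O2 M' q hπ hE) glue.le_O1_0 glue.le_O2_0 glue.pi_ne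
      glue.sat0 c01 c02 q hq.pos
      (RegKron21.kron_rev_B0M M' q hπ hE ψ hψO hψ ht
        (Fermat.Agent.ES.N34.KronItems15.le_B0M hirr ht) hiso)
      (tN q ht) Sset (hH ht π hirr) ⟨tM ht, self_mem_chart _⟩ 1
      (by
        show tN q ht * alpha K M' q 1 = alpha K M' q (tM ht)
        rw [map_one, mul_one]; rfl)
      x1 (hx1 := hx1) hon1 hon2 hne1
      (by
        intro y hy hyx
        have : y = 1 := Subtype.ext (by rw [hy]; exact map_one (alpha K M' q))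
        rw [this] at hyx
        exact hx1.ne_top ((Ideal.eq_top_iff_one _).mpr hyx))
      (by
        intro c hc y hy
        refine hc0 x1 hx1 hon1 hon2 c hc y ?_
        rw [hy]
        show alpha K M' q (tM ht) - _ * alpha K M' q 1 = _
        rw [map_one, mul_one]; rfl)
      (fun O' hB _ => hB _ htB)
      (he0 x1 hx1 hon1 hon2)
  · -- chart `1`
    intro x1 hx1 hon1 hon2
    have htB : (tN q ht)⁻¹ ∈ B1 A q ht := self_mem_chart _
    obtain ⟨⟨o1, ho1, h1⟩, hn1⟩ := RegKron21.hne1_of_fixed M' q hπ hE ψ hψO hψ hirr (tM ht)⁻¹ hgs'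
      L1'.htM L1'.htrM hs2'
    obtain ⟨⟨o2, ho2, h2⟩, hn2⟩ := RegKron21.hne2_of_fixed M' q hπ hE ψ hψO hψ hirr (tM ht)⁻¹ hgs'
      L1'.htM hs2' htr2'
    rw [hinvα, hinvβ] at h1 hn1 h2 hn2
    have hne1 : ∃ f ∈ x1, ¬ ∃ c ∈ O1 M' q hπ hE,
        (f : ↥(FK (M' * q) K)) = algebraMap ↥(AK A K) ↥(FK (M' * q) K) π * c :=
      ⟨⟨(tN q ht)⁻¹ - (yN q ht)⁻¹ ^ q, sub_mem htB (pow_mem hy1 q)⟩,
        hon2 _ ⟨o1, ho1, h1⟩, hn1⟩
    have hne2 : ∃ f ∈ x1, ¬ ∃ c ∈ O2 M' q hπ hE,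
        (f : ↥(FK (M' * q) K)) = algebraMap ↥(AK A K) ↥(FK (M' * q) K) π * c :=
      ⟨⟨(yN q ht)⁻¹ - (tN q ht)⁻¹ ^ q, sub_mem hy1 (pow_mem htB q)⟩,
        hon1 _ ⟨o2, ho2, h2⟩, hn2⟩
    refine ⟨hne1, hne2, ?_⟩
    obtain ⟨hdt, hcc⟩ := hc1 x1 hx1 hon1 hon2
    have htG1 := tinv_mem_gaussRing (tN q ht) htG htrG
    have htrG1 := transcendental_inv (tN q ht) htG htrG
    have hnG1 : relfinrank (Kt (AK A K)
        ⟨(((tN q ht)⁻¹ : FK (M' * q) K) : LaurentSeries ↥K), htG1⟩) (FK (M' * q) K) ≠ 0 := by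
      rw [Kt_inv (tN q ht) htG htrG]; exact hnG
    exact RegCore21.twoGen_gauss (O := AK A K) (alpha K M' q) (beta K M' q) (tM ht)⁻¹ (tN q ht)⁻¹
      hinvα L1' htG1 htrG1 hnG1 (O1 M' q hπ hE) (O2 M' q hπ hE) glue.le_O1_1 glue.le_O2_1
      glue.pi_ne glue.sat1 c11 c12 q hq.pos
      (RegKron21.kron_rev_B1M M' q hπ hE ψ hψO hψ ht
        (Fermat.Agent.ES.N34.KronItems15.le_B1M hirr ht) hiso)
      (tN q ht) Sset (hH ht π hirr) 1 ⟨(tM ht)⁻¹, self_mem_chart _⟩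
      (by
        show tN q ht * alpha K M' q (tM ht)⁻¹ = alpha K M' q 1
        rw [hinvα, map_one, mul_inv_cancel₀ htN0])
      x1 (hx1 := hx1) hon1 hon2 hne1
      (by
        intro y hy
        refine hdt y ?_
        rw [hy]; exact hinvα)
      (by
        intro c hc y hy
        refine hcc c hc y ?_
        rw [hy]
        show alpha K M' q 1 - _ * alpha K M' q (tM ht)⁻¹ = _
        rw [map_one, hinvα])
      (fun O' _ h => by
        have h' : (alpha K M' q (tM ht)⁻¹)⁻¹ ∈ O' := h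
        rw [hinvα, inv_inv] at h'
        exact h')
      (he1 x1 hx1 hon1 hon2)

end Fermat.Agent.ES.P36.RegInst21
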