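/-
Program P (S36), chapter REG, brick RegInst (helper21): **`RegInst21.CuspOffItems` from R4**
(helper16's `CuspFinal16.cusp_notMem_B0_model/_B1_model` + `CuspIntK16.tN_inv_notMem_of_on_both`),
per `K`: the closed points of the charts `B0`, `B1` of level `M' q` lying on both vertical components
avoid the cusp sections `t = c` (`c ∈ cuspSet A K cv`) and, in chart `1`, `t = ∞`.

Inputs: Program N's MODEL bundle at `K` (`NodalNumData`, helper4's `ModelQAt4.nodalNumData_at`),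
`ModEqItems`, `LevelItems`, a Frobenius inverse; `cv` a cusp-value function of ANY level `M`
(`CuspExp n e M cv`).
-/
import Mathlib
import Fermat.Agent.ES.P36.CuspFinal16
import Fermat.Agent.ES.P36.RegInst21

set_option autoImplicit false
set_option synthInstance.maxHeartbeats 400000
set_option linter.style.haveILetI false
set_option linter.unusedSectionVars false

noncomputable section

open HahnSeries ModularCurve IntermediateField
open scoped MatrixGroups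

namespace Fermat.Agent.ES.P36.CuspOffAsm21

open Fermat.Agent.X0 Fermat.Agent.RED.Interface4 Fermat.Agent.RED.PUR.GaussGen8
  Fermat.Agent.RED.BASE.Interface12 Fermat.Agent.RED.BASE.Hauptmodul12
  Fermat.Agent.RED.BASE.EtaQuot12 Fermat.Agent.RED.ModelTargets4
  Fermat.Agent.RED.PUR.ChartGeneric22
  Fermat.Agent.ES.N34.ModelDefs9 Fermat.Agent.ES.N34.ModelN4 Fermat.Agent.ES.N34.NodalCore13
  Fermat.Agent.ES.N34.NumData13 Fermat.Agent.ES.N34.LevelM20 Fermat.Agent.ES.N34.PrinItems12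
  Fermat.Agent.ES.N34.FrickeFK8 Fermat.Agent.ES.N34.KronChart15
  Fermat.Agent.ES.P36.ModelQAt4 Fermat.Agent.ES.P36.RegInst21

section Generic

variable {R F : Type*} [CommRing R] [Field F] [Algebra R F]

theorem not_off_of_on (π : R) (B : Subalgebra R F) (Oj : ValuationSubring F)
    (x1 : Ideal ↥B) (h : OnBranch π B Oj x1) : ¬ OffBranch π B Oj x1 := by
  rintro ⟨e, he, hc⟩
  exact he (h e hc)

end Generic

variable {n e q M' : ℕ} [NeZero n] [NeZero M'] [NeZero q] {A : ValuationSubring Qbar}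
  {K : IntermediateField ℚ Qbar}

set_option maxHeartbeats 4000000 in
/-- **`CuspOffItems` at one number field `K`.** -/
theorem cuspOffItems_at (hb : BaseHyp n e) (hq : q.Prime) (hqn : ¬ q ∣ n) (hqM : ¬ q ∣ M')
    (hA : A.LiesOverPrime q) [FiniteDimensional ℚ K] (hF : FrobInvAt A K q)
    (hL : LevelItems n e M' A K) (hS2 : ModEqItems n e q M' A K)
    (hD : ∃ (ht : tq (↥K) n e ∈ FK M' K) (hE : FK (M' * q) K ≤ fracField (AK A K)),
      ∀ (π : ↥(AK A K)) (hπ : IsUnif (AK A K) π),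
        NodalNumData ↥(AK A K) ↥K ↥(FK (M' * q) K) π (tN q ht) (B0 A q ht) (B1 A q ht)
          (O1 M' q hπ hE) (O2 M' q hπ hE))
    {M : ℕ} [NeZero M] (hnM : n ∣ M) (cv : SL(2, ℤ) → Option Kbar) (hcv : CuspExp n e M cv) :
    CuspOffItems n e q M' A K (cuspSet A K cv) := by
  obtain ⟨ht₀, hE₀, hD⟩ := hD
  intro ht hE π hπ
  have D : NodalNumData ↥(AK A K) ↥K ↥(FK (M' * q) K) π (tN q ht) (B0 A q ht) (B1 A q ht)
      (O1 M' q hπ hE) (O2 M' q hπ hE) := hD π hπ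
  have hdvr : IsDiscreteValuationRing ↥(AK A K) :=
    Fermat.Agent.RED.DESC.NumberFieldDVR27.isDiscreteValuationRing_AK A K hq.ne_zero hA
  have hirr : Irreducible π := (IsDiscreteValuationRing.irreducible_iff_uniformizer π).mpr hπ.max_eq
  have : Fact q.Prime := ⟨hq⟩
  have : CharP (Res (AK A K)) q :=
    Fermat.Agent.RED.DESC.NumberFieldDVR27.charP_residueField_AK A K hq hA
  obtain ⟨_, -, hLM⟩ := hL
  obtain ⟨L0, L1⟩ := hLM π hirr
  have L0' : LevelM (AK A K) (FK M' K) π (tM ht) := L0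
  have L1' : LevelM (AK A K) (FK M' K) π (tM ht)⁻¹ := L1
  obtain ⟨hy0, hy1⟩ := hS2 ht
  obtain ⟨ψ, hψO, hψ⟩ := hF
  have hiso : ∀ x : FK M' K, (x : LaurentSeries ↥K) ∈ gaussRing (AK A K) →
      ((frickeFK M' K x : FK M' K) : LaurentSeries ↥K) ∈ gaussRing (AK A K) :=
    fun x hx => (Fermat.Agent.ES.N34.IsoM25.isoM A K M' q hirr hqM x).mp hx
  have hinvα : alpha K M' q (tM ht)⁻¹ = (tN q ht)⁻¹ := map_inv₀ (alpha K M' q) (tM ht)
  have hinvβ : beta K M' q (tM ht)⁻¹ = (yN q ht)⁻¹ := map_inv₀ (beta K M' q) (tM ht)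
  have hs2 : iotaTwo M' K (tM ht) ∈ gaussRing (AK A K) := hiso _ L0'.htM
  have hs2' : iotaTwo M' K (tM ht)⁻¹ ∈ gaussRing (AK A K) := hiso _ L1'.htM
  have hgs : arithmeticRingAut (modularFunctionFieldFull M') ψ (tM ht) = tM ht :=
    gpsi_tM M' ψ ht
  have hgs' : arithmeticRingAut (modularFunctionFieldFull M') ψ (tM ht)⁻¹ = (tM ht)⁻¹ := by
    rw [map_inv₀, gpsi_tM]
  -- Kronecker, chart `0`
  have hK1 : ∃ o ∈ O1 M' q hπ hE, yN q ht - (tN q ht) ^ q =
      algebraMap ↥(AK A K) ↥(FK (M' * q) K) π * o := by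
    obtain ⟨o, ho, h⟩ := kron_one M' q hπ hE ψ hψO hψ (tM ht) L0'.htM
    rw [hgs] at h
    exact ⟨o, ho, h⟩
  have hK2 : ∃ o ∈ O2 M' q hπ hE, tN q ht - (yN q ht) ^ q =
      algebraMap ↥(AK A K) ↥(FK (M' * q) K) π * o := by
    obtain ⟨o, ho, h⟩ := kron_two' M' q hπ hE ψ hψO hψ (tM ht) hs2
    rw [hgs] at h
    exact ⟨o, ho, h⟩
  -- Kronecker, chart `1`
  have hK1' : ∃ o ∈ O1 M' q hπ hE, (yN q ht)⁻¹ - ((tN q ht)⁻¹) ^ q =
      algebraMap ↥(AK A K) ↥(FK (M' * q) K) π * o := by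
    obtain ⟨o, ho, h⟩ := kron_one M' q hπ hE ψ hψO hψ (tM ht)⁻¹ L1'.htM
    rw [hgs', hinvα, hinvβ] at h
    exact ⟨o, ho, h⟩
  have hK2' : ∃ o ∈ O2 M' q hπ hE, (tN q ht)⁻¹ - ((yN q ht)⁻¹) ^ q =
      algebraMap ↥(AK A K) ↥(FK (M' * q) K) π * o := by
    obtain ⟨o, ho, h⟩ := kron_two' M' q hπ hE ψ hψO hψ (tM ht)⁻¹ hs2'
    rw [hgs', hinvα, hinvβ] at h
    exact ⟨o, ho, h⟩
  refine ⟨?_, ?_⟩
  · intro x1 hx1 hon1 hon2 c hc y hy
    have h := Fermat.Agent.ES.P36.CuspFinal16.cusp_notMem_B0_model A q hb hq hqn hqM hA ht hirr hπ hE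
      D.model hy0 hK1 hK2 hnM cv hcv x1 hx1.ne_top (not_off_of_on π _ _ x1 hon1)
      (not_off_of_on π _ _ x1 hon2) c hc
    have hyeq : y = ⟨tN q ht - algebraMap ↥(AK A K) ↥(FK (M' * q) K) c,
        (B0 A q ht).sub_mem (self_mem_chart (tN q ht)) ((B0 A q ht).algebraMap_mem c)⟩ :=
      Subtype.ext hy
    rw [hyeq]
    exact h
  · intro x1 hx1 hon1 hon2
    refine ⟨?_, ?_⟩
    · intro y hy
      have h := Fermat.Agent.ES.P36.CuspIntK16.tN_inv_notMem_of_on_both A q hb hq hqn ht π D.dvrR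
        (O1 M' q hπ hE) (O2 M' q hπ hE) D.model.le_O1_1 D.model.le_O2_1 D.model.sat1 hy1
        (D.model.le_O1_0 _ hy0) (D.model.le_O2_0 _ hy0) hK1' hK2' x1 hx1.ne_top
        (not_off_of_on π _ _ x1 hon1) (not_off_of_on π _ _ x1 hon2)
      have hyeq : y = ⟨(tN q ht)⁻¹, self_mem_chart (tN q ht)⁻¹⟩ := Subtype.ext hy
      rw [hyeq]
      exact h
    · intro c hc y hy
      have h := Fermat.Agent.ES.P36.CuspFinal16.cusp_notMem_B1_model A q hb hq hqn hqM hA ht hirr hπ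
        hE D.model hy0 hy1 hK1' hK2' hnM cv hcv x1 hx1.ne_top (not_off_of_on π _ _ x1 hon1)
        (not_off_of_on π _ _ x1 hon2) c hc
      have hyeq : y = ⟨1 - algebraMap ↥(AK A K) ↥(FK (M' * q) K) c * (tN q ht)⁻¹,
          (B1 A q ht).sub_mem (B1 A q ht).one_mem
            ((B1 A q ht).mul_mem ((B1 A q ht).algebraMap_mem c)
              (self_mem_chart (tN q ht)⁻¹))⟩ := Subtype.ext hy
      rw [hyeq]
      exact h

end Fermat.Agent.ES.P36.CuspOffAsm21
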