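/-
Program P (S36), chapter (R4) = (D4), THIRD CUSPS, abstract per-`K` part (helper16).

`R` a domain with fraction field `K` and "uniformiser" `π` (every nonzero element is `π ^ k · unit`),
`F / K` a field, `u ∈ F` the chart parameter (`tN` or `tN⁻¹`), `w ∈ F` its partner (`yN` or `yN⁻¹`),
`B = chart R u`, `O1, O2` the two vertical valuation rings, Kronecker congruences
`w ≡ u ^ q mod π O1`, `u ≡ w ^ q mod π O2`, and `P ∈ ℤ[X]` (the denominator `D` of `j = N(t)/D(t)`, or
its reverse) with `P(u)^q / P(w)` integral over `K[u]` (`JDenom16`) and `P(w)` a unit of `O1`, `O2`.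
Then a prime `𝔪` of `B` lying on both components does not contain `P(u)` (`ival_notMem_of_on_both`),
hence contains no `u - c` with `P(c) = 0` (`sub_notMem_of_root`), resp. no `1 - c u` with
`P = D.reverse`, `D(c) = 0` (`one_sub_mul_notMem_of_root`).

Integer polynomials are evaluated with `ival P x = P.eval₂ (Int.castRingHom _) x`.
Tools: `exists_expand_sub_pow` (`P(X^q) ≡ P^q mod q` in `ℤ[X]`), `kron_ival` (Kronecker congruence
for `(P(u), P(w))`), `inv_mem_of_kron`, `ival_inv_mem_of_kron` (a Kronecker partner of a unit is a unit).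
-/
import Mathlib
import Fermat.Agent.ES.P36.CuspOff16
import Fermat.Agent.ES.N34.SatIntegral18
import Fermat.Agent.RED.PUR.ChartGeneric22

set_option autoImplicit false
set_option linter.unusedSectionVars false
set_option linter.style.haveILetI false

open Polynomial

noncomputable section

namespace Fermat.Agent.ES.P36.CuspPoly16

open Fermat.Agent.ES.N34.NodalCore13 Fermat.Agent.RED.PUR.ChartGeneric22
open Fermat.Agent.ES.N34.SatIntegral18

/-- the value of an integer polynomial at an element of a commutative ring (no `Algebra ℤ _`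
instance involved: robust under instance diamonds on concrete types). -/
abbrev ival {S : Type*} [CommRing S] (P : ℤ[X]) (x : S) : S := P.eval₂ (Int.castRingHom S) x

theorem ival_eq_aeval {S : Type*} [CommRing S] (P : ℤ[X]) (x : S) : ival P x = aeval x P := by
  rw [aeval_def, algebraMap_int_eq]

/-- ring homomorphisms commute with the evaluation of integer polynomials. -/
theorem map_ival {S T : Type*} [CommRing S] [CommRing T] (g : S →+* T) (x : S) (p : ℤ[X]) :
    g (ival p x) = ival p (g x) := by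
  rw [ival, hom_eval₂]
  congr 1
  exact RingHom.ext_int _ _

/-- evaluation of `P.map (ℤ → S)` in an `S`-algebra. -/
theorem aeval_map_int {S T : Type*} [CommRing S] [CommRing T] [Algebra S T] (x : T) (P : ℤ[X]) :
    aeval x (P.map (Int.castRingHom S)) = ival P x := by
  rw [aeval_def, eval₂_map]
  congr 1
  exact RingHom.ext_int _ _

/-- **Frobenius on `ℤ[X]`**: `P(X^q) - P^q ∈ q ℤ[X]`. -/
theorem exists_expand_sub_pow (q : ℕ) (hq : q.Prime) (P : ℤ[X]) :
    ∃ E : ℤ[X], expand ℤ q P - P ^ q = C (q : ℤ) * E := by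
  haveI : Fact q.Prime := ⟨hq⟩
  have h : (expand ℤ q P - P ^ q).map (Int.castRingHom (ZMod q)) = 0 := by
    rw [Polynomial.map_sub, Polynomial.map_pow, Polynomial.map_expand, ZMod.expand_card, sub_self]
  have : C (q : ℤ) ∣ expand ℤ q P - P ^ q := by
    rw [Polynomial.C_dvd_iff_dvd_coeff]
    intro i
    have h2 := congrArg (fun f => f.coeff i) h
    simp only [coeff_map, coeff_zero] at h2
    exact (ZMod.intCast_zmod_eq_zero_iff_dvd _ _).mp h2
  exact this

section Kron

variable {R F : Type*} [CommRing R] [Field F] [Algebra R F]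

/-- `a ≡ b mod π O ⇒ P(a) ≡ P(b) mod π O`. -/
theorem ival_sub_ival_mem (π : R) (O : ValuationSubring F) {a b : F} (ha : a ∈ O) (hb : b ∈ O)
    (h : ∃ o ∈ O, a - b = algebraMap R F π * o) (P : ℤ[X]) :
    ∃ o ∈ O, ival P a - ival P b = algebraMap R F π * o := by
  obtain ⟨o, ho, hab⟩ := h
  obtain ⟨s, hs⟩ := Polynomial.sub_dvd_eval_sub (⟨a, ha⟩ : O) ⟨b, hb⟩ (P.map (Int.castRingHom O))
  rw [Polynomial.eval_map, Polynomial.eval_map] at hs
  have hs' := congrArg (O.subtype) hs
  rw [map_sub, map_mul, map_sub] at hs'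
  have e1 := map_ival O.subtype ⟨a, ha⟩ P
  have e2 := map_ival O.subtype ⟨b, hb⟩ P
  rw [ival] at e1 e2
  rw [e1, e2] at hs'
  refine ⟨o * (s : F), O.mul_mem _ _ ho s.2, ?_⟩
  have h1 : ival P a - ival P b = (a - b) * (s : F) := hs'
  rw [h1, hab]; ring

theorem ival_mem_valuationSubring (O : ValuationSubring F) {b : F} (hb : b ∈ O) (E : ℤ[X]) :
    ival E b ∈ O := by
  have := map_ival O.subtype ⟨b, hb⟩ E
  have h3 : ival E b = ((ival E (⟨b, hb⟩ : O) : O) : F) := this.symm
  rw [h3]; exact Subtype.property _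

/-- **Kronecker congruence for `(P(a), P(b))`.** -/
theorem kron_ival (π : R) (q : ℕ) (hq : q.Prime) (hqπ : π ∣ (q : R)) (O : ValuationSubring F)
    (hR : ∀ r : R, algebraMap R F r ∈ O) {a b : F} (ha : a ∈ O) (hb : b ∈ O)
    (hK : ∃ o ∈ O, a - b ^ q = algebraMap R F π * o) (P : ℤ[X]) :
    ∃ o ∈ O, ival P a - (ival P b) ^ q = algebraMap R F π * o := by
  obtain ⟨o1, ho1, h1⟩ := ival_sub_ival_mem π O ha (pow_mem hb q) hK P
  obtain ⟨E, hE⟩ := exists_expand_sub_pow q hq P
  obtain ⟨r, hr⟩ := hqπ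
  have h2 : ival P (b ^ q) - (ival P b) ^ q = algebraMap R F π * (algebraMap R F r * ival E b) := by
    have := congrArg (aeval b) hE
    rw [map_sub, map_pow, map_mul, Polynomial.expand_aeval, aeval_C] at this
    rw [ival_eq_aeval, ival_eq_aeval, ival_eq_aeval, this]
    have hq' : (algebraMap ℤ F) (q : ℤ) = algebraMap R F π * algebraMap R F r := by
      rw [← map_mul, ← hr]
      simp
    rw [hq']; ring
  have hbE : ival E b ∈ O := ival_mem_valuationSubring O hb E
  refine ⟨o1 + algebraMap R F r * ival E b, O.add_mem _ _ ho1 (O.mul_mem _ _ (hR r) hbE), ?_⟩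
  have : ival P a - (ival P b) ^ q =
      (ival P a - ival P (b ^ q)) + (ival P (b ^ q) - (ival P b) ^ q) := by ring
  rw [this, h1, h2]; ring

/-- **A Kronecker partner of a unit is a unit**: `z ≡ u ^ q mod π O`, `u` a unit of `O`, `π` a non-unit
⇒ `z⁻¹ ∈ O`. -/
theorem inv_mem_of_kron (π : R) (O : ValuationSubring F) (hπO : algebraMap R F π ∈ O)
    (hπ : (algebraMap R F π)⁻¹ ∉ O) (q : ℕ) {u z : F} (hu : u ∈ O) (hu' : u⁻¹ ∈ O)
    (hu0 : u ≠ 0) (hz : z ∈ O) (h : ∃ o ∈ O, z - u ^ q = algebraMap R F π * o) : z⁻¹ ∈ O := by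
  obtain ⟨o, ho, hzo⟩ := h
  by_contra hzinv
  -- `z` and `π o` are non-units of `O`, so is `u ^ q`: contradiction
  have inv_of_unit : ∀ (x : F) (hx : x ∈ O), IsUnit (⟨x, hx⟩ : O) → x⁻¹ ∈ O := by
    intro x hx hxu
    obtain ⟨w, hw⟩ := hxu
    have h1 : x * ((↑w⁻¹ : O) : F) = 1 := by
      have : (w : O) * (↑w⁻¹ : O) = 1 := Units.mul_inv w
      rw [hw] at this
      exact congrArg Subtype.val this
    rw [← eq_inv_of_mul_eq_one_right h1]
    exact Subtype.property _
  have hzn : (⟨z, hz⟩ : O) ∈ IsLocalRing.maximalIdeal O := by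
    rw [IsLocalRing.mem_maximalIdeal, mem_nonunits_iff]
    exact fun hzu => hzinv (inv_of_unit z hz hzu)
  have hπn : (⟨algebraMap R F π, hπO⟩ : O) ∈ IsLocalRing.maximalIdeal O := by
    rw [IsLocalRing.mem_maximalIdeal, mem_nonunits_iff]
    exact fun hu => hπ (inv_of_unit _ hπO hu)
  have huq : (⟨u, hu⟩ : O) ^ q ∈ IsLocalRing.maximalIdeal O := by
    have : (⟨u, hu⟩ : O) ^ q = ⟨z, hz⟩ - ⟨algebraMap R F π, hπO⟩ * ⟨o, ho⟩ := by
      apply Subtype.ext
      push_cast
      linear_combination -hzo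
    rw [this]
    exact Ideal.sub_mem _ hzn (Ideal.mul_mem_right _ _ hπn)
  have huu : IsUnit ((⟨u, hu⟩ : O) ^ q) := by
    apply IsUnit.pow
    exact isUnit_iff_exists_inv.mpr ⟨⟨u⁻¹, hu'⟩, Subtype.ext (mul_inv_cancel₀ hu0)⟩
  rw [IsLocalRing.mem_maximalIdeal, mem_nonunits_iff] at huq
  exact huq huu

/-- **`P(a)` is a unit of `O` as soon as `P(b)` is**, for a Kronecker pair `a ≡ b ^ q mod π O`. -/
theorem ival_inv_mem_of_kron (π : R) (q : ℕ) (hq : q.Prime) (hqπ : π ∣ (q : R))
    (O : ValuationSubring F) (hR : ∀ r : R, algebraMap R F r ∈ O)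
    (hπ : (algebraMap R F π)⁻¹ ∉ O) {a b : F} (ha : a ∈ O) (hb : b ∈ O)
    (hK : ∃ o ∈ O, a - b ^ q = algebraMap R F π * o) (P : ℤ[X])
    (hPb : (ival P b)⁻¹ ∈ O) (hPb0 : ival P b ≠ 0) : (ival P a)⁻¹ ∈ O :=
  inv_mem_of_kron π O (hR π) hπ q (ival_mem_valuationSubring O hb P) hPb hPb0
    (ival_mem_valuationSubring O ha P) (kron_ival π q hq hqπ O hR ha hb hK P)

end Kron

section Chart

variable {R K F : Type*} [CommRing R] [IsDomain R] [Field K] [Field F] [Algebra R K]
  [IsFractionRing R K] [Algebra K F] [Algebra R F] [IsScalarTower R K F]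

/-- integer polynomials in elements of an `R`-subalgebra stay in it. -/
theorem ival_mem_subalgebra (B : Subalgebra R F) {x : F} (hx : x ∈ B) (P : ℤ[X]) :
    ival P x ∈ B := by
  have := map_ival B.val.toRingHom ⟨x, hx⟩ P
  have h3 : ival P x = ((ival P (⟨x, hx⟩ : B) : B) : F) := this.symm
  rw [h3]; exact Subtype.property _

set_option maxHeartbeats 1000000 in
/-- **(D4) for the denominator**: a prime of the chart of `u` lying on both components does not
contain `P(u)`. -/
theorem ival_notMem_of_on_both (π : R)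
    (dvrR : ∀ r : R, r ≠ 0 → ∃ (k : ℕ) (v : Rˣ), r = π ^ k * v)
    (u w : F) (O1 O2 : ValuationSubring F)
    (leO1 : ∀ b ∈ chart R u, b ∈ O1) (leO2 : ∀ b ∈ chart R u, b ∈ O2)
    (sat : ∀ b ∈ chart R u, ∀ c : F, c ∈ O1 → c ∈ O2 → b = algebraMap R F π * c → c ∈ chart R u)
    (hwB : w ∈ chart R u) (q : ℕ) (hq : q.Prime) (hqπ : π ∣ (q : R)) (P : ℤ[X])
    (hI : IsIntegral (Algebra.adjoin K {u}) ((ival P u) ^ q * (ival P w)⁻¹))
    (hP0 : ival P w ≠ 0) (hP1 : (ival P w)⁻¹ ∈ O1) (hP2 : (ival P w)⁻¹ ∈ O2)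
    (hK1 : ∃ o ∈ O1, w - u ^ q = algebraMap R F π * o)
    (hK2 : ∃ o ∈ O2, u - w ^ q = algebraMap R F π * o)
    (𝔪 : Ideal ↥(chart R u)) (h𝔪 : 𝔪 ≠ ⊤)
    (h1 : ¬ OffBranch π (chart R u) O1 𝔪) (h2 : ¬ OffBranch π (chart R u) O2 𝔪) :
    (⟨ival P u, ival_mem_subalgebra (chart R u) (self_mem_chart u) P⟩ : ↥(chart R u)) ∉ 𝔪 := by
  have huB : u ∈ chart R u := self_mem_chart u
  have hxB := ival_mem_subalgebra (chart R u) huB P
  have hyB := ival_mem_subalgebra (chart R u) hwB P
  have hπ1 := leO1 _ ((chart R u).algebraMap_mem π)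
  have hπ2 := leO2 _ ((chart R u).algebraMap_mem π)
  have hR1 : ∀ r : R, algebraMap R F r ∈ O1 := fun r => leO1 _ ((chart R u).algebraMap_mem r)
  have hR2 : ∀ r : R, algebraMap R F r ∈ O2 := fun r => leO2 _ ((chart R u).algebraMap_mem r)
  have hB : ∀ x : F, IsIntegral (Algebra.adjoin R {u}) x → x ∈ chart R u :=
    fun x hx => mem_chart_iff.2 hx
  have hg : (ival P u) ^ q * (ival P w)⁻¹ ∈ chart R u :=
    mem_of_isIntegral_field (R := R) (K := K) (F := F) π dvrR u (chart R u) hB O1 O2 hπ1 hπ2 sat hI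
      (O1.mul_mem _ _ (pow_mem (leO1 _ hxB) q) hP1) (O2.mul_mem _ _ (pow_mem (leO2 _ hxB) q) hP2)
  have k1 := kron_ival π q hq hqπ O1 hR1 (leO1 _ hwB) (leO1 _ huB) hK1 P
  have k2 := kron_ival π q hq hqπ O2 hR2 (leO2 _ huB) (leO2 _ hwB) hK2 P
  refine Fermat.Agent.ES.P36.CuspOff16.notMem_of_on_both π (chart R u) O1 O2 leO1 leO2 q
    hq.two_le ⟨ival P u, hxB⟩ ⟨ival P w, hyB⟩ hP0 hP1 hP2 k1 k2 𝔪
    ⟨⟨_, hg⟩, 1, ?_, ?_⟩ h1 h2
  · exact fun h => h𝔪 ((Ideal.eq_top_iff_one 𝔪).mpr h)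
  · show (ival P u) ^ q * ((1 : ↥(chart R u)) : F) = (ival P u) ^ q * (ival P w)⁻¹ * ival P w
    push_cast
    field_simp

/-- **Chart `0`**: no `u - c` with `P(c) = 0` lies in `𝔪`. -/
theorem sub_notMem_of_root (u : F) (P : ℤ[X]) (𝔪 : Ideal ↥(chart R u))
    (hx : (⟨ival P u, ival_mem_subalgebra (chart R u) (self_mem_chart u) P⟩ : ↥(chart R u)) ∉ 𝔪)
    (c : R) (hc : ival P c = 0) :
    (⟨u - algebraMap R F c, (chart R u).sub_mem (self_mem_chart u)
      ((chart R u).algebraMap_mem c)⟩ : ↥(chart R u)) ∉ 𝔪 := by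
  intro hmem
  apply hx
  have hroot : (P.map (Int.castRingHom R)).IsRoot c := by
    rw [IsRoot.def, Polynomial.eval_map]; exact hc
  obtain ⟨E, hE⟩ := Polynomial.dvd_iff_isRoot.mpr hroot
  set u' : ↥(chart R u) := ⟨u, self_mem_chart u⟩ with hu'
  have h1 : ival P u' = (u' - algebraMap R ↥(chart R u) c) * aeval u' E := by
    rw [← aeval_map_int (S := R) u' P, hE, map_mul, map_sub, aeval_X, aeval_C]
  have h2 : (⟨ival P u, ival_mem_subalgebra (chart R u) (self_mem_chart u) P⟩ : ↥(chart R u)) =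
      ival P u' := by
    apply Subtype.ext
    exact (map_ival (chart R u).val.toRingHom u' P).symm
  rw [h2, h1]
  have h3 : (⟨u - algebraMap R F c, (chart R u).sub_mem (self_mem_chart u)
      ((chart R u).algebraMap_mem c)⟩ : ↥(chart R u)) = u' - algebraMap R ↥(chart R u) c :=
    Subtype.ext rfl
  rw [h3] at hmem
  exact 𝔪.mul_mem_right _ hmem

/-- `reverse (X - c) = 1 - c X`. -/
theorem reverse_X_sub_C (c : R) : (X - C c : R[X]).reverse = 1 - C c * X := by
  have h : (X - C c : R[X]) = X + C (-c) := by rw [C_neg]; ring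
  rw [h, reverse_add_C, natDegree_X, pow_one]
  have : (X : R[X]).reverse = 1 := by
    have := reverse_mul_X (1 : R[X])
    rwa [one_mul, ← C_1, reverse_C, C_1] at this
  rw [this, C_neg]; ring

/-- **Chart `1`**: with `P = D.reverse`, no `1 - c u` with `D(c) = 0` lies in `𝔪`. -/
theorem one_sub_mul_notMem_of_root [CharZero R] (u : F) (D : ℤ[X]) (𝔪 : Ideal ↥(chart R u))
    (hx : (⟨ival D.reverse u, ival_mem_subalgebra (chart R u) (self_mem_chart u) D.reverse⟩ :
      ↥(chart R u)) ∉ 𝔪)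
    (c : R) (hc : ival D c = 0) :
    (⟨1 - algebraMap R F c * u, (chart R u).sub_mem (chart R u).one_mem
      ((chart R u).mul_mem ((chart R u).algebraMap_mem c) (self_mem_chart u))⟩ : ↥(chart R u)) ∉ 𝔪 := by
  intro hmem
  apply hx
  have hinj : Function.Injective (Int.castRingHom R) := (Int.castRingHom R).injective_int
  have hroot : (D.map (Int.castRingHom R)).IsRoot c := by
    rw [IsRoot.def, Polynomial.eval_map]; exact hc
  obtain ⟨E, hE⟩ := Polynomial.dvd_iff_isRoot.mpr hroot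
  have hrev : (D.reverse).map (Int.castRingHom R) = (1 - C c * X) * E.reverse := by
    rw [← reverse_X_sub_C, ← reverse_mul_of_domain, ← hE]
    rw [reverse, reverse, reflect_map, natDegree_map_eq_of_injective hinj]
  set u' : ↥(chart R u) := ⟨u, self_mem_chart u⟩ with hu'
  have h1 : ival D.reverse u' = (1 - algebraMap R ↥(chart R u) c * u') * aeval u' E.reverse := by
    rw [← aeval_map_int (S := R) u' D.reverse, hrev, map_mul, map_sub, map_mul, aeval_X,
      aeval_C, map_one]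
  have h2 : (⟨ival D.reverse u, ival_mem_subalgebra (chart R u) (self_mem_chart u) D.reverse⟩ :
      ↥(chart R u)) = ival D.reverse u' := by
    apply Subtype.ext
    exact (map_ival (chart R u).val.toRingHom u' D.reverse).symm
  rw [h2, h1]
  have h3 : (⟨1 - algebraMap R F c * u, (chart R u).sub_mem (chart R u).one_mem
      ((chart R u).mul_mem ((chart R u).algebraMap_mem c) (self_mem_chart u))⟩ : ↥(chart R u)) =
      1 - algebraMap R ↥(chart R u) c * u' :=
    Subtype.ext rfl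
  rw [h3] at hmem
  exact 𝔪.mul_mem_right _ hmem

end Chart

end Fermat.Agent.ES.P36.CuspPoly16
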