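/-
Program P (S36), chapter REG, brick R7c(b) SUPPLIER (helper17): **the hypothesis `hsm1` of helper3's
`HunrCuspSq3.unif_of_cusp_sq_at / _inf_at`** — at a closed point `x1 ∋ π` of a chart of level `M' q`
through which ONLY the component `O1` (expansion at `∞`) passes (a point of type I: `OffBranch O2`), the
maximal ideal is locally `(π, α z₀)` with `z₀` in the chart of the good level `M'`.

* `span_pair_of_branch` (abstract): `NodalCL13.smoothAt_of_branch_principal` with the generator `s` EXPOSED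
  (that theorem proves exactly this and then forgets `s` inside `SmoothAt`);
* `hsm1_B0`, `hsm1_B1` : the two charts `chart (tN q ht)`, `chart (tN q ht)⁻¹`, per `K`, from the level-`M' q`
  items `ModelN4.PrinItems` (helper4's `ModelQAt4.prinItems_at`) and `ModelN4.GlueItems`
  (`ModelQAt4.glueItems_at`), in helper3's LITERAL shape;
* `hsm1_B0_beta`, `hsm1_B1_beta` : the mirror at a point through which only `O2` passes (generator `β z₀`).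
-/
import Mathlib
import Fermat.Agent.ES.N34.NodalCL13
import Fermat.Agent.ES.N34.SmoothN5
import Fermat.Agent.ES.N34.ModelN4

set_option autoImplicit false
set_option linter.unusedSectionVars false
set_option linter.unusedVariables false
set_option synthInstance.maxHeartbeats 400000
set_option maxHeartbeats 4000000

noncomputable section

open HahnSeries ModularCurve

namespace Fermat.Agent.ES.P36.CuspSm1Inst17

open Fermat.Agent.ES.N34.NodalCore13 Fermat.Agent.ES.N34.NodalCL13 Fermat.Agent.ES.N34.SmoothN5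

/-! ### Abstract: the generator exposed -/

section Abstract

variable {R F : Type*} [CommRing R] [Field F] [Algebra R F]

/-- **One component ⇒ `𝔪 = (π, s)` locally, `s` explicit.**  If the component `O2` misses `𝔪` and
`s` generates the maximal ideal of the branch `(B / 𝔭₁)_𝔪`, then every `y ∈ 𝔪` has a multiple `d y`,
`d ∉ 𝔪`, in `(π, s)`. -/
theorem span_pair_of_branch (π : R) (B : Subalgebra R F) (O1 O2 : ValuationSubring F)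
    (leO1 : ∀ x ∈ B, x ∈ O1) (leO2 : ∀ x ∈ B, x ∈ O2)
    (arch2 : ∀ x : F, ∃ k : ℕ, algebraMap R F π ^ k * x ∈ O2)
    (sat : ∀ b ∈ B, ∀ c : F, c ∈ O1 → c ∈ O2 → b = algebraMap R F π * c → c ∈ B)
    (𝔪 : Ideal B) [h𝔪 : 𝔪.IsPrime] (hoff : OffBranch π B O2 𝔪) (s : B)
    (hgen : ∀ y ∈ 𝔪, ∃ d : B, d ∉ 𝔪 ∧ ∃ b : B, ∃ c ∈ O1,
      (d : F) * (y : F) - (b : F) * (s : F) = algebraMap R F π * c) :
    ∀ y ∈ 𝔪, ∃ d : B, d ∉ 𝔪 ∧ d * y ∈ Ideal.span {algebraMap R B π, s} := by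
  intro y hy
  obtain ⟨d, hd, b, c, hc, hdy⟩ := hgen y hy
  obtain ⟨e, he, o, ho, heo⟩ := hoff
  obtain ⟨k, hk⟩ := arch2 c
  have hmem : c * (e : F) ^ (k + 1) ∈ B := by
    refine sat ((e : F) ^ (k + 1) * ((d : F) * (y : F) - (b : F) * (s : F)))
      (B.mul_mem (B.pow_mem e.2 _) (B.sub_mem (B.mul_mem d.2 y.2) (B.mul_mem b.2 s.2))) _ ?_ ?_ ?_
    · exact O1.mul_mem _ _ hc (pow_mem (leO1 _ e.2) _)
    · have : c * (e : F) ^ (k + 1) = (e : F) * o ^ k * (algebraMap R F π ^ k * c) := by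
        rw [heo]; ring
      rw [this]
      exact O2.mul_mem _ _ (O2.mul_mem _ _ (leO2 _ e.2) (pow_mem ho _)) hk
    · rw [hdy]; ring
  refine ⟨e ^ (k + 1) * d, fun hh => (h𝔪.mem_or_mem hh).elim
    (fun h' => he (h𝔪.mem_of_pow_mem _ h')) hd, ?_⟩
  rw [Ideal.mem_span_pair]
  refine ⟨⟨_, hmem⟩, e ^ (k + 1) * b, ?_⟩
  apply Subtype.ext
  show c * (e : F) ^ (k + 1) * algebraMap R F π + ((e ^ (k + 1) * b : B) : F) * (s : F)
    = ((e ^ (k + 1) * d : B) : F) * (y : F)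
  push_cast
  linear_combination (-(e : F) ^ (k + 1)) * hdy

/-- The same from a `BranchPrincipalVia` datum: the generator is `φ s₀`. -/
theorem exists_span_pair_of_via {B₀ : Type*} (φ : B₀ → F) (π : R) (B : Subalgebra R F)
    (O1 O2 : ValuationSubring F) (hvia : BranchPrincipalVia φ π B O1)
    (leO1 : ∀ x ∈ B, x ∈ O1) (leO2 : ∀ x ∈ B, x ∈ O2)
    (arch2 : ∀ x : F, ∃ k : ℕ, algebraMap R F π ^ k * x ∈ O2)
    (sat : ∀ b ∈ B, ∀ c : F, c ∈ O1 → c ∈ O2 → b = algebraMap R F π * c → c ∈ B)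
    (𝔪 : Ideal B) (h𝔪 : 𝔪.IsMaximal) (hπ𝔪 : algebraMap R B π ∈ 𝔪) (hoff : OffBranch π B O2 𝔪) :
    ∃ z₀ : B₀, ∃ hz : φ z₀ ∈ B, (⟨φ z₀, hz⟩ : B) ∈ 𝔪 ∧
      ∀ y ∈ 𝔪, ∃ d : B, d ∉ 𝔪 ∧ d * y ∈ Ideal.span {algebraMap R B π, (⟨φ z₀, hz⟩ : B)} := by
  have : 𝔪.IsPrime := h𝔪.isPrime
  obtain ⟨s₀, hs, hmem, hgen⟩ := hvia 𝔪 h𝔪 hπ𝔪
  exact ⟨s₀, hs, hmem,
    span_pair_of_branch π B O1 O2 leO1 leO2 arch2 sat 𝔪 hoff ⟨φ s₀, hs⟩ hgen⟩

end Abstract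

/-! ### The model, level `M' q`, per `K` -/

section Model

open Fermat.Agent.RED.Interface4 Fermat.Agent.RED.PUR.GaussGen8 Fermat.Agent.RED.PUR.ChartGeneric22
  Fermat.Agent.RED.BASE.EtaQuot12 Fermat.Agent.ES.N34.ModelDefs9 Fermat.Agent.ES.N34.ModelN4

variable {n e M' : ℕ} [NeZero n] [NeZero M'] {q : ℕ} [NeZero q] {A : ValuationSubring Qbar}
  {K : IntermediateField ℚ Qbar}

/-- **`hsm1`, chart `t`**: a closed point `x1 ∋ π` of `chart (tN q ht)` off `O2`. -/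
theorem hsm1_B0 (hP : PrinItems n e q M' A K) (hG : GlueItems n e q M' A K)
    (ht : tq (↥K) n e ∈ FK M' K) (hE : FK (M' * q) K ≤ fracField (AK A K))
    {π : ↥(AK A K)} (hπ : IsUnif (AK A K) π)
    (x1 : Ideal ↥(chart ↥(AK A K) (tN q ht))) (hx1 : x1.IsMaximal)
    (hπx : algebraMap ↥(AK A K) ↥(chart ↥(AK A K) (tN q ht)) π ∈ x1)
    (hoff : OffBranch π (chart ↥(AK A K) (tN q ht)) (O2 M' q hπ hE) x1) :
    ∃ z₀ : ↥(chart ↥(AK A K) (tM ht)),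
      ∃ hz : alpha K M' q (z₀ : ↥(FK M' K)) ∈ chart ↥(AK A K) (tN q ht),
      (⟨_, hz⟩ : ↥(chart ↥(AK A K) (tN q ht))) ∈ x1 ∧ ∀ y ∈ x1, ∃ d, d ∉ x1 ∧
      d * y ∈ Ideal.span {algebraMap ↥(AK A K) ↥(chart ↥(AK A K) (tN q ht)) π,
        (⟨_, hz⟩ : ↥(chart ↥(AK A K) (tN q ht)))} := by
  obtain ⟨h01, -, -, -⟩ := hP ht hE π hπ
  have g := hG ht hE π hπ
  exact exists_span_pair_of_via (fun x : ↥(B0M A ht) => alpha K M' q (x : ↥(FK M' K))) π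
    (B0 A q ht) (O1 M' q hπ hE) (O2 M' q hπ hE) h01 g.le_O1_0 g.le_O2_0 g.arch2 g.sat0 x1 hx1 hπx hoff

/-- **`hsm1`, chart `t⁻¹`**: a closed point `x1 ∋ π` of `chart (tN q ht)⁻¹` off `O2`. -/
theorem hsm1_B1 (hP : PrinItems n e q M' A K) (hG : GlueItems n e q M' A K)
    (ht : tq (↥K) n e ∈ FK M' K) (hE : FK (M' * q) K ≤ fracField (AK A K))
    {π : ↥(AK A K)} (hπ : IsUnif (AK A K) π)
    (x1 : Ideal ↥(chart ↥(AK A K) (tN q ht)⁻¹)) (hx1 : x1.IsMaximal)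
    (hπx : algebraMap ↥(AK A K) ↥(chart ↥(AK A K) (tN q ht)⁻¹) π ∈ x1)
    (hoff : OffBranch π (chart ↥(AK A K) (tN q ht)⁻¹) (O2 M' q hπ hE) x1) :
    ∃ z₀ : ↥(chart ↥(AK A K) (tM ht)⁻¹),
      ∃ hz : alpha K M' q (z₀ : ↥(FK M' K)) ∈ chart ↥(AK A K) (tN q ht)⁻¹,
      (⟨_, hz⟩ : ↥(chart ↥(AK A K) (tN q ht)⁻¹)) ∈ x1 ∧ ∀ y ∈ x1, ∃ d, d ∉ x1 ∧
      d * y ∈ Ideal.span {algebraMap ↥(AK A K) ↥(chart ↥(AK A K) (tN q ht)⁻¹) π,
        (⟨_, hz⟩ : ↥(chart ↥(AK A K) (tN q ht)⁻¹))} := by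
  obtain ⟨-, -, h11, -⟩ := hP ht hE π hπ
  have g := hG ht hE π hπ
  exact exists_span_pair_of_via (fun x : ↥(B1M A ht) => alpha K M' q (x : ↥(FK M' K))) π
    (B1 A q ht) (O1 M' q hπ hE) (O2 M' q hπ hE) h11 g.le_O1_1 g.le_O2_1 g.arch2 g.sat1 x1 hx1 hπx hoff

/-- Mirror, chart `t`: a closed point off `O1` (only the component `O2` passes): generator `β z₀`. -/
theorem hsm1_B0_beta (hP : PrinItems n e q M' A K) (hG : GlueItems n e q M' A K)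
    (ht : tq (↥K) n e ∈ FK M' K) (hE : FK (M' * q) K ≤ fracField (AK A K))
    {π : ↥(AK A K)} (hπ : IsUnif (AK A K) π)
    (x1 : Ideal ↥(chart ↥(AK A K) (tN q ht))) (hx1 : x1.IsMaximal)
    (hπx : algebraMap ↥(AK A K) ↥(chart ↥(AK A K) (tN q ht)) π ∈ x1)
    (hoff : OffBranch π (chart ↥(AK A K) (tN q ht)) (O1 M' q hπ hE) x1) :
    ∃ z₀ : ↥(chart ↥(AK A K) (tM ht)),
      ∃ hz : beta K M' q (z₀ : ↥(FK M' K)) ∈ chart ↥(AK A K) (tN q ht),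
      (⟨_, hz⟩ : ↥(chart ↥(AK A K) (tN q ht))) ∈ x1 ∧ ∀ y ∈ x1, ∃ d, d ∉ x1 ∧
      d * y ∈ Ideal.span {algebraMap ↥(AK A K) ↥(chart ↥(AK A K) (tN q ht)) π,
        (⟨_, hz⟩ : ↥(chart ↥(AK A K) (tN q ht)))} := by
  obtain ⟨-, h02, -, -⟩ := hP ht hE π hπ
  have g := hG ht hE π hπ
  exact exists_span_pair_of_via (fun x : ↥(B0M A ht) => beta K M' q (x : ↥(FK M' K))) π
    (B0 A q ht) (O2 M' q hπ hE) (O1 M' q hπ hE) h02 g.le_O2_0 g.le_O1_0 g.arch1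
    (fun b hb c h2 h1 e => g.sat0 b hb c h1 h2 e) x1 hx1 hπx hoff

/-- Mirror, chart `t⁻¹`. -/
theorem hsm1_B1_beta (hP : PrinItems n e q M' A K) (hG : GlueItems n e q M' A K)
    (ht : tq (↥K) n e ∈ FK M' K) (hE : FK (M' * q) K ≤ fracField (AK A K))
    {π : ↥(AK A K)} (hπ : IsUnif (AK A K) π)
    (x1 : Ideal ↥(chart ↥(AK A K) (tN q ht)⁻¹)) (hx1 : x1.IsMaximal)
    (hπx : algebraMap ↥(AK A K) ↥(chart ↥(AK A K) (tN q ht)⁻¹) π ∈ x1)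
    (hoff : OffBranch π (chart ↥(AK A K) (tN q ht)⁻¹) (O1 M' q hπ hE) x1) :
    ∃ z₀ : ↥(chart ↥(AK A K) (tM ht)⁻¹),
      ∃ hz : beta K M' q (z₀ : ↥(FK M' K)) ∈ chart ↥(AK A K) (tN q ht)⁻¹,
      (⟨_, hz⟩ : ↥(chart ↥(AK A K) (tN q ht)⁻¹)) ∈ x1 ∧ ∀ y ∈ x1, ∃ d, d ∉ x1 ∧
      d * y ∈ Ideal.span {algebraMap ↥(AK A K) ↥(chart ↥(AK A K) (tN q ht)⁻¹) π,
        (⟨_, hz⟩ : ↥(chart ↥(AK A K) (tN q ht)⁻¹))} := by
  obtain ⟨-, -, -, h12⟩ := hP ht hE π hπ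
  have g := hG ht hE π hπ
  exact exists_span_pair_of_via (fun x : ↥(B1M A ht) => beta K M' q (x : ↥(FK M' K))) π
    (B1 A q ht) (O2 M' q hπ hE) (O1 M' q hπ hE) h12 g.le_O2_1 g.le_O1_1 g.arch1
    (fun b hb c h2 h1 e => g.sat1 b hb c h1 h2 e) x1 hx1 hπx hoff

end Model

end Fermat.Agent.ES.P36.CuspSm1Inst17
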