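/-
Program P (S36), chapter (R4) = (D4), THIRD CUSPS, characteristic-`0` input (helper16).

The "denominator route": write `j = N(t) / D(t)` with `N, D ∈ ℚbar[T]` coprime.  At every place `v`
of `Fbar_{nℓ}` at which `x` is finite, `j' D(x) = N(x)` gives
  `0 ≤ ord_v j' + ord_v D(x)`  and  `0 < ord_v D(x) → ord_v j' = - ord_v D(x)`
(`ord_add_nonneg`, `ord_eq_neg_of_pos`: Bezout).  With the `j`-dictionary
  (J)  `ord_v (β j) < 0 → ord_v (α j) < 0 ∧ - ord_v (β j) ≤ ℓ · (- ord_v (α j))`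
this yields: `D(αt)^ℓ / D(βt)` is integral over `ℚbar[αt]` (`isIntegral_gD`; series form
`isIntegral_gD_series`).  All finite cusp values are roots of `D` (`aeval_cusp_eq_zero`), so this one
element handles every finite cusp value at once in `CuspOff16.notMem_of_on_both`.
-/
import Mathlib
import Fermat.Agent.ES.P36.CuspInt16
import Fermat.Agent.RED.BASE.FiniteAvoidsM14

set_option autoImplicit false
set_option linter.unusedSectionVars false
set_option linter.style.haveILetI false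

open ModularCurve AlgebraicCurve IntermediateField UpperHalfPlane Polynomial
open scoped IntermediateField MatrixGroups

noncomputable section

namespace Fermat.Agent.ES.P36.JDenom16

open Fermat.Agent.X0 Fermat.Agent.X0.FF

section General

variable {K F : Type*} [Field K] [Field F] [Algebra K F]

/-- polynomials in an element of the valuation ring of a place stay in it. -/
theorem aeval_mem_place (v : Place K F) {x : F} (hx : x ∈ v.toValuationSubring) (P : K[X]) :
    aeval x P ∈ v.toValuationSubring := by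
  have h := Polynomial.aeval_algebraMap_apply F (⟨x, hx⟩ : v.toValuationSubring) P
  have h2 : aeval x P = ((aeval (⟨x, hx⟩ : v.toValuationSubring) P : v.toValuationSubring) : F) :=
    h
  rw [h2]
  exact Subtype.property _

/-- `y D(x) = N(x)`, `x` finite at `v`: `0 ≤ ord y + ord D(x)`. -/
theorem ord_add_nonneg (v : Place K F) {x y : F} (hx : x ∈ v.toValuationSubring) (N D : K[X])
    (hy0 : y ≠ 0) (hD : aeval x D ≠ 0) (hy : y * aeval x D = aeval x N) :
    0 ≤ v.ord y + v.ord (aeval x D) := by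
  rw [← v.ord_mul hy0 hD, hy]
  exact (ffp_mem_iff_ord_nonneg v).mp (aeval_mem_place v hx N)

/-- `y D(x) = N(x)`, `N, D` coprime, `x` finite at `v`, `D(x)` vanishes at `v`:
`ord y = - ord D(x)`. -/
theorem ord_eq_neg_of_pos (v : Place K F) {x y : F} (hx : x ∈ v.toValuationSubring) (N D : K[X])
    (hcop : IsCoprime N D) (hy : y * aeval x D = aeval x N) (hpos : 0 < v.ord (aeval x D)) :
    v.ord y = - v.ord (aeval x D) := by
  have hD : aeval x D ≠ 0 := by
    intro h0
    rw [h0, v.ord_zero] at hpos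
    exact lt_irrefl _ hpos
  obtain ⟨u, w, huw⟩ := hcop
  have h1 : aeval x u * aeval x N + aeval x w * aeval x D = 1 := by
    rw [← map_mul, ← map_mul, ← map_add, huw, map_one]
  set N' : v.toValuationSubring := ⟨aeval x N, aeval_mem_place v hx N⟩ with hN'
  set D' : v.toValuationSubring := ⟨aeval x D, aeval_mem_place v hx D⟩ with hD'
  set u' : v.toValuationSubring := ⟨aeval x u, aeval_mem_place v hx u⟩ with hu'
  set w' : v.toValuationSubring := ⟨aeval x w, aeval_mem_place v hx w⟩ with hw'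
  have h2 : u' * N' + w' * D' = 1 := Subtype.ext h1
  have hD'0 : D' ≠ 0 := fun h => hD (congrArg Subtype.val h)
  have hDm : D' ∈ IsLocalRing.maximalIdeal v.toValuationSubring :=
    (ffp_mem_maximalIdeal_iff v D' hD'0).mpr hpos
  have hNu : IsUnit N' := by
    by_contra hnu
    have hNm : N' ∈ IsLocalRing.maximalIdeal v.toValuationSubring := by
      rwa [IsLocalRing.mem_maximalIdeal, mem_nonunits_iff]
    have h1m : (1 : v.toValuationSubring) ∈ IsLocalRing.maximalIdeal v.toValuationSubring := by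
      rw [← h2]
      exact Ideal.add_mem _ (Ideal.mul_mem_left _ _ hNm) (Ideal.mul_mem_left _ _ hDm)
    exact (Ideal.ne_top_iff_one _).mp (IsLocalRing.maximalIdeal.isMaximal _).ne_top h1m
  have hN0 : v.ord (aeval x N) = 0 := ffp_ord_eq_zero_of_isUnit v hNu
  have hy0 : y ≠ 0 := by
    intro h0
    rw [h0, zero_mul] at hy
    have : N' = 0 := Subtype.ext hy.symm
    rw [this] at hNu
    exact not_isUnit_zero hNu
  have := v.ord_mul hy0 hD
  rw [hy, hN0] at this
  omega

/-- `x ≡ c` at `v`, `P(c) ≠ 0`: `P(x)` is a unit at `v`. -/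
theorem ord_aeval_eq_zero (v : Place K F) {x : F} (c : K)
    (hpos : 0 < v.ord (x - algebraMap K F c)) (P : K[X]) (hPc : P.eval c ≠ 0) :
    v.ord (aeval x P) = 0 ∧ aeval x P ≠ 0 := by
  have hxc : x - algebraMap K F c ∈ v.toValuationSubring :=
    (ffp_mem_iff_ord_nonneg v).mpr hpos.le
  have hxm : x ∈ v.toValuationSubring := by
    have := add_mem hxc (v.algebraMap_mem' c)
    rwa [sub_add_cancel] at this
  obtain ⟨Q, hQ⟩ := Polynomial.X_sub_C_dvd_sub_C_eval (a := c) (p := P)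
  have hDx : aeval x P = algebraMap K F (P.eval c) + (x - algebraMap K F c) * aeval x Q := by
    have := congrArg (aeval x) hQ
    rw [map_sub, map_mul, map_sub, aeval_X, aeval_C, aeval_C] at this
    linear_combination this
  have hxc0 : x - algebraMap K F c ≠ 0 := by
    intro h0
    rw [h0, v.ord_zero] at hpos
    exact lt_irrefl _ hpos
  have hc0 : algebraMap K F (P.eval c) ≠ 0 := (_root_.map_ne_zero _).mpr hPc
  have hcord : v.ord (algebraMap K F (P.eval c)) = 0 := ffp_ord_algebraMap v _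
  rcases eq_or_ne (aeval x Q) 0 with hQ0 | hQ0
  · rw [hDx, hQ0, mul_zero, add_zero]
    exact ⟨hcord, hc0⟩
  · have hlt : v.ord (algebraMap K F (P.eval c)) <
        v.ord ((x - algebraMap K F c) * aeval x Q) := by
      rw [hcord, v.ord_mul hxc0 hQ0]
      have := (ffp_mem_iff_ord_nonneg v).mp (aeval_mem_place v hxm Q)
      omega
    have h1 := ffp_ord_add_eq_of_lt v hc0 hlt
    rw [← hDx] at h1
    refine ⟨by rw [h1, hcord], ?_⟩
    intro h0
    have h2 : algebraMap K F (P.eval c) = -((x - algebraMap K F c) * aeval x Q) := by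
      rw [hDx] at h0
      linear_combination h0
    rw [h2, ffp_ord_neg] at hlt
    exact lt_irrefl _ hlt

/-- `D.reverse (x⁻¹) · x ^ deg D = D(x)`. -/
theorem aeval_inv_reverse {x : F} (hx : x ≠ 0) (D : K[X]) :
    aeval x⁻¹ D.reverse * x ^ D.natDegree = aeval x D := by
  letI : Invertible x := invertibleOfNonzero hx
  have := eval₂_reverse_mul_pow (algebraMap K F) x D
  rwa [invOf_eq_inv] at this

theorem aeval_inv_reverse' {x : F} (hx : x ≠ 0) (D : K[X]) :
    aeval x⁻¹ D.reverse = aeval x D * (x⁻¹) ^ D.natDegree := by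
  rw [← aeval_inv_reverse hx D, mul_assoc, ← mul_pow, mul_inv_cancel₀ hx, one_pow, mul_one]

theorem gD_key (A B a b : F) (l d : ℕ) :
    (A * (a⁻¹) ^ d) ^ l * (B * (b⁻¹) ^ d)⁻¹ = (A ^ l * B⁻¹) * (b * (a⁻¹) ^ l) ^ d := by
  rw [mul_pow, mul_inv, mul_pow, ← pow_mul, ← pow_mul, inv_pow b, inv_inv, mul_comm d l]
  ring

end General

section Level

open Fermat.Agent.RED.BASE.Interface12 Fermat.Agent.RED.BASE.Hauptmodul12
open Fermat.Agent.RED.BASE
open Fermat.Agent.RED.BASE.EtaQuot12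
open Fermat.Agent.ES.N34.ModEqBar23 Fermat.Agent.ES.P36.CuspInt16

variable {n e : ℕ} (ℓ : ℕ) [NeZero n] [NeZero ℓ]

/-- **(INT-D)**: `D(αt)^ℓ / D(βt)` is integral over `ℚbar[αt]`, from the `j`-dictionary (J). -/
theorem isIntegral_gD (hb : BaseHyp n e) (hℓ : ℓ.Prime) (hℓn : ¬ ℓ ∣ n)
    (N D : Kbar[X]) (hcop : IsCoprime N D) (hD0 : D ≠ 0)
    (hj : jF n * aeval (tF n (tMem hb)) D = aeval (tF n (tMem hb)) N)
    (hJ : ∀ v : Place Kbar (FF (n * ℓ)), v.ord (heckeBetaBar Kbar n ℓ (jF n)) < 0 →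
      v.ord (heckeAlphaBar Kbar n ℓ (jF n)) < 0 ∧
        -(v.ord (heckeBetaBar Kbar n ℓ (jF n))) ≤
          (ℓ : ℤ) * -(v.ord (heckeAlphaBar Kbar n ℓ (jF n)))) :
    IsIntegral (Algebra.adjoin Kbar {aF ℓ (tMem hb)})
      ((aeval (aF ℓ (tMem hb)) D) ^ ℓ * (aeval (bF ℓ (tMem hb)) D)⁻¹) := by
  have hgen := isGen_aF ℓ (tMem hb)
  have hgenb := isGen_bF ℓ (tMem hb)
  have hDa : aeval (aF ℓ (tMem hb)) D ≠ 0 := fun h0 =>
    hD0 ((transcendental_iff.mp hgen.transcendental) D h0)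
  have hDb : aeval (bF ℓ (tMem hb)) D ≠ 0 := fun h0 =>
    hD0 ((transcendental_iff.mp hgenb.transcendental) D h0)
  -- the two relations at level `n ℓ`
  have hja : heckeAlphaBar Kbar n ℓ (jF n) * aeval (aF ℓ (tMem hb)) D =
      aeval (aF ℓ (tMem hb)) N := by
    have := congrArg (heckeAlphaBar Kbar n ℓ) hj
    rw [map_mul, ← Polynomial.aeval_algHom_apply, ← Polynomial.aeval_algHom_apply] at this
    exact this
  have hjb : heckeBetaBar Kbar n ℓ (jF n) * aeval (bF ℓ (tMem hb)) D =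
      aeval (bF ℓ (tMem hb)) N := by
    have := congrArg (heckeBetaBar Kbar n ℓ) hj
    rw [map_mul, ← Polynomial.aeval_algHom_apply, ← Polynomial.aeval_algHom_apply] at this
    exact this
  have hj0 : jF n ≠ 0 := by
    intro h0
    apply transcendental_jF (N := n)
    rw [h0]
    exact isAlgebraic_zero
  have hja0 : heckeAlphaBar Kbar n ℓ (jF n) ≠ 0 := (_root_.map_ne_zero _).mpr hj0
  have hjb0 : heckeBetaBar Kbar n ℓ (jF n) ≠ 0 := (_root_.map_ne_zero _).mpr hj0
  have h := Fermat.Agent.RED.PUR.PlaceIntegral3.mem_intRing_of_forall_place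
    hgen ((aeval (aF ℓ (tMem hb)) D) ^ ℓ * (aeval (bF ℓ (tMem hb)) D)⁻¹) (by
      intro v hav
      have hbv : bF ℓ (tMem hb) ∈ v.toValuationSubring :=
        mem_place_of_isIntegral_adjoin v hav (isIntegral_bF ℓ hb hℓ hℓn)
      rw [FF.ffp_mem_iff_ord_nonneg]
      rw [v.ord_mul (pow_ne_zero _ hDa) (inv_ne_zero hDb), FF.ord_pow, v.ord_inv]
      have hDa_nn : 0 ≤ v.ord (aeval (aF ℓ (tMem hb)) D) :=
        (FF.ffp_mem_iff_ord_nonneg v).mp (aeval_mem_place v hav D)
      have hDb_nn : 0 ≤ v.ord (aeval (bF ℓ (tMem hb)) D) :=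
        (FF.ffp_mem_iff_ord_nonneg v).mp (aeval_mem_place v hbv D)
      have hℓ0 : (0 : ℤ) ≤ ℓ := by positivity
      rcases hDb_nn.eq_or_lt with h0 | hpos
      · rw [← h0]
        have : 0 ≤ (ℓ : ℤ) * v.ord (aeval (aF ℓ (tMem hb)) D) := mul_nonneg hℓ0 hDa_nn
        linarith
      · have e1 := ord_eq_neg_of_pos v hbv N D hcop hjb hpos
        have hneg : v.ord (heckeBetaBar Kbar n ℓ (jF n)) < 0 := by rw [e1]; linarith
        obtain ⟨h1, h2⟩ := hJ v hneg
        have e2 := ord_add_nonneg v hav N D hja0 hDa hja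
        have h3 : (ℓ : ℤ) * -(v.ord (heckeAlphaBar Kbar n ℓ (jF n))) ≤
            (ℓ : ℤ) * v.ord (aeval (aF ℓ (tMem hb)) D) :=
          mul_le_mul_of_nonneg_left (by linarith) hℓ0
        rw [e1] at h2
        linarith)
  exact h

/-- **(INT-D), series form**: `D(t)^ℓ / D(t(q^ℓ))` is integral over `ℚbar[t]`. -/
theorem isIntegral_gD_series (hb : BaseHyp n e) (hℓ : ℓ.Prime) (hℓn : ¬ ℓ ∣ n)
    (N D : Kbar[X]) (hcop : IsCoprime N D) (hD0 : D ≠ 0)
    (hj : jF n * aeval (tF n (tMem hb)) D = aeval (tF n (tMem hb)) N)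
    (hJ : ∀ v : Place Kbar (FF (n * ℓ)), v.ord (heckeBetaBar Kbar n ℓ (jF n)) < 0 →
      v.ord (heckeAlphaBar Kbar n ℓ (jF n)) < 0 ∧
        -(v.ord (heckeBetaBar Kbar n ℓ (jF n))) ≤
          (ℓ : ℤ) * -(v.ord (heckeAlphaBar Kbar n ℓ (jF n)))) :
    IsIntegral (Algebra.adjoin Kbar {tK n e})
      ((aeval (tK n e) D) ^ ℓ * (aeval (qExpand Kbar ℓ (tK n e)) D)⁻¹) := by
  have h := isIntegral_adjoin_map (modularFunctionFieldBar (n * ℓ)).val
    (isIntegral_gD ℓ hb hℓ hℓn N D hcop hD0 hj hJ)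
  have h1 : (modularFunctionFieldBar (n * ℓ)).val (bF ℓ (tMem hb)) = qExpand Kbar ℓ (tK n e) :=
    coe_bF ℓ (tMem hb)
  have h2 : (modularFunctionFieldBar (n * ℓ)).val (aF ℓ (tMem hb)) = tK n e := coe_aF ℓ (tMem hb)
  rw [map_mul, map_pow, map_inv₀, ← Polynomial.aeval_algHom_apply,
    ← Polynomial.aeval_algHom_apply, h1, h2] at h
  exact h

/-- **(INT-D), chart at infinity**: with `Dr = D.reverse`, `Dr(1/αt)^ℓ / Dr(1/βt)` is integral over
`ℚbar[1/αt]`. -/
theorem isIntegral_gD_inv (hb : BaseHyp n e) (hℓ : ℓ.Prime) (hℓn : ¬ ℓ ∣ n)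
    (N D : Kbar[X]) (hcop : IsCoprime N D) (hD0 : D ≠ 0)
    (hj : jF n * aeval (tF n (tMem hb)) D = aeval (tF n (tMem hb)) N)
    (hJ : ∀ v : Place Kbar (FF (n * ℓ)), v.ord (heckeBetaBar Kbar n ℓ (jF n)) < 0 →
      v.ord (heckeAlphaBar Kbar n ℓ (jF n)) < 0 ∧
        -(v.ord (heckeBetaBar Kbar n ℓ (jF n))) ≤
          (ℓ : ℤ) * -(v.ord (heckeAlphaBar Kbar n ℓ (jF n)))) :
    IsIntegral (Algebra.adjoin Kbar {(aF ℓ (tMem hb))⁻¹})
      ((aeval (aF ℓ (tMem hb))⁻¹ D.reverse) ^ ℓ * (aeval (bF ℓ (tMem hb))⁻¹ D.reverse)⁻¹) := by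
  have hgen := isGen_aF ℓ (tMem hb)
  have hgenb := isGen_bF ℓ (tMem hb)
  have ha0 : aF ℓ (tMem hb) ≠ 0 := hgen.ne_zero
  have hb0 : bF ℓ (tMem hb) ≠ 0 := hgenb.ne_zero
  have hDa : aeval (aF ℓ (tMem hb)) D ≠ 0 := fun h0 =>
    hD0 ((transcendental_iff.mp hgen.transcendental) D h0)
  have hDb : aeval (bF ℓ (tMem hb)) D ≠ 0 := fun h0 =>
    hD0 ((transcendental_iff.mp hgenb.transcendental) D h0)
  have hG := isIntegral_gD ℓ hb hℓ hℓn N D hcop hD0 hj hJ
  have hlc : D.reverse.eval 0 ≠ 0 := by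
    rw [← coeff_zero_eq_eval_zero, coeff_zero_reverse]
    exact leadingCoeff_ne_zero.mpr hD0
  have h := Fermat.Agent.RED.PUR.PlaceIntegral3.mem_intRing_of_forall_place
    hgen.inv ((aeval (aF ℓ (tMem hb))⁻¹ D.reverse) ^ ℓ *
      (aeval (bF ℓ (tMem hb))⁻¹ D.reverse)⁻¹) (by
      intro v hav
      by_cases hv : v.ord (aF ℓ (tMem hb)) < 0
      · -- a pole of `αt`: both factors are units
        have hvb : v.ord (bF ℓ (tMem hb)) < 0 := by
          rcases poles_aF ℓ hb hℓ hℓn v hv with ⟨-, h2⟩ | ⟨-, h2⟩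
          · rw [h2]; have : (0 : ℤ) < ℓ := by exact_mod_cast hℓ.pos
            omega
          · rw [h2]; omega
        have hpa : 0 < v.ord ((aF ℓ (tMem hb))⁻¹ - algebraMap Kbar (FF (n * ℓ)) 0) := by
          rw [map_zero, sub_zero, v.ord_inv]; omega
        have hpb : 0 < v.ord ((bF ℓ (tMem hb))⁻¹ - algebraMap Kbar (FF (n * ℓ)) 0) := by
          rw [map_zero, sub_zero, v.ord_inv]; omega
        obtain ⟨e1, n1⟩ := ord_aeval_eq_zero v 0 hpa D.reverse hlc
        obtain ⟨e2, n2⟩ := ord_aeval_eq_zero v 0 hpb D.reverse hlc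
        rw [FF.ffp_mem_iff_ord_nonneg, v.ord_mul (pow_ne_zero _ n1) (inv_ne_zero n2), FF.ord_pow,
          v.ord_inv, e1, e2]
        simp
      · -- `αt` finite and non-zero at `v`
        have hav' : aF ℓ (tMem hb) ∈ v.toValuationSubring :=
          (FF.ffp_mem_iff_ord_nonneg v).mpr (not_lt.mp hv)
        have hbv : bF ℓ (tMem hb) ∈ v.toValuationSubring :=
          mem_place_of_isIntegral_adjoin v hav' (isIntegral_bF ℓ hb hℓ hℓn)
        have hGv := mem_place_of_isIntegral_adjoin v hav' hG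
        have hDra := aeval_inv_reverse' (K := Kbar) ha0 D
        have hDrb := aeval_inv_reverse' (K := Kbar) hb0 D
        have hkey : (aeval (aF ℓ (tMem hb))⁻¹ D.reverse) ^ ℓ *
            (aeval (bF ℓ (tMem hb))⁻¹ D.reverse)⁻¹ =
            ((aeval (aF ℓ (tMem hb)) D) ^ ℓ * (aeval (bF ℓ (tMem hb)) D)⁻¹) *
              (bF ℓ (tMem hb) * ((aF ℓ (tMem hb))⁻¹) ^ ℓ) ^ D.natDegree := by
          rw [hDra, hDrb]
          exact gD_key _ _ _ _ _ _
        rw [hkey]
        exact mul_mem hGv (pow_mem (mul_mem hbv (pow_mem hav ℓ)) _))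
  exact h

/-- **(INT-D), chart at infinity, series form.** -/
theorem isIntegral_gD_inv_series (hb : BaseHyp n e) (hℓ : ℓ.Prime) (hℓn : ¬ ℓ ∣ n)
    (N D : Kbar[X]) (hcop : IsCoprime N D) (hD0 : D ≠ 0)
    (hj : jF n * aeval (tF n (tMem hb)) D = aeval (tF n (tMem hb)) N)
    (hJ : ∀ v : Place Kbar (FF (n * ℓ)), v.ord (heckeBetaBar Kbar n ℓ (jF n)) < 0 →
      v.ord (heckeAlphaBar Kbar n ℓ (jF n)) < 0 ∧
        -(v.ord (heckeBetaBar Kbar n ℓ (jF n))) ≤
          (ℓ : ℤ) * -(v.ord (heckeAlphaBar Kbar n ℓ (jF n)))) :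
    IsIntegral (Algebra.adjoin Kbar {(tK n e)⁻¹})
      ((aeval (tK n e)⁻¹ D.reverse) ^ ℓ * (aeval (qExpand Kbar ℓ (tK n e))⁻¹ D.reverse)⁻¹) := by
  have h := isIntegral_adjoin_map (modularFunctionFieldBar (n * ℓ)).val
    (isIntegral_gD_inv ℓ hb hℓ hℓn N D hcop hD0 hj hJ)
  have h1 : (modularFunctionFieldBar (n * ℓ)).val (bF ℓ (tMem hb)) = qExpand Kbar ℓ (tK n e) :=
    coe_bF ℓ (tMem hb)
  have h2 : (modularFunctionFieldBar (n * ℓ)).val (aF ℓ (tMem hb)) = tK n e := coe_aF ℓ (tMem hb)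
  have e1 : (modularFunctionFieldBar (n * ℓ)).val (aeval (aF ℓ (tMem hb))⁻¹ D.reverse) =
      aeval (tK n e)⁻¹ D.reverse := by
    rw [← Polynomial.aeval_algHom_apply, map_inv₀, h2]
  have e2 : (modularFunctionFieldBar (n * ℓ)).val (aeval (bF ℓ (tMem hb))⁻¹ D.reverse) =
      aeval (qExpand Kbar ℓ (tK n e))⁻¹ D.reverse := by
    rw [← Polynomial.aeval_algHom_apply, map_inv₀, h1]
  rw [map_mul, map_pow, map_inv₀ _ (aeval (bF ℓ (tMem hb))⁻¹ D.reverse), e1, e2, map_inv₀, h2] at h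
  exact h

end Level

section Cusp

open Fermat.Agent.RED.BASE.Interface12 Fermat.Agent.RED.BASE.Hauptmodul12
open Fermat.Agent.RED.BASE Fermat.Agent.RED.BASE.EtaQuot12
open Fermat.Agent.RED.BASE.FiniteAvoids14 Fermat.Agent.RED.BASE.FiniteAvoidsM14
open Fermat.Agent.RED.BASE.QExpMem19

variable {n e M : ℕ} [NeZero n] [NeZero M]

/-- every finite cusp value (at level `M`) is the value of `t` at a cusp place of the base level. -/
theorem exists_base_cusp_place (hnM : n ∣ M) (cv : SL(2, ℤ) → Option Kbar)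
    (hcv : CuspExp n e M cv) (hn : TMem n e n) (γ : SL(2, ℤ)) (c : Kbar) (hγ : cv γ = some c) :
    ∃ w₀ : Place Kbar (FF n), w₀.ord (jF n) < 0 ∧
      0 < w₀.ord (tF n hn - algebraMap Kbar (FF n) c) := by
  obtain ⟨h, hshape⟩ := hcv
  have hs := hshape γ
  rw [hγ] at hs
  obtain ⟨k, lam, V, hk, hlam, hV, -, -, hE⟩ := hs
  have hgood := CuspGood.good (cuspData M)
  have hord : 0 < ((cuspData M).T γ (tF M h - algebraMap Kbar (FF M) c)).order := by
    have : (cuspData M).T γ (tF M h - algebraMap Kbar (FF M) c) =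
        HahnSeries.C lam * HahnSeries.single (k : ℤ) 1 * HahnSeries.ofPowerSeries ℤ Kbar V := by
      rw [map_sub, hgood.map_const, hE]
      ring
    rw [this, order_cuspTail k lam hlam.1 V hV]
    exact_mod_cast hk
  obtain ⟨w, hwj, hw⟩ := exists_place_of_order_pos (realizeData M) (cuspData M) γ _ hord
  obtain ⟨w₀, m, hm, hres⟩ := exists_base_place hnM w
  have hm' : (0 : ℤ) < m := by exact_mod_cast hm
  have hj : IntermediateField.inclusion (fbar_mono hnM) (jF n) = jF M := by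
    apply Subtype.ext
    show ((jF n : FF n) : LaurentSeries Kbar) = ((jF M : FF M) : LaurentSeries Kbar)
    rw [coe_jF, coe_jF]
  have ht : IntermediateField.inclusion (fbar_mono hnM) (tF n hn - algebraMap Kbar (FF n) c)
      = tF M h - algebraMap Kbar (FF M) c := by
    rw [map_sub, AlgHom.commutes]
    rfl
  refine ⟨w₀, ?_, ?_⟩
  · have := hres (jF n)
    rw [hj] at this
    by_contra hneg
    rw [not_lt] at hneg
    nlinarith
  · have := hres (tF n hn - algebraMap Kbar (FF n) c)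
    rw [ht] at this
    by_contra hneg
    rw [not_lt] at hneg
    nlinarith

/-- **Finite cusp values are roots of the denominator of `j`.** -/
theorem eval_cusp_eq_zero (hnM : n ∣ M) (cv : SL(2, ℤ) → Option Kbar)
    (hcv : CuspExp n e M cv) (hn : TMem n e n) (N D : Kbar[X])
    (hj : jF n * aeval (tF n hn) D = aeval (tF n hn) N)
    (γ : SL(2, ℤ)) (c : Kbar) (hγ : cv γ = some c) : D.eval c = 0 := by
  obtain ⟨w, hwj, hwt⟩ := exists_base_cusp_place hnM cv hcv hn γ c hγ
  by_contra hDc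
  set x := tF n hn with hx
  -- `x` is finite at `w`
  have hxc : x - algebraMap Kbar (FF n) c ∈ w.toValuationSubring :=
    (ffp_mem_iff_ord_nonneg w).mpr hwt.le
  have hxm : x ∈ w.toValuationSubring := by
    have := add_mem hxc (w.algebraMap_mem' c)
    rwa [sub_add_cancel] at this
  -- `D(x) = D(c) + (x - c) Q(x)`
  obtain ⟨Q, hQ⟩ := Polynomial.X_sub_C_dvd_sub_C_eval (a := c) (p := D)
  have hDx : aeval x D = algebraMap Kbar (FF n) (D.eval c) +
      (x - algebraMap Kbar (FF n) c) * aeval x Q := by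
    have := congrArg (aeval x) hQ
    rw [map_sub, map_mul, map_sub, aeval_X, aeval_C, aeval_C] at this
    linear_combination this
  have hxc0 : x - algebraMap Kbar (FF n) c ≠ 0 := by
    intro h0
    rw [h0, w.ord_zero] at hwt
    exact lt_irrefl _ hwt
  have hord0 : w.ord (aeval x D) = 0 ∧ aeval x D ≠ 0 := by
    have hc0 : algebraMap Kbar (FF n) (D.eval c) ≠ 0 := (_root_.map_ne_zero _).mpr hDc
    have hcord : w.ord (algebraMap Kbar (FF n) (D.eval c)) = 0 := ffp_ord_algebraMap w _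
    rcases eq_or_ne (aeval x Q) 0 with hQ0 | hQ0
    · rw [hDx, hQ0, mul_zero, add_zero]
      exact ⟨hcord, hc0⟩
    · have hlt : w.ord (algebraMap Kbar (FF n) (D.eval c)) <
          w.ord ((x - algebraMap Kbar (FF n) c) * aeval x Q) := by
        rw [hcord, w.ord_mul hxc0 hQ0]
        have := (ffp_mem_iff_ord_nonneg w).mp (aeval_mem_place w hxm Q)
        omega
      have h1 := ffp_ord_add_eq_of_lt w hc0 hlt
      rw [← hDx] at h1
      refine ⟨by rw [h1, hcord], ?_⟩
      intro h0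
      have h2 : algebraMap Kbar (FF n) (D.eval c) =
          -((x - algebraMap Kbar (FF n) c) * aeval x Q) := by
        rw [hDx] at h0
        linear_combination h0
      rw [h2, ffp_ord_neg] at hlt
      exact lt_irrefl _ hlt
  have hj0 : jF n ≠ 0 := by
    intro h0
    apply transcendental_jF (N := n)
    rw [h0]
    exact isAlgebraic_zero
  have := ord_add_nonneg w hxm N D hj0 hord0.2 hj
  rw [hord0.1] at this
  omega

end Cusp


end Fermat.Agent.ES.P36.JDenom16
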