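/-
Program P (S36), chapter (R4) = (D4), ALL FINITE CUSP VALUES at one number field `K` (helper16).
ModelDefs9 vocabulary (`tN = αt`, `yN = βt ∈ F = FK (M' q) K`, charts `B0`, `B1`).

`D0 ∈ ℤ[X]` the denominator of `j = N(t) / D0(t)` (`N ∈ ℚbar[X]` coprime to `D0`), (J) the
`j`-dictionary at level `n q` (hypothesis `hJ`, CuspDict7).  For arbitrary valuation subrings `O1 O2`
with the listed elementary properties (as in `ModEq23`, `CuspIntK16`), PER `K`, no `∃ K₀`: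

* `isIntegral_gD_N`, `isIntegral_gD_inv_N` : `D0(tN)^q / D0(yN)` is integral over `K[tN]`,
  `Dr(tN⁻¹)^q / Dr(yN⁻¹)` over `K[tN⁻¹]` (`Dr = D0.reverse`);
* `aeval_tN_notMem_of_on_both`, `aeval_tN_inv_notMem_of_on_both` : a prime of `B0` (`B1`) lying on
  both components contains neither `D0(tN)` nor `Dr(tN⁻¹)`;
* **(D4)**: `sub_cusp_notMem_B0` (`tN - c ∉ 𝔪`), `one_sub_cusp_mul_notMem_B1` (`1 - c tN⁻¹ ∉ 𝔪`)
  for every root `c ∈ A_K` of `D0`; `aeval_cusp_eq_zero` : every `c ∈ cuspSet A K cv` is such a root.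
-/
import Mathlib
import Fermat.Agent.ES.P36.CuspIntK16
import Fermat.Agent.ES.P36.JDenom16
import Fermat.Agent.ES.P36.CuspPoly16
import Fermat.Agent.RED.ModelTargets4

set_option autoImplicit false
set_option linter.unusedSectionVars false
set_option linter.style.haveILetI false
set_option synthInstance.maxHeartbeats 400000
set_option maxHeartbeats 400000

open ModularCurve IntermediateField AlgebraicCurve Polynomial
open scoped MatrixGroups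

noncomputable section

namespace Fermat.Agent.ES.P36.CuspThirdK16

open Fermat.Agent.X0 Fermat.Agent.RED.Interface4
open Fermat.Agent.RED.BASE.Interface12 Fermat.Agent.RED.BASE.Hauptmodul12
open Fermat.Agent.RED.BASE.EtaQuot12
open Fermat.Agent.ES.N34.ModEqBar23 Fermat.Agent.ES.N34.ModEq23
open Fermat.Agent.ES.P36.CuspInt16 Fermat.Agent.ES.P36.CuspIntK16
open Fermat.Agent.ES.P36.JDenom16 Fermat.Agent.ES.P36.CuspPoly16

/-- the `j`-dictionary (J) at level `n ℓ` (CuspDict7). -/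
def JDict (n ℓ : ℕ) [NeZero n] [NeZero ℓ] : Prop :=
  ∀ v : Place Kbar (FF (n * ℓ)), v.ord (heckeBetaBar Kbar n ℓ (jF n)) < 0 →
    v.ord (heckeAlphaBar Kbar n ℓ (jF n)) < 0 ∧
      -(v.ord (heckeBetaBar Kbar n ℓ (jF n))) ≤
        (ℓ : ℤ) * -(v.ord (heckeAlphaBar Kbar n ℓ (jF n)))

/-- `j = N(t) / D0(t)` at the base level, `D0 ∈ ℤ[X]`, `N` coprime to `D0`. -/
def JFrac (n e : ℕ) [NeZero n] (hb : BaseHyp n e) (N : Kbar[X]) (D0 : ℤ[X]) : Prop :=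
  IsCoprime N (D0.map (Int.castRingHom Kbar)) ∧ D0 ≠ 0 ∧
    jF n * ival D0 (tF n (tMem hb)) = aeval (tF n (tMem hb)) N

theorem map_ne_zero_int {D0 : ℤ[X]} (h : D0 ≠ 0) : D0.map (Int.castRingHom Kbar) ≠ 0 :=
  (Polynomial.map_ne_zero_iff (Int.castRingHom Kbar).injective_int).mpr h

theorem reverse_map_int (D0 : ℤ[X]) :
    (D0.map (Int.castRingHom Kbar)).reverse = D0.reverse.map (Int.castRingHom Kbar) := by
  rw [reverse, reverse, reflect_map,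
    natDegree_map_eq_of_injective (Int.castRingHom Kbar).injective_int]

section Series

variable (K : IntermediateField ℚ Qbar) {n e : ℕ} (ℓ : ℕ) [NeZero n] [NeZero ℓ]

/-- **(INT-D) over `ℚbar`, series form, integer denominator.** -/
theorem isIntegral_gD_tK (hb : BaseHyp n e) (hℓ : ℓ.Prime) (hℓn : ¬ ℓ ∣ n)
    (N : Kbar[X]) (D0 : ℤ[X]) (hND : JFrac n e hb N D0) (hJ : JDict n ℓ) :
    IsIntegral (Algebra.adjoin Kbar {tK n e})
      ((ival D0 (tK n e)) ^ ℓ * (ival D0 (qExpand Kbar ℓ (tK n e)))⁻¹) := by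
  obtain ⟨hcop, hD0, hj⟩ := hND
  have h := isIntegral_gD_series ℓ hb hℓ hℓn N (D0.map (Int.castRingHom Kbar)) hcop
    (map_ne_zero_int hD0) (by rw [aeval_map_int]; exact hj) hJ
  rw [aeval_map_int, aeval_map_int] at h
  exact h

theorem isIntegral_gD_inv_tK (hb : BaseHyp n e) (hℓ : ℓ.Prime) (hℓn : ¬ ℓ ∣ n)
    (N : Kbar[X]) (D0 : ℤ[X]) (hND : JFrac n e hb N D0) (hJ : JDict n ℓ) :
    IsIntegral (Algebra.adjoin Kbar {(tK n e)⁻¹})
      ((ival D0.reverse (tK n e)⁻¹) ^ ℓ * (ival D0.reverse (qExpand Kbar ℓ (tK n e))⁻¹)⁻¹) := by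
  obtain ⟨hcop, hD0, hj⟩ := hND
  have h := isIntegral_gD_inv_series ℓ hb hℓ hℓn N (D0.map (Int.castRingHom Kbar)) hcop
    (map_ne_zero_int hD0) (by rw [aeval_map_int]; exact hj) hJ
  rw [reverse_map_int, aeval_map_int, aeval_map_int] at h
  exact h

/-- **(INT-D) over `K`, series form.** -/
theorem isIntegral_gD_tq (hb : BaseHyp n e) (hℓ : ℓ.Prime) (hℓn : ¬ ℓ ∣ n)
    (N : Kbar[X]) (D0 : ℤ[X]) (hND : JFrac n e hb N D0) (hJ : JDict n ℓ) :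
    IsIntegral (Algebra.adjoin K {tq K n e})
      ((ival D0 (tq K n e)) ^ ℓ * (ival D0 (qExpand K ℓ (tq K n e)))⁻¹) := by
  apply descend
  rw [map_mul, map_pow, map_inv₀, map_ival, map_ival, ModularCurve.coeffMap_qExpand,
    coeffMap_tq]
  exact isIntegral_gD_tK ℓ hb hℓ hℓn N D0 hND hJ

theorem isIntegral_gD_inv_tq (hb : BaseHyp n e) (hℓ : ℓ.Prime) (hℓn : ¬ ℓ ∣ n)
    (N : Kbar[X]) (D0 : ℤ[X]) (hND : JFrac n e hb N D0) (hJ : JDict n ℓ) :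
    IsIntegral (Algebra.adjoin K {(tq K n e)⁻¹})
      ((ival D0.reverse (tq K n e)⁻¹) ^ ℓ * (ival D0.reverse (qExpand K ℓ (tq K n e))⁻¹)⁻¹) := by
  apply descend
  have e1 : coeffMap (algebraMap K Qbar) (tq K n e)⁻¹ = (tK n e)⁻¹ := by
    rw [map_inv₀, coeffMap_tq]
  rw [e1]
  simp only [map_mul, map_pow, map_inv₀, map_ival]
  rw [ModularCurve.coeffMap_qExpand, coeffMap_tq]
  exact isIntegral_gD_inv_tK ℓ hb hℓ hℓn N D0 hND hJ

end Series

section Model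

open Fermat.Agent.ES.N34.ModelDefs9 Fermat.Agent.RED.PUR.ChartGeneric22
open Fermat.Agent.ES.N34.SatIntegral18 Fermat.Agent.ES.N34.NodalCore13
open Fermat.Agent.RED.ModelTargets4

variable (A : ValuationSubring Qbar) {K : IntermediateField ℚ Qbar} {M' : ℕ} (q : ℕ)
  [NeZero M'] [NeZero q] {n e : ℕ} [NeZero n]

theorem coe_ival {k L : Type*} [Field k] [Field L] [Algebra k L] (E : IntermediateField k L)
    (x : E) (P : ℤ[X]) : ((ival P x : E) : L) = ival P (x : L) :=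
  map_ival E.val.toRingHom x P

/-- `D.reverse (x⁻¹) = D(x) · (x⁻¹) ^ deg D`. -/
theorem ival_reverse_inv {L : Type*} [Field L] {x : L} (hx : x ≠ 0) (D : ℤ[X]) :
    ival D.reverse x⁻¹ = ival D x * (x⁻¹) ^ D.natDegree := by
  letI : Invertible x := invertibleOfNonzero hx
  have h := eval₂_reverse_mul_pow (Int.castRingHom L) x D
  rw [invOf_eq_inv] at h
  show D.reverse.eval₂ (Int.castRingHom L) x⁻¹ = D.eval₂ (Int.castRingHom L) x * _
  rw [← h, mul_assoc, ← mul_pow, mul_inv_cancel₀ hx, one_pow, mul_one]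

/-- the unit hypothesis of chart `1` from that of chart `0`. -/
theorem ival_reverse_inv_inv_mem {L : Type*} [Field L] (O : ValuationSubring L) {y : L}
    (hy0 : y ≠ 0) (hy : y ∈ O) (D : ℤ[X]) (hD : (ival D y)⁻¹ ∈ O) :
    (ival D.reverse y⁻¹)⁻¹ ∈ O := by
  rw [ival_reverse_inv hy0, mul_inv, ← inv_pow, inv_inv]
  exact O.mul_mem _ _ hD (pow_mem hy _)

theorem ival_tq_ne_zero (D0 : ℤ[X]) (hD0 : D0 ≠ 0) : ival D0 (tq (↥K) n e) ≠ 0 := by
  intro h0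
  rw [← aeval_map_int (S := ↥K)] at h0
  have := (transcendental_iff.mp
    (Fermat.Agent.RED.BASE.TqTranscendental19.transcendental_tq (↥K) n e)) _ h0
  exact hD0 ((Polynomial.map_eq_zero_iff (Int.castRingHom ↥K).injective_int).mp this)

theorem ival_tq_inv_ne_zero (D0 : ℤ[X]) (hD0 : D0 ≠ 0) : ival D0 (tq (↥K) n e)⁻¹ ≠ 0 := by
  intro h0
  rw [← aeval_map_int (S := ↥K)] at h0
  have := (transcendental_iff.mp
    (Fermat.Agent.RED.BASE.TqTranscendental19.transcendental_tq_inv (↥K) n e)) _ h0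
  exact hD0 ((Polynomial.map_eq_zero_iff (Int.castRingHom ↥K).injective_int).mp this)

theorem ival_yN_ne_zero (ht : tq (↥K) n e ∈ FK M' K) (D0 : ℤ[X]) (hD0 : D0 ≠ 0) :
    ival D0 (yN q ht) ≠ 0 := by
  have h : ival D0 (yN q ht) = beta K M' q (ival D0 (tM ht)) := by
    rw [yN]
    exact (map_ival (beta K M' q).toRingHom (tM ht) D0).symm
  rw [h]
  refine (_root_.map_ne_zero _).mpr ?_
  intro h0
  apply ival_tq_ne_zero (K := K) (n := n) (e := e) D0 hD0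
  have := congrArg (fun x : FK M' K => (x : LaurentSeries ↥K)) h0
  simp only [coe_ival] at this
  exact this

theorem ival_yN_inv_ne_zero (ht : tq (↥K) n e ∈ FK M' K) (D0 : ℤ[X]) (hD0 : D0 ≠ 0) :
    ival D0 (yN q ht)⁻¹ ≠ 0 := by
  have h : ival D0 (yN q ht)⁻¹ = beta K M' q (ival D0 (tM ht)⁻¹) := by
    rw [yN, ← map_inv₀]
    exact (map_ival (beta K M' q).toRingHom (tM ht)⁻¹ D0).symm
  rw [h]
  refine (_root_.map_ne_zero _).mpr ?_
  intro h0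
  apply ival_tq_inv_ne_zero (K := K) (n := n) (e := e) D0 hD0
  have := congrArg (fun x : FK M' K => (x : LaurentSeries ↥K)) h0
  simp only [coe_ival] at this
  exact this

/-- **(INT-D) in `F = FK (M' q) K`.** -/
theorem isIntegral_gD_N (hb : BaseHyp n e) (hq : q.Prime) (hqn : ¬ q ∣ n)
    (ht : tq (↥K) n e ∈ FK M' K)
    (N : Kbar[X]) (D0 : ℤ[X]) (hND : JFrac n e hb N D0) (hJ : JDict n q) :
    IsIntegral (Algebra.adjoin K {tN q ht})
      ((ival D0 (tN q ht)) ^ q * (ival D0 (yN q ht))⁻¹) := by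
  refine isIntegral_of_coe_eq K _ (coe_tN q ht) ?_ (isIntegral_gD_tq K q hb hq hqn N D0 hND hJ)
  rw [IntermediateField.coe_mul, IntermediateField.coe_pow, IntermediateField.coe_inv, coe_ival,
    coe_ival, coe_tN, coe_yN]

/-- **(INT-D) in `F`, chart at infinity.** -/
theorem isIntegral_gD_inv_N (hb : BaseHyp n e) (hq : q.Prime) (hqn : ¬ q ∣ n)
    (ht : tq (↥K) n e ∈ FK M' K)
    (N : Kbar[X]) (D0 : ℤ[X]) (hND : JFrac n e hb N D0) (hJ : JDict n q) :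
    IsIntegral (Algebra.adjoin K {(tN q ht)⁻¹})
      ((ival D0.reverse (tN q ht)⁻¹) ^ q * (ival D0.reverse (yN q ht)⁻¹)⁻¹) := by
  refine isIntegral_of_coe_eq K _ ?_ ?_ (isIntegral_gD_inv_tq K q hb hq hqn N D0 hND hJ)
  · rw [IntermediateField.coe_inv, coe_tN]
  · rw [IntermediateField.coe_mul, IntermediateField.coe_pow, IntermediateField.coe_inv, coe_ival,
      coe_ival, IntermediateField.coe_inv, IntermediateField.coe_inv, coe_tN, coe_yN]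

set_option maxHeartbeats 4000000 in
/-- **(D4) for the denominator, chart `0`**: a prime of `B0` lying on both components does not
contain `D0(tN)`. -/
theorem ival_tN_notMem_of_on_both (hb : BaseHyp n e) (hq : q.Prime) (hqn : ¬ q ∣ n)
    (ht : tq (↥K) n e ∈ FK M' K) (π : ↥(AK A K))
    (dvrR : ∀ r : ↥(AK A K), r ≠ 0 → ∃ (k : ℕ) (v : (↥(AK A K))ˣ), r = π ^ k * v)
    (hqπ : π ∣ (q : ↥(AK A K)))
    (O1 O2 : ValuationSubring ↥(FK (M' * q) K))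
    (leO1 : ∀ b ∈ B0 A q ht, b ∈ O1) (leO2 : ∀ b ∈ B0 A q ht, b ∈ O2)
    (sat0 : ∀ b ∈ B0 A q ht, ∀ c : ↥(FK (M' * q) K), c ∈ O1 → c ∈ O2 →
      b = algebraMap ↥(AK A K) ↥(FK (M' * q) K) π * c → c ∈ B0 A q ht)
    (hyB : yN q ht ∈ B0 A q ht)
    (N : Kbar[X]) (D0 : ℤ[X]) (hND : JFrac n e hb N D0) (hJ : JDict n q)
    (hD1 : (ival D0 (yN q ht))⁻¹ ∈ O1) (hD2 : (ival D0 (yN q ht))⁻¹ ∈ O2)
    (hK1 : ∃ o ∈ O1, yN q ht - (tN q ht) ^ q =
      algebraMap ↥(AK A K) ↥(FK (M' * q) K) π * o)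
    (hK2 : ∃ o ∈ O2, tN q ht - (yN q ht) ^ q =
      algebraMap ↥(AK A K) ↥(FK (M' * q) K) π * o)
    (𝔪 : Ideal ↥(B0 A q ht)) (h𝔪 : 𝔪 ≠ ⊤)
    (h1 : ¬ OffBranch π (B0 A q ht) O1 𝔪) (h2 : ¬ OffBranch π (B0 A q ht) O2 𝔪) :
    (⟨ival D0 (tN q ht), ival_mem_subalgebra (B0 A q ht) (self_mem_chart (tN q ht)) D0⟩ :
      ↥(B0 A q ht)) ∉ 𝔪 :=
  ival_notMem_of_on_both (R := ↥(AK A K)) (K := ↥K) (F := ↥(FK (M' * q) K)) π dvrR
    (tN q ht) (yN q ht) O1 O2 leO1 leO2 sat0 hyB q hq hqπ D0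
    (isIntegral_gD_N q hb hq hqn ht N D0 hND hJ) (ival_yN_ne_zero q ht D0 hND.2.1) hD1 hD2
    hK1 hK2 𝔪 h𝔪 h1 h2

set_option maxHeartbeats 4000000 in
/-- **(D4) for the denominator, chart `1`**: a prime of `B1` lying on both components does not
contain `Dr(tN⁻¹)`, `Dr = D0.reverse`. -/
theorem ival_tN_inv_notMem_of_on_both (hb : BaseHyp n e) (hq : q.Prime) (hqn : ¬ q ∣ n)
    (ht : tq (↥K) n e ∈ FK M' K) (π : ↥(AK A K))
    (dvrR : ∀ r : ↥(AK A K), r ≠ 0 → ∃ (k : ℕ) (v : (↥(AK A K))ˣ), r = π ^ k * v)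
    (hqπ : π ∣ (q : ↥(AK A K)))
    (O1 O2 : ValuationSubring ↥(FK (M' * q) K))
    (leO1 : ∀ b ∈ B1 A q ht, b ∈ O1) (leO2 : ∀ b ∈ B1 A q ht, b ∈ O2)
    (sat1 : ∀ b ∈ B1 A q ht, ∀ c : ↥(FK (M' * q) K), c ∈ O1 → c ∈ O2 →
      b = algebraMap ↥(AK A K) ↥(FK (M' * q) K) π * c → c ∈ B1 A q ht)
    (hyB : (yN q ht)⁻¹ ∈ B1 A q ht)
    (N : Kbar[X]) (D0 : ℤ[X]) (hND : JFrac n e hb N D0) (hJ : JDict n q)
    (hD1 : (ival D0.reverse (yN q ht)⁻¹)⁻¹ ∈ O1) (hD2 : (ival D0.reverse (yN q ht)⁻¹)⁻¹ ∈ O2)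
    (hK1 : ∃ o ∈ O1, (yN q ht)⁻¹ - ((tN q ht)⁻¹) ^ q =
      algebraMap ↥(AK A K) ↥(FK (M' * q) K) π * o)
    (hK2 : ∃ o ∈ O2, (tN q ht)⁻¹ - ((yN q ht)⁻¹) ^ q =
      algebraMap ↥(AK A K) ↥(FK (M' * q) K) π * o)
    (𝔪 : Ideal ↥(B1 A q ht)) (h𝔪 : 𝔪 ≠ ⊤)
    (h1 : ¬ OffBranch π (B1 A q ht) O1 𝔪) (h2 : ¬ OffBranch π (B1 A q ht) O2 𝔪) :
    (⟨ival D0.reverse (tN q ht)⁻¹,
      ival_mem_subalgebra (B1 A q ht) (self_mem_chart (tN q ht)⁻¹) D0.reverse⟩ :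
      ↥(B1 A q ht)) ∉ 𝔪 :=
  ival_notMem_of_on_both (R := ↥(AK A K)) (K := ↥K) (F := ↥(FK (M' * q) K)) π dvrR
    (tN q ht)⁻¹ (yN q ht)⁻¹ O1 O2 leO1 leO2 sat1 hyB q hq hqπ D0.reverse
    (isIntegral_gD_inv_N q hb hq hqn ht N D0 hND hJ)
    (ival_yN_inv_ne_zero q ht D0.reverse (by rw [Ne, reverse_eq_zero]; exact hND.2.1)) hD1 hD2
    hK1 hK2 𝔪 h𝔪 h1 h2

/-- **Every finite cusp value in `A_K` is a root of `D0`.** -/
theorem ival_cusp_eq_zero (hb : BaseHyp n e) {M : ℕ} [NeZero M] (hnM : n ∣ M)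
    (cv : SL(2, ℤ) → Option Kbar) (hcv : CuspExp n e M cv)
    (N : Kbar[X]) (D0 : ℤ[X]) (hND : JFrac n e hb N D0)
    (c : ↥(AK A K)) (hc : c ∈ cuspSet A K cv) : ival D0 c = 0 := by
  obtain ⟨γ, hγ⟩ := hc
  have h := eval_cusp_eq_zero hnM cv hcv (tMem hb) N (D0.map (Int.castRingHom Kbar))
    (by rw [aeval_map_int]; exact hND.2.2) γ _ hγ
  rw [Polynomial.eval_map] at h
  set g : ↥(AK A K) →+* Qbar := (algebraMap ↥K Qbar).comp (AK A K).subtype with hg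
  have h2 : g (ival D0 c) = 0 := by
    rw [map_ival]; exact h
  have hginj : Function.Injective g :=
    (algebraMap ↥K Qbar).injective.comp Subtype.val_injective
  exact hginj (by rw [h2, map_zero])

/-- **(D4), chart `0`, all finite cusp values**: a prime of `B0` lying on both components contains
no `tN - c`, `c` a root of `D0` in `A_K` (e.g. `c ∈ cuspSet A K cv`, `ival_cusp_eq_zero`). -/
theorem sub_cusp_notMem_B0 (ht : tq (↥K) n e ∈ FK M' K) (D0 : ℤ[X])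
    (𝔪 : Ideal ↥(B0 A q ht))
    (hx : (⟨ival D0 (tN q ht), ival_mem_subalgebra (B0 A q ht) (self_mem_chart (tN q ht)) D0⟩ :
      ↥(B0 A q ht)) ∉ 𝔪)
    (c : ↥(AK A K)) (hc : ival D0 c = 0) :
    (⟨tN q ht - algebraMap ↥(AK A K) ↥(FK (M' * q) K) c,
      (B0 A q ht).sub_mem (self_mem_chart (tN q ht)) ((B0 A q ht).algebraMap_mem c)⟩ :
      ↥(B0 A q ht)) ∉ 𝔪 :=
  sub_notMem_of_root (R := ↥(AK A K)) (F := ↥(FK (M' * q) K)) (tN q ht) D0 𝔪 hx c hc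

/-- **(D4), chart `1`, all finite cusp values**: a prime of `B1` lying on both components contains
no `1 - c tN⁻¹`, `c` a root of `D0` in `A_K`. -/
theorem one_sub_cusp_mul_notMem_B1 (ht : tq (↥K) n e ∈ FK M' K) (D0 : ℤ[X])
    (𝔪 : Ideal ↥(B1 A q ht))
    (hx : (⟨ival D0.reverse (tN q ht)⁻¹,
      ival_mem_subalgebra (B1 A q ht) (self_mem_chart (tN q ht)⁻¹) D0.reverse⟩ :
      ↥(B1 A q ht)) ∉ 𝔪)
    (c : ↥(AK A K)) (hc : ival D0 c = 0) :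
    (⟨1 - algebraMap ↥(AK A K) ↥(FK (M' * q) K) c * (tN q ht)⁻¹,
      (B1 A q ht).sub_mem (B1 A q ht).one_mem
        ((B1 A q ht).mul_mem ((B1 A q ht).algebraMap_mem c) (self_mem_chart (tN q ht)⁻¹))⟩ :
      ↥(B1 A q ht)) ∉ 𝔪 :=
  one_sub_mul_notMem_of_root (R := ↥(AK A K)) (F := ↥(FK (M' * q) K)) (tN q ht)⁻¹ D0 𝔪
    hx c hc

end Model

end Fermat.Agent.ES.P36.CuspThirdK16
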