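/-
Program P (S36), chapter (R4) = (D4), THIRD CUSPS: the unit hypotheses (helper16).

`D0 ∈ ℤ[X]` primitive, `A` over the prime `q`.  Then `D0(t)` is a Gauss unit of `K((q))`
(`ival_tq_inv_mem_gaussRing`: its reduction `D0(t̄)` is non-zero because `t̄` is transcendental over the
residue field and `D0 mod q ≠ 0`).  Consequences for the concrete vertical valuation rings
`O1, O2` of `ModelDefs9` (level `M' q`):
* `ival_tN_inv_mem_O1`, `ival_yN_inv_mem_O2` (positions of `α`, `β`);
* `ival_yN_inv_mem_O1` (Kronecker partner of a unit, `CuspPoly16.inv_mem_of_kron`);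
* the chart-`1` forms `ival_reverse_yN_inv_mem_O1/_O2`.
-/
import Mathlib
import Fermat.Agent.ES.P36.CuspThirdK16
import Fermat.Agent.ES.N34.BranchInt5
import Fermat.Agent.RED.DESC.NumberFieldDVR27

set_option autoImplicit false
set_option linter.unusedSectionVars false
set_option linter.style.haveILetI false
set_option synthInstance.maxHeartbeats 400000
set_option maxHeartbeats 400000

open ModularCurve IntermediateField Polynomial

noncomputable section

namespace Fermat.Agent.ES.P36.CuspUnit16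

open Fermat.Agent.X0 Fermat.Agent.RED.Interface4 Fermat.Agent.RED.PUR.GaussGen8
open Fermat.Agent.RED.BASE.EtaQuot12 Fermat.Agent.RED.ModelTargets4
open Fermat.Agent.ES.P36.CuspPoly16 Fermat.Agent.ES.P36.CuspThirdK16
open Fermat.Agent.ES.N34.ModelDefs9

section Generic

variable {K : Type*} [Field K] (O : ValuationSubring K) (n e : ℕ) [NeZero n]

/-- a primitive integer polynomial is non-zero modulo a prime. -/
theorem map_ne_zero_of_isPrimitive {k : Type*} [Field k] (q : ℕ) [CharP k q] (hq : q.Prime)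
    {D0 : ℤ[X]} (hprim : D0.IsPrimitive) : D0.map (Int.castRingHom k) ≠ 0 := by
  intro h0
  have hdvd : C (q : ℤ) ∣ D0 := by
    rw [Polynomial.C_dvd_iff_dvd_coeff]
    intro i
    have h2 := congrArg (fun f => f.coeff i) h0
    simp only [coeff_map, coeff_zero, eq_intCast] at h2
    exact (CharP.intCast_eq_zero_iff k q _).mp h2
  have hu := hprim (q : ℤ) hdvd
  rw [Int.isUnit_iff] at hu
  have h2 : (2 : ℤ) ≤ q := by exact_mod_cast hq.two_le
  omega

/-- **`D0(t)` is a Gauss unit.** -/
theorem ival_tq_inv_mem_gaussRing (q : ℕ) [CharP (Res O) q] (hq : q.Prime)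
    {D0 : ℤ[X]} (hprim : D0.IsPrimitive) : (ival D0 (tq K n e))⁻¹ ∈ gaussRing O := by
  set tG : gaussRing O := ⟨tq K n e, tq_mem_gaussRing O n e⟩ with htG
  have hcoe : ((ival D0 tG : gaussRing O) : LaurentSeries K) = ival D0 (tq K n e) :=
    map_ival (gaussRing O).subtype tG D0
  have hred : gaussRed O (ival D0 tG) ≠ 0 := by
    rw [map_ival, gaussRed_tq, ← aeval_map_int (S := Res O)]
    intro h0
    have := (transcendental_iff.mp
      (Fermat.Agent.RED.BASE.TqTranscendental19.transcendental_tq (Res O) n e)) _ h0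
    exact map_ne_zero_of_isPrimitive q hq hprim this
  have := inv_mem_of_gaussRed_ne_zero O (ival D0 tG) hred
  rwa [hcoe] at this

end Generic

section Model

open Fermat.Agent.ES.N34.BranchInt5 Fermat.Agent.ES.N34.FrickeFK8

variable {A : ValuationSubring Qbar} {K : IntermediateField ℚ Qbar} (M' q : ℕ)
  [NeZero M'] [NeZero q] {n e : ℕ} [NeZero n]
  {π : ↥(AK A K)} (hu : IsUnif (AK A K) π) (hE : FK (M' * q) K ≤ fracField (AK A K))

/-- `D0(tN)` is a unit of `O1`. -/
theorem ival_tN_inv_mem_O1 [CharP (Res (AK A K)) q] (hq : q.Prime)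
    (ht : tq (↥K) n e ∈ FK M' K) {D0 : ℤ[X]} (hprim : D0.IsPrimitive) :
    (ival D0 (tN q ht))⁻¹ ∈ O1 M' q hu hE := by
  have h : (ival D0 (tN q ht))⁻¹ = alpha K M' q (ival D0 (tM ht))⁻¹ := by
    rw [map_inv₀, tN]
    congr 1
    exact (map_ival (alpha K M' q).toRingHom (tM ht) D0).symm
  rw [h, alpha_mem_O1_iff, IntermediateField.coe_inv, coe_ival, coe_tM]
  exact ival_tq_inv_mem_gaussRing (AK A K) n e q hq hprim

/-- `D0(yN)` is a unit of `O2`. -/
theorem ival_yN_inv_mem_O2 [CharP (Res (AK A K)) q] (hq : q.Prime)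
    (hiso : ∀ x : FK M' K, (x : LaurentSeries ↥K) ∈ gaussRing (AK A K) ↔
      ((frickeFK M' K x : FK M' K) : LaurentSeries ↥K) ∈ gaussRing (AK A K))
    (ht : tq (↥K) n e ∈ FK M' K) {D0 : ℤ[X]} (hprim : D0.IsPrimitive) :
    (ival D0 (yN q ht))⁻¹ ∈ O2 M' q hu hE := by
  have h : (ival D0 (yN q ht))⁻¹ = beta K M' q (ival D0 (tM ht))⁻¹ := by
    rw [map_inv₀, yN]
    congr 1
    exact (map_ival (beta K M' q).toRingHom (tM ht) D0).symm
  rw [h, beta_mem_O2_iff M' q hu hE hiso, IntermediateField.coe_inv, coe_ival, coe_tM]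
  exact ival_tq_inv_mem_gaussRing (AK A K) n e q hq hprim

end Model

end Fermat.Agent.ES.P36.CuspUnit16
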