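/-
Program P (S36), interface chapter "K₀ ≤ fixed field of inertia", brick (F3)/(K4) (helper26).

The finite cusp values of the Hauptmodul `t = tq n e` at level `M` (`n ∣ M`, data `cv` with
`MainCusp12.CuspExports n e M cv`) are FIXED by the inertia group at `A | ℓ`, `ℓ ∤ n`.

Soft proof (helper4's (F3)): `Gal(ℚ̄/ℚ)` acts coefficientwise on `ℚ̄·F_M`, fixing `t` and `j`
(rational coefficients) and permuting the places; the finite cusp values are exactly the values of
`t` at the places over `j = ∞` (`CuspSurj.exists_cuspPlace_eq`), so `τ c` is again a cusp value;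
two distinct cusp values are incongruent mod `𝔪_A` (`CuspSeparated`, `ℓ ∤ n`) while
`τ c ≡ c mod 𝔪_A` for `τ` in the inertia group.  Hence `τ c = c`.

Consequence: `exists_cuspValue_field_unr` — a finite extension `K₀` of `ℚ` containing all finite
cusp values and fixed pointwise by inertia (replacement of `HunrConcrete5.exists_cuspValue_field`
with control of the field).
-/
import Mathlib
import Fermat.Agent.RED.CUSP.CuspFibre14
import Fermat.Agent.RED.CUSP.HunrConcrete5
import Fermat.Agent.RED.BASE.MainCusp12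
import Fermat.Agent.ES.GAL.OpenStab12
import Fermat.Agent.S05.Inertia

set_option autoImplicit false

open scoped MatrixGroups IntermediateField

namespace Fermat.Agent.ES.P36.CuspValUnr26

open Fermat.Agent.X0 Fermat.Agent.X0.FF AlgebraicCurve ModularCurve
open Fermat.Agent.RED.BASE.Interface12 Fermat.Agent.RED.BASE.EtaQuot12
open Fermat.Agent.RED.CUSP.CuspFibre14 Fermat.Agent.RED.BASE

variable {n e M : ℕ} [NeZero n] [NeZero M]

/-- the coefficientwise Galois action on `ℚ̄·F_M`. -/
noncomputable abbrev galB (M : ℕ) (τ : Kbar ≃ₐ[ℚ] Kbar) : SemilinearAut Kbar (FF M) :=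
  arithmeticGalois (modularFunctionFieldFull M) τ

/-- `t` has rational coefficients: fixed by the coefficientwise Galois action. -/
theorem galB_smul_tF (h : TMem n e M) (τ : Kbar ≃ₐ[ℚ] Kbar) :
    galB M τ • tF M h = tF M h := by
  apply Subtype.ext
  rw [coe_arithmeticGalois_smul]
  exact coeffMap_tq Kbar (τ : Kbar →+* Kbar) n e

theorem galB_smul_const (τ : Kbar ≃ₐ[ℚ] Kbar) (c : Kbar) :
    galB M τ • algebraMap Kbar (FF M) c = algebraMap Kbar (FF M) (τ c) :=
  arithmeticRingAut_algebraMap (modularFunctionFieldFull M) τ c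

theorem galB_smul_sub (τ : Kbar ≃ₐ[ℚ] Kbar) (x y : FF M) :
    galB M τ • (x - y) = galB M τ • x - galB M τ • y := by
  rw [SemilinearAut.smul_def, SemilinearAut.smul_def, SemilinearAut.smul_def, map_sub]

/-- **Galois permutes the finite cusp values.** -/
theorem exists_cv_eq_apply (cv : SL(2, ℤ) → Option Kbar) (hcv : MainCusp12.CuspExports n e M cv)
    (γ : SL(2, ℤ)) (c : Kbar) (hγ : cv γ = some c) (τ : Kbar ≃ₐ[ℚ] Kbar) :
    ∃ γ' : SL(2, ℤ), cv γ' = some (τ c) := by
  obtain ⟨h, hshape⟩ := hcv.cuspExp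
  -- the cusp place of `γ`
  have hs := hshape γ
  rw [hγ] at hs
  set v : Place Kbar (FF M) := cuspPlace (CuspGood.good (cuspData M)) γ⁻¹ with hv
  have hpos : 0 < v.ord (tF M h - algebraMap Kbar (FF M) c) :=
    ord_sub_pos_of_shape_some (realizeData M) (cuspData M) n γ (tF M h) c hs
  have hj : v.ord (jF M) < 0 := by
    obtain ⟨h', H⟩ := hcv.cuspPlaces
    exact H v γ c hγ hpos
  -- transport by Galois
  set g := galB M τ with hg
  have hpos' : 0 < (g • v).ord (tF M h - algebraMap Kbar (FF M) (τ c)) := by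
    have := SemilinearAut.ord_smul g v (tF M h - algebraMap Kbar (FF M) c)
    rw [galB_smul_sub, galB_smul_tF, galB_smul_const] at this
    rw [this]
    exact hpos
  have hj' : (g • v).ord (jF M) < 0 := by
    have := SemilinearAut.ord_smul g v (jF M)
    rw [hg, Fermat.Agent.ES.GAL.OpenStab12.arithmeticGalois_smul_jF] at this
    rw [hg, this]
    exact hj
  -- the new place is a cusp place
  have := Degree.finiteDimensional_adjoin M (realizeData M) (cuspData M)
  obtain ⟨g', hg'⟩ := CuspSurj.exists_cuspPlace_eq (CuspGood.good (cuspData M))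
    (Degree.card_eq_finrank_adjoin M (realizeData M) (cuspData M)) (g • v) hj'
  refine ⟨g'⁻¹, ?_⟩
  have hs' := hshape g'⁻¹
  rcases hcg : cv g'⁻¹ with _ | c'
  · exfalso
    rw [hcg] at hs'
    have hneg := ord_neg_of_shape_none (realizeData M) (cuspData M) n g'⁻¹ (tF M h) hs'
    rw [inv_inv, hg'] at hneg
    have h1 : tF M h - algebraMap Kbar (FF M) (τ c) ∈ (g • v).toValuationSubring :=
      (ffp_mem_iff_ord_nonneg (g • v)).mpr (le_of_lt hpos')
    have h2 : algebraMap Kbar (FF M) (τ c) ∈ (g • v).toValuationSubring :=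
      (ffp_mem_iff_ord_nonneg (g • v)).mpr (le_of_eq (ffp_ord_algebraMap (g • v) (τ c)).symm)
    have h3 := (g • v).toValuationSubring.add_mem _ _ h1 h2
    rw [sub_add_cancel] at h3
    have := (ffp_mem_iff_ord_nonneg (g • v)).mp h3
    omega
  · rw [hcg] at hs'
    have hpos'' := ord_sub_pos_of_shape_some (realizeData M) (cuspData M) n g'⁻¹ (tF M h) c' hs'
    rw [inv_inv, hg'] at hpos''
    rw [eq_of_ord_sub_pos (g • v) (tF M h) (τ c) c' hpos' hpos'']

/-- powers of an automorphism fixing `c` fix `c`. -/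
theorem zpow_fixes {τ : Kbar ≃ₐ[ℚ] Kbar} {c : Kbar} (h : τ c = c) (k : ℤ) : (τ ^ k) c = c := by
  have hinv : τ⁻¹ c = c := by
    have := congrArg (τ⁻¹ : Kbar ≃ₐ[ℚ] Kbar) h
    rw [← AlgEquiv.mul_apply, inv_mul_cancel, AlgEquiv.one_apply] at this
    exact this.symm
  induction k using Int.induction_on with
  | zero => simp
  | succ i ih => rw [zpow_add_one, AlgEquiv.mul_apply, h]; exact ih
  | pred i ih => rw [zpow_sub_one, AlgEquiv.mul_apply, hinv]; exact ih

variable {A : ValuationSubring Kbar}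

/-- **(F3)** the finite cusp values are fixed by the inertia group at `A | ℓ`, `ℓ ∤ n`. -/
theorem cuspValue_fixed {ℓ : ℕ} (hℓ : ℓ.Prime) (hA : A.LiesOverPrime ℓ) (hℓn : ¬ ℓ ∣ n)
    (cv : SL(2, ℤ) → Option Kbar) (hcv : MainCusp12.CuspExports n e M cv)
    (γ : SL(2, ℤ)) (c : Kbar) (hγ : cv γ = some c) {τ : Kbar ≃ₐ[ℚ] Kbar}
    (hτ : τ ∈ A.inertiaSubgroupIn ℚ) : τ c = c := by
  obtain ⟨γ', hγ'⟩ := exists_cv_eq_apply cv hcv γ c hγ τ
  obtain ⟨h, hshape⟩ := hcv.cuspExp
  have hcA : c ∈ A :=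
    Fermat.Agent.RED.CUSP.HunrConcrete5.cuspValue_mem hℓ hA hℓn cv h hshape γ c hγ
  have hmove : τ c - c ∈ A.nonunits := Fermat.Agent.S05.Inertia.apply_sub_mem_nonunits hτ hcA
  rcases hcv.separated γ' γ (τ c) c hγ' hγ with heq | hunit
  · exact heq
  · exfalso
    -- a unit away from `n` is a unit of `A`
    obtain ⟨hne, hint, hintinv⟩ := hunit
    have hnA : ((n : Kbar))⁻¹ ∈ A := Fermat.Agent.RED.NumInst4.inv_natCast_mem hℓ hA n hℓn
    have h2 : (τ c - c)⁻¹ ∈ A := hintinv.mem_of_inv_mem A hnA (NeZero.ne n)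
    have hv : A.valuation (τ c - c) < 1 := (ValuationSubring.mem_nonunits_iff (A := A)).mp hmove
    have hv2 : A.valuation (τ c - c)⁻¹ ≤ 1 := (ValuationSubring.valuation_le_one_iff A _).mpr h2
    have hv0 : A.valuation (τ c - c) ≠ 0 := (Valuation.ne_zero_iff _).mpr hne
    have hmul : A.valuation (τ c - c) * A.valuation (τ c - c)⁻¹ = 1 := by
      rw [← map_mul, mul_inv_cancel₀ hne, map_one]
    have hlt : A.valuation (τ c - c) * A.valuation (τ c - c)⁻¹ < 1 := by
      calc A.valuation (τ c - c) * A.valuation (τ c - c)⁻¹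
          ≤ A.valuation (τ c - c) * 1 := mul_le_mul_right hv2 _
        _ = A.valuation (τ c - c) := mul_one _
        _ < 1 := hv
    rw [hmul] at hlt
    exact lt_irrefl _ hlt

/-- **(K4) with control of the field**: a finite extension of `ℚ` containing all finite cusp values
and fixed pointwise by the inertia group at `A | ℓ` (`ℓ ∤ n`). -/
theorem exists_cuspValue_field_unr {ℓ : ℕ} (hℓ : ℓ.Prime) (hA : A.LiesOverPrime ℓ) (hℓn : ¬ ℓ ∣ n)
    (cv : SL(2, ℤ) → Option Kbar) (hcv : MainCusp12.CuspExports n e M cv) :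
    ∃ K₀ : IntermediateField ℚ Kbar, FiniteDimensional ℚ K₀ ∧
      (∀ (γ : SL(2, ℤ)) (c : Kbar), cv γ = some c → c ∈ K₀) ∧
      ∀ τ ∈ A.inertiaSubgroupIn ℚ, ∀ x ∈ K₀, τ x = x := by
  obtain ⟨S, hS⟩ := CuspFinite12.exists_finset_cuspValues cv hcv.cuspExp
  -- only the actual cusp values
  classical
  set S' : Finset Kbar := S.filter (fun c => ∃ γ, cv γ = some c) with hS'
  refine ⟨IntermediateField.adjoin ℚ (S' : Set Kbar), ?_, ?_, ?_⟩
  · exact IntermediateField.finiteDimensional_adjoin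
      (fun x _ => Algebra.IsIntegral.isIntegral x)
  · intro γ c hγ
    apply IntermediateField.subset_adjoin
    rw [hS', Finset.coe_filter]
    exact ⟨hS γ c hγ, γ, hγ⟩
  · intro τ hτ x hx
    have hle : IntermediateField.adjoin ℚ (S' : Set Kbar) ≤
        IntermediateField.fixedField (Subgroup.zpowers τ) := by
      rw [IntermediateField.adjoin_le_iff]
      intro c hc
      rw [hS', Finset.coe_filter] at hc
      obtain ⟨-, γ, hγ⟩ := hc
      have hfix : τ c = c := cuspValue_fixed hℓ hA hℓn cv hcv γ c hγ hτ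
      rintro ⟨σ, hσ⟩
      obtain ⟨k, rfl⟩ := Subgroup.mem_zpowers_iff.mp hσ
      show (τ ^ k) c = c
      exact zpow_fixes hfix k
    exact hle hx ⟨τ, Subgroup.mem_zpowers τ⟩

end Fermat.Agent.ES.P36.CuspValUnr26
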