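/-
Scouting brick for S36 (Carayol at `q² ∥ M`), field-form contract (helper17; PROVISIONAL — helper1 owns the
note `S36_NOTE1.md`; rename / take over at GO).

`FixBar c q N₀ A` : **(K_c) over `ℚ̄` at level `N₀ q²` (`q ∤ N₀`), Kummer form.**  For `m` prime to `q` and
`f ∈ Fbar (N₀ q²)^×` with `div f = m D`:
 * `[D]` fixed by the inertia group `I_A`  ⇔  `τ f / f = κ_τ h_τ ^ m` for every `τ ∈ I_A`;
 * `α_* [D] = 0 = β_* [D]` (the two degeneracy push-forwards to level `N₀ q`)  ⇔  (E): the norms of `f` along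
   `heckeAlphaBar Qbar (N₀ q) q`, `heckeBetaBar Qbar (N₀ q) q` are constants times `m`-th powers;
 * conclusion `c • [D] = 0`  ⇔  `f ^ c = κ s ^ m`.
Same conventions as `ES/N35/IfaceO13` (norm = `BaseChange19.normAlong`, side conditions `≠ 0` explicit).
-/
import Mathlib
import Fermat.Agent.ES.N34.IfaceN4
import Fermat.Agent.ES.HECKE.BaseChange19
import Fermat.Prelude.Def_ModularCurve_HeckeOperator
import Fermat.Prelude.Def_FLTPrelim_Ramification

set_option autoImplicit false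
set_option synthInstance.maxHeartbeats 400000

open HahnSeries AlgebraicCurve ModularCurve

noncomputable section

namespace Fermat.Agent.ES.P36.IfaceP17

open Fermat.Agent.RED.Interface4 Fermat.Agent.ES.N34.IfaceN4
open Fermat.Agent.ES.HECKE.BaseChange19 (normAlong)

/-- **(K_c) over `ℚ̄` at level `N₀ q²`, Kummer form.** -/
def FixBar (c q N₀ : ℕ) [NeZero N₀] [NeZero q] (A : ValuationSubring Qbar) : Prop :=
  ∀ m : ℕ, ¬ q ∣ m → ∀ f : Fbar (N₀ * q * q), f ≠ 0 →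
    (∀ v : Place Qbar (Fbar (N₀ * q * q)), (m : ℤ) ∣ v.ord f) →
    (∀ τ ∈ A.inertiaSubgroupIn ℚ, ∃ (κ : Qbar) (h : Fbar (N₀ * q * q)), κ ≠ 0 ∧ h ≠ 0 ∧
      gB (N₀ * q * q) τ f = κ • (f * h ^ m)) →
    (∃ (κ : Qbar) (g : Fbar (N₀ * q)), κ ≠ 0 ∧ g ≠ 0 ∧
      normAlong (heckeAlphaBar Qbar (N₀ * q) q) f = κ • g ^ m) →
    (∃ (κ : Qbar) (g : Fbar (N₀ * q)), κ ≠ 0 ∧ g ≠ 0 ∧
      normAlong (heckeBetaBar Qbar (N₀ * q) q) f = κ • g ^ m) →
    ∃ (κ : Qbar) (s : Fbar (N₀ * q * q)), κ ≠ 0 ∧ s ≠ 0 ∧ f ^ c = κ • s ^ m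

/-- **(K_c) at all auxiliary levels** (`4 ∣ M'` for odd `q`, `9 ∣ M'` for `q = 2`): the output of
NUM-P + DESC-P, the input of LVL-P. -/
def FixBarAll (c : ℕ → ℕ) : Prop :=
  ∀ (q M' : ℕ) [NeZero M'] [NeZero q] (A : ValuationSubring Qbar), q.Prime → ¬ q ∣ M' →
    (if q = 2 then 9 ∣ M' else 4 ∣ M') → A.LiesOverPrime q → FixBar (c q) q M' A

end Fermat.Agent.ES.P36.IfaceP17

end
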