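/-
Program P (S36), chapter INERT-P, base brick (helper27): **inertial number fields**.

In Program P the number field `K ⊂ ℚ̄` must be UNRAMIFIED at the valuation ring `A` over `q` (so that `q`
is a uniformiser of `A ∩ K`), hence it can not be taken normal over `ℚ` as in Programs N/O
(`ModelN4.Large`).  Normality was only used there to restrict the inverse of a Frobenius element to
`K` (`KronChart15.exists_frobInv`).  The substitute:

`IsInertial A K` : every `τ` in the inertia group of `A` fixes `K` pointwise, and `σ(K) ⊆ K` for every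
`σ` in the decomposition group of `A`.

* `isInertial_inf` : for `N` normal over `ℚ` and ANY `L` that is fixed pointwise by inertia and
  stable under the decomposition group (e.g. the inertia field itself), `N ⊓ L` … we give the
  concrete form `inertiaPart A N := {x ∈ N | ∀ τ ∈ I_A, τ x = x}` as an intermediate field;
* `isInertial_inertiaPart`, `le_inertiaPart` : it is inertial and contains every `I_A`-fixed subfield
  of `N` — so inertial fields are cofinal among the finite `I_A`-fixed fields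
  (`exists_isInertial_ge`);
* `resI` : restriction of `σ ∈ D_A` to an inertial `K`; `resI_mem_AK`;
* `exists_frobInv_of_isInertial` : LITERALLY the conclusion of `KronChart15.exists_frobInv`.
(`ModelN4.KronItems` over inertial fields: `ES/P36/KronInert27`.)
-/
import Mathlib
import Fermat.Agent.ES.N34.KronChart15

set_option autoImplicit false
set_option linter.unusedSectionVars false
set_option synthInstance.maxHeartbeats 400000

noncomputable section

open HahnSeries ModularCurve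

namespace Fermat.Agent.ES.P36.InertField27

open Fermat.Agent.RED.Interface4 Fermat.Agent.RED.PUR.GaussGen8
  Fermat.Agent.RED.DESC Fermat.Agent.ES.RED.GaloisRed21
  Fermat.Agent.ES.N34.KronChart15 Fermat.Agent.ES.N34.KronN14

variable (A : ValuationSubring Qbar)

/-- `K` is fixed pointwise by the inertia group of `A` (the hypothesis shape of `UnrFixed1`). -/
def InertFixed (K : IntermediateField ℚ Qbar) : Prop :=
  ∀ τ ∈ A.inertiaSubgroupIn ℚ, ∀ x ∈ K, τ x = x

/-- `K` is **inertial at `A`**: fixed pointwise by the inertia group of `A`, stable under its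
decomposition group. -/
def IsInertial (K : IntermediateField ℚ Qbar) : Prop :=
  (∀ τ ∈ A.inertiaSubgroupIn ℚ, ∀ x ∈ K, τ x = x) ∧
    ∀ σ ∈ A.decompositionSubgroup ℚ, ∀ x ∈ K, σ x ∈ K

variable {A}

theorem IsInertial.inertFixed {K : IntermediateField ℚ Qbar} (h : IsInertial A K) :
    InertFixed A K := h.1

theorem InertFixed.mono {K₁ K₂ : IntermediateField ℚ Qbar} (h : InertFixed A K₂) (hle : K₁ ≤ K₂) :
    InertFixed A K₁ := fun τ hτ x hx => h τ hτ x (hle hx)

/-! ### The inertia part of a normal field -/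

/-- `{x ∈ N | ∀ τ ∈ I_A, τ x = x}` as an intermediate field. -/
def inertiaPart (A : ValuationSubring Qbar) (N : IntermediateField ℚ Qbar) :
    IntermediateField ℚ Qbar :=
  N ⊓ IntermediateField.fixedField (A.inertiaSubgroupIn ℚ)

theorem mem_inertiaPart {N : IntermediateField ℚ Qbar} {x : Qbar} :
    x ∈ inertiaPart A N ↔ x ∈ N ∧ ∀ τ ∈ A.inertiaSubgroupIn ℚ, τ x = x := by
  unfold inertiaPart
  rw [IntermediateField.mem_inf, IntermediateField.mem_fixedField_iff]

theorem inertiaPart_le (N : IntermediateField ℚ Qbar) : inertiaPart A N ≤ N := inf_le_left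

/-- conjugation by the decomposition group preserves the inertia group. -/
theorem conj_mem_inertia {σ τ : Qbar ≃ₐ[ℚ] Qbar} (hσ : σ ∈ A.decompositionSubgroup ℚ)
    (hτ : τ ∈ A.inertiaSubgroupIn ℚ) : σ⁻¹ * τ * σ ∈ A.inertiaSubgroupIn ℚ := by
  unfold ValuationSubring.inertiaSubgroupIn at hτ ⊢
  obtain ⟨τ', hτ', rfl⟩ := hτ
  have hn : (A.inertiaSubgroup ℚ).Normal := by
    unfold ValuationSubring.inertiaSubgroup
    exact MonoidHom.normal_ker _
  refine ⟨(⟨σ, hσ⟩ : A.decompositionSubgroup ℚ)⁻¹ * τ' * ⟨σ, hσ⟩, ?_, rfl⟩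
  have := hn.conj_mem τ' hτ' (⟨σ, hσ⟩ : A.decompositionSubgroup ℚ)⁻¹
  simpa using this

theorem isInertial_inertiaPart (N : IntermediateField ℚ Qbar) [Normal ℚ N] :
    IsInertial A (inertiaPart A N) := by
  refine ⟨fun τ hτ x hx => (mem_inertiaPart.mp hx).2 τ hτ, fun σ hσ x hx => ?_⟩
  obtain ⟨hxN, hxI⟩ := mem_inertiaPart.mp hx
  refine mem_inertiaPart.mpr ⟨?_, fun τ hτ => ?_⟩
  · have := (Fermat.Agent.ES.N34.GalBase21.resK N σ ⟨x, hxN⟩).2
    rwa [Fermat.Agent.ES.N34.GalBase21.coe_resK] at this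
  · have h := hxI _ (conj_mem_inertia hσ hτ)
    -- `σ⁻¹ τ σ x = x` ⇒ `τ (σ x) = σ x`
    have h2 : σ ((σ⁻¹ * τ * σ) x) = σ x := by rw [h]
    simpa [AlgEquiv.mul_apply] using h2

theorem le_inertiaPart {K₀ N : IntermediateField ℚ Qbar} (hle : K₀ ≤ N)
    (hfix : ∀ τ ∈ A.inertiaSubgroupIn ℚ, ∀ x ∈ K₀, τ x = x) : K₀ ≤ inertiaPart A N :=
  fun x hx => mem_inertiaPart.mpr ⟨hle hx, fun τ hτ => hfix τ hτ x hx⟩

theorem finiteDimensional_of_le {K N : IntermediateField ℚ Qbar} (hle : K ≤ N)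
    [FiniteDimensional ℚ N] : FiniteDimensional ℚ K :=
  Module.Finite.of_injective (IntermediateField.inclusion hle).toLinearMap
    (IntermediateField.inclusion hle).injective

/-- **Cofinality**: every finite subfield of `ℚ̄` fixed by the inertia group of `A` is contained in a
finite inertial field. -/
theorem exists_isInertial_ge (K₀ : IntermediateField ℚ Qbar) [FiniteDimensional ℚ K₀]
    (hfix : ∀ τ ∈ A.inertiaSubgroupIn ℚ, ∀ x ∈ K₀, τ x = x) :
    ∃ K : IntermediateField ℚ Qbar, FiniteDimensional ℚ K ∧ K₀ ≤ K ∧ IsInertial A K := by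
  have hQ : Normal ℚ Qbar := Fermat.Agent.Lib.FrobeniusExists.isGalois_Qbar.to_normal
  have hfin : FiniteDimensional ℚ (IntermediateField.normalClosure ℚ K₀ Qbar) := inferInstance
  have hnor : Normal ℚ (IntermediateField.normalClosure ℚ K₀ Qbar) :=
    normalClosure.normal ℚ K₀ Qbar
  exact ⟨inertiaPart A (IntermediateField.normalClosure ℚ K₀ Qbar),
    finiteDimensional_of_le (inertiaPart_le _),
    le_inertiaPart (IntermediateField.le_normalClosure K₀) hfix, isInertial_inertiaPart _⟩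

/-- the sup of two inertial fields is inertial. -/
theorem IsInertial.sup {K₁ K₂ : IntermediateField ℚ Qbar} (h₁ : IsInertial A K₁)
    (h₂ : IsInertial A K₂) : IsInertial A (K₁ ⊔ K₂) := by
  constructor
  · intro τ hτ x hx
    have hle : K₁ ⊔ K₂ ≤ IntermediateField.fixedField (A.inertiaSubgroupIn ℚ) :=
      sup_le (fun y hy => (IntermediateField.mem_fixedField_iff _ _).mpr fun τ hτ => h₁.1 τ hτ y hy)
        (fun y hy => (IntermediateField.mem_fixedField_iff _ _).mpr fun τ hτ => h₂.1 τ hτ y hy)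
    exact (IntermediateField.mem_fixedField_iff _ _).mp (hle hx) τ hτ
  · intro σ hσ x hx
    have hle : K₁ ⊔ K₂ ≤ (K₁ ⊔ K₂).comap (σ : Qbar →ₐ[ℚ] Qbar) := by
      refine sup_le (fun y hy => ?_) (fun y hy => ?_)
      · exact (le_sup_left : K₁ ≤ K₁ ⊔ K₂) (h₁.2 σ hσ y hy)
      · exact (le_sup_right : K₂ ≤ K₁ ⊔ K₂) (h₂.2 σ hσ y hy)
    exact hle hx

/-! ### Restriction of the decomposition group to an inertial field -/

section Restrict

variable {K : IntermediateField ℚ Qbar}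

/-- `σ|_K` for `σ` with `σ K ⊆ K` and `σ⁻¹ K ⊆ K`. -/
def resI (K : IntermediateField ℚ Qbar) (σ : Qbar ≃ₐ[ℚ] Qbar) (h : ∀ x ∈ K, σ x ∈ K)
    (h' : ∀ x ∈ K, σ⁻¹ x ∈ K) : K ≃ₐ[ℚ] K :=
  AlgEquiv.ofAlgHom
    (((σ : Qbar →ₐ[ℚ] Qbar).comp K.val).codRestrict K.toSubalgebra fun x => h x x.2)
    ((((σ⁻¹ : Qbar ≃ₐ[ℚ] Qbar) : Qbar →ₐ[ℚ] Qbar).comp K.val).codRestrict K.toSubalgebra
      fun x => h' x x.2)
    (by
      ext x
      show σ (σ⁻¹ (x : Qbar)) = x
      exact AlgEquiv.apply_symm_apply σ _)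
    (by
      ext x
      show σ⁻¹ (σ (x : Qbar)) = x
      exact AlgEquiv.symm_apply_apply σ _)

theorem coe_resI (σ : Qbar ≃ₐ[ℚ] Qbar) (h : ∀ x ∈ K, σ x ∈ K) (h' : ∀ x ∈ K, σ⁻¹ x ∈ K) (a : K) :
    ((resI K σ h h' a : K) : Qbar) = σ (a : Qbar) := rfl

theorem resI_mem_AK {σ : Qbar ≃ₐ[ℚ] Qbar} (hσ : σ ∈ A.decompositionSubgroup ℚ)
    (h : ∀ x ∈ K, σ x ∈ K) (h' : ∀ x ∈ K, σ⁻¹ x ∈ K) {a : K} (ha : a ∈ AK A K) :
    resI K σ h h' a ∈ AK A K := by
  rw [NumberFieldDVR27.mem_AK_iff] at ha ⊢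
  rw [coe_resI]
  exact (sigmaA A ⟨σ, hσ⟩ ⟨(a : Qbar), ha⟩).2

end Restrict

/-! ### The inverse Frobenius on an inertial field -/

/-- **The inverse of a Frobenius element, restricted to an inertial `K`**: literally the conclusion of
`KronChart15.exists_frobInv` (which needs `K` normal over `ℚ`). -/
theorem exists_frobInv_of_isInertial {K : IntermediateField ℚ Qbar} (hK : IsInertial A K) (q : ℕ)
    (hq : q.Prime) (hA : A.LiesOverPrime q) :
    ∃ (ψ : K ≃ₐ[ℚ] K) (hψO : ∀ x ∈ AK A K, ((ψ : K ≃ₐ[ℚ] K) : K →+* K) x ∈ AK A K),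
      ∀ x : ↥(AK A K),
        res0 (AK A K) (restrictO (AK A K) ((ψ : K ≃ₐ[ℚ] K) : K →+* K) hψO x) ^ q =
          res0 (AK A K) x := by
  obtain ⟨σ, hσ⟩ := Fermat.Agent.ES.FROB.FrobFacts12.exists_isFrobeniusAt_of q hq A hA
  have hD : σ ∈ A.decompositionSubgroup ℚ := hσ.mem_decompositionSubgroup
  have hD' : σ⁻¹ ∈ A.decompositionSubgroup ℚ := inv_mem hD
  have h1 : ∀ x ∈ K, σ⁻¹ x ∈ K := hK.2 _ hD'
  have h2 : ∀ x ∈ K, (σ⁻¹)⁻¹ x ∈ K := by
    rw [inv_inv]; exact hK.2 _ hD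
  have hψO : ∀ x ∈ AK A K, ((resI K σ⁻¹ h1 h2 : K ≃ₐ[ℚ] K) : K →+* K) x ∈ AK A K :=
    fun x hx => resI_mem_AK hD' h1 h2 hx
  refine ⟨resI K σ⁻¹ h1 h2, hψO, fun x => ?_⟩
  set y : ↥(AK A K) := restrictO (AK A K) ((resI K σ⁻¹ h1 h2 : K ≃ₐ[ℚ] K) : K →+* K) hψO x with hy
  apply NumberFieldDVR27.resMap_injective A K
  rw [map_pow, NumberFieldDVR27.resMap_residue, NumberFieldDVR27.resMap_residue]
  have h3 := psiRes_of_isFrobeniusAt A hσ (IsLocalRing.residue ↥A (NumberFieldDVR27.incl A K y))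
  rw [psiRes_residue] at h3
  rw [← h3]
  congr 1
  apply Subtype.ext
  rw [coe_sigmaA, NumberFieldDVR27.coe_incl, NumberFieldDVR27.coe_incl]
  have h4 : (((y : ↥(AK A K)) : K) : Qbar) = σ⁻¹ (((x : ↥(AK A K)) : K) : Qbar) :=
    coe_resI σ⁻¹ h1 h2 (x : K)
  rw [h4]
  exact AlgEquiv.apply_symm_apply σ _

end Fermat.Agent.ES.P36.InertField27
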