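/-
Program P (S36), interface brick D4 (helper12): the literal contracts between DESC-P and NUM-P, and the
(trivial) chain theorem

    `IfaceP17.FixBarAll c`  ⇐(DESC-P: `DescInertStmt`)  `NumStepP c`  ⇐(NUM-P)  MODEL-P + (G) + (SS) + (CL3).

Field form everywhere (vocabulary of `RED/Interface4`, `ES/N34/IfaceN4`, `ES/N35/IfaceO13`, `ES/P36/IfaceP17`).
Level `N = M' * q * q` (`q ∤ M'`), degeneracy maps `α, β : F_{M' q} → F_{M' q²}`.

* `InertField27.InertFixed A K` (helper27, ruling p2) : `K ⊂ ℚ̄` is fixed pointwise by the inertia group of `A`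
  (then `q` is a uniformiser of `A ∩ K`: `UnrFixed1`).
* `FixNum c q M' K` : **(K_c) over a finite `K ⊂ ℚ̄`**: for `q ∤ m` and `f ∈ K·F_N` nonzero with all orders divisible
  by `m` (over `K` and over `ℚ̄`) and `q`-new in Kummer form (`N_α f`, `N_β f` are constants times `m`-th powers over
  `K`), `f ^ c` is a constant times an `m`-th power OVER `ℚ̄` (NUM-P may enlarge `K` by finite extensions fixed by
  the inertia group; no `K'` appears in the contract).  No rational-support clause, `K` need not be normal.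
* `NumStepP c` : `FixNum (c q) q M' K` for all auxiliary levels `M'` and all finite `K` fixed by the inertia group.
* `DescInertStmt q M' A` : **the output of DESC-P** (descent to the inertia field): the hypotheses of
  `IfaceP17.FixBar` in, the hypotheses of `FixNum` out, `f` changed by a constant and an `m`-th power.
* `fixBar_of_fixNum`, `fixBarAll_of_fixNum` : the assembly.
-/
import Mathlib
import Fermat.Agent.ES.P36.IfaceP17
import Fermat.Agent.ES.N34.ModelDefs9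
import Fermat.Agent.RED.DESC.PlaceExtend27
import Fermat.Agent.ES.P36.InertField27

set_option autoImplicit false
set_option synthInstance.maxHeartbeats 400000

open HahnSeries AlgebraicCurve ModularCurve

noncomputable section

namespace Fermat.Agent.ES.P36.IfaceNumP12

open Fermat.Agent.RED.Interface4 Fermat.Agent.RED.DESC Fermat.Agent.ES.N34.IfaceN4
  Fermat.Agent.ES.P36.IfaceP17
open Fermat.Agent.ES.HECKE.BaseChange19 (normAlong)
open Fermat.Agent.ES.P36.InertField27 (InertFixed)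

set_option maxHeartbeats 2000000 in
/-- **(K_c) over a finite `K ⊂ ℚ̄`, Kummer form**; conclusion over `ℚ̄`. -/
def FixNum (c q M' : ℕ) [NeZero M'] [NeZero q] (K : IntermediateField ℚ Qbar) : Prop :=
  ∀ m : ℕ, ¬ q ∣ m → ∀ f : FK (M' * q * q) K, f ≠ 0 →
    (∀ v : Place K (FK (M' * q * q) K), (m : ℤ) ∣ v.ord f) →
    (∀ v : Place Qbar (Fbar (M' * q * q)),
      (m : ℤ) ∣ v.ord (PlaceExtend27.baseChangeHom (M' * q * q) K f)) →
    (∃ (κ : K) (g : FK (M' * q) K), κ ≠ 0 ∧ g ≠ 0 ∧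
      normAlong (Fermat.Agent.ES.N34.ModelDefs9.alpha K (M' * q) q) f = κ • g ^ m) →
    (∃ (κ : K) (g : FK (M' * q) K), κ ≠ 0 ∧ g ≠ 0 ∧
      normAlong (Fermat.Agent.ES.N34.ModelDefs9.beta K (M' * q) q) f = κ • g ^ m) →
    ∃ (κ : Qbar) (s : Fbar (M' * q * q)), κ ≠ 0 ∧ s ≠ 0 ∧
      (PlaceExtend27.baseChangeHom (M' * q * q) K f) ^ c = κ • s ^ m

/-- **Chapter NUM-P** at the levels `M' q²`, `q ∤ M'`, `M'` divisible by the auxiliary base level, over every
finite `K ⊂ ℚ̄` fixed by the inertia group of `A`. -/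
def NumStepP (c : ℕ → ℕ) : Prop :=
  ∀ (q M' : ℕ) [NeZero M'] [NeZero q] (A : ValuationSubring Qbar), q.Prime → ¬ q ∣ M' →
    (if q = 2 then 9 ∣ M' else 4 ∣ M') → A.LiesOverPrime q →
    ∀ K : IntermediateField ℚ Qbar, FiniteDimensional ℚ K → InertFixed A K → FixNum (c q) q M' K

set_option maxHeartbeats 2000000 in
/-- **The output of chapter DESC-P** (descent of an inertia-fixed new Kummer generator to a finite subfield of the
inertia field). -/
def DescInertStmt (q M' : ℕ) [NeZero M'] [NeZero q] (A : ValuationSubring Qbar) : Prop :=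
  ∀ m : ℕ, ¬ q ∣ m → ∀ f : Fbar (M' * q * q), f ≠ 0 →
    (∀ v : Place Qbar (Fbar (M' * q * q)), (m : ℤ) ∣ v.ord f) →
    (∀ τ ∈ A.inertiaSubgroupIn ℚ, ∃ (κ : Qbar) (h : Fbar (M' * q * q)), κ ≠ 0 ∧ h ≠ 0 ∧
      gB (M' * q * q) τ f = κ • (f * h ^ m)) →
    (∃ (κ : Qbar) (g : Fbar (M' * q)), κ ≠ 0 ∧ g ≠ 0 ∧
      normAlong (heckeAlphaBar Qbar (M' * q) q) f = κ • g ^ m) →
    (∃ (κ : Qbar) (g : Fbar (M' * q)), κ ≠ 0 ∧ g ≠ 0 ∧
      normAlong (heckeBetaBar Qbar (M' * q) q) f = κ • g ^ m) →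
    ∃ K : IntermediateField ℚ Qbar, FiniteDimensional ℚ K ∧ InertFixed A K ∧
      ∃ (fK : FK (M' * q * q) K) (κ₀ : Qbar) (h₀ : Fbar (M' * q * q)), κ₀ ≠ 0 ∧ h₀ ≠ 0 ∧ fK ≠ 0 ∧
        PlaceExtend27.baseChangeHom (M' * q * q) K fK = κ₀ • (f * h₀ ^ m) ∧
        (∀ w : Place K (FK (M' * q * q) K), (m : ℤ) ∣ w.ord fK) ∧
        (∃ (κ : K) (g : FK (M' * q) K), κ ≠ 0 ∧ g ≠ 0 ∧
          normAlong (Fermat.Agent.ES.N34.ModelDefs9.alpha K (M' * q) q) fK = κ • g ^ m) ∧
        (∃ (κ : K) (g : FK (M' * q) K), κ ≠ 0 ∧ g ≠ 0 ∧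
          normAlong (Fermat.Agent.ES.N34.ModelDefs9.beta K (M' * q) q) fK = κ • g ^ m)

set_option maxHeartbeats 2000000 in
/-- **DESC-P assembly at one level**: (K_c) over all finite subfields of the inertia field gives (K_c) over `ℚ̄`. -/
theorem fixBar_of_fixNum {c q M' : ℕ} [NeZero M'] [NeZero q] {A : ValuationSubring Qbar}
    (hdesc : DescInertStmt q M' A)
    (hnum : ∀ K : IntermediateField ℚ Qbar, FiniteDimensional ℚ K → InertFixed A K →
      FixNum c q M' K) : FixBar c q M' A := by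
  intro m hm f hf hord hI hα hβ
  have hm0 : m ≠ 0 := fun h0 => hm (h0 ▸ dvd_zero q)
  obtain ⟨K, hfin, hfix, fK, κ₀, h₀, hκ₀, hh₀, hfK0, hbc, hordK, hαK, hβK⟩ :=
    hdesc m hm f hf hord hI hα hβ
  have hκ₀F : algebraMap Qbar (Fbar (M' * q * q)) κ₀ ≠ 0 := (map_ne_zero _).mpr hκ₀
  -- divisibility of the orders over `ℚ̄`
  have hordQ : ∀ v : Place Qbar (Fbar (M' * q * q)),
      (m : ℤ) ∣ v.ord (PlaceExtend27.baseChangeHom (M' * q * q) K fK) := by
    intro v
    rw [hbc, Algebra.smul_def, v.ord_mul hκ₀F (mul_ne_zero hf (pow_ne_zero m hh₀)),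
      Fermat.Agent.X0.FF.ord_algebraMap, zero_add, v.ord_mul hf (pow_ne_zero m hh₀),
      ← zpow_natCast h₀ m, v.ord_zpow]
    exact dvd_add (hord v) (Dvd.intro _ rfl)
  obtain ⟨κ, s, hκ, hs0, hs⟩ := hnum K hfin hfix m hm fK hfK0 hordK hordQ hαK hβK
  -- `f ^ c = (κ / κ₀ ^ c) • (s / h₀ ^ c) ^ m`
  have hh₀c : h₀ ^ c ≠ 0 := pow_ne_zero c hh₀
  refine ⟨κ / κ₀ ^ c, s / h₀ ^ c, div_ne_zero hκ (pow_ne_zero c hκ₀), div_ne_zero hs0 hh₀c, ?_⟩
  rw [hbc, Algebra.smul_def, Algebra.smul_def, mul_pow, mul_pow, ← map_pow] at hs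
  rw [Algebra.smul_def, map_div₀, div_pow, ← pow_mul, mul_comm c m, pow_mul, map_pow]
  have hκ₀c : algebraMap Qbar (Fbar (M' * q * q)) κ₀ ^ c ≠ 0 := pow_ne_zero c hκ₀F
  have hhm : (h₀ ^ m) ^ c ≠ 0 := pow_ne_zero c (pow_ne_zero m hh₀)
  rw [map_pow] at hs
  field_simp
  rw [← hs]
  ring

/-- **The chain** (NUM-P + DESC-P ⇒ the input of LVL-P). -/
theorem fixBarAll_of_fixNum {c : ℕ → ℕ}
    (hdesc : ∀ (q M' : ℕ) [NeZero M'] [NeZero q] (A : ValuationSubring Qbar), q.Prime → ¬ q ∣ M' →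
      (if q = 2 then 9 ∣ M' else 4 ∣ M') → A.LiesOverPrime q → DescInertStmt q M' A)
    (hnum : NumStepP c) : FixBarAll c :=
  fun q M' _ _ A hq hqM hc hA =>
    fixBar_of_fixNum (hdesc q M' A hq hqM hc hA) (hnum q M' A hq hqM hc hA)

end Fermat.Agent.ES.P36.IfaceNumP12
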