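/-
Scouting brick for S36 (Carayol at `q² ∥ M`), chapters HECKE-P / DESC-P (helper19): norms along the
two degeneracy maps at a prime `q ∣ M'` (degree `q`) commute with the base change of constants
`K → ℚ̄` (twin of `NormBC1.baseChangeHom_normAlong_alpha/_beta`, which need `q ∤ M'`).
-/
import Mathlib
import Fermat.Agent.ES.N35.NormBC1
import Fermat.Agent.ES.P36.HeckeDeg19

set_option autoImplicit false
set_option linter.unusedSectionVars false
set_option linter.style.haveILetI false

noncomputable section

namespace Fermat.Agent.ES.P36.NormBCDeg19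

open AlgebraicCurve ModularCurve HahnSeries IntermediateField
open Fermat.Agent.RED.Interface4 Fermat.Agent.RED.DESC Fermat.Agent.ES.HECKE
open Fermat.Agent.ES.N35 Fermat.Agent.ES.P36.HeckeDeg19

variable (K : IntermediateField ℚ Qbar) (M' q : ℕ) [NeZero M'] [NeZero q]

/-- **the norm along `α` commutes with base change `K → ℚ̄`**, `q ∣ M'`. -/
theorem baseChangeHom_normAlong_alpha_of_dvd (hq : q.Prime) (hqM : q ∣ M') (x : FK (M' * q) K) :
    PointFormula28.normAlong (heckeAlphaBar Qbar M' q) (PlaceExtend27.baseChangeHom (M' * q) K x) =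
      PlaceExtend27.baseChangeHom M' K (PointFormula28.normAlong (heckeAlphaBar K M' q) x) := by
  letI := algebraAlong (heckeAlphaBar K M' q)
  letI := algebraAlong (heckeAlphaBar Qbar M' q)
  haveI : FiniteDimensional (FK M' K) (FK (M' * q) K) := finiteAlong_alpha_of_dvd K M' q hq hqM
  refine NormCompat12.norm_map_of_finrank_eq (PlaceExtend27.baseChangeHom M' K)
    (PlaceExtend27.baseChangeHom (M' * q) K) (fun y => NormBC1.baseChangeHom_alpha K M' q y) ?_ ?_ x
  · exact (finrankAlong_alpha_of_dvd K M' q hq hqM).trans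
      (finrankAlong_alpha_of_dvd Qbar M' q hq hqM).symm
  · exact NormBC1.top_le_span_baseChange M' (M' * q) K _ (finiteAlong_alpha_of_dvd Qbar M' q hq hqM)

/-- **the norm along `β` commutes with base change `K → ℚ̄`**, `q ∣ M'`. -/
theorem baseChangeHom_normAlong_beta_of_dvd (hq : q.Prime) (hqM : q ∣ M') (x : FK (M' * q) K) :
    PointFormula28.normAlong (heckeBetaBar Qbar M' q) (PlaceExtend27.baseChangeHom (M' * q) K x) =
      PlaceExtend27.baseChangeHom M' K (PointFormula28.normAlong (heckeBetaBar K M' q) x) := by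
  letI := algebraAlong (heckeBetaBar K M' q)
  letI := algebraAlong (heckeBetaBar Qbar M' q)
  haveI : FiniteDimensional (FK M' K) (FK (M' * q) K) := finiteAlong_beta_of_dvd K M' q hq hqM
  refine NormCompat12.norm_map_of_finrank_eq (PlaceExtend27.baseChangeHom M' K)
    (PlaceExtend27.baseChangeHom (M' * q) K) (fun y => NormBC1.baseChangeHom_beta K M' q y) ?_ ?_ x
  · exact (finrankAlong_beta_of_dvd K M' q hq hqM).trans
      (finrankAlong_beta_of_dvd Qbar M' q hq hqM).symm
  · exact NormBC1.top_le_span_baseChange M' (M' * q) K _ (finiteAlong_beta_of_dvd Qbar M' q hq hqM)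

end Fermat.Agent.ES.P36.NormBCDeg19
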