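/-
Program P (S36), DESC-P tools (helper12): **enlarging the field of constants** `K ≤ K'` inside `ℚ̄`.

For NUM-P ("w.l.o.g. `K` is READY: inertial at `A`, contains `K₀(q, M', m)`, …"): a Kummer generator `f ∈ K·F_N`,
`N = M' q²`, with its three hypotheses (orders divisible by `m`, the two newness relations) lifts to `K'·F_N` with
the same hypotheses, and a conclusion `f' ^ c = κ' • s' ^ m` over `K'` gives the conclusion of `IfaceNumP12.FixNum`
over `ℚ̄`.

* `constUnram` : D2 (`ConstUnram1`) in the form used here: every place of `K·F_M / K` has a place of `ℚ̄·F_M / ℚ̄`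
  above it with THE SAME orders; `dvd_ord_of_baseChange` : divisibility of all orders descends from `ℚ̄` to `K`;
* `baseChangeHom_smul_const`, `bcLe_smul_const` : constants;
* `normAlong_alpha_lift`, `normAlong_beta_lift` : the newness relations lift (NormBCDeg19 twice + injectivity);
* `fixHyp_lift` : all hypotheses of `FixNum` lift along `ConstUnram1.bcLe`;
* `concl_of_ext` : the conclusion descends to `ℚ̄`;
* `FixNumOver c q M' m K` : (K_c) over ONE field `K` (hypotheses and conclusion over `K`) — the literal target of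
  NUM-P (C2) over a ready `K`;
* `fixNum_of_ready` : `FixNum` for all finite `K` fixed by inertia from `FixNumOver` over all READY `K`, for ANY
  readiness predicate that is cofinal among the finite inertia-fixed fields;
* `InertFixed.sup`, `fixNum_of_large` : the instance `Ready m K := K₀ m ≤ K ∧ IsInertial A K`
  (cofinal by `InertField27.exists_isInertial_ge`).
-/
import Mathlib
import Fermat.Agent.ES.P36.IfaceNumP12
import Fermat.Agent.ES.P36.NormBCDeg19
import Fermat.Agent.ES.P36.ConstUnram1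
import Fermat.Agent.ES.P36.InertField27

set_option autoImplicit false
set_option synthInstance.maxHeartbeats 400000
set_option linter.unusedSectionVars false

open HahnSeries AlgebraicCurve ModularCurve

noncomputable section

namespace Fermat.Agent.ES.P36.DescLiftP12

open Fermat.Agent.RED.Interface4 Fermat.Agent.RED.DESC Fermat.Agent.ES.N34.IfaceN4
  Fermat.Agent.ES.P36.IfaceP17 Fermat.Agent.ES.P36.IfaceNumP12 Fermat.Agent.ES.HECKE
open Fermat.Agent.ES.HECKE.BaseChange19 (normAlong)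
open Fermat.Agent.ES.P36.InertField27 (InertFixed IsInertial)
open Fermat.Agent.ES.P36.ConstUnram1 (bcLe baseChangeHom_bcLe bcLe_algebraMap)

/-- **D2**: constant field extensions are unramified: every place of `K·F_M / K` has a place of `ℚ̄·F_M / ℚ̄` above
it with the same orders. -/
theorem constUnram (M : ℕ) [NeZero M] (K : IntermediateField ℚ Qbar) [FiniteDimensional ℚ K]
    (w : Place K (FK M K)) :
    ∃ v : Place Qbar (Fbar M), ∀ f : FK M K, v.ord (PlaceExtend27.baseChangeHom M K f) = w.ord f := by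
  obtain ⟨v, e, _, _, hmem⟩ := PlaceExtend27.exists_place_above_mem M K w
  exact ⟨v, fun f => ConstUnram1.ord_baseChangeHom_eq M K w v hmem f⟩

/-- divisibility of all orders descends from `ℚ̄` to any finite `K`. -/
theorem dvd_ord_of_baseChange (M : ℕ) [NeZero M] (K : IntermediateField ℚ Qbar)
    [FiniteDimensional ℚ K] {m : ℕ} {f : FK M K}
    (h : ∀ v : Place Qbar (Fbar M), (m : ℤ) ∣ v.ord (PlaceExtend27.baseChangeHom M K f))
    (w : Place K (FK M K)) : (m : ℤ) ∣ w.ord f := by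
  obtain ⟨v, hv⟩ := constUnram M K w
  rw [← hv f]
  exact h v

section Lift

variable {K K' : IntermediateField ℚ Qbar}

/-- a constant of `ℚ̄` lying in `K`, as a scalar: `bc (c • x) = c • bc x`. -/
theorem baseChangeHom_smul_const (N : ℕ) (K : IntermediateField ℚ Qbar) (c : K) (x : FK N K) :
    PlaceExtend27.baseChangeHom N K (c • x) = ((c : K) : Qbar) • PlaceExtend27.baseChangeHom N K x := by
  rw [Algebra.smul_def, Algebra.smul_def, map_mul, PlaceExtend27.baseChangeHom_algebraMap]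

theorem bcLe_injective (N : ℕ) (h : K ≤ K') : Function.Injective (bcLe N h) :=
  (bcLe N h).injective

variable (M' q : ℕ) [NeZero M'] [NeZero q]

set_option maxHeartbeats 2000000 in
/-- the newness relation along `α` lifts from `K` to `K'`. -/
theorem normAlong_alpha_lift (hq : q.Prime) (h : K ≤ K') {m : ℕ}
    {f : FK (M' * q * q) K} {f' : FK (M' * q * q) K'}
    (hff' : PlaceExtend27.baseChangeHom (M' * q * q) K' f' =
      PlaceExtend27.baseChangeHom (M' * q * q) K f)
    (hα : ∃ (κ : K) (g : FK (M' * q) K), κ ≠ 0 ∧ g ≠ 0 ∧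
      normAlong (Fermat.Agent.ES.N34.ModelDefs9.alpha K (M' * q) q) f = κ • g ^ m) :
    ∃ (κ : K') (g : FK (M' * q) K'), κ ≠ 0 ∧ g ≠ 0 ∧
      normAlong (Fermat.Agent.ES.N34.ModelDefs9.alpha K' (M' * q) q) f' = κ • g ^ m := by
  obtain ⟨κ, g, hκ, hg, hN⟩ := hα
  have hg' : PlaceExtend27.baseChangeHom (M' * q) K' (bcLe (M' * q) h g) =
      PlaceExtend27.baseChangeHom (M' * q) K g := baseChangeHom_bcLe (M' * q) h g
  have hdvd : q ∣ M' * q := dvd_mul_left q M'
  let κ' : K' := ⟨(κ : Qbar), h κ.2⟩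
  have hκ' : κ' ≠ 0 := by
    intro h0
    apply hκ
    apply Subtype.ext
    have h1 : ((κ' : K') : Qbar) = ((0 : K') : Qbar) := congrArg Subtype.val h0
    exact h1
  have hg'0 : bcLe (M' * q) h g ≠ 0 := (map_ne_zero_iff _ (bcLe_injective (M' * q) h)).mpr hg
  refine ⟨κ', bcLe (M' * q) h g, hκ', hg'0, ?_⟩
  apply PlaceExtend27.baseChangeHom_injective (M' * q) K'
  rw [baseChangeHom_smul_const, map_pow, hg']
  show PlaceExtend27.baseChangeHom (M' * q) K'
    (PointFormula28.normAlong (heckeAlphaBar K' (M' * q) q) f') = _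
  rw [← Fermat.Agent.ES.P36.NormBCDeg19.baseChangeHom_normAlong_alpha_of_dvd K' (M' * q) q hq hdvd f',
    hff', Fermat.Agent.ES.P36.NormBCDeg19.baseChangeHom_normAlong_alpha_of_dvd K (M' * q) q hq hdvd f]
  have hN' : PointFormula28.normAlong (heckeAlphaBar K (M' * q) q) f = κ • g ^ m := hN
  rw [hN', baseChangeHom_smul_const, map_pow]

set_option maxHeartbeats 2000000 in
/-- the newness relation along `β` lifts from `K` to `K'`. -/
theorem normAlong_beta_lift (hq : q.Prime) (h : K ≤ K') {m : ℕ}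
    {f : FK (M' * q * q) K} {f' : FK (M' * q * q) K'}
    (hff' : PlaceExtend27.baseChangeHom (M' * q * q) K' f' =
      PlaceExtend27.baseChangeHom (M' * q * q) K f)
    (hβ : ∃ (κ : K) (g : FK (M' * q) K), κ ≠ 0 ∧ g ≠ 0 ∧
      normAlong (Fermat.Agent.ES.N34.ModelDefs9.beta K (M' * q) q) f = κ • g ^ m) :
    ∃ (κ : K') (g : FK (M' * q) K'), κ ≠ 0 ∧ g ≠ 0 ∧
      normAlong (Fermat.Agent.ES.N34.ModelDefs9.beta K' (M' * q) q) f' = κ • g ^ m := by
  obtain ⟨κ, g, hκ, hg, hN⟩ := hβ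
  have hg' : PlaceExtend27.baseChangeHom (M' * q) K' (bcLe (M' * q) h g) =
      PlaceExtend27.baseChangeHom (M' * q) K g := baseChangeHom_bcLe (M' * q) h g
  have hdvd : q ∣ M' * q := dvd_mul_left q M'
  let κ' : K' := ⟨(κ : Qbar), h κ.2⟩
  have hκ' : κ' ≠ 0 := by
    intro h0
    apply hκ
    apply Subtype.ext
    have h1 : ((κ' : K') : Qbar) = ((0 : K') : Qbar) := congrArg Subtype.val h0
    exact h1
  have hg'0 : bcLe (M' * q) h g ≠ 0 := (map_ne_zero_iff _ (bcLe_injective (M' * q) h)).mpr hg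
  refine ⟨κ', bcLe (M' * q) h g, hκ', hg'0, ?_⟩
  apply PlaceExtend27.baseChangeHom_injective (M' * q) K'
  rw [baseChangeHom_smul_const, map_pow, hg']
  show PlaceExtend27.baseChangeHom (M' * q) K'
    (PointFormula28.normAlong (heckeBetaBar K' (M' * q) q) f') = _
  rw [← Fermat.Agent.ES.P36.NormBCDeg19.baseChangeHom_normAlong_beta_of_dvd K' (M' * q) q hq hdvd f',
    hff', Fermat.Agent.ES.P36.NormBCDeg19.baseChangeHom_normAlong_beta_of_dvd K (M' * q) q hq hdvd f]
  have hN' : PointFormula28.normAlong (heckeBetaBar K (M' * q) q) f = κ • g ^ m := hN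
  rw [hN', baseChangeHom_smul_const, map_pow]

set_option maxHeartbeats 2000000 in
/-- **all hypotheses of `FixNum` lift from `K` to `K' ⊇ K`** (along `f ↦ bcLe f`). -/
theorem fixHyp_lift (hq : q.Prime) (h : K ≤ K') [FiniteDimensional ℚ K'] {m : ℕ}
    {f : FK (M' * q * q) K} (hf : f ≠ 0)
    (hordQ : ∀ v : Place Qbar (Fbar (M' * q * q)),
      (m : ℤ) ∣ v.ord (PlaceExtend27.baseChangeHom (M' * q * q) K f))
    (hα : ∃ (κ : K) (g : FK (M' * q) K), κ ≠ 0 ∧ g ≠ 0 ∧
      normAlong (Fermat.Agent.ES.N34.ModelDefs9.alpha K (M' * q) q) f = κ • g ^ m)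
    (hβ : ∃ (κ : K) (g : FK (M' * q) K), κ ≠ 0 ∧ g ≠ 0 ∧
      normAlong (Fermat.Agent.ES.N34.ModelDefs9.beta K (M' * q) q) f = κ • g ^ m) :
    bcLe (M' * q * q) h f ≠ 0 ∧
      (∀ w : Place K' (FK (M' * q * q) K'), (m : ℤ) ∣ w.ord (bcLe (M' * q * q) h f)) ∧
      (∃ (κ : K') (g : FK (M' * q) K'), κ ≠ 0 ∧ g ≠ 0 ∧
        normAlong (Fermat.Agent.ES.N34.ModelDefs9.alpha K' (M' * q) q) (bcLe (M' * q * q) h f) =
          κ • g ^ m) ∧
      (∃ (κ : K') (g : FK (M' * q) K'), κ ≠ 0 ∧ g ≠ 0 ∧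
        normAlong (Fermat.Agent.ES.N34.ModelDefs9.beta K' (M' * q) q) (bcLe (M' * q * q) h f) =
          κ • g ^ m) := by
  have hff' := baseChangeHom_bcLe (M' * q * q) h f
  refine ⟨(map_ne_zero_iff _ (bcLe_injective (M' * q * q) h)).mpr hf, ?_,
    normAlong_alpha_lift M' q hq h hff' hα, normAlong_beta_lift M' q hq h hff' hβ⟩
  apply dvd_ord_of_baseChange (M' * q * q) K'
  intro v
  rw [hff']
  exact hordQ v

/-- a conclusion over `K'` gives the conclusion of `FixNum` over `ℚ̄`. -/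
theorem concl_of_ext (N : ℕ) {c m : ℕ} {f : FK N K} {f' : FK N K'}
    (hff' : PlaceExtend27.baseChangeHom N K' f' = PlaceExtend27.baseChangeHom N K f)
    (hc : ∃ (κ : K') (s : FK N K'), κ ≠ 0 ∧ s ≠ 0 ∧ f' ^ c = κ • s ^ m) :
    ∃ (κ : Qbar) (s : Fbar N), κ ≠ 0 ∧ s ≠ 0 ∧
      (PlaceExtend27.baseChangeHom N K f) ^ c = κ • s ^ m := by
  obtain ⟨κ, s, hκ, hs, hfs⟩ := hc
  refine ⟨(κ : Qbar), PlaceExtend27.baseChangeHom N K' s, fun h0 => hκ (Subtype.ext h0),
    (map_ne_zero_iff _ (PlaceExtend27.baseChangeHom_injective N K')).mpr hs, ?_⟩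
  rw [← hff', ← map_pow, hfs, baseChangeHom_smul_const, map_pow]

end Lift

set_option maxHeartbeats 2000000 in
/-- **(K_c) over ONE field `K`** (hypotheses and conclusion over `K`): the literal target of NUM-P over a ready
`K`. -/
def FixNumOver (c q M' : ℕ) [NeZero M'] [NeZero q] (m : ℕ) (K : IntermediateField ℚ Qbar) : Prop :=
  ∀ f : FK (M' * q * q) K, f ≠ 0 →
    (∀ v : Place K (FK (M' * q * q) K), (m : ℤ) ∣ v.ord f) →
    (∃ (κ : K) (g : FK (M' * q) K), κ ≠ 0 ∧ g ≠ 0 ∧
      normAlong (Fermat.Agent.ES.N34.ModelDefs9.alpha K (M' * q) q) f = κ • g ^ m) →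
    (∃ (κ : K) (g : FK (M' * q) K), κ ≠ 0 ∧ g ≠ 0 ∧
      normAlong (Fermat.Agent.ES.N34.ModelDefs9.beta K (M' * q) q) f = κ • g ^ m) →
    ∃ (κ : K) (s : FK (M' * q * q) K), κ ≠ 0 ∧ s ≠ 0 ∧ f ^ c = κ • s ^ m

set_option maxHeartbeats 2000000 in
/-- **w.l.o.g. `K` is ready**: for ANY predicate `Ready m K'` on finite subfields of `ℚ̄` which is cofinal above the
finite fields fixed by the inertia group of `A`, (K_c) over all ready fields (conclusion over the same field) gives
`FixNum` over EVERY finite field fixed by inertia. -/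
theorem fixNum_of_ready {c q M' : ℕ} [NeZero M'] [NeZero q] (hq : q.Prime)
    {A : ValuationSubring Qbar} (Ready : ℕ → IntermediateField ℚ Qbar → Prop)
    (hcof : ∀ m : ℕ, ¬ q ∣ m → ∀ K : IntermediateField ℚ Qbar, FiniteDimensional ℚ K →
      InertFixed A K → ∃ K' : IntermediateField ℚ Qbar, FiniteDimensional ℚ K' ∧ K ≤ K' ∧ Ready m K')
    (hready : ∀ m : ℕ, ¬ q ∣ m → ∀ K' : IntermediateField ℚ Qbar, FiniteDimensional ℚ K' →
      Ready m K' → FixNumOver c q M' m K')
    (K : IntermediateField ℚ Qbar) (hfin : FiniteDimensional ℚ K) (hfix : InertFixed A K) :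
    FixNum c q M' K := by
  intro m hm f hf _ hordQ hα hβ
  obtain ⟨K', hfin', hle, hK'⟩ := hcof m hm K hfin hfix
  obtain ⟨hf'0, hord', hα', hβ'⟩ := fixHyp_lift M' q hq hle hf hordQ hα hβ
  exact concl_of_ext (M' * q * q) (baseChangeHom_bcLe (M' * q * q) hle f)
    (hready m hm K' hfin' hK' (bcLe (M' * q * q) hle f) hf'0 hord' hα' hβ')

/-- the sup of two inertia-fixed fields is inertia-fixed. -/
theorem InertFixed.sup {A : ValuationSubring Qbar} {K₁ K₂ : IntermediateField ℚ Qbar}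
    (h₁ : InertFixed A K₁) (h₂ : InertFixed A K₂) : InertFixed A (K₁ ⊔ K₂) := by
  intro τ hτ x hx
  have hle : K₁ ⊔ K₂ ≤ IntermediateField.fixedField (A.inertiaSubgroupIn ℚ) :=
    sup_le (fun y hy => (IntermediateField.mem_fixedField_iff _ _).mpr fun τ hτ => h₁ τ hτ y hy)
      (fun y hy => (IntermediateField.mem_fixedField_iff _ _).mpr fun τ hτ => h₂ τ hτ y hy)
  exact (IntermediateField.mem_fixedField_iff _ _).mp (hle hx) τ hτ

/-- cofinality of `K₀ ≤ K' ∧ IsInertial A K'`. -/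
theorem exists_ready_ge {A : ValuationSubring Qbar} {K₀ K : IntermediateField ℚ Qbar}
    (hfin₀ : FiniteDimensional ℚ K₀) (hfix₀ : InertFixed A K₀)
    (hfin : FiniteDimensional ℚ K) (hfix : InertFixed A K) :
    ∃ K' : IntermediateField ℚ Qbar, FiniteDimensional ℚ K' ∧ K ≤ K' ∧ K₀ ≤ K' ∧ IsInertial A K' := by
  have hfin' : FiniteDimensional ℚ (K ⊔ K₀ : IntermediateField ℚ Qbar) := inferInstance
  obtain ⟨K', hK'fin, hle, hK'⟩ :=
    InertField27.exists_isInertial_ge (K ⊔ K₀) (InertFixed.sup hfix hfix₀)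
  exact ⟨K', hK'fin, le_trans le_sup_left hle, le_trans le_sup_right hle, hK'⟩

/-- **w.l.o.g. `K` is large and inertial**: if for every `m` prime to `q` there is a finite `K₀ ⊂ ℚ̄` fixed by the
inertia group of `A` such that (K_c) holds over every finite INERTIAL `K ⊇ K₀` (conclusion over `K`), then `FixNum`
holds for EVERY finite `K` fixed by inertia. -/
theorem fixNum_of_large {c q M' : ℕ} [NeZero M'] [NeZero q] (hq : q.Prime)
    {A : ValuationSubring Qbar}
    (hlarge : ∀ m : ℕ, ¬ q ∣ m → ∃ K₀ : IntermediateField ℚ Qbar, FiniteDimensional ℚ K₀ ∧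
      InertFixed A K₀ ∧ ∀ K : IntermediateField ℚ Qbar, FiniteDimensional ℚ K → IsInertial A K →
        K₀ ≤ K → FixNumOver c q M' m K)
    (K : IntermediateField ℚ Qbar) (hfin : FiniteDimensional ℚ K) (hfix : InertFixed A K) :
    FixNum c q M' K := by
  refine fixNum_of_ready hq
    (fun m K' => ∀ K₀ : IntermediateField ℚ Qbar, FiniteDimensional ℚ K₀ → InertFixed A K₀ →
      (∀ K : IntermediateField ℚ Qbar, FiniteDimensional ℚ K → IsInertial A K →
        K₀ ≤ K → FixNumOver c q M' m K) → FixNumOver c q M' m K')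
    (fun m hm K hfin hfix => ?_) (fun m hm K' hfin' hK' => ?_) K hfin hfix
  · obtain ⟨K₀, hfin₀, hfix₀, hK₀⟩ := hlarge m hm
    obtain ⟨K', hK'fin, hle, hle₀, hK'⟩ := exists_ready_ge hfin₀ hfix₀ hfin hfix
    exact ⟨K', hK'fin, hle, fun _ _ _ _ => hK₀ K' hK'fin hK' hle₀⟩
  · obtain ⟨K₀, hfin₀, hfix₀, hK₀⟩ := hlarge m hm
    exact hK' K₀ hfin₀ hfix₀ hK₀

end Fermat.Agent.ES.P36.DescLiftP12
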