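/-
Program P (S36), DESC-P assembly (helper12, brick D4b): `IfaceNumP12.DescInertStmt` from its three parts.

* `InertDescStmt N A` (D3(b), helper1's `DescInert1.exists_inert_descent`): an `f ∈ ℚ̄·F_N` with
  `τ f = κ_τ • (f * h_τ ^ m)` for every `τ` in the inertia group of `A` is, up to a constant and an `m`-th power,
  defined over a finite `K ⊂ ℚ̄` fixed by inertia;
* `NewOverKStmt q M'` (D3(c), helper17): a newness relation over `ℚ̄` for `bc f_K` descends to one over the SAME `K`;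
* D2 (`DescLiftP12.dvd_ord_of_baseChange`, from helper1's `ConstUnram1`): divisibility of the orders descends.

`normAlong_smul_const` : `N_φ (c • x) = c ^ [F₁ : F] • N_φ x` for a constant `c`;
`normHyp_smul_mul_pow` : the Kummer newness relation is stable under `f ↦ κ₀ • (f * h₀ ^ m)`;
`descInertStmt_of_parts` : the assembly.
-/
import Mathlib
import Fermat.Agent.ES.P36.IfaceNumP12
import Fermat.Agent.ES.P36.DescLiftP12

set_option autoImplicit false
set_option synthInstance.maxHeartbeats 400000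
set_option linter.unusedSectionVars false
set_option linter.style.haveILetI false

open HahnSeries AlgebraicCurve ModularCurve

noncomputable section

namespace Fermat.Agent.ES.P36.DescAsmP12

open Fermat.Agent.RED.Interface4 Fermat.Agent.RED.DESC Fermat.Agent.ES.N34.IfaceN4
  Fermat.Agent.ES.P36.IfaceP17 Fermat.Agent.ES.P36.IfaceNumP12 Fermat.Agent.ES.HECKE
open Fermat.Agent.ES.HECKE.BaseChange19 (normAlong)
open Fermat.Agent.ES.P36.InertField27 (InertFixed)

section Generic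

variable {K F F₁ : Type*} [Field K] [Field F] [Field F₁] [Algebra K F] [Algebra K F₁]

/-- the norm along `φ` of a constant multiple. -/
theorem normAlong_smul_const (φ : F →ₐ[K] F₁) (c : K) (x : F₁) :
    normAlong φ (c • x) =
      (c ^ (letI := algebraAlong φ; Module.finrank F F₁)) • normAlong φ x := by
  letI := algebraAlong φ
  show Algebra.norm F (c • x) = (c ^ Module.finrank F F₁) • Algebra.norm F x
  have h1 : c • x = algebraMap F F₁ (algebraMap K F c) * x := by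
    rw [Algebra.smul_def]
    congr 1
    exact (φ.commutes c).symm
  rw [h1, map_mul, Algebra.norm_algebraMap, Algebra.smul_def, map_pow]

theorem normAlong_mul (φ : F →ₐ[K] F₁) (x y : F₁) :
    normAlong φ (x * y) = normAlong φ x * normAlong φ y := by
  letI := algebraAlong φ
  show Algebra.norm F (x * y) = Algebra.norm F x * Algebra.norm F y
  exact map_mul _ x y

theorem normAlong_pow (φ : F →ₐ[K] F₁) (x : F₁) (n : ℕ) :
    normAlong φ (x ^ n) = normAlong φ x ^ n := by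
  letI := algebraAlong φ
  show Algebra.norm F (x ^ n) = Algebra.norm F x ^ n
  exact map_pow _ x n

theorem normAlong_ne_zero (φ : F →ₐ[K] F₁) (hfin : letI := algebraAlong φ; Module.Finite F F₁)
    {x : F₁} (hx : x ≠ 0) : normAlong φ x ≠ 0 := by
  letI := algebraAlong φ
  haveI := hfin
  show Algebra.norm F x ≠ 0
  exact Algebra.norm_ne_zero_iff.mpr hx

/-- the Kummer newness relation is stable under `f ↦ κ₀ • (f * h₀ ^ m)`. -/
theorem normHyp_smul_mul_pow (φ : F →ₐ[K] F₁)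
    (hfin : letI := algebraAlong φ; Module.Finite F F₁) {m : ℕ} {f h₀ : F₁} {κ₀ : K}
    (hκ₀ : κ₀ ≠ 0) (hh₀ : h₀ ≠ 0)
    (hN : ∃ (κ : K) (g : F), κ ≠ 0 ∧ g ≠ 0 ∧ normAlong φ f = κ • g ^ m) :
    ∃ (κ : K) (g : F), κ ≠ 0 ∧ g ≠ 0 ∧ normAlong φ (κ₀ • (f * h₀ ^ m)) = κ • g ^ m := by
  obtain ⟨κ, g, hκ, hg, hN⟩ := hN
  refine ⟨κ₀ ^ (letI := algebraAlong φ; Module.finrank F F₁) * κ, g * normAlong φ h₀,
    mul_ne_zero (pow_ne_zero _ hκ₀) hκ, mul_ne_zero hg (normAlong_ne_zero φ hfin hh₀), ?_⟩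
  rw [normAlong_smul_const, normAlong_mul, normAlong_pow, hN, mul_pow, mul_smul, smul_mul_assoc]

end Generic

/-- **D3(b)** (statement): descent of an inertia-fixed Kummer generator to a finite subfield of the inertia field, up to
a constant and an `m`-th power. -/
def InertDescStmt (N : ℕ) [NeZero N] (A : ValuationSubring Qbar) : Prop :=
  ∀ m : ℕ, m ≠ 0 → ∀ f : Fbar N, f ≠ 0 →
    (∀ τ ∈ A.inertiaSubgroupIn ℚ, ∃ (κ : Qbar) (h : Fbar N), κ ≠ 0 ∧ h ≠ 0 ∧
      gB N τ f = κ • (f * h ^ m)) →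
    ∃ K : IntermediateField ℚ Qbar, FiniteDimensional ℚ K ∧ InertFixed A K ∧
      ∃ (fK : FK N K) (κ₀ : Qbar) (h₀ : Fbar N), κ₀ ≠ 0 ∧ h₀ ≠ 0 ∧ fK ≠ 0 ∧
        PlaceExtend27.baseChangeHom N K fK = κ₀ • (f * h₀ ^ m)

set_option maxHeartbeats 2000000 in
/-- **D3(c)** (statement): newness over `K`: a Kummer newness relation over `ℚ̄` for `bc f_K` descends to the same
finite `K`. -/
def NewOverKStmt (q M' : ℕ) [NeZero M'] [NeZero q] : Prop :=
  ∀ K : IntermediateField ℚ Qbar, FiniteDimensional ℚ K → ∀ m : ℕ, m ≠ 0 →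
    ∀ fK : FK (M' * q * q) K, fK ≠ 0 →
    ((∃ (κ : Qbar) (g : Fbar (M' * q)), κ ≠ 0 ∧ g ≠ 0 ∧
        normAlong (heckeAlphaBar Qbar (M' * q) q)
          (PlaceExtend27.baseChangeHom (M' * q * q) K fK) = κ • g ^ m) →
      ∃ (κ : K) (g : FK (M' * q) K), κ ≠ 0 ∧ g ≠ 0 ∧
        normAlong (Fermat.Agent.ES.N34.ModelDefs9.alpha K (M' * q) q) fK = κ • g ^ m) ∧
    ((∃ (κ : Qbar) (g : Fbar (M' * q)), κ ≠ 0 ∧ g ≠ 0 ∧
        normAlong (heckeBetaBar Qbar (M' * q) q)
          (PlaceExtend27.baseChangeHom (M' * q * q) K fK) = κ • g ^ m) →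
      ∃ (κ : K) (g : FK (M' * q) K), κ ≠ 0 ∧ g ≠ 0 ∧
        normAlong (Fermat.Agent.ES.N34.ModelDefs9.beta K (M' * q) q) fK = κ • g ^ m)

set_option maxHeartbeats 2000000 in
/-- **DESC-P assembled.** -/
theorem descInertStmt_of_parts {q M' : ℕ} [NeZero M'] [NeZero q] (hq : q.Prime)
    {A : ValuationSubring Qbar} (hb : InertDescStmt (M' * q * q) A) (hc : NewOverKStmt q M') :
    DescInertStmt q M' A := by
  intro m hm f hf hord hI hα hβ
  have hm0 : m ≠ 0 := fun h0 => hm (h0 ▸ dvd_zero q)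
  have hdvd : q ∣ M' * q := dvd_mul_left q M'
  obtain ⟨K, hfin, hfix, fK, κ₀, h₀, hκ₀, hh₀, hfK0, hbc⟩ := hb m hm0 f hf hI
  haveI := hfin
  have hκ₀F : algebraMap Qbar (Fbar (M' * q * q)) κ₀ ≠ 0 := (map_ne_zero _).mpr hκ₀
  refine ⟨K, hfin, hfix, fK, κ₀, h₀, hκ₀, hh₀, hfK0, hbc, ?_, ?_, ?_⟩
  · -- orders
    apply DescLiftP12.dvd_ord_of_baseChange (M' * q * q) K
    intro v
    rw [hbc, Algebra.smul_def, v.ord_mul hκ₀F (mul_ne_zero hf (pow_ne_zero m hh₀)),
      Fermat.Agent.X0.FF.ord_algebraMap, zero_add, v.ord_mul hf (pow_ne_zero m hh₀),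
      ← zpow_natCast h₀ m, v.ord_zpow]
    exact dvd_add (hord v) (Dvd.intro _ rfl)
  · -- `α`
    refine (hc K hfin m hm0 fK hfK0).1 ?_
    rw [hbc]
    exact normHyp_smul_mul_pow _
      (Fermat.Agent.ES.P36.HeckeDeg19.finiteAlong_alpha_of_dvd Qbar (M' * q) q hq hdvd) hκ₀ hh₀ hα
  · -- `β`
    refine (hc K hfin m hm0 fK hfK0).2 ?_
    rw [hbc]
    exact normHyp_smul_mul_pow _
      (Fermat.Agent.ES.P36.HeckeDeg19.finiteAlong_beta_of_dvd Qbar (M' * q) q hq hdvd) hκ₀ hh₀ hβ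

end Fermat.Agent.ES.P36.DescAsmP12
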