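/-
S36 / Program P, brick D3 (helper1), abstract tools for the descent to the inertia field:

* `hilbert90` : Hilbert 90 for a finite group acting faithfully on a field by ring automorphisms
  (Dedekind independence): a 1-cocycle `h : G → Fˣ` is a coboundary, in the form
  `∃ b ≠ 0, ∀ σ, ρ σ b = (h σ)⁻¹ * b`;
* `lcHom : LaurentSeries K →*₀ K` : the leading coefficient as a monoid-with-zero homomorphism, and
  its compatibility with coefficientwise maps (`lcHom_coeffMap`) and constants (`lcHom_algebraMap`).
-/
import Mathlib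
import Fermat.Prelude.Def_ModularCurve_LaurentCoeff

set_option autoImplicit false
set_option linter.unusedSectionVars false

namespace Fermat.Agent.ES.P36.DescTools1

open HahnSeries ModularCurve

noncomputable section

/-! ### Hilbert 90 -/

section H90

variable {F : Type*} [Field F] {G : Type*} [Group G] [Fintype G]
  (ρ : G → (F ≃+* F)) (hmul : ∀ σ τ : G, ∀ x : F, ρ (σ * τ) x = ρ σ (ρ τ x))
  (hinj : ∀ σ τ : G, (∀ x : F, ρ σ x = ρ τ x) → σ = τ)

include hmul hinj in
/-- **Hilbert 90** (finite group acting faithfully on a field). -/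
theorem hilbert90 (h : G → F) (h0 : ∀ σ, h σ ≠ 0)
    (hcoc : ∀ σ τ : G, h (σ * τ) = h σ * ρ σ (h τ)) :
    ∃ b : F, b ≠ 0 ∧ ∀ σ : G, ρ σ b = (h σ)⁻¹ * b := by
  classical
  -- Dedekind independence
  let χ : G → (F →* F) := fun σ => (ρ σ : F ≃+* F).toRingHom.toMonoidHom
  have hχinj : Function.Injective χ := by
    intro σ τ hst
    apply hinj
    intro x
    exact congrArg (fun f : F →* F => f x) hst
  have hli : LinearIndependent F (fun σ : G => ((χ σ : F →* F) : F → F)) :=
    (linearIndependent_monoidHom F F).comp χ hχinj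
  have hex : ∃ x : F, ∑ τ : G, h τ * ρ τ x ≠ 0 := by
    by_contra hcon
    push Not at hcon
    have h1 : ∑ τ : G, h τ • ((χ τ : F →* F) : F → F) = 0 := by
      funext x
      rw [Finset.sum_apply]
      simpa [χ] using hcon x
    have h2 := Fintype.linearIndependent_iff.mp hli h h1
    obtain ⟨σ⟩ : Nonempty G := ⟨1⟩
    exact h0 σ (h2 σ)
  obtain ⟨x, hx⟩ := hex
  refine ⟨∑ τ : G, h τ * ρ τ x, hx, fun σ => ?_⟩
  have hσ0 : h σ ≠ 0 := h0 σ
  rw [map_sum, Finset.mul_sum]
  rw [← Equiv.sum_comp (Equiv.mulLeft σ) (fun τ => (h σ)⁻¹ * (h τ * ρ τ x))]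
  refine Finset.sum_congr rfl fun τ _ => ?_
  simp only [Equiv.coe_mulLeft]
  rw [map_mul, hcoc, hmul]
  field_simp

end H90

/-! ### Leading coefficients -/

section Lead

variable {K : Type*} [Field K]

/-- the leading coefficient as a monoid-with-zero homomorphism. -/
def lcHom : LaurentSeries K →*₀ K where
  toFun x := x.leadingCoeff
  map_zero' := leadingCoeff_zero
  map_one' := leadingCoeff_one
  map_mul' x y := leadingCoeff_mul x y

@[simp] theorem lcHom_apply (x : LaurentSeries K) : lcHom x = x.leadingCoeff := rfl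

theorem lcHom_ne_zero {x : LaurentSeries K} (hx : x ≠ 0) : lcHom x ≠ 0 :=
  leadingCoeff_ne_zero.mpr hx

theorem lcHom_algebraMap (c : K) : lcHom (algebraMap K (LaurentSeries K) c) = c := by
  rw [algebraMap_laurentSeries_eq_single, lcHom_apply, leadingCoeff_of_single]

theorem order_coeffMap {L : Type*} [Field L] (f : K →+* L) (x : LaurentSeries K) :
    (coeffMap f x).order = x.order := by
  rcases eq_or_ne x 0 with rfl | hx
  · simp
  have hy : coeffMap f x ≠ 0 := (map_ne_zero_iff _ (by
    intro a b hab
    ext n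
    have := congrArg (fun s : LaurentSeries L => s.coeff n) hab
    exact f.injective (by simpa using this))).mpr hx
  apply le_antisymm
  · apply order_le_of_coeff_ne_zero
    rw [coeffMap_coeff]
    exact (map_ne_zero f).mpr (fun h0 => hx (coeff_order_eq_zero.mp h0))
  · by_contra hlt
    rw [not_le] at hlt
    have h1 : (coeffMap f x).coeff (coeffMap f x).order ≠ 0 :=
      fun h0 => hy (coeff_order_eq_zero.mp h0)
    rw [coeffMap_coeff, coeff_eq_zero_of_lt_order hlt, map_zero] at h1
    exact h1 rfl

theorem lcHom_coeffMap {L : Type*} [Field L] (f : K →+* L) (x : LaurentSeries K) :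
    lcHom (coeffMap f x) = f (lcHom x) := by
  rw [lcHom_apply, lcHom_apply, leadingCoeff_eq, leadingCoeff_eq, order_coeffMap, coeffMap_coeff]

end Lead

end

end Fermat.Agent.ES.P36.DescTools1
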