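/-
S36 / Program P, brick D3(b) (helper1): **descent to the inertia field, field form**.

`f ∈ ℚ̄·F_N` nonzero with `τ f = κ_τ · f · h_τ^m` for every `τ` in the inertia group `I_A`
(`m ≠ 0`).  Then there are a finite `K ≤ ℚ̄` fixed pointwise by `I_A`, `f_K ∈ K·F_N`, a constant `κ₀`
and `h₀ ∈ ℚ̄·F_N` with `bc f_K = κ₀ · f · h₀^m`.

Proof: all data live over a finite normal `K₂`; the finite group `G = image of I_A in Gal(K₂/ℚ)`
acts faithfully on `K₂·F_N`; after normalising the `h_σ` by leading `𝐪`-coefficient `1` they form an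
exact 1-cocycle (a function `r` with `r^m` constant is constant, and its leading coefficient is `1`);
Hilbert 90 (`DescTools1.hilbert90`) twice (functions, then constants) makes `f₂ · b^m · a₀`
`G`-invariant; its coefficients lie in `L = K₂ ⊓ fixedField I_A`, and the `q`-expansion principle
`LaurentExt24.mem_range_bc_iff` descends it to `L·F_N`.
-/
import Mathlib
import Fermat.Agent.ES.P36.DescTools1
import Fermat.Agent.ES.N34.GalDescent1
import Fermat.Agent.ES.N34.IfaceN4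
import Fermat.Agent.J.DESC.LaurentExt24
import Fermat.Agent.ES.P36.InertField27

set_option autoImplicit false
set_option linter.unusedSectionVars false
set_option linter.style.haveILetI false

noncomputable section

namespace Fermat.Agent.ES.P36.DescInert1

open AlgebraicCurve ModularCurve HahnSeries IntermediateField
open Fermat.Agent.X0 Fermat.Agent.RED.Interface4 Fermat.Agent.RED.DESC Fermat.Agent.RED.TOP
open Fermat.Agent.ES.N34.IfaceN4 Fermat.Agent.ES.N34.GalDescent1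
open Fermat.Agent.ES.P36.DescTools1
open Fermat.Agent.ES.P36.InertField27 (InertFixed)

section Equivariance

variable (N : ℕ) (K : IntermediateField ℚ Qbar)

/-- the base change commutes with the coefficientwise Galois actions (`K` normal). -/
theorem bc_gK [Normal ℚ K] (τ : Qbar ≃ₐ[ℚ] Qbar) (x : FK N K) :
    PlaceExtend27.baseChangeHom N K (gK N K (τ.restrictNormal K) x) =
      gB N τ (PlaceExtend27.baseChangeHom N K x) :=
  baseChangeHom_smul N K τ x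

/-- a constant of `K` as a scalar: `bc (c • x) = c • bc x`. -/
theorem bc_smul_const (c : K) (x : FK N K) :
    PlaceExtend27.baseChangeHom N K (c • x) =
      ((c : K) : Qbar) • PlaceExtend27.baseChangeHom N K x := by
  rw [Algebra.smul_def, Algebra.smul_def, map_mul, PlaceExtend27.baseChangeHom_algebraMap]

end Equivariance

/-! ### Finite level -/

section FiniteLevel

variable (N : ℕ) [NeZero N] (A : ValuationSubring Qbar) (m : ℕ)

/-- descent of one element to a finite normal field containing a given finite field. -/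
theorem exists_normal_descent (K₀ : IntermediateField ℚ Qbar) [FiniteDimensional ℚ K₀]
    (T : Finset (LaurentSeries Qbar)) (hT : ∀ x ∈ T, x ∈ Fbar N) :
    ∃ K : IntermediateField ℚ Qbar, K₀ ≤ K ∧ FiniteDimensional ℚ K ∧ Normal ℚ K ∧
      ∀ x ∈ T, ∃ x' : FK N K, ((PlaceExtend27.baseChangeHom N K x' : Fbar N) :
        LaurentSeries Qbar) = x := by
  obtain ⟨K₁, hK₀K₁, hfin₁, hdesc₁⟩ := DescMain27.exists_common_descent N K₀ T hT
  have := hfin₁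
  have halgQ : Algebra.IsAlgebraic ℚ Qbar := NumberFieldDVR27.isAlgebraic_Qbar
  have hgal : IsGalois ℚ Qbar := Fermat.Agent.Lib.FrobeniusExists.isGalois_Qbar
  have hnorQ : Normal ℚ Qbar := hgal.to_normal
  let K : IntermediateField ℚ Qbar := IntermediateField.normalClosure ℚ K₁ Qbar
  have hK₁K : K₁ ≤ K := IntermediateField.le_normalClosure K₁
  have hfinK : FiniteDimensional ℚ K := normalClosure.is_finiteDimensional ℚ K₁ Qbar
  have hnorK : Normal ℚ K := normalClosure.normal ℚ K₁ Qbar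
  refine ⟨K, hK₀K₁.trans hK₁K, hfinK, hnorK, fun x hx => ?_⟩
  obtain ⟨x₁, hx₁, hxx₁⟩ := hdesc₁ x hx
  obtain ⟨x₂, hx₂, hxx₂⟩ := CoeffDescent1.exists_lift_of_le hK₁K hx₁
  exact ⟨⟨x₂, hx₂⟩, hxx₂.trans hxx₁⟩

/-- **Finite level**: all the data of an `I_A`-fixed Kummer class live over one finite normal
number field. -/
theorem exists_finite_level (f : Fbar N)
    (hτ : ∀ τ ∈ A.inertiaSubgroupIn ℚ, ∃ (κ : Qbar) (h : Fbar N), κ ≠ 0 ∧ h ≠ 0 ∧
      gB N τ f = κ • (f * h ^ m)) :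
    ∃ K₂ : IntermediateField ℚ Qbar, FiniteDimensional ℚ K₂ ∧ ∃ _ : Normal ℚ K₂,
      ∃ f₂ : FK N K₂, PlaceExtend27.baseChangeHom N K₂ f₂ = f ∧
        ∀ τ ∈ A.inertiaSubgroupIn ℚ, ∃ (κ₂ : K₂) (h₂ : FK N K₂), κ₂ ≠ 0 ∧ h₂ ≠ 0 ∧
          gK N K₂ (τ.restrictNormal K₂) f₂ = κ₂ • (f₂ * h₂ ^ m) := by
  classical
  -- `f` over a finite normal `K₁`
  obtain ⟨K₁, -, hfin₁, hnor₁, hdesc₁⟩ := exists_normal_descent N (⊥ : IntermediateField ℚ Qbar)
    ({(f : LaurentSeries Qbar)} : Finset (LaurentSeries Qbar))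
    (by intro x hx; rw [Finset.mem_singleton] at hx; rw [hx]; exact f.2)
  have := hfin₁
  have := hnor₁
  obtain ⟨f₁, hf₁'⟩ := hdesc₁ _ (Finset.mem_singleton_self _)
  have hf₁ : PlaceExtend27.baseChangeHom N K₁ f₁ = f := Subtype.ext hf₁'
  -- the finitely many `(κ, h)`
  have hex : ∀ σ₁ : K₁ ≃ₐ[ℚ] K₁, ∃ (κ : Qbar) (h : Fbar N), κ ≠ 0 ∧ h ≠ 0 ∧
      ((∃ τ ∈ A.inertiaSubgroupIn ℚ, τ.restrictNormal K₁ = σ₁) →
        PlaceExtend27.baseChangeHom N K₁ (gK N K₁ σ₁ f₁) = κ • (f * h ^ m)) := by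
    intro σ₁
    by_cases hP : ∃ τ ∈ A.inertiaSubgroupIn ℚ, τ.restrictNormal K₁ = σ₁
    · obtain ⟨τ, hτI, hτσ⟩ := hP
      obtain ⟨κ, h, hκ, hh, hκh⟩ := hτ τ hτI
      refine ⟨κ, h, hκ, hh, fun _ => ?_⟩
      rw [← hτσ, bc_gK, hf₁, hκh]
    · exact ⟨1, 1, one_ne_zero, one_ne_zero, fun h => absurd h hP⟩
  choose κ h hκ hh hκh using hex
  let T : Finset (LaurentSeries Qbar) :=
    (Finset.univ.image (fun σ₁ : K₁ ≃ₐ[ℚ] K₁ => ((h σ₁ : Fbar N) : LaurentSeries Qbar))) ∪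
      (Finset.univ.image (fun σ₁ : K₁ ≃ₐ[ℚ] K₁ =>
        ((algebraMap Qbar (Fbar N) (κ σ₁) : Fbar N) : LaurentSeries Qbar)))
  have hT : ∀ x ∈ T, x ∈ Fbar N := by
    intro x hx
    simp only [T, Finset.mem_union, Finset.mem_image, Finset.mem_univ, true_and] at hx
    rcases hx with ⟨σ₁, rfl⟩ | ⟨σ₁, rfl⟩
    · exact (h σ₁).2
    · exact (algebraMap Qbar (Fbar N) (κ σ₁)).2
  obtain ⟨K₂, hK₁K₂, hfin₂, hnor₂, hdesc₂⟩ := exists_normal_descent N K₁ T hT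
  have := hfin₂
  have := hnor₂
  -- the lifted `f`
  have halgQ : Algebra.IsAlgebraic ℚ Qbar := NumberFieldDVR27.isAlgebraic_Qbar
  obtain ⟨f₂', hf₂', hff₂⟩ := CoeffDescent1.exists_lift_of_le hK₁K₂ f₁.2
  set f₂ : FK N K₂ := ⟨f₂', hf₂'⟩ with hf₂def
  have hf₂ : PlaceExtend27.baseChangeHom N K₂ f₂ = f := by
    rw [← hf₁]
    exact Subtype.ext hff₂
  refine ⟨K₂, hfin₂, hnor₂, f₂, hf₂, fun τ hτI => ?_⟩
  set σ₁ : K₁ ≃ₐ[ℚ] K₁ := τ.restrictNormal K₁ with hσ₁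
  have hrel := hκh σ₁ ⟨τ, hτI, rfl⟩
  rw [hσ₁, bc_gK, hf₁] at hrel
  -- descend `h σ₁` and `κ σ₁`
  obtain ⟨h₂, hh₂⟩ := hdesc₂ ((h σ₁ : Fbar N) : LaurentSeries Qbar) (by
    simp only [T, Finset.mem_union, Finset.mem_image, Finset.mem_univ, true_and]
    exact Or.inl ⟨σ₁, rfl⟩)
  obtain ⟨c₂, hc₂⟩ := hdesc₂ ((algebraMap Qbar (Fbar N) (κ σ₁) : Fbar N) : LaurentSeries Qbar) (by
    simp only [T, Finset.mem_union, Finset.mem_image, Finset.mem_univ, true_and]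
    exact Or.inr ⟨σ₁, rfl⟩)
  have hbh₂ : PlaceExtend27.baseChangeHom N K₂ h₂ = h σ₁ := Subtype.ext hh₂
  have hbc₂ : PlaceExtend27.baseChangeHom N K₂ c₂ = algebraMap Qbar (Fbar N) (κ σ₁) :=
    Subtype.ext hc₂
  -- the constant `κ σ₁` lies in `K₂`
  set κ₂ : K₂ := (c₂ : LaurentSeries K₂).coeff 0 with hκ₂
  have hκ₂coe : ((κ₂ : K₂) : Qbar) = κ σ₁ := by
    have h1 := congrArg (fun y : Fbar N => (y : LaurentSeries Qbar).coeff 0) hbc₂
    simp only [PlaceExtend27.coe_baseChangeHom, coeffMap_coeff] at h1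
    refine Eq.trans ?_ (h1.trans ?_)
    · rfl
    · show (algebraMap Qbar (LaurentSeries Qbar) (κ σ₁)).coeff 0 = κ σ₁
      rw [algebraMap_laurentSeries_eq_single, HahnSeries.coeff_single_same]
  have hκ₂0 : κ₂ ≠ 0 := by
    intro h0
    apply hκ σ₁
    rw [← hκ₂coe, h0]
    rfl
  have hh₂0 : h₂ ≠ 0 := by
    intro h0
    apply hh σ₁
    rw [← hbh₂, h0, map_zero]
  refine ⟨κ₂, h₂, hκ₂0, hh₂0, ?_⟩
  apply PlaceExtend27.baseChangeHom_injective N K₂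
  rw [bc_gK, hf₂, hrel, bc_smul_const, map_mul, map_pow, hf₂, hbh₂, hκ₂coe]

end FiniteLevel

/-! ### Leading coefficients on `K·F_N` -/

section LeadK

variable (N : ℕ) (K : IntermediateField ℚ Qbar)

/-- the leading `𝐪`-coefficient on `K·F_N`. -/
def lcK : FK N K →*₀ K :=
  lcHom.comp ((FK N K).val.toRingHom : FK N K →+* LaurentSeries K).toMonoidWithZeroHom

theorem lcK_apply (x : FK N K) : lcK N K x = (x : LaurentSeries K).leadingCoeff := rfl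

theorem lcK_ne_zero {x : FK N K} (hx : x ≠ 0) : lcK N K x ≠ 0 := by
  rw [lcK_apply]
  apply leadingCoeff_ne_zero.mpr
  intro h0
  exact hx (Subtype.ext h0)

theorem lcK_algebraMap (c : K) : lcK N K (algebraMap K (FK N K) c) = c :=
  lcHom_algebraMap c

theorem lcK_smul (c : K) (x : FK N K) : lcK N K (c • x) = c * lcK N K x := by
  rw [Algebra.smul_def, map_mul, lcK_algebraMap]

theorem lcK_gK (σ : K ≃ₐ[ℚ] K) (x : FK N K) : lcK N K (gK N K σ x) = σ (lcK N K x) :=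
  lcHom_coeffMap (σ : K →+* K) (x : LaurentSeries K)

/-- a function whose `m`-th power is a constant is a constant. -/
theorem eq_algebraMap_of_pow_eq [NeZero N] {m : ℕ} (hm : m ≠ 0) (r : FK N K) (c : K)
    (hr : r ^ m = algebraMap K (FK N K) c) : r = algebraMap K (FK N K) (lcK N K r) := by
  -- `bc r` is algebraic over `ℚ̄`, hence constant
  have halg : IsAlgebraic Qbar (PlaceExtend27.baseChangeHom N K r) := by
    refine ⟨Polynomial.X ^ m - Polynomial.C ((c : K) : Qbar), ?_, ?_⟩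
    · exact Polynomial.X_pow_sub_C_ne_zero (Nat.pos_of_ne_zero hm) _
    · rw [map_sub, map_pow, Polynomial.aeval_X, Polynomial.aeval_C, ← map_pow, hr,
        PlaceExtend27.baseChangeHom_algebraMap, sub_self]
  obtain ⟨c', hc'⟩ := FF.eq_algebraMap_of_isAlgebraic halg
  -- all coefficients of `r` away from `0` vanish
  have hcoeff : ∀ n : ℤ, n ≠ 0 → (r : LaurentSeries K).coeff n = 0 := by
    intro n hn
    have h1 := congrArg (fun y : Fbar N => (y : LaurentSeries Qbar).coeff n) hc'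
    simp only [PlaceExtend27.coe_baseChangeHom, coeffMap_coeff] at h1
    have h2 : ((algebraMap Qbar (Fbar N) c' : Fbar N) : LaurentSeries Qbar).coeff n = 0 := by
      show (algebraMap Qbar (LaurentSeries Qbar) c').coeff n = 0
      rw [algebraMap_laurentSeries_eq_single, HahnSeries.coeff_single_of_ne hn]
    rw [h2] at h1
    exact (algebraMap K Qbar).injective (by rw [h1, map_zero])
  have hsingle : (r : LaurentSeries K) = HahnSeries.single 0 ((r : LaurentSeries K).coeff 0) := by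
    ext n
    rcases eq_or_ne n 0 with rfl | hn
    · rw [HahnSeries.coeff_single_same]
    · rw [HahnSeries.coeff_single_of_ne hn, hcoeff n hn]
  have hlc : lcK N K r = (r : LaurentSeries K).coeff 0 := by
    rw [lcK_apply]
    conv_lhs => rw [hsingle]
    exact leadingCoeff_of_single
  apply Subtype.ext
  rw [hlc]
  show (r : LaurentSeries K) = algebraMap K (LaurentSeries K) _
  rw [algebraMap_laurentSeries_eq_single]
  exact hsingle

end LeadK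

/-! ### Cocycles at finite level -/

section Cocycle

variable (N : ℕ) [NeZero N] (K₂ : IntermediateField ℚ Qbar)
  (G : Subgroup (K₂ ≃ₐ[ℚ] K₂)) [Fintype G] {m : ℕ} (hm : m ≠ 0)
  (f₂ : FK N K₂) (hf₂0 : f₂ ≠ 0)
  (κ' : G → K₂) (h' : G → FK N K₂) (hκ'0 : ∀ σ, κ' σ ≠ 0) (hh'0 : ∀ σ, h' σ ≠ 0)
  (hlc' : ∀ σ, lcK N K₂ (h' σ) = 1)
  (hrel' : ∀ σ : G, gK N K₂ σ.1 f₂ = κ' σ • (f₂ * h' σ ^ m))

theorem gK_mul (σ τ : K₂ ≃ₐ[ℚ] K₂) (x : FK N K₂) :
    gK N K₂ (σ * τ) x = gK N K₂ σ (gK N K₂ τ x) := by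
  apply Subtype.ext
  show coeffMap _ _ = coeffMap _ (coeffMap _ _)
  rw [coeffMap_coeffMap]
  exact coeffMap_congr (RingHom.ext fun _ => rfl) _

theorem gK_algebraMap (σ : K₂ ≃ₐ[ℚ] K₂) (c : K₂) :
    gK N K₂ σ (algebraMap K₂ (FK N K₂) c) = algebraMap K₂ (FK N K₂) (σ c) :=
  arithmeticRingAut_algebraMap (modularFunctionFieldFull N) σ c

theorem gK_smul (σ : K₂ ≃ₐ[ℚ] K₂) (c : K₂) (x : FK N K₂) :
    gK N K₂ σ (c • x) = (σ c) • gK N K₂ σ x := by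
  rw [Algebra.smul_def, Algebra.smul_def, map_mul, gK_algebraMap]

theorem gK_injective (σ τ : K₂ ≃ₐ[ℚ] K₂) (hst : ∀ x : FK N K₂, gK N K₂ σ x = gK N K₂ τ x) :
    σ = τ := by
  apply AlgEquiv.ext
  intro c
  have h1 := hst (algebraMap K₂ (FK N K₂) c)
  rw [gK_algebraMap, gK_algebraMap] at h1
  exact (algebraMap K₂ (FK N K₂)).injective h1

include hm hf₂0 hκ'0 hh'0 hlc' hrel' in
/-- the normalised `h'` form an exact cocycle. -/
theorem cocycle_h (σ τ : G) :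
    h' (σ * τ) = h' σ * gK N K₂ σ.1 (h' τ) := by
  have hA0 : ∀ c : K₂, c ≠ 0 → algebraMap K₂ (FK N K₂) c ≠ 0 := fun c hc =>
    (_root_.map_ne_zero _).mpr hc
  have hR0 : gK N K₂ σ.1 (h' τ) ≠ 0 := (_root_.map_ne_zero _).mpr (hh'0 τ)
  have hden : h' σ * gK N K₂ σ.1 (h' τ) ≠ 0 := mul_ne_zero (hh'0 σ) hR0
  obtain ⟨r, hr⟩ : ∃ r : FK N K₂, r = h' (σ * τ) / (h' σ * gK N K₂ σ.1 (h' τ)) := ⟨_, rfl⟩
  -- `r ^ m` is a constant
  have h1 : gK N K₂ (σ * τ : G).1 f₂ = κ' (σ * τ) • (f₂ * h' (σ * τ) ^ m) := hrel' (σ * τ)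
  have h2 : gK N K₂ (σ * τ : G).1 f₂ =
      (σ.1 (κ' τ)) • ((κ' σ • (f₂ * h' σ ^ m)) * (gK N K₂ σ.1 (h' τ)) ^ m) := by
    rw [Subgroup.coe_mul, gK_mul, hrel' τ, gK_smul, map_mul, map_pow, hrel' σ]
  have hpow : r ^ m = algebraMap K₂ (FK N K₂) (σ.1 (κ' τ) * κ' σ / κ' (σ * τ)) := by
    rw [h1] at h2
    simp only [Algebra.smul_def] at h2
    rw [hr, div_pow, map_div₀, map_mul]
    have hk0 := hA0 _ (hκ'0 (σ * τ))
    rw [div_eq_div_iff (pow_ne_zero _ hden) hk0]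
    have h3 : f₂ * (h' (σ * τ) ^ m * algebraMap K₂ (FK N K₂) (κ' (σ * τ))) =
        f₂ * (algebraMap K₂ (FK N K₂) (σ.1 (κ' τ)) * algebraMap K₂ (FK N K₂) (κ' σ) *
          (h' σ * gK N K₂ σ.1 (h' τ)) ^ m) := by
      rw [mul_pow]
      linear_combination h2
    exact mul_left_cancel₀ hf₂0 h3
  have hconst := eq_algebraMap_of_pow_eq N K₂ hm r _ hpow
  have hlcr : lcK N K₂ r = 1 := by
    rw [hr, map_div₀, map_mul, hlc', hlc', lcK_gK, hlc', map_one, mul_one, div_one]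
  rw [hlcr, map_one] at hconst
  rw [hr, div_eq_one_iff_eq hden] at hconst
  exact hconst

include hf₂0 hκ'0 hh'0 hrel' in
/-- **Hilbert 90 twice**: a `G`-invariant function in the class of `f₂`, from an exact cocycle. -/
theorem exists_invariant_of_cocycle
    (hcoc : ∀ σ τ : G, h' (σ * τ) = h' σ * gK N K₂ σ.1 (h' τ)) :
    ∃ (a₀ : K₂) (b : FK N K₂), a₀ ≠ 0 ∧ b ≠ 0 ∧
      ∀ σ : G, gK N K₂ σ.1 (a₀ • (f₂ * b ^ m)) = a₀ • (f₂ * b ^ m) := by
  classical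
  have hA0 : ∀ c : K₂, c ≠ 0 → algebraMap K₂ (FK N K₂) c ≠ 0 := fun c hc =>
    (_root_.map_ne_zero _).mpr hc
  obtain ⟨b, hb0, hb⟩ := hilbert90 (fun σ : G => gK N K₂ σ.1)
    (fun σ τ x => by rw [Subgroup.coe_mul, gK_mul])
    (fun σ τ hst => Subtype.ext (gK_injective N K₂ σ.1 τ.1 hst)) h' hh'0 hcoc
  -- `f' = f₂ * b ^ m` is an eigenfunction
  obtain ⟨f', hf'_def⟩ : ∃ f' : FK N K₂, f' = f₂ * b ^ m := ⟨_, rfl⟩
  have hf'0 : f' ≠ 0 := by rw [hf'_def]; exact mul_ne_zero hf₂0 (pow_ne_zero _ hb0)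
  have hf' : ∀ σ : G, gK N K₂ σ.1 f' = κ' σ • f' := by
    intro σ
    have hbσ : gK N K₂ σ.1 b = (h' σ)⁻¹ * b := hb σ
    rw [hf'_def, map_mul, map_pow, hbσ, hrel' σ, Algebra.smul_def, Algebra.smul_def, mul_pow,
      inv_pow]
    have := pow_ne_zero m (hh'0 σ)
    field_simp
  -- the constants form a cocycle
  have hcocκ : ∀ σ τ : G, κ' (σ * τ) = κ' σ * σ.1 (κ' τ) := by
    intro σ τ
    have h1 := hf' (σ * τ)
    rw [Subgroup.coe_mul, gK_mul, hf' τ, gK_smul, hf' σ] at h1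
    simp only [Algebra.smul_def] at h1
    have h2 : algebraMap K₂ (FK N K₂) (σ.1 (κ' τ) * κ' σ) * f' =
        algebraMap K₂ (FK N K₂) (κ' (σ * τ)) * f' := by
      rw [map_mul]; linear_combination h1
    have h3 := (algebraMap K₂ (FK N K₂)).injective (mul_right_cancel₀ hf'0 h2)
    rw [← h3]; ring
  obtain ⟨a₀, ha₀0, ha₀⟩ := hilbert90 (fun σ : G => (σ.1.toRingEquiv : K₂ ≃+* K₂))
    (fun _ _ _ => rfl)
    (fun σ τ hst => Subtype.ext (AlgEquiv.ext hst)) κ' hκ'0 hcocκ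
  refine ⟨a₀, b, ha₀0, hb0, fun σ => ?_⟩
  rw [← hf'_def, gK_smul, hf' σ]
  have h1 : σ.1 a₀ = (κ' σ)⁻¹ * a₀ := ha₀ σ
  rw [h1, smul_smul, mul_assoc, mul_comm a₀, ← mul_assoc, inv_mul_cancel₀ (hκ'0 σ), one_mul]

include hm hf₂0 hκ'0 hh'0 hlc' hrel' in
/-- **Hilbert 90 twice**, for normalised data (`m ≠ 0`). -/
theorem exists_invariant :
    ∃ (a₀ : K₂) (b : FK N K₂), a₀ ≠ 0 ∧ b ≠ 0 ∧
      ∀ σ : G, gK N K₂ σ.1 (a₀ • (f₂ * b ^ m)) = a₀ • (f₂ * b ^ m) :=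
  exists_invariant_of_cocycle N K₂ G f₂ hf₂0 κ' h' hκ'0 hh'0 hrel'
    (cocycle_h N K₂ G hm f₂ hf₂0 κ' h' hκ'0 hh'0 hlc' hrel')

end Cocycle

/-! ### The descent -/

section Main

variable (N : ℕ) [NeZero N] (A : ValuationSubring Qbar) (m : ℕ)

/-- normalisation of the finite-level data by leading coefficients. -/
theorem exists_normalised (K₂ : IntermediateField ℚ Qbar) (G : Subgroup (K₂ ≃ₐ[ℚ] K₂))
    (f₂ : FK N K₂)
    (hG : ∀ σ : G, ∃ (κ₂ : K₂) (h₂ : FK N K₂), κ₂ ≠ 0 ∧ h₂ ≠ 0 ∧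
      gK N K₂ σ.1 f₂ = κ₂ • (f₂ * h₂ ^ m)) :
    ∃ (κ' : G → K₂) (h' : G → FK N K₂), (∀ σ, κ' σ ≠ 0) ∧ (∀ σ, h' σ ≠ 0) ∧
      (∀ σ, lcK N K₂ (h' σ) = 1) ∧ ∀ σ : G, gK N K₂ σ.1 f₂ = κ' σ • (f₂ * h' σ ^ m) := by
  choose κ h hκ hh hκh using hG
  have ha : ∀ σ, lcK N K₂ (h σ) ≠ 0 := fun σ => lcK_ne_zero N K₂ (hh σ)
  refine ⟨fun σ => κ σ * (lcK N K₂ (h σ)) ^ m, fun σ => (lcK N K₂ (h σ))⁻¹ • h σ,
    fun σ => mul_ne_zero (hκ σ) (pow_ne_zero _ (ha σ)), fun σ => ?_, fun σ => ?_, fun σ => ?_⟩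
  · show (lcK N K₂ (h σ))⁻¹ • h σ ≠ 0
    rw [Algebra.smul_def]
    exact mul_ne_zero ((_root_.map_ne_zero _).mpr (inv_ne_zero (ha σ))) (hh σ)
  · show lcK N K₂ ((lcK N K₂ (h σ))⁻¹ • h σ) = 1
    rw [lcK_smul]
    exact inv_mul_cancel₀ (ha σ)
  · show gK N K₂ σ.1 f₂ =
      (κ σ * (lcK N K₂ (h σ)) ^ m) • (f₂ * ((lcK N K₂ (h σ))⁻¹ • h σ) ^ m)
    rw [hκh σ, smul_pow, mul_smul_comm, smul_smul, inv_pow, mul_assoc,
      mul_inv_cancel₀ (pow_ne_zero _ (ha σ)), mul_one]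

/-- **DESC-P (b), field form.** -/
theorem exists_inert_descent (f : Fbar N) (hf : f ≠ 0)
    (hτ : ∀ τ ∈ A.inertiaSubgroupIn ℚ, ∃ (κ : Qbar) (h : Fbar N), κ ≠ 0 ∧ h ≠ 0 ∧
      gB N τ f = κ • (f * h ^ m)) :
    ∃ K : IntermediateField ℚ Qbar, FiniteDimensional ℚ K ∧ InertFixed A K ∧
      ∃ (fK : FK N K) (κ₀ : Qbar) (h₀ : Fbar N), κ₀ ≠ 0 ∧ h₀ ≠ 0 ∧ fK ≠ 0 ∧
        PlaceExtend27.baseChangeHom N K fK = κ₀ • (f * h₀ ^ m) := by
  classical
  obtain ⟨K₂, hfin₂, hnor₂, f₂, hf₂, hdata⟩ := exists_finite_level N A m f hτ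
  have := hfin₂
  have := hnor₂
  have hf₂0 : f₂ ≠ 0 := by
    rintro rfl
    rw [map_zero] at hf₂
    exact hf hf₂.symm
  -- the finite group `G`
  obtain ⟨G, hGdef⟩ : ∃ G : Subgroup (K₂ ≃ₐ[ℚ] K₂),
      G = (A.inertiaSubgroupIn ℚ).map (AlgEquiv.restrictNormalHom K₂) := ⟨_, rfl⟩
  haveI : Fintype G := Fintype.ofFinite G
  have hGdata : ∀ σ : G, ∃ (κ₂ : K₂) (h₂ : FK N K₂), κ₂ ≠ 0 ∧ h₂ ≠ 0 ∧
      gK N K₂ σ.1 f₂ = κ₂ • (f₂ * h₂ ^ m) := by
    rintro ⟨σ, hσ⟩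
    rw [hGdef] at hσ
    obtain ⟨τ, hτI, rfl⟩ := hσ
    exact hdata τ hτI
  obtain ⟨a₀, b, ha₀0, hb0, hfix⟩ : ∃ (a₀ : K₂) (b : FK N K₂), a₀ ≠ 0 ∧ b ≠ 0 ∧
      ∀ σ : G, gK N K₂ σ.1 (a₀ • (f₂ * b ^ m)) = a₀ • (f₂ * b ^ m) := by
    rcases Nat.eq_zero_or_pos m with hm0 | hmpos
    · -- `m = 0`: the functions `h` play no role
      subst hm0
      choose κ h hκ hh hκh using hGdata
      refine exists_invariant_of_cocycle N K₂ G f₂ hf₂0 κ (fun _ => 1) hκ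
        (fun _ => one_ne_zero) (fun σ => ?_) (fun σ τ => ?_)
      · rw [hκh σ, pow_zero, pow_zero]
      · rw [map_one, mul_one]
    · obtain ⟨κ', h', hκ'0, hh'0, hlc', hrel'⟩ := exists_normalised N m K₂ G f₂ hGdata
      exact exists_invariant N K₂ G hmpos.ne' f₂ hf₂0 κ' h' hκ'0 hh'0 hlc' hrel'
  obtain ⟨f'', hf''_def⟩ : ∃ f'' : FK N K₂, f'' = a₀ • (f₂ * b ^ m) := ⟨_, rfl⟩
  rw [← hf''_def] at hfix
  have hf''0 : f'' ≠ 0 := by
    rw [hf''_def, Algebra.smul_def]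
    exact mul_ne_zero ((_root_.map_ne_zero _).mpr ha₀0) (mul_ne_zero hf₂0 (pow_ne_zero _ hb0))
  -- the field `L`
  obtain ⟨L, hLdef⟩ : ∃ L : IntermediateField ℚ Qbar,
      L = K₂ ⊓ IntermediateField.fixedField (A.inertiaSubgroupIn ℚ) := ⟨_, rfl⟩
  have hLK₂ : L ≤ K₂ := by rw [hLdef]; exact inf_le_left
  have hfinL : FiniteDimensional ℚ L := by
    let ι : L →ₗ[ℚ] K₂ := (IntermediateField.inclusion hLK₂).toLinearMap
    exact FiniteDimensional.of_injective ι (IntermediateField.inclusion hLK₂).injective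
  have hLfix : InertFixed A L := by
    intro τ hτI x hx
    rw [hLdef] at hx
    exact hx.2 ⟨τ, hτI⟩
  have hcoeff : ∀ n : ℤ, (((f'' : LaurentSeries K₂).coeff n : K₂) : Qbar) ∈ L := by
    intro n
    rw [hLdef]
    refine ⟨((f'' : LaurentSeries K₂).coeff n).2, ?_⟩
    rintro ⟨τ, hτI⟩
    have hmem : τ.restrictNormal K₂ ∈ G := by
      rw [hGdef]; exact ⟨τ, hτI, rfl⟩
    have h1 := hfix ⟨τ.restrictNormal K₂, hmem⟩
    have h2 := congrArg (fun y : FK N K₂ => (y : LaurentSeries K₂).coeff n) h1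
    have h3 : (τ.restrictNormal K₂) ((f'' : LaurentSeries K₂).coeff n) =
        (f'' : LaurentSeries K₂).coeff n := h2
    have h4 := AlgEquiv.restrictNormal_commutes τ K₂ ((f'' : LaurentSeries K₂).coeff n)
    rw [h3] at h4
    exact h4.symm
  letI : Algebra L K₂ := (CoeffDescent1.inclRingHom hLK₂).toAlgebra
  have hrange : f'' ∈ Set.range (Fermat.Agent.J.DESC.LaurentExt24.bc (k := L) (K := K₂)
      (modularFunctionFieldFull N)) := by
    rw [Fermat.Agent.J.DESC.LaurentExt24.mem_range_bc_iff]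
    intro n
    exact ⟨⟨_, hcoeff n⟩, Subtype.ext rfl⟩
  obtain ⟨fL, hfL⟩ := hrange
  have hbcL : PlaceExtend27.baseChangeHom N L fL = PlaceExtend27.baseChangeHom N K₂ f'' := by
    apply Subtype.ext
    rw [PlaceExtend27.coe_baseChangeHom, PlaceExtend27.coe_baseChangeHom, ← hfL,
      Fermat.Agent.J.DESC.LaurentExt24.coe_bc, coeffMap_coeffMap]
    exact coeffMap_congr (RingHom.ext fun c => rfl) _
  have hfL0 : fL ≠ 0 := by
    rintro rfl
    rw [map_zero] at hfL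
    exact hf''0 hfL.symm
  refine ⟨L, hfinL, hLfix, fL, ((a₀ : K₂) : Qbar), PlaceExtend27.baseChangeHom N K₂ b, ?_, ?_,
    hfL0, ?_⟩
  · intro h0
    apply ha₀0
    exact Subtype.ext h0
  · exact (_root_.map_ne_zero _).mpr hb0
  · rw [hbcL, hf''_def, bc_smul_const, map_mul, map_pow, hf₂]

end Main

end Fermat.Agent.ES.P36.DescInert1
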