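/-
S36 scouting, chapter (SS), brick (D1.3)+(D1.4) [note `S36_REG2.md`], helper2:
**THETA–KRONECKER**: pure `𝐪`-series algebra over `ℤ` behind "the different exponent of `w₂ | v₀` is `1`".

Input: the modular equation of prime level `q` in the literal shape of `Interface20.P0`
(`Φ ∈ ℤ[Y][X]` monic of `X`-degree `q + 1`, `Φ(X := j(𝐪^q), Y := j) = 0`, `Φ(X := j, Y := j(𝐪^q)) = 0`).

Output (`main`), with `Φ_X = Polynomial.derivative Φ`, bars = reduction of the coefficients mod `q`:
 (a) `Φ_X(X := j(𝐪^q), Y := j)` has NONZERO reduction mod `q`             (a Gauss unit:  `w₁(G'(βj)) = 0`);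
 (b) `Φ_X(X := j, Y := j(𝐪^q)) * θj = q * u` with `ū ≠ 0` and `θj` of nonzero reduction
     (so `Φ_X(j, j(𝐪^q)) = q ·` Gauss unit: after the Fricke involution this is `w₂(G'(βj)) = v(q)`).

Ingredients proved here:
 * `dInner` (partial derivative in the inner variable) and the two-variable chain rule `chain_rule` for an
   additive map with the Leibniz rule;
 * the Kronecker congruence in the elementary form `kronecker_of_two_roots`:
   over a domain, a monic `P` of `X`-degree `q + 1` with `P(Y^q, Y) = 0` and `P(T, T^q) = 0` IS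
   `(X - Y^q) * (X^q - Y)` (two divisions; `1, T, …, T^{q-1}` are independent over `k[T^q]`).
-/
import Mathlib
import Fermat.Prelude.Def_ModularCurve_X0ModL
import Fermat.Agent.IG.PR.Theta20
import Fermat.Agent.IG.PR.ThetaV1
import Fermat.Agent.IG.PR.Interface20
import Fermat.Agent.IG.AN.ModPoly3
import Fermat.Agent.IG.VAL.OvBasics22
import Fermat.Agent.ES.KRON.KronCong24

set_option autoImplicit false

noncomputable section

open HahnSeries ModularCurve Polynomial

namespace Fermat.Agent.ES.P36.ThetaKron2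

open Fermat.Agent.IG.PR.Theta20 Fermat.Agent.IG.PR.Interface20

/-! ### The inner partial derivative -/

section DInner

variable {R : Type*} [CommRing R]

/-- The partial derivative of `P ∈ R[Y][X]` in the INNER variable `Y` (coefficientwise derivative). -/
def dInner : R[X][X] →ₗ[R] R[X][X] :=
  Polynomial.lsum fun n =>
    ((Polynomial.monomial n : R[X] →ₗ[R[X]] R[X][X]).restrictScalars R).comp
      (Polynomial.derivative : R[X] →ₗ[R] R[X])

theorem dInner_monomial (n : ℕ) (a : R[X]) :
    dInner (Polynomial.monomial n a) = Polynomial.monomial n (Polynomial.derivative a) := by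
  rw [dInner, Polynomial.lsum_apply, Polynomial.sum_monomial_index]
  · rfl
  · simp

theorem dInner_C_mul_X_pow (n : ℕ) (a : R[X]) :
    dInner (Polynomial.C a * Polynomial.X ^ n) =
      Polynomial.C (Polynomial.derivative a) * Polynomial.X ^ n := by
  rw [Polynomial.C_mul_X_pow_eq_monomial, dInner_monomial, Polynomial.C_mul_X_pow_eq_monomial]

theorem dInner_X_pow (n : ℕ) : dInner ((Polynomial.X : R[X][X]) ^ n) = 0 := by
  have h := dInner_C_mul_X_pow n (1 : R[X])
  simpa using h

theorem dInner_C (a : R[X]) : dInner (Polynomial.C a) = Polynomial.C (Polynomial.derivative a) := by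
  have h := dInner_C_mul_X_pow 0 a
  simpa using h

end DInner

/-! ### The chain rule for an additive map with the Leibniz rule -/

section Chain

variable {A : Type*} [CommRing A] (D : A →+ A) (hD : ∀ f g : A, D (f * g) = D f * g + f * D g)

include hD

theorem D_one : D 1 = 0 := by
  have h := hD 1 1
  rw [mul_one, mul_one, one_mul] at h
  have h2 : D 1 + 0 = D 1 + D 1 := by rw [add_zero]; exact h
  exact (add_left_cancel h2).symm

theorem D_intCast (n : ℤ) : D (n : A) = 0 := by
  have h : (n : A) = n • (1 : A) := by simp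
  rw [h, map_zsmul, D_one D hD, smul_zero]

theorem D_pow (b : A) (n : ℕ) : D (b ^ n) = (n : A) * b ^ (n - 1) * D b := by
  induction n with
  | zero => simp [D_one D hD]
  | succ n ih =>
    rw [pow_succ, hD, ih]
    rcases n with _ | n
    · simp
    · simp only [Nat.add_sub_cancel]
      push_cast
      ring

/-- one-variable chain rule for `ℤ`-polynomials. -/
theorem chain_one (p : ℤ[X]) (b : A) :
    D (p.eval₂ (Int.castRingHom A) b) =
      (Polynomial.derivative p).eval₂ (Int.castRingHom A) b * D b := by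
  induction p using Polynomial.induction_on' with
  | add p r hp hr =>
    rw [Polynomial.eval₂_add, map_add, hp, hr, map_add, Polynomial.eval₂_add, add_mul]
  | monomial n c =>
    rw [Polynomial.eval₂_monomial, hD, eq_intCast, D_intCast D hD, zero_mul, zero_add, D_pow D hD,
      Polynomial.derivative_monomial, Polynomial.eval₂_monomial, eq_intCast]
    push_cast
    ring

/-- two-variable chain rule: `D (P(a, b)) = P_X(a, b) * D a + P_Y(a, b) * D b`
(`X` = outer variable ↦ `a`, `Y` = inner variable ↦ `b`). -/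
theorem chain_rule (P : ℤ[X][X]) (a b : A) :
    D (P.eval₂ (Polynomial.eval₂RingHom (Int.castRingHom A) b) a) =
      (Polynomial.derivative P).eval₂ (Polynomial.eval₂RingHom (Int.castRingHom A) b) a * D a +
      (dInner P).eval₂ (Polynomial.eval₂RingHom (Int.castRingHom A) b) a * D b := by
  induction P using Polynomial.induction_on' with
  | add p r hp hr =>
    rw [Polynomial.eval₂_add, map_add, hp, hr, map_add, map_add, Polynomial.eval₂_add,
      Polynomial.eval₂_add]
    ring
  | monomial n c =>
    rw [Polynomial.eval₂_monomial, hD, D_pow D hD, Polynomial.derivative_monomial,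
      Polynomial.eval₂_monomial, dInner_monomial, Polynomial.eval₂_monomial,
      Polynomial.coe_eval₂RingHom, chain_one D hD, Polynomial.eval₂_mul, Polynomial.eval₂_natCast]
    ring

end Chain

/-! ### The Kronecker congruence from the two roots -/

section Kronecker

variable {k : Type*} [CommRing k]

/-- The substitution `X ↦ T`, `Y ↦ T ^ q` from `k[Y][X]` to `k[T]`. -/
def subst (q : ℕ) : k[X][X] →+* k[X] :=
  Polynomial.eval₂RingHom ((Polynomial.expand k q : k[X] →ₐ[k] k[X]) : k[X] →+* k[X]) Polynomial.X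

theorem subst_C (q : ℕ) (a : k[X]) : subst q (Polynomial.C a) = Polynomial.expand k q a := by
  rw [subst, Polynomial.coe_eval₂RingHom, Polynomial.eval₂_C]
  rfl

theorem subst_X (q : ℕ) : subst (k := k) q Polynomial.X = Polynomial.X := by
  rw [subst, Polynomial.coe_eval₂RingHom, Polynomial.eval₂_X]

theorem subst_eq_sum (q : ℕ) (D : k[X][X]) (hD : D.natDegree < q) :
    subst q D = ∑ j ∈ Finset.range q, Polynomial.expand k q (D.coeff j) * Polynomial.X ^ j := by
  conv_lhs => rw [Polynomial.as_sum_range' D q hD]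
  rw [map_sum]
  refine Finset.sum_congr rfl fun j _ => ?_
  rw [← Polynomial.C_mul_X_pow_eq_monomial, map_mul, map_pow, subst_C, subst_X]

theorem coeff_subst (q : ℕ) (hq : 0 < q) (D : k[X][X]) (hD : D.natDegree < q) (m i : ℕ)
    (hi : i < q) : (subst q D).coeff (q * m + i) = (D.coeff i).coeff m := by
  rw [subst_eq_sum q D hD, Polynomial.finsetSum_coeff, Finset.sum_eq_single i]
  · rw [Polynomial.coeff_mul_X_pow', if_pos (Nat.le_add_left _ _), Nat.add_sub_cancel,
      Polynomial.coeff_expand hq, if_pos (dvd_mul_right _ _), Nat.mul_div_cancel_left _ hq]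
  · intro j hj hji
    rw [Polynomial.coeff_mul_X_pow']
    split_ifs with hle
    · rw [Polynomial.coeff_expand hq, if_neg]
      rintro ⟨c, hc⟩
      have hj' : j < q := Finset.mem_range.mp hj
      have h1 : q * m + i = q * c + j := by omega
      have h2 : (q * m + i) % q = (q * c + j) % q := by rw [h1]
      rw [Nat.mul_add_mod, Nat.mul_add_mod, Nat.mod_eq_of_lt hi, Nat.mod_eq_of_lt hj'] at h2
      exact hji h2.symm
    · rfl
  · intro hi'
    exact absurd (Finset.mem_range.mpr hi) hi'

theorem eq_zero_of_subst_eq_zero (q : ℕ) (hq : 0 < q) (D : k[X][X]) (hD : D.natDegree < q)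
    (h : subst q D = 0) : D = 0 := by
  ext i m
  rw [Polynomial.coeff_zero, Polynomial.coeff_zero]
  rcases lt_or_ge i q with hi | hi
  · rw [← coeff_subst q hq D hD m i hi, h, Polynomial.coeff_zero]
  · rw [Polynomial.coeff_eq_zero_of_natDegree_lt (lt_of_lt_of_le hD hi), Polynomial.coeff_zero]

variable [IsDomain k]

/-- **Kronecker congruence, elementary form.** Over a domain, a monic `P ∈ k[Y][X]` of `X`-degree
`q + 1` with `P(X := Y^q) = 0` and `P(X := T, Y := T^q) = 0` is `(X - Y^q) * (X^q - Y)`. -/
theorem kronecker_of_two_roots (q : ℕ) (hq : 2 ≤ q) (P : k[X][X]) (hP : P.Monic)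
    (hdeg : P.natDegree = q + 1) (h1 : P.eval (Polynomial.X ^ q) = 0) (h2 : subst q P = 0) :
    P = (Polynomial.X - Polynomial.C (Polynomial.X ^ q)) *
      (Polynomial.X ^ q - Polynomial.C Polynomial.X) := by
  have hq0 : 0 < q := by omega
  obtain ⟨Q, hQ⟩ := Polynomial.dvd_iff_isRoot.mpr h1
  have hQm : Q.Monic := (Polynomial.monic_X_sub_C _).of_mul_monic_left (hQ ▸ hP)
  have hQd : Q.natDegree = q := by
    have h := congrArg Polynomial.natDegree hQ
    rw [(Polynomial.monic_X_sub_C _).natDegree_mul hQm, Polynomial.natDegree_X_sub_C, hdeg] at h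
    omega
  -- the cofactor vanishes under the substitution
  have hne : (Polynomial.X - Polynomial.X ^ (q * q) : k[X]) ≠ 0 := by
    intro h
    have hc := congrArg (fun p => Polynomial.coeff p 1) h
    simp only [Polynomial.coeff_sub, Polynomial.coeff_X_one, Polynomial.coeff_X_pow,
      Polynomial.coeff_zero] at hc
    rw [if_neg (by nlinarith)] at hc
    simp at hc
  have hsQ : subst q Q = 0 := by
    have h3 : subst q P = (Polynomial.X - Polynomial.X ^ (q * q)) * subst q Q := by
      rw [hQ, map_mul, map_sub, subst_X, subst_C, map_pow, Polynomial.expand_X, ← pow_mul]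
    rw [h3] at h2
    exact (mul_eq_zero.mp h2).resolve_left hne
  have hRm : (Polynomial.X ^ q - Polynomial.C Polynomial.X : k[X][X]).Monic :=
    Polynomial.monic_X_pow_sub_C _ hq0.ne'
  have hRd : (Polynomial.X ^ q - Polynomial.C Polynomial.X : k[X][X]).natDegree = q :=
    Polynomial.natDegree_X_pow_sub_C
  have hsR : subst q (Polynomial.X ^ q - Polynomial.C Polynomial.X : k[X][X]) = 0 := by
    rw [map_sub, map_pow, subst_X, subst_C, Polynomial.expand_X, sub_self]
  have hDdeg : (Q - (Polynomial.X ^ q - Polynomial.C Polynomial.X)).natDegree < q := by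
    by_cases hD0 : Q - (Polynomial.X ^ q - Polynomial.C Polynomial.X) = 0
    · rw [hD0, Polynomial.natDegree_zero]; exact hq0
    · have hlt : (Q - (Polynomial.X ^ q - Polynomial.C Polynomial.X)).degree < Q.degree :=
        Polynomial.degree_sub_lt_left
          (by rw [Polynomial.degree_eq_natDegree hQm.ne_zero,
            Polynomial.degree_eq_natDegree hRm.ne_zero, hQd, hRd])
          hQm.ne_zero (by rw [hQm.leadingCoeff, hRm.leadingCoeff])
      have := Polynomial.natDegree_lt_natDegree hD0 hlt
      rwa [hQd] at this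
  have hD0 : Q - (Polynomial.X ^ q - Polynomial.C Polynomial.X) = 0 :=
    eq_zero_of_subst_eq_zero q hq0 _ hDdeg (by rw [map_sub, hsQ, hsR, sub_zero])
  rw [hQ, sub_eq_zero.mp hD0]

end Kronecker

/-! ### The two partial derivatives of `(X - Y^q) * (X^q - Y)` in characteristic `q` -/

section CharQ

variable {k : Type*} [CommRing k] (q : ℕ) [CharP k q]

theorem natCast_q_eq_zero : ((q : ℕ) : k[X]) = 0 := by
  rw [← map_natCast (Polynomial.C : k →+* k[X]), CharP.cast_eq_zero, map_zero]

theorem derivative_kron :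
    Polynomial.derivative ((Polynomial.X - Polynomial.C (Polynomial.X ^ q)) *
      (Polynomial.X ^ q - Polynomial.C Polynomial.X) : k[X][X]) =
      Polynomial.X ^ q - Polynomial.C Polynomial.X := by
  rw [Polynomial.derivative_mul, Polynomial.derivative_sub, Polynomial.derivative_X,
    Polynomial.derivative_C, sub_zero, one_mul, Polynomial.derivative_sub,
    Polynomial.derivative_X_pow, Polynomial.derivative_C, sub_zero, natCast_q_eq_zero, map_zero,
    zero_mul, mul_zero, add_zero]

theorem dInner_kron :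
    dInner ((Polynomial.X - Polynomial.C (Polynomial.X ^ q)) *
      (Polynomial.X ^ q - Polynomial.C Polynomial.X) : k[X][X]) =
      -(Polynomial.X - Polynomial.C (Polynomial.X ^ q)) := by
  have hexp : ((Polynomial.X - Polynomial.C (Polynomial.X ^ q)) *
      (Polynomial.X ^ q - Polynomial.C Polynomial.X) : k[X][X]) =
      Polynomial.X ^ (q + 1) - Polynomial.C Polynomial.X * Polynomial.X ^ 1
        - Polynomial.C (Polynomial.X ^ q) * Polynomial.X ^ q + Polynomial.C (Polynomial.X ^ (q + 1)) := by
    simp only [map_pow]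
    ring
  have hq1 : (((q + 1 : ℕ) : k)) = 1 := by
    rw [Nat.cast_add, CharP.cast_eq_zero, zero_add, Nat.cast_one]
  rw [hexp, map_add, map_sub, map_sub, dInner_X_pow, dInner_C_mul_X_pow, dInner_C_mul_X_pow,
    dInner_C, Polynomial.derivative_X, Polynomial.derivative_X_pow, Polynomial.derivative_X_pow,
    CharP.cast_eq_zero, hq1]
  simp
  ring

end CharQ

/-! ### Reduction of two-variable evaluations -/

section Reduce

variable {R : Type*} [CommRing R]

theorem dInner_map {S : Type*} [CommRing S] (f : R →+* S) (P : R[X][X]) :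
    dInner (P.map (Polynomial.mapRingHom f)) = (dInner P).map (Polynomial.mapRingHom f) := by
  induction P using Polynomial.induction_on' with
  | add p r hp hr => rw [Polynomial.map_add, map_add, hp, hr, map_add, Polynomial.map_add]
  | monomial n c =>
    rw [Polynomial.map_monomial, dInner_monomial, dInner_monomial, Polynomial.map_monomial,
      Polynomial.coe_mapRingHom, Polynomial.derivative_map]

variable (k : Type*) [Field k]

/-- evaluation `k[Y] → k((𝐪))`, `Y ↦ b`, as a ring hom. -/
def evK (b : LaurentSeries k) : k[X] →+* LaurentSeries k :=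
  ((Polynomial.aeval b : k[X] →ₐ[k] LaurentSeries k) : k[X] →+* LaurentSeries k)

variable {k}

theorem evK_apply (b : LaurentSeries k) (p : k[X]) : evK k b p = Polynomial.aeval b p := rfl

theorem evK_X (b : LaurentSeries k) : evK k b Polynomial.X = b := by
  rw [evK_apply, Polynomial.aeval_X]

theorem evK_comp_expand (b : LaurentSeries k) (q : ℕ) :
    (evK k b).comp ((Polynomial.expand k q : k[X] →ₐ[k] k[X]) : k[X] →+* k[X]) = evK k (b ^ q) := by
  ext p
  · simp [evK_apply]
  · simp [evK_apply]

theorem evK_comp_map (b : LaurentSeries ℤ) :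
    (evK k (coeffMap (Int.castRingHom k) b)).comp (Polynomial.mapRingHom (Int.castRingHom k)) =
      (coeffMap (Int.castRingHom k)).comp (evalAt ℤ b) := by
  apply Polynomial.ringHom_ext'
  · exact RingHom.ext_int _ _
  · simp [evK_apply, evalAt]

/-- reduction of a two-variable evaluation. -/
theorem coeffMap_eval₂_evalAt (P : ℤ[X][X]) (a b : LaurentSeries ℤ) :
    coeffMap (Int.castRingHom k) (P.eval₂ (evalAt ℤ b) a) =
      (P.map (Polynomial.mapRingHom (Int.castRingHom k))).eval₂
        (evK k (coeffMap (Int.castRingHom k) b)) (coeffMap (Int.castRingHom k) a) := by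
  rw [Polynomial.hom_eval₂, Polynomial.eval₂_map, evK_comp_map]

end Reduce

/-! ### The main theorem -/

section Main

variable (q : ℕ) [hq : Fact q.Prime]

/-- `x(𝐪^q) = x(𝐪)^q` over `𝔽_q`. -/
theorem qExpand_zmod (x : LaurentSeries (ZMod q)) : qExpand (ZMod q) q x = x ^ q := by
  rw [Fermat.Agent.ES.KRON.KronCong24.pow_char q x, ZMod.frobenius_zmod, coeffMap_id]

theorem X_pow_sub_X_ne_zero (k : Type*) [Field k] : (Polynomial.X ^ (q * q) - Polynomial.X : k[X]) ≠ 0 := by
  intro h
  have hc := congrArg (fun p => Polynomial.coeff p 1) h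
  simp only [Polynomial.coeff_sub, Polynomial.coeff_X_one, Polynomial.coeff_X_pow,
    Polynomial.coeff_zero] at hc
  have h2 : 2 ≤ q := hq.out.two_le
  rw [if_neg (by nlinarith)] at hc
  simp at hc

theorem jbar_pow_sub_ne_zero :
    (jqModC (ZMod q) ^ q) ^ q - jqModC (ZMod q) ≠ 0 := by
  have h : (jqModC (ZMod q) ^ q) ^ q - jqModC (ZMod q) =
      Polynomial.aeval (jqModC (ZMod q)) (Polynomial.X ^ (q * q) - Polynomial.X : (ZMod q)[X]) := by
    rw [map_sub, map_pow, Polynomial.aeval_X, pow_mul]
  rw [h]
  exact Fermat.Agent.IG.VAL.OvBasics22.aeval_jqModC_ne_zero (X_pow_sub_X_ne_zero q (ZMod q))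

/-- the reduction of `Φ` mod `q` is the Kronecker polynomial. -/
theorem map_eq_kron (Φ : ℤ[X][X]) (hmonic : Φ.Monic) (hdeg : Φ.natDegree = q + 1)
    (h1 : Φ.eval₂ (evalAt ℤ (jqModC ℤ)) (qExpand ℤ q (jqModC ℤ)) = 0)
    (h2 : Φ.eval₂ (evalAt ℤ (qExpand ℤ q (jqModC ℤ))) (jqModC ℤ) = 0) :
    Φ.map (Polynomial.mapRingHom (Int.castRingHom (ZMod q))) =
      (Polynomial.X - Polynomial.C (Polynomial.X ^ q)) *
        (Polynomial.X ^ q - Polynomial.C Polynomial.X) := by
  have hinj : Function.Injective (evK (ZMod q) (jqModC (ZMod q))) :=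
    transcendental_iff_injective.mp
      (Fermat.Agent.IG.VAL.OvBasics22.transcendental_jqModC (ZMod q))
  have hV : coeffMap (Int.castRingHom (ZMod q)) (qExpand ℤ q (jqModC ℤ)) = jqModC (ZMod q) ^ q := by
    rw [coeffMap_qExpand, coeffMap_jqModC, qExpand_zmod]
  apply kronecker_of_two_roots q hq.out.two_le _ (hmonic.map _)
  · rw [(hmonic).natDegree_map, hdeg]
  · apply hinj
    rw [map_zero, ← Polynomial.eval₂_hom, map_pow, evK_X]
    have h := congrArg (coeffMap (Int.castRingHom (ZMod q))) h1
    rw [coeffMap_eval₂_evalAt, map_zero, coeffMap_jqModC, hV] at h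
    exact h
  · apply hinj
    rw [map_zero, subst, Polynomial.coe_eval₂RingHom, Polynomial.hom_eval₂, evK_comp_expand, evK_X]
    have h := congrArg (coeffMap (Int.castRingHom (ZMod q))) h2
    rw [coeffMap_eval₂_evalAt, map_zero, coeffMap_jqModC, hV] at h
    exact h

/-- **THETA–KRONECKER.** From the modular equation of prime level `q` (shape of `Interface20.P0`):
(a) `Φ_X(X := j(𝐪^q), Y := j)` has nonzero reduction mod `q`;
(b) `Φ_X(X := j, Y := j(𝐪^q)) * θj = q * u` with `u` and `θj` of nonzero reduction mod `q`. -/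
theorem main (Φ : ℤ[X][X]) (hmonic : Φ.Monic) (hdeg : Φ.natDegree = q + 1)
    (h1 : Φ.eval₂ (evalAt ℤ (jqModC ℤ)) (qExpand ℤ q (jqModC ℤ)) = 0)
    (h2 : Φ.eval₂ (evalAt ℤ (qExpand ℤ q (jqModC ℤ))) (jqModC ℤ) = 0) :
    coeffMap (Int.castRingHom (ZMod q))
        ((Polynomial.derivative Φ).eval₂ (evalAt ℤ (jqModC ℤ)) (qExpand ℤ q (jqModC ℤ))) ≠ 0 ∧
    ∃ u : LaurentSeries ℤ,
      coeffMap (Int.castRingHom (ZMod q)) u ≠ 0 ∧
      coeffMap (Int.castRingHom (ZMod q)) (theta (jqModC ℤ)) ≠ 0 ∧
      (Polynomial.derivative Φ).eval₂ (evalAt ℤ (qExpand ℤ q (jqModC ℤ))) (jqModC ℤ) *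
          theta (jqModC ℤ) = (q : LaurentSeries ℤ) * u := by
  have hK := map_eq_kron q Φ hmonic hdeg h1 h2
  have hV : coeffMap (Int.castRingHom (ZMod q)) (qExpand ℤ q (jqModC ℤ)) = jqModC (ZMod q) ^ q := by
    rw [coeffMap_qExpand, coeffMap_jqModC, qExpand_zmod]
  have hθ : theta (jqModC (ZMod q)) ≠ 0 :=
    Fermat.Agent.IG.PR.ThetaV1.theta_ne_zero_of_order_eq_neg_one
      (Fermat.Agent.IG.AN.ModPoly3.order_jqModC (ZMod q))
  refine ⟨?_, ?_⟩
  · rw [coeffMap_eval₂_evalAt, ← Polynomial.derivative_map, hK, derivative_kron, coeffMap_jqModC, hV,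
      Polynomial.eval₂_sub, Polynomial.eval₂_pow, Polynomial.eval₂_X, Polynomial.eval₂_C, evK_X]
    exact jbar_pow_sub_ne_zero q
  · refine ⟨-((dInner Φ).eval₂ (evalAt ℤ (qExpand ℤ q (jqModC ℤ))) (jqModC ℤ) *
        qExpand ℤ q (theta (jqModC ℤ))), ?_, ?_, ?_⟩
    · rw [map_neg, map_mul, coeffMap_eval₂_evalAt, ← dInner_map, hK, dInner_kron, coeffMap_jqModC, hV,
        coeffMap_qExpand, coeffMap_theta, coeffMap_jqModC, neg_ne_zero]
      apply mul_ne_zero
      · rw [Polynomial.eval₂_neg, Polynomial.eval₂_sub, Polynomial.eval₂_X, Polynomial.eval₂_C,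
          map_pow, evK_X, neg_sub]
        exact jbar_pow_sub_ne_zero q
      · exact Fermat.Agent.IG.PR.ThetaV1.qExpand_ne_zero q hθ
    · rw [coeffMap_theta, coeffMap_jqModC]
      exact hθ
    · have h := congrArg theta h2
      rw [map_zero] at h
      have hc := chain_rule (theta (R := ℤ)) theta_mul Φ (jqModC ℤ) (qExpand ℤ q (jqModC ℤ))
      have hc' : theta (Φ.eval₂ (evalAt ℤ (qExpand ℤ q (jqModC ℤ))) (jqModC ℤ)) =
          (Polynomial.derivative Φ).eval₂ (evalAt ℤ (qExpand ℤ q (jqModC ℤ))) (jqModC ℤ) *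
            theta (jqModC ℤ) +
          (dInner Φ).eval₂ (evalAt ℤ (qExpand ℤ q (jqModC ℤ))) (jqModC ℤ) *
            theta (qExpand ℤ q (jqModC ℤ)) := hc
      rw [hc', theta_qExpand] at h
      linear_combination h

end Main

end Fermat.Agent.ES.P36.ThetaKron2
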