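/-
S36 scouting, chapter (SS), brick (D1.3)+(D1.4) [note `S36_REG2.md`], helper2:
**the different exponents of the two Gauss valuations of `F₁ = FK (M' q) K` over `α(F_{M'})`**, computed on
the generator `βj = j(𝐪^q)`.

`Φ ∈ ℤ[Y][X]`: the modular equation of level `q` (literal shape of `Interface20.P0`), so that
`G(X) := Φ(X, Y := αj)` is a monic polynomial of degree `q + 1` over `α(F_{M'})` with root `βj`, and
`diffElt K M' q Φ := G'(βj) = Φ_X(X := βj, Y := αj) ∈ F₁`.  Then, for the `ModelDefs9` valuation rings: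

 * `valuation_O1_diffElt` : `O1.valuation (G'(βj)) = 1`                    (different exponent `0` at `w₁`);
 * `valuation_O2_diffElt` : `O2.valuation (G'(βj)) = O2.valuation (q : F₁)`  (different exponent `v(q)` at `w₂`),
   in the sharper form `exists_O2_unit` : `G'(βj) = q * ε` with `ε, ε⁻¹ ∈ O2`.

Source: `ThetaKron2.main` (pure `𝐪`-series algebra over `ℤ`) + the Fricke involution
`W_{M'q} : x_d ↦ x_{M'q/d}` (`FrickeFK8.iotaTwo_xdL`): `ι₂ (G'(βj)) = (Φ_X(X := j, Y := j(𝐪^q)))(𝐪^{M'})`.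
With `v₀(N z) = Σ f_w w(z)` (NormRed20 / NormRam20) this is `v₀ (disc (1, βj, …, βj^q)) = 0·1 + v(q)·q`.
-/
import Mathlib
import Fermat.Agent.ES.P36.ThetaKron2
import Fermat.Agent.ES.N34.ModelDefs9
import Fermat.Agent.RED.PUR.GaussBridge10

set_option autoImplicit false
set_option linter.unusedSectionVars false

noncomputable section

open HahnSeries ModularCurve Polynomial

namespace Fermat.Agent.ES.P36.DiffExp2

open Fermat.Agent.IG.PR.Theta20 Fermat.Agent.IG.PR.Interface20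
open Fermat.Agent.RED.Interface4 Fermat.Agent.RED.PUR.GaussGen8
open Fermat.Agent.ES.N34.FrickeFK8 Fermat.Agent.ES.N34.ModelDefs9
open Fermat.Agent.ES.P36.ThetaKron2

/-! ### Integer series in the Gauss ring -/

section IntSeries

variable {K : Type*} [Field K] (O : ValuationSubring K)

theorem intSeries_eq_embK (x : LaurentSeries ℤ) :
    coeffMap (Int.castRingHom K) x = embK O (coeffMap (Int.castRingHom ↥O) x) := by
  unfold embK
  rw [coeffMap_coeffMap]
  exact coeffMap_congr (RingHom.ext_int _ _) x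

theorem intSeries_mem (x : LaurentSeries ℤ) : coeffMap (Int.castRingHom K) x ∈ gaussRing O := by
  rw [intSeries_eq_embK O]
  exact embK_mem O _

theorem gaussRed_intSeries (x : LaurentSeries ℤ) :
    gaussRed O ⟨coeffMap (Int.castRingHom K) x, intSeries_mem O x⟩ =
      coeffMap (Int.castRingHom (Res O)) x := by
  have h : (⟨coeffMap (Int.castRingHom K) x, intSeries_mem O x⟩ : gaussRing O) =
      ⟨embK O (coeffMap (Int.castRingHom ↥O) x), embK_mem O _⟩ :=
    Subtype.ext (intSeries_eq_embK O x)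
  rw [h, gaussRed_embK]
  unfold redL
  rw [coeffMap_coeffMap]
  exact coeffMap_congr (RingHom.ext_int _ _) x

theorem gaussRed_intSeries_ne_zero (q : ℕ) [Fact q.Prime] [CharP (Res O) q] {x : LaurentSeries ℤ}
    (hx : coeffMap (Int.castRingHom (ZMod q)) x ≠ 0) :
    gaussRed O ⟨coeffMap (Int.castRingHom K) x, intSeries_mem O x⟩ ≠ 0 := by
  rw [gaussRed_intSeries]
  intro h0
  apply hx
  have hcomp : Int.castRingHom (Res O) =
      (ZMod.castHom (dvd_refl q) (Res O)).comp (Int.castRingHom (ZMod q)) := RingHom.ext_int _ _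
  rw [coeffMap_congr hcomp, ← coeffMap_coeffMap] at h0
  ext n
  have hn := congrArg (fun y => HahnSeries.coeff y n) h0
  simp only [coeffMap_coeff, HahnSeries.coeff_zero] at hn ⊢
  exact (map_eq_zero_iff _ (ZMod.castHom (dvd_refl q) (Res O)).injective).mp hn

end IntSeries

/-! ### Units of a valuation subring -/

section Units

variable {F : Type*} [Field F]

theorem valuation_eq_one_of_mem_of_inv_mem (V : ValuationSubring F) {x : F} (hx0 : x ≠ 0)
    (hx : x ∈ V) (hxi : x⁻¹ ∈ V) : V.valuation x = 1 := by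
  have h1 : V.valuation x ≤ 1 := (V.valuation_le_one_iff x).mpr hx
  have h2 : V.valuation x⁻¹ ≤ 1 := (V.valuation_le_one_iff x⁻¹).mpr hxi
  rw [map_inv₀] at h2
  have h0 : V.valuation x ≠ 0 := (V.valuation.ne_zero_iff).mpr hx0
  exact le_antisymm h1 ((inv_le_one₀ (zero_lt_iff.mpr h0)).mp h2)

end Units

/-! ### The element `G'(βj)` of the bad-level function field and its two expansions -/

section Model

variable (K : IntermediateField ℚ Qbar) (M' q : ℕ) [NeZero M'] [hq : Fact q.Prime]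

/-- evaluation `ℤ[Y] → F₁`, `Y ↦ αj = x₁`. -/
def evF : ℤ[X] →+* FK (M' * q) K :=
  Polynomial.eval₂RingHom (Int.castRingHom _) (xdL (M' * q) K 1 (one_dvd _))

/-- `G'(βj) = Φ_X(X := βj, Y := αj)`, `βj = x_q = j(𝐪^q)`. -/
def diffElt (Φ : ℤ[X][X]) : FK (M' * q) K :=
  (Polynomial.derivative Φ).eval₂ (evF K M' q) (xdL (M' * q) K q (dvd_mul_left q M'))

/-- ring homs out of `ℤ[Y]` agree when they agree on `Y`. -/
theorem ringHom_int_poly_ext {S : Type*} [Semiring S] {f g : ℤ[X] →+* S}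
    (h : f Polynomial.X = g Polynomial.X) : f = g :=
  Polynomial.ringHom_ext' (RingHom.ext_int _ _) h

/-- the `∞`-expansion of `G'(βj)`. -/
theorem coe_diffElt (Φ : ℤ[X][X]) :
    ((diffElt K M' q Φ : FK (M' * q) K) : LaurentSeries K) =
      coeffMap (Int.castRingHom K)
        ((Polynomial.derivative Φ).eval₂ (evalAt ℤ (jqModC ℤ)) (qExpand ℤ q (jqModC ℤ))) := by
  have h1 : ((diffElt K M' q Φ : FK (M' * q) K) : LaurentSeries K) =
      (FK (M' * q) K).val.toRingHom (diffElt K M' q Φ) := rfl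
  rw [h1, diffElt, Polynomial.hom_eval₂, Polynomial.hom_eval₂]
  congr 1
  · apply ringHom_int_poly_ext
    simp only [RingHom.comp_apply, evF, evalAt, Polynomial.coe_eval₂RingHom, Polynomial.eval₂_X]
    show qExpand K 1 (jqModC K) = _
    rw [qExpand_one_apply, coeffMap_jqModC]
  · show qExpand K q (jqModC K) = _
    rw [coeffMap_qExpand, coeffMap_jqModC]

/-- the expansion of `G'(βj)` at the cusp `0`. -/
theorem iota2_diffElt (Φ : ℤ[X][X]) :
    iota2 K M' q (diffElt K M' q Φ) =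
      coeffMap (Int.castRingHom K) (qExpand ℤ M'
        ((Polynomial.derivative Φ).eval₂ (evalAt ℤ (qExpand ℤ q (jqModC ℤ))) (jqModC ℤ))) := by
  rw [diffElt, Polynomial.hom_eval₂, Polynomial.hom_eval₂, Polynomial.hom_eval₂]
  congr 1
  · apply ringHom_int_poly_ext
    simp only [RingHom.comp_apply, evF, evalAt, Polynomial.coe_eval₂RingHom, Polynomial.eval₂_X]
    rw [iota2, iotaTwo_xdL (M' * q) K 1 (M' * q) (one_mul _), qExpand_qExpand, coeffMap_qExpand,
      coeffMap_jqModC]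
  · rw [iota2, iotaTwo_xdL (M' * q) K q M' (Nat.mul_comm q M'), coeffMap_qExpand, coeffMap_jqModC]

/-- evaluation `ℤ[Y] → F_{M'}`, `Y ↦ j`. -/
def evFM : ℤ[X] →+* FK M' K :=
  Polynomial.eval₂RingHom (Int.castRingHom _) (xdL M' K 1 (one_dvd _))

theorem alpha_xdL_one :
    alpha K M' q (xdL M' K 1 (one_dvd _)) = xdL (M' * q) K 1 (one_dvd _) :=
  Subtype.ext (by rw [coe_alpha]; rfl)

theorem beta_xdL_one :
    beta K M' q (xdL M' K 1 (one_dvd _)) = xdL (M' * q) K q (dvd_mul_left q M') :=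
  Subtype.ext (by rw [coe_beta, coe_xdL, coe_xdL, qExpand_one_apply])

/-- the coefficients of `G(X) = Φ(X, αj)` lie in `α(F_{M'})`. -/
theorem evF_eq : evF K M' q = (alpha K M' q).toRingHom.comp (evFM K M') := by
  apply ringHom_int_poly_ext
  simp only [RingHom.comp_apply, evF, evFM, Polynomial.coe_eval₂RingHom, Polynomial.eval₂_X]
  exact (alpha_xdL_one K M' q).symm

/-- `G(βj) = 0`. -/
theorem eval₂_evF_eq_zero (Φ : ℤ[X][X])
    (h1 : Φ.eval₂ (evalAt ℤ (jqModC ℤ)) (qExpand ℤ q (jqModC ℤ)) = 0) :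
    Φ.eval₂ (evF K M' q) (xdL (M' * q) K q (dvd_mul_left q M')) = 0 := by
  apply Subtype.ext
  have h : ((Φ.eval₂ (evF K M' q) (xdL (M' * q) K q (dvd_mul_left q M')) : FK (M' * q) K) :
      LaurentSeries K) = coeffMap (Int.castRingHom K)
        (Φ.eval₂ (evalAt ℤ (jqModC ℤ)) (qExpand ℤ q (jqModC ℤ))) := by
    have h1 : ((Φ.eval₂ (evF K M' q) (xdL (M' * q) K q (dvd_mul_left q M')) : FK (M' * q) K) :
        LaurentSeries K) = (FK (M' * q) K).val.toRingHom
          (Φ.eval₂ (evF K M' q) (xdL (M' * q) K q (dvd_mul_left q M'))) := rfl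
    rw [h1, Polynomial.hom_eval₂, Polynomial.hom_eval₂]
    congr 1
    · apply ringHom_int_poly_ext
      simp only [RingHom.comp_apply, evF, evalAt, Polynomial.coe_eval₂RingHom, Polynomial.eval₂_X]
      show qExpand K 1 (jqModC K) = _
      rw [qExpand_one_apply, coeffMap_jqModC]
    · show qExpand K q (jqModC K) = _
      rw [coeffMap_qExpand, coeffMap_jqModC]
  rw [h, h1, map_zero]
  rfl

/-- `diffElt = G'(βj)` for `G = Φ.map evF ∈ F₁[X]`. -/
theorem diffElt_eq_eval_derivative (Φ : ℤ[X][X]) :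
    diffElt K M' q Φ =
      (Polynomial.derivative (Φ.map (evF K M' q))).eval (xdL (M' * q) K q (dvd_mul_left q M')) := by
  rw [Polynomial.derivative_map, Polynomial.eval_map, diffElt]

end Model

/-! ### The two valuations -/

section Final

variable {A : ValuationSubring Qbar} {K : IntermediateField ℚ Qbar} (M' q : ℕ) [NeZero M']
  [hq : Fact q.Prime] [CharP (Res (AK A K)) q] {π : ↥(AK A K)} (hπ : IsUnif (AK A K) π)
  (hE : FK (M' * q) K ≤ fracField (AK A K))
  (Φ : ℤ[X][X]) (hmonic : Φ.Monic) (hdeg : Φ.natDegree = q + 1)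
  (h1 : Φ.eval₂ (evalAt ℤ (jqModC ℤ)) (qExpand ℤ q (jqModC ℤ)) = 0)
  (h2 : Φ.eval₂ (evalAt ℤ (qExpand ℤ q (jqModC ℤ))) (jqModC ℤ) = 0)

/-- an integer series with nonzero reduction mod `q`, after `𝐪 ↦ 𝐪^M`, is a Gauss unit. -/
theorem gauss_unit_of_red_ne_zero {x : LaurentSeries ℤ}
    (hx : coeffMap (Int.castRingHom (ZMod q)) x ≠ 0) (M : ℕ) [NeZero M] :
    gaussRed (AK A K) ⟨coeffMap (Int.castRingHom K) (qExpand ℤ M x), intSeries_mem (AK A K) _⟩ ≠ 0 := by
  apply gaussRed_intSeries_ne_zero (AK A K) q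
  rw [coeffMap_qExpand]
  exact Fermat.Agent.IG.PR.ThetaV1.qExpand_ne_zero M hx

include hmonic hdeg h1 h2

/-- **different exponent `0` at `w₁`**: `G'(βj)` is an `O1`-unit. -/
theorem valuation_O1_diffElt : (O1 M' q hπ hE).valuation (diffElt K M' q Φ) = 1 := by
  obtain ⟨ha, -⟩ := ThetaKron2.main q Φ hmonic hdeg h1 h2
  have hne := gaussRed_intSeries_ne_zero (AK A K) q ha
  have hmem : ((diffElt K M' q Φ : FK (M' * q) K) : LaurentSeries K) ∈ gaussRing (AK A K) := by
    rw [coe_diffElt]; exact intSeries_mem _ _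
  have hne' : gaussRed (AK A K) ⟨_, hmem⟩ ≠ 0 := by
    have he : (⟨_, hmem⟩ : gaussRing (AK A K)) = ⟨_, intSeries_mem (AK A K) _⟩ :=
      Subtype.ext (coe_diffElt K M' q Φ)
    rw [he]; exact hne
  have hx0 : diffElt K M' q Φ ≠ 0 := by
    intro h0
    apply hne'
    have hc : ((diffElt K M' q Φ : FK (M' * q) K) : LaurentSeries K) = 0 := by rw [h0]; rfl
    have he : (⟨_, hmem⟩ : gaussRing (AK A K)) = 0 := Subtype.ext hc
    rw [he, map_zero]
  apply valuation_eq_one_of_mem_of_inv_mem _ hx0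
  · exact hmem
  · show (((diffElt K M' q Φ)⁻¹ : FK (M' * q) K) : LaurentSeries K) ∈ gaussRing (AK A K)
    rw [IntermediateField.coe_inv]
    exact inv_mem_of_gaussRed_ne_zero (AK A K) ⟨_, hmem⟩ hne'

/-- **different exponent `v(q)` at `w₂`**, sharp form: `G'(βj) = q * ε` with `ε` an `O2`-unit. -/
theorem exists_O2_unit :
    ∃ ε : FK (M' * q) K, ε ≠ 0 ∧ ε ∈ O2 M' q hπ hE ∧ ε⁻¹ ∈ O2 M' q hπ hE ∧
      diffElt K M' q Φ = (q : FK (M' * q) K) * ε := by
  obtain ⟨-, u, hu, hθ, hb⟩ := ThetaKron2.main q Φ hmonic hdeg h1 h2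
  have hq0 : ((q : ℕ) : FK (M' * q) K) ≠ 0 := Nat.cast_ne_zero.mpr hq.out.ne_zero
  have hq0' : ((q : ℕ) : LaurentSeries K) ≠ 0 := by
    rw [← map_natCast (HahnSeries.C : K →+* LaurentSeries K)]
    exact (map_ne_zero_iff _ HahnSeries.C_injective).mpr (Nat.cast_ne_zero.mpr hq.out.ne_zero)
  -- the identity `g₂ * T = q * U` in `K((𝐪))`
  have hid := congrArg (fun y => coeffMap (Int.castRingHom K) (qExpand ℤ M' y)) hb
  simp only [map_mul, map_natCast] at hid
  rw [← iota2_diffElt] at hid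
  have hU := gauss_unit_of_red_ne_zero (A := A) (K := K) q hu M'
  have hT := gauss_unit_of_red_ne_zero (A := A) (K := K) q hθ M'
  set U : gaussRing (AK A K) :=
    ⟨coeffMap (Int.castRingHom K) (qExpand ℤ M' u), intSeries_mem (AK A K) _⟩ with hUdef
  set T : gaussRing (AK A K) :=
    ⟨coeffMap (Int.castRingHom K) (qExpand ℤ M' (theta (jqModC ℤ))), intSeries_mem (AK A K) _⟩
    with hTdef
  have hT0 : (T : LaurentSeries K) ≠ 0 := by
    intro h0
    apply hT
    have : T = 0 := Subtype.ext h0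
    rw [this, map_zero]
  have hU0 : (U : LaurentSeries K) ≠ 0 := by
    intro h0
    apply hU
    have : U = 0 := Subtype.ext h0
    rw [this, map_zero]
  have hid' : iota2 K M' q (diffElt K M' q Φ) * (T : LaurentSeries K) =
      ((q : ℕ) : LaurentSeries K) * (U : LaurentSeries K) := hid
  have hε : iota2 K M' q (diffElt K M' q Φ / (q : FK (M' * q) K)) =
      (U : LaurentSeries K) * (T : LaurentSeries K)⁻¹ := by
    rw [map_div₀, map_natCast, div_eq_iff hq0', eq_comm, mul_comm _ ((q : ℕ) : LaurentSeries K),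
      ← mul_assoc, ← hid', mul_assoc, mul_inv_cancel₀ hT0, mul_one]
  have hεne : iota2 K M' q (diffElt K M' q Φ / (q : FK (M' * q) K)) ≠ 0 := by
    rw [hε]; exact mul_ne_zero hU0 (inv_ne_zero hT0)
  refine ⟨diffElt K M' q Φ / (q : FK (M' * q) K), ?_, ?_, ?_, ?_⟩
  · intro h0
    apply hεne
    rw [h0, map_zero]
  · rw [mem_O2_iff, hε]
    exact mul_mem U.2 (inv_mem_of_gaussRed_ne_zero (AK A K) T hT)
  · rw [mem_O2_iff, map_inv₀, hε, mul_inv, inv_inv, mul_comm]
    exact mul_mem T.2 (inv_mem_of_gaussRed_ne_zero (AK A K) U hU)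
  · rw [mul_div_cancel₀ _ hq0]

/-- **different exponent `v(q)` at `w₂`**. -/
theorem valuation_O2_diffElt :
    (O2 M' q hπ hE).valuation (diffElt K M' q Φ) =
      (O2 M' q hπ hE).valuation ((q : ℕ) : FK (M' * q) K) := by
  obtain ⟨ε, hε0, hε, hεi, heq⟩ := exists_O2_unit M' q hπ hE Φ hmonic hdeg h1 h2
  rw [heq, map_mul, valuation_eq_one_of_mem_of_inv_mem _ hε0 hε hεi, mul_one]

end Final

end Fermat.Agent.ES.P36.DiffExp2
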