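/-
Program P (S36), chapter REG, brick R7 (D2.3), abstract bridge (helper2):
**the valuation of the norm of the different at a two-slope polynomial.**

`F / E` finite of degree `k + 2`, `OE` a valuation ring of `E` with uniformiser `ϖ`, `P` a monic
polynomial of degree `k + 2` over `E` of two-slope shape (`NewtonTwo23.TwoSlope OE ϖ k P`:
`|c₀| = |ϖ|`, `|c_i| ≤ |ϖ|` for `1 ≤ i ≤ k`, `|c_{k+1}| = 1`), `ξ ∈ F` a root of `P`, and two distinct
valuation rings `O₁ ≠ O₂` of `F` over `OE` with `|ξ|₁ = 1`, `|ξ|₂ < 1`, `k + 1` prime to the residue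
characteristic.  Then

  `|N_{F/E} (P'(ξ))|_{OE} = |ϖ| ^ k`.

(`TwoSlope.dichotomy` + `deriv_val_unit` at `O₁`, `deriv_val_small` at `O₂`, and the valuation formula
`NormOrd20.hasOrd_norm_ram` with the `O₂`-uniformiser `T₂ := ξ`.)  This is the hypothesis `hN` of
`DiscBound5.le_of_norm_derivative_of_monic` with `m = k = q - 2` at level `M' q²`.
Also: the different is invariant under `ξ ↦ ξ + a`, `a ∈ E` (`aeval_derivative_minpoly_add_algebraMap`).
-/
import Mathlib
import Fermat.Agent.ES.P36.NewtonTwo23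
import Fermat.Agent.ES.P36.NormOrd20

set_option autoImplicit false

namespace Fermat.Agent.ES.P36.DiffTwo2

open Polynomial
open Fermat.Agent.ES.P36.NewtonTwo23 Fermat.Agent.ES.P36.NormOrd20 Fermat.Agent.ES.P36.OrdVal20

variable {E F : Type*} [Field E] [Field F] [Algebra E F]

/-- at the unit root the derivative is a unit. -/
theorem deriv_val_unit_of_val_eq_one {OE : ValuationSubring E} {ϖ : E} {k : ℕ} {P : E[X]}
    (D : TwoSlope OE ϖ k P) {V : ValuationSubring F} (hV : V.comap (algebraMap E F) = OE)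
    {ξ : F} (hξ : aeval ξ P = 0) (h1 : V.valuation ξ = 1) :
    V.valuation (aeval ξ (derivative P)) = 1 := by
  rcases D.dichotomy hV hξ with h | h
  · exact D.deriv_val_unit hV h.1 h.2
  · exact absurd h1 h.1.ne

/-- at the small root `|ξ|^(k+1) = |ϖ|` and `|P'(ξ)| = |ξ|^k`. -/
theorem deriv_val_small_of_val_lt_one {OE : ValuationSubring E} {ϖ : E} {k : ℕ} {P : E[X]}
    (D : TwoSlope OE ϖ k P) {V : ValuationSubring F} (hV : V.comap (algebraMap E F) = OE)
    {ξ : F} (hξ : aeval ξ P = 0) (htame : OE.valuation (((k + 1 : ℕ) : E)) = 1)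
    (h2 : V.valuation ξ < 1) :
    V.valuation ξ ^ (k + 1) = V.valuation (algebraMap E F ϖ) ∧
      V.valuation (aeval ξ (derivative P)) = V.valuation ξ ^ k := by
  rcases D.dichotomy hV hξ with h | h
  · exact absurd h.1 h2.ne
  · exact ⟨h.2, D.deriv_val_small hV htame h.1 h.2⟩

/-- **(D2.3), abstract: `|N (P'(ξ))| = |ϖ|^k`.** -/
theorem norm_deriv_val [FiniteDimensional E F] {OE : ValuationSubring E} {ϖ : E} {k : ℕ} {P : E[X]}
    (D : TwoSlope OE ϖ k P) (hdeg : Module.finrank E F = k + 2)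
    (O₁ O₂ : ValuationSubring F) (c1 : O₁.comap (algebraMap E F) = OE)
    (c2 : O₂.comap (algebraMap E F) = OE) (h12 : O₁ ≠ O₂)
    (hgen : ∀ a : E, OE.valuation a < 1 → OE.valuation a ≤ OE.valuation ϖ)
    (htame : OE.valuation (((k + 1 : ℕ) : E)) = 1)
    {ξ : F} (hξ : aeval ξ P = 0) (h1 : O₁.valuation ξ = 1) (h2 : O₂.valuation ξ < 1) :
    OE.valuation (Algebra.norm E (aeval ξ (derivative P))) = OE.valuation ϖ ^ k := by
  have hu := deriv_val_unit_of_val_eq_one D c1 hξ h1
  obtain ⟨hs, hd⟩ := deriv_val_small_of_val_lt_one D c2 hξ htame h2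
  have hξ0 : ξ ≠ 0 := D.ne_zero_of_small hs
  have hram := TwoSlope.ram_of_small (k := k) c2 hgen hs
  subst c1
  have hord := hasOrd_norm_ram (E := E) (F := F) (k := k) hdeg.le O₁ O₂ h12 c2.symm hξ0 h2 hram
    (ϖ := ϖ) hgen D.lt_one D.ne_zero (T₂ := ξ) h1 hs hdeg
    (f := aeval ξ (derivative P)) (a₁ := 0) (a₂ := k)
    (HasOrd.of_val_eq_one hu) (by unfold HasOrd; rw [hd, zpow_natCast])
  unfold HasOrd at hord
  rw [hord, zero_add, zpow_natCast]

/-- the inequality form consumed by `DiscBound5.le_of_norm_derivative(_of_monic)`. -/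
theorem pow_le_norm_deriv_val [FiniteDimensional E F] {OE : ValuationSubring E} {ϖ : E} {k : ℕ} {P : E[X]}
    (D : TwoSlope OE ϖ k P) (hdeg : Module.finrank E F = k + 2)
    (O₁ O₂ : ValuationSubring F) (c1 : O₁.comap (algebraMap E F) = OE)
    (c2 : O₂.comap (algebraMap E F) = OE) (h12 : O₁ ≠ O₂)
    (hgen : ∀ a : E, OE.valuation a < 1 → OE.valuation a ≤ OE.valuation ϖ)
    (htame : OE.valuation (((k + 1 : ℕ) : E)) = 1)
    {ξ : F} (hξ : aeval ξ P = 0) (h1 : O₁.valuation ξ = 1) (h2 : O₂.valuation ξ < 1) :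
    OE.valuation ϖ ^ k ≤ OE.valuation (Algebra.norm E (aeval ξ (derivative P))) :=
  (norm_deriv_val D hdeg O₁ O₂ c1 c2 h12 hgen htame hξ h1 h2).ge

/-! ### Shifting the generator by an element of the base field -/

/-- `deg (minpoly (ξ + a)) = deg (minpoly ξ)` for `a` in the base field. -/
theorem natDegree_minpoly_add_algebraMap (ξ : F) (a : E) :
    (minpoly E (ξ + algebraMap E F a)).natDegree = (minpoly E ξ).natDegree := by
  rw [minpoly.add_algebraMap, natDegree_comp, natDegree_X_sub_C, mul_one]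

/-- the different of `ξ + a` (`a` in the base field) is the different of `ξ`. -/
theorem aeval_derivative_minpoly_add_algebraMap (ξ : F) (a : E) :
    aeval (ξ + algebraMap E F a) (derivative (minpoly E (ξ + algebraMap E F a))) =
      aeval ξ (derivative (minpoly E ξ)) := by
  rw [minpoly.add_algebraMap, derivative_comp, derivative_sub, derivative_X, derivative_C, sub_zero,
    one_mul, aeval_comp]
  congr 1
  simp

end Fermat.Agent.ES.P36.DiffTwo2
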