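/-
Program P (S36), chapter REG, brick R7 (D2.3), model instance (helper2):
**`v₁'(N_{F''/F'} (P'(ζ))) = v₁'(π)^(q-2)`** at level `M' q²` over level `M' q` (along `α₂`).

Input (helper23's `MidVal23` contract, as hypotheses): `ξ ∈ F''` whose minimal polynomial over `F'`
(algebra along `α₂`) has the two-slope shape `TwoSlope (O1q) q (q - 2)`, `ξ` a unit of `O1`
(`v₁`) and a non-unit of a middle valuation ring `O` (`IsMid`).  Output: the two hypotheses `hprim`,
`hN` (with `m = q - 2`) of `DiscBound5.le_of_norm_derivative_eq` (resp. `_scaled`) for `ζ := ξ`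
(`hprim_hN_mid`), with `v(π)` in place of `v(q)` (`hprim_hN_mid_pi`), and for every shifted generator
`ζ := ξ + α₂ a`, `a ∈ F'` (`hprim_hN_mid_shift`; e.g. `j'' = ξ + α₂ j`).
-/
import Mathlib
import Fermat.Agent.ES.P36.DiffTwo2
import Fermat.Agent.ES.P36.ModelDefsP9
import Fermat.Agent.ES.P36.HeckeDeg19
import Fermat.Agent.ES.N34.GaussEmb22

set_option autoImplicit false
set_option linter.unusedSectionVars false
set_option synthInstance.maxHeartbeats 400000

noncomputable section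

open HahnSeries ModularCurve AlgebraicCurve

namespace Fermat.Agent.ES.P36.DiffMid2

open Polynomial
open Fermat.Agent.RED.Interface4 Fermat.Agent.RED.PUR.GaussGen8 Fermat.Agent.ES.N34.FrickeFK8
  Fermat.Agent.ES.N34 Fermat.Agent.ES.P36.ModelDefsP9 Fermat.Agent.ES.P36.NewtonTwo23
  Fermat.Agent.ES.P36.DiffTwo2

/-- `k + 1` is a unit of a valuation ring in which `k + 2` is a non-unit. -/
theorem val_natCast_succ_eq_one {E : Type*} [Field E] (V : ValuationSubring E) (k : ℕ)
    (h : V.valuation (((k + 2 : ℕ) : E)) < 1) : V.valuation (((k + 1 : ℕ) : E)) = 1 := by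
  have hle : V.valuation (((k + 1 : ℕ) : E)) ≤ 1 :=
    (V.valuation_le_one_iff _).mpr (natCast_mem V _)
  refine le_antisymm hle ?_
  by_contra hlt
  rw [not_le] at hlt
  have h1 : (1 : E) = ((k + 2 : ℕ) : E) - ((k + 1 : ℕ) : E) := by push_cast; ring
  have : V.valuation (1 : E) < 1 := by
    rw [h1]
    exact lt_of_le_of_lt (Valuation.map_sub _ _ _) (max_lt h hlt)
  rw [map_one] at this
  exact lt_irrefl _ this

/-- a unit of a subring contained in a valuation ring has valuation one. -/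
theorem val_eq_one_of_mem_of_inv_mem {E : Type*} [Field E] (V : ValuationSubring E) {x : E}
    (hx0 : x ≠ 0) (hx : x ∈ V) (hxi : x⁻¹ ∈ V) : V.valuation x = 1 := by
  have h1 : V.valuation x ≤ 1 := (V.valuation_le_one_iff x).mpr hx
  have h2 : V.valuation x⁻¹ ≤ 1 := (V.valuation_le_one_iff x⁻¹).mpr hxi
  rw [map_inv₀] at h2
  have h0 : V.valuation x ≠ 0 := (V.valuation.ne_zero_iff).mpr hx0
  exact le_antisymm h1 ((inv_le_one₀ (zero_lt_iff.mpr h0)).mp h2)

variable {A : ValuationSubring Qbar} {K : IntermediateField ℚ Qbar} (M' q : ℕ) [NeZero M'] [NeZero q]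

/-- `[F'' : α₂ F'] = q`. -/
theorem finrank_alpha2 (hq : q.Prime) :
    letI := algebraAlong (alpha2 K M' q)
    Module.finrank (FK (M' * q) K) (FK (M' * q * q) K) = q :=
  HeckeDeg19.finrankAlong_alpha_of_dvd (↥K) (M' * q) q hq (dvd_mul_left q M')

theorem finite_alpha2 (hq : q.Prime) :
    letI := algebraAlong (alpha2 K M' q)
    Module.Finite (FK (M' * q) K) (FK (M' * q * q) K) :=
  HeckeDeg19.finiteAlong_alpha_of_dvd (↥K) (M' * q) q hq (dvd_mul_left q M')

/-- `v₁'(q) = v₁'(π)` when `q = π · unit` in `A_K`. -/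
theorem valuation_O1q_natCast {π : ↥(AK A K)} (hπ : IsUnif (AK A K) π)
    (hqπ : ∃ u : (↥(AK A K))ˣ, ((q : ℕ) : ↥(AK A K)) = π * u) :
    (O1q M' q hπ).valuation (((q : ℕ) : FK (M' * q) K)) =
      (O1q M' q hπ).valuation (algebraMap K (FK (M' * q) K) (π : K)) := by
  have hmem : ∀ r : ↥(AK A K), algebraMap K (FK (M' * q) K) (r : K) ∈ O1q M' q hπ := by
    intro r
    rw [mem_O1q_iff]
    have := GaussEmb22.map_algebraMap (ι := (FK (M' * q) K).val) (r : K)
    rw [IntermediateField.val_mk] at this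
    rw [this]
    exact C_mem (AK A K) r
  obtain ⟨u, hqu⟩ := hqπ
  have e1 : ((q : ℕ) : FK (M' * q) K) =
      algebraMap K (FK (M' * q) K) (π : K) * algebraMap K (FK (M' * q) K) ((u : ↥(AK A K)) : K) := by
    rw [← map_mul]
    have : ((π : ↥(AK A K)) : K) * (((u : ↥(AK A K))) : K) = ((q : ℕ) : K) := by
      have h3 : ((((q : ℕ) : ↥(AK A K))) : K) = (((π * (u : ↥(AK A K)) : ↥(AK A K))) : K) :=
        congrArg Subtype.val hqu
      rw [show (((π * (u : ↥(AK A K)) : ↥(AK A K))) : K) =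
        ((π : ↥(AK A K)) : K) * (((u : ↥(AK A K))) : K) from rfl] at h3
      rw [← h3]
      push_cast
      rfl
    rw [this, map_natCast]
  rw [e1, map_mul]
  have hu1 : (O1q M' q hπ).valuation
      (algebraMap K (FK (M' * q) K) ((u : ↥(AK A K)) : K)) = 1 := by
    have hne : algebraMap K (FK (M' * q) K) ((u : ↥(AK A K)) : K) ≠ 0 := by
      rw [Ne, map_eq_zero_iff _ (algebraMap K (FK (M' * q) K)).injective]
      intro h0
      exact u.ne_zero (Subtype.ext h0)
    apply val_eq_one_of_mem_of_inv_mem _ hne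
    · exact hmem (u : ↥(AK A K))
    · have : (algebraMap K (FK (M' * q) K) ((u : ↥(AK A K)) : K))⁻¹ =
          algebraMap K (FK (M' * q) K) (((u⁻¹ : (↥(AK A K))ˣ) : ↥(AK A K)) : K) := by
        rw [← map_inv₀]
        congr 1
        have h4 : ((u : ↥(AK A K)) : K) * (((u⁻¹ : (↥(AK A K))ˣ) : ↥(AK A K)) : K) = 1 := by
          have h5 : ((((u : ↥(AK A K)) * ((u⁻¹ : (↥(AK A K))ˣ) : ↥(AK A K)) : ↥(AK A K))) : K) =
              (((1 : ↥(AK A K))) : K) := congrArg Subtype.val (Units.mul_inv u)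
          exact h5
        exact inv_eq_of_mul_eq_one_right h4
      rw [this]
      exact hmem ((u⁻¹ : (↥(AK A K))ˣ) : ↥(AK A K))
  rw [hu1, mul_one]

/-- **(D2.3) at the model**: primitivity of `ξ` and the exact valuation of the norm of its different. -/
theorem hprim_hN_mid (hq : q.Prime) {π : ↥(AK A K)} (hπ : IsUnif (AK A K) π)
    (hgen : ∀ a : FK (M' * q) K, (O1q M' q hπ).valuation a < 1 →
      (O1q M' q hπ).valuation a ≤ (O1q M' q hπ).valuation (((q : ℕ) : FK (M' * q) K)))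
    (ξ : FK (M' * q * q) K)
    (D : letI := algebraAlong (alpha2 K M' q)
      TwoSlope (O1q M' q hπ) (((q : ℕ) : FK (M' * q) K)) (q - 2) (minpoly (FK (M' * q) K) ξ))
    (h1 : (O1 M' q hπ).valuation ξ = 1)
    {O : ValuationSubring (FK (M' * q * q) K)} (hO : IsMid M' q hπ O) (h2 : O.valuation ξ < 1) :
    letI := algebraAlong (alpha2 K M' q)
    (minpoly (FK (M' * q) K) ξ).natDegree = Module.finrank (FK (M' * q) K) (FK (M' * q * q) K) ∧
    (O1q M' q hπ).valuation (Algebra.norm (FK (M' * q) K)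
        (aeval ξ (derivative (minpoly (FK (M' * q) K) ξ)))) =
      (O1q M' q hπ).valuation (((q : ℕ) : FK (M' * q) K)) ^ (q - 2) := by
  letI := algebraAlong (alpha2 K M' q)
  haveI : FiniteDimensional (FK (M' * q) K) (FK (M' * q * q) K) := finite_alpha2 (K := K) M' q hq
  have hq2 : q - 2 + 2 = q := Nat.sub_add_cancel hq.two_le
  have hdeg : Module.finrank (FK (M' * q) K) (FK (M' * q * q) K) = q - 2 + 2 := by
    rw [hq2]; exact finrank_alpha2 (K := K) M' q hq
  refine ⟨by rw [D.natDegree_eq, hdeg], ?_⟩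
  have htame : (O1q M' q hπ).valuation (((q - 2 + 1 : ℕ) : FK (M' * q) K)) = 1 := by
    apply val_natCast_succ_eq_one
    rw [hq2]
    exact D.lt_one
  exact norm_deriv_val D hdeg (O1 M' q hπ) O (O1_comap_alpha2 M' q hπ) hO.1 hO.2.symm hgen htame
    (minpoly.aeval _ ξ) h1 h2

/-- the same with `v(π)` in place of `v(q)` (`q = π · unit` in `A_K`), `hgen` in the shape of
`GenBase17.BaseG.unifW1` / `MidVal23.MidHyp.unifW1`. -/
theorem hprim_hN_mid_pi (hq : q.Prime) {π : ↥(AK A K)} (hπ : IsUnif (AK A K) π)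
    (hqπ : ∃ u : (↥(AK A K))ˣ, ((q : ℕ) : ↥(AK A K)) = π * u)
    (unifW1 : ∀ a : FK (M' * q) K, (O1q M' q hπ).valuation a < 1 →
      (O1q M' q hπ).valuation a ≤
        (O1q M' q hπ).valuation (algebraMap K (FK (M' * q) K) (π : K)))
    (ξ : FK (M' * q * q) K)
    (D : letI := algebraAlong (alpha2 K M' q)
      TwoSlope (O1q M' q hπ) (((q : ℕ) : FK (M' * q) K)) (q - 2) (minpoly (FK (M' * q) K) ξ))
    (h1 : (O1 M' q hπ).valuation ξ = 1)
    {O : ValuationSubring (FK (M' * q * q) K)} (hO : IsMid M' q hπ O) (h2 : O.valuation ξ < 1) :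
    letI := algebraAlong (alpha2 K M' q)
    (minpoly (FK (M' * q) K) ξ).natDegree = Module.finrank (FK (M' * q) K) (FK (M' * q * q) K) ∧
    (O1q M' q hπ).valuation (Algebra.norm (FK (M' * q) K)
        (aeval ξ (derivative (minpoly (FK (M' * q) K) ξ)))) =
      (O1q M' q hπ).valuation (algebraMap K (FK (M' * q) K) (π : K)) ^ (q - 2) := by
  have hv := valuation_O1q_natCast (A := A) (K := K) M' q hπ hqπ
  have := hprim_hN_mid (A := A) (K := K) M' q hq hπ (fun a ha => by rw [hv]; exact unifW1 a ha)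
    ξ D h1 hO h2
  rw [hv] at this
  exact this

/-- the same for every shifted generator `ζ = ξ + α₂ a`, `a ∈ F'` (e.g. `j'' = ξ + α₂ j`). -/
theorem hprim_hN_mid_shift (hq : q.Prime) {π : ↥(AK A K)} (hπ : IsUnif (AK A K) π)
    (hqπ : ∃ u : (↥(AK A K))ˣ, ((q : ℕ) : ↥(AK A K)) = π * u)
    (unifW1 : ∀ a : FK (M' * q) K, (O1q M' q hπ).valuation a < 1 →
      (O1q M' q hπ).valuation a ≤
        (O1q M' q hπ).valuation (algebraMap K (FK (M' * q) K) (π : K)))
    (ξ : FK (M' * q * q) K)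
    (D : letI := algebraAlong (alpha2 K M' q)
      TwoSlope (O1q M' q hπ) (((q : ℕ) : FK (M' * q) K)) (q - 2) (minpoly (FK (M' * q) K) ξ))
    (h1 : (O1 M' q hπ).valuation ξ = 1)
    {O : ValuationSubring (FK (M' * q * q) K)} (hO : IsMid M' q hπ O) (h2 : O.valuation ξ < 1)
    (a : FK (M' * q) K) :
    letI := algebraAlong (alpha2 K M' q)
    (minpoly (FK (M' * q) K) (ξ + alpha2 K M' q a)).natDegree =
      Module.finrank (FK (M' * q) K) (FK (M' * q * q) K) ∧
    (O1q M' q hπ).valuation (Algebra.norm (FK (M' * q) K)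
        (aeval (ξ + alpha2 K M' q a)
          (derivative (minpoly (FK (M' * q) K) (ξ + alpha2 K M' q a))))) =
      (O1q M' q hπ).valuation (algebraMap K (FK (M' * q) K) (π : K)) ^ (q - 2) := by
  letI := algebraAlong (alpha2 K M' q)
  have h := hprim_hN_mid_pi (A := A) (K := K) M' q hq hπ hqπ unifW1 ξ D h1 hO h2
  have e : alpha2 K M' q a = algebraMap (FK (M' * q) K) (FK (M' * q * q) K) a := rfl
  rw [e, natDegree_minpoly_add_algebraMap, aeval_derivative_minpoly_add_algebraMap]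
  exact h

end Fermat.Agent.ES.P36.DiffMid2
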