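/-
Program P (S36), chapter REG, brick R2 part 2 (helper2): **the valuation of a norm at two UNRAMIFIED
extensions** — exact form, on top of `NormRed20` (`JointIndep` basis) and `TwoExt22` (UNR).

`F / E` finite, `O₁ ≠ O₂` valuation subrings of `F` with the same restriction `O_E` to `E`; `b₁` (`n₁`
elements of `O₁`), `b₂` (`n₂` elements of `O₂`) residually independent over `O_E`, `[F : E] ≤ n₁ + n₂`
(so `O₁, O₂` are unramified over `O_E` with residue degrees `n₁, n₂`; the residue extensions may be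
inseparable).  `ϖ ∈ E` generates `𝔪_E` (`hϖ`).

* `norm_val_le_pow_right` : `T ∈ O₁`, `v₂ T ≤ v₂ ϖ`  ⊢ `v_E (N T) ≤ v_E ϖ ^ n₂`
  (in the adapted basis of `O₁ ⊓ O₂` the `n₂` columns of the `O₂`-part of the matrix of `T` are divisible by `ϖ`);
* `norm_val_le_pow_left`  : the mirror statement;
* `norm_val_eq_pow` : `[F : E] = n₁ + n₂`, `v₁ T = 1`, `v₂ T = v₂ ϖ` ⊢ `v_E (N T) = v_E ϖ ^ n₂`
  (`N T · N (ϖ / T) = ϖ ^ (n₁ + n₂)` and the two upper bounds).
-/
import Mathlib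
import Fermat.Agent.RED.PUR.UniqueExt20
import Fermat.Agent.ES.N34.TwoExt22
import Fermat.Agent.ES.N35.NormRed20

set_option autoImplicit false
set_option linter.unusedSectionVars false

namespace Fermat.Agent.ES.P36.NormUnr2

open Fermat.Agent.RED.PUR.UniqueExt20 Fermat.Agent.ES.N34.TwoExt22 Fermat.Agent.ES.N35.NormRed20

open scoped Classical

variable {E F : Type*} [Field E] [Field F] [Algebra E F]

/-- `∑ algebraMap (g i / c) * e i = (algebraMap c)⁻¹ * ∑ algebraMap (g i) * e i`. -/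
theorem sum_div_const_mul {ι : Type*} [Fintype ι] (e : ι → F) (g : ι → E) (c : E) :
    ∑ o, algebraMap E F (g o / c) * e o =
      (algebraMap E F c)⁻¹ * ∑ o, algebraMap E F (g o) * e o := by
  rw [Finset.mul_sum]
  refine Finset.sum_congr rfl fun o _ => ?_
  rw [map_div₀, div_eq_mul_inv]
  ring

/-- **upper bound at the second ring**: `T ∈ O₁`, `v₂ T ≤ v₂ ϖ` ⊢ `v_E (N T) ≤ v_E ϖ ^ n₂`. -/
theorem norm_val_le_pow_right [FiniteDimensional E F] {n₁ n₂ : ℕ}
    (hn : Module.finrank E F ≤ n₁ + n₂) (O₁ O₂ : ValuationSubring F) (h12 : O₁ ≠ O₂)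
    (hcomap₂ : O₁.comap (algebraMap E F) = O₂.comap (algebraMap E F))
    (b₁ : Fin n₁ → F) (hb₁O : ∀ i, b₁ i ∈ O₁)
    (hb₁ : ∀ a : Fin n₁ → E, (∀ i, (O₁.comap (algebraMap E F)).valuation (a i) ≤ 1) →
      O₁.valuation (∑ i, algebraMap E F (a i) * b₁ i) < 1 →
      ∀ i, (O₁.comap (algebraMap E F)).valuation (a i) < 1)
    (b₂ : Fin n₂ → F) (hb₂O : ∀ i, b₂ i ∈ O₂)
    (hb₂ : ∀ a : Fin n₂ → E, (∀ i, (O₁.comap (algebraMap E F)).valuation (a i) ≤ 1) →
      O₂.valuation (∑ i, algebraMap E F (a i) * b₂ i) < 1 →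
      ∀ i, (O₁.comap (algebraMap E F)).valuation (a i) < 1)
    {ϖ : E} (hϖ0 : ϖ ≠ 0)
    (hϖ : ∀ a : E, (O₁.comap (algebraMap E F)).valuation a < 1 →
      (O₁.comap (algebraMap E F)).valuation a ≤ (O₁.comap (algebraMap E F)).valuation ϖ)
    (hϖ1 : (O₁.comap (algebraMap E F)).valuation ϖ < 1)
    {T : F} (hT1 : T ∈ O₁) (hT2 : O₂.valuation T ≤ O₂.valuation (algebraMap E F ϖ)) :
    (O₁.comap (algebraMap E F)).valuation (Algebra.norm E T) ≤
      (O₁.comap (algebraMap E F)).valuation ϖ ^ n₂ := by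
  obtain ⟨e, he1, he2, he3, he4, hJ⟩ :=
    exists_jointIndep O₁ O₂ h12 hcomap₂ b₁ hb₁O hb₁ b₂ hb₂O hb₂
  have hϖF : algebraMap E F ϖ ≠ 0 := (map_ne_zero _).mpr hϖ0
  have hϖ1' : O₁.valuation (algebraMap E F ϖ) < 1 := (comap_val_lt_one_iff O₁ _).mp hϖ1
  have hϖ2' : O₂.valuation (algebraMap E F ϖ) < 1 := by
    rw [← comap_val_lt_one_iff, ← hcomap₂]; exact hϖ1
  have hv1 : O₁.valuation T ≤ 1 := (O₁.valuation_le_one_iff T).mpr hT1
  have hv2 : O₂.valuation T ≤ 1 := hT2.trans hϖ2'.le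
  have hb₁v : ∀ i, O₁.valuation (b₁ i) ≤ 1 := fun i => (O₁.valuation_le_one_iff _).mpr (hb₁O i)
  have hb₂v : ∀ i, O₂.valuation (b₂ i) ≤ 1 := fun i => (O₂.valuation_le_one_iff _).mpr (hb₂O i)
  -- the family `e` is integral at both rings
  have he1' : ∀ o, O₁.valuation (e o) ≤ 1 := by
    rintro (i | i)
    · have : e (Sum.inl i) = (e (Sum.inl i) - b₁ i) + b₁ i := by ring
      rw [this]
      exact (Valuation.map_add _ _ _).trans (max_le (he1 i).le (hb₁v i))
    · exact (he4 i).le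
  have he2' : ∀ o, O₂.valuation (e o) ≤ 1 := by
    rintro (i | i)
    · exact (he2 i).le
    · have : e (Sum.inr i) = (e (Sum.inr i) - b₂ i) + b₂ i := by ring
      rw [this]
      exact (Valuation.map_add _ _ _).trans (max_le (he3 i).le (hb₂v i))
  -- (UNR): the `O₂`-part of `e` is divisible by `ϖ` at `O₁`
  have hunr : ∀ i, O₁.valuation (e (Sum.inr i)) ≤ O₁.valuation (algebraMap E F ϖ) := fun i =>
    val_le_of_residually_independent hn O₁ O₂ h12 hcomap₂ b₁ hb₁O hb₁ b₂ hb₂O hb₂ hϖ0 hϖ (he4 i)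
  -- the basis
  have hli := hJ.linearIndependent
  have hcard : Fintype.card (Fin n₁ ⊕ Fin n₂) = Module.finrank E F := by
    refine le_antisymm hli.fintype_card_le_finrank ?_
    rw [Fintype.card_sum, Fintype.card_fin, Fintype.card_fin]
    exact hn
  have hne : Nonempty (Fin n₁ ⊕ Fin n₂) := by
    rw [← Fintype.card_pos_iff, hcard]
    exact Module.finrank_pos
  set B := basisOfLinearIndependentOfCardEqFinrank hli hcard with hBdef
  have hB : ∀ o, B o = e o := fun o => by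
    rw [hBdef, coe_basisOfLinearIndependentOfCardEqFinrank]
  have hnorm := Algebra.norm_eq_matrix_det B T
  set H := Algebra.leftMulMatrix B T with hH
  have hF1 : ∀ j, T * e j = ∑ i, algebraMap E F (H i j) * e i := by
    intro j
    conv_lhs => rw [← B.sum_repr (T * e j)]
    refine Finset.sum_congr rfl fun i _ => ?_
    rw [hH, Algebra.leftMulMatrix_eq_repr_mul, hB, hB, Algebra.smul_def]
  -- the column scaling
  set d : Fin n₁ ⊕ Fin n₂ → E := Sum.elim (fun _ => 1) (fun _ => ϖ) with hd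
  have hd0 : ∀ j, d j ≠ 0 := by
    rintro (j | j)
    · simp [hd]
    · simpa [hd] using hϖ0
  set H' : Matrix (Fin n₁ ⊕ Fin n₂) (Fin n₁ ⊕ Fin n₂) E := fun i j => H i j / d j with hH'
  have hF2 : ∀ i j, (O₁.comap (algebraMap E F)).valuation (H' i j) ≤ 1 := by
    intro i j
    rcases j with j | j
    · have hdj : d (Sum.inl j) = 1 := rfl
      have := hJ.coeff_le_one rfl hcomap₂.symm (fun i => H i (Sum.inl j))
        (by rw [← hF1, map_mul]; exact mul_le_one' hv1 (he1' _))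
        (by rw [← hF1, map_mul]; exact mul_le_one' hv2 (he2' _)) i
      simpa [hH', hdj] using this
    · have hdj : d (Sum.inr j) = ϖ := rfl
      have hsum : ∑ i, algebraMap E F (H i (Sum.inr j) / ϖ) * e i =
          (algebraMap E F ϖ)⁻¹ * (T * e (Sum.inr j)) := by
        rw [sum_div_const_mul, ← hF1]
      have := hJ.coeff_le_one rfl hcomap₂.symm (fun i => H i (Sum.inr j) / ϖ)
        (by
          rw [hsum, map_mul, map_mul, map_inv₀]
          calc (O₁.valuation (algebraMap E F ϖ))⁻¹ * (O₁.valuation T * O₁.valuation (e (Sum.inr j)))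
              ≤ (O₁.valuation (algebraMap E F ϖ))⁻¹ * (1 * O₁.valuation (algebraMap E F ϖ)) :=
                mul_le_mul' le_rfl (mul_le_mul' hv1 (hunr j))
            _ = 1 := by rw [one_mul, inv_mul_cancel₀ (val_pos O₁ hϖF).ne'])
        (by
          rw [hsum, map_mul, map_mul, map_inv₀]
          calc (O₂.valuation (algebraMap E F ϖ))⁻¹ * (O₂.valuation T * O₂.valuation (e (Sum.inr j)))
              ≤ (O₂.valuation (algebraMap E F ϖ))⁻¹ * (O₂.valuation (algebraMap E F ϖ) * 1) :=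
                mul_le_mul' le_rfl (mul_le_mul' hT2 (he2' _))
            _ = 1 := by rw [mul_one, inv_mul_cancel₀ (val_pos O₂ hϖF).ne']) i
      simpa [hH', hdj] using this
  -- `H = H' * diagonal d`
  have hHH' : H = H' * Matrix.diagonal d := by
    ext i j
    rw [Matrix.mul_diagonal, hH', div_mul_cancel₀ _ (hd0 j)]
  have hdetd : (Matrix.diagonal d).det = ϖ ^ n₂ := by
    rw [Matrix.det_diagonal, Fintype.prod_sum_type]
    simp [hd]
  -- lift `H'` to `O_E`
  set H'' : Matrix (Fin n₁ ⊕ Fin n₂) (Fin n₁ ⊕ Fin n₂) ↥(O₁.comap (algebraMap E F)) :=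
    fun i j => ⟨H' i j, ((O₁.comap (algebraMap E F)).valuation_le_one_iff _).mp (hF2 i j)⟩ with hH''
  have hdetH' : (H''.det : E) = H'.det := by
    have e1 : H' = H''.map (O₁.comap (algebraMap E F)).subtype := by
      ext i j; rfl
    rw [e1]
    exact (RingHom.map_det (O₁.comap (algebraMap E F)).subtype H'')
  have hdet1 : (O₁.comap (algebraMap E F)).valuation H'.det ≤ 1 := by
    rw [← hdetH']
    exact ((O₁.comap (algebraMap E F)).valuation_le_one_iff _).mpr (Subtype.mem _)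
  rw [hnorm, hHH', Matrix.det_mul, hdetd, map_mul, map_pow]
  exact mul_le_of_le_one_left' hdet1

/-- **upper bound at the first ring** (mirror): `T ∈ O₂`, `v₁ T ≤ v₁ ϖ` ⊢ `v_E (N T) ≤ v_E ϖ ^ n₁`. -/
theorem norm_val_le_pow_left [FiniteDimensional E F] {n₁ n₂ : ℕ}
    (hn : Module.finrank E F ≤ n₁ + n₂) (O₁ O₂ : ValuationSubring F) (h12 : O₁ ≠ O₂)
    (hcomap₂ : O₁.comap (algebraMap E F) = O₂.comap (algebraMap E F))
    (b₁ : Fin n₁ → F) (hb₁O : ∀ i, b₁ i ∈ O₁)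
    (hb₁ : ∀ a : Fin n₁ → E, (∀ i, (O₁.comap (algebraMap E F)).valuation (a i) ≤ 1) →
      O₁.valuation (∑ i, algebraMap E F (a i) * b₁ i) < 1 →
      ∀ i, (O₁.comap (algebraMap E F)).valuation (a i) < 1)
    (b₂ : Fin n₂ → F) (hb₂O : ∀ i, b₂ i ∈ O₂)
    (hb₂ : ∀ a : Fin n₂ → E, (∀ i, (O₁.comap (algebraMap E F)).valuation (a i) ≤ 1) →
      O₂.valuation (∑ i, algebraMap E F (a i) * b₂ i) < 1 →
      ∀ i, (O₁.comap (algebraMap E F)).valuation (a i) < 1)
    {ϖ : E} (hϖ0 : ϖ ≠ 0)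
    (hϖ : ∀ a : E, (O₁.comap (algebraMap E F)).valuation a < 1 →
      (O₁.comap (algebraMap E F)).valuation a ≤ (O₁.comap (algebraMap E F)).valuation ϖ)
    (hϖ1 : (O₁.comap (algebraMap E F)).valuation ϖ < 1)
    {T : F} (hT2 : T ∈ O₂) (hT1 : O₁.valuation T ≤ O₁.valuation (algebraMap E F ϖ)) :
    (O₁.comap (algebraMap E F)).valuation (Algebra.norm E T) ≤
      (O₁.comap (algebraMap E F)).valuation ϖ ^ n₁ := by
  have key := norm_val_le_pow_right (n₁ := n₂) (n₂ := n₁) (by omega) O₂ O₁ (Ne.symm h12)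
    hcomap₂.symm b₂ hb₂O (by rw [← hcomap₂]; exact hb₂) b₁ hb₁O (by rw [← hcomap₂]; exact hb₁)
    hϖ0 (by rw [← hcomap₂]; exact hϖ) (by rw [← hcomap₂]; exact hϖ1) hT2 hT1
  rw [← hcomap₂] at key
  exact key

/-- **the exact valuation of the norm**: `[F : E] = n₁ + n₂`, `T` a unit at `O₁` with `v₂ T = v₂ ϖ`
⊢ `v_E (N T) = v_E ϖ ^ n₂`. -/
theorem norm_val_eq_pow [FiniteDimensional E F] {n₁ n₂ : ℕ}
    (hdeg : Module.finrank E F = n₁ + n₂) (O₁ O₂ : ValuationSubring F) (h12 : O₁ ≠ O₂)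
    (hcomap₂ : O₁.comap (algebraMap E F) = O₂.comap (algebraMap E F))
    (b₁ : Fin n₁ → F) (hb₁O : ∀ i, b₁ i ∈ O₁)
    (hb₁ : ∀ a : Fin n₁ → E, (∀ i, (O₁.comap (algebraMap E F)).valuation (a i) ≤ 1) →
      O₁.valuation (∑ i, algebraMap E F (a i) * b₁ i) < 1 →
      ∀ i, (O₁.comap (algebraMap E F)).valuation (a i) < 1)
    (b₂ : Fin n₂ → F) (hb₂O : ∀ i, b₂ i ∈ O₂)
    (hb₂ : ∀ a : Fin n₂ → E, (∀ i, (O₁.comap (algebraMap E F)).valuation (a i) ≤ 1) →
      O₂.valuation (∑ i, algebraMap E F (a i) * b₂ i) < 1 →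
      ∀ i, (O₁.comap (algebraMap E F)).valuation (a i) < 1)
    {ϖ : E} (hϖ0 : ϖ ≠ 0)
    (hϖ : ∀ a : E, (O₁.comap (algebraMap E F)).valuation a < 1 →
      (O₁.comap (algebraMap E F)).valuation a ≤ (O₁.comap (algebraMap E F)).valuation ϖ)
    (hϖ1 : (O₁.comap (algebraMap E F)).valuation ϖ < 1)
    {T : F} (hT1 : O₁.valuation T = 1)
    (hT2 : O₂.valuation T = O₂.valuation (algebraMap E F ϖ)) :
    (O₁.comap (algebraMap E F)).valuation (Algebra.norm E T) =
      (O₁.comap (algebraMap E F)).valuation ϖ ^ n₂ := by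
  have hn : Module.finrank E F ≤ n₁ + n₂ := hdeg.le
  have hϖF : algebraMap E F ϖ ≠ 0 := (map_ne_zero _).mpr hϖ0
  have hT0 : T ≠ 0 := by
    rintro rfl; rw [map_zero] at hT1; exact zero_ne_one hT1
  have hA := norm_val_le_pow_right hn O₁ O₂ h12 hcomap₂ b₁ hb₁O hb₁ b₂ hb₂O hb₂ hϖ0 hϖ hϖ1
    ((O₁.valuation_le_one_iff T).mp hT1.le) hT2.le
  -- the complementary element
  set T' : F := algebraMap E F ϖ / T with hT'
  have hT'1 : O₁.valuation T' ≤ O₁.valuation (algebraMap E F ϖ) := by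
    rw [hT', map_div₀, hT1, div_one]
  have hT'2 : T' ∈ O₂ := by
    rw [← O₂.valuation_le_one_iff, hT', map_div₀, hT2, div_self (val_pos O₂ hϖF).ne']
  have hB := norm_val_le_pow_left hn O₁ O₂ h12 hcomap₂ b₁ hb₁O hb₁ b₂ hb₂O hb₂ hϖ0 hϖ hϖ1
    hT'2 hT'1
  have hprod : Algebra.norm E T * Algebra.norm E T' = ϖ ^ (n₁ + n₂) := by
    rw [← map_mul, hT', mul_div_cancel₀ _ hT0, Algebra.norm_algebraMap, hdeg]
  have hv := congrArg (O₁.comap (algebraMap E F)).valuation hprod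
  rw [map_mul, map_pow, pow_add] at hv
  have hpos : 0 < (O₁.comap (algebraMap E F)).valuation ϖ := val_pos _ hϖ0
  refine le_antisymm hA ?_
  by_contra hcon
  rw [not_le] at hcon
  have : (O₁.comap (algebraMap E F)).valuation (Algebra.norm E T) *
      (O₁.comap (algebraMap E F)).valuation (Algebra.norm E T') <
      (O₁.comap (algebraMap E F)).valuation ϖ ^ n₂ *
        (O₁.comap (algebraMap E F)).valuation ϖ ^ n₁ :=
    mul_lt_mul_of_lt_of_le_of_nonneg_of_pos hcon hB zero_le (pow_pos hpos _)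
  rw [hv, mul_comm] at this
  exact lt_irrefl _ this

end Fermat.Agent.ES.P36.NormUnr2
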