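/-
Program P (S36), chapter REG, brick R2 part 3 (helper2): **`v₀ (N_α (G'(βj))) = v₀(q) ^ q` and `βj` is a
primitive element of `F₁ / α(F_{M'})`** — the Gauss form of `NormUnr2` (vocabulary of `NormGauss20`) and
its instance at the `ModelDefs9` data.

Abstract (`gauss_data`, `one_add_le_finrankAlong`, `linearIndependent_pow`, `norm_val_gauss`):
`φ : F₀ →ₐ[K] F`; `V₀ ⊂ F₀` a Gauss pull-back along two expansions `ι₀a`, `ι₀b`; `V₁ ≠ V₂ ⊂ F` Gauss
pull-backs along `ι₁`, `ι₂` with `ι₁ ∘ φ = ι₀a`, `ι₂ ∘ φ = V_q ∘ ι₀b`; `w ∈ F` with `ι₂ w` of residual order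
prime to `q`.  Then `1, w, …, w^(q-1)` are residually independent at `V₂` over `V₀`, hence linearly
independent over `φ(F₀)`; and if `[F : φ F₀] = 1 + q`, `v₁ T = 1`, `v₂ T = v₂ π`:
`v₀ (N_φ T) = v₀ π ^ q`.
-/
import Mathlib
import Fermat.Agent.ES.P36.NormUnr2
import Fermat.Agent.ES.N35.NormGauss20
import Fermat.Agent.ES.N35.NormInst11
import Fermat.Agent.ES.P36.DiffExp2

set_option autoImplicit false
set_option linter.unusedSectionVars false
set_option linter.style.haveILetI false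

noncomputable section

open HahnSeries ModularCurve AlgebraicCurve

namespace Fermat.Agent.ES.P36.DiffNorm2

open Fermat.Agent.RED.PUR.GaussGen8 Fermat.Agent.RED.PUR.UniqueExt20
  Fermat.Agent.ES.N34.GaussEmb22 Fermat.Agent.ES.N34.GaussVTwoFam25
  Fermat.Agent.ES.HECKE.PointFormula28 Fermat.Agent.ES.N35.NormRed20
  Fermat.Agent.ES.N35.NormGauss20

section Abstract

variable {K : Type*} [Field K] {O : ValuationSubring K}
  {F₀ F : Type*} [Field F₀] [Field F] [Algebra K F₀] [Algebra K F]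
  [IsDiscreteValuationRing ↥O] {π : ↥O}

/-- The valuation-theoretic data of the Gauss situation (first half of the proof of
`NormGauss20.norm_congr_gauss`): both restrictions are `V₀`, and `1, w, …, w^(q-1)` are residually
independent at `V₂`. -/
theorem gauss_data (q : ℕ) [NeZero q] [Fact q.Prime] [CharP (Res O) q]
    (φ : F₀ →ₐ[K] F)
    {ι₀a ι₀b : F₀ →ₐ[K] LaurentSeries K} {V₀ : ValuationSubring F₀}
    (hV₀a : IsGaussPullback O ι₀a V₀) (hV₀b : IsGaussPullback O ι₀b V₀)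
    {ι₁ ι₂ : F →ₐ[K] LaurentSeries K} {V₁ V₂ : ValuationSubring F}
    (hV₁ : IsGaussPullback O ι₁ V₁) (hV₂ : IsGaussPullback O ι₂ V₂)
    (hφ₁ : ∀ x, ι₁ (φ x) = ι₀a x) (hφ₂ : ∀ x, ι₂ (φ x) = qExpand K q (ι₀b x))
    (w : F) (hw : ι₂ w ∈ gaussRing O) (hw0 : gaussRed O ⟨ι₂ w, hw⟩ ≠ 0)
    (hword : IsCoprime (gaussRed O ⟨ι₂ w, hw⟩).order (q : ℤ)) :
    letI := algebraAlong φ
    V₁.comap (algebraMap F₀ F) = V₀ ∧ V₂.comap (algebraMap F₀ F) = V₀ ∧
      (∀ i : Fin q, w ^ (i : ℕ) ∈ V₂) ∧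
      ∀ a : Fin q → F₀, (∀ i, V₀.valuation (a i) ≤ 1) →
        V₂.valuation (∑ i, algebraMap F₀ F (a i) * w ^ (i : ℕ)) < 1 →
        ∀ i, V₀.valuation (a i) < 1 := by
  letI := algebraAlong φ
  have hcomap1 : V₁.comap (algebraMap F₀ F) = V₀ := by
    ext x
    rw [ValuationSubring.mem_comap]
    show φ x ∈ V₁ ↔ _
    rw [hV₁, hφ₁, ← hV₀a]
  have hcomap2 : V₂.comap (algebraMap F₀ F) = V₀ := by
    ext x
    rw [ValuationSubring.mem_comap]
    show φ x ∈ V₂ ↔ _
    rw [hV₂, hφ₂]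
    constructor
    · intro hx
      exact mem_of_qExpand_mem q hV₀b x hx
    · intro hx
      exact qExpand_mem_gaussRing q ((hV₀b x).mp hx)
  have hwV : w ∈ V₂ := (hV₂ w).mpr hw
  refine ⟨hcomap1, hcomap2, fun i => pow_mem hwV _, ?_⟩
  intro a ha hs
  have haV : ∀ i, a i ∈ V₀ := fun i => (V₀.valuation_le_one_iff _).mp (ha i)
  have hφa : ∀ i, φ (a i) ∈ V₂ := fun i => by
    have : a i ∈ V₂.comap (algebraMap F₀ F) := by rw [hcomap2]; exact haV i
    exact this
  have hsum : (∑ i, algebraMap F₀ F (a i) * w ^ (i : ℕ)) =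
      ((∑ i : Fin q, (⟨φ (a i), hφa i⟩ : V₂) * (⟨w, hwV⟩ : V₂) ^ (i : ℕ) : V₂) : F) := by
    push_cast
    rfl
  rw [hsum, ← redOf_eq_zero_iff hV₂, map_sum] at hs
  have hterm : ∀ i : Fin q, redOf hV₂ ((⟨φ (a i), hφa i⟩ : V₂) * (⟨w, hwV⟩ : V₂) ^ (i : ℕ)) =
      qExpand (Res O) q (redOf hV₀b ⟨a i, haV i⟩) * gaussRed O ⟨ι₂ w, hw⟩ ^ (i : ℕ) := by
    intro i
    rw [map_mul, map_pow]
    congr 1
    rw [redOf_apply, redOf_apply]
    have hmem : qExpand K q ((toGauss hV₀b ⟨a i, haV i⟩ : gaussRing O) : LaurentSeries K) ∈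
        gaussRing O := qExpand_mem_gaussRing q (toGauss hV₀b ⟨a i, haV i⟩).2
    rw [← gaussRed_qExpand q (toGauss hV₀b ⟨a i, haV i⟩) hmem]
    congr 1
    exact Subtype.ext (hφ₂ (a i))
  simp only [hterm] at hs
  have hz := eq_zero_of_sum_qExpand_mul_pow q hw0 hword
    (fun i => redOf hV₀b ⟨a i, haV i⟩) hs
  intro i
  exact (redOf_eq_zero_iff hV₀b ⟨a i, haV i⟩).mp (hz i)

/-- a family which is residually independent at ONE valuation subring is linearly independent. -/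
theorem linearIndependent_of_residually_independent {E L : Type*} [Field E] [Field L] [Algebra E L]
    (OE : ValuationSubring E) (V : ValuationSubring L) {n : ℕ} (b : Fin n → L)
    (hb : ∀ a : Fin n → E, (∀ i, OE.valuation (a i) ≤ 1) →
      V.valuation (∑ i, algebraMap E L (a i) * b i) < 1 → ∀ i, OE.valuation (a i) < 1) :
    LinearIndependent E b := by
  rw [Fintype.linearIndependent_iff]
  intro g hg
  by_contra hex
  push Not at hex
  obtain ⟨j, hj0, hj⟩ := exists_scale OE g hex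
  have hrel : ∑ o, algebraMap E L (g o / g j) * b o = 0 := by
    have h1 : ∑ o, algebraMap E L (g o / g j) * b o =
        (algebraMap E L (g j))⁻¹ * ∑ o, algebraMap E L (g o) * b o := by
      rw [Finset.mul_sum]
      refine Finset.sum_congr rfl fun o _ => ?_
      rw [map_div₀, div_eq_mul_inv]
      ring
    have h2 : ∑ o, algebraMap E L (g o) * b o = ∑ o, g o • b o :=
      Finset.sum_congr rfl fun o _ => (Algebra.smul_def _ _).symm
    rw [h1, h2, hg, mul_zero]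
  have := hb (fun o => g o / g j) hj (by rw [hrel, map_zero]; exact zero_lt_one) j
  rw [div_self hj0, map_one] at this
  exact lt_irrefl _ this

/-- `1, w, …, w^(q-1)` are linearly independent over `φ(F₀)`. -/
theorem linearIndependent_pow (q : ℕ) [NeZero q] [Fact q.Prime] [CharP (Res O) q]
    (φ : F₀ →ₐ[K] F)
    {ι₀a ι₀b : F₀ →ₐ[K] LaurentSeries K} {V₀ : ValuationSubring F₀}
    (hV₀a : IsGaussPullback O ι₀a V₀) (hV₀b : IsGaussPullback O ι₀b V₀)
    {ι₁ ι₂ : F →ₐ[K] LaurentSeries K} {V₁ V₂ : ValuationSubring F}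
    (hV₁ : IsGaussPullback O ι₁ V₁) (hV₂ : IsGaussPullback O ι₂ V₂)
    (hφ₁ : ∀ x, ι₁ (φ x) = ι₀a x) (hφ₂ : ∀ x, ι₂ (φ x) = qExpand K q (ι₀b x))
    (w : F) (hw : ι₂ w ∈ gaussRing O) (hw0 : gaussRed O ⟨ι₂ w, hw⟩ ≠ 0)
    (hword : IsCoprime (gaussRed O ⟨ι₂ w, hw⟩).order (q : ℤ)) :
    letI := algebraAlong φ
    LinearIndependent F₀ (fun i : Fin q => w ^ (i : ℕ)) := by
  letI := algebraAlong φ
  obtain ⟨-, -, -, hb₂⟩ := gauss_data q φ hV₀a hV₀b hV₁ hV₂ hφ₁ hφ₂ w hw hw0 hword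
  exact linearIndependent_of_residually_independent V₀ V₂ _ hb₂

/-- **the valuation of the norm, Gauss form**: `[F : φ F₀] = 1 + q`, `T` a unit at `V₁` with
`v₂ T = v₂ π` ⊢ `v₀ (N_φ T) = v₀ π ^ q`. -/
theorem norm_val_gauss (q : ℕ) [NeZero q] [Fact q.Prime] [CharP (Res O) q]
    (hirr : Irreducible π)
    (φ : F₀ →ₐ[K] F) (hfin : FiniteAlong K φ) (hdeg : finrankAlong K φ = 1 + q)
    {ι₀a ι₀b : F₀ →ₐ[K] LaurentSeries K} {V₀ : ValuationSubring F₀}
    (hV₀a : IsGaussPullback O ι₀a V₀) (hV₀b : IsGaussPullback O ι₀b V₀)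
    {ι₁ ι₂ : F →ₐ[K] LaurentSeries K} {V₁ V₂ : ValuationSubring F}
    (hV₁ : IsGaussPullback O ι₁ V₁) (hV₂ : IsGaussPullback O ι₂ V₂) (h12 : V₁ ≠ V₂)
    (hφ₁ : ∀ x, ι₁ (φ x) = ι₀a x) (hφ₂ : ∀ x, ι₂ (φ x) = qExpand K q (ι₀b x))
    (w : F) (hw : ι₂ w ∈ gaussRing O) (hw0 : gaussRed O ⟨ι₂ w, hw⟩ ≠ 0)
    (hword : IsCoprime (gaussRed O ⟨ι₂ w, hw⟩).order (q : ℤ))
    {T : F} (hT1 : V₁.valuation T = 1)
    (hT2 : V₂.valuation T = V₂.valuation (algebraMap K F (π : K))) :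
    V₀.valuation (normAlong φ T) = V₀.valuation (algebraMap K F₀ (π : K)) ^ q := by
  letI := algebraAlong φ
  haveI := isScalarTower_along φ
  haveI : Module.Finite F₀ F := hfin
  obtain ⟨hcomap1, hcomap2, hb₂O, hb₂⟩ :=
    gauss_data q φ hV₀a hV₀b hV₁ hV₂ hφ₁ hφ₂ w hw hw0 hword
  have hπ0 : algebraMap K F₀ (π : K) ≠ 0 := fun h0 =>
    hirr.ne_zero (Subtype.ext ((map_eq_zero_iff _ (algebraMap K F₀).injective).mp h0))
  have hϖ : ∀ a : F₀, V₀.valuation a < 1 →
      V₀.valuation a ≤ V₀.valuation (algebraMap K F₀ (π : K)) := by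
    intro a ha
    rcases (val_lt_one_iff V₀).mp ha with h0 | hinv
    · rw [h0, map_zero]; exact zero_le
    · obtain ⟨c, hc, hac⟩ := unif hV₀a hirr a ((V₀.valuation_le_one_iff a).mp ha.le) hinv
      rw [hac, map_mul]
      exact mul_le_of_le_one_right' ((V₀.valuation_le_one_iff c).mpr hc)
  have hmap : algebraMap F₀ F (algebraMap K F₀ (π : K)) = algebraMap K F (π : K) :=
    (IsScalarTower.algebraMap_apply K F₀ F _).symm
  -- the family `b₁ = (1)`
  have hb₁O : ∀ i : Fin 1, (fun _ : Fin 1 => (1 : F)) i ∈ V₁ := fun _ => V₁.one_mem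
  subst hcomap1
  have hb₁ : ∀ a : Fin 1 → F₀, (∀ i, (V₁.comap (algebraMap F₀ F)).valuation (a i) ≤ 1) →
      V₁.valuation (∑ i, algebraMap F₀ F (a i) * (fun _ : Fin 1 => (1 : F)) i) < 1 →
      ∀ i, (V₁.comap (algebraMap F₀ F)).valuation (a i) < 1 := by
    intro a _ hs i
    rw [Fin.sum_univ_one, mul_one] at hs
    rw [Subsingleton.elim i 0]
    exact (comap_val_lt_one_iff V₁ _).mpr hs
  exact Fermat.Agent.ES.P36.NormUnr2.norm_val_eq_pow (n₁ := 1) (n₂ := q) hdeg V₁ V₂ h12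
    hcomap2.symm (fun _ : Fin 1 => (1 : F)) hb₁O hb₁ (fun i : Fin q => w ^ (i : ℕ)) hb₂O hb₂
    hπ0 hϖ (val_pi_lt_one hV₀a hirr) hT1 (by rw [hmap]; exact hT2)

end Abstract

/-! ### Primitive elements from linearly independent powers -/

section Prim

open Polynomial

/-- If `[L : E] = q + 1`, `q ≥ 2`, the powers `1, x, …, x^(q-1)` are linearly independent and `x` is a
root of the monic `G` of degree `q + 1`, then `G` is the minimal polynomial of `x` (so `x` is a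
primitive element). -/
theorem minpoly_eq_of_linearIndependent_pow {E L : Type*} [Field E] [Field L] [Algebra E L]
    [FiniteDimensional E L] (q : ℕ) (hq : 2 ≤ q) (hfr : Module.finrank E L = q + 1) (x : L)
    (hli : LinearIndependent E (fun i : Fin q => x ^ (i : ℕ)))
    (G : E[X]) (hG : G.Monic) (hGd : G.natDegree = q + 1) (hGx : aeval x G = 0) :
    minpoly E x = G := by
  have hint : IsIntegral E x := IsIntegral.of_finite E x
  have hμ : (minpoly E x).Monic := minpoly.monic hint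
  -- `q ≤ deg μ`
  have hd1 : q ≤ (minpoly E x).natDegree := by
    by_contra hlt
    rw [not_le] at hlt
    have h0 : aeval x (minpoly E x) = 0 := minpoly.aeval E x
    rw [Polynomial.aeval_eq_sum_range' hlt, ← Fin.sum_univ_eq_sum_range
      (fun i => (minpoly E x).coeff i • x ^ i) q] at h0
    have := Fintype.linearIndependent_iff.mp hli (fun i => (minpoly E x).coeff i) h0
      ⟨(minpoly E x).natDegree, hlt⟩
    simp only at this
    rw [hμ.coeff_natDegree] at this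
    exact one_ne_zero this
  -- `deg μ ∣ q + 1`
  have hd2 : (minpoly E x).natDegree ∣ q + 1 := by
    rw [← hfr, ← IntermediateField.adjoin.finrank hint,
      ← Module.finrank_mul_finrank E (IntermediateField.adjoin E {x}) L]
    exact dvd_mul_right _ _
  have hd3 : (minpoly E x).natDegree ≤ q + 1 := Nat.le_of_dvd (Nat.succ_pos q) hd2
  have hd : (minpoly E x).natDegree = q + 1 := by
    rcases Nat.lt_or_ge (minpoly E x).natDegree (q + 1) with hlt | hge
    · exfalso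
      have heq : (minpoly E x).natDegree = q := le_antisymm (Nat.lt_succ_iff.mp hlt) hd1
      rw [heq] at hd2
      have : q ∣ 1 := (Nat.dvd_add_right (dvd_refl q)).mp hd2
      have := Nat.le_of_dvd one_pos this
      omega
    · exact le_antisymm hd3 hge
  exact (Polynomial.eq_of_monic_of_dvd_of_natDegree_le hμ hG (minpoly.dvd E x hGx)
    (by rw [hGd, hd])).symm

end Prim

/-! ### The instance at the `ModelDefs9` data -/

section Model

open Polynomial
open Fermat.Agent.RED.Interface4 Fermat.Agent.ES.N34.FrickeFK8 Fermat.Agent.ES.N34.ModelDefs9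
  Fermat.Agent.ES.N34.IsoM25 Fermat.Agent.ES.N34.ModelGlue22 Fermat.Agent.ES.N35.NormInst11
  Fermat.Agent.IG.PR.Interface20 Fermat.Agent.ES.P36.DiffExp2

set_option synthInstance.maxHeartbeats 400000
set_option maxHeartbeats 1000000

variable (A : ValuationSubring Qbar) (K : IntermediateField ℚ Qbar) (M' q : ℕ) [NeZero M'] [NeZero q]
  [hq : Fact q.Prime] [IsDiscreteValuationRing ↥(AK A K)] [CharP (Res (AK A K)) q]
  {π : ↥(AK A K)}

/-- `βj = x_q = j(𝐪^q)`. -/
abbrev betaJ : FK (M' * q) K := xdL (M' * q) K q (dvd_mul_left q M')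

theorem iota2Alg_betaJ : iota2Alg K M' q (betaJ K M' q) = qExpand K M' (jqModC K) :=
  iotaAlg_xdL (M' * q) K q M' (Nat.mul_comm q M')

theorem iota2Alg_betaJ_mem : iota2Alg K M' q (betaJ K M' q) ∈ gaussRing (AK A K) := by
  rw [iota2Alg_betaJ]
  exact Fermat.Agent.RED.PUR.GaussBridge10.jqd_mem_gaussRing (AK A K) M'

theorem gaussRed_betaJ_eq :
    (⟨iota2Alg K M' q (betaJ K M' q), iota2Alg_betaJ_mem A K M' q⟩ : gaussRing (AK A K)) =
      ⟨qExpand K M' (jqModC K), Fermat.Agent.RED.PUR.GaussBridge10.jqd_mem_gaussRing (AK A K) M'⟩ :=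
  Subtype.ext (iota2Alg_betaJ K M' q)

theorem isCoprime_order_betaJ (hqM : ¬ q ∣ M') :
    IsCoprime (gaussRed (AK A K)
      ⟨iota2Alg K M' q (betaJ K M' q), iota2Alg_betaJ_mem A K M' q⟩).order (q : ℤ) := by
  rw [gaussRed_betaJ_eq, order_gaussRed_jqd]
  have hc : Nat.Coprime M' q := (Nat.Coprime.symm ((Nat.Prime.coprime_iff_not_dvd hq.out).mpr hqM))
  exact (Nat.isCoprime_iff_coprime.mpr hc).neg_left

/-- **(D1.3)+(D1.4): `v₀ (N_α (G'(βj))) = v₀(π) ^ q`** when `q = π · unit` in `A_K` (`e(A_K / ℤ_(q)) = 1`). -/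
theorem valuation_normAlong_diffElt (hπ : Irreducible π) (hu : IsUnif (AK A K) π) (hqM : ¬ q ∣ M')
    (hE : FK (M' * q) K ≤ fracField (AK A K)) (hE₀ : FK M' K ≤ fracField (AK A K))
    (hqπ : ∃ u : (↥(AK A K))ˣ, ((q : ℕ) : ↥(AK A K)) = π * u)
    (Φ : ℤ[X][X]) (hmonic : Φ.Monic) (hdeg : Φ.natDegree = q + 1)
    (h1 : Φ.eval₂ (evalAt ℤ (jqModC ℤ)) (qExpand ℤ q (jqModC ℤ)) = 0)
    (h2 : Φ.eval₂ (evalAt ℤ (qExpand ℤ q (jqModC ℤ))) (jqModC ℤ) = 0) :
    (gaussVS hu (FK M' K) hE₀).valuation (normAlong (alpha K M' q) (diffElt K M' q Φ)) =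
      (gaussVS hu (FK M' K) hE₀).valuation (algebraMap K (FK M' K) (π : K)) ^ q := by
  have hdegα : finrankAlong (↥K) (alpha K M' q) = 1 + q := by
    have := Fermat.Agent.ES.HECKE.AlongDegree25.finrankAlong_alpha (↥K) M' q hq.out hqM
    unfold alpha
    omega
  have hfin : FiniteAlong (↥K) (alpha K M' q) :=
    Fermat.Agent.ES.HECKE.AlongDegree25.finiteAlong_alpha (↥K) M' q hq.out hqM
  have hV₂ := isGaussPullback_O2 (A := A) (K := K) M' q hu hE
  -- `v₂ (q) = v₂ (π)`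
  have hT2 : (O2 M' q hu hE).valuation (diffElt K M' q Φ) =
      (O2 M' q hu hE).valuation (algebraMap K (FK (M' * q) K) (π : K)) := by
    rw [valuation_O2_diffElt M' q hu hE Φ hmonic hdeg h1 h2]
    obtain ⟨u, hqu⟩ := hqπ
    have e1 : ((q : ℕ) : FK (M' * q) K) =
        algebraMap K (FK (M' * q) K) (π : K) * algebraMap K (FK (M' * q) K) ((u : ↥(AK A K)) : K) := by
      rw [← map_mul]
      have : ((π : ↥(AK A K)) : K) * (((u : ↥(AK A K))) : K) = ((q : ℕ) : K) := by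
        have h3 : ((((q : ℕ) : ↥(AK A K))) : K) = (((π * (u : ↥(AK A K)) : ↥(AK A K))) : K) :=
          congrArg Subtype.val hqu
        rw [show (((π * (u : ↥(AK A K)) : ↥(AK A K))) : K) =
          ((π : ↥(AK A K)) : K) * (((u : ↥(AK A K))) : K) from rfl] at h3
        rw [← h3]
        push_cast
        rfl
      rw [this, map_natCast]
    rw [e1, map_mul]
    have hu1 : (O2 M' q hu hE).valuation
        (algebraMap K (FK (M' * q) K) ((u : ↥(AK A K)) : K)) = 1 := by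
      have hne : algebraMap K (FK (M' * q) K) ((u : ↥(AK A K)) : K) ≠ 0 := by
        rw [Ne, map_eq_zero_iff _ (algebraMap K (FK (M' * q) K)).injective]
        intro h0
        exact u.ne_zero (Subtype.ext h0)
      apply valuation_eq_one_of_mem_of_inv_mem _ hne
      · exact algebraMap_mem hV₂ (u : ↥(AK A K))
      · have : (algebraMap K (FK (M' * q) K) ((u : ↥(AK A K)) : K))⁻¹ =
            algebraMap K (FK (M' * q) K) (((u⁻¹ : (↥(AK A K))ˣ) : ↥(AK A K)) : K) := by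
          rw [← map_inv₀]
          congr 1
          have h4 : ((u : ↥(AK A K)) : K) * (((u⁻¹ : (↥(AK A K))ˣ) : ↥(AK A K)) : K) = 1 := by
            have h5 : ((((u : ↥(AK A K)) * ((u⁻¹ : (↥(AK A K))ˣ) : ↥(AK A K)) : ↥(AK A K))) : K) =
                (((1 : ↥(AK A K))) : K) := congrArg Subtype.val (Units.mul_inv u)
            exact h5
          exact inv_eq_of_mul_eq_one_right h4
        rw [this]
        exact algebraMap_mem hV₂ ((u⁻¹ : (↥(AK A K))ˣ) : ↥(AK A K))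
    rw [hu1, mul_one]
  refine norm_val_gauss (K := ↥K) (O := AK A K) (F₀ := ↥(FK M' K)) (F := ↥(FK (M' * q) K)) (π := π)
    q hπ (alpha K M' q) hfin hdegα
    (ι₀a := (FK M' K).val) (ι₀b := iotaAlg M' K) (V₀ := gaussVS hu (FK M' K) hE₀) ?_ ?_
    (ι₁ := (FK (M' * q) K).val) (ι₂ := iota2Alg K M' q) (V₁ := O1 M' q hu hE) (V₂ := O2 M' q hu hE)
    ?_ ?_ ?_ ?_ ?_ (betaJ K M' q) (iota2Alg_betaJ_mem A K M' q) ?_ ?_
    (valuation_O1_diffElt M' q hu hE Φ hmonic hdeg h1 h2) hT2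
  · exact isGaussPullback_Ov_val A K M' hu hE₀
  · exact isGaussPullback_Ov_iota A K M' q hπ hu hqM hE₀
  · exact isGaussPullback_O1 M' q hu hE
  · exact hV₂
  · exact Fermat.Agent.ES.N34.OneNeTwo3.o1_ne_o2 M' q hu hE
  · exact val_alpha K M' q
  · exact iota2Alg_alpha K M' q
  · rw [gaussRed_betaJ_eq]; exact gaussRed_jqd_ne_zero (AK A K) M'
  · exact isCoprime_order_betaJ A K M' q hqM

/-- the first `q` powers of `βj` are linearly independent over `α(F_{M'})`. -/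
theorem linearIndependent_betaJ_pow (hπ : Irreducible π) (hu : IsUnif (AK A K) π) (hqM : ¬ q ∣ M')
    (hE : FK (M' * q) K ≤ fracField (AK A K)) (hE₀ : FK M' K ≤ fracField (AK A K)) :
    letI := algebraAlong (alpha K M' q)
    LinearIndependent (FK M' K) (fun i : Fin q => betaJ K M' q ^ (i : ℕ)) := by
  refine linearIndependent_pow (K := ↥K) (O := AK A K) (F₀ := ↥(FK M' K)) (F := ↥(FK (M' * q) K))
    q (alpha K M' q)
    (ι₀a := (FK M' K).val) (ι₀b := iotaAlg M' K) (V₀ := gaussVS hu (FK M' K) hE₀) ?_ ?_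
    (ι₁ := (FK (M' * q) K).val) (ι₂ := iota2Alg K M' q) (V₁ := O1 M' q hu hE) (V₂ := O2 M' q hu hE)
    ?_ ?_ ?_ ?_ (betaJ K M' q) (iota2Alg_betaJ_mem A K M' q) ?_ ?_
  · exact isGaussPullback_Ov_val A K M' hu hE₀
  · exact isGaussPullback_Ov_iota A K M' q hπ hu hqM hE₀
  · exact isGaussPullback_O1 M' q hu hE
  · exact isGaussPullback_O2 (A := A) (K := K) M' q hu hE
  · exact val_alpha K M' q
  · exact iota2Alg_alpha K M' q
  · rw [gaussRed_betaJ_eq]; exact gaussRed_jqd_ne_zero (AK A K) M'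
  · exact isCoprime_order_betaJ A K M' q hqM

/-- **`βj` is a primitive element of `F₁ / α(F_{M'})` with minimal polynomial `G = Φ(X, j)`.** -/
theorem minpoly_betaJ (hπ : Irreducible π) (hu : IsUnif (AK A K) π) (hqM : ¬ q ∣ M')
    (hE : FK (M' * q) K ≤ fracField (AK A K)) (hE₀ : FK M' K ≤ fracField (AK A K))
    (Φ : ℤ[X][X]) (hmonic : Φ.Monic) (hdeg : Φ.natDegree = q + 1)
    (h1 : Φ.eval₂ (evalAt ℤ (jqModC ℤ)) (qExpand ℤ q (jqModC ℤ)) = 0) :
    letI := algebraAlong (alpha K M' q)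
    minpoly (FK M' K) (betaJ K M' q) = Φ.map (evFM K M') := by
  letI := algebraAlong (alpha K M' q)
  haveI : Module.Finite (FK M' K) (FK (M' * q) K) :=
    Fermat.Agent.ES.HECKE.AlongDegree25.finiteAlong_alpha (↥K) M' q hq.out hqM
  have hfr : Module.finrank (FK M' K) (FK (M' * q) K) = q + 1 :=
    Fermat.Agent.ES.HECKE.AlongDegree25.finrankAlong_alpha (↥K) M' q hq.out hqM
  refine minpoly_eq_of_linearIndependent_pow q hq.out.two_le hfr (betaJ K M' q)
    (linearIndependent_betaJ_pow A K M' q hπ hu hqM hE hE₀) _ (hmonic.map _)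
    (by rw [hmonic.natDegree_map, hdeg]) ?_
  rw [Polynomial.aeval_def, Polynomial.eval₂_map]
  have hcomp : (algebraMap (FK M' K) (FK (M' * q) K)).comp (evFM K M') = evF K M' q := by
    rw [evF_eq]; rfl
  rw [hcomp]
  exact eval₂_evF_eq_zero K M' q Φ h1

/-- `[F₁ : α(F_{M'})] = deg (minpoly βj)`: the hypothesis `hprim` of the discriminant bound. -/
theorem natDegree_minpoly_betaJ (hπ : Irreducible π) (hu : IsUnif (AK A K) π) (hqM : ¬ q ∣ M')
    (hE : FK (M' * q) K ≤ fracField (AK A K)) (hE₀ : FK M' K ≤ fracField (AK A K))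
    (Φ : ℤ[X][X]) (hmonic : Φ.Monic) (hdeg : Φ.natDegree = q + 1)
    (h1 : Φ.eval₂ (evalAt ℤ (jqModC ℤ)) (qExpand ℤ q (jqModC ℤ)) = 0) :
    letI := algebraAlong (alpha K M' q)
    (minpoly (FK M' K) (betaJ K M' q)).natDegree = Module.finrank (FK M' K) (FK (M' * q) K) := by
  letI := algebraAlong (alpha K M' q)
  have hfr : Module.finrank (FK M' K) (FK (M' * q) K) = q + 1 :=
    Fermat.Agent.ES.HECKE.AlongDegree25.finrankAlong_alpha (↥K) M' q hq.out hqM
  rw [minpoly_betaJ A K M' q hπ hu hqM hE hE₀ Φ hmonic hdeg h1, hmonic.natDegree_map, hdeg, hfr]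

/-- `(minpoly βj)'(βj) = G'(βj) = diffElt`. -/
theorem aeval_derivative_minpoly_betaJ (hπ : Irreducible π) (hu : IsUnif (AK A K) π)
    (hqM : ¬ q ∣ M') (hE : FK (M' * q) K ≤ fracField (AK A K))
    (hE₀ : FK M' K ≤ fracField (AK A K))
    (Φ : ℤ[X][X]) (hmonic : Φ.Monic) (hdeg : Φ.natDegree = q + 1)
    (h1 : Φ.eval₂ (evalAt ℤ (jqModC ℤ)) (qExpand ℤ q (jqModC ℤ)) = 0) :
    letI := algebraAlong (alpha K M' q)
    Polynomial.aeval (betaJ K M' q)
      (Polynomial.derivative (minpoly (FK M' K) (betaJ K M' q))) = diffElt K M' q Φ := by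
  letI := algebraAlong (alpha K M' q)
  rw [minpoly_betaJ A K M' q hπ hu hqM hE hE₀ Φ hmonic hdeg h1, Polynomial.derivative_map,
    Polynomial.aeval_def, Polynomial.eval₂_map]
  have hcomp : (algebraMap (FK M' K) (FK (M' * q) K)).comp (evFM K M') = evF K M' q := by
    rw [evF_eq]; rfl
  rw [hcomp]
  rfl

end Model

end Fermat.Agent.ES.P36.DiffNorm2
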