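/-
Program P (S36), chapter (G1)/(MODEL-P), brick (VAL3-abstract), helper22.
Mathlib + `RED/PUR/UniqueExt20` + `ES/N34/TwoExt22`.

The fundamental inequality WITH ramification, in elementwise form and without completions.

`F / E` a finite field extension, `O_E` a (discrete) valuation subring of `E` with uniformiser `ϖ`
(`hunif`), `O₁ ≠ O₂` valuation subrings of `F` over `O_E`.

* `IsValIndep O x`: the finite family `x : A → F` is VALUATION-INDEPENDENT over `E` for `O`:
  `v (c a • x a) ≤ v (∑ b, c b • x b)` for all coefficient vectors `c : A → E`.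
  (For `e = 1` this is the residual independence of `TwoExt22`; `valIndep_of_residually_independent`.)
* `valIndep_of_ram`: if `(y b)` is residually independent and `v z ^ e = v ϖ`, the family
  `z ^ k * y b` (`k < e`) is valuation-independent (`e · f` elements).
* `eq_or_eq_of_valIndep`: if `O₁`, `O₂` carry valuation-independent families with
  `[F : E] ≤ |A₁| + |A₂|`, then EVERY valuation subring of `F` over `O_E` is `O₁` or `O₂`
  (`∑ eᵢ fᵢ = n` ⇒ the list of extensions is complete).
* `val_pow_finrank_le`: `x ∈ 𝔪_V ⇒ x ^ [F:E] ∈ ϖ V` (the ramification index is at most `[F : E]`).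
* `exists_approx3_prec`: approximation for three pairwise incomparable valuation subrings over
  `O_E` with arbitrary `ϖ`-adic precision.
-/
import Mathlib
import Fermat.Agent.RED.PUR.UniqueExt20
import Fermat.Agent.ES.N34.TwoExt22

set_option autoImplicit false

namespace Fermat.Agent.ES.P36.FundIneq22

open Fermat.Agent.RED.PUR.UniqueExt20 Fermat.Agent.ES.N34.TwoExt22

open scoped Classical

variable {E F : Type*} [Field E] [Field F] [Algebra E F]

/-! ### Bookkeeping -/

theorem val_algebraMap_le_iff (V : ValuationSubring F) (c d : E) :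
    V.valuation (algebraMap E F c) ≤ V.valuation (algebraMap E F d) ↔
      (V.comap (algebraMap E F)).valuation c ≤ (V.comap (algebraMap E F)).valuation d := by
  by_cases hd : d = 0
  · subst hd
    simp only [map_zero, le_zero_iff, Valuation.zero_iff,
      map_eq_zero_iff _ (algebraMap E F).injective]
  · have hdF : algebraMap E F d ≠ 0 := fun h =>
      hd ((map_eq_zero_iff _ (algebraMap E F).injective).mp h)
    rw [← div_le_one₀ (val_pos V hdF), ← div_le_one₀ (val_pos _ hd), ← map_div₀, ← map_div₀,
      ← map_div₀, comap_val_le_one_iff]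

theorem val_algebraMap_lt_iff (V : ValuationSubring F) (c d : E) :
    V.valuation (algebraMap E F c) < V.valuation (algebraMap E F d) ↔
      (V.comap (algebraMap E F)).valuation c < (V.comap (algebraMap E F)).valuation d := by
  rw [← not_le, ← not_le, val_algebraMap_le_iff]

/-- A sum of products `a i * c i` with `v (a i) ≤ 1`, `v (c i) ≤ δ` has valuation `≤ δ`. -/
theorem val_sum_mul_le (V : ValuationSubring F) {ι : Type*} [Fintype ι] (a c : ι → F)
    {δ : V.ValueGroup} (ha : ∀ i, V.valuation (a i) ≤ 1) (hc : ∀ i, V.valuation (c i) ≤ δ) :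
    V.valuation (∑ i, a i * c i) ≤ δ := by
  refine Valuation.map_sum_le _ fun i _ => ?_
  rw [map_mul]
  exact (mul_le_of_le_one_left' (ha i)).trans (hc i)

/-! ### Powers: the ramification index is at most the degree -/

/-- `1 - w ^ N ∈ (1 - w) V` when `w ∈ V`. -/
theorem val_one_sub_pow_le (V : ValuationSubring F) {w : F} (hw : V.valuation w ≤ 1) (N : ℕ) :
    V.valuation (1 - w ^ N) ≤ V.valuation (1 - w) := by
  rw [← mul_neg_geom_sum, map_mul]
  refine mul_le_of_le_one_right' ?_
  refine Valuation.map_sum_le _ fun i _ => ?_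
  rw [map_pow]
  exact pow_le_one' hw i

/-- The element `w_N := 1 - (1 - w ^ N) ^ N`. -/
def powApprox (w : F) (N : ℕ) : F := 1 - (1 - w ^ N) ^ N

theorem val_one_sub_powApprox_le (V : ValuationSubring F) {w : F} (hw : V.valuation w ≤ 1)
    (N : ℕ) : V.valuation (1 - powApprox w N) ≤ V.valuation (1 - w) ^ N := by
  have : 1 - powApprox w N = (1 - w ^ N) ^ N := by unfold powApprox; ring
  rw [this, map_pow]
  exact pow_le_pow_left' (val_one_sub_pow_le V hw N) N

theorem val_powApprox_le (V : ValuationSubring F) {w : F} (hw : V.valuation w ≤ 1)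
    (N : ℕ) : V.valuation (powApprox w N) ≤ V.valuation w ^ N := by
  have h1 : V.valuation (1 - w ^ N) ≤ 1 := by
    refine (Valuation.map_sub _ _ _).trans (max_le (by rw [map_one]) ?_)
    rw [map_pow]; exact pow_le_one' hw N
  have : powApprox w N = w ^ N * ∑ i ∈ Finset.range N, (1 - w ^ N) ^ i := by
    unfold powApprox
    rw [← mul_neg_geom_sum (1 - w ^ N) N]
    ring
  rw [this, map_mul, map_pow]
  refine mul_le_of_le_one_right' ?_
  refine Valuation.map_sum_le _ fun i _ => ?_
  rw [map_pow]
  exact pow_le_one' h1 i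

/-- **(e ≤ n)**  If `𝔪_E = ϖ O_E` (elementwise: every element of `𝔪_E` has valuation at most that
of `ϖ`), then for every `x ∈ 𝔪_V`: `x ^ [F : E] ∈ ϖ V`. -/
theorem val_pow_finrank_le [FiniteDimensional E F] (V : ValuationSubring F) {ϖ : E}
    (hunif : ∀ c : E, V.valuation (algebraMap E F c) < 1 →
      V.valuation (algebraMap E F c) ≤ V.valuation (algebraMap E F ϖ))
    {x : F} (hx : V.valuation x < 1) :
    V.valuation x ^ Module.finrank E F ≤ V.valuation (algebraMap E F ϖ) := by
  set n := Module.finrank E F with hn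
  have hnpos : 0 < n := Module.finrank_pos
  by_cases hx0 : x = 0
  · subst hx0
    rw [map_zero, zero_pow hnpos.ne']
    exact zero_le
  -- a linear relation among `1, x, …, x ^ n`
  have hdep : ¬ LinearIndependent E (fun i : Fin (n + 1) => x ^ (i : ℕ)) := by
    intro hli
    have := hli.fintype_card_le_finrank
    rw [Fintype.card_fin] at this
    omega
  rw [Fintype.linearIndependent_iff] at hdep
  push Not at hdep
  obtain ⟨g, hg, i₀, hi₀⟩ := hdep
  -- the index of maximal valuation
  obtain ⟨k, -, hk⟩ := Finset.exists_max_image Finset.univ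
    (fun i : Fin (n + 1) => V.valuation (algebraMap E F (g i) * x ^ (i : ℕ))) ⟨i₀, Finset.mem_univ _⟩
  have hxpow : ∀ i : ℕ, V.valuation (x ^ i) ≠ 0 := fun i =>
    (Valuation.ne_zero_iff _).mpr (pow_ne_zero i hx0)
  have hgF : ∀ i, g i ≠ 0 → algebraMap E F (g i) ≠ 0 := fun i h h' =>
    h ((map_eq_zero_iff _ (algebraMap E F).injective).mp h')
  have hkpos : V.valuation (algebraMap E F (g k) * x ^ (k : ℕ)) ≠ 0 := by
    have h1 := hk i₀ (Finset.mem_univ _)
    have h2 : V.valuation (algebraMap E F (g i₀) * x ^ (i₀ : ℕ)) ≠ 0 :=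
      (Valuation.ne_zero_iff _).mpr (mul_ne_zero (hgF _ hi₀) (pow_ne_zero _ hx0))
    intro h0
    rw [h0] at h1
    exact h2 (le_antisymm h1 zero_le)
  have hgk : g k ≠ 0 := by
    rintro h0
    rw [h0, map_zero, zero_mul, map_zero] at hkpos
    exact hkpos rfl
  -- a second index with the same valuation
  have hex : ∃ l, l ≠ k ∧ V.valuation (algebraMap E F (g l) * x ^ (l : ℕ)) =
      V.valuation (algebraMap E F (g k) * x ^ (k : ℕ)) := by
    by_contra hcon
    push Not at hcon
    have hlt : ∀ i ∈ Finset.univ \ {k}, V.valuation (algebraMap E F (g i) * x ^ (i : ℕ)) <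
        V.valuation (algebraMap E F (g k) * x ^ (k : ℕ)) := by
      intro i hi
      have hik : i ≠ k := by simpa using hi
      exact lt_of_le_of_ne (hk i (Finset.mem_univ _)) (hcon i hik)
    have := Valuation.map_sum_eq_of_lt V.valuation (Finset.mem_univ k) hlt
    have hsum : ∑ i, algebraMap E F (g i) * x ^ (i : ℕ) = 0 := by
      simpa [Algebra.smul_def] using hg
    rw [hsum, map_zero] at this
    exact hkpos this.symm
  obtain ⟨l, hlk, hl⟩ := hex
  have hgl : g l ≠ 0 := by
    rintro h0
    rw [h0, map_zero, zero_mul, map_zero] at hl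
    exact hkpos hl.symm
  -- WLOG on the order of `k`, `l`
  have key : ∀ a b : Fin (n + 1), (a : ℕ) < b → g a ≠ 0 → g b ≠ 0 →
      V.valuation (algebraMap E F (g a) * x ^ (a : ℕ)) =
        V.valuation (algebraMap E F (g b) * x ^ (b : ℕ)) →
      V.valuation x ^ n ≤ V.valuation (algebraMap E F ϖ) := by
    intro a b hab hga hgb hval
    set d := (b : ℕ) - a with hd
    have hdpos : 0 < d := by omega
    have hdn : d ≤ n := by
      have := b.2
      omega
    have hxd : V.valuation x ^ d = V.valuation (algebraMap E F (g a / g b)) := by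
      rw [map_div₀, map_div₀]
      have hb : (b : ℕ) = a + d := by omega
      rw [hb, pow_add, map_mul, map_mul, map_mul, map_pow, map_pow] at hval
      have hxa : V.valuation x ^ (a : ℕ) ≠ 0 := by
        rw [← map_pow]; exact hxpow _
      have hgb' : V.valuation (algebraMap E F (g b)) ≠ 0 :=
        (Valuation.ne_zero_iff _).mpr (hgF _ hgb)
      rw [eq_div_iff hgb']
      have : V.valuation (algebraMap E F (g a)) * V.valuation x ^ (a : ℕ) =
          (V.valuation x ^ d * V.valuation (algebraMap E F (g b))) * V.valuation x ^ (a : ℕ) := by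
        rw [hval]; ac_rfl
      exact (mul_right_cancel₀ hxa this).symm
    have hlt : V.valuation (algebraMap E F (g a / g b)) < 1 := by
      rw [← hxd]
      exact pow_lt_one₀ zero_le hx hdpos.ne'
    calc V.valuation x ^ n ≤ V.valuation x ^ d := pow_le_pow_right_of_le_one' hx.le hdn
      _ = V.valuation (algebraMap E F (g a / g b)) := hxd
      _ ≤ _ := hunif _ hlt
  rcases lt_or_gt_of_ne (fun h => hlk (Fin.ext h) : (l : ℕ) ≠ k) with h | h
  · exact key l k h hgl hgk hl
  · exact key k l h hgk hgl hl.symm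

/-! ### Discrete valuation subrings over `O_E` -/

/-- `V` is "discrete over `E` with uniformiser `ϖ ∈ E` of `V ∩ E`": `ϖ ∈ 𝔪_V`, every element of
`𝔪_V ∩ E` is a multiple of `ϖ`, and the powers of `ϖ` tend to `0` (rank one). -/
structure IsDiscOver (V : ValuationSubring F) (ϖ : E) : Prop where
  lt_one : V.valuation (algebraMap E F ϖ) < 1
  ne_zero : ϖ ≠ 0
  unif : ∀ c : E, V.valuation (algebraMap E F c) < 1 →
    V.valuation (algebraMap E F c) ≤ V.valuation (algebraMap E F ϖ)
  arch : ∀ x : F, ∃ k : ℕ, algebraMap E F ϖ ^ k * x ∈ V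

/-- `IsDiscOver` from the corresponding properties of `V ∩ E`. -/
theorem isDiscOver_of_comap [Algebra.IsAlgebraic E F] (V : ValuationSubring F) {ϖ : E}
    (hlt : (V.comap (algebraMap E F)).valuation ϖ < 1) (h0 : ϖ ≠ 0)
    (hunif : ∀ c : E, (V.comap (algebraMap E F)).valuation c < 1 →
      (V.comap (algebraMap E F)).valuation c ≤ (V.comap (algebraMap E F)).valuation ϖ)
    (harch : ∀ a : E, ∃ k : ℕ, ϖ ^ k * a ∈ V.comap (algebraMap E F)) : IsDiscOver V ϖ where
  lt_one := (comap_val_lt_one_iff V ϖ).mp hlt
  ne_zero := h0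
  unif := fun c hc => (val_algebraMap_le_iff V c ϖ).mpr
    (hunif c ((comap_val_lt_one_iff V c).mpr hc))
  arch := by
    intro x
    by_cases hxO : x ∈ V
    · exact ⟨0, by simpa using hxO⟩
    -- `TwoExtCor22.arch_of_comap`, reproved here to keep the import list short
    have hx0 : x ≠ 0 := fun h0 => hxO (h0 ▸ V.zero_mem)
    have hyO : x⁻¹ ∈ V := (V.mem_or_inv_mem x).resolve_left hxO
    set y := x⁻¹ with hy
    have hy0 : y ≠ 0 := inv_ne_zero hx0
    have hint : IsIntegral E y := (Algebra.IsAlgebraic.isAlgebraic y).isIntegral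
    set p := minpoly E y with hp
    have hp0 : p.coeff 0 ≠ 0 := minpoly.coeff_zero_ne_zero hint hy0
    set d := p.natDegree with hd
    obtain ⟨j, hj0, hj⟩ := exists_scale (V.comap (algebraMap E F))
      (fun i : Fin (d + 1) => p.coeff i) ⟨0, by simpa using hp0⟩
    set c : ℕ → E := fun i => p.coeff i / p.coeff j with hc
    have hcO : ∀ i, i < d + 1 → algebraMap E F (c i) ∈ V := by
      intro i hi
      exact (V.valuation_le_one_iff _).mp ((comap_val_le_one_iff V _).mp (hj ⟨i, hi⟩))
    have hrel : ∑ i ∈ Finset.range (d + 1), algebraMap E F (c i) * y ^ i = 0 := by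
      have h1 : ∑ i ∈ Finset.range (d + 1), algebraMap E F (p.coeff i) * y ^ i = 0 := by
        rw [← minpoly.aeval E y, Polynomial.aeval_eq_sum_range]
        refine Finset.sum_congr rfl fun i _ => ?_
        rw [Algebra.smul_def]
      have h2 : ∑ i ∈ Finset.range (d + 1), algebraMap E F (c i) * y ^ i =
          (algebraMap E F (p.coeff j))⁻¹ *
            ∑ i ∈ Finset.range (d + 1), algebraMap E F (p.coeff i) * y ^ i := by
        rw [Finset.mul_sum]
        refine Finset.sum_congr rfl fun i _ => ?_
        rw [hc]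
        simp only [map_div₀]
        field_simp
      rw [h2, h1, mul_zero]
    have hc0 : c 0 ≠ 0 := div_ne_zero hp0 hj0
    have hsplit : algebraMap E F (c 0) =
        -(y * ∑ i ∈ Finset.range d, algebraMap E F (c (i + 1)) * y ^ i) := by
      rw [Finset.sum_range_succ'] at hrel
      rw [pow_zero, mul_one] at hrel
      have : ∑ i ∈ Finset.range d, algebraMap E F (c (i + 1)) * y ^ (i + 1) =
          y * ∑ i ∈ Finset.range d, algebraMap E F (c (i + 1)) * y ^ i := by
        rw [Finset.mul_sum]
        refine Finset.sum_congr rfl fun i _ => ?_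
        ring
      rw [this] at hrel
      exact eq_neg_of_add_eq_zero_right hrel
    have hSO : ∑ i ∈ Finset.range d, algebraMap E F (c (i + 1)) * y ^ i ∈ V := by
      refine V.toSubring.sum_mem fun i hi => ?_
      rw [Finset.mem_range] at hi
      exact V.mul_mem _ _ (hcO (i + 1) (by omega)) (pow_mem hyO i)
    obtain ⟨k, hk⟩ := harch (c 0)⁻¹
    rw [ValuationSubring.mem_comap, map_mul, map_pow, map_inv₀] at hk
    refine ⟨k, ?_⟩
    have hc0F : algebraMap E F (c 0) ≠ 0 := fun h =>
      hc0 ((map_eq_zero_iff _ (algebraMap E F).injective).mp h)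
    have hx : x = -((algebraMap E F (c 0))⁻¹ *
        ∑ i ∈ Finset.range d, algebraMap E F (c (i + 1)) * y ^ i) := by
      have hyx : y * x = 1 := by rw [hy]; exact inv_mul_cancel₀ hx0
      have h1 : algebraMap E F (c 0) * x =
          -(∑ i ∈ Finset.range d, algebraMap E F (c (i + 1)) * y ^ i) := by
        rw [hsplit]
        linear_combination (-(∑ i ∈ Finset.range d, algebraMap E F (c (i + 1)) * y ^ i)) * hyx
      field_simp
      linear_combination h1
    have : algebraMap E F ϖ ^ k * x = -((algebraMap E F ϖ ^ k * (algebraMap E F (c 0))⁻¹) *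
        ∑ i ∈ Finset.range d, algebraMap E F (c (i + 1)) * y ^ i) := by
      rw [hx]; ring
    rw [this]
    exact V.neg_mem _ (V.mul_mem _ _ hk hSO)

namespace IsDiscOver

variable {V : ValuationSubring F} {ϖ : E}

theorem p_ne_zero (h : IsDiscOver V ϖ) : algebraMap E F ϖ ≠ 0 := fun h' =>
  h.ne_zero ((map_eq_zero_iff _ (algebraMap E F).injective).mp h')

theorem arch_le (h : IsDiscOver V ϖ) {x : F} {k l : ℕ} (hk : algebraMap E F ϖ ^ k * x ∈ V)
    (hkl : k ≤ l) : V.valuation (algebraMap E F ϖ ^ l * x) ≤ 1 := by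
  obtain ⟨d, rfl⟩ := Nat.exists_eq_add_of_le hkl
  have : algebraMap E F ϖ ^ (k + d) * x = algebraMap E F ϖ ^ d * (algebraMap E F ϖ ^ k * x) := by
    ring
  rw [this, map_mul, map_pow]
  exact mul_le_one' (pow_le_one' h.lt_one.le d) ((V.valuation_le_one_iff _).mpr hk)

/-- For every nonzero `x` some power of `ϖ` is strictly smaller than `x`. -/
theorem exists_pow_lt (h : IsDiscOver V ϖ) {x : F} (hx : x ≠ 0) :
    ∃ k : ℕ, ∀ l, k ≤ l → V.valuation (algebraMap E F ϖ ^ l) < V.valuation x := by
  obtain ⟨k, hk⟩ := h.arch x⁻¹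
  refine ⟨k + 1, fun l hl => ?_⟩
  obtain ⟨d, rfl⟩ := Nat.exists_eq_add_of_le hl
  have h1 : V.valuation (algebraMap E F ϖ ^ k) ≤ V.valuation x := by
    have := (V.valuation_le_one_iff _).mpr hk
    rw [map_mul, map_inv₀, ← div_eq_mul_inv, div_le_one₀ (val_pos V hx)] at this
    exact this
  have h2 : V.valuation (algebraMap E F ϖ ^ (k + 1 + d)) ≤
      V.valuation (algebraMap E F ϖ) * V.valuation (algebraMap E F ϖ ^ k) := by
    have : algebraMap E F ϖ ^ (k + 1 + d) =
        algebraMap E F ϖ ^ d * (algebraMap E F ϖ * algebraMap E F ϖ ^ k) := by ring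
    rw [this, map_mul (V.valuation) (algebraMap E F ϖ ^ d), map_mul, map_pow]
    exact mul_le_of_le_one_left' (pow_le_one' h.lt_one.le d)
  refine lt_of_le_of_lt h2 (lt_of_lt_of_le ?_ h1)
  have hpos : 0 < V.valuation (algebraMap E F ϖ ^ k) := val_pos V (pow_ne_zero _ h.p_ne_zero)
  calc V.valuation (algebraMap E F ϖ) * V.valuation (algebraMap E F ϖ ^ k)
      < 1 * V.valuation (algebraMap E F ϖ ^ k) := by
        exact mul_lt_mul_of_pos_right h.lt_one hpos
    _ = _ := one_mul _

/-- The basic estimate: `u ∈ 𝔪_V`, `ϖ ^ k x ∈ V` ⇒ `u ^ (n (K + k)) x ∈ ϖ ^ K V`. -/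
theorem val_pow_mul_le [FiniteDimensional E F] (h : IsDiscOver V ϖ) {u : F}
    (hu : V.valuation u < 1) {x : F} {k : ℕ} (hk : V.valuation (algebraMap E F ϖ ^ k * x) ≤ 1)
    (K : ℕ) :
    V.valuation u ^ (Module.finrank E F * (K + k)) * V.valuation x ≤
      V.valuation (algebraMap E F ϖ ^ K) := by
  have h1 : V.valuation u ^ (Module.finrank E F * (K + k)) ≤
      V.valuation (algebraMap E F ϖ) ^ (K + k) := by
    rw [pow_mul]
    exact pow_le_pow_left' (val_pow_finrank_le V h.unif hu) _
  calc V.valuation u ^ (Module.finrank E F * (K + k)) * V.valuation x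
      ≤ V.valuation (algebraMap E F ϖ) ^ (K + k) * V.valuation x :=
        mul_le_mul_left h1 _
    _ = V.valuation (algebraMap E F ϖ ^ K) * V.valuation (algebraMap E F ϖ ^ k * x) := by
        rw [pow_add, map_mul, map_pow, map_pow, mul_assoc]
    _ ≤ V.valuation (algebraMap E F ϖ ^ K) := mul_le_of_le_one_right' hk

end IsDiscOver

/-! ### Approximation with precision -/

/-- **Approximation for three valuation rings, with precision.**  `A`, `B`, `C` pairwise
incomparable (only `A` against `B`, `C` is needed), all discrete over `E` with the same `ϖ`.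
For every `x : F` and `K` there is `y ≡ x mod ϖ ^ K A`, `y ∈ ϖ ^ K B ∩ ϖ ^ K C`. -/
theorem exists_approx3_prec [FiniteDimensional E F] {A B C : ValuationSubring F} {ϖ : E}
    (hAB : ¬ A ≤ B) (hBA : ¬ B ≤ A) (hAC : ¬ A ≤ C) (hCA : ¬ C ≤ A)
    (hA : IsDiscOver A ϖ) (hB : IsDiscOver B ϖ) (hC : IsDiscOver C ϖ) (x : F) (K : ℕ) :
    ∃ y : F, A.valuation (y - x) ≤ A.valuation (algebraMap E F ϖ ^ K) ∧
      B.valuation y ≤ B.valuation (algebraMap E F ϖ ^ K) ∧
      C.valuation y ≤ C.valuation (algebraMap E F ϖ ^ K) := by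
  obtain ⟨w, hwA, hwB, hwC⟩ := exists_approx3 hAB hBA hAC hCA
  have hwA1 : A.valuation w = 1 := val_eq_one_of_one_sub_lt hwA
  obtain ⟨kA, hkA⟩ := hA.arch x
  obtain ⟨kB, hkB⟩ := hB.arch x
  obtain ⟨kC, hkC⟩ := hC.arch x
  set k := kA + kB + kC with hk
  have hkA' := hA.arch_le hkA (show kA ≤ k by omega)
  have hkB' := hB.arch_le hkB (show kB ≤ k by omega)
  have hkC' := hC.arch_le hkC (show kC ≤ k by omega)
  set N := Module.finrank E F * (K + k) with hN
  refine ⟨powApprox w N * x, ?_, ?_, ?_⟩
  · have : powApprox w N * x - x = -((1 - powApprox w N) * x) := by ring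
    rw [this, Valuation.map_neg, map_mul]
    exact (mul_le_mul_left (val_one_sub_powApprox_le A hwA1.le N) _).trans
      (hA.val_pow_mul_le hwA hkA' K)
  · rw [map_mul]
    exact (mul_le_mul_left (val_powApprox_le B hwB.le N) _).trans
      (hB.val_pow_mul_le hwB hkB' K)
  · rw [map_mul]
    exact (mul_le_mul_left (val_powApprox_le C hwC.le N) _).trans
      (hC.val_pow_mul_le hwC hkC' K)

/-! ### Valuation-independent families -/

variable (E) in
/-- The finite family `x : A → F` is valuation-independent over `E` for the valuation subring `O`: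
all `x a ≠ 0` and `v (c a • x a) ≤ v (∑ b, c b • x b)` for every coefficient vector. -/
def IsValIndep (O : ValuationSubring F) {A : Type*} [Fintype A] (x : A → F) : Prop :=
  (∀ a, x a ≠ 0) ∧ ∀ c : A → E, ∀ a,
    O.valuation (algebraMap E F (c a) * x a) ≤ O.valuation (∑ b, algebraMap E F (c b) * x b)

/-- A one-element family is valuation-independent. -/
theorem isValIndep_of_unique (O : ValuationSubring F) {A : Type*} [Fintype A] [Unique A]
    (x : A → F) (hx : x default ≠ 0) : IsValIndep E O x := by
  refine ⟨fun a => by rwa [Unique.eq_default a], fun c a => ?_⟩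
  rw [Fintype.sum_unique, Unique.eq_default a]

/-- **Block lemma.**  `x` valuation-independent for `O`, `y a ≡ x a` and `R ≡ 0` modulo something
strictly smaller than all `x a`; if `∑ c a • y a + R = 0` with `c a ∈ O_E`, then all `c a ∈ 𝔪_E`. -/
theorem IsValIndep.small_of_rel {O : ValuationSubring F} {A : Type*} [Fintype A] {x : A → F}
    (hx : IsValIndep E O x) {δ : O.ValueGroup} (hδ : ∀ a, δ < O.valuation (x a))
    (y : A → F) (hy : ∀ a, O.valuation (y a - x a) ≤ δ) (R : F) (hR : O.valuation R ≤ δ)
    (c : A → E) (hc : ∀ a, O.valuation (algebraMap E F (c a)) ≤ 1)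
    (hrel : ∑ a, algebraMap E F (c a) * y a + R = 0) (a : A) :
    O.valuation (algebraMap E F (c a)) < 1 := by
  have hS : ∑ b, algebraMap E F (c b) * x b =
      -(∑ b, algebraMap E F (c b) * (y b - x b)) - R := by
    have : ∑ b, algebraMap E F (c b) * (y b - x b) =
        ∑ b, algebraMap E F (c b) * y b - ∑ b, algebraMap E F (c b) * x b := by
      rw [← Finset.sum_sub_distrib]
      exact Finset.sum_congr rfl fun i _ => by ring
    rw [this]
    linear_combination hrel
  have hSle : O.valuation (∑ b, algebraMap E F (c b) * x b) ≤ δ := by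
    rw [hS]
    refine (Valuation.map_sub _ _ _).trans (max_le ?_ hR)
    rw [Valuation.map_neg]
    exact val_sum_mul_le O _ _ hc hy
  have h1 := (hx.2 c a).trans hSle
  by_contra hcon
  rw [not_lt] at hcon
  have h2 : O.valuation (x a) ≤ O.valuation (algebraMap E F (c a) * x a) := by
    rw [map_mul]
    exact le_mul_of_one_le_left' hcon
  exact absurd (h2.trans h1) (not_le.mpr (hδ a))

theorem IsDiscOver.of_comap_eq [Algebra.IsAlgebraic E F] {V W : ValuationSubring F} {ϖ : E}
    (h : IsDiscOver V ϖ) (hc : V.comap (algebraMap E F) = W.comap (algebraMap E F)) :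
    IsDiscOver W ϖ := by
  refine isDiscOver_of_comap W ?_ h.ne_zero ?_ ?_
  · rw [← hc]; exact (comap_val_lt_one_iff V ϖ).mpr h.lt_one
  · intro c hcl
    rw [← hc] at hcl ⊢
    exact (val_algebraMap_le_iff V c ϖ).mp (h.unif c ((comap_val_lt_one_iff V c).mp hcl))
  · intro a
    obtain ⟨k, hk⟩ := h.arch (algebraMap E F a)
    refine ⟨k, ?_⟩
    rw [← hc, ValuationSubring.mem_comap, map_mul, map_pow]
    exact hk

/-- A uniform precision: some power of `ϖ` is strictly smaller than all members of a finite
family of nonzero elements. -/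
theorem IsDiscOver.exists_pow_lt_family {V : ValuationSubring F} {ϖ : E} (h : IsDiscOver V ϖ)
    {A : Type*} [Fintype A] (x : A → F) (hx : ∀ a, x a ≠ 0) :
    ∃ k : ℕ, ∀ l, k ≤ l → ∀ a, V.valuation (algebraMap E F ϖ ^ l) < V.valuation (x a) := by
  choose k hk using fun a => h.exists_pow_lt (hx a)
  refine ⟨Finset.univ.sup k, fun l hl a => hk a l ?_⟩
  exact (Finset.le_sup (Finset.mem_univ a)).trans hl

/-! ### The main theorem -/

/-- **(TWO, with ramification)**  `[F : E] ≤ |A₁| + |A₂|`; `O₁ ≠ O₂` valuation subrings of `F` with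
the same restriction to `E`, discrete with uniformiser `ϖ ∈ E`; `O₁`, `O₂` carry valuation-independent
families indexed by `A₁`, `A₂`.  Then every valuation subring `O₃` of `F` with the same restriction
is `O₁` or `O₂`. -/
theorem eq_or_eq_of_valIndep [FiniteDimensional E F] {A₁ A₂ : Type*} [Fintype A₁] [Fintype A₂]
    (hn : Module.finrank E F ≤ Fintype.card A₁ + Fintype.card A₂)
    (O₁ O₂ O₃ : ValuationSubring F) (h12 : O₁ ≠ O₂)
    (hcomap₂ : O₁.comap (algebraMap E F) = O₂.comap (algebraMap E F))
    (hcomap₃ : O₁.comap (algebraMap E F) = O₃.comap (algebraMap E F))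
    {ϖ : E} (hϖ : IsDiscOver O₁ ϖ)
    (x₁ : A₁ → F) (hx₁ : IsValIndep E O₁ x₁) (x₂ : A₂ → F) (hx₂ : IsValIndep E O₂ x₂) :
    O₃ = O₁ ∨ O₃ = O₂ := by
  have : Algebra.IsAlgebraic E F := Algebra.IsAlgebraic.of_finite E F
  by_contra hcon
  rw [not_or] at hcon
  obtain ⟨h31, h32⟩ := hcon
  have hcomap₂₃ : O₂.comap (algebraMap E F) = O₃.comap (algebraMap E F) :=
    hcomap₂.symm.trans hcomap₃
  have n12 := not_le_of_ne_of_comap_eq h12 hcomap₂
  have n21 := not_le_of_ne_of_comap_eq (Ne.symm h12) hcomap₂.symm
  have n13 := not_le_of_ne_of_comap_eq (Ne.symm h31) hcomap₃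
  have n31 := not_le_of_ne_of_comap_eq h31 hcomap₃.symm
  have n23 := not_le_of_ne_of_comap_eq (Ne.symm h32) hcomap₂₃
  have n32 := not_le_of_ne_of_comap_eq h32 hcomap₂₃.symm
  have hϖ₂ : IsDiscOver O₂ ϖ := hϖ.of_comap_eq hcomap₂
  have hϖ₃ : IsDiscOver O₃ ϖ := hϖ.of_comap_eq hcomap₃
  set p : F := algebraMap E F ϖ with hp
  -- the precision
  obtain ⟨k₁, hk₁⟩ := hϖ.exists_pow_lt_family x₁ hx₁.1
  obtain ⟨k₂, hk₂⟩ := hϖ₂.exists_pow_lt_family x₂ hx₂.1
  set K := k₁ + k₂ + 1 with hK
  have hδ₁ : ∀ a, O₁.valuation (p ^ K) < O₁.valuation (x₁ a) := hk₁ K (by omega)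
  have hδ₂ : ∀ a, O₂.valuation (p ^ K) < O₂.valuation (x₂ a) := hk₂ K (by omega)
  have hδ₃ : O₃.valuation (p ^ K) < 1 := by
    rw [map_pow]
    exact pow_lt_one₀ zero_le hϖ₃.lt_one (by omega)
  -- the approximants
  choose y₁ hy₁1 hy₁2 hy₁3 using fun a =>
    exists_approx3_prec n12 n21 n13 n31 hϖ hϖ₂ hϖ₃ (x₁ a) K
  choose y₂ hy₂2 hy₂1 hy₂3 using fun a =>
    exists_approx3_prec n21 n12 n23 n32 hϖ₂ hϖ hϖ₃ (x₂ a) K
  obtain ⟨y₃, hy₃3, hy₃1, hy₃2⟩ := exists_approx3_prec n31 n13 n32 n23 hϖ₃ hϖ hϖ₂ 1 K
  have hy₃one : O₃.valuation y₃ = 1 := by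
    have : O₃.valuation (1 - y₃) < 1 := by
      rw [← Valuation.map_neg, neg_sub]
      exact lt_of_le_of_lt hy₃3 hδ₃
    exact val_eq_one_of_one_sub_lt this
  -- the `|A₁| + |A₂| + 1` elements `y₃, y₁ a, y₂ a` are linearly independent over `E`
  have hli : LinearIndependent E
      (fun o : Option (A₁ ⊕ A₂) => o.elim y₃ (Sum.elim y₁ y₂)) := by
    rw [Fintype.linearIndependent_iff]
    intro g hg
    by_contra hex
    push Not at hex
    obtain ⟨j, hj0, hj⟩ := exists_scale (O₁.comap (algebraMap E F)) g hex
    set g' : Option (A₁ ⊕ A₂) → E := fun o => g o / g j with hg'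
    have hg'j : g' j = 1 := by simp only [hg']; exact div_self hj0
    have hrel : algebraMap E F (g' none) * y₃ +
        (∑ i, algebraMap E F (g' (some (Sum.inl i))) * y₁ i +
          ∑ i, algebraMap E F (g' (some (Sum.inr i))) * y₂ i) = 0 := by
      have h1 : algebraMap E F (g none) * y₃ +
          (∑ i, algebraMap E F (g (some (Sum.inl i))) * y₁ i +
            ∑ i, algebraMap E F (g (some (Sum.inr i))) * y₂ i) = 0 := by
        rw [Fintype.sum_option, Fintype.sum_sum_type] at hg
        simpa [Algebra.smul_def] using hg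
      have h2 : algebraMap E F (g' none) * y₃ +
          (∑ i, algebraMap E F (g' (some (Sum.inl i))) * y₁ i +
            ∑ i, algebraMap E F (g' (some (Sum.inr i))) * y₂ i) =
          (algebraMap E F (g j))⁻¹ * (algebraMap E F (g none) * y₃ +
            (∑ i, algebraMap E F (g (some (Sum.inl i))) * y₁ i +
              ∑ i, algebraMap E F (g (some (Sum.inr i))) * y₂ i)) := by
        rw [mul_add, mul_add, Finset.mul_sum, Finset.mul_sum]
        congr 1
        · simp only [hg', map_div₀]; field_simp
        · congr 1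
          · refine Finset.sum_congr rfl fun i _ => ?_
            simp only [hg', map_div₀]; field_simp
          · refine Finset.sum_congr rfl fun i _ => ?_
            simp only [hg', map_div₀]; field_simp
      rw [h2, h1, mul_zero]
    have hg'1 : ∀ o, O₁.valuation (algebraMap E F (g' o)) ≤ 1 := fun o =>
      (comap_val_le_one_iff O₁ _).mp (hj o)
    have hg'2 : ∀ o, O₂.valuation (algebraMap E F (g' o)) ≤ 1 := fun o => by
      rw [← comap_val_le_one_iff, ← hcomap₂]; exact hj o
    have hg'3 : ∀ o, O₃.valuation (algebraMap E F (g' o)) ≤ 1 := fun o => by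
      rw [← comap_val_le_one_iff, ← hcomap₃]; exact hj o
    -- block 1
    have hsmall1 : ∀ a, O₁.valuation (algebraMap E F (g' (some (Sum.inl a)))) < 1 := by
      refine hx₁.small_of_rel hδ₁ y₁ hy₁1
        (algebraMap E F (g' none) * y₃ + ∑ i, algebraMap E F (g' (some (Sum.inr i))) * y₂ i) ?_
        (fun a => g' (some (Sum.inl a))) (fun a => hg'1 _) ?_
      · refine (Valuation.map_add _ _ _).trans (max_le ?_ ?_)
        · rw [map_mul]
          exact (mul_le_of_le_one_left' (hg'1 none)).trans hy₃1
        · exact val_sum_mul_le O₁ _ _ (fun i => hg'1 _) hy₂1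
      · linear_combination hrel
    -- block 2
    have hsmall2 : ∀ a, O₂.valuation (algebraMap E F (g' (some (Sum.inr a)))) < 1 := by
      refine hx₂.small_of_rel hδ₂ y₂ hy₂2
        (algebraMap E F (g' none) * y₃ + ∑ i, algebraMap E F (g' (some (Sum.inl i))) * y₁ i) ?_
        (fun a => g' (some (Sum.inr a))) (fun a => hg'2 _) ?_
      · refine (Valuation.map_add _ _ _).trans (max_le ?_ ?_)
        · rw [map_mul]
          exact (mul_le_of_le_one_left' (hg'2 none)).trans hy₃2
        · exact val_sum_mul_le O₂ _ _ (fun i => hg'2 _) hy₁2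
      · linear_combination hrel
    -- block 3
    have hsmall3 : O₃.valuation (algebraMap E F (g' none)) < 1 := by
      have h3 : algebraMap E F (g' none) * y₃ =
          -(∑ i, algebraMap E F (g' (some (Sum.inl i))) * y₁ i) -
            ∑ i, algebraMap E F (g' (some (Sum.inr i))) * y₂ i := by
        linear_combination hrel
      have h4 : O₃.valuation (algebraMap E F (g' none) * y₃) < 1 := by
        rw [h3]
        refine lt_of_le_of_lt ((Valuation.map_sub _ _ _).trans (max_le ?_ ?_)) hδ₃
        · rw [Valuation.map_neg]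
          exact val_sum_mul_le O₃ _ _ (fun i => hg'3 _) hy₁3
        · exact val_sum_mul_le O₃ _ _ (fun i => hg'3 _) hy₂3
      rwa [map_mul, hy₃one, mul_one] at h4
    -- contradiction with `g' j = 1`
    have h1 : O₁.valuation (algebraMap E F (g' j)) = 1 := by rw [hg'j, map_one, map_one]
    have h2 : O₂.valuation (algebraMap E F (g' j)) = 1 := by rw [hg'j, map_one, map_one]
    have h3 : O₃.valuation (algebraMap E F (g' j)) = 1 := by rw [hg'j, map_one, map_one]
    rcases j with (_ | a | a)
    · exact absurd h3 hsmall3.ne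
    · exact absurd h1 (hsmall1 a).ne
    · exact absurd h2 (hsmall2 a).ne
  have hcard := hli.fintype_card_le_finrank
  rw [Fintype.card_option, Fintype.card_sum] at hcard
  omega

/-- **(ONE, with ramification)**  `[F : E] ≤ |A|` and `O₁` carries a valuation-independent family
indexed by `A`: then `O₁` is the ONLY valuation subring of `F` with its restriction to `E`
(`e f = n`). -/
theorem eq_of_valIndep [FiniteDimensional E F] {A₁ : Type*} [Fintype A₁]
    (hn : Module.finrank E F ≤ Fintype.card A₁)
    (O₁ O₃ : ValuationSubring F)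
    (hcomap₃ : O₁.comap (algebraMap E F) = O₃.comap (algebraMap E F))
    {ϖ : E} (hϖ : IsDiscOver O₁ ϖ)
    (x₁ : A₁ → F) (hx₁ : IsValIndep E O₁ x₁) : O₃ = O₁ := by
  have : Algebra.IsAlgebraic E F := Algebra.IsAlgebraic.of_finite E F
  by_contra h31
  have n13 := not_le_of_ne_of_comap_eq (Ne.symm h31) hcomap₃
  have n31 := not_le_of_ne_of_comap_eq h31 hcomap₃.symm
  have hϖ₃ : IsDiscOver O₃ ϖ := hϖ.of_comap_eq hcomap₃
  set p : F := algebraMap E F ϖ with hp
  obtain ⟨k₁, hk₁⟩ := hϖ.exists_pow_lt_family x₁ hx₁.1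
  set K := k₁ + 1 with hK
  have hδ₁ : ∀ a, O₁.valuation (p ^ K) < O₁.valuation (x₁ a) := hk₁ K (by omega)
  have hδ₃ : O₃.valuation (p ^ K) < 1 := by
    rw [map_pow]
    exact pow_lt_one₀ zero_le hϖ₃.lt_one (by omega)
  choose y₁ hy₁1 hy₁3 _ using fun a =>
    exists_approx3_prec n13 n31 n13 n31 hϖ hϖ₃ hϖ₃ (x₁ a) K
  obtain ⟨y₃, hy₃3, hy₃1, _⟩ := exists_approx3_prec n31 n13 n31 n13 hϖ₃ hϖ hϖ 1 K
  have hy₃one : O₃.valuation y₃ = 1 := by
    have : O₃.valuation (1 - y₃) < 1 := by
      rw [← Valuation.map_neg, neg_sub]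
      exact lt_of_le_of_lt hy₃3 hδ₃
    exact val_eq_one_of_one_sub_lt this
  have hli : LinearIndependent E (fun o : Option A₁ => o.elim y₃ y₁) := by
    rw [Fintype.linearIndependent_iff]
    intro g hg
    by_contra hex
    push Not at hex
    obtain ⟨j, hj0, hj⟩ := exists_scale (O₁.comap (algebraMap E F)) g hex
    set g' : Option A₁ → E := fun o => g o / g j with hg'
    have hg'j : g' j = 1 := by simp only [hg']; exact div_self hj0
    have hrel : algebraMap E F (g' none) * y₃ +
        ∑ i, algebraMap E F (g' (some i)) * y₁ i = 0 := by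
      have h1 : algebraMap E F (g none) * y₃ +
          ∑ i, algebraMap E F (g (some i)) * y₁ i = 0 := by
        rw [Fintype.sum_option] at hg
        simpa [Algebra.smul_def] using hg
      have h2 : algebraMap E F (g' none) * y₃ +
          ∑ i, algebraMap E F (g' (some i)) * y₁ i =
          (algebraMap E F (g j))⁻¹ * (algebraMap E F (g none) * y₃ +
            ∑ i, algebraMap E F (g (some i)) * y₁ i) := by
        rw [mul_add, Finset.mul_sum]
        congr 1
        · simp only [hg', map_div₀]; field_simp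
        · refine Finset.sum_congr rfl fun i _ => ?_
          simp only [hg', map_div₀]; field_simp
      rw [h2, h1, mul_zero]
    have hg'1 : ∀ o, O₁.valuation (algebraMap E F (g' o)) ≤ 1 := fun o =>
      (comap_val_le_one_iff O₁ _).mp (hj o)
    have hg'3 : ∀ o, O₃.valuation (algebraMap E F (g' o)) ≤ 1 := fun o => by
      rw [← comap_val_le_one_iff, ← hcomap₃]; exact hj o
    have hsmall1 : ∀ a, O₁.valuation (algebraMap E F (g' (some a))) < 1 := by
      refine hx₁.small_of_rel hδ₁ y₁ hy₁1 (algebraMap E F (g' none) * y₃) ?_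
        (fun a => g' (some a)) (fun a => hg'1 _) ?_
      · rw [map_mul]
        exact (mul_le_of_le_one_left' (hg'1 none)).trans hy₃1
      · linear_combination hrel
    have hsmall3 : O₃.valuation (algebraMap E F (g' none)) < 1 := by
      have h3 : algebraMap E F (g' none) * y₃ =
          -(∑ i, algebraMap E F (g' (some i)) * y₁ i) := by
        linear_combination hrel
      have h4 : O₃.valuation (algebraMap E F (g' none) * y₃) < 1 := by
        rw [h3, Valuation.map_neg]
        exact lt_of_le_of_lt (val_sum_mul_le O₃ _ _ (fun i => hg'3 _) hy₁3) hδ₃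
      rwa [map_mul, hy₃one, mul_one] at h4
    have h1 : O₁.valuation (algebraMap E F (g' j)) = 1 := by rw [hg'j, map_one, map_one]
    have h3 : O₃.valuation (algebraMap E F (g' j)) = 1 := by rw [hg'j, map_one, map_one]
    rcases j with (_ | a)
    · exact absurd h3 hsmall3.ne
    · exact absurd h1 (hsmall1 a).ne
  have hcard := hli.fintype_card_le_finrank
  rw [Fintype.card_option] at hcard
  omega

/-- **Completeness along a tower** `E → F' → F''`: if `O1`, `O2` are all the valuation subrings of
`F'` over `OE`, and the members of `v` exhaust the valuation subrings of `F''` over `O1` and over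
`O2`, then they exhaust those over `OE`. -/
theorem exists_eq_of_tower {E' F' F'' : Type*} [Field E'] [Field F'] [Field F'']
    (f : E' →+* F') (g : F' →+* F'') (OE : ValuationSubring E') (O1 O2 : ValuationSubring F')
    {ι : Type*} (v : ι → ValuationSubring F'')
    (h1 : ∀ W : ValuationSubring F', W.comap f = OE → W = O1 ∨ W = O2)
    (h2 : ∀ V : ValuationSubring F'', V.comap g = O1 → ∃ i, V = v i)
    (h3 : ∀ V : ValuationSubring F'', V.comap g = O2 → ∃ i, V = v i)
    (V : ValuationSubring F'') (hV : V.comap (g.comp f) = OE) : ∃ i, V = v i := by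
  have hW : (V.comap g).comap f = OE := by
    rw [ValuationSubring.comap_comap]; exact hV
  rcases h1 _ hW with h | h
  · exact h2 V h
  · exact h3 V h

/-! ### Suppliers of valuation-independent families -/

section Suppliers

variable {O : ValuationSubring F} {B : Type*} [Fintype B] {y : B → F}

/-- For a residually independent family (elementwise form of `TwoExt22`), the valuation of a
combination is the maximum of the valuations of the coefficients. -/
theorem exists_max_coeff (hyO : ∀ b, y b ∈ O)
    (hy : ∀ a : B → E, (∀ b, (O.comap (algebraMap E F)).valuation (a b) ≤ 1) →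
      O.valuation (∑ b, algebraMap E F (a b) * y b) < 1 →
      ∀ b, (O.comap (algebraMap E F)).valuation (a b) < 1) (c : B → E) :
    ∃ a : E, O.valuation (∑ b, algebraMap E F (c b) * y b) = O.valuation (algebraMap E F a) ∧
      ∀ b, O.valuation (algebraMap E F (c b)) ≤ O.valuation (algebraMap E F a) := by
  by_cases hc : ∃ b, c b ≠ 0
  · obtain ⟨j, hj0, hj⟩ := exists_scale (O.comap (algebraMap E F)) c hc
    have hjF : algebraMap E F (c j) ≠ 0 := fun h =>
      hj0 ((map_eq_zero_iff _ (algebraMap E F).injective).mp h)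
    refine ⟨c j, ?_, fun b => ?_⟩
    · have hfac : ∑ b, algebraMap E F (c b) * y b =
          algebraMap E F (c j) * ∑ b, algebraMap E F (c b / c j) * y b := by
        rw [Finset.mul_sum]
        refine Finset.sum_congr rfl fun b _ => ?_
        rw [map_div₀]; field_simp
      have hT : O.valuation (∑ b, algebraMap E F (c b / c j) * y b) = 1 := by
        refine le_antisymm ?_ ?_
        · refine Valuation.map_sum_le _ fun b _ => ?_
          rw [map_mul]
          exact mul_le_one' ((comap_val_le_one_iff O _).mp (hj b))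
            ((O.valuation_le_one_iff _).mpr (hyO b))
        · by_contra hlt
          rw [not_le] at hlt
          have := hy (fun b => c b / c j) hj hlt j
          rw [div_self hj0, map_one] at this
          exact lt_irrefl _ this
      rw [hfac, map_mul, hT, mul_one]
    · have := (comap_val_le_one_iff O _).mp (hj b)
      rw [map_div₀, map_div₀, div_le_one₀ (val_pos O hjF)] at this
      exact this
  · push Not at hc
    refine ⟨0, ?_, fun b => ?_⟩
    · simp [hc]
    · simp [hc b]

theorem ne_zero_of_residually_independent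
    (hy : ∀ a : B → E, (∀ b, (O.comap (algebraMap E F)).valuation (a b) ≤ 1) →
      O.valuation (∑ b, algebraMap E F (a b) * y b) < 1 →
      ∀ b, (O.comap (algebraMap E F)).valuation (a b) < 1) (b : B) : y b ≠ 0 := by
  intro h0
  have := hy (fun b' => if b' = b then 1 else 0) (fun b' => by
      by_cases h : b' = b
      · simp [h]
      · simp [h]) (by
      have : ∑ b', algebraMap E F (if b' = b then (1 : E) else 0) * y b' = 0 := by
        refine Finset.sum_eq_zero fun b' _ => ?_
        by_cases h : b' = b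
        · simp [h, h0]
        · simp [h]
      rw [this, map_zero]
      exact zero_lt_one) b
  simp at this

/-- **(e = 1)** A residually independent family is valuation-independent. -/
theorem isValIndep_of_residually_independent (hyO : ∀ b, y b ∈ O)
    (hy : ∀ a : B → E, (∀ b, (O.comap (algebraMap E F)).valuation (a b) ≤ 1) →
      O.valuation (∑ b, algebraMap E F (a b) * y b) < 1 →
      ∀ b, (O.comap (algebraMap E F)).valuation (a b) < 1) : IsValIndep E O y := by
  refine ⟨ne_zero_of_residually_independent hy, fun c b => ?_⟩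
  obtain ⟨a, ha, hab⟩ := exists_max_coeff hyO hy c
  rw [ha, map_mul]
  exact (mul_le_of_le_one_right' ((O.valuation_le_one_iff _).mpr (hyO b))).trans (hab b)

/-- **(e · f)**  `y` residually independent, `v z ^ e = v ϖ`: the `e · |B|` elements `z ^ k * y b`,
`k < e`, are valuation-independent. -/
theorem isValIndep_of_ram {ϖ : E} (hO : IsDiscOver O ϖ) (hyO : ∀ b, y b ∈ O)
    (hy : ∀ a : B → E, (∀ b, (O.comap (algebraMap E F)).valuation (a b) ≤ 1) →
      O.valuation (∑ b, algebraMap E F (a b) * y b) < 1 →
      ∀ b, (O.comap (algebraMap E F)).valuation (a b) < 1)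
    {z : F} {e : ℕ} (hz : O.valuation z ^ e = O.valuation (algebraMap E F ϖ)) :
    IsValIndep E O (fun kb : Fin e × B => z ^ (kb.1 : ℕ) * y kb.2) := by
  have hz0 : z ≠ 0 := by
    rintro rfl
    rcases Nat.eq_zero_or_pos e with he | he
    · subst he
      rw [pow_zero] at hz
      exact absurd hz.symm hO.lt_one.ne
    · rw [map_zero, zero_pow he.ne'] at hz
      exact (val_pos O hO.p_ne_zero).ne' hz.symm
  have hzpos : 0 < O.valuation z := val_pos O hz0
  have hzlt : O.valuation z < 1 := by
    by_contra hcon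
    rw [not_lt] at hcon
    have : 1 ≤ O.valuation z ^ e := one_le_pow_of_one_le' hcon e
    rw [hz] at this
    exact absurd this (not_le.mpr hO.lt_one)
  refine ⟨fun kb => mul_ne_zero (pow_ne_zero _ hz0)
    (ne_zero_of_residually_independent hy kb.2), fun c kb₀ => ?_⟩
  -- the maximal coefficients
  choose a ha hab using fun k : Fin e => exists_max_coeff hyO hy (fun b => c (k, b))
  set S : Fin e → F := fun k => z ^ (k : ℕ) * ∑ b, algebraMap E F (c (k, b)) * y b with hS
  have hSval : ∀ k, O.valuation (S k) = O.valuation z ^ (k : ℕ) * O.valuation (algebraMap E F (a k)) := by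
    intro k
    rw [hS]
    simp only [map_mul, map_pow]
    rw [ha k]
  have hsum : ∑ kb : Fin e × B, algebraMap E F (c kb) * (z ^ (kb.1 : ℕ) * y kb.2) = ∑ k, S k := by
    rw [Fintype.sum_prod_type]
    refine Finset.sum_congr rfl fun k _ => ?_
    rw [hS]
    simp only
    rw [Finset.mul_sum]
    refine Finset.sum_congr rfl fun b _ => ?_
    ring
  -- each term is bounded by its `S k`
  have hterm : ∀ kb : Fin e × B, O.valuation (algebraMap E F (c kb) * (z ^ (kb.1 : ℕ) * y kb.2)) ≤
      O.valuation (S kb.1) := by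
    rintro ⟨k, b⟩
    rw [hSval]
    simp only [map_mul, map_pow]
    calc O.valuation (algebraMap E F (c (k, b))) * (O.valuation z ^ (k : ℕ) * O.valuation (y b))
        ≤ O.valuation (algebraMap E F (c (k, b))) * (O.valuation z ^ (k : ℕ) * 1) := by
          gcongr
          exact (O.valuation_le_one_iff _).mpr (hyO b)
      _ = O.valuation z ^ (k : ℕ) * O.valuation (algebraMap E F (c (k, b))) := by
          rw [mul_one, mul_comm]
      _ ≤ _ := by
          gcongr
          exact hab k b
  -- distinctness of the non-zero values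
  have hdist : ∀ k l : Fin e, (k : ℕ) < l → O.valuation (S k) ≠ 0 →
      O.valuation (S k) ≠ O.valuation (S l) := by
    intro k l hkl hk0 heq
    have hl0 : O.valuation (S l) ≠ 0 := heq ▸ hk0
    rw [hSval] at hk0 hl0
    have hak : O.valuation (algebraMap E F (a k)) ≠ 0 := right_ne_zero_of_mul hk0
    have hal : O.valuation (algebraMap E F (a l)) ≠ 0 := right_ne_zero_of_mul hl0
    set d := (l : ℕ) - k with hd
    have hdpos : 0 < d := by omega
    have hde : d < e := by
      have := l.2
      omega
    have hl : (l : ℕ) = k + d := by omega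
    rw [hSval, hSval, hl, pow_add] at heq
    have hxd : O.valuation z ^ d = O.valuation (algebraMap E F (a k / a l)) := by
      rw [map_div₀, map_div₀, eq_div_iff hal]
      have hzk : O.valuation z ^ (k : ℕ) ≠ 0 := pow_ne_zero _ hzpos.ne'
      have : O.valuation z ^ (k : ℕ) * (O.valuation z ^ d * O.valuation (algebraMap E F (a l))) =
          O.valuation z ^ (k : ℕ) * O.valuation (algebraMap E F (a k)) := by
        rw [heq]; ac_rfl
      exact mul_left_cancel₀ hzk this
    have hlt : O.valuation (algebraMap E F (a k / a l)) < 1 := by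
      rw [← hxd]
      exact pow_lt_one₀ zero_le hzlt hdpos.ne'
    have h1 := hO.unif _ hlt
    rw [← hxd, ← hz] at h1
    exact absurd h1 (not_le.mpr (pow_lt_pow_right_of_lt_one₀ hzpos hzlt hde))
  rw [hsum]
  refine (hterm kb₀).trans ?_
  -- the maximum
  obtain ⟨k₀, -, hk₀⟩ := Finset.exists_max_image Finset.univ (fun k : Fin e => O.valuation (S k))
    ⟨kb₀.1, Finset.mem_univ _⟩
  by_cases h0 : O.valuation (S k₀) = 0
  · have : O.valuation (S kb₀.1) = 0 := le_antisymm (h0 ▸ hk₀ kb₀.1 (Finset.mem_univ _)) zero_le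
    rw [this]
    exact zero_le
  · have hlt : ∀ i ∈ Finset.univ \ {k₀}, O.valuation (S i) < O.valuation (S k₀) := by
      intro i hi
      have hik : i ≠ k₀ := by simpa using hi
      refine lt_of_le_of_ne (hk₀ i (Finset.mem_univ _)) ?_
      rcases lt_or_gt_of_ne (fun h => hik (Fin.ext h) : (i : ℕ) ≠ k₀) with h | h
      · by_cases hi0 : O.valuation (S i) = 0
        · rw [hi0]; exact fun h' => h0 h'.symm
        · exact hdist i k₀ h hi0
      · exact (hdist k₀ i h h0).symm
    rw [Valuation.map_sum_eq_of_lt O.valuation (Finset.mem_univ k₀) hlt]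
    exact hk₀ _ (Finset.mem_univ _)

end Suppliers

end Fermat.Agent.ES.P36.FundIneq22
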