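/-
Program P (S36), brick M4 (abstract part) behind (D2.3) / MODEL-P `v₂` (helper23): **the two-slope Newton
polygon lemma, elementwise, no completions** (Mathlib + `UniqueExt20` only).

`F / E` fields, `OE` a valuation subring of `E`, `ξ : F` algebraic over `E`.
* `exists_valSubring_of_residue_root` : (Chevalley with a prescribed residue) if the minimal
  polynomial `P` of `ξ` has coefficients in `OE` and `a ∈ OE` is a root of `P` modulo `𝔪_E`, there is
  a valuation subring `V` of `F` with `V ∩ E = OE` and `ξ ≡ a mod 𝔪_V`.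
* `dichotomy` : if `P(ξ) = 0`, `P = W^(k+2) + c_{k+1} W^(k+1) + … + c_0` with `c_{k+1}` an `OE`-unit,
  `c_i ∈ ϖ OE` for `1 ≤ i ≤ k` and `c_0 = ϖ · unit`, then for EVERY valuation subring `V` over `OE`
  either `ξ` is a `V`-unit with `ξ ≡ - c_{k+1}`, or `v(ξ) < 1` and `v(ξ)^(k+1) = v(ϖ)`.
* `ram_of_small` : in the second case `V / OE` satisfies `NormRam20`'s hypothesis (RAM) with `t := ξ`.
* `deriv_val_small`, `deriv_val_unit` : `v(P'(ξ)) = v(ξ)^k` (tame case `v(k+1) = 1`) resp. `= 1`.
-/
import Mathlib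
import Fermat.Agent.RED.PUR.UniqueExt20

set_option autoImplicit false

namespace Fermat.Agent.ES.P36.NewtonTwo23

open Fermat.Agent.RED.PUR.UniqueExt20 Polynomial

open scoped Classical

variable {E F : Type*} [Field E] [Field F] [Algebra E F]

/-! ### Transfer of valuation comparisons along `V ∩ E = OE` -/

section Transfer

variable {OE : ValuationSubring E} {V : ValuationSubring F}
  (hV : V.comap (algebraMap E F) = OE)
include hV

theorem val_le_one_iff' (c : E) :
    OE.valuation c ≤ 1 ↔ V.valuation (algebraMap E F c) ≤ 1 := by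
  subst hV; exact comap_val_le_one_iff V c

theorem val_lt_one_iff' (c : E) :
    OE.valuation c < 1 ↔ V.valuation (algebraMap E F c) < 1 := by
  subst hV; exact comap_val_lt_one_iff V c

theorem val_eq_one_iff' (c : E) :
    OE.valuation c = 1 ↔ V.valuation (algebraMap E F c) = 1 := by
  subst hV; exact comap_val_eq_one_iff V c

theorem val_le_val_iff (c d : E) :
    OE.valuation c ≤ OE.valuation d ↔
      V.valuation (algebraMap E F c) ≤ V.valuation (algebraMap E F d) := by
  by_cases hd : d = 0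
  · subst hd
    simp only [map_zero, le_zero_iff, map_eq_zero, map_eq_zero_iff _ (algebraMap E F).injective]
  · have hd' : algebraMap E F d ≠ 0 := fun h => hd ((map_eq_zero_iff _ (algebraMap E F).injective).mp h)
    rw [← div_le_one₀ (val_pos OE hd), ← map_div₀, ← div_le_one₀ (val_pos V hd'), ← map_div₀,
      ← map_div₀ (algebraMap E F)]
    exact val_le_one_iff' hV _

theorem val_eq_val_iff (c d : E) :
    OE.valuation c = OE.valuation d ↔
      V.valuation (algebraMap E F c) = V.valuation (algebraMap E F d) := by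
  rw [le_antisymm_iff, le_antisymm_iff, val_le_val_iff hV, val_le_val_iff hV]

theorem val_lt_val_iff (c d : E) :
    OE.valuation c < OE.valuation d ↔
      V.valuation (algebraMap E F c) < V.valuation (algebraMap E F d) := by
  rw [lt_iff_not_ge, lt_iff_not_ge, val_le_val_iff hV]

end Transfer

/-! ### Chevalley with a prescribed residue -/

section Exists

variable (OE : ValuationSubring E) (ξ : F)

/-- evaluation at `ξ` of polynomials with coefficients in `OE`. -/
noncomputable def evHom : (↥OE)[X] →+* F :=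
  eval₂RingHom ((algebraMap E F).comp OE.subtype) ξ

/-- evaluation at the residue of `a` of polynomials with coefficients in `OE`, modulo `𝔪_E`. -/
noncomputable def resHom (a : ↥OE) : (↥OE)[X] →+* IsLocalRing.ResidueField ↥OE :=
  eval₂RingHom (IsLocalRing.residue ↥OE) (IsLocalRing.residue ↥OE a)

theorem evHom_C (c : ↥OE) : evHom OE ξ (C c) = algebraMap E F (c : E) := by
  simp [evHom]

theorem evHom_X : evHom OE ξ X = ξ := by
  simp [evHom]

theorem evHom_eq_aeval_map (g : (↥OE)[X]) :
    evHom OE ξ g = aeval ξ (g.map OE.subtype) := by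
  rw [evHom, coe_eval₂RingHom, aeval_def, eval₂_map]

theorem ker_evHom_le (hint : IsIntegral E ξ) (hcoef : ∀ i, (minpoly E ξ).coeff i ∈ OE)
    (a : ↥OE) (hroot : OE.valuation ((minpoly E ξ).eval (a : E)) < 1) :
    RingHom.ker (evHom OE ξ) ≤ RingHom.ker (resHom OE a) := by
  have hsub : (↑(minpoly E ξ).coeffs : Set E) ⊆ OE.toSubring := by
    intro c hc
    obtain ⟨i, -, rfl⟩ := Finset.mem_image.mp hc
    exact hcoef i
  set P₀ : (↥OE)[X] := (minpoly E ξ).toSubring OE.toSubring hsub with hP₀
  have hP₀map : P₀.map OE.subtype = minpoly E ξ := map_toSubring _ _ hsub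
  have hP₀monic : P₀.Monic := (monic_toSubring _ _ hsub).mpr (minpoly.monic hint)
  have hP₀res : resHom OE a P₀ = 0 := by
    have h1 : resHom OE a P₀ = IsLocalRing.residue ↥OE (P₀.eval a) := by
      rw [resHom, coe_eval₂RingHom, eval₂_hom]
    rw [h1, IsLocalRing.residue_eq_zero_iff, ValuationSubring.valuation_lt_one_iff]
    have h2 : ((P₀.eval a : ↥OE) : E) = (minpoly E ξ).eval (a : E) := by
      rw [← hP₀map, eval_map, ← OE.subtype_apply, ← OE.subtype_apply, eval₂_hom]
    rw [h2]; exact hroot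
  intro g hg
  rw [RingHom.mem_ker] at hg ⊢
  rw [evHom_eq_aeval_map] at hg
  have hdvd : P₀.map OE.subtype ∣ g.map OE.subtype := by
    rw [hP₀map]; exact minpoly.dvd E ξ hg
  obtain ⟨h, rfl⟩ := (map_dvd_map OE.subtype Subtype.val_injective hP₀monic).mp hdvd
  rw [map_mul, hP₀res, zero_mul]

/-- **Chevalley with a prescribed residue.**  If the minimal polynomial `P` of `ξ` over `E` has
coefficients in `OE` and `a ∈ OE` is a root of `P` modulo `𝔪_E`, there is a valuation subring `V`
of `F` over `OE` with `ξ ≡ a mod 𝔪_V`. -/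
theorem exists_valSubring_of_residue_root (hint : IsIntegral E ξ)
    (hcoef : ∀ i, (minpoly E ξ).coeff i ∈ OE) (a : E) (ha : a ∈ OE)
    (hroot : OE.valuation ((minpoly E ξ).eval a) < 1) :
    ∃ V : ValuationSubring F, V.comap (algebraMap E F) = OE ∧
      V.valuation (ξ - algebraMap E F a) < 1 := by
  set a' : ↥OE := ⟨a, ha⟩ with ha'
  have hker := ker_evHom_le OE ξ hint hcoef a' hroot
  set J : Ideal (↥OE)[X] := RingHom.ker (resHom OE a') with hJ
  have hJtop : J ≠ ⊤ := RingHom.ker_ne_top _
  set f : (↥OE)[X] →+* (evHom OE ξ).range := (evHom OE ξ).rangeRestrict with hf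
  have hfsurj : Function.Surjective f := (evHom OE ξ).rangeRestrict_surjective
  have hI : J.map f ≠ ⊤ := by
    intro htop
    apply hJtop
    have h1 := Ideal.comap_map_of_surjective f hfsurj J
    rw [htop, Ideal.comap_top] at h1
    have h2 : Ideal.comap f ⊥ ≤ J := by
      intro g hg
      rw [Ideal.mem_comap, Ideal.mem_bot] at hg
      apply hker
      rw [RingHom.mem_ker]
      have := congrArg Subtype.val hg
      simpa [hf] using this
    rw [eq_comm, sup_eq_left.mpr h2] at h1
    exact h1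
  obtain ⟨V, hAV, hIV⟩ := Ideal.image_subset_nonunits_valuationSubring (J.map f) hI
  -- elements of `J` evaluate into the non-units of `V`
  have hnon : ∀ g ∈ J, evHom OE ξ g ∈ V.nonunits := by
    intro g hg
    apply hIV
    exact ⟨f g, Ideal.mem_map_of_mem f hg, rfl⟩
  have hOEV : ∀ c : E, c ∈ OE → algebraMap E F c ∈ V := by
    intro c hc
    apply hAV
    exact ⟨C ⟨c, hc⟩, evHom_C OE ξ ⟨c, hc⟩⟩
  have hmV : ∀ c : E, OE.valuation c < 1 → V.valuation (algebraMap E F c) < 1 := by
    intro c hc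
    have hcO : c ∈ OE := (OE.valuation_le_one_iff c).mp hc.le
    have hCJ : C (⟨c, hcO⟩ : ↥OE) ∈ J := by
      rw [hJ, RingHom.mem_ker, resHom, coe_eval₂RingHom, eval₂_C,
        IsLocalRing.residue_eq_zero_iff, ValuationSubring.valuation_lt_one_iff]
      exact hc
    have := hnon _ hCJ
    rw [evHom_C] at this
    exact this
  refine ⟨V, ?_, ?_⟩
  · ext c
    rw [ValuationSubring.mem_comap]
    constructor
    · intro hcV
      by_contra hcO
      have hc0 : c ≠ 0 := fun h => hcO (h ▸ OE.zero_mem)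
      have h1 : OE.valuation c⁻¹ < 1 := by
        rw [val_lt_one_iff, inv_inv]
        exact Or.inr hcO
      have h2 := hmV _ h1
      rw [map_inv₀, map_inv₀] at h2
      have h3 : V.valuation (algebraMap E F c) ≤ 1 := (V.valuation_le_one_iff _).mpr hcV
      have hpos : 0 < V.valuation (algebraMap E F c) :=
        val_pos V (fun h => hc0 ((map_eq_zero_iff _ (algebraMap E F).injective).mp h))
      exact absurd ((inv_lt_one₀ hpos).mp h2) (not_lt.mpr h3)
    · exact hOEV c
  · have hXJ : (X - C a' : (↥OE)[X]) ∈ J := by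
      rw [hJ, RingHom.mem_ker, resHom, coe_eval₂RingHom, eval₂_sub, eval₂_X, eval₂_C, sub_self]
    have := hnon _ hXJ
    rw [map_sub, evHom_X, evHom_C] at this
    exact this

end Exists

/-! ### The two-slope polynomial -/

/-- two-slope data: `P = W^(k+2) + c_{k+1} W^(k+1) + … + c_0` with `c_{k+1}` an `OE`-unit,
`c_i ∈ ϖ OE` for `1 ≤ i ≤ k`, `c_0 = ϖ · unit`, `0 < |ϖ| < 1`. -/
structure TwoSlope (OE : ValuationSubring E) (ϖ : E) (k : ℕ) (P : E[X]) : Prop where
  monic : P.Monic
  natDegree_eq : P.natDegree = k + 2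
  ne_zero : ϖ ≠ 0
  lt_one : OE.valuation ϖ < 1
  c0 : OE.valuation (P.coeff 0) = OE.valuation ϖ
  cmid : ∀ i, 1 ≤ i → i ≤ k → OE.valuation (P.coeff i) ≤ OE.valuation ϖ
  ctop : OE.valuation (P.coeff (k + 1)) = 1

namespace TwoSlope

variable {OE : ValuationSubring E} {ϖ : E} {k : ℕ} {P : E[X]} (D : TwoSlope OE ϖ k P)
  {V : ValuationSubring F} (hV : V.comap (algebraMap E F) = OE) {ξ : F} (hξ : aeval ξ P = 0)

/-- the middle part `Σ_{1 ≤ i ≤ k} c_i ξ^i`. -/
noncomputable def mid (P : E[X]) (k : ℕ) (ξ : F) : F :=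
  ∑ i ∈ Finset.range k, algebraMap E F (P.coeff (i + 1)) * ξ ^ (i + 1)

include D in
theorem aeval_eq (ξ : F) :
    aeval ξ P = ξ ^ (k + 1) * (ξ + algebraMap E F (P.coeff (k + 1))) +
      (algebraMap E F (P.coeff 0) + mid P k ξ) := by
  conv_lhs => rw [D.monic.as_sum, D.natDegree_eq]
  rw [map_add, map_pow, aeval_X, map_sum, Finset.sum_range_succ, Finset.sum_range_succ', mid]
  simp only [map_mul, aeval_C, map_pow, aeval_X, pow_zero, mul_one]
  ring

include D hV in
theorem coeff_le_one {i : ℕ} (hi : i ≤ k + 1) :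
    V.valuation (algebraMap E F (P.coeff i)) ≤ 1 := by
  rw [← val_le_one_iff' hV]
  rcases Nat.eq_zero_or_pos i with rfl | hpos
  · rw [D.c0]; exact D.lt_one.le
  · rcases Nat.lt_or_ge i (k + 1) with hlt | hge
    · exact (D.cmid i hpos (Nat.lt_succ_iff.mp hlt)).trans D.lt_one.le
    · rw [le_antisymm hi hge, D.ctop]

include D in
theorem val_pi_pos (V : ValuationSubring F) : 0 < V.valuation (algebraMap E F ϖ) :=
  val_pos V fun h => D.ne_zero ((map_eq_zero_iff _ (algebraMap E F).injective).mp h)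

include D hV in
theorem val_pi_lt_one : V.valuation (algebraMap E F ϖ) < 1 :=
  (val_lt_one_iff' hV ϖ).mp D.lt_one

include D hV in
theorem val_c0 : V.valuation (algebraMap E F (P.coeff 0)) = V.valuation (algebraMap E F ϖ) :=
  (val_eq_val_iff hV _ _).mp D.c0

include D hV in
theorem val_ctop : V.valuation (algebraMap E F (P.coeff (k + 1))) = 1 :=
  (val_eq_one_iff' hV _).mp D.ctop

include D hV in
/-- `|mid| ≤ |ϖ| · |ξ|` when `|ξ| ≤ 1`. -/
theorem val_mid_le (h1 : V.valuation ξ ≤ 1) :
    V.valuation (mid P k ξ) ≤ V.valuation (algebraMap E F ϖ) * V.valuation ξ := by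
  refine Valuation.map_sum_le _ fun i hi => ?_
  rw [Finset.mem_range] at hi
  rw [map_mul, map_pow, pow_succ']
  refine mul_le_mul' ((val_le_val_iff hV _ _).mp (D.cmid (i + 1) (Nat.succ_pos i) hi)) ?_
  calc V.valuation ξ * V.valuation ξ ^ i ≤ V.valuation ξ * 1 :=
        mul_le_mul' le_rfl (pow_le_one' h1 i)
    _ = V.valuation ξ := mul_one _

include D hV hξ in
/-- `ξ` is integral: `ξ ∈ V`. -/
theorem val_le_one : V.valuation ξ ≤ 1 := by
  by_contra hcon
  rw [not_le] at hcon
  have heq : ξ ^ (k + 2) = - ∑ i ∈ Finset.range (k + 2), algebraMap E F (P.coeff i) * ξ ^ i := by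
    have h := hξ
    conv_lhs at h => rw [D.monic.as_sum, D.natDegree_eq]
    rw [map_add, map_pow, aeval_X, map_sum] at h
    simp only [map_mul, aeval_C, map_pow, aeval_X] at h
    exact eq_neg_of_add_eq_zero_left h
  have hle : V.valuation (ξ ^ (k + 2)) ≤ V.valuation ξ ^ (k + 1) := by
    rw [heq, Valuation.map_neg]
    refine Valuation.map_sum_le _ fun i hi => ?_
    rw [Finset.mem_range, Nat.lt_succ_iff] at hi
    rw [map_mul, map_pow]
    calc V.valuation (algebraMap E F (P.coeff i)) * V.valuation ξ ^ i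
        ≤ 1 * V.valuation ξ ^ (k + 1) :=
          mul_le_mul' (D.coeff_le_one hV hi) (pow_le_pow_right' hcon.le hi)
      _ = V.valuation ξ ^ (k + 1) := one_mul _
  rw [map_pow, pow_succ] at hle
  have hpos : 0 < V.valuation ξ ^ (k + 1) := pow_pos (lt_trans zero_lt_one hcon) _
  have : V.valuation ξ ^ (k + 1) * 1 < V.valuation ξ ^ (k + 1) * V.valuation ξ :=
    mul_lt_mul_of_pos_left hcon hpos
  rw [mul_one] at this
  exact absurd hle (not_le.mpr this)

include D hV hξ in
/-- **Dichotomy.**  For every valuation subring `V` over `OE`: either `ξ` is a `V`-unit congruent to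
`- c_{k+1}`, or `|ξ| < 1` and `|ξ|^(k+1) = |ϖ|`. -/
theorem dichotomy :
    (V.valuation ξ = 1 ∧ V.valuation (ξ + algebraMap E F (P.coeff (k + 1))) < 1) ∨
    (V.valuation ξ < 1 ∧ V.valuation ξ ^ (k + 1) = V.valuation (algebraMap E F ϖ)) := by
  have h1 := D.val_le_one hV hξ
  have hmid := D.val_mid_le hV h1
  have heq : ξ ^ (k + 1) * (ξ + algebraMap E F (P.coeff (k + 1))) =
      -(algebraMap E F (P.coeff 0) + mid P k ξ) := by
    have h := hξ
    rw [D.aeval_eq] at h
    exact eq_neg_of_add_eq_zero_left h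
  have hval := congrArg V.valuation heq
  rw [map_mul, map_pow, Valuation.map_neg] at hval
  rcases h1.lt_or_eq with hlt | heq1
  · right
    refine ⟨hlt, ?_⟩
    have htop : V.valuation (ξ + algebraMap E F (P.coeff (k + 1))) = 1 := by
      rw [Valuation.map_add_eq_of_lt_right _ (by rw [D.val_ctop hV]; exact hlt), D.val_ctop hV]
    have hlt2 : V.valuation (mid P k ξ) < V.valuation (algebraMap E F (P.coeff 0)) := by
      rw [D.val_c0 hV]
      refine lt_of_le_of_lt hmid ?_
      have := mul_lt_mul_of_pos_left hlt (D.val_pi_pos V)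
      rwa [mul_one] at this
    rw [htop, mul_one, Valuation.map_add_eq_of_lt_left _ hlt2, D.val_c0 hV] at hval
    exact hval
  · left
    refine ⟨heq1, ?_⟩
    rw [heq1, one_pow, one_mul] at hval
    rw [hval]
    refine lt_of_le_of_lt (Valuation.map_add_le _ (D.val_c0 hV).le ?_) (D.val_pi_lt_one hV)
    rw [heq1, mul_one] at hmid
    exact hmid

include hV in
/-- in the small-root case, `V / OE` satisfies hypothesis **(RAM)** of `NormRam20` with `t := ξ`
(when `ϖ` generates `𝔪_E`). -/
theorem ram_of_small (hgen : ∀ a : E, OE.valuation a < 1 → OE.valuation a ≤ OE.valuation ϖ)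
    (hs : V.valuation ξ ^ (k + 1) = V.valuation (algebraMap E F ϖ)) :
    ∀ a : E, OE.valuation a < 1 → V.valuation (algebraMap E F a) ≤ V.valuation ξ ^ (k + 1) := by
  intro a ha
  rw [hs]
  exact (val_le_val_iff hV _ _).mp (hgen a ha)

include D in
theorem ne_zero_of_small (hs : V.valuation ξ ^ (k + 1) = V.valuation (algebraMap E F ϖ)) :
    ξ ≠ 0 := by
  rintro rfl
  rw [map_zero, zero_pow (Nat.succ_ne_zero k)] at hs
  exact (D.val_pi_pos V).ne hs

/-- the middle part of the derivative, `Σ_{1 ≤ i ≤ k} i c_i ξ^(i-1)`. -/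
noncomputable def dmid (P : E[X]) (k : ℕ) (ξ : F) : F :=
  ∑ j ∈ Finset.range k, algebraMap E F (P.coeff (j + 1)) * ((j + 1 : ℕ) : F) * ξ ^ j

include D in
theorem aeval_derivative_eq (ξ : F) :
    aeval ξ (derivative P) = ((k + 2 : ℕ) : F) * ξ ^ (k + 1) +
      algebraMap E F (P.coeff (k + 1)) * ((k + 1 : ℕ) : F) * ξ ^ k + dmid P k ξ := by
  have hterm : ∀ i : ℕ, aeval ξ (derivative (C (P.coeff i) * X ^ i)) =
      algebraMap E F (P.coeff i) * ((i : ℕ) : F) * ξ ^ (i - 1) := by
    intro i
    rw [derivative_C_mul_X_pow, map_mul, aeval_C, map_mul, map_natCast, map_pow, aeval_X]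
  have hXpow : aeval ξ (derivative (X ^ (k + 2) : E[X])) = ((k + 2 : ℕ) : F) * ξ ^ (k + 1) := by
    rw [derivative_X_pow, map_mul, aeval_C, map_natCast, map_pow, aeval_X]
    rfl
  conv_lhs => rw [D.monic.as_sum, D.natDegree_eq]
  rw [derivative_add, derivative_sum, map_add, map_sum, hXpow]
  simp_rw [hterm]
  rw [Finset.sum_range_succ, Finset.sum_range_succ', dmid]
  simp only [Nat.cast_zero, mul_zero, zero_mul, add_zero, Nat.add_sub_cancel]
  ring

theorem val_natCast_le_one (V : ValuationSubring F) (n : ℕ) : V.valuation ((n : ℕ) : F) ≤ 1 :=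
  (V.valuation_le_one_iff _).mpr (natCast_mem V n)

include D hV in
/-- `|dmid| ≤ |ϖ|` when `|ξ| ≤ 1`. -/
theorem val_dmid_le (h1 : V.valuation ξ ≤ 1) :
    V.valuation (dmid P k ξ) ≤ V.valuation (algebraMap E F ϖ) := by
  refine Valuation.map_sum_le _ fun j hj => ?_
  rw [Finset.mem_range] at hj
  rw [map_mul, map_mul, map_pow]
  calc V.valuation (algebraMap E F (P.coeff (j + 1))) * V.valuation (((j + 1 : ℕ) : F)) *
        V.valuation ξ ^ j
      ≤ V.valuation (algebraMap E F ϖ) * 1 * 1 :=
        mul_le_mul' (mul_le_mul'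
          ((val_le_val_iff hV _ _).mp (D.cmid (j + 1) (Nat.succ_pos j) hj))
          (val_natCast_le_one V _)) (pow_le_one' h1 j)
    _ = V.valuation (algebraMap E F ϖ) := by rw [mul_one, mul_one]

include D hV in
/-- **different exponent at the ramified (small) root, tame case**: `|P'(ξ)| = |ξ|^k`. -/
theorem deriv_val_small (htame : OE.valuation (((k + 1 : ℕ) : E)) = 1)
    (hlt : V.valuation ξ < 1)
    (hs : V.valuation ξ ^ (k + 1) = V.valuation (algebraMap E F ϖ)) :
    V.valuation (aeval ξ (derivative P)) = V.valuation ξ ^ k := by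
  have hξ0 : ξ ≠ 0 := D.ne_zero_of_small hs
  have hpos : 0 < V.valuation ξ := val_pos V hξ0
  have htameV : V.valuation (((k + 1 : ℕ) : F)) = 1 := by
    have := (val_eq_one_iff' hV _).mp htame
    rwa [map_natCast] at this
  have hlt' : V.valuation ξ ^ (k + 1) < V.valuation ξ ^ k := by
    rw [pow_succ]
    have := mul_lt_mul_of_pos_left hlt (pow_pos hpos k)
    rwa [mul_one] at this
  have hB : V.valuation (algebraMap E F (P.coeff (k + 1)) * ((k + 1 : ℕ) : F) * ξ ^ k) =
      V.valuation ξ ^ k := by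
    rw [map_mul, map_mul, map_pow, D.val_ctop hV, htameV, one_mul, one_mul]
  have hA : V.valuation (((k + 2 : ℕ) : F) * ξ ^ (k + 1)) < V.valuation ξ ^ k := by
    rw [map_mul, map_pow]
    refine lt_of_le_of_lt ?_ hlt'
    calc V.valuation (((k + 2 : ℕ) : F)) * V.valuation ξ ^ (k + 1)
        ≤ 1 * V.valuation ξ ^ (k + 1) := mul_le_mul' (val_natCast_le_one V _) le_rfl
      _ = V.valuation ξ ^ (k + 1) := one_mul _
  have hC : V.valuation (dmid P k ξ) < V.valuation ξ ^ k :=
    lt_of_le_of_lt (D.val_dmid_le hV hlt.le) (hs ▸ hlt')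
  rw [D.aeval_derivative_eq, Valuation.map_add_eq_of_lt_left _ (by
    rw [Valuation.map_add_eq_of_lt_right _ (by rw [hB]; exact hA), hB]; exact hC),
    Valuation.map_add_eq_of_lt_right _ (by rw [hB]; exact hA), hB]

include D hV in
/-- at the unit root `P'(ξ)` is a `V`-unit (no tameness needed). -/
theorem deriv_val_unit (h1 : V.valuation ξ = 1)
    (hc : V.valuation (ξ + algebraMap E F (P.coeff (k + 1))) < 1) :
    V.valuation (aeval ξ (derivative P)) = 1 := by
  have hsplit : ((k + 2 : ℕ) : F) * ξ ^ (k + 1) +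
      algebraMap E F (P.coeff (k + 1)) * ((k + 1 : ℕ) : F) * ξ ^ k =
      ξ ^ k * (((k + 1 : ℕ) : F) * (ξ + algebraMap E F (P.coeff (k + 1))) + ξ) := by
    push_cast; ring
  have hin : V.valuation (((k + 1 : ℕ) : F) * (ξ + algebraMap E F (P.coeff (k + 1))) + ξ) = 1 := by
    rw [Valuation.map_add_eq_of_lt_right, h1]
    rw [h1, map_mul]
    calc V.valuation (((k + 1 : ℕ) : F)) * V.valuation (ξ + algebraMap E F (P.coeff (k + 1)))
        ≤ 1 * V.valuation (ξ + algebraMap E F (P.coeff (k + 1))) :=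
          mul_le_mul' (val_natCast_le_one V _) le_rfl
      _ < 1 := by rw [one_mul]; exact hc
  have hmain : V.valuation (((k + 2 : ℕ) : F) * ξ ^ (k + 1) +
      algebraMap E F (P.coeff (k + 1)) * ((k + 1 : ℕ) : F) * ξ ^ k) = 1 := by
    rw [hsplit, map_mul, map_pow, h1, one_pow, one_mul, hin]
  rw [D.aeval_derivative_eq, Valuation.map_add_eq_of_lt_left, hmain]
  rw [hmain]
  exact lt_of_le_of_lt (D.val_dmid_le hV h1.le) (D.val_pi_lt_one hV)

include D in
theorem coeff_mem (i : ℕ) : P.coeff i ∈ OE := by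
  rw [← ValuationSubring.valuation_le_one_iff]
  rcases Nat.lt_or_ge i (k + 2) with hlt | hge
  · rcases Nat.eq_zero_or_pos i with rfl | hpos
    · rw [D.c0]; exact D.lt_one.le
    · rcases Nat.lt_or_ge i (k + 1) with hlt' | hge'
      · exact (D.cmid i hpos (Nat.lt_succ_iff.mp hlt')).trans D.lt_one.le
      · rw [le_antisymm (Nat.lt_succ_iff.mp hlt) hge', D.ctop]
  · rcases hge.lt_or_eq with hgt | heq
    · rw [coeff_eq_zero_of_natDegree_lt (by rw [D.natDegree_eq]; exact hgt), map_zero]
      exact zero_le_one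
    · have h1 : P.coeff i = 1 := by
        rw [← heq, ← D.natDegree_eq]; exact D.monic.coeff_natDegree
      rw [h1, map_one]

/-- **existence of the ramified extension** (`v₂`): if `P` is the minimal polynomial of `ξ`, there
is a valuation subring `V` of `F` over `OE` with `|ξ| < 1`, hence `|ξ|^(k+1) = |ϖ|`. -/
theorem exists_small (hint : IsIntegral E ξ) (D : TwoSlope OE ϖ k (minpoly E ξ)) :
    ∃ V : ValuationSubring F, V.comap (algebraMap E F) = OE ∧ V.valuation ξ < 1 ∧
      V.valuation ξ ^ (k + 1) = V.valuation (algebraMap E F ϖ) := by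
  obtain ⟨V, hV, hlt⟩ := exists_valSubring_of_residue_root OE ξ hint D.coeff_mem 0 OE.zero_mem
    (by rw [← coeff_zero_eq_eval_zero, D.c0]; exact D.lt_one)
  rw [map_zero, sub_zero] at hlt
  refine ⟨V, hV, hlt, ?_⟩
  rcases D.dichotomy hV (minpoly.aeval E ξ) with h | h
  · exact absurd h.1 hlt.ne
  · exact h.2

/-- **existence of the unramified extension** (`v₁`): a valuation subring over `OE` at which `ξ` is a
unit congruent to `- c_{k+1}`. -/
theorem exists_unit (hint : IsIntegral E ξ) (D : TwoSlope OE ϖ k (minpoly E ξ)) :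
    ∃ V : ValuationSubring F, V.comap (algebraMap E F) = OE ∧ V.valuation ξ = 1 ∧
      V.valuation (ξ + algebraMap E F ((minpoly E ξ).coeff (k + 1))) < 1 := by
  set c : E := (minpoly E ξ).coeff (k + 1) with hc
  have hid : OE.comap (algebraMap E E) = OE := by
    ext x; rw [ValuationSubring.mem_comap]; rfl
  have hcO : OE.valuation c ≤ 1 := D.ctop.le
  have hnegc : OE.valuation (-c) ≤ 1 := by rw [Valuation.map_neg]; exact hcO
  have hroot : OE.valuation ((minpoly E ξ).eval (-c)) < 1 := by
    have h1 : (minpoly E ξ).eval (-c) = aeval (-c) (minpoly E ξ) := by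
      rw [coe_aeval_eq_eval]
    rw [h1, D.aeval_eq (-c)]
    have h2 : -c + algebraMap E E ((minpoly E ξ).coeff (k + 1)) = 0 := by
      rw [← hc]; exact neg_add_cancel c
    rw [h2, mul_zero, zero_add]
    refine lt_of_le_of_lt (Valuation.map_add_le _ ?_ ?_) D.lt_one
    · exact D.c0.le
    · refine (D.val_mid_le hid hnegc).trans ?_
      calc OE.valuation (algebraMap E E ϖ) * OE.valuation (-c)
          ≤ OE.valuation (algebraMap E E ϖ) * 1 := mul_le_mul' le_rfl hnegc
        _ = OE.valuation ϖ := by rw [mul_one]; rfl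
  obtain ⟨V, hV, hlt⟩ := exists_valSubring_of_residue_root OE ξ hint D.coeff_mem (-c)
    ((OE.valuation_le_one_iff _).mp hnegc) hroot
  rw [map_neg, sub_neg_eq_add] at hlt
  refine ⟨V, hV, ?_, hlt⟩
  rcases D.dichotomy hV (minpoly.aeval E ξ) with h | h
  · exact h.1
  · exfalso
    have htop : V.valuation (ξ + algebraMap E F c) = 1 := by
      rw [Valuation.map_add_eq_of_lt_right _ (by rw [D.val_ctop hV]; exact h.1), D.val_ctop hV]
    exact hlt.ne htop

end TwoSlope

end Fermat.Agent.ES.P36.NewtonTwo23
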