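/-
Program P (S36), chapter (MODEL-P), brick M6-abstract (helper22): the THREE vertical valuation rings
of the level-`M' q²` model are ALL extensions of the Gauss valuation — abstract assembly.

Tower `E₀ → F' → F''` (`E₀ = K(t)`, `F' = F_{M' q}`, `F'' = F_{M' q²}` via `α₂`), `O1`, `O2` ALL the
valuation subrings of `F'` over the Gauss valuation of `E₀` (`TwoGlue20.GlueOut.two` at level `M' q`);
`v₁, v₂ | O1` with `(e, f) = (1, 1), (e, 1)`, `1 + e ≥ [F'' : F']` (`e = q − 1`, witnessed by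
`v₂ ξ ^ e = v₂ ϖ`: `NewtonTwo23`), and `v₃ | O2` with `f ≥ [F'' : F']` (purely inseparable residue
extension of degree `q`; `UniqueExt20` form).  Then every valuation subring of `F''` with the same
restriction to `E₀` is `v₁`, `v₂` or `v₃`.

Uses `FundIneq22.eq_or_eq_of_valIndep` (over `O1`) and `UniqueExt20.eq_of_residually_independent`
(over `O2`).
-/
import Mathlib
import Fermat.Prelude.Def_AlgebraicCurve_Correspondence
import Fermat.Agent.RED.PUR.UniqueExt20
import Fermat.Agent.ES.P36.FundIneq22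

set_option autoImplicit false

namespace Fermat.Agent.ES.P36.ThreeComplete22

open Fermat.Agent.RED.PUR.UniqueExt20 Fermat.Agent.ES.P36.FundIneq22

variable {E₀ F' F'' : Type*} [Field E₀] [Field F'] [Field F''] [Algebra E₀ F'] [Algebra F' F'']
  [Algebra E₀ F''] [IsScalarTower E₀ F' F'']

theorem comap_comap_algebraMap (V : ValuationSubring F'') :
    (V.comap (algebraMap F' F'')).comap (algebraMap E₀ F') = V.comap (algebraMap E₀ F'') := by
  rw [ValuationSubring.comap_comap, ← IsScalarTower.algebraMap_eq]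

/-- The pair over `O1`: `v₁` (one element) and `v₂` (`e` elements `ξ ^ k`). -/
theorem eq_or_eq_over_O1 [FiniteDimensional F' F''] (v₁ v₂ V : ValuationSubring F'')
    (h12 : v₁ ≠ v₂)
    (hc₂ : v₁.comap (algebraMap F' F'') = v₂.comap (algebraMap F' F''))
    (hcV : v₁.comap (algebraMap F' F'') = V.comap (algebraMap F' F''))
    {ϖ : F'} (hϖ : IsDiscOver v₁ ϖ) {ξ : F''} {e : ℕ}
    (hξ : v₂.valuation ξ ^ e = v₂.valuation (algebraMap F' F'' ϖ))
    (hn : Module.finrank F' F'' ≤ 1 + e) : V = v₁ ∨ V = v₂ := by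
  have : Algebra.IsAlgebraic F' F'' := Algebra.IsAlgebraic.of_finite F' F''
  have hϖ₂ : IsDiscOver v₂ ϖ := hϖ.of_comap_eq hc₂
  have hx₁ : IsValIndep F' v₁ (fun _ : Unit => (1 : F'')) :=
    isValIndep_of_unique v₁ _ one_ne_zero
  have hx₂ : IsValIndep F' v₂ (fun kb : Fin e × Unit => ξ ^ (kb.1 : ℕ) * (1 : F'')) := by
    refine isValIndep_of_ram (y := fun _ : Unit => (1 : F'')) hϖ₂ (fun _ => v₂.one_mem) ?_ hξ
    intro a _ hsum b
    rw [Fintype.sum_unique, mul_one] at hsum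
    rw [comap_val_lt_one_iff]
    rwa [Unique.eq_default b]
  refine eq_or_eq_of_valIndep ?_ v₁ v₂ V h12 hc₂ hcV hϖ _ hx₁ _ hx₂
  rw [Fintype.card_unit, Fintype.card_prod, Fintype.card_fin, Fintype.card_unit, mul_one]
  exact hn

/-- **(THREE)** completeness of `{v₁, v₂, v₃}` over the Gauss valuation of `E₀`. -/
theorem three_complete [FiniteDimensional F' F''] (O1 O2 : ValuationSubring F')
    (htwo : ∀ W : ValuationSubring F',
      W.comap (algebraMap E₀ F') = O1.comap (algebraMap E₀ F') → W = O1 ∨ W = O2)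
    (v₁ v₂ v₃ : ValuationSubring F'')
    (h1 : v₁.comap (algebraMap F' F'') = O1) (h2 : v₂.comap (algebraMap F' F'') = O1)
    (h3 : v₃.comap (algebraMap F' F'') = O2) (h12 : v₁ ≠ v₂)
    {ϖ : F'} (hϖ : IsDiscOver v₁ ϖ) {ξ : F''} {e : ℕ}
    (hξ : v₂.valuation ξ ^ e = v₂.valuation (algebraMap F' F'' ϖ))
    (hn : Module.finrank F' F'' ≤ 1 + e)
    {n₃ : ℕ} (hn₃ : Module.finrank F' F'' ≤ n₃) (b : Fin n₃ → F'') (hbO : ∀ i, b i ∈ v₃)
    (hb : ∀ a : Fin n₃ → F', (∀ i, (v₃.comap (algebraMap F' F'')).valuation (a i) ≤ 1) →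
      v₃.valuation (∑ i, algebraMap F' F'' (a i) * b i) < 1 →
      ∀ i, (v₃.comap (algebraMap F' F'')).valuation (a i) < 1)
    (V : ValuationSubring F'')
    (hV : V.comap (algebraMap E₀ F'') = v₁.comap (algebraMap E₀ F'')) :
    V = v₁ ∨ V = v₂ ∨ V = v₃ := by
  have hW : (V.comap (algebraMap F' F'')).comap (algebraMap E₀ F') =
      O1.comap (algebraMap E₀ F') := by
    rw [comap_comap_algebraMap, hV, ← comap_comap_algebraMap (F' := F'), h1]
  rcases htwo _ hW with h | h
  · rcases eq_or_eq_over_O1 v₁ v₂ V h12 (h1.trans h2.symm) (h1.trans h.symm) hϖ hξ hn with h' | h'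
    · exact Or.inl h'
    · exact Or.inr (Or.inl h')
  · exact Or.inr (Or.inr
      (eq_of_residually_independent hn₃ v₃ V (h3.trans h.symm) b hbO hb))

/-! ### The `AlgHom` form (for the model: `F''` is an `F'`-algebra along `α`) -/

section Along

open AlgebraicCurve

variable {K₀ G' G'' : Type*} [Field K₀] [Field G'] [Field G''] [Algebra K₀ G'] [Algebra K₀ G'']

/-- **(THREE), `AlgHom` form.**  `α : G' →ₐ[K₀] G''` finite of degree `≤ 1 + e`; `O1`, `O2` all the
valuation subrings of `G'` over `O1 ∩ K₀(t)`; `v₁, v₂ | O1`, `v₃ | O2` along `α`; `ϖ : G'` a uniformiser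
for `v₁` (elementwise); `ξ` with `v₂ ξ ^ e = v₂ (α ϖ)`; `b : Fin n₃ → G''` residually independent for
`v₃` over `α (O2)` with `[G'' : α G'] ≤ n₃`.  Then every valuation subring of `G''` with the same
restriction to `K₀(α t)` as `v₁` is `v₁`, `v₂` or `v₃`. -/
theorem three_complete_along (α : G' →ₐ[K₀] G'') (t : G') (O1 O2 : ValuationSubring G')
    (htwo : ∀ W : ValuationSubring G',
      W.comap (algebraMap (IntermediateField.adjoin K₀ {t}) G') =
        O1.comap (algebraMap (IntermediateField.adjoin K₀ {t}) G') → W = O1 ∨ W = O2)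
    (v₁ v₂ v₃ : ValuationSubring G'')
    (h1 : v₁.comap α.toRingHom = O1) (h2 : v₂.comap α.toRingHom = O1)
    (h3 : v₃.comap α.toRingHom = O2) (h12 : v₁ ≠ v₂)
    {ϖ : G'} (hlt : v₁.valuation (α ϖ) < 1) (h0 : ϖ ≠ 0)
    (hunif : ∀ c : G', v₁.valuation (α c) < 1 → v₁.valuation (α c) ≤ v₁.valuation (α ϖ))
    (harch : ∀ x : G'', ∃ k : ℕ, α ϖ ^ k * x ∈ v₁)
    {ξ : G''} {e : ℕ} (hξ : v₂.valuation ξ ^ e = v₂.valuation (α ϖ))
    (hfin : FiniteAlong K₀ α) (hdeg : finrankAlong K₀ α ≤ 1 + e)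
    {n₃ : ℕ} (hn₃ : finrankAlong K₀ α ≤ n₃) (b : Fin n₃ → G'') (hbO : ∀ i, b i ∈ v₃)
    (hb : ∀ a : Fin n₃ → G', (∀ i, a i ∈ O2) → v₃.valuation (∑ i, α (a i) * b i) < 1 →
      ∀ i, O2.valuation (a i) < 1)
    (V : ValuationSubring G'')
    (hV : V.comap (algebraMap (IntermediateField.adjoin K₀ {α t}) G'') =
      v₁.comap (algebraMap (IntermediateField.adjoin K₀ {α t}) G'')) :
    V = v₁ ∨ V = v₂ ∨ V = v₃ := by
  classical
  have hVel : ∀ y : G'', y ∈ IntermediateField.adjoin K₀ {α t} → (y ∈ V ↔ y ∈ v₁) := by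
    intro y hy
    exact SetLike.ext_iff.mp hV ⟨y, hy⟩
  clear hV
  letI : Algebra G' G'' := algebraAlong α
  haveI : IsScalarTower K₀ G' G'' := isScalarTower_along α
  haveI : FiniteDimensional G' G'' := hfin
  letI : Algebra ↥(IntermediateField.adjoin K₀ {t}) G'' := ((algebraMap G' G'').comp (algebraMap ↥(IntermediateField.adjoin K₀ {t}) G')).toAlgebra
  haveI := IsScalarTower.of_algebraMap_eq (R := ↥(IntermediateField.adjoin K₀ {t})) (S := G')
    (A := G'') (fun _ => rfl)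
  have hϖ : IsDiscOver v₁ ϖ := ⟨hlt, h0, hunif, harch⟩
  have hmem : ∀ x : ↥(IntermediateField.adjoin K₀ {t}), α (x : G') ∈ IntermediateField.adjoin K₀ {α t} := by
    intro x
    have h1' : (IntermediateField.adjoin K₀ {t}).map α = IntermediateField.adjoin K₀ {α t} := by
      rw [IntermediateField.adjoin_map, Set.image_singleton]
    rw [← h1']
    exact (IntermediateField.mem_map _).mpr ⟨x, x.2, rfl⟩
  have hV' : V.comap (algebraMap ↥(IntermediateField.adjoin K₀ {t}) G'') = v₁.comap (algebraMap ↥(IntermediateField.adjoin K₀ {t}) G'') := by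
    ext x
    exact hVel _ (hmem x)
  refine three_complete (E₀ := ↥(IntermediateField.adjoin K₀ {t})) O1 O2 htwo v₁ v₂ v₃ h1 h2 h3 h12 hϖ hξ hdeg hn₃ b hbO ?_ V hV'
  intro a ha hsum i
  have hc : v₃.comap (algebraMap G' G'') = O2 := h3
  rw [hc] at ha ⊢
  exact hb a (fun i => (O2.valuation_le_one_iff _).mp (ha i)) hsum i

end Along

end Fermat.Agent.ES.P36.ThreeComplete22
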