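/-
Program P (S36), chapter MODEL-P, brick M4/M6 (v₂-half), abstract part (helper23).
Mathlib + `RED/PUR/UniqueExt20` + `ES/P36/NewtonTwo23` + `ES/P36/FundIneq22` + `ES/P36/ThreeComplete22`.

**The middle valuation ring `v₂`, abstractly.**  `F / E` finite of degree `≤ k + 2`, `OE` a discrete
valuation subring of `E` with uniformiser `ϖ` (`hunif`, `hdisc`), `ξ ∈ F` whose minimal polynomial is a
two-slope polynomial (`NewtonTwo23.TwoSlope`), `v₁` a valuation subring of `F` over `OE` at which `ξ` is a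
unit.  Then (`mid_package`) there is a valuation subring `V₂ ≠ v₁` of `F` over `OE` such that

* `v₁`, `V₂` are ALL the valuation subrings of `F` over `OE`;
* `|ξ| < 1`, `|ξ|^(k+1) = |ϖ|` at `V₂`;
* `ξ` is a uniformiser of `V₂` and the value group of `V₂` is `|ξ|^ℤ` (`(e, f) = (k + 1, 1)`).

The last item is the fundamental inequality in the form `FundIneq22.eq_of_valIndep`: if some `|f|` were not
a power of `|ξ|`, the `k + 2` elements `1, ξ, …, ξ^k, f` would be valuation-independent at `V₂`, and `V₂`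
would be the only extension of `OE`.

`comap_eq_of_two` is the position of `v₂` along the second degeneracy map (abstract form).
-/
import Mathlib
import Fermat.Agent.RED.PUR.UniqueExt20
import Fermat.Agent.ES.P36.NewtonTwo23
import Fermat.Agent.ES.P36.FundIneq22
import Fermat.Agent.ES.P36.ThreeComplete22

set_option autoImplicit false

namespace Fermat.Agent.ES.P36.MidAbs23

open Fermat.Agent.RED.PUR.UniqueExt20 Fermat.Agent.ES.P36.NewtonTwo23
  Fermat.Agent.ES.P36.FundIneq22 Fermat.Agent.ES.P36.ThreeComplete22 Polynomial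

open scoped Classical

variable {E F : Type*} [Field E] [Field F] [Algebra E F]

/-! ### Sums of terms with pairwise distinct valuations -/

/-- A finite sum whose nonzero terms have pairwise distinct valuations dominates each of its terms. -/
theorem val_le_val_sum_of_pairwise_ne (V : ValuationSubring F) {ι : Type*} [Fintype ι] (z : ι → F)
    (h : ∀ a b, a ≠ b → z a ≠ 0 → z b ≠ 0 → V.valuation (z a) ≠ V.valuation (z b)) (a : ι) :
    V.valuation (z a) ≤ V.valuation (∑ b, z b) := by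
  obtain ⟨j, -, hj⟩ := Finset.exists_max_image Finset.univ (fun b => V.valuation (z b))
    ⟨a, Finset.mem_univ a⟩
  by_cases hzj : z j = 0
  · have h1 : V.valuation (z a) ≤ V.valuation (z j) := hj a (Finset.mem_univ a)
    rw [hzj, map_zero] at h1
    exact h1.trans zero_le
  · have hsum : V.valuation (∑ b, z b) = V.valuation (z j) := by
      refine Valuation.map_sum_eq_of_lt _ (Finset.mem_univ j) ?_
      intro i hi
      rw [Finset.mem_sdiff, Finset.mem_singleton] at hi
      by_cases hzi : z i = 0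
      · rw [hzi, map_zero]
        exact val_pos V hzj
      · exact lt_of_le_of_ne (hj i (Finset.mem_univ i)) (h i j hi.2 hzi hzj)
    rw [hsum]
    exact hj a (Finset.mem_univ a)

/-! ### Powers of a ramified element are valuation-independent -/

section Indep

variable {OE : ValuationSubring E} {V : ValuationSubring F} {ϖ : E} {k : ℕ} {ξ : F}

/-- the valuation of a nonzero constant is a power of `|ξ|` with exponent divisible by `k + 1`. -/
theorem val_const_eq_zpow (hV : V.comap (algebraMap E F) = OE)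
    (hs : V.valuation ξ ^ (k + 1) = V.valuation (algebraMap E F ϖ))
    (hdisc : ∀ c : E, c ≠ 0 → ∃ m : ℤ, OE.valuation c = OE.valuation ϖ ^ m) {c : E} (hc : c ≠ 0) :
    ∃ m : ℤ, V.valuation (algebraMap E F c) = V.valuation ξ ^ (((k + 1 : ℕ) : ℤ) * m) := by
  obtain ⟨m, hm⟩ := hdisc c hc
  refine ⟨m, ?_⟩
  have h1 : OE.valuation c = OE.valuation (ϖ ^ m) := by rw [hm, map_zpow₀]
  have h2 := (val_eq_val_iff hV c (ϖ ^ m)).mp h1
  rw [h2, map_zpow₀, map_zpow₀, ← hs, zpow_mul, zpow_natCast]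

/-- **the `k + 2` elements `f, 1, ξ, …, ξ^k` are valuation-independent** when `|f| ∉ |ξ|^ℤ`. -/
theorem isValIndep_of_not_zpow (hV : V.comap (algebraMap E F) = OE) (hξ0 : ξ ≠ 0)
    (hlt : V.valuation ξ < 1)
    (hs : V.valuation ξ ^ (k + 1) = V.valuation (algebraMap E F ϖ))
    (hdisc : ∀ c : E, c ≠ 0 → ∃ m : ℤ, OE.valuation c = OE.valuation ϖ ^ m)
    {f : F} (hf0 : f ≠ 0) (hf : ∀ n : ℤ, V.valuation f ≠ V.valuation ξ ^ n) :
    IsValIndep E V (fun o : Option (Fin (k + 1)) => o.elim f (fun i => ξ ^ (i : ℕ))) := by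
  have hγ0 : 0 < V.valuation ξ := val_pos V hξ0
  have hγne : V.valuation ξ ≠ 0 := hγ0.ne'
  have hγ1 : V.valuation ξ ≠ 1 := hlt.ne
  have hmap0 : ∀ c : E, algebraMap E F c = 0 → c = 0 := fun c h =>
    (map_eq_zero_iff _ (algebraMap E F).injective).mp h
  refine ⟨?_, fun c a => val_le_val_sum_of_pairwise_ne V _ ?_ a⟩
  · rintro (_ | i)
    · exact hf0
    · exact pow_ne_zero _ hξ0
  · -- pairwise distinct valuations
    have key : ∀ (i : Fin (k + 1)) (ca cb : E), ca ≠ 0 → cb ≠ 0 →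
        V.valuation (algebraMap E F ca * f) ≠ V.valuation (algebraMap E F cb * ξ ^ (i : ℕ)) := by
      intro i ca cb hca hcb heq
      obtain ⟨ma, hma⟩ := val_const_eq_zpow hV hs hdisc hca
      obtain ⟨mb, hmb⟩ := val_const_eq_zpow hV hs hdisc hcb
      rw [map_mul, map_mul, hma, hmb, map_pow, ← zpow_natCast (V.valuation ξ) (i : ℕ),
        ← zpow_add₀ hγne] at heq
      apply hf (((k + 1 : ℕ) : ℤ) * mb + ((i : ℕ) : ℤ) - ((k + 1 : ℕ) : ℤ) * ma)
      have hpos : V.valuation ξ ^ (((k + 1 : ℕ) : ℤ) * ma) ≠ 0 := zpow_ne_zero _ hγne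
      rw [zpow_sub₀ hγne, ← heq, mul_div_cancel_left₀ _ hpos]
    intro a b hab hza hzb
    rcases a with _ | i <;> rcases b with _ | j
    · exact absurd rfl hab
    · have hca : c none ≠ 0 := fun h => hza (by simp [h])
      have hcb : c (some j) ≠ 0 := fun h => hzb (by simp [h])
      exact key j _ _ hca hcb
    · have hca : c (some i) ≠ 0 := fun h => hza (by simp [h])
      have hcb : c none ≠ 0 := fun h => hzb (by simp [h])
      exact (key i _ _ hcb hca).symm
    · have hca : c (some i) ≠ 0 := fun h => hza (by simp [h])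
      have hcb : c (some j) ≠ 0 := fun h => hzb (by simp [h])
      obtain ⟨ma, hma⟩ := val_const_eq_zpow hV hs hdisc hca
      obtain ⟨mb, hmb⟩ := val_const_eq_zpow hV hs hdisc hcb
      intro heq
      simp only [Option.elim] at heq
      rw [map_mul, map_mul, hma, hmb, map_pow, map_pow,
        ← zpow_natCast (V.valuation ξ) (i : ℕ), ← zpow_natCast (V.valuation ξ) (j : ℕ),
        ← zpow_add₀ hγne, ← zpow_add₀ hγne, zpow_right_inj₀ hγ0 hγ1] at heq
      -- `(k+1) ma + i = (k+1) mb + j` with `i, j ≤ k`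
      have hij : ((i : ℕ) : ℤ) - ((j : ℕ) : ℤ) = 0 := by
        apply Int.eq_zero_of_abs_lt_dvd (m := ((k + 1 : ℕ) : ℤ))
        · exact ⟨mb - ma, by linarith⟩
        · have hi := i.2
          have hj := j.2
          rw [abs_lt]
          constructor <;> push_cast <;> omega
      apply hab
      have : (i : ℕ) = (j : ℕ) := by omega
      rw [Fin.ext this]

end Indep

/-! ### `IsDiscOver` from the discreteness of the base -/

section Disc

variable {OE : ValuationSubring E} {ϖ : E}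

/-- the archimedean property from the discreteness of the base. -/
theorem arch_of_disc (hlt : OE.valuation ϖ < 1) (h0 : ϖ ≠ 0)
    (hdisc : ∀ c : E, c ≠ 0 → ∃ m : ℤ, OE.valuation c = OE.valuation ϖ ^ m) (a : E) :
    ∃ n : ℕ, ϖ ^ n * a ∈ OE := by
  by_cases ha : a = 0
  · exact ⟨0, by rw [ha, mul_zero]; exact OE.zero_mem⟩
  obtain ⟨m, hm⟩ := hdisc a ha
  have hϖ0 : OE.valuation ϖ ≠ 0 := (Valuation.ne_zero_iff _).mpr h0
  refine ⟨(-m).toNat, ?_⟩
  rw [← ValuationSubring.valuation_le_one_iff, map_mul, map_pow, hm, ← zpow_natCast,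
    ← zpow_add₀ hϖ0]
  have hnn : 0 ≤ ((-m).toNat : ℤ) + m := by
    have := Int.self_le_toNat (-m)
    omega
  obtain ⟨j, hj⟩ := Int.eq_ofNat_of_zero_le hnn
  rw [hj, zpow_natCast]
  exact pow_le_one' hlt.le j

theorem isDiscOver_of_disc [Algebra.IsAlgebraic E F] {V : ValuationSubring F}
    (hV : V.comap (algebraMap E F) = OE) (hlt : OE.valuation ϖ < 1) (h0 : ϖ ≠ 0)
    (hunif : ∀ c : E, OE.valuation c < 1 → OE.valuation c ≤ OE.valuation ϖ)
    (hdisc : ∀ c : E, c ≠ 0 → ∃ m : ℤ, OE.valuation c = OE.valuation ϖ ^ m) :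
    IsDiscOver V ϖ := by
  subst hV
  exact isDiscOver_of_comap V hlt h0 hunif (arch_of_disc hlt h0 hdisc)

end Disc

/-! ### The package -/

section Package

variable [FiniteDimensional E F] {OE : ValuationSubring E} {ϖ : E} {k : ℕ} {ξ : F}

/-- the value group of a ramified extension `V ≠ v₁` with `|ξ|^(k+1) = |ϖ|`, `[F : E] ≤ k + 2`, is
`|ξ|^ℤ`. -/
theorem exists_zpow_of_ne (hdeg : Module.finrank E F ≤ k + 2) {V v₁ : ValuationSubring F}
    (hV : V.comap (algebraMap E F) = OE) (h1 : v₁.comap (algebraMap E F) = OE) (hne : v₁ ≠ V)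
    (hlt : OE.valuation ϖ < 1) (h0 : ϖ ≠ 0)
    (hunif : ∀ c : E, OE.valuation c < 1 → OE.valuation c ≤ OE.valuation ϖ)
    (hdisc : ∀ c : E, c ≠ 0 → ∃ m : ℤ, OE.valuation c = OE.valuation ϖ ^ m)
    (hξ0 : ξ ≠ 0) (hξlt : V.valuation ξ < 1)
    (hs : V.valuation ξ ^ (k + 1) = V.valuation (algebraMap E F ϖ)) {f : F} (hf0 : f ≠ 0) :
    ∃ n : ℤ, V.valuation f = V.valuation ξ ^ n := by
  haveI : Algebra.IsAlgebraic E F := Algebra.IsAlgebraic.of_finite E F
  by_contra hcon
  push Not at hcon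
  have hind := isValIndep_of_not_zpow hV hξ0 hξlt hs hdisc hf0 hcon
  have hD : IsDiscOver V ϖ := isDiscOver_of_disc hV hlt h0 hunif hdisc
  have hcard : Module.finrank E F ≤ Fintype.card (Option (Fin (k + 1))) := by
    rw [Fintype.card_option, Fintype.card_fin]
    exact hdeg
  exact hne (eq_of_valIndep hcard V v₁ (hV.trans h1.symm) hD _ hind)

/-- `ξ` is a uniformiser, from the value group. -/
theorem le_of_zpow {V : ValuationSubring F} (hξ0 : ξ ≠ 0) (hξlt : V.valuation ξ < 1)
    (hd : ∀ f : F, f ≠ 0 → ∃ n : ℤ, V.valuation f = V.valuation ξ ^ n) {x : F}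
    (hx : V.valuation x < 1) : V.valuation x ≤ V.valuation ξ := by
  by_cases hx0 : x = 0
  · rw [hx0, map_zero]
    exact zero_le
  obtain ⟨n, hn⟩ := hd x hx0
  have hγ0 : 0 < V.valuation ξ := val_pos V hξ0
  rw [hn] at hx ⊢
  have h1 : (0 : ℤ) < n := by
    rw [← zpow_zero (V.valuation ξ)] at hx
    exact (zpow_lt_zpow_iff_right_of_lt_one₀ hγ0 hξlt).mp hx
  conv_rhs => rw [← zpow_one (V.valuation ξ)]
  exact (zpow_le_zpow_iff_right_of_lt_one₀ hγ0 hξlt).mpr h1

/-- **(v₂, abstract package).** -/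
theorem mid_package (hdeg : Module.finrank E F ≤ k + 2)
    (D : TwoSlope OE ϖ k (minpoly E ξ))
    (hunif : ∀ c : E, OE.valuation c < 1 → OE.valuation c ≤ OE.valuation ϖ)
    (hdisc : ∀ c : E, c ≠ 0 → ∃ m : ℤ, OE.valuation c = OE.valuation ϖ ^ m)
    (v₁ : ValuationSubring F) (h1 : v₁.comap (algebraMap E F) = OE)
    (hξ1 : v₁.valuation ξ = 1) :
    ∃ V₂ : ValuationSubring F, V₂.comap (algebraMap E F) = OE ∧ V₂ ≠ v₁ ∧
      (∀ V : ValuationSubring F, V.comap (algebraMap E F) = OE → V = v₁ ∨ V = V₂) ∧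
      ξ ≠ 0 ∧ V₂.valuation ξ < 1 ∧
      V₂.valuation ξ ^ (k + 1) = V₂.valuation (algebraMap E F ϖ) ∧
      (∀ x : F, V₂.valuation x < 1 → V₂.valuation x ≤ V₂.valuation ξ) ∧
      (∀ f : F, f ≠ 0 → ∃ n : ℤ, V₂.valuation f = V₂.valuation ξ ^ n) := by
  haveI : Algebra.IsAlgebraic E F := Algebra.IsAlgebraic.of_finite E F
  have hint : IsIntegral E ξ := (Algebra.IsAlgebraic.isAlgebraic ξ).isIntegral
  obtain ⟨V₂, hV₂, hlt, hs⟩ := TwoSlope.exists_small hint D
  have hne : V₂ ≠ v₁ := by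
    rintro rfl
    exact hlt.ne hξ1
  have hξ0 : ξ ≠ 0 := D.ne_zero_of_small hs
  have hD₁ : IsDiscOver v₁ ϖ := isDiscOver_of_disc h1 D.lt_one D.ne_zero hunif hdisc
  have hdisc₂ : ∀ f : F, f ≠ 0 → ∃ n : ℤ, V₂.valuation f = V₂.valuation ξ ^ n := fun f hf0 =>
    exists_zpow_of_ne hdeg hV₂ h1 hne.symm D.lt_one D.ne_zero hunif hdisc hξ0 hlt hs hf0
  refine ⟨V₂, hV₂, hne, ?_, hξ0, hlt, hs, fun x hx => le_of_zpow hξ0 hlt hdisc₂ hx, hdisc₂⟩
  intro V hV
  refine eq_or_eq_over_O1 v₁ V₂ V hne.symm (h1.trans hV₂.symm) (h1.trans hV.symm) hD₁ hs ?_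
  omega

/-- every valuation subring over `OE` other than `v₁` has the properties of `mid_package`. -/
theorem mid_props (hdeg : Module.finrank E F ≤ k + 2)
    (D : TwoSlope OE ϖ k (minpoly E ξ))
    (hunif : ∀ c : E, OE.valuation c < 1 → OE.valuation c ≤ OE.valuation ϖ)
    (hdisc : ∀ c : E, c ≠ 0 → ∃ m : ℤ, OE.valuation c = OE.valuation ϖ ^ m)
    (v₁ : ValuationSubring F) (h1 : v₁.comap (algebraMap E F) = OE)
    (hξ1 : v₁.valuation ξ = 1)
    {V : ValuationSubring F} (hV : V.comap (algebraMap E F) = OE) (hne : V ≠ v₁) :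
    (∀ V' : ValuationSubring F, V'.comap (algebraMap E F) = OE → V' = v₁ ∨ V' = V) ∧
      ξ ≠ 0 ∧ V.valuation ξ < 1 ∧
      V.valuation ξ ^ (k + 1) = V.valuation (algebraMap E F ϖ) ∧
      (∀ x : F, V.valuation x < 1 → V.valuation x ≤ V.valuation ξ) ∧
      (∀ f : F, f ≠ 0 → ∃ n : ℤ, V.valuation f = V.valuation ξ ^ n) := by
  obtain ⟨V₂, -, -, hall, h⟩ := mid_package hdeg D hunif hdisc v₁ h1 hξ1
  rcases hall V hV with h' | h'
  · exact absurd h' hne
  · subst h'
    exact ⟨hall, h⟩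

end Package

/-! ### The position along the second map -/

section Position

variable {F0 F' F'' : Type*} [Field F0] [Field F'] [Field F'']

theorem val_comap_lt_one_iff (φ : F' →+* F'') (V : ValuationSubring F'') (x : F') :
    (V.comap φ).valuation x < 1 ↔ V.valuation (φ x) < 1 := by
  letI : Algebra F' F'' := φ.toAlgebra
  exact comap_val_lt_one_iff V x

theorem val_comap_eq_one_iff (φ : F' →+* F'') (V : ValuationSubring F'') (x : F') :
    (V.comap φ).valuation x = 1 ↔ V.valuation (φ x) = 1 := by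
  letI : Algebra F' F'' := φ.toAlgebra
  exact comap_val_eq_one_iff V x

/-- **position of `v₂` along `β₂`**: `V | W1` along `α₂`, `|ξ| < 1` for `ξ = β₂(β a) − α₂(α a)`, the
Kronecker congruence `β a ≡ (α a)^q` at `W1`, `(α a)^(q²) − α a` a `W1`-unit, and `{W1, W2}` the only
extensions of the common restriction of `W1` along `α`, `β`: then `V | W2` along `β₂`. -/
theorem comap_eq_of_two (α β : F0 →+* F') (α₂ β₂ : F' →+* F'')
    (hsq : ∀ x, α₂ (β x) = β₂ (α x)) (W1 W2 : ValuationSubring F')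
    (hαβ : W1.comap β = W1.comap α)
    (two : ∀ W : ValuationSubring F', W.comap α = W1.comap α → W = W1 ∨ W = W2)
    (V : ValuationSubring F'') (hV : V.comap α₂ = W1) (q : ℕ) (hq : 2 ≤ q) (a : F0)
    (hkron : W1.valuation (β a - α a ^ q) < 1)
    (hunit : W1.valuation (α a ^ (q * q) - α a) = 1)
    (hξ : V.valuation (β₂ (β a) - α₂ (α a)) < 1) : V.comap β₂ = W2 := by
  have hW : (V.comap β₂).comap α = W1.comap α := by
    rw [ValuationSubring.comap_comap, ← hαβ, ← hV, ValuationSubring.comap_comap]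
    congr 1
    exact RingHom.ext fun x => (hsq x).symm
  rcases two _ hW with h | h
  · exfalso
    -- `V | W1` along both maps
    have hk1 : V.valuation (α₂ (β a - α a ^ q)) < 1 := by
      rw [← val_comap_lt_one_iff, hV]; exact hkron
    have hk2 : V.valuation (β₂ (β a - α a ^ q)) < 1 := by
      rw [← val_comap_lt_one_iff, h]; exact hkron
    have hu : V.valuation (α₂ (α a ^ (q * q) - α a)) = 1 := by
      rw [← val_comap_eq_one_iff, hV]; exact hunit
    rw [map_sub, map_pow] at hk1 hk2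
    rw [← hsq] at hk2
    -- `α₂ (β a) ^ q ≡ α₂ (α a) ^ (q * q)`
    have hαV : V.valuation (α₂ (α a)) ≤ 1 := by
      by_contra hcon
      rw [not_le] at hcon
      -- `|α₂(α a)^(q*q) − α₂(α a)| = 1` forces `|α₂(α a)| ≤ 1`
      have hq0 : 1 < q * q := by nlinarith
      have hlt' : V.valuation (α₂ (α a)) < V.valuation (α₂ (α a) ^ (q * q)) := by
        rw [map_pow]
        calc V.valuation (α₂ (α a)) = V.valuation (α₂ (α a)) ^ 1 := (pow_one _).symm
          _ < V.valuation (α₂ (α a)) ^ (q * q) := pow_lt_pow_right₀ hcon hq0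
      rw [map_sub, map_pow, Valuation.map_sub_eq_of_lt_left _ hlt', map_pow] at hu
      have : 1 < V.valuation (α₂ (α a)) ^ (q * q) := one_lt_pow₀ hcon (by omega)
      exact this.ne' hu
    have hβV : V.valuation (α₂ (β a)) ≤ 1 := by
      have h1 : α₂ (β a) = (α₂ (β a) - α₂ (α a) ^ q) + α₂ (α a) ^ q := by ring
      rw [h1]
      refine (Valuation.map_add _ _ _).trans (max_le hk1.le ?_)
      rw [map_pow]
      exact pow_le_one' hαV q
    have hpow : V.valuation (α₂ (β a) ^ q - (α₂ (α a) ^ q) ^ q) < 1 := by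
      rw [← geom_sum₂_mul, map_mul]
      refine lt_of_le_of_lt (mul_le_of_le_one_left' ?_) hk1
      refine Valuation.map_sum_le _ fun i _ => ?_
      rw [map_mul, map_pow, map_pow, map_pow]
      exact mul_le_one' (pow_le_one' hβV i) (pow_le_one' (pow_le_one' hαV q) _)
    -- `ξ ≡ α₂ (α a ^ (q * q) - α a)`
    have hξ' : β₂ (β a) - α₂ (α a) =
        (β₂ (β a) - α₂ (β a) ^ q) + (α₂ (β a) ^ q - (α₂ (α a) ^ q) ^ q) +
          α₂ (α a ^ (q * q) - α a) := by
      rw [map_sub, map_pow, pow_mul]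
      ring
    have hsmall : V.valuation ((β₂ (β a) - α₂ (β a) ^ q) +
        (α₂ (β a) ^ q - (α₂ (α a) ^ q) ^ q)) < 1 :=
      lt_of_le_of_lt (Valuation.map_add _ _ _) (max_lt hk2 hpow)
    have : V.valuation (β₂ (β a) - α₂ (α a)) = 1 := by
      rw [hξ', Valuation.map_add_eq_of_lt_right _ (by rw [hu]; exact hsmall), hu]
    exact hξ.ne this
  · exact h

end Position

end Fermat.Agent.ES.P36.MidAbs23
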