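/-
Program P (S36), chapter MODEL-P, brick M4 (v₂), polynomial part (helper23).
Mathlib + `ES/P36/NewtonTwo23`.

**The two-slope polynomial of `ξ = j(𝐪^{q²}) − j(𝐪)` from the Kronecker congruence**, abstractly.

`Φ ∈ ℤ[Y][X]` monic of `X`-degree `q + 1` with `Φ ≡ (X − Y^q)(X^q − Y)` mod `q`.  For a commutative ring
`S` and `a b : S`:

* `Qp Φ b = Φ(X, Y := b) ∈ S[X]`, `Hp Φ a b = Qp Φ b /ₘ (X − a)`, `Pp Φ a b = Hp(a + W)` (Taylor shift);
  all three are functorial in `S` (`Qp_map`, `Hp_map`, `Pp_map`);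
* if `Φ(a, b) = 0`: `Qp = (X − a) Hp`, `Pp(0) = Hp(a) = Φ_X(a, b)`, and `Pp(ξ) = 0` for every root
  `a + ξ ≠ a` of `Qp` in a domain;
* over a field of characteristic `q`, with `b = a^q`:  `Pp = (W + a − a^(q²)) W^(q−1)`  (`Pp_char`).

`twoSlope_Pp`: for a valuation subring `OE` of residue characteristic `q` in which `q` generates the maximal
ideal, `a, b ∈ OE` with `Φ(a, b) = 0`, `b ≡ a^q`, `a − a^(q²)` a unit and `|Φ_X(a, b)| = |q|`:
`TwoSlope OE q (q − 2) (Pp Φ a b)`.
-/
import Mathlib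
import Fermat.Agent.ES.P36.NewtonTwo23

set_option autoImplicit false
set_option linter.style.haveILetI false

noncomputable section

namespace Fermat.Agent.ES.P36.MidPoly23

open Polynomial Fermat.Agent.ES.P36.NewtonTwo23

/-! ### The three polynomials -/

section Defs

variable {S : Type*} [CommRing S]

/-- `ℤ[Y] → S`, `Y ↦ b`. -/
def evY (b : S) : ℤ[X] →+* S := Polynomial.eval₂RingHom (Int.castRingHom S) b

theorem evY_X (b : S) : evY b X = b := by
  rw [evY, Polynomial.coe_eval₂RingHom, Polynomial.eval₂_X]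

theorem evY_C (b : S) (n : ℤ) : evY b (C n) = (n : S) := by
  rw [evY, Polynomial.coe_eval₂RingHom, Polynomial.eval₂_C, eq_intCast]

theorem comp_evY {T : Type*} [CommRing T] (f : S →+* T) (b : S) : f.comp (evY b) = evY (f b) := by
  apply Polynomial.ringHom_ext
  · intro n
    rw [RingHom.comp_apply, evY_C, evY_C, map_intCast]
  · rw [RingHom.comp_apply, evY_X, evY_X]

/-- `Φ(X, Y := b) ∈ S[X]`. -/
def Qp (Φ : ℤ[X][X]) (b : S) : S[X] := Φ.map (evY b)

/-- `Φ(X, Y := b) / (X − a)`. -/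
def Hp (Φ : ℤ[X][X]) (a b : S) : S[X] := Qp Φ b /ₘ (X - C a)

/-- `Hp(a + W)`. -/
def Pp (Φ : ℤ[X][X]) (a b : S) : S[X] := taylor a (Hp Φ a b)

variable (Φ : ℤ[X][X]) (a b : S)

theorem Qp_map {T : Type*} [CommRing T] (f : S →+* T) : (Qp Φ b).map f = Qp Φ (f b) := by
  rw [Qp, Qp, Polynomial.map_map, comp_evY]

theorem Hp_map {T : Type*} [CommRing T] (f : S →+* T) : (Hp Φ a b).map f = Hp Φ (f a) (f b) := by
  rw [Hp, Hp, Polynomial.map_divByMonic f (monic_X_sub_C a), Qp_map, Polynomial.map_sub,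
    Polynomial.map_X, Polynomial.map_C]

theorem Pp_map {T : Type*} [CommRing T] (f : S →+* T) : (Pp Φ a b).map f = Pp Φ (f a) (f b) := by
  rw [Pp, Pp, map_taylor, Hp_map]

theorem eval_Qp : (Qp Φ b).eval a = Φ.eval₂ (evY b) a := by
  rw [Qp, eval_map]

theorem Qp_monic (hΦ : Φ.Monic) : (Qp Φ b).Monic := hΦ.map _

theorem natDegree_Qp [Nontrivial S] (hΦ : Φ.Monic) : (Qp Φ b).natDegree = Φ.natDegree :=
  hΦ.natDegree_map _

variable {Φ a b}

theorem Qp_eq (hroot : (Qp Φ b).eval a = 0) : Qp Φ b = (X - C a) * Hp Φ a b :=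
  (mul_divByMonic_eq_iff_isRoot.mpr hroot).symm

theorem Hp_monic (hΦ : Φ.Monic) (hroot : (Qp Φ b).eval a = 0) : (Hp Φ a b).Monic := by
  have h := Qp_monic Φ b hΦ
  rw [Qp_eq hroot] at h
  exact (monic_X_sub_C a).of_mul_monic_left h

theorem natDegree_Hp [Nontrivial S] (hΦ : Φ.Monic) (hroot : (Qp Φ b).eval a = 0) :
    (Hp Φ a b).natDegree + 1 = Φ.natDegree := by
  have h := natDegree_Qp Φ b hΦ
  rw [Qp_eq hroot, (monic_X_sub_C a).natDegree_mul (Hp_monic hΦ hroot), natDegree_X_sub_C] at h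
  omega

theorem Pp_monic (hΦ : Φ.Monic) (hroot : (Qp Φ b).eval a = 0) : (Pp Φ a b).Monic := by
  rw [Monic, Pp, leadingCoeff_taylor]
  exact Hp_monic hΦ hroot

theorem natDegree_Pp [Nontrivial S] (hΦ : Φ.Monic) (hroot : (Qp Φ b).eval a = 0) :
    (Pp Φ a b).natDegree + 1 = Φ.natDegree := by
  rw [Pp, natDegree_taylor]
  exact natDegree_Hp hΦ hroot

/-- `Pp(0) = Hp(a) = Φ_X(a, b)`. -/
theorem Pp_coeff_zero (hroot : (Qp Φ b).eval a = 0) :
    (Pp Φ a b).coeff 0 = (derivative Φ).eval₂ (evY b) a := by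
  rw [Pp, taylor_coeff_zero]
  have h := congrArg (fun p => (derivative p).eval a) (Qp_eq hroot)
  simp only [derivative_mul, derivative_sub, derivative_X, derivative_C, sub_zero, one_mul, eval_add,
    eval_mul, eval_sub, eval_X, eval_C, sub_self, zero_mul, add_zero] at h
  rw [← h, Qp, derivative_map, eval_map]

/-- every root `x ≠ a` of `Qp` gives the root `x − a` of `Pp` (in a domain). -/
theorem eval_Pp_eq_zero [IsDomain S] (hroot : (Qp Φ b).eval a = 0) {x : S}
    (hx : (Qp Φ b).eval x = 0) (hxa : x ≠ a) : (Pp Φ a b).eval (x - a) = 0 := by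
  rw [Pp, taylor_eval, sub_add_cancel]
  rw [Qp_eq hroot, eval_mul, eval_sub, eval_X, eval_C] at hx
  exact (mul_eq_zero.mp hx).resolve_left (sub_ne_zero.mpr hxa)

end Defs

/-! ### Characteristic `q` -/

section CharQ

variable {κ : Type*} [Field κ] (q : ℕ) [Fact q.Prime] [CharP κ q]

/-- the Kronecker polynomial over `κ`, from the one over `ZMod q`. -/
theorem map_kron {Φ : ℤ[X][X]}
    (hK : Φ.map (Polynomial.mapRingHom (Int.castRingHom (ZMod q))) =
      (X - C (X ^ q)) * (X ^ q - C X)) :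
    Φ.map (Polynomial.mapRingHom (Int.castRingHom κ)) = (X - C (X ^ q)) * (X ^ q - C X) := by
  have h1 : Int.castRingHom κ = (ZMod.castHom (dvd_refl q) κ).comp (Int.castRingHom (ZMod q)) :=
    RingHom.ext_int _ _
  have h2 : Polynomial.mapRingHom (Int.castRingHom κ) =
      (Polynomial.mapRingHom (ZMod.castHom (dvd_refl q) κ)).comp
        (Polynomial.mapRingHom (Int.castRingHom (ZMod q))) := by
    rw [h1]
    ext <;> simp
  rw [h2, ← Polynomial.map_map, hK]
  simp only [Polynomial.map_mul, Polynomial.map_sub, Polynomial.map_X, Polynomial.map_C,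
    Polynomial.map_pow, Polynomial.coe_mapRingHom]

theorem evY_eq_comp (b : κ) :
    evY b = (Polynomial.evalRingHom b).comp (Polynomial.mapRingHom (Int.castRingHom κ)) := by
  apply Polynomial.ringHom_ext
  · intro n
    rw [evY_C, RingHom.comp_apply, Polynomial.coe_mapRingHom, Polynomial.map_C,
      Polynomial.coe_evalRingHom, eval_C, eq_intCast]
  · rw [evY_X, RingHom.comp_apply, Polynomial.coe_mapRingHom, Polynomial.map_X,
      Polynomial.coe_evalRingHom, eval_X]

/-- `Φ(X, b) = (X − b^q)(X^q − b)` in characteristic `q`. -/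
theorem Qp_char {Φ : ℤ[X][X]}
    (hK : Φ.map (Polynomial.mapRingHom (Int.castRingHom (ZMod q))) =
      (X - C (X ^ q)) * (X ^ q - C X)) (b : κ) :
    Qp Φ b = (X - C (b ^ q)) * (X ^ q - C b) := by
  rw [Qp, evY_eq_comp, ← Polynomial.map_map, map_kron q hK]
  simp only [Polynomial.map_mul, Polynomial.map_sub, Polynomial.map_X, Polynomial.map_C,
    Polynomial.map_pow, Polynomial.coe_evalRingHom, eval_pow, eval_X]

/-- **the reduction of the shifted quotient**: `Pp = (W + a − a^(q²)) W^(q−1)`. -/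
theorem Pp_char {Φ : ℤ[X][X]}
    (hK : Φ.map (Polynomial.mapRingHom (Int.castRingHom (ZMod q))) =
      (X - C (X ^ q)) * (X ^ q - C X)) (a : κ) :
    Pp Φ a (a ^ q) = (X + C (a - a ^ (q * q))) * X ^ (q - 1) := by
  have hq : q - 1 + 1 = q := Nat.sub_add_cancel (Fact.out : q.Prime).pos
  have h1 : (X : κ[X]) ^ q - C (a ^ q) = (X - C a) * (X - C a) ^ (q - 1) := by
    rw [map_pow C a q, ← sub_pow_char (X : κ[X]) (C a), ← pow_succ', hq]
  have hQ : Qp Φ (a ^ q) = (X - C a) * ((X - C (a ^ (q * q))) * (X - C a) ^ (q - 1)) := by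
    rw [Qp_char q hK, ← pow_mul, h1]
    ring
  have hH : Hp Φ a (a ^ q) = (X - C (a ^ (q * q))) * (X - C a) ^ (q - 1) := by
    rw [Hp, hQ, mul_divByMonic_cancel_left _ (monic_X_sub_C a)]
  rw [Pp, hH, taylor_mul, taylor_pow, taylor_apply, taylor_apply]
  simp only [sub_comp, X_comp, C_comp]
  rw [add_sub_cancel_right, map_sub]
  ring

end CharQ

/-! ### The two-slope data -/

section TwoSlope

variable {E : Type*} [Field E] (OE : ValuationSubring E) (q : ℕ) [hqp : Fact q.Prime]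

theorem charP_residue (hq1 : OE.valuation ((q : ℕ) : E) < 1) :
    CharP (IsLocalRing.ResidueField ↥OE) q := by
  rw [CharP.charP_iff_prime_eq_zero hqp.out]
  have h : ((q : ℕ) : ↥OE) ∈ IsLocalRing.maximalIdeal ↥OE := by
    rw [ValuationSubring.valuation_lt_one_iff]
    simpa using hq1
  have h2 := (IsLocalRing.residue_eq_zero_iff _).mpr h
  rwa [map_natCast] at h2

theorem residue_eq_zero_iff_val (x : ↥OE) :
    IsLocalRing.residue ↥OE x = 0 ↔ OE.valuation (x : E) < 1 := by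
  rw [IsLocalRing.residue_eq_zero_iff, ValuationSubring.valuation_lt_one_iff]

/-- **the two-slope polynomial.** -/
theorem twoSlope_Pp (Φ : ℤ[X][X]) (hΦm : Φ.Monic) (hΦd : Φ.natDegree = q + 1)
    (hK : Φ.map (Polynomial.mapRingHom (Int.castRingHom (ZMod q))) =
      (X - C (X ^ q)) * (X ^ q - C X))
    (a b : ↥OE) (hroot : (Qp Φ b).eval a = 0)
    (hq1 : OE.valuation ((q : ℕ) : E) < 1) (hq0 : ((q : ℕ) : E) ≠ 0)
    (hab : OE.valuation ((b : E) - (a : E) ^ q) < 1)
    (hunit : OE.valuation ((a : E) - (a : E) ^ (q * q)) = 1)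
    (hc0 : OE.valuation ((((derivative Φ).eval₂ (evY b) a : ↥OE)) : E) =
      OE.valuation ((q : ℕ) : E))
    (hgen : ∀ x : E, OE.valuation x < 1 → OE.valuation x ≤ OE.valuation ((q : ℕ) : E)) :
    TwoSlope OE ((q : ℕ) : E) (q - 2) ((Pp Φ a b).map OE.subtype) := by
  haveI : CharP (IsLocalRing.ResidueField ↥OE) q := charP_residue OE q hq1
  have hq2 : 2 ≤ q := hqp.out.two_le
  set res := IsLocalRing.residue ↥OE with hres
  -- the reduction
  have hbres : res b = res a ^ q := by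
    rw [← map_pow, ← sub_eq_zero, ← map_sub, residue_eq_zero_iff_val]
    exact hab
  have hred : (Pp Φ a b).map res = (X + C (res a - res a ^ (q * q))) * X ^ (q - 1) := by
    rw [Pp_map, hbres]
    exact Pp_char q hK (res a)
  have hcoeff : ∀ i, ((Pp Φ a b).map OE.subtype).coeff i = (((Pp Φ a b).coeff i : ↥OE) : E) :=
    fun i => by rw [coeff_map]; rfl
  have hm : ((Pp Φ a b).map OE.subtype).Monic := (Pp_monic hΦm hroot).map _
  have hdeg : ((Pp Φ a b).map OE.subtype).natDegree = q - 2 + 2 := by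
    rw [(Pp_monic hΦm hroot).natDegree_map]
    have := natDegree_Pp hΦm hroot
    omega
  refine ⟨hm, hdeg, hq0, hq1, ?_, ?_, ?_⟩
  · rw [hcoeff, Pp_coeff_zero hroot]
    exact hc0
  · intro i hi1 hi2
    rw [hcoeff]
    refine hgen _ ?_
    rw [← residue_eq_zero_iff_val, ← coeff_map, hred]
    have : i < q - 1 := by omega
    rw [coeff_mul_X_pow', if_neg (by omega)]
  · rw [hcoeff]
    have h1 : q - 2 + 1 = 0 + (q - 1) := by omega
    have h2 : res ((Pp Φ a b).coeff (q - 2 + 1)) = res a - res a ^ (q * q) := by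
      rw [← coeff_map, hred, h1, coeff_mul_X_pow, coeff_add, coeff_X_zero, coeff_C_zero, zero_add]
    have h3 : OE.valuation (((Pp Φ a b).coeff (q - 2 + 1) - (a - a ^ (q * q)) : ↥OE) : E) < 1 := by
      rw [← residue_eq_zero_iff_val, map_sub, h2, map_sub, map_pow, sub_self]
    have h4 : (((Pp Φ a b).coeff (q - 2 + 1) : ↥OE) : E) =
        (((Pp Φ a b).coeff (q - 2 + 1) - (a - a ^ (q * q)) : ↥OE) : E) +
          ((a : E) - (a : E) ^ (q * q)) := by
      push_cast
      ring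
    rw [h4, Valuation.map_add_eq_of_lt_right _ (by rw [hunit]; exact h3), hunit]

end TwoSlope

end Fermat.Agent.ES.P36.MidPoly23
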