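/-
Program P (S36), chapter MODEL-P, brick M4 (v₂), series part (helper23).

**Integer `𝐪`-series in a Gauss pull-back, and the level-`q²` modular equation.**

Generic part (`O ⊂ K` a valuation subring with residue characteristic `q`, `V` a Gauss pull-back along
`ι : F → K((𝐪))`, `GaussEmb22.IsGaussPullback`): for `x ∈ F` whose expansion is the image of an INTEGER
series `z ∈ ℤ((𝐪))`:
* `mem_of_int` : `x ∈ V`;  `val_eq_one_of_int` : `z̄ ≠ 0` mod `q` ⇒ `|x| = 1`;
  `val_lt_one_of_int` : `z̄ = 0` mod `q` ⇒ `|x| < 1`;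
* `val_eq_val_of_mul_eq` : `ι x · θ = ι y · u` with `θ, u` integer series of nonzero reduction ⇒ `|x| = |y|`;
* `map_eval₂_int` : two-variable evaluations of `Φ ∈ ℤ[Y][X]` commute with ring homs into `K((𝐪))`.

Series part (`Φ` the modular equation of level `q`, literal shape of `Interface20.P0`):
* `root_sq` : `Φ(X := j(𝐪^{q²}), Y := j(𝐪^q)) = 0` (apply `𝐪 ↦ 𝐪^q` to the first identity);
* `red_kron` : `j(𝐪^q) ≡ j^q`, `red_unit` : `j − j^{q²} ≢ 0`, `red_xi` : `j(𝐪^{q²}) − j ≢ 0` mod `q`.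
-/
import Mathlib
import Fermat.Agent.ES.N34.GaussEmb22
import Fermat.Agent.ES.P36.ThetaKron2
import Fermat.Agent.ES.P36.DiffExp2
import Fermat.Agent.ES.P36.MidPoly23

set_option autoImplicit false
set_option linter.unusedSectionVars false

noncomputable section

open HahnSeries ModularCurve Polynomial

namespace Fermat.Agent.ES.P36.MidSeries23

open Fermat.Agent.IG.PR.Theta20 Fermat.Agent.IG.PR.Interface20
open Fermat.Agent.RED.PUR.GaussGen8 Fermat.Agent.ES.N34.GaussEmb22
open Fermat.Agent.ES.P36.ThetaKron2 Fermat.Agent.ES.P36.DiffExp2 Fermat.Agent.ES.P36.MidPoly23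

/-! ### Integer series in a Gauss pull-back -/

section IntPull

variable {K : Type*} [Field K] {O : ValuationSubring K} {F : Type*} [Field F] [Algebra K F]
  {ι : F →ₐ[K] LaurentSeries K} {V : ValuationSubring F} (hV : IsGaussPullback O ι V)

/-- the image of an integer series in `K((𝐪))`. -/
abbrev cm (K : Type*) [Field K] : LaurentSeries ℤ →+* LaurentSeries K :=
  coeffMap (Int.castRingHom K)

/-- reduction mod `q` of an integer series. -/
abbrev rd (q : ℕ) : LaurentSeries ℤ →+* LaurentSeries (ZMod q) :=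
  coeffMap (Int.castRingHom (ZMod q))

include hV

theorem mem_of_int {x : F} {z : LaurentSeries ℤ} (hx : ι x = cm K z) : x ∈ V := by
  rw [hV, hx]
  exact intSeries_mem O z

theorem redOf_of_int {x : F} {z : LaurentSeries ℤ} (hx : ι x = cm K z) :
    redOf hV ⟨x, mem_of_int hV hx⟩ = coeffMap (Int.castRingHom (Res O)) z := by
  rw [redOf_apply, ← gaussRed_intSeries O z]
  congr 1
  exact Subtype.ext hx

variable (q : ℕ) [Fact q.Prime] [CharP (Res O) q]

omit hV in
theorem res_eq_comp : Int.castRingHom (Res O) =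
    (ZMod.castHom (dvd_refl q) (Res O)).comp (Int.castRingHom (ZMod q)) := RingHom.ext_int _ _

theorem val_lt_one_of_int {x : F} {z : LaurentSeries ℤ} (hx : ι x = cm K z) (hz : rd q z = 0) :
    V.valuation x < 1 := by
  have h := redOf_of_int hV hx
  rw [coeffMap_congr (res_eq_comp (O := O) q), ← coeffMap_coeffMap, hz, map_zero] at h
  exact (redOf_eq_zero_iff hV ⟨x, mem_of_int hV hx⟩).mp h

theorem val_eq_one_of_int {x : F} {z : LaurentSeries ℤ} (hx : ι x = cm K z) (hz : rd q z ≠ 0) :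
    V.valuation x = 1 := by
  refine le_antisymm ((V.valuation_le_one_iff x).mpr (mem_of_int hV hx)) ?_
  by_contra hlt
  rw [not_le] at hlt
  have h0 := (redOf_eq_zero_iff hV ⟨x, mem_of_int hV hx⟩).mpr hlt
  rw [redOf_apply] at h0
  have hne := gaussRed_intSeries_ne_zero O q hz
  apply hne
  rw [← h0]
  congr 1
  exact Subtype.ext hx.symm

/-- `ι x · θ = ι y · u` with `θ`, `u` integer series of nonzero reduction mod `q` ⇒ `|x| = |y|`. -/
theorem val_eq_val_of_mul_eq {x y : F} {zθ zu : LaurentSeries ℤ}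
    (h : ι x * cm K zθ = ι y * cm K zu) (hθ : rd q zθ ≠ 0) (hu : rd q zu ≠ 0) (hy : y ≠ 0) :
    V.valuation x = V.valuation y := by
  have hθ' := gaussRed_intSeries_ne_zero O q hθ
  have hu' := gaussRed_intSeries_ne_zero O q hu
  have hθ0 : cm K zθ ≠ 0 := by
    intro h0
    apply hθ'
    have : (⟨cm K zθ, intSeries_mem O zθ⟩ : gaussRing O) = 0 := Subtype.ext h0
    rw [this, map_zero]
  have hu0 : cm K zu ≠ 0 := by
    intro h0
    apply hu'
    have : (⟨cm K zu, intSeries_mem O zu⟩ : gaussRing O) = 0 := Subtype.ext h0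
    rw [this, map_zero]
  have hιy : ι y ≠ 0 := fun h0 =>
    hy ((map_eq_zero_iff _ (ι : F →+* LaurentSeries K).injective).mp h0)
  have hε : ι (x / y) = cm K zu * (cm K zθ)⁻¹ := by
    rw [map_div₀, div_eq_iff hιy, mul_comm _ (ι y), ← mul_assoc, ← h, mul_assoc,
      mul_inv_cancel₀ hθ0, mul_one]
  have hε0 : x / y ≠ 0 := by
    intro h0
    have : ι (x / y) = 0 := by rw [h0, map_zero]
    rw [hε] at this
    exact mul_ne_zero hu0 (inv_ne_zero hθ0) this
  have h1 : V.valuation (x / y) = 1 := by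
    apply valuation_eq_one_of_mem_of_inv_mem V hε0
    · rw [hV, hε]
      exact mul_mem (intSeries_mem O zu) (inv_mem_of_gaussRed_ne_zero O ⟨_, intSeries_mem O zθ⟩ hθ')
    · rw [hV, map_inv₀, hε, mul_inv, inv_inv, mul_comm]
      exact mul_mem (intSeries_mem O zθ) (inv_mem_of_gaussRed_ne_zero O ⟨_, intSeries_mem O zu⟩ hu')
  rw [map_div₀] at h1
  have hy0 : V.valuation y ≠ 0 := (Valuation.ne_zero_iff _).mpr hy
  exact (div_eq_one_iff_eq hy0).mp h1

end IntPull

/-! ### Two-variable evaluations -/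

section Eval

variable {S T : Type*} [CommRing S] [CommRing T]

theorem evalAt_eq_evY {R : Type*} [CommRing R] (y : LaurentSeries R) : evalAt R y = evY y := rfl

/-- two-variable evaluation commutes with ring homomorphisms. -/
theorem map_eval₂_evY (f : S →+* T) (P : ℤ[X][X]) (x y : S) :
    f (P.eval₂ (evY y) x) = P.eval₂ (evY (f y)) (f x) := by
  rw [Polynomial.hom_eval₂, comp_evY]

/-- if `f x`, `f y` are the images of the integer series `zx`, `zy`, then `f (P(x, y))` is the image of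
`P(zx, zy)`. -/
theorem map_eval₂_int {K : Type*} [Field K] (f : S →+* LaurentSeries K) (P : ℤ[X][X]) {x y : S}
    {zx zy : LaurentSeries ℤ} (hx : f x = cm K zx) (hy : f y = cm K zy) :
    f (P.eval₂ (evY y) x) = cm K (P.eval₂ (evalAt ℤ zy) zx) := by
  rw [map_eval₂_evY, evalAt_eq_evY, map_eval₂_evY, hx, hy]

end Eval

/-! ### The series identities -/

section Series0

variable (q : ℕ) [NeZero q]

/-- `j(𝐪^q)` over `ℤ`. -/
abbrev jq1 : LaurentSeries ℤ := qExpand ℤ q (jqModC ℤ)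

/-- `j(𝐪^{q²})` over `ℤ`. -/
abbrev jq2 : LaurentSeries ℤ := qExpand ℤ (q * q) (jqModC ℤ)

/-- the level-`q²` root: `Φ(X := j(𝐪^{q²}), Y := j(𝐪^q)) = 0`. -/
theorem root_sq (Φ : ℤ[X][X])
    (h1 : Φ.eval₂ (evalAt ℤ (jqModC ℤ)) (qExpand ℤ q (jqModC ℤ)) = 0) :
    Φ.eval₂ (evalAt ℤ (jq1 q)) (jq2 q) = 0 := by
  have h := congrArg (qExpand ℤ q) h1
  rw [map_zero, evalAt_eq_evY, map_eval₂_evY, qExpand_qExpand] at h
  exact h

end Series0

section Series

variable (q : ℕ) [NeZero q] [hq : Fact q.Prime]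

theorem rd_j : rd q (jqModC ℤ) = jqModC (ZMod q) := coeffMap_jqModC _

theorem rd_jq1 : rd q (jq1 q) = jqModC (ZMod q) ^ q := by
  rw [rd, jq1, coeffMap_qExpand, coeffMap_jqModC, qExpand_zmod]

theorem rd_jq2 : rd q (jq2 q) = (jqModC (ZMod q) ^ q) ^ q := by
  rw [rd, jq2, ← qExpand_qExpand, coeffMap_qExpand, coeffMap_qExpand, coeffMap_jqModC, qExpand_zmod,
    qExpand_zmod]

/-- **Kronecker**: `j(𝐪^q) ≡ j^q` mod `q`. -/
theorem red_kron : rd q (jq1 q - jqModC ℤ ^ q) = 0 := by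
  rw [map_sub, map_pow, rd_jq1, rd_j, sub_self]

/-- `j − j^{q²} ≢ 0` mod `q`. -/
theorem red_unit : rd q (jqModC ℤ - jqModC ℤ ^ (q * q)) ≠ 0 := by
  rw [map_sub, map_pow, rd_j, pow_mul]
  intro h
  apply jbar_pow_sub_ne_zero q
  rw [← neg_eq_zero, neg_sub]
  exact h

/-- `j(𝐪^{q²}) − j ≢ 0` mod `q`. -/
theorem red_xi : rd q (jq2 q - jqModC ℤ) ≠ 0 := by
  rw [map_sub, rd_jq2, rd_j]
  exact jbar_pow_sub_ne_zero q

end Series

end Fermat.Agent.ES.P36.MidSeries23
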