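/-
Program P (S36), chapter MODEL-P, bricks M4 + M6 (v₂-half) at the model (helper23).  PER `K`.

**The middle valuation ring `v₂` of `F″ = FK (M' q²) K`.**  `ξ = xi K M' q := j(𝐪^{q²}) − j(𝐪) ∈ F″`.

Under `MidHyp` (level-`M' q` facts only: `q` prime, `q ∤ M'`, `q` a uniformiser of `A_K` (`K` inertial),
`π` a uniformiser of `O1q` and discreteness (`GenBase17.BaseG`), `{O1q, O2q}` complete over the Gauss ring of
level `M'` (`TwoGlue20.GlueOut.two`), `O1q ≠ O2q`):

* `exists_isMid`  : `∃ O, IsMid M' q hπ O`                                  (`MidItemsP` of `NumCoreP13`);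
* `isMid_unique`  : `IsMid O → IsMid O' → O = O'`, `eq_or_eq_of_comap` (completeness over `O1q` along `α₂`);
* `midUnif`       : for every `IsMid O`: `IsMidPos O`, `O ≠ O1`, `ξ ≠ 0`, `|ξ| < 1`, `|π| = |ξ|^(q−1)`,
                    `ξ` a uniformiser, value group `|ξ|^ℤ`                  (the seven fields of `GenInst11.MidUnif`);
* `minpoly_xi`, `twoSlope_minpoly` : the minimal polynomial of `ξ` over `F′` (along `α₂`) is the shifted quotient
  `Pp Φ jα jβ` of the modular equation and is a two-slope polynomial for `(O1q, q, q − 2)`.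

Route: `MidPoly23.twoSlope_Pp` (Kronecker + `ThetaKron2.main`), generation `F″ = α₂F′(j(𝐪^{q²}))`
(`RamDeg25` at the cusp `0`), `MidAbs23.mid_package` (Chevalley + fundamental inequality),
`MidAbs23.comap_eq_of_two` (position along `β₂`).
-/
import Mathlib
import Fermat.Agent.ES.P36.ModelDefsP9
import Fermat.Agent.ES.P36.HeckeDeg19
import Fermat.Agent.ES.N34.FrickeV11
import Fermat.Agent.ES.N34.GaussEmb22
import Fermat.Agent.IG.PR.RamDeg25
import Fermat.Agent.IG.AN.ModPoly3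
import Fermat.Agent.ES.P36.MidAbs23
import Fermat.Agent.ES.P36.MidPoly23
import Fermat.Agent.ES.P36.MidSeries23

set_option autoImplicit false
set_option linter.unusedSectionVars false
set_option linter.style.haveILetI false
set_option synthInstance.maxHeartbeats 400000
set_option maxHeartbeats 2000000

noncomputable section

open HahnSeries ModularCurve Polynomial AlgebraicCurve

namespace Fermat.Agent.ES.P36.MidVal23

open Fermat.Agent.IG.PR.Theta20 Fermat.Agent.IG.PR.Interface20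
open Fermat.Agent.RED.Interface4 Fermat.Agent.RED.PUR.GaussGen8 Fermat.Agent.RED.PUR.GaussBridge10
open Fermat.Agent.ES.N34 Fermat.Agent.ES.N34.FrickeFK8 Fermat.Agent.ES.N34.GaussEmb22
open Fermat.Agent.ES.P36.ModelDefsP9 Fermat.Agent.ES.P36.NewtonTwo23 Fermat.Agent.ES.P36.MidPoly23
open Fermat.Agent.ES.P36.MidSeries23 Fermat.Agent.ES.P36.ThetaKron2 Fermat.Agent.ES.P36.DiffExp2

/-! ### The elements -/

section Elements

variable (K : IntermediateField ℚ Qbar) (M' q : ℕ) [NeZero M'] [NeZero q]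

/-- `αj = j(𝐪) ∈ F′`. -/
def ja : FK (M' * q) K := xdL (M' * q) K 1 (one_dvd _)

/-- `βj = j(𝐪^q) ∈ F′`. -/
def jb : FK (M' * q) K := xdL (M' * q) K q (dvd_mul_left q M')

/-- `j(𝐪) ∈ F″`. -/
def j0 : FK (M' * q * q) K := xdL (M' * q * q) K 1 (one_dvd _)

/-- `j(𝐪^q) ∈ F″`. -/
def j1 : FK (M' * q * q) K := xdL (M' * q * q) K q (dvd_mul_left q (M' * q))

/-- `j(𝐪^{q²}) ∈ F″`. -/
def j2 : FK (M' * q * q) K := xdL (M' * q * q) K (q * q) ⟨M', by ring⟩

/-- **the uniformiser of `v₂`**: `ξ = j(𝐪^{q²}) − j(𝐪)`. -/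
def xi : FK (M' * q * q) K := j2 K M' q - j0 K M' q

theorem coe_ja : ((ja K M' q : FK (M' * q) K) : LaurentSeries K) = cm K (jqModC ℤ) := by
  rw [ja, coe_xdL, qExpand_one_apply, cm, coeffMap_jqModC]

theorem coe_jb : ((jb K M' q : FK (M' * q) K) : LaurentSeries K) = cm K (jq1 q) := by
  rw [jb, coe_xdL, cm, jq1, coeffMap_qExpand, coeffMap_jqModC]

theorem coe_j0 : ((j0 K M' q : FK (M' * q * q) K) : LaurentSeries K) = cm K (jqModC ℤ) := by
  rw [j0, coe_xdL, qExpand_one_apply, cm, coeffMap_jqModC]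

theorem coe_j1 : ((j1 K M' q : FK (M' * q * q) K) : LaurentSeries K) = cm K (jq1 q) := by
  rw [j1, coe_xdL, cm, jq1, coeffMap_qExpand, coeffMap_jqModC]

theorem coe_j2 : ((j2 K M' q : FK (M' * q * q) K) : LaurentSeries K) = cm K (jq2 q) := by
  rw [j2, coe_xdL, cm, jq2, coeffMap_qExpand, coeffMap_jqModC]

theorem coe_xi : ((xi K M' q : FK (M' * q * q) K) : LaurentSeries K) =
    qExpand (↥K) (q * q) (jqModC ↥K) - jqModC ↥K := by
  rw [xi]
  show ((j2 K M' q : FK (M' * q * q) K) : LaurentSeries K) -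
    ((j0 K M' q : FK (M' * q * q) K) : LaurentSeries K) = _
  rw [j2, j0, coe_xdL, coe_xdL, qExpand_one_apply]

theorem coe_xi_int : ((xi K M' q : FK (M' * q * q) K) : LaurentSeries K) =
    cm K (jq2 q - jqModC ℤ) := by
  rw [xi, map_sub]
  show ((j2 K M' q : FK (M' * q * q) K) : LaurentSeries K) -
    ((j0 K M' q : FK (M' * q * q) K) : LaurentSeries K) = _
  rw [coe_j2, coe_j0]

theorem alpha2_ja : alpha2 K M' q (ja K M' q) = j0 K M' q :=
  Subtype.ext (by rw [coe_alpha2, coe_ja, coe_j0])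

theorem alpha2_jb : alpha2 K M' q (jb K M' q) = j1 K M' q :=
  Subtype.ext (by rw [coe_alpha2, coe_jb, coe_j1])

theorem beta2_ja : beta2 K M' q (ja K M' q) = j1 K M' q :=
  Subtype.ext (by
    rw [coe_beta2, coe_j1, ja, coe_xdL, qExpand_one_apply, cm, jq1, coeffMap_qExpand,
      coeffMap_jqModC])

theorem beta2_jb : beta2 K M' q (jb K M' q) = j2 K M' q :=
  Subtype.ext (by
    rw [coe_beta2, coe_j2, jb, coe_xdL, qExpand_qExpand, cm, jq2, coeffMap_qExpand,
      coeffMap_jqModC])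

/-- `j ∈ F_{M'}`. -/
def jM : FK M' K := xdL M' K 1 (one_dvd _)

theorem alpha_jM : ModelDefs9.alpha K M' q (jM K M') = ja K M' q :=
  Subtype.ext (by rw [ModelDefs9.coe_alpha]; rfl)

theorem beta_jM : ModelDefs9.beta K M' q (jM K M') = jb K M' q :=
  Subtype.ext (by
    rw [ModelDefs9.coe_beta, jM, coe_xdL, qExpand_one_apply, jb, coe_xdL])

end Elements

/-! ### The Gauss pull-backs and the uniformiser `q` -/

section Gauss

variable {A : ValuationSubring Qbar} {K : IntermediateField ℚ Qbar} (M' q : ℕ) [NeZero M'] [NeZero q]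
  {π : ↥(AK A K)} (hπ : IsUnif (AK A K) π)

theorem pb1q : IsGaussPullback (AK A K) (FK (M' * q) K).val (O1q M' q hπ) := fun _ => Iff.rfl

theorem pb1 : IsGaussPullback (AK A K) (FK (M' * q * q) K).val (O1 M' q hπ) := fun _ => Iff.rfl

/-- residue characteristic `q` from `q` being a uniformiser. -/
theorem charP_res (hq : q.Prime) (hqU : IsUnif (AK A K) ((q : ℕ) : ↥(AK A K))) :
    CharP (Res (AK A K)) q := by
  rw [CharP.charP_iff_prime_eq_zero hq]
  have h := res0_unif hqU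
  rwa [map_natCast] at h

end Gauss

section GaussGeneric

variable {K : Type*} [Field K] {O : ValuationSubring K} {F : Type*} [Field F] [Algebra K F]
  {ι : F →ₐ[K] LaurentSeries K} {V : ValuationSubring F}

/-- two uniformisers of `O` have the same valuation at every Gauss pull-back. -/
theorem val_unif_eq_of_pullback (hV : IsGaussPullback O ι V) {π ϖ : ↥O} (hπ : IsUnif O π)
    (hϖ : IsUnif O ϖ) :
    V.valuation (algebraMap K F ((ϖ : ↥O) : K)) = V.valuation (algebraMap K F ((π : ↥O) : K)) := by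
  have key : ∀ {a b : ↥O}, IsUnif O a → IsUnif O b →
      V.valuation (algebraMap K F ((a : ↥O) : K)) ≤ V.valuation (algebraMap K F ((b : ↥O) : K)) := by
    intro a b ha hb
    have hmem : a ∈ Ideal.span {b} := by
      rw [← hb.max_eq, ha.max_eq]
      exact Ideal.mem_span_singleton_self a
    obtain ⟨c, hc⟩ := Ideal.mem_span_singleton.mp hmem
    have h1 : ((a : ↥O) : K) = ((b : ↥O) : K) * ((c : ↥O) : K) := congrArg Subtype.val hc
    rw [h1, map_mul, map_mul]
    refine mul_le_of_le_one_right' ((V.valuation_le_one_iff _).mpr ?_)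
    rw [hV, AlgHom.commutes, algebraMap_eq_C]
    exact C_mem O c
  exact le_antisymm (key hϖ hπ) (key hπ hϖ)

end GaussGeneric

/-! ### The two-slope polynomial at the model -/

section TwoSlopeModel

variable {A : ValuationSubring Qbar} {K : IntermediateField ℚ Qbar} (M' q : ℕ) [NeZero M'] [NeZero q]
  {π : ↥(AK A K)} (hπ : IsUnif (AK A K) π)

theorem ja_mem : ja K M' q ∈ O1q M' q hπ :=
  mem_of_int (pb1q M' q hπ) (x := ja K M' q) (coe_ja K M' q)

theorem jb_mem : jb K M' q ∈ O1q M' q hπ :=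
  mem_of_int (pb1q M' q hπ) (x := jb K M' q) (coe_jb K M' q)

/-- `jα` in the valuation ring `O1q`. -/
def aO : ↥(O1q M' q hπ) := ⟨ja K M' q, ja_mem M' q hπ⟩

/-- `jβ` in the valuation ring `O1q`. -/
def bO : ↥(O1q M' q hπ) := ⟨jb K M' q, jb_mem M' q hπ⟩

/-- the expansion map on the valuation ring `O1q`. -/
def iotaO : ↥(O1q M' q hπ) →+* LaurentSeries K :=
  (FK (M' * q) K).val.toRingHom.comp (O1q M' q hπ).subtype

theorem iotaO_apply (x : ↥(O1q M' q hπ)) :
    iotaO M' q hπ x = (((x : ↥(O1q M' q hπ)) : FK (M' * q) K) : LaurentSeries K) := rfl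

theorem iotaO_injective : Function.Injective (iotaO M' q hπ) := by
  intro x y h
  exact Subtype.ext (Subtype.ext h)

theorem iotaO_aO : iotaO M' q hπ (aO M' q hπ) = cm K (jqModC ℤ) := coe_ja K M' q

theorem iotaO_bO : iotaO M' q hπ (bO M' q hπ) = cm K (jq1 q) := coe_jb K M' q

variable [hqp : Fact q.Prime] [CharP (Res (AK A K)) q]
  (Φ : ℤ[X][X]) (hmonic : Φ.Monic) (hdeg : Φ.natDegree = q + 1)
  (h1 : Φ.eval₂ (evalAt ℤ (jqModC ℤ)) (qExpand ℤ q (jqModC ℤ)) = 0)
  (h2 : Φ.eval₂ (evalAt ℤ (qExpand ℤ q (jqModC ℤ))) (jqModC ℤ) = 0)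

include h2 in
/-- `Φ(jα, jβ) = 0` in `O1q`. -/
theorem hroot_model : (Qp Φ (bO M' q hπ)).eval (aO M' q hπ) = 0 := by
  rw [eval_Qp]
  apply iotaO_injective M' q hπ
  rw [map_zero, map_eval₂_int (iotaO M' q hπ) Φ (iotaO_aO M' q hπ) (iotaO_bO M' q hπ), h2, map_zero]

theorem natCast_ne_zero' : ((q : ℕ) : FK (M' * q) K) ≠ 0 := Nat.cast_ne_zero.mpr hqp.out.ne_zero

theorem val_natCast_lt_one : (O1q M' q hπ).valuation ((q : ℕ) : FK (M' * q) K) < 1 := by
  refine val_lt_one_of_int (pb1q M' q hπ) q (x := ((q : ℕ) : FK (M' * q) K))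
    (z := ((q : ℕ) : LaurentSeries ℤ)) ?_ ?_
  · rw [map_natCast, map_natCast]
  · rw [map_natCast]
    have : ((q : ℕ) : LaurentSeries (ZMod q)) = HahnSeries.C ((q : ℕ) : ZMod q) := by
      rw [map_natCast]
    rw [this, ZMod.natCast_self, map_zero]

include hmonic hdeg h1 h2 in
/-- `|Φ_X(jα, jβ)| = |q|` at `O1q`. -/
theorem hc0_model :
    (O1q M' q hπ).valuation
      ((((derivative Φ).eval₂ (evY (bO M' q hπ)) (aO M' q hπ) : ↥(O1q M' q hπ))) :
        FK (M' * q) K) =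
      (O1q M' q hπ).valuation ((q : ℕ) : FK (M' * q) K) := by
  obtain ⟨-, u, hu, hθ, hb⟩ := ThetaKron2.main q Φ hmonic hdeg h1 h2
  refine val_eq_val_of_mul_eq (pb1q M' q hπ) q (zθ := theta (jqModC ℤ)) (zu := u) ?_ hθ hu
    (natCast_ne_zero' M' q)
  have hx := map_eval₂_int (iotaO M' q hπ) (derivative Φ) (iotaO_aO M' q hπ) (iotaO_bO M' q hπ)
  rw [iotaO_apply] at hx
  show (((((derivative Φ).eval₂ (evY (bO M' q hπ)) (aO M' q hπ) : ↥(O1q M' q hπ))) :
        FK (M' * q) K) : LaurentSeries K) * _ = (FK (M' * q) K).val _ * _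
  rw [hx, map_natCast, ← map_natCast (cm K) q, ← map_mul, ← map_mul]
  exact congrArg (cm K) hb

theorem hab_model :
    (O1q M' q hπ).valuation (((bO M' q hπ : ↥(O1q M' q hπ)) : FK (M' * q) K) -
      ((aO M' q hπ : ↥(O1q M' q hπ)) : FK (M' * q) K) ^ q) < 1 := by
  refine val_lt_one_of_int (pb1q M' q hπ) q (z := jq1 q - jqModC ℤ ^ q) ?_ (red_kron q)
  rw [map_sub, map_pow, map_sub, map_pow]
  show ((jb K M' q : FK (M' * q) K) : LaurentSeries K) -
    ((ja K M' q : FK (M' * q) K) : LaurentSeries K) ^ q = _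
  rw [coe_ja, coe_jb]

theorem hunit_model :
    (O1q M' q hπ).valuation (((aO M' q hπ : ↥(O1q M' q hπ)) : FK (M' * q) K) -
      ((aO M' q hπ : ↥(O1q M' q hπ)) : FK (M' * q) K) ^ (q * q)) = 1 := by
  refine val_eq_one_of_int (pb1q M' q hπ) q (z := jqModC ℤ - jqModC ℤ ^ (q * q)) ?_ (red_unit q)
  rw [map_sub, map_pow, map_sub, map_pow]
  show ((ja K M' q : FK (M' * q) K) : LaurentSeries K) -
    ((ja K M' q : FK (M' * q) K) : LaurentSeries K) ^ (q * q) = _
  rw [coe_ja]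

/-- the polynomial `P(W) = H(jα + W)`, `H = Φ(X, jβ) / (X − jα)`, over `F′`. -/
def PE : (FK (M' * q) K)[X] := (Pp Φ (aO M' q hπ) (bO M' q hπ)).map (O1q M' q hπ).subtype

include hmonic hdeg h1 h2 in
/-- **the two-slope polynomial at the model.** -/
theorem twoSlope_PE
    (hgen : ∀ x : FK (M' * q) K, (O1q M' q hπ).valuation x < 1 →
      (O1q M' q hπ).valuation x ≤ (O1q M' q hπ).valuation ((q : ℕ) : FK (M' * q) K)) :
    TwoSlope (O1q M' q hπ) ((q : ℕ) : FK (M' * q) K) (q - 2) (PE M' q hπ Φ) :=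
  twoSlope_Pp (O1q M' q hπ) q Φ hmonic hdeg (map_eq_kron q Φ hmonic hdeg h1 h2)
    (aO M' q hπ) (bO M' q hπ) (hroot_model M' q hπ Φ h2) (val_natCast_lt_one M' q hπ)
    (natCast_ne_zero' M' q) (hab_model M' q hπ) (hunit_model M' q hπ)
    (hc0_model M' q hπ Φ hmonic hdeg h1 h2) hgen

end TwoSlopeModel

/-! ### Generation: `F″ = α₂F′(j(𝐪^{q²}))` -/

section Generation

variable (K : IntermediateField ℚ Qbar) (M' q : ℕ) [NeZero M'] [NeZero q]

theorem iota3_alpha2 (z : FK (M' * q) K) :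
    iota3 K M' q (alpha2 K M' q z) = qExpand (↥K) q (IsoM25.iotaAlg (M' * q) K z) :=
  FrickeV11.iotaTwo_alpha (M' * q) q K z

theorem iota3_j2 : iota3 K M' q (j2 K M' q) = qExpand (↥K) M' (jqModC ↥K) :=
  IsoM25.iotaAlg_xdL (M' * q * q) K (q * q) M' (by ring)

theorem finiteAlong_alpha2 (hq : q.Prime) : FiniteAlong (↥K) (alpha2 K M' q) :=
  HeckeDeg19.finiteAlong_alpha_of_dvd (↥K) (M' * q) q hq (dvd_mul_left q M')

theorem finrankAlong_alpha2 (hq : q.Prime) : finrankAlong (↥K) (alpha2 K M' q) = q :=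
  HeckeDeg19.finrankAlong_alpha_of_dvd (↥K) (M' * q) q hq (dvd_mul_left q M')

/-- the degree of `j(𝐪^{q²})` over `α₂F′` is at least `q`. -/
theorem le_natDegree_minpoly_j2 (hq : q.Prime) (hqM : ¬ q ∣ M') :
    letI := algebraAlong (alpha2 K M' q)
    q ≤ (minpoly (FK (M' * q) K) (j2 K M' q)).natDegree := by
  letI := algebraAlong (alpha2 K M' q)
  haveI : FiniteDimensional (FK (M' * q) K) (FK (M' * q * q) K) := finiteAlong_alpha2 K M' q hq
  have hint : IsIntegral (FK (M' * q) K) (j2 K M' q) := Algebra.IsIntegral.isIntegral _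
  set τ : FK (M' * q * q) K →+* LaurentSeries K := (iota3 K M' q).toRingHom with hτ
  letI : Algebra (FK (M' * q) K) (LaurentSeries K) :=
    (τ.comp (algebraMap (FK (M' * q) K) (FK (M' * q * q) K))).toAlgebra
  let φ : FK (M' * q * q) K →ₐ[FK (M' * q) K] LaurentSeries K :=
    { τ with commutes' := fun _ => rfl }
  have hφ : Function.Injective φ := τ.injective
  have hmin : minpoly (FK (M' * q) K) (φ (j2 K M' q)) = minpoly (FK (M' * q) K) (j2 K M' q) :=
    minpoly.algHom_eq φ hφ _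
  rw [← hmin]
  have hval : φ (j2 K M' q) = qExpand (↥K) M' (jqModC ↥K) := iota3_j2 K M' q
  have hord : (φ (j2 K M' q)).order = -(M' : ℤ) := by
    rw [hval, Fermat.Agent.IG.PR.ThetaV1.order_qExpand, Fermat.Agent.IG.AN.ModPoly3.order_jqModC]
    ring
  have hy0 : φ (j2 K M' q) ≠ 0 := by
    intro h0
    rw [h0, HahnSeries.order_zero] at hord
    have : (M' : ℤ) = 0 := by omega
    exact NeZero.ne M' (by exact_mod_cast this)
  have hcop : IsCoprime (φ (j2 K M' q)).order (q : ℤ) := by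
    rw [hord]
    refine (Nat.isCoprime_iff_coprime.mpr ?_).neg_left
    exact ((Nat.Prime.coprime_iff_not_dvd hq).mpr hqM).symm
  have hF : ∀ a : FK (M' * q) K, algebraMap (FK (M' * q) K) (LaurentSeries K) a ∈
      Set.range (qExpand (↥K) q) := fun a => ⟨_, (iota3_alpha2 K M' q a).symm⟩
  have hint' : IsIntegral (FK (M' * q) K) (φ (j2 K M' q)) := (isIntegral_algHom_iff φ hφ).mpr hint
  exact Fermat.Agent.IG.PR.RamDeg25.le_natDegree_minpoly hy0 hcop hF hint'

end Generation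

/-! ### The minimal polynomial of `ξ` -/

section Minpoly

variable {A : ValuationSubring Qbar} {K : IntermediateField ℚ Qbar} (M' q : ℕ) [NeZero M'] [NeZero q]
  {π : ↥(AK A K)} (hπ : IsUnif (AK A K) π)
  (Φ : ℤ[X][X]) (hmonic : Φ.Monic) (hdeg : Φ.natDegree = q + 1)
  (h1 : Φ.eval₂ (evalAt ℤ (jqModC ℤ)) (qExpand ℤ q (jqModC ℤ)) = 0)
  (h2 : Φ.eval₂ (evalAt ℤ (qExpand ℤ q (jqModC ℤ))) (jqModC ℤ) = 0)

/-- the expansion map of `F″`. -/
def val2 : FK (M' * q * q) K →+* LaurentSeries K := (FK (M' * q * q) K).val.toRingHom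

theorem val2_injective : Function.Injective (val2 (K := K) M' q) := fun _ _ h => Subtype.ext h

theorem val2_j0 : val2 (K := K) M' q (j0 K M' q) = cm K (jqModC ℤ) := coe_j0 K M' q

theorem val2_j1 : val2 (K := K) M' q (j1 K M' q) = cm K (jq1 q) := coe_j1 K M' q

theorem val2_j2 : val2 (K := K) M' q (j2 K M' q) = cm K (jq2 q) := coe_j2 K M' q

include h2 in
theorem root_j0 : (Qp Φ (j1 K M' q)).eval (j0 K M' q) = 0 := by
  rw [eval_Qp]
  apply val2_injective M' q
  rw [map_zero, map_eval₂_int (val2 M' q) Φ (val2_j0 M' q) (val2_j1 M' q), h2, map_zero]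

include h1 in
theorem root_j2 : (Qp Φ (j1 K M' q)).eval (j2 K M' q) = 0 := by
  rw [eval_Qp]
  apply val2_injective M' q
  rw [map_zero, map_eval₂_int (val2 M' q) Φ (val2_j2 M' q) (val2_j1 M' q), root_sq q Φ h1,
    map_zero]

variable [hqp : Fact q.Prime] [CharP (Res (AK A K)) q]

/-- `ξ` is a unit at `v₁ = O1`. -/
theorem val_O1_xi : (O1 M' q hπ).valuation (xi K M' q) = 1 :=
  val_eq_one_of_int (pb1 M' q hπ) q (x := xi K M' q) (coe_xi_int K M' q) (red_xi q)

include hπ in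
theorem xi_ne_zero : xi K M' q ≠ 0 := by
  intro h0
  have h := val_O1_xi M' q hπ
  rw [h0, map_zero] at h
  exact zero_ne_one h

theorem map_PE :
    (PE M' q hπ Φ).map (alpha2 K M' q).toRingHom = Pp Φ (j0 K M' q) (j1 K M' q) := by
  rw [PE, Polynomial.map_map, Pp_map]
  show Pp Φ (alpha2 K M' q (ja K M' q)) (alpha2 K M' q (jb K M' q)) = _
  rw [alpha2_ja, alpha2_jb]

include h1 h2 in
theorem aeval_xi_PE :
    letI := algebraAlong (alpha2 K M' q)
    aeval (xi K M' q) (PE M' q hπ Φ) = 0 := by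
  letI := algebraAlong (alpha2 K M' q)
  rw [aeval_def, eval₂_eq_eval_map]
  show ((PE M' q hπ Φ).map (alpha2 K M' q).toRingHom).eval (xi K M' q) = 0
  rw [map_PE, xi]
  refine eval_Pp_eq_zero (root_j0 M' q Φ h2) (root_j2 M' q Φ h1) ?_
  intro h
  apply xi_ne_zero M' q hπ
  rw [xi, h, sub_self]

include hmonic h2 in
theorem PE_monic : (PE M' q hπ Φ).Monic :=
  (Pp_monic hmonic (hroot_model M' q hπ Φ h2)).map _

include hmonic hdeg h2 in
theorem natDegree_PE : (PE M' q hπ Φ).natDegree = q := by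
  rw [PE, (Pp_monic hmonic (hroot_model M' q hπ Φ h2)).natDegree_map]
  have := natDegree_Pp hmonic (hroot_model M' q hπ Φ h2)
  omega

include hmonic hdeg h1 h2 in
/-- **the minimal polynomial of `ξ` over `F′`** (along `α₂`). -/
theorem minpoly_xi (hqM : ¬ q ∣ M') :
    letI := algebraAlong (alpha2 K M' q)
    minpoly (FK (M' * q) K) (xi K M' q) = PE M' q hπ Φ := by
  letI := algebraAlong (alpha2 K M' q)
  haveI : FiniteDimensional (FK (M' * q) K) (FK (M' * q * q) K) :=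
    finiteAlong_alpha2 K M' q hqp.out
  have hint : IsIntegral (FK (M' * q) K) (xi K M' q) := Algebra.IsIntegral.isIntegral _
  have hxi : xi K M' q = j2 K M' q - algebraMap (FK (M' * q) K) (FK (M' * q * q) K) (ja K M' q) := by
    show j2 K M' q - j0 K M' q = j2 K M' q - alpha2 K M' q (ja K M' q)
    rw [alpha2_ja]
  have hdeg' : q ≤ (minpoly (FK (M' * q) K) (xi K M' q)).natDegree := by
    rw [hxi, minpoly.sub_algebraMap, ← taylor_apply, natDegree_taylor]
    exact le_natDegree_minpoly_j2 K M' q hqp.out hqM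
  refine (eq_of_monic_of_dvd_of_natDegree_le (minpoly.monic hint)
    (PE_monic M' q hπ Φ hmonic h2) (minpoly.dvd _ _ (aeval_xi_PE M' q hπ Φ h1 h2)) ?_).symm
  rw [natDegree_PE M' q hπ Φ hmonic hdeg h2]
  exact hdeg'

end Minpoly

/-! ### The package -/

section Final

variable {A : ValuationSubring Qbar} {K : IntermediateField ℚ Qbar} (M' q : ℕ) [NeZero M'] [NeZero q]
  {π : ↥(AK A K)}

/-- the level-`M' q` hypotheses (literal outputs of Program N / `GenBase17` / `UnrFixed1`). -/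
structure MidHyp (hπ : IsUnif (AK A K) π) : Prop where
  hq : q.Prime
  hqM : ¬ q ∣ M'
  hqU : IsUnif (AK A K) ((q : ℕ) : ↥(AK A K))
  unifW1 : ∀ x : FK (M' * q) K, (O1q M' q hπ).valuation x < 1 →
    (O1q M' q hπ).valuation x ≤
      (O1q M' q hπ).valuation (algebraMap ↥K ↥(FK (M' * q) K) (π : ↥K))
  discW1 : ∀ g : FK (M' * q) K, g ≠ 0 → ∃ n : ℤ, (O1q M' q hπ).valuation g =
    (O1q M' q hπ).valuation (algebraMap ↥K ↥(FK (M' * q) K) (π : ↥K)) ^ n
  two : ∀ W : ValuationSubring ↥(FK (M' * q) K),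
    W.comap (ModelDefs9.alpha K M' q).toRingHom =
      (O1q M' q hπ).comap (ModelDefs9.alpha K M' q).toRingHom →
    W = O1q M' q hπ ∨ W = O2q M' q hπ
  ne12 : O1q M' q hπ ≠ O2q M' q hπ

variable {M' q} {hπ : IsUnif (AK A K) π}

/-- `|q| = |π|` at `O1q`. -/
theorem MidHyp.val_q (H : MidHyp M' q hπ) :
    (O1q M' q hπ).valuation ((q : ℕ) : FK (M' * q) K) =
      (O1q M' q hπ).valuation (algebraMap ↥K ↥(FK (M' * q) K) (π : ↥K)) := by
  have h := val_unif_eq_of_pullback (pb1q M' q hπ) hπ H.hqU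
  have hc : ((((q : ℕ) : ↥(AK A K)) : ↥(AK A K)) : ↥K) = ((q : ℕ) : ↥K) := rfl
  rwa [hc, map_natCast] at h

theorem MidHyp.hgen (H : MidHyp M' q hπ) (x : FK (M' * q) K)
    (hx : (O1q M' q hπ).valuation x < 1) :
    (O1q M' q hπ).valuation x ≤ (O1q M' q hπ).valuation ((q : ℕ) : FK (M' * q) K) := by
  rw [H.val_q]
  exact H.unifW1 x hx

theorem MidHyp.hdisc (H : MidHyp M' q hπ) (g : FK (M' * q) K) (hg : g ≠ 0) :
    ∃ n : ℤ, (O1q M' q hπ).valuation g =
      (O1q M' q hπ).valuation ((q : ℕ) : FK (M' * q) K) ^ n := by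
  rw [H.val_q]
  exact H.discW1 g hg

/-- `O1q` has the same restriction to `F_{M'}` along `α` and along `β`. -/
theorem O1q_comap_beta (hπ : IsUnif (AK A K) π) :
    (O1q M' q hπ).comap (ModelDefs9.beta K M' q).toRingHom =
      (O1q M' q hπ).comap (ModelDefs9.alpha K M' q).toRingHom := by
  ext x
  rw [ValuationSubring.mem_comap, ValuationSubring.mem_comap, mem_O1q_iff, mem_O1q_iff]
  show ((ModelDefs9.beta K M' q x : FK (M' * q) K) : LaurentSeries K) ∈ gaussRing (AK A K) ↔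
    ((ModelDefs9.alpha K M' q x : FK (M' * q) K) : LaurentSeries K) ∈ gaussRing (AK A K)
  rw [ModelDefs9.coe_beta, ModelDefs9.coe_alpha]
  exact Fermat.Agent.ES.N35.PiMaps26.qExpand_mem_gaussRing_iff hπ q (FK_le_fracField A K M' x.2)

/-- the core: everything `MidAbs23` needs, at the model. -/
theorem MidHyp.core (H : MidHyp M' q hπ) :
    letI := algebraAlong (alpha2 K M' q)
    Module.finrank (FK (M' * q) K) (FK (M' * q * q) K) ≤ q - 2 + 2 ∧
    TwoSlope (O1q M' q hπ) ((q : ℕ) : FK (M' * q) K) (q - 2)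
      (minpoly (FK (M' * q) K) (xi K M' q)) ∧
    (O1 M' q hπ).valuation (xi K M' q) = 1 := by
  letI := algebraAlong (alpha2 K M' q)
  haveI : Fact q.Prime := ⟨H.hq⟩
  haveI : CharP (Res (AK A K)) q := charP_res q H.hq H.hqU
  obtain ⟨Φ, hmonic, hdeg, h1, h2⟩ := Fermat.Agent.IG.AN.ModPoly3.p0 q H.hq
  have hq2 : 2 ≤ q := H.hq.two_le
  refine ⟨?_, ?_, val_O1_xi M' q hπ⟩
  · have h : Module.finrank (FK (M' * q) K) (FK (M' * q * q) K) = q :=
      finrankAlong_alpha2 K M' q H.hq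
    rw [h]
    omega
  · rw [minpoly_xi M' q hπ Φ hmonic hdeg h1 h2 H.hqM]
    exact twoSlope_PE M' q hπ Φ hmonic hdeg h1 h2 H.hgen

/-- **M4: the middle valuation ring exists** (`MidItemsP`). -/
theorem exists_isMid (H : MidHyp M' q hπ) : ∃ O, IsMid M' q hπ O := by
  letI := algebraAlong (alpha2 K M' q)
  haveI : FiniteDimensional (FK (M' * q) K) (FK (M' * q * q) K) := finiteAlong_alpha2 K M' q H.hq
  obtain ⟨hdeg, D, h1⟩ := H.core
  obtain ⟨V₂, hV₂, hne, -⟩ := MidAbs23.mid_package hdeg D H.hgen H.hdisc (O1 M' q hπ)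
    (O1_comap_alpha2 M' q hπ) h1
  exact ⟨V₂, hV₂, hne⟩

/-- the abstract properties of every middle valuation ring. -/
theorem MidHyp.props (H : MidHyp M' q hπ) {O : ValuationSubring ↥(FK (M' * q * q) K)}
    (hO : IsMid M' q hπ O) :
    (∀ V : ValuationSubring ↥(FK (M' * q * q) K),
      V.comap (alpha2 K M' q).toRingHom = O1q M' q hπ → V = O1 M' q hπ ∨ V = O) ∧
    xi K M' q ≠ 0 ∧ O.valuation (xi K M' q) < 1 ∧
    O.valuation (xi K M' q) ^ (q - 2 + 1) =
      O.valuation (alpha2 K M' q ((q : ℕ) : FK (M' * q) K)) ∧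
    (∀ x, O.valuation x < 1 → O.valuation x ≤ O.valuation (xi K M' q)) ∧
    (∀ f, f ≠ 0 → ∃ n : ℤ, O.valuation f = O.valuation (xi K M' q) ^ n) := by
  letI := algebraAlong (alpha2 K M' q)
  haveI : FiniteDimensional (FK (M' * q) K) (FK (M' * q * q) K) := finiteAlong_alpha2 K M' q H.hq
  obtain ⟨hdeg, D, h1⟩ := H.core
  exact MidAbs23.mid_props hdeg D H.hgen H.hdisc (O1 M' q hπ) (O1_comap_alpha2 M' q hπ) h1
    hO.1 hO.2

/-- **completeness over `O1q` along `α₂`.** -/
theorem eq_or_eq_of_comap (H : MidHyp M' q hπ) {O : ValuationSubring ↥(FK (M' * q * q) K)}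
    (hO : IsMid M' q hπ O) (V : ValuationSubring ↥(FK (M' * q * q) K))
    (hV : V.comap (alpha2 K M' q).toRingHom = O1q M' q hπ) : V = O1 M' q hπ ∨ V = O :=
  (H.props hO).1 V hV

/-- **uniqueness of the middle valuation ring.** -/
theorem isMid_unique (H : MidHyp M' q hπ) {O O' : ValuationSubring ↥(FK (M' * q * q) K)}
    (hO : IsMid M' q hπ O) (hO' : IsMid M' q hπ O') : O = O' := by
  rcases eq_or_eq_of_comap H hO' O hO.1 with h | h
  · exact absurd h hO.2
  · exact h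

/-- **position of `v₂` along `β₂`.** -/
theorem isMidPos_of_isMid (H : MidHyp M' q hπ) {O : ValuationSubring ↥(FK (M' * q * q) K)}
    (hO : IsMid M' q hπ O) : IsMidPos M' q hπ O := by
  haveI : Fact q.Prime := ⟨H.hq⟩
  haveI : CharP (Res (AK A K)) q := charP_res q H.hq H.hqU
  obtain ⟨-, -, hlt, -⟩ := H.props hO
  refine ⟨hO.1, ?_⟩
  refine MidAbs23.comap_eq_of_two (ModelDefs9.alpha K M' q).toRingHom
    (ModelDefs9.beta K M' q).toRingHom (alpha2 K M' q).toRingHom (beta2 K M' q).toRingHom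
    (fun x => alpha2_beta K M' q x) (O1q M' q hπ) (O2q M' q hπ) (O1q_comap_beta hπ) H.two O hO.1
    q H.hq.two_le (jM K M') ?_ ?_ ?_
  · show (O1q M' q hπ).valuation (ModelDefs9.beta K M' q (jM K M') -
      ModelDefs9.alpha K M' q (jM K M') ^ q) < 1
    rw [beta_jM, alpha_jM]
    exact hab_model M' q hπ
  · show (O1q M' q hπ).valuation (ModelDefs9.alpha K M' q (jM K M') ^ (q * q) -
      ModelDefs9.alpha K M' q (jM K M')) = 1
    rw [alpha_jM, ← Valuation.map_neg, neg_sub]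
    exact hunit_model M' q hπ
  · show O.valuation (beta2 K M' q (ModelDefs9.beta K M' q (jM K M')) -
      alpha2 K M' q (ModelDefs9.alpha K M' q (jM K M'))) < 1
    rw [beta_jM, alpha_jM, beta2_jb, alpha2_ja]
    exact hlt

/-- **M6, `v₂`-half: the seven fields of `GenInst11.MidUnif`** with `T := xi K M' q`. -/
theorem midUnif (H : MidHyp M' q hπ) {O : ValuationSubring ↥(FK (M' * q * q) K)}
    (hO : IsMid M' q hπ O) :
    IsMidPos M' q hπ O ∧ O ≠ O1 M' q hπ ∧ xi K M' q ≠ 0 ∧ O.valuation (xi K M' q) < 1 ∧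
    O.valuation (algebraMap ↥K ↥(FK (M' * q * q) K) (π : ↥K)) =
      O.valuation (xi K M' q) ^ ((q : ℤ) - 1) ∧
    (∀ x, O.valuation x < 1 → O.valuation x ≤ O.valuation (xi K M' q)) ∧
    (∀ f, f ≠ 0 → ∃ n : ℤ, O.valuation f = O.valuation (xi K M' q) ^ n) := by
  obtain ⟨-, hξ0, hlt, hs, hunif, hdisc⟩ := H.props hO
  refine ⟨isMidPos_of_isMid H hO, hO.2, hξ0, hlt, ?_, hunif, hdisc⟩
  letI := algebraAlong (alpha2 K M' q)
  have hq2 : 2 ≤ q := H.hq.two_le
  have h1 : O.valuation (alpha2 K M' q ((q : ℕ) : FK (M' * q) K)) =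
      O.valuation (alpha2 K M' q (algebraMap ↥K ↥(FK (M' * q) K) (π : ↥K))) :=
    (val_eq_val_iff (E := FK (M' * q) K) (F := FK (M' * q * q) K) hO.1 _ _).mp H.val_q
  rw [← (alpha2 K M' q).commutes (π : ↥K), ← h1, ← hs, ← zpow_natCast]
  congr 1
  omega

end Final

/-! ### Adapter: `MidHyp.two` from `TwoGlue20.GlueOut.two` -/

section Adapter

open Fermat.Agent.RED.BASE.EtaQuot12

variable {A : ValuationSubring Qbar} {K : IntermediateField ℚ Qbar} {M' q : ℕ} [NeZero M'] [NeZero q]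
  {π : ↥(AK A K)} {hπ : IsUnif (AK A K) π} {n e : ℕ} [NeZero n]

/-- (TWO) over `K(t)` gives (TWO) over `α(F_{M'})`. -/
theorem two_of_glueOut (ht : tq (↥K) n e ∈ FK M' K)
    (two : ∀ V : ValuationSubring ↥(FK (M' * q) K),
      V.comap (algebraMap (IntermediateField.adjoin ↥K {ModelDefs9.tN q ht}) ↥(FK (M' * q) K)) =
        (O1q M' q hπ).comap
          (algebraMap (IntermediateField.adjoin ↥K {ModelDefs9.tN q ht}) ↥(FK (M' * q) K)) →
      V = O1q M' q hπ ∨ V = O2q M' q hπ)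
    (W : ValuationSubring ↥(FK (M' * q) K))
    (hW : W.comap (ModelDefs9.alpha K M' q).toRingHom =
      (O1q M' q hπ).comap (ModelDefs9.alpha K M' q).toRingHom) :
    W = O1q M' q hπ ∨ W = O2q M' q hπ := by
  apply two
  ext x
  rw [ValuationSubring.mem_comap, ValuationSubring.mem_comap]
  have hle : IntermediateField.adjoin ↥K {ModelDefs9.tN q ht} ≤
      (ModelDefs9.alpha K M' q).fieldRange := by
    rw [IntermediateField.adjoin_le_iff]
    rintro _ rfl
    exact ⟨ModelDefs9.tM ht, rfl⟩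
  obtain ⟨y, hy⟩ := hle x.2
  have hx : algebraMap (IntermediateField.adjoin ↥K {ModelDefs9.tN q ht}) ↥(FK (M' * q) K) x =
      (ModelDefs9.alpha K M' q).toRingHom y := hy.symm
  rw [hx, ← ValuationSubring.mem_comap, ← ValuationSubring.mem_comap, hW]

end Adapter

end Fermat.Agent.ES.P36.MidVal23
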