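/-
Program P (S36), chapter REG, brick R7 (D2.3), FINAL model form (helper2):
under helper23's `MidVal23.MidHyp M' q hπ` (level-`M' q` facts only) and for every middle valuation ring
`O` (`IsMid`), the generator `ζ = ξ + α₂ a` (`ξ = j(𝐪^{q²}) - j(𝐪) = MidVal23.xi`, `a ∈ F'` arbitrary;
`a = 0`: `ζ = ξ`, `a = ja`: `ζ = j(𝐪^{q²})`) is primitive for `F'' / α₂ F'` and

  `v₁'(N_{F''/F'} (G_ζ'(ζ))) = v₁'(π)^(q-2)`,   `G_ζ = minpoly F' ζ`,

i.e. the hypotheses `hprim`, `hN` of `DiscBound5.le_of_norm_derivative_eq/_scaled` (resp. of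
`RegSemiChart20.exp_le_chart`) with `m = q - 2`, `V0 = W1 = O1q`.  No modular polynomial in the
statement (`ModPoly3.p0`).
-/
import Mathlib
import Fermat.Agent.ES.P36.DiffMid2
import Fermat.Agent.ES.P36.MidVal23

set_option autoImplicit false
set_option linter.unusedSectionVars false
set_option synthInstance.maxHeartbeats 400000

noncomputable section

open HahnSeries ModularCurve AlgebraicCurve

namespace Fermat.Agent.ES.P36.DiffXi2

open Polynomial
open Fermat.Agent.RED.Interface4 Fermat.Agent.RED.PUR.GaussGen8 Fermat.Agent.ES.N34.FrickeFK8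
  Fermat.Agent.ES.N34 Fermat.Agent.ES.P36.ModelDefsP9 Fermat.Agent.ES.P36.NewtonTwo23
  Fermat.Agent.ES.P36.DiffTwo2 Fermat.Agent.ES.P36.DiffMid2 Fermat.Agent.ES.P36.MidVal23

variable {A : ValuationSubring Qbar} {K : IntermediateField ℚ Qbar} {M' q : ℕ} [NeZero M'] [NeZero q]
  {π : ↥(AK A K)} {hπ : IsUnif (AK A K) π}

/-- **(D2.3), final form for `ζ = ξ`.** -/
theorem hprim_hN_xi (H : MidHyp M' q hπ) {O : ValuationSubring (FK (M' * q * q) K)}
    (hO : IsMid M' q hπ O) :
    letI := algebraAlong (alpha2 K M' q)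
    (minpoly (FK (M' * q) K) (xi K M' q)).natDegree =
      Module.finrank (FK (M' * q) K) (FK (M' * q * q) K) ∧
    (O1q M' q hπ).valuation (Algebra.norm (FK (M' * q) K)
        (aeval (xi K M' q) (derivative (minpoly (FK (M' * q) K) (xi K M' q))))) =
      (O1q M' q hπ).valuation (algebraMap K (FK (M' * q) K) (π : K)) ^ (q - 2) := by
  haveI : Fact q.Prime := ⟨H.hq⟩
  haveI : CharP (Res (AK A K)) q := charP_res (A := A) (K := K) q H.hq H.hqU
  obtain ⟨Φ, hmonic, hdeg, h1, h2⟩ := Fermat.Agent.IG.AN.ModPoly3.p0 q H.hq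
  letI := algebraAlong (alpha2 K M' q)
  have D : TwoSlope (O1q M' q hπ) (((q : ℕ) : FK (M' * q) K)) (q - 2)
      (minpoly (FK (M' * q) K) (xi K M' q)) := by
    rw [minpoly_xi M' q hπ Φ hmonic hdeg h1 h2 H.hqM]
    exact twoSlope_PE M' q hπ Φ hmonic hdeg h1 h2 H.hgen
  have h := hprim_hN_mid (A := A) (K := K) M' q H.hq hπ H.hgen (xi K M' q) D
    (val_O1_xi M' q hπ) hO (midUnif H hO).2.2.2.1
  rw [H.val_q] at h
  exact h

/-- **(D2.3), final form for every shifted generator `ζ = ξ + α₂ a`**, `a ∈ F'`. -/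
theorem hprim_hN_xi_shift (H : MidHyp M' q hπ) {O : ValuationSubring (FK (M' * q * q) K)}
    (hO : IsMid M' q hπ O) (a : FK (M' * q) K) :
    letI := algebraAlong (alpha2 K M' q)
    (minpoly (FK (M' * q) K) (xi K M' q + alpha2 K M' q a)).natDegree =
      Module.finrank (FK (M' * q) K) (FK (M' * q * q) K) ∧
    (O1q M' q hπ).valuation (Algebra.norm (FK (M' * q) K)
        (aeval (xi K M' q + alpha2 K M' q a)
          (derivative (minpoly (FK (M' * q) K) (xi K M' q + alpha2 K M' q a))))) =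
      (O1q M' q hπ).valuation (algebraMap K (FK (M' * q) K) (π : K)) ^ (q - 2) := by
  letI := algebraAlong (alpha2 K M' q)
  have h := hprim_hN_xi H hO
  have e : alpha2 K M' q a = algebraMap (FK (M' * q) K) (FK (M' * q * q) K) a := rfl
  rw [e, natDegree_minpoly_add_algebraMap, aeval_derivative_minpoly_add_algebraMap]
  exact h

/-- the generator `j'' = j(𝐪^{q²}) = MidVal23.j2` is `ξ + α₂ (ja)`. -/
theorem j2_eq (K : IntermediateField ℚ Qbar) (M' q : ℕ) [NeZero M'] [NeZero q] :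
    j2 K M' q = xi K M' q + alpha2 K M' q (ja K M' q) := by
  rw [alpha2_ja, xi, sub_add_cancel]

/-- **(D2.3), final form for `ζ = j'' = j(𝐪^{q²})`.** -/
theorem hprim_hN_j2 (H : MidHyp M' q hπ) {O : ValuationSubring (FK (M' * q * q) K)}
    (hO : IsMid M' q hπ O) :
    letI := algebraAlong (alpha2 K M' q)
    (minpoly (FK (M' * q) K) (j2 K M' q)).natDegree =
      Module.finrank (FK (M' * q) K) (FK (M' * q * q) K) ∧
    (O1q M' q hπ).valuation (Algebra.norm (FK (M' * q) K)
        (aeval (j2 K M' q) (derivative (minpoly (FK (M' * q) K) (j2 K M' q))))) =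
      (O1q M' q hπ).valuation (algebraMap K (FK (M' * q) K) (π : K)) ^ (q - 2) := by
  rw [j2_eq K M' q]
  exact hprim_hN_xi_shift H hO (ja K M' q)

end Fermat.Agent.ES.P36.DiffXi2
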