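/-
Program P (S36), chapter REG, brick R2 (iii) (helper5, asked by helper2): **the discriminant
exponent is bounded by the different of ONE primitive element** — abstract, Mathlib only.

`R0 ⊆ S` domains, `b` a finite `R0`-basis of `S`, `F0 = Frac R0`, `F = Frac S` (finite separable),
`discr R0 b = π ^ a * unit`, `V0 ⊇ R0` a valuation ring of `F0` with `v(π) < 1`.  For `z ∈ S` primitive
over `F0` with minimal polynomial `G`:
* `exists_det_sq_mul_discr` : `discr (1, z, …, z^(n-1)) = det(P)² · discr(b)` with `P` over `R0`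
  (`Algebra.discr_of_matrix_mulVec`, `Algebra.discr_localizationLocalization`);
* **`le_of_norm_derivative`** : `v(π) ^ m ≤ v(N_{F/F0} G'(z))  ⟹  a ≤ m`
  (`Algebra.discr_powerBasis_eq_norm`); `le_of_norm_derivative_eq` (equality form),
  `le_of_norm_derivative_of_monic` (explicit monic `G` of degree `[F : F0]` with `G(z) = 0`).
* `norm_derivative_smul` : `N (G_{gζ}'(gζ)) = g ^ (n (n - 1)) · N (G_ζ'(ζ))` for `g ∈ F0ˣ`, and
  **`le_of_norm_derivative_scaled`** : the bound for a generator `ζ ∈ F` which is integral only after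
  scaling by some `g ∈ F0` with `v(g) = 1` (`g ζ ∈ S`) — the cusp points of (D2.3).
Use: (D1.3) `m = q` at level `M' q` over `R0 = (B0)_{x0}`, (D2.3) `m = q - 2` at level `M' q²`.
-/
import Mathlib

set_option autoImplicit false
set_option linter.unusedSectionVars false

namespace Fermat.Agent.ES.P36.DiscBound5

open Module Polynomial
open scoped Matrix nonZeroDivisors IntermediateField

section Main

variable {R0 S : Type*} [CommRing R0] [IsDomain R0] [CommRing S] [IsDomain S] [Algebra R0 S]
  {ι : Type*} [Fintype ι] [DecidableEq ι]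
  (F0 F : Type*) [Field F0] [Field F] [Algebra R0 F0] [IsFractionRing R0 F0]
  [Algebra S F] [IsFractionRing S F] [Algebra F0 F] [Algebra R0 F] [IsScalarTower R0 F0 F]
  [IsScalarTower R0 S F]

/-- The discriminant of the power basis of a primitive integral element `z ∈ S` is
`det(P)² · discr(b)` for a matrix `P` with entries in `R0`. -/
theorem exists_det_sq_mul_discr [FiniteDimensional F0 F] (b : Basis ι R0 S) (z : S)
    (hprim : (minpoly F0 (algebraMap S F z)).natDegree = finrank F0 F) :
    ∃ (pb : PowerBasis F0 F) (d : R0), pb.gen = algebraMap S F z ∧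
      Algebra.discr F0 pb.basis = algebraMap R0 F0 (d ^ 2 * Algebra.discr R0 b) := by
  classical
  have hfin : Module.Finite R0 S := Module.Finite.of_basis b
  have hfree : Module.Free R0 S := Module.Free.of_basis b
  have halg : Algebra.IsAlgebraic R0 S :=
    have : Algebra.IsIntegral R0 S := Algebra.IsIntegral.of_finite R0 S
    inferInstance
  have hfaith : FaithfulSMul R0 S := inferInstance
  have hloc : IsLocalization (Algebra.algebraMapSubmonoid S R0⁰) F := inferInstance
  set ζ := algebraMap S F z with hζ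
  have hint : IsIntegral F0 ζ := IsIntegral.of_finite F0 ζ
  have htop : F0⟮ζ⟯ = ⊤ := (Field.primitive_element_iff_minpoly_natDegree_eq F0 ζ).mpr hprim
  have hadj : Algebra.adjoin F0 {ζ} = ⊤ := by
    rw [← IntermediateField.adjoin_simple_toSubalgebra_of_isAlgebraic hint.isAlgebraic, htop,
      IntermediateField.top_toSubalgebra]
  set pb : PowerBasis F0 F := PowerBasis.ofAdjoinEqTop hint hadj with hpb
  have hgen : pb.gen = ζ := rfl
  set bF : Basis ι F0 F := b.localizationLocalization F0 R0⁰ F with hbF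
  have hbFi : ∀ i, bF i = algebraMap S F (b i) := fun i =>
    Basis.localizationLocalization_apply F0 R0⁰ F b i
  -- index equivalence
  have hcard : Fintype.card (Fin pb.dim) = Fintype.card ι := by
    rw [Fintype.card_fin, ← finrank_eq_card_basis bF, pb.finrank]
  let e : Fin pb.dim ≃ ι := Fintype.equivOfCardEq hcard
  set P : Matrix ι ι R0 := fun i j => b.repr (z ^ ((e.symm i : Fin pb.dim) : ℕ)) j with hP
  refine ⟨pb, P.det, hgen, ?_⟩
  have hfam : (pb.basis ∘ ⇑e.symm) =
      ((P.map (algebraMap R0 F0)).map (algebraMap F0 F)) *ᵥ (bF : ι → F) := by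
    funext i
    simp only [Function.comp_apply, Matrix.mulVec, dotProduct, Matrix.map_apply]
    rw [PowerBasis.basis_eq_pow, hgen, hζ, ← map_pow]
    conv_lhs => rw [← b.sum_repr (z ^ ((e.symm i : Fin pb.dim) : ℕ)), map_sum]
    refine Finset.sum_congr rfl fun j _ => ?_
    rw [hbFi, hP, Algebra.smul_def, map_mul, ← IsScalarTower.algebraMap_apply R0 S F,
      IsScalarTower.algebraMap_apply R0 F0 F]
  rw [← Algebra.discr_reindex F0 pb.basis e, hfam, Algebra.discr_of_matrix_mulVec,
    hbF, Algebra.discr_localizationLocalization R0 R0⁰ F b, map_mul, map_pow, RingHom.map_det,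
    RingHom.mapMatrix_apply]

end Main

section Bound

variable {R0 S : Type*} [CommRing R0] [IsDomain R0] [CommRing S] [IsDomain S] [Algebra R0 S]
  {ι : Type*} [Fintype ι] [DecidableEq ι]
  (F0 F : Type*) [Field F0] [Field F] [Algebra R0 F0] [IsFractionRing R0 F0]
  [Algebra S F] [IsFractionRing S F] [Algebra F0 F] [Algebra R0 F] [IsScalarTower R0 F0 F]
  [IsScalarTower R0 S F]

/-- **(D1.3)/(D2.3), abstract: the exponent of the discriminant is bounded by the valuation of the
norm of the different of ONE primitive integral element.**  `b` a basis of `S` over `R0`,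
`discr R0 b = π ^ a * unit`, `V0 ⊇ R0` a valuation ring of `F0 = Frac R0` with `v(π) < 1`, `z ∈ S`
primitive for `F = Frac S` over `F0`, `G` its minimal polynomial: if
`v(π) ^ m ≤ v (N_{F/F0} G'(z))` then `a ≤ m`. -/
theorem le_of_norm_derivative [FiniteDimensional F0 F] [Algebra.IsSeparable F0 F]
    (b : Basis ι R0 S) (V0 : ValuationSubring F0) (hV0 : ∀ r : R0, algebraMap R0 F0 r ∈ V0)
    (π u : R0) (a : ℕ) (hu : IsUnit u) (hdisc : Algebra.discr R0 b = π ^ a * u)
    (hπ0 : π ≠ 0) (hπ1 : V0.valuation (algebraMap R0 F0 π) < 1)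
    (z : S) (hprim : (minpoly F0 (algebraMap S F z)).natDegree = finrank F0 F) (m : ℕ)
    (hN : V0.valuation (algebraMap R0 F0 π) ^ m ≤
      V0.valuation (Algebra.norm F0 (aeval (algebraMap S F z)
        (derivative (minpoly F0 (algebraMap S F z)))))) :
    a ≤ m := by
  classical
  obtain ⟨pb, d, hgen, hd⟩ := exists_det_sq_mul_discr F0 F b z hprim
  have hnorm := Algebra.discr_powerBasis_eq_norm F0 pb
  rw [hgen] at hnorm
  -- valuations
  have hv1 : V0.valuation ((-1 : F0) ^ (finrank F0 F * (finrank F0 F - 1) / 2)) = 1 := by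
    rw [map_pow, Valuation.map_neg, map_one, one_pow]
  have hvN : V0.valuation (Algebra.norm F0 (aeval (algebraMap S F z)
      (derivative (minpoly F0 (algebraMap S F z))))) =
      V0.valuation (algebraMap R0 F0 (d ^ 2 * Algebra.discr R0 b)) := by
    rw [← hd, hnorm, map_mul, hv1, one_mul]
  have hle1 : ∀ r : R0, V0.valuation (algebraMap R0 F0 r) ≤ 1 := fun r =>
    (ValuationSubring.valuation_le_one_iff V0 _).mpr (hV0 r)
  have hvu : V0.valuation (algebraMap R0 F0 u) = 1 := by
    obtain ⟨u', hu'⟩ := hu.exists_right_inv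
    have h1 : V0.valuation (algebraMap R0 F0 u) * V0.valuation (algebraMap R0 F0 u') = 1 := by
      rw [← map_mul, ← map_mul, hu', map_one, map_one]
    refine le_antisymm (hle1 u) ?_
    calc (1 : V0.ValueGroup) = V0.valuation (algebraMap R0 F0 u) *
          V0.valuation (algebraMap R0 F0 u') := h1.symm
      _ ≤ V0.valuation (algebraMap R0 F0 u) * 1 := mul_le_mul' le_rfl (hle1 u')
      _ = V0.valuation (algebraMap R0 F0 u) := mul_one _
  have hvN' : V0.valuation (Algebra.norm F0 (aeval (algebraMap S F z)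
      (derivative (minpoly F0 (algebraMap S F z))))) ≤ V0.valuation (algebraMap R0 F0 π) ^ a := by
    rw [hvN, hdisc]
    simp only [map_mul, map_pow]
    rw [hvu, mul_one]
    exact mul_le_of_le_one_left' (pow_le_one' (hle1 d) 2)
  have hπF : algebraMap R0 F0 π ≠ 0 := fun h =>
    hπ0 (IsFractionRing.injective R0 F0 (by rw [h, map_zero]))
  have hpos : 0 < V0.valuation (algebraMap R0 F0 π) :=
    zero_lt_iff.mpr ((Valuation.ne_zero_iff _).mpr hπF)
  by_contra hlt
  rw [not_le] at hlt
  have := pow_lt_pow_right_of_lt_one₀ hpos hπ1 hlt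
  exact absurd (hN.trans hvN') (not_le.mpr this)

end Bound

section Variants

variable {R0 S : Type*} [CommRing R0] [IsDomain R0] [CommRing S] [IsDomain S] [Algebra R0 S]
  {ι : Type*} [Fintype ι] [DecidableEq ι]
  (F0 F : Type*) [Field F0] [Field F] [Algebra R0 F0] [IsFractionRing R0 F0]
  [Algebra S F] [IsFractionRing S F] [Algebra F0 F] [Algebra R0 F] [IsScalarTower R0 F0 F]
  [IsScalarTower R0 S F]

/-- The equality form (helper2's literal (iii)). -/
theorem le_of_norm_derivative_eq [FiniteDimensional F0 F] [Algebra.IsSeparable F0 F]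
    (b : Basis ι R0 S) (V0 : ValuationSubring F0) (hV0 : ∀ r : R0, algebraMap R0 F0 r ∈ V0)
    (π u : R0) (a : ℕ) (hu : IsUnit u) (hdisc : Algebra.discr R0 b = π ^ a * u)
    (hπ0 : π ≠ 0) (hπ1 : V0.valuation (algebraMap R0 F0 π) < 1)
    (z : S) (hprim : (minpoly F0 (algebraMap S F z)).natDegree = finrank F0 F) (m : ℕ)
    (hN : V0.valuation (Algebra.norm F0 (aeval (algebraMap S F z)
        (derivative (minpoly F0 (algebraMap S F z))))) =
      V0.valuation (algebraMap R0 F0 π) ^ m) :
    a ≤ m :=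
  le_of_norm_derivative F0 F b V0 hV0 π u a hu hdisc hπ0 hπ1 z hprim m hN.ge

/-- The same with an explicit monic polynomial `G` of degree `[F : F0]` killing `z` (then `G` is
the minimal polynomial and `z` is primitive). -/
theorem le_of_norm_derivative_of_monic [FiniteDimensional F0 F] [Algebra.IsSeparable F0 F]
    (b : Basis ι R0 S) (V0 : ValuationSubring F0) (hV0 : ∀ r : R0, algebraMap R0 F0 r ∈ V0)
    (π u : R0) (a : ℕ) (hu : IsUnit u) (hdisc : Algebra.discr R0 b = π ^ a * u)
    (hπ0 : π ≠ 0) (hπ1 : V0.valuation (algebraMap R0 F0 π) < 1)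
    (z : S) (G : F0[X]) (hG : G.Monic) (hGz : aeval (algebraMap S F z) G = 0)
    (hdeg : G.natDegree = finrank F0 F)
    (hprim : (minpoly F0 (algebraMap S F z)).natDegree = finrank F0 F) (m : ℕ)
    (hN : V0.valuation (algebraMap R0 F0 π) ^ m ≤
      V0.valuation (Algebra.norm F0 (aeval (algebraMap S F z) (derivative G)))) :
    a ≤ m := by
  have hint : IsIntegral F0 (algebraMap S F z) := IsIntegral.of_finite F0 _
  have hmin : G = minpoly F0 (algebraMap S F z) :=
    Polynomial.eq_of_monic_of_dvd_of_natDegree_le (minpoly.monic hint) hG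
      (minpoly.dvd F0 _ hGz) (by rw [hdeg, hprim])
  rw [hmin] at hN
  exact le_of_norm_derivative F0 F b V0 hV0 π u a hu hdisc hπ0 hπ1 z hprim m hN

end Variants

section Scale

variable (F0 F : Type*) [Field F0] [Field F] [Algebra F0 F] [FiniteDimensional F0 F]

/-- the discriminant of `1, ζ, …, ζ^(n-1)` (`n = [F : F0]`, `ζ` primitive) is `± N (G'(ζ))`. -/
theorem discr_pow_eq_norm [Algebra.IsSeparable F0 F] (ζ : F)
    (hprim : (minpoly F0 ζ).natDegree = finrank F0 F) :
    Algebra.discr F0 (fun i : Fin (finrank F0 F) => ζ ^ (i : ℕ)) =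
      (-1) ^ (finrank F0 F * (finrank F0 F - 1) / 2) *
        Algebra.norm F0 (aeval ζ (derivative (minpoly F0 ζ))) := by
  classical
  have hint : IsIntegral F0 ζ := IsIntegral.of_finite F0 ζ
  have htop : F0⟮ζ⟯ = ⊤ := (Field.primitive_element_iff_minpoly_natDegree_eq F0 ζ).mpr hprim
  have hadj : Algebra.adjoin F0 {ζ} = ⊤ := by
    rw [← IntermediateField.adjoin_simple_toSubalgebra_of_isAlgebraic hint.isAlgebraic, htop,
      IntermediateField.top_toSubalgebra]
  set pb : PowerBasis F0 F := PowerBasis.ofAdjoinEqTop hint hadj with hpb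
  have hgen : pb.gen = ζ := rfl
  have hdim : pb.dim = finrank F0 F := hprim
  have hnorm := Algebra.discr_powerBasis_eq_norm F0 pb
  rw [hgen] at hnorm
  rw [← hnorm, ← Algebra.discr_reindex F0 pb.basis (finCongr hdim)]
  congr 1
  funext i
  simp only [Function.comp_apply, PowerBasis.basis_eq_pow, hgen]
  rfl

/-- scaling the generator by `g ∈ F0` multiplies the discriminant of the powers by
`g ^ (n (n - 1))`. -/
theorem discr_pow_smul (ζ : F) (g : F0) (n : ℕ) :
    Algebra.discr F0 (fun i : Fin n => (algebraMap F0 F g * ζ) ^ (i : ℕ)) =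
      g ^ (n * (n - 1)) * Algebra.discr F0 (fun i : Fin n => ζ ^ (i : ℕ)) := by
  classical
  have hfam : (fun i : Fin n => (algebraMap F0 F g * ζ) ^ (i : ℕ)) =
      ((Matrix.diagonal fun i : Fin n => g ^ (i : ℕ)).map (algebraMap F0 F)) *ᵥ
        (fun i : Fin n => ζ ^ (i : ℕ)) := by
    funext i
    rw [Matrix.mulVec, dotProduct, Finset.sum_eq_single i]
    · rw [Matrix.map_apply, Matrix.diagonal_apply_eq, mul_pow, map_pow]
    · intro j _ hji
      rw [Matrix.map_apply, Matrix.diagonal_apply_ne _ hji.symm, map_zero, zero_mul]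
    · intro h; exact absurd (Finset.mem_univ i) h
  rw [hfam, Algebra.discr_of_matrix_mulVec, Matrix.det_diagonal, Finset.prod_pow_eq_pow_sum,
    ← pow_mul]
  congr 2
  rw [Fin.sum_univ_eq_sum_range (fun i => i) n, Finset.sum_range_id_mul_two]

/-- `g ζ` is primitive if `ζ` is (`g ≠ 0`). -/
theorem natDegree_minpoly_smul (ζ : F) {g : F0} (hg : g ≠ 0)
    (hprim : (minpoly F0 ζ).natDegree = finrank F0 F) :
    (minpoly F0 (algebraMap F0 F g * ζ)).natDegree = finrank F0 F := by
  rw [← Field.primitive_element_iff_minpoly_natDegree_eq] at hprim ⊢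
  rw [eq_top_iff, ← hprim, IntermediateField.adjoin_simple_le_iff]
  have h1 : algebraMap F0 F g * ζ ∈ F0⟮algebraMap F0 F g * ζ⟯ :=
    IntermediateField.mem_adjoin_simple_self F0 _
  have h2 : ζ = algebraMap F0 F g⁻¹ * (algebraMap F0 F g * ζ) := by
    rw [← mul_assoc, ← map_mul, inv_mul_cancel₀ hg, map_one, one_mul]
  have h3 : algebraMap F0 F g⁻¹ * (algebraMap F0 F g * ζ) ∈ F0⟮algebraMap F0 F g * ζ⟯ :=
    mul_mem (IntermediateField.algebraMap_mem _ _) h1
  rw [← h2] at h3
  exact h3

/-- **Scaled generator**: `N (G_{gζ}'(gζ)) = g ^ (n (n - 1)) · N (G_ζ'(ζ))`. -/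
theorem norm_derivative_smul [Algebra.IsSeparable F0 F] (ζ : F) {g : F0} (hg : g ≠ 0)
    (hprim : (minpoly F0 ζ).natDegree = finrank F0 F) :
    Algebra.norm F0 (aeval (algebraMap F0 F g * ζ)
        (derivative (minpoly F0 (algebraMap F0 F g * ζ)))) =
      g ^ (finrank F0 F * (finrank F0 F - 1)) *
        Algebra.norm F0 (aeval ζ (derivative (minpoly F0 ζ))) := by
  have h1 := discr_pow_eq_norm F0 F ζ hprim
  have h2 := discr_pow_eq_norm F0 F (algebraMap F0 F g * ζ) (natDegree_minpoly_smul F0 F ζ hg hprim)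
  rw [discr_pow_smul, h1] at h2
  have hu : IsUnit ((-1 : F0) ^ (finrank F0 F * (finrank F0 F - 1) / 2)) :=
    (isUnit_one.neg).pow _
  apply hu.mul_left_cancel
  rw [← h2]; ring

end Scale

section ScaledBound

variable {R0 S : Type*} [CommRing R0] [IsDomain R0] [CommRing S] [IsDomain S] [Algebra R0 S]
  {ι : Type*} [Fintype ι] [DecidableEq ι]
  (F0 F : Type*) [Field F0] [Field F] [Algebra R0 F0] [IsFractionRing R0 F0]
  [Algebra S F] [IsFractionRing S F] [Algebra F0 F] [Algebra R0 F] [IsScalarTower R0 F0 F]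
  [IsScalarTower R0 S F]

/-- **The bound with a scaled generator** (cusp points): `ζ ∈ F` primitive but possibly not
integral, `g ∈ F0` with `v(g) = 1` and `g ζ ∈ S`: still `v(π) ^ m ≤ v (N G_ζ'(ζ)) ⟹ a ≤ m`. -/
theorem le_of_norm_derivative_scaled [FiniteDimensional F0 F] [Algebra.IsSeparable F0 F]
    (b : Basis ι R0 S) (V0 : ValuationSubring F0) (hV0 : ∀ r : R0, algebraMap R0 F0 r ∈ V0)
    (π u : R0) (a : ℕ) (hu : IsUnit u) (hdisc : Algebra.discr R0 b = π ^ a * u)
    (hπ0 : π ≠ 0) (hπ1 : V0.valuation (algebraMap R0 F0 π) < 1)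
    (ζ : F) (hprim : (minpoly F0 ζ).natDegree = finrank F0 F)
    (g : F0) (hg : V0.valuation g = 1) (z : S) (hz : algebraMap S F z = algebraMap F0 F g * ζ)
    (m : ℕ)
    (hN : V0.valuation (algebraMap R0 F0 π) ^ m ≤
      V0.valuation (Algebra.norm F0 (aeval ζ (derivative (minpoly F0 ζ))))) :
    a ≤ m := by
  have hg0 : g ≠ 0 := fun h => by rw [h, map_zero] at hg; exact zero_ne_one hg
  refine le_of_norm_derivative F0 F b V0 hV0 π u a hu hdisc hπ0 hπ1 z ?_ m ?_
  · rw [hz]; exact natDegree_minpoly_smul F0 F ζ hg0 hprim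
  · rw [hz, norm_derivative_smul F0 F ζ hg0 hprim, map_mul, map_pow, hg, one_pow, one_mul]
    exact hN

end ScaledBound

end Fermat.Agent.ES.P36.DiscBound5
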