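/-
Program P (S36), TOP-P (S36_NOTE1, bricks A1 + A2), helper12: **S36 from ONE contract**
(`EigenLatticeInert`), twin of `EigenNew8` (Program O).

`EigenLatticeInert` = the contract `S30Skeleton8.EigenLattice` of Program J (a nonzero finite free
`𝒪'`-lattice `Λ` with an adically continuous `G_ℚ`-action `ρ`, unramified outside `Np`, satisfying
the Eichler–Shimura relation at the Frobenius lifts of the good primes) with ONE more clause:
for every prime `q` with `q² ∥ N`, `q ≠ p`, there are a valuation subring `A` of `ℚbar` over `q`, an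
element `τ` of its inertia group and a vector `v ∈ Λ` with `(ρ τ - 1)² v ≠ 0`.

* `sq_sub_one_eq_zero` : pure algebra. `P P' = 1` and `P + P' = 2` ⇒ `(P - 1)² = 0`.
* `exists_rep_of_eigenLatticeInert` : the rank-two `ρ'` of `S30Skeleton8.exists_rep_of_eigenLattice`
  is, in addition, NOT unipotent on inertia at the primes `q² ∥ N`, `q ≠ p` (if
  `charpoly ρ'(τ) = (X - 1)²` then the trace function has `a τ = 2`, and `d τ = 1` on inertia, so the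
  universal relation `ρ τ + d τ • ρ τ⁻¹ = a τ` on `Λ` gives `(ρ τ - 1)² = 0`).
* `s36_of_eigenLatticeInert` : the literal frozen conclusion of S36 (with `O'' := O'`) from the
  contract for `χ := iota ∘ chig.rangeRestrict`.
-/
import Mathlib
import Fermat.Prelude.Def_CuspForm_HeckeGaloisRepDatum
import Fermat.Prelude.Def_CuspForm_Newforms
import Fermat.Prelude.Def_GaloisRep_LocalConditions
import Fermat.Agent.ES.J.S30Skeleton8

set_option autoImplicit false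

open Polynomial

noncomputable section

namespace Fermat.Agent.ES.P36.EigenInert12

open Fermat.Agent.ES.ALG.RelDense9 Fermat.Agent.ES.ALG.RankTwo9 Fermat.Agent.ES.J.CycloChar8
  Fermat.Agent.ES.J.S30Skeleton8

local notation "Qb" => AlgebraicClosure ℚ
local notation "GQ" => (AlgebraicClosure ℚ ≃ₐ[ℚ] AlgebraicClosure ℚ)

/-! ### The algebra -/

section Algebra

variable {𝒪 Λ : Type*} [CommRing 𝒪] [AddCommGroup Λ] [Module 𝒪 Λ]

/-- `P P' = 1`, `P + P' = 2` ⇒ `(P - 1)² = 0`. -/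
theorem sq_sub_one_eq_zero (P P' : Module.End 𝒪 Λ) (hPP' : P * P' = 1)
    (hrel : P + P' = (2 : 𝒪) • (1 : Module.End 𝒪 Λ)) : (P - 1) * (P - 1) = 0 := by
  have h1 : P * (P + P') = P * ((2 : 𝒪) • (1 : Module.End 𝒪 Λ)) := by rw [hrel]
  rw [mul_add, hPP', mul_smul_comm, mul_one] at h1
  have h2 : (P - 1) * (P - 1) = P * P + 1 - (2 : 𝒪) • P := by
    rw [sub_mul, mul_sub, mul_one, one_mul, two_smul]
    abel
  rw [h2, h1, sub_self]

/-- comparison of `X² - aX + d` with `(X - 1)²`. -/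
theorem coeff_of_eq_sq (a d : 𝒪) (h : (X ^ 2 - C a * X + C d : 𝒪[X]) = (X - 1) ^ 2) :
    a = 2 ∧ d = 1 := by
  have e : ((X - 1) ^ 2 : 𝒪[X]) = X ^ 2 - C 2 * X + C 1 := by
    rw [C_1, C_ofNat]; ring
  rw [e] at h
  have h0 := congrArg (fun f : 𝒪[X] => f.coeff 0) h
  have h1 := congrArg (fun f : 𝒪[X] => f.coeff 1) h
  simp only [coeff_add, coeff_sub, coeff_X_pow, coeff_C_mul, coeff_X_zero, coeff_X_one,
    coeff_C_zero, coeff_C_succ, mul_zero, mul_one] at h0 h1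
  norm_num at h0 h1
  exact ⟨h1, h0⟩

end Algebra

/-! ### The contract -/

/-- **The contract of TOP-P**: an eigen-lattice for `χ` (as in Program J) on which, at every prime
`q` with `q² ∥ N`, `q ≠ p`, some inertia element `τ` at `q` has `(ρ τ - 1)² ≠ 0`. -/
def EigenLatticeInert (p : ℕ) (N : ℕ) [NeZero N] (S : Finset ℕ)
    (𝒪' : Type) [CommRing 𝒪'] [IsLocalRing 𝒪']
    (χ : CuspForm.heckeAlgebra N 2 (↑S : Set ℕ) →+* 𝒪') : Prop :=
  ∃ (Λ : Type) (_ : AddCommGroup Λ) (_ : Module 𝒪' Λ) (_ : Module.Free 𝒪' Λ)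
    (_ : Module.Finite 𝒪' Λ) (_ : Nontrivial Λ) (ρ : GQ →* Module.End 𝒪' Λ),
    (∀ n : ℕ, ∃ L : IntermediateField ℚ Qb, FiniteDimensional ℚ L ∧
      ∀ σ : GQ, (∀ x ∈ L, σ x = x) → EndCongr (IsLocalRing.maximalIdeal 𝒪' ^ n) (ρ σ) 1) ∧
    (∀ q : ℕ, q.Prime → ¬ q ∣ N → q ≠ p → ∀ A : ValuationSubring Qb, A.LiesOverPrime q →
      ∀ τ ∈ A.inertiaSubgroupIn ℚ, ρ τ = 1) ∧
    (∀ (ℓ : ℕ) (hℓ : ℓ.Prime) (hℓN : ¬ ℓ ∣ N) (hℓS : ℓ ∉ (↑S : Set ℕ)),
      ∀ A : ValuationSubring Qb, A.LiesOverPrime ℓ → ∀ σ : GQ, A.IsFrobeniusAt σ ℓ →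
        ρ σ * ρ σ - χ (CuspForm.heckeAlgebra.T hℓ hℓN hℓS) • ρ σ +
          (ℓ : 𝒪') • (1 : Module.End 𝒪' Λ) = 0) ∧
    (∀ q : ℕ, q.Prime → q ≠ p → N.factorization q = 2 →
      ∃ A : ValuationSubring Qb, A.LiesOverPrime q ∧ ∃ τ ∈ A.inertiaSubgroupIn ℚ,
        ∃ v : Λ, (ρ τ - 1) ((ρ τ - 1) v) ≠ 0)

/-- the new contract contains the old one. -/
theorem EigenLatticeInert.toEigenLattice {p : ℕ} {N : ℕ} [NeZero N] {S : Finset ℕ}
    {𝒪' : Type} [CommRing 𝒪'] [IsLocalRing 𝒪']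
    {χ : CuspForm.heckeAlgebra N 2 (↑S : Set ℕ) →+* 𝒪'} (h : EigenLatticeInert p N S 𝒪' χ) :
    EigenLattice p N S 𝒪' χ := by
  obtain ⟨Λ, i1, i2, i3, i4, i5, ρ, h1, h2, h3, _⟩ := h
  exact ⟨Λ, i1, i2, i3, i4, i5, ρ, h1, h2, h3⟩

section Core

variable {p : ℕ} [Fact p.Prime] {N : ℕ} [NeZero N] {S : Finset ℕ}
  {𝒪' : Type} [CommRing 𝒪'] [IsDomain 𝒪'] [IsDiscreteValuationRing 𝒪']
  [IsAdicComplete (IsLocalRing.maximalIdeal 𝒪') 𝒪'] [CharZero 𝒪']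

/-- **The core of S36**: the rank-two representation of Program J is not unipotent on inertia at
the primes `q² ∥ N`, `q ≠ p`. -/
theorem exists_rep_of_eigenLatticeInert (hpS : p ∈ S) (hNS : ∀ q : ℕ, q.Prime → q ∣ N → q ∈ S)
    (hp𝒪' : (p : 𝒪') ∈ IsLocalRing.maximalIdeal 𝒪')
    (χ : CuspForm.heckeAlgebra N 2 (↑S : Set ℕ) →+* 𝒪') (h : EigenLatticeInert p N S 𝒪' χ) :
    ∃ ρ : GaloisRepAdic 𝒪',
      (∀ (ℓ : ℕ) (hℓ : ℓ.Prime) (hℓN : ¬ ℓ ∣ N) (hℓS : ℓ ∉ (↑S : Set ℕ)),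
        ∀ A : ValuationSubring Qb, A.LiesOverPrime ℓ → ∀ σ : GQ, A.IsFrobeniusAt σ ℓ →
          LinearMap.charpoly (ρ.ρ σ) =
            X ^ 2 - C (χ (CuspForm.heckeAlgebra.T hℓ hℓN hℓS)) * X + C ((ℓ : 𝒪'))) ∧
      (∀ q : ℕ, q.Prime → ¬ q ∣ N → q ≠ p → ρ.IsUnramifiedAt q) ∧
      (∀ q : ℕ, q.Prime → q ≠ p → N.factorization q = 2 → ¬ ρ.IsUnipotentOnInertiaAt q) := by
  classical
  obtain ⟨Λ, _, _, _, _, _, ρ, hcont, hunr, hes, hinert⟩ := h
  have hpprime : p.Prime := Fact.out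
  set 𝔪 := IsLocalRing.maximalIdeal 𝒪' with h𝔪
  set d : GQ →* 𝒪'ˣ := cycloO p hp𝒪' with hd
  -- the set of Frobenius lifts at the good primes
  let Φ : Set GQ := {σ | ∃ (ℓ : ℕ) (hℓ : ℓ.Prime) (hℓN : ¬ ℓ ∣ N) (hℓS : ℓ ∉ (↑S : Set ℕ))
    (A : ValuationSubring Qb), A.LiesOverPrime ℓ ∧ A.IsFrobeniusAt σ ℓ}
  let aΦ : GQ → 𝒪' := fun σ => if hσ : σ ∈ Φ then
    χ (CuspForm.heckeAlgebra.T hσ.choose_spec.choose hσ.choose_spec.choose_spec.choose
      hσ.choose_spec.choose_spec.choose_spec.choose) else 0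
  have hne_p : ∀ ℓ : ℕ, ℓ ∉ (↑S : Set ℕ) → ℓ ≠ p := fun ℓ hℓS h => hℓS (h ▸ hpS)
  have hΦ : ∀ σ ∈ Φ, ρ σ * ρ σ - aΦ σ • ρ σ + ((d σ : 𝒪'ˣ) : 𝒪') • (1 : Module.End 𝒪' Λ) = 0 := by
    intro σ hσ
    have hσ' := hσ
    obtain ⟨A, hA, hFr⟩ := hσ.choose_spec.choose_spec.choose_spec.choose_spec
    have e1 : aΦ σ = χ (CuspForm.heckeAlgebra.T hσ.choose_spec.choose
        hσ.choose_spec.choose_spec.choose hσ.choose_spec.choose_spec.choose_spec.choose) :=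
      dif_pos hσ'
    rw [e1, hd, cycloO_of_isFrobeniusAt p hp𝒪' hσ.choose_spec.choose
      (hne_p _ hσ.choose_spec.choose_spec.choose_spec.choose) A hA hFr]
    exact hes _ _ _ _ A hA σ hFr
  have hdense : ∀ (n : ℕ) (g : GQ), ∃ σ ∈ Φ, ∃ j : ℕ, EndCongr (𝔪 ^ n) (ρ g) (ρ σ ^ j) ∧
      ((d g : 𝒪'ˣ) : 𝒪') - ((d σ : 𝒪'ˣ) : 𝒪') ^ j ∈ 𝔪 ^ n := by
    intro n g
    obtain ⟨L₁, hL₁, h1⟩ := hcont n
    obtain ⟨L₂, hL₂, h2⟩ := cycloO_sub_one_mem p hp𝒪' n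
    have := hL₁
    have := hL₂
    obtain ⟨ℓ, A, φ, j, hℓ, hℓS, hA, hφ, hj⟩ :=
      Fermat.Agent.ES.GAL.ChebQbar23.exists_frobenius_pow_eq_on (L₁ ⊔ L₂) g S
    have hℓS' : ℓ ∉ (↑S : Set ℕ) := by simpa using hℓS
    have hℓN : ¬ ℓ ∣ N := fun hdvd => hℓS (hNS ℓ hℓ hdvd)
    refine ⟨φ, ⟨ℓ, hℓ, hℓN, hℓS', A, hA, hφ⟩, j, ?_, ?_⟩
    all_goals
      set τ : GQ := g⁻¹ * φ ^ j with hτ
      have hτfix : ∀ x ∈ L₁ ⊔ L₂, τ x = x := by
        intro x hx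
        rw [hτ, AlgEquiv.mul_apply, hj x hx]
        exact g.symm_apply_apply x
      have hφj : φ ^ j = g * τ := by rw [hτ, mul_inv_cancel_left]
    · have hc := h1 τ (fun x hx => hτfix x (le_sup_left (a := L₁) (b := L₂) hx))
      have e : ρ φ ^ j = ρ g * ρ τ := by rw [← map_pow, hφj, map_mul]
      rw [e]
      have := (hc.mul_left (ρ g)).symm
      rwa [mul_one] at this
    · have hc := h2 τ (fun x hx => hτfix x (le_sup_right (a := L₁) (b := L₂) hx))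
      have e : ((d φ : 𝒪'ˣ) : 𝒪') ^ j = ((d g : 𝒪'ˣ) : 𝒪') * ((d τ : 𝒪'ˣ) : 𝒪') := by
        rw [← Units.val_pow_eq_pow_val, ← map_pow, hφj, map_mul, Units.val_mul]
      rw [e]
      have e2 : ((d g : 𝒪'ˣ) : 𝒪') - ((d g : 𝒪'ˣ) : 𝒪') * ((d τ : 𝒪'ˣ) : 𝒪') =
          -(((d g : 𝒪'ˣ) : 𝒪') * (((d τ : 𝒪'ˣ) : 𝒪') - 1)) := by ring
      rw [e2]
      exact neg_mem (Ideal.mul_mem_left _ _ hc)
  obtain ⟨a, ha, haΦ⟩ := exists_trace_fun_of_dense ρ d (fun n => 𝔪 ^ n)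
    eq_zero_of_forall_mem_pow Φ aΦ hΦ hdense
  have h2 : (2 : 𝒪') ≠ 0 := two_ne_zero
  obtain ⟨Λ', _, _, _, _, ρ', hrk, hchar, hcongr⟩ :=
    exists_rankTwo (c := complexConjugation) h2 ha complexConjugation_mul_self
      (cycloO_complexConjugation p hp𝒪')
  -- adic continuity
  have hcont' : GaloisActionIsAdicContinuous 𝒪' ρ' := by
    intro n
    obtain ⟨L₁, hL₁, h1⟩ := hcont n
    obtain ⟨L₂, hL₂, h2⟩ := cycloO_sub_one_mem p hp𝒪' n
    have := hL₁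
    have := hL₂
    refine ⟨L₁ ⊔ L₂, inferInstance, fun σ hσ v => ?_⟩
    exact hcongr (𝔪 ^ n) σ (h1 σ fun x hx => hσ x (le_sup_left (a := L₁) (b := L₂) hx))
      (h2 σ fun x hx => hσ x (le_sup_right (a := L₁) (b := L₂) hx)) v
  refine ⟨{ V := Λ', finrank_eq := hrk, ρ := ρ', isAdicContinuous := hcont' }, ?_, ?_, ?_⟩
  · -- characteristic polynomials at Frobenius lifts
    intro ℓ hℓ hℓN hℓS A hA σ hσ
    change (ρ' σ).charpoly = _
    rw [hchar σ]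
    have hdσ : ((d σ : 𝒪'ˣ) : 𝒪') = (ℓ : 𝒪') :=
      cycloO_of_isFrobeniusAt p hp𝒪' hℓ (hne_p ℓ hℓS) A hA hσ
    have haσ : a σ = χ (CuspForm.heckeAlgebra.T hℓ hℓN hℓS) := by
      have e1 := rel_of_quadratic (rho_mul_inv ρ σ) (δ := (ℓ : 𝒪'))
        (a := χ (CuspForm.heckeAlgebra.T hℓ hℓN hℓS)) (hes ℓ hℓ hℓN hℓS A hA σ hσ)
      have e2 := ha σ
      rw [hdσ, e1] at e2
      have hpos : 0 < Module.finrank 𝒪' Λ := Module.finrank_pos
      exact (smul_one_injective_of_finrank_pos hpos e2).symm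
    rw [haσ, hdσ]
  · -- unramified outside `Np`
    intro q hq hqN hqp P hP τ hτ
    have h1 : EndCongr (⊥ : Ideal 𝒪') (ρ τ) 1 := by
      rw [hunr q hq hqN hqp P hP τ hτ]
      exact EndCongr.refl _ _
    have h2 : ((d τ : 𝒪'ˣ) : 𝒪') - 1 ∈ (⊥ : Ideal 𝒪') := by
      rw [hd, cycloO_of_mem_inertia p hp𝒪' hq hqp P hP hτ, Units.val_one, sub_self]
      exact Ideal.zero_mem _
    have h3 := hcongr ⊥ τ h1 h2
    change ρ' τ = 1
    apply LinearMap.ext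
    intro v
    have := h3 v
    rw [Submodule.bot_smul, Submodule.mem_bot, sub_eq_zero] at this
    exact this
  · -- the `q`-clause: not unipotent on inertia
    intro q hq hqp hq2 hunip
    obtain ⟨A, hA, τ, hτ, v, hv⟩ := hinert q hq hqp hq2
    have hc : (ρ' τ).charpoly = (X - 1) ^ 2 := hunip A hA τ hτ
    rw [hchar τ] at hc
    obtain ⟨haτ, hdτ⟩ := coeff_of_eq_sq _ _ hc
    have hrel := ha τ
    rw [haτ, hdτ, one_smul] at hrel
    have hz := sq_sub_one_eq_zero (ρ τ) (ρ τ⁻¹) (rho_mul_inv ρ τ) hrel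
    apply hv
    have := congrArg (fun F : Module.End 𝒪' Λ => F v) hz
    simpa only [Module.End.mul_apply, LinearMap.zero_apply] using this

end Core

/-- **S36 from the contract**, in the literal frozen shape (`O'' := O'`); the hypotheses `hlam2`,
`hres` of the frozen statement are not needed. -/
theorem s36_of_eigenLatticeInert
    {M : ℕ} [NeZero M] {g : CuspForm (CongruenceSubgroup.Gamma0 M) 2} (_hg : g.IsNewform)
    (lam : ℕ) [Fact lam.Prime]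
    (S : Finset ℕ)
    (O' : Type) [CommRing O'] [IsDomain O'] [IsDiscreteValuationRing O']
    [IsAdicComplete (IsLocalRing.maximalIdeal O') O'] [Finite (IsLocalRing.ResidueField O')]
    [CharZero O'] (hlamO' : (lam : O') ∈ IsLocalRing.maximalIdeal O')
    (chig : CuspForm.heckeAlgebra M 2 (↑S : Set ℕ) →+* ℂ)
    (iota : chig.range →+* O')
    (hlamS : lam ∈ S) (hMS : ∀ q : ℕ, q.Prime → q ∣ M → q ∈ S)
    (H : EigenLatticeInert lam M S O' (iota.comp chig.rangeRestrict)) :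
    ∃ (O'' : Type) (_ : CommRing O'') (_ : IsDomain O'') (_ : IsDiscreteValuationRing O'')
      (_ : IsAdicComplete (IsLocalRing.maximalIdeal O'') O'') (_ : Finite (IsLocalRing.ResidueField O''))
      (_ : CharZero O'') (_ : Algebra O' O'') (_ : Module.Finite O' O'') (_ : IsLocalHom (algebraMap O' O'')),
      Function.Injective (algebraMap O' O'') ∧
      ∃ ρ : GaloisRepAdic O'',
        (∀ (ℓ : ℕ) (hℓ : ℓ.Prime) (hℓM : ¬ ℓ ∣ M) (hℓS : ℓ ∉ (↑S : Set ℕ)),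
          ∀ A : ValuationSubring (AlgebraicClosure ℚ), A.LiesOverPrime ℓ →
            ∀ σ : AlgebraicClosure ℚ ≃ₐ[ℚ] AlgebraicClosure ℚ, A.IsFrobeniusAt σ ℓ →
              LinearMap.charpoly (ρ.ρ σ) =
                X ^ 2 - C (algebraMap O' O'' ((iota.comp chig.rangeRestrict) (CuspForm.heckeAlgebra.T hℓ hℓM hℓS))) * X
                  + C ((ℓ : O''))) ∧
        (∀ q : ℕ, q.Prime → q ≠ lam → M.factorization q = 2 → ¬ ρ.IsUnipotentOnInertiaAt q) := by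
  obtain ⟨ρ, h1, _, h3⟩ :=
    exists_rep_of_eigenLatticeInert hlamS hMS hlamO' (iota.comp chig.rangeRestrict) H
  exact ⟨O', inferInstance, inferInstance, inferInstance, inferInstance, inferInstance,
    inferInstance, Algebra.id O', Module.Finite.self O', ⟨fun _ h => h⟩, Function.injective_id,
    ρ, h1, h3⟩

end Fermat.Agent.ES.P36.EigenInert12
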