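/-
Program P (S36), TOP-P (S36_NOTE1, brick A4, the `𝒪'`-basis bookkeeping), helper12: **fixed vectors
under a torsion-free base change.**

`R` a principal ideal domain, `𝒪` a torsion-free `R`-algebra, `T` a finite free `R`-module, `H` a set of
`R`-endomorphisms of `T`, and `u` an `R`-endomorphism of `T` commuting with `H` such that the only
`H`-fixed vector in the image of `u` is `0`.  Then `u ⊗ 1` kills every `H`-fixed vector of `𝒪 ⊗_R T`.

* `eq_zero_of_sum_tmul_eq_zero` : `Σ ω_k ⊗ y_k = 0` with `(ω_k)` linearly independent over `R` and `T`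
  free ⇒ all `y_k = 0`;
* `exists_linearIndependent_sum_tmul` : every element of `𝒪 ⊗_R T` is `Σ ω_k ⊗ x_k` with `(ω_k)` linearly
  independent over `R` (the `R`-span of the coordinates of `w` is finitely generated and torsion-free,
  hence free);
* `baseChange_apply_eq_zero_of_fixed` : the statement above.
-/
import Mathlib

set_option autoImplicit false

open TensorProduct

noncomputable section

namespace Fermat.Agent.ES.P36.FixedBC12

variable {R : Type*} [CommRing R] {𝒪 : Type*} [CommRing 𝒪] [Algebra R 𝒪]
variable {T : Type*} [AddCommGroup T] [Module R T] [Module.Free R T]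

/-- `Σ ω_k ⊗ y_k = 0`, `(ω_k)` linearly independent, `T` free ⇒ all `y_k = 0`. -/
theorem eq_zero_of_sum_tmul_eq_zero {ι : Type*} [Fintype ι] (ω : ι → 𝒪)
    (hω : LinearIndependent R ω) (y : ι → T) (h : ∑ k, ω k ⊗ₜ[R] y k = 0) (k : ι) : y k = 0 := by
  classical
  let b := Module.Free.chooseBasis R T
  apply b.repr.injective
  ext j
  have h1 := congrArg (fun z => TensorProduct.equivFinsuppOfBasisRight b z j) h
  simp only [map_sum, Finsupp.coe_finsetSum, Finset.sum_apply,
    TensorProduct.equivFinsuppOfBasisRight_apply_tmul_apply, map_zero, Finsupp.coe_zero,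
    Pi.zero_apply] at h1
  have := Fintype.linearIndependent_iff.mp hω (fun k => b.repr (y k) j) h1 k
  simpa using this

/-- every element of `𝒪 ⊗_R T` is `Σ ω_k ⊗ x_k` with `(ω_k)` linearly independent over `R`. -/
theorem exists_linearIndependent_sum_tmul [IsDomain R] [IsPrincipalIdealRing R]
    [Module.IsTorsionFree R 𝒪] [Module.Finite R T] (w : 𝒪 ⊗[R] T) :
    ∃ (r : ℕ) (ω : Fin r → 𝒪) (x : Fin r → T),
      LinearIndependent R ω ∧ w = ∑ k, ω k ⊗ₜ[R] x k := by
  classical
  let b := Module.Free.chooseBasis R T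
  -- coordinates of `w`
  let c : Module.Free.ChooseBasisIndex R T → 𝒪 :=
    fun j => TensorProduct.equivFinsuppOfBasisRight b w j
  have hw : w = ∑ j, c j ⊗ₜ[R] b j := by
    apply (TensorProduct.equivFinsuppOfBasisRight b).injective
    ext j
    simp only [map_sum, Finsupp.coe_finsetSum, Finset.sum_apply,
      TensorProduct.equivFinsuppOfBasisRight_apply_tmul_apply, Module.Basis.repr_self,
      Finsupp.single_apply, ite_smul, one_smul, zero_smul, Finset.sum_ite_eq', Finset.mem_univ,
      if_true]
    rfl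
  -- the span of the coordinates
  let B : Submodule R 𝒪 := Submodule.span R (Set.range c)
  have : Module.Finite R B := Module.Finite.span_of_finite R (Set.finite_range c)
  have : Module.IsTorsionFree R B :=
    Function.Injective.moduleIsTorsionFree (B.subtype) Subtype.val_injective (fun _ _ => rfl)
  have : Module.Free R B := Module.free_of_finite_type_torsion_free'
  let β := Module.finBasis R B
  have hcB : ∀ j, c j ∈ B := fun j => Submodule.subset_span ⟨j, rfl⟩
  refine ⟨Module.finrank R B, fun k => (β k : 𝒪),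
    fun k => ∑ j, β.repr ⟨c j, hcB j⟩ k • b j, ?_, ?_⟩
  · exact β.linearIndependent.map' B.subtype (Submodule.ker_subtype B)
  · rw [hw]
    have hc : ∀ j, c j = ∑ k, β.repr ⟨c j, hcB j⟩ k • (β k : 𝒪) := by
      intro j
      have := congrArg (B.subtype) (β.sum_repr ⟨c j, hcB j⟩)
      simp only [map_sum, map_smul, Submodule.subtype_apply] at this
      exact this.symm
    calc ∑ j, c j ⊗ₜ[R] b j
        = ∑ j, ∑ k, (β.repr ⟨c j, hcB j⟩ k • (β k : 𝒪)) ⊗ₜ[R] b j := by
          refine Finset.sum_congr rfl fun j _ => ?_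
          conv_lhs => rw [hc j]
          rw [TensorProduct.sum_tmul]
      _ = ∑ k, ∑ j, (β k : 𝒪) ⊗ₜ[R] (β.repr ⟨c j, hcB j⟩ k • b j) := by
          rw [Finset.sum_comm]
          refine Finset.sum_congr rfl fun k _ => Finset.sum_congr rfl fun j _ => ?_
          rw [TensorProduct.smul_tmul]
      _ = ∑ k, (β k : 𝒪) ⊗ₜ[R] ∑ j, β.repr ⟨c j, hcB j⟩ k • b j := by
          refine Finset.sum_congr rfl fun k _ => ?_
          rw [TensorProduct.tmul_sum]

/-- **fixed vectors under a torsion-free base change**: if `u` commutes with the endomorphisms in `H`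
and `0` is the only `H`-fixed vector in the image of `u`, then `u ⊗ 1` kills every `H`-fixed vector of
`𝒪 ⊗_R T`. -/
theorem baseChange_apply_eq_zero_of_fixed [IsDomain R] [IsPrincipalIdealRing R]
    [Module.IsTorsionFree R 𝒪] [Module.Finite R T] (H : Set (Module.End R T)) (u : Module.End R T)
    (hcomm : ∀ h ∈ H, Commute u h)
    (hkill : ∀ x : T, (∀ h ∈ H, h (u x) = u x) → u x = 0)
    (w : 𝒪 ⊗[R] T) (hw : ∀ h ∈ H, h.baseChange 𝒪 w = w) : u.baseChange 𝒪 w = 0 := by
  classical
  -- `u` kills the fixed vectors of `T`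
  have hfix : ∀ x : T, (∀ h ∈ H, h x = x) → u x = 0 := by
    intro x hx
    apply hkill
    intro h hh
    have := congrArg (fun F : Module.End R T => F x) (hcomm h hh).eq
    simp only [Module.End.mul_apply] at this
    rw [← this, hx h hh]
  obtain ⟨r, ω, x, hω, rfl⟩ := exists_linearIndependent_sum_tmul (R := R) w
  have hx : ∀ k, ∀ h ∈ H, h (x k) = x k := by
    intro k h hh
    have h1 := hw h hh
    rw [map_sum] at h1
    simp only [LinearMap.baseChange_tmul] at h1
    have h2 : ∑ k, ω k ⊗ₜ[R] (h (x k) - x k) = 0 := by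
      simp only [TensorProduct.tmul_sub, Finset.sum_sub_distrib]
      rw [h1, sub_self]
    exact sub_eq_zero.mp (eq_zero_of_sum_tmul_eq_zero ω hω _ h2 k)
  rw [map_sum]
  refine Finset.sum_eq_zero fun k _ => ?_
  rw [LinearMap.baseChange_tmul, hfix (x k) (hx k), TensorProduct.tmul_zero]

end Fermat.Agent.ES.P36.FixedBC12
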