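/-
Program P (S36), TOP-P (S36_NOTE1, brick A4), helper12: **the contract `EigenInert12.EigenLatticeInert`
from Hecke elements whose image on `T_p J₀(N)` has no nonzero inertia-fixed vector** (twin of
`EigenNewOf8` + `EigenNewHecke8`).

The eigen-lattice is `Λ_χ = {w ∈ 𝒪' ⊗ T_p J₀(N) | (x ⊗ 1) w = χ(x) w for ALL x in the S-anemic Hecke
algebra}` (index family = the whole Hecke algebra, so every Hecke element acts on `Λ_χ` through `χ`).

* `exists_eigenSubRep_inert`, `exists_eigenRep_inert` : twins of `BaseChangeRep8.exists_eigenSubRep`,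
  `exists_eigenRep` with a fourth output: if `t i₀` (commuting with `ρ`) has `c i₀ ≠ 0` and `0` is the only
  `Hs`-fixed vector in the image of `t i₀` on `T`, then `0` is the only `Hs`-fixed vector of the
  eigen-lattice (`FixedBC12.baseChange_apply_eq_zero_of_fixed`);
* `KolchinStmt` : the statement of Kolchin-lite (`(ρ g - 1)² = 0` on a subgroup ⇒ a nonzero common fixed
  vector; free modules of finite rank over a discrete valuation ring), consumed as a hypothesis;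
* `eigenLatticeInert_of_hecke` : the contract; `s36_of_hecke` : the literal frozen S36 conclusion.
-/
import Mathlib
import Fermat.Agent.ES.J.S30Final8
import Fermat.Agent.ES.J.PadicAlg8
import Fermat.Agent.ES.K.HeckeTate26
import Fermat.Agent.ES.J.EigenLatticeOf8
import Fermat.Agent.ES.P36.EigenInert12
import Fermat.Agent.ES.P36.FixedBC12
import Fermat.Prelude.Def_CuspForm_Newforms
import Fermat.Prelude.Def_GaloisRep_LocalConditions

set_option autoImplicit false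
set_option linter.unusedSectionVars false
set_option linter.overlappingInstances false
set_option synthInstance.maxHeartbeats 400000

open TensorProduct AlgebraicCurve ModularCurve

noncomputable section

namespace Fermat.Agent.ES.P36.EigenInertOf12

open Fermat.Agent.ES.ALG.RelDense9 Fermat.Agent.ES.ALG.RankTwo9 Fermat.Agent.ES.J.S30Skeleton8
  Fermat.Agent.ES.J.TateJZero13 Fermat.Agent.ES.J.BaseChangeRep8 Fermat.Agent.ES.P36.EigenInert12
  Fermat.Agent.ES.HEQ.FaithInst26 Fermat.Agent.ES.HEQ.FaithFinal26 Fermat.Agent.ES.K.HeckeTate26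

local notation "Qb" => AlgebraicClosure ℚ
local notation "GQ" => (AlgebraicClosure ℚ ≃ₐ[ℚ] AlgebraicClosure ℚ)

/-- a ring homomorphism from `ℤ_[p]` to a domain of characteristic zero is injective. -/
theorem padic_ringHom_injective {p : ℕ} [Fact p.Prime] {S : Type*} [CommRing S] [IsDomain S]
    [CharZero S] (f : ℤ_[p] →+* S) : Function.Injective f := by
  rw [injective_iff_map_eq_zero]
  intro x hx
  by_contra hx0
  have h1 := PadicInt.unitCoeff_spec hx0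
  rw [h1, map_mul, map_pow, map_natCast] at hx
  rcases mul_eq_zero.mp hx with h | h
  · exact ((Units.isUnit (PadicInt.unitCoeff hx0)).map f).ne_zero h
  · exact (pow_ne_zero _ (Nat.cast_ne_zero.mpr (Fact.out : p.Prime).ne_zero)) h

section Eigen

variable {𝒪 : Type} [CommRing 𝒪] [IsDomain 𝒪] [IsPrincipalIdealRing 𝒪]
variable {Λ : Type} [AddCommGroup Λ] [Module 𝒪 Λ] [Module.Free 𝒪 Λ] [Module.Finite 𝒪 Λ]
variable {G : Type*} [Group G] {ι : Type*}

/-- twin of `BaseChangeRep8.exists_eigenSubRep` with a fourth output: a fixed vector of the eigen-lattice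
is a fixed simultaneous eigenvector of `Λ`. -/
theorem exists_eigenSubRep_inert (ρ : G →* Module.End 𝒪 Λ) (t : ι → Module.End 𝒪 Λ) (c : ι → 𝒪)
    (hcomm : ∀ g i, Commute (ρ g) (t i)) (w : Λ) (hw0 : w ≠ 0) (hw : ∀ i, t i w = c i • w) :
    ∃ (Λ' : Type) (_ : AddCommGroup Λ') (_ : Module 𝒪 Λ') (_ : Module.Free 𝒪 Λ')
      (_ : Module.Finite 𝒪 Λ') (_ : Nontrivial Λ') (ρ' : G →* Module.End 𝒪 Λ'),
      (∀ (I : Ideal 𝒪) (g : G), EndCongr I (ρ g) 1 → EndCongr I (ρ' g) 1) ∧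
      (∀ g, ρ g = 1 → ρ' g = 1) ∧
      (∀ (g : G) (i : ι) (n : 𝒪), ρ g * ρ g - t i * ρ g + n • (1 : Module.End 𝒪 Λ) = 0 →
        ρ' g * ρ' g - c i • ρ' g + n • (1 : Module.End 𝒪 Λ') = 0) ∧
      (∀ (Hs : Subgroup G) (v : Λ'), v ≠ 0 → (∀ g ∈ Hs, ρ' g v = v) →
        ∃ w' : Λ, w' ≠ 0 ∧ (∀ i, t i w' = c i • w') ∧ ∀ g ∈ Hs, ρ g w' = w') := by
  have hsat := saturated_eigenSub t c
  have hst := stable_eigenSub ρ t c hcomm
  have hwmem : w ∈ eigenSub t c := mem_eigenSub.mpr hw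
  have hnt : Nontrivial (eigenSub t c) :=
    ⟨⟨⟨w, hwmem⟩, 0, fun h => hw0 (congrArg Subtype.val h)⟩⟩
  refine ⟨eigenSub t c, inferInstance, inferInstance, inferInstance, inferInstance, hnt,
    restrictRep ρ (eigenSub t c) hst, ?_, ?_, ?_, ?_⟩
  · intro I g h
    exact endCongr_restrictRep hsat hst I g h
  · intro g hg
    ext v
    simp [hg]
  · intro g i n h
    ext v
    have hv := mem_eigenSub.mp v.2
    have hρv : ρ g (v : Λ) ∈ eigenSub t c := hst g v v.2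
    have h1 := congrArg (fun F : Module.End 𝒪 Λ => F (v : Λ)) h
    simp only [LinearMap.add_apply, LinearMap.sub_apply, Module.End.mul_apply,
      LinearMap.smul_apply, Module.End.one_apply, LinearMap.zero_apply] at h1
    rw [mem_eigenSub.mp hρv i] at h1
    simpa using h1
  · intro Hs v hv0 hv
    refine ⟨(v : Λ), fun h => hv0 (Subtype.ext h), mem_eigenSub.mp v.2, fun g hg => ?_⟩
    have := congrArg Subtype.val (hv g hg)
    rwa [coe_restrictRep_apply] at this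

end Eigen

section Main

variable {R : Type} [CommRing R] [IsDomain R] [IsPrincipalIdealRing R]
  {𝒪 : Type} [CommRing 𝒪] [IsDomain 𝒪] [IsPrincipalIdealRing 𝒪]
  [Algebra R 𝒪] [Module.IsTorsionFree R 𝒪]
variable {T : Type} [AddCommGroup T] [Module R T] [Module.Free R T] [Module.Finite R T]
variable {G : Type*} [Group G] {ι : Type*}

/-- twin of `BaseChangeRep8.exists_eigenRep` with the fourth output. -/
theorem exists_eigenRep_inert (ρ : G →* Module.End R T) (t : ι → Module.End R T)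
    (hcomm : ∀ g i, Commute (ρ g) (t i)) (c : ι → 𝒪) (w : 𝒪 ⊗[R] T) (hw0 : w ≠ 0)
    (hw : ∀ i, (t i).baseChange 𝒪 w = c i • w) :
    ∃ (Λ' : Type) (_ : AddCommGroup Λ') (_ : Module 𝒪 Λ') (_ : Module.Free 𝒪 Λ')
      (_ : Module.Finite 𝒪 Λ') (_ : Nontrivial Λ') (ρ' : G →* Module.End 𝒪 Λ'),
      (∀ (I : Ideal 𝒪) (g : G) (r : R), algebraMap R 𝒪 r ∈ I → (∀ x, ∃ y, ρ g x - x = r • y) →
        EndCongr I (ρ' g) 1) ∧
      (∀ g, ρ g = 1 → ρ' g = 1) ∧
      (∀ (g : G) (i : ι) (n : R), ρ g * ρ g - t i * ρ g + n • (1 : Module.End R T) = 0 →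
        ρ' g * ρ' g - c i • ρ' g + algebraMap R 𝒪 n • (1 : Module.End 𝒪 Λ') = 0) ∧
      (∀ (Hs : Subgroup G) (i₀ : ι), c i₀ ≠ 0 →
        (∀ x : T, (∀ g ∈ Hs, ρ g (t i₀ x) = t i₀ x) → t i₀ x = 0) →
        ∀ v : Λ', (∀ g ∈ Hs, ρ' g v = v) → v = 0) := by
  have hcomm' : ∀ g i, Commute (bcRep (𝒪 := 𝒪) ρ g) ((t i).baseChange 𝒪) := by
    intro g i
    have := (hcomm g i).map (Module.End.baseChangeHom R 𝒪 T)
    exact this
  obtain ⟨Λ', i1, i2, i3, i4, i5, ρ', h1, h2, h3, h4⟩ :=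
    exists_eigenSubRep_inert (bcRep (𝒪 := 𝒪) ρ) (fun i => (t i).baseChange 𝒪) c hcomm' w hw0 hw
  refine ⟨Λ', i1, i2, i3, i4, i5, ρ', ?_, ?_, ?_, ?_⟩
  · intro I g r hr hf
    exact h1 I g (endCongr_baseChange I (ρ g) r hr hf)
  · intro g hg
    apply h2
    rw [bcRep_apply, hg, LinearMap.baseChange_one]
  · intro g i n h
    apply h3 g i (algebraMap R 𝒪 n)
    have := congrArg (fun F : Module.End R T => F.baseChange 𝒪) h
    simp only [LinearMap.baseChange_add, LinearMap.baseChange_sub, LinearMap.baseChange_mul,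
      LinearMap.baseChange_smul, LinearMap.baseChange_one, LinearMap.baseChange_zero] at this
    rw [bcRep_apply, algebraMap_smul]
    exact this
  · intro Hs i₀ hc hkill v hv
    by_contra hv0
    obtain ⟨w', hw'0, hw', hfix⟩ := h4 Hs v hv0 hv
    have hz : (t i₀).baseChange 𝒪 w' = 0 :=
      Fermat.Agent.ES.P36.FixedBC12.baseChange_apply_eq_zero_of_fixed (R := R) (𝒪 := 𝒪)
        {h | ∃ g ∈ Hs, h = ρ g} (t i₀)
        (by rintro h ⟨g, _, rfl⟩; exact (hcomm g i₀).symm)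
        (fun x hx => hkill x fun g hg => hx (ρ g) ⟨g, hg, rfl⟩) w'
        (by rintro h ⟨g, hg, rfl⟩; exact hfix g hg)
    rw [hw' i₀] at hz
    rcases smul_eq_zero.mp hz with h | h
    · exact hc h
    · exact hw'0 h

end Main

/-- **Kolchin-lite** (statement; S36_NOTE1 §A3, consumer shape = `KolchinLite9.exists_fixed_of_sq_zero_dvr`):
a subgroup acting on a nonzero finite free module over a discrete valuation ring through endomorphisms
with `(ρ g - 1)² = 0` has a nonzero common fixed vector. -/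
def KolchinStmt : Prop :=
  ∀ {𝒪 Λ G : Type} [CommRing 𝒪] [IsDomain 𝒪] [IsDiscreteValuationRing 𝒪] [AddCommGroup Λ]
    [Module 𝒪 Λ] [Module.Free 𝒪 Λ] [Module.Finite 𝒪 Λ] [Nontrivial Λ] [Group G]
    (ρ : G →* Module.End 𝒪 Λ) (H : Subgroup G),
    (∀ g ∈ H, (ρ g - 1) * (ρ g - 1) = 0) → ∃ v : Λ, v ≠ 0 ∧ ∀ g ∈ H, ρ g v = v

variable {p : ℕ} [Fact p.Prime] {N : ℕ} [NeZero N] {S : Finset ℕ}
  {𝒪' : Type} [CommRing 𝒪'] [IsDomain 𝒪'] [IsDiscreteValuationRing 𝒪']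
  [IsAdicComplete (IsLocalRing.maximalIdeal 𝒪') 𝒪'] [CharZero 𝒪']

/-- **`EigenLatticeInert` from Hecke elements whose image has no inertia-fixed vector.** -/
theorem eigenLatticeInert_of_hecke (hK : KolchinStmt) (hpS : p ∈ S)
    (hS : ∀ q : ℕ, q.Prime → q ∣ N → q ∈ (↑S : Set ℕ))
    (hp𝒪' : (p : 𝒪') ∈ IsLocalRing.maximalIdeal 𝒪')
    (χ : CuspForm.heckeAlgebra N 2 (↑S : Set ℕ) →+* 𝒪')
    (hfix : ∀ q : ℕ, q.Prime → q ≠ p → N.factorization q = 2 →
      ∃ x₀ : ↥(CuspForm.heckeAlgebra N 2 (↑S : Set ℕ)), χ x₀ ≠ 0 ∧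
        ∃ A : ValuationSubring Qb, A.LiesOverPrime q ∧ ∀ x : TJ p N,
          (∀ τ ∈ A.inertiaSubgroupIn ℚ,
            rhoT p N τ (evJ (p := p) (↑S : Set ℕ) hS (1 ⊗ₜ[ℤ] x₀) x) =
              evJ (p := p) (↑S : Set ℕ) hS (1 ⊗ₜ[ℤ] x₀) x) →
          evJ (p := p) (↑S : Set ℕ) hS (1 ⊗ₜ[ℤ] x₀) x = 0) :
    EigenLatticeInert p N S 𝒪' χ := by
  classical
  let _ : Algebra ℤ_[p] 𝒪' := (Fermat.Agent.ES.J.PadicAlg8.padicToLocal p hp𝒪').toAlgebra
  have hinj : Function.Injective (algebraMap ℤ_[p] 𝒪') :=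
    padic_ringHom_injective (Fermat.Agent.ES.J.PadicAlg8.padicToLocal p hp𝒪')
  have : Module.IsTorsionFree ℤ_[p] 𝒪' := by
    refine Module.IsTorsionFree.of_smul_eq_zero fun r m h => ?_
    rw [Algebra.smul_def] at h
    rcases mul_eq_zero.mp h with h | h
    · left
      exact hinj (h.trans (map_zero _).symm)
    · right
      exact h
  have hfin := Fermat.Agent.ES.J.S30Final8.k1 p N
  obtain ⟨hfinT, hfreeT⟩ := finite_free (p := p) (N := N) hfin
  -- the eigenvector of Program J, with its eigen-property for ALL Hecke elements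
  have hι₀ : IsBaseChange ℤ_[p] (iotaJ p N) := isBaseChange_iotaJ p N
  let g : TJ p N →ₗ[ℤ_[p]] 𝒪' ⊗[ℤ_[p]] TJ p N := TensorProduct.mk ℤ_[p] 𝒪' (TJ p N) 1
  have hg : IsBaseChange 𝒪' g := TensorProduct.isBaseChange ℤ_[p] (TJ p N) 𝒪'
  have hι : IsBaseChange 𝒪' ((g.restrictScalars ℤ).comp (iotaJ p N)) := IsBaseChange.comp hι₀ hg
  obtain ⟨w, hw0, hw⟩ :=
    Fermat.Agent.ES.ALG.EigenNonzero9.exists_eigenvector_of_isBaseChange
      ((g.restrictScalars ℤ).comp (iotaJ p N)) hι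
      ((heckeLam (N := N) (↑S : Set ℕ) hS : _ →ₐ[ℤ] _) : _ →+* _)
      (heckeLam_injective (↑S : Set ℕ) hS) χ
  have hwE : ∀ x₀ : ↥(CuspForm.heckeAlgebra N 2 (↑S : Set ℕ)),
      (evJ (p := p) (↑S : Set ℕ) hS (1 ⊗ₜ[ℤ] x₀)).baseChange 𝒪' w = χ x₀ • w := by
    intro x₀
    refine hw x₀ _ fun l => ?_
    show (evJ (p := p) (↑S : Set ℕ) hS (1 ⊗ₜ[ℤ] x₀)).baseChange 𝒪'
        ((1 : 𝒪') ⊗ₜ[ℤ_[p]] iotaJ p N l) =
      (1 : 𝒪') ⊗ₜ[ℤ_[p]] iotaJ p N (heckeLam (↑S : Set ℕ) hS x₀ l)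
    rw [LinearMap.baseChange_tmul]
    congr 1
    unfold evJ
    rw [evT_tmul_apply, one_smul]
  -- the eigen-lattice for the WHOLE Hecke algebra
  let t : ↥(CuspForm.heckeAlgebra N 2 (↑S : Set ℕ)) → Module.End ℤ_[p] (TJ p N) :=
    fun x₀ => evJ (p := p) (↑S : Set ℕ) hS (1 ⊗ₜ[ℤ] x₀)
  obtain ⟨Λ, i1, i2, i3, i4, i5, ρ, h1, h2, h3, h4⟩ :=
    exists_eigenRep_inert (𝒪 := 𝒪') (rhoT p N) t
      (fun g x₀ => commute_rhoT_evJ (p := p) (↑S : Set ℕ) hS g _) (fun x₀ => χ x₀) w hw0 hwE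
  refine ⟨Λ, i1, i2, i3, i4, i5, ρ, ?_, ?_, ?_, ?_⟩
  · intro n
    obtain ⟨L, hL, H⟩ := rhoT_continuous (p := p) (N := N) hfin n
    refine ⟨L, hL, fun σ hσ => ?_⟩
    refine h1 _ σ ((p : ℤ_[p]) ^ n) ?_ (H σ hσ)
    rw [map_pow, map_natCast]
    exact Ideal.pow_mem_pow hp𝒪' n
  · intro q hq hqN hqp A hA τ hτ
    exact h2 τ (rhoT_inertia hq hqN hqp hA hτ)
  · intro ℓ hℓ hℓN hℓS A hA σ hσ
    have hℓp : ℓ ≠ p := fun h => hℓS (h ▸ hpS)
    have hrel := rhoT_frobenius hℓ hℓN hℓp hA hσ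
    rw [← evJ_T (p := p) (↑S : Set ℕ) hS ℓ hℓ hℓN hℓS] at hrel
    have := h3 σ (CuspForm.heckeAlgebra.T hℓ hℓN hℓS) (ℓ : ℤ_[p]) hrel
    rw [map_natCast] at this
    exact this
  · intro q hq hqp hq2
    obtain ⟨x₀, hx₀, A, hA, hkill⟩ := hfix q hq hqp hq2
    refine ⟨A, hA, ?_⟩
    by_contra hcon
    have hsq : ∀ τ ∈ A.inertiaSubgroupIn ℚ, (ρ τ - 1) * (ρ τ - 1) = 0 := by
      intro τ hτ
      apply LinearMap.ext
      intro v
      by_contra hne
      exact hcon ⟨τ, hτ, v, hne⟩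
    obtain ⟨v, hv0, hv⟩ := hK ρ (A.inertiaSubgroupIn ℚ) hsq
    exact hv0 (h4 (A.inertiaSubgroupIn ℚ) x₀ hx₀ hkill v hv)

open Polynomial in
/-- **S36 from Hecke elements whose image has no inertia-fixed vector**, in the literal frozen shape
(`O'' := O'`). -/
theorem s36_of_hecke (hK : KolchinStmt)
    {M : ℕ} [NeZero M] {g : CuspForm (CongruenceSubgroup.Gamma0 M) 2} (hg : g.IsNewform)
    (lam : ℕ) [Fact lam.Prime]
    (S : Finset ℕ)
    (O' : Type) [CommRing O'] [IsDomain O'] [IsDiscreteValuationRing O']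
    [IsAdicComplete (IsLocalRing.maximalIdeal O') O'] [Finite (IsLocalRing.ResidueField O')]
    [CharZero O'] (hlamO' : (lam : O') ∈ IsLocalRing.maximalIdeal O')
    (chig : CuspForm.heckeAlgebra M 2 (↑S : Set ℕ) →+* ℂ)
    (iota : chig.range →+* O')
    (hlamS : lam ∈ S) (hMS : ∀ q : ℕ, q.Prime → q ∣ M → q ∈ S)
    (hS : ∀ q : ℕ, q.Prime → q ∣ M → q ∈ (↑S : Set ℕ))
    (hfix : ∀ q : ℕ, q.Prime → q ≠ lam → M.factorization q = 2 →
      ∃ x₀ : ↥(CuspForm.heckeAlgebra M 2 (↑S : Set ℕ)),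
        (iota.comp chig.rangeRestrict) x₀ ≠ 0 ∧
        ∃ A : ValuationSubring Qb, A.LiesOverPrime q ∧ ∀ x : TJ lam M,
          (∀ τ ∈ A.inertiaSubgroupIn ℚ,
            rhoT lam M τ (evJ (p := lam) (↑S : Set ℕ) hS (1 ⊗ₜ[ℤ] x₀) x) =
              evJ (p := lam) (↑S : Set ℕ) hS (1 ⊗ₜ[ℤ] x₀) x) →
          evJ (p := lam) (↑S : Set ℕ) hS (1 ⊗ₜ[ℤ] x₀) x = 0) :
    ∃ (O'' : Type) (_ : CommRing O'') (_ : IsDomain O'') (_ : IsDiscreteValuationRing O'')
      (_ : IsAdicComplete (IsLocalRing.maximalIdeal O'') O'') (_ : Finite (IsLocalRing.ResidueField O''))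
      (_ : CharZero O'') (_ : Algebra O' O'') (_ : Module.Finite O' O'') (_ : IsLocalHom (algebraMap O' O'')),
      Function.Injective (algebraMap O' O'') ∧
      ∃ ρ : GaloisRepAdic O'',
        (∀ (ℓ : ℕ) (hℓ : ℓ.Prime) (hℓM : ¬ ℓ ∣ M) (hℓS : ℓ ∉ (↑S : Set ℕ)),
          ∀ A : ValuationSubring (AlgebraicClosure ℚ), A.LiesOverPrime ℓ →
            ∀ σ : AlgebraicClosure ℚ ≃ₐ[ℚ] AlgebraicClosure ℚ, A.IsFrobeniusAt σ ℓ →
              LinearMap.charpoly (ρ.ρ σ) =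
                X ^ 2 - C (algebraMap O' O'' ((iota.comp chig.rangeRestrict) (CuspForm.heckeAlgebra.T hℓ hℓM hℓS))) * X
                  + C ((ℓ : O''))) ∧
        (∀ q : ℕ, q.Prime → q ≠ lam → M.factorization q = 2 → ¬ ρ.IsUnipotentOnInertiaAt q) :=
  s36_of_eigenLatticeInert hg lam S O' hlamO' chig iota hlamS hMS
    (eigenLatticeInert_of_hecke hK hlamS hS hlamO' (iota.comp chig.rangeRestrict) hfix)

end Fermat.Agent.ES.P36.EigenInertOf12
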