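/-
Program P (S36), chapter REG, brick R3 (helper10), second file: REGULAR PARAMETERS at a regular
two-dimensional local ring with `𝔪 = (x, y)`, `x` prime (the output of `NodeReg10.node_regular`).
Mathlib + `RED/CORE/LocalUFD15` (main).

* `isPrincipalIdealRing_quot` : `S ⧸ (x)` is a principal ideal ring;
* `ufd`                       : `S` is a unique factorisation domain;
* `notMem_sq`                 : `x ∉ 𝔪 ^ 2` (if `x ∤ y`);
* `prime_of_notMem_sq`        : EVERY `f ∈ 𝔪 ∖ 𝔪 ^ 2` is a prime element;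
* `param_congr`               : if `T ≡ x`, `T' ≡ y mod 𝔪 ^ 2` then `𝔪 = (T', T)`, `T`, `T'` are prime,
                                `T ∤ T'`, `T' ∤ T`.

Use (fit remark F1 of the review of `EisStep26`): N's node coordinates are
`x = t − t₁^q`-like, `y = t₁ − t^q`-like, whereas the Eisenstein step at level `q²` wants the
coordinates `r = t − c` (the known root, must be PRIME) and `b = t₁ − c'`; `r ≡ x`, `b ≡ y mod 𝔪 ^ 2`.
`param_congr` feeds BOTH mirror instances of `EisStep26.eisHyp_divByMonic` (root `r` for `α`,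
root `b` for `β`) from ONE application of the discriminant lemma (D0).
-/
import Mathlib
import Fermat.Agent.RED.CORE.LocalUFD15

set_option autoImplicit false
set_option linter.unusedSectionVars false
set_option linter.style.haveILetI false

namespace Fermat.Agent.ES.P36.NodeParam10

open IsLocalRing

variable {S : Type*} [CommRing S] [IsLocalRing S] [IsNoetherianRing S]

/-- `S ⧸ (x)` is a principal ideal ring when `𝔪 = (x, y)` and `x` is prime. -/
theorem isPrincipalIdealRing_quot {x y : S} (hx : Prime x)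
    (hmax : maximalIdeal S = Ideal.span {x, y}) :
    IsPrincipalIdealRing (S ⧸ Ideal.span {x}) := by
  have hprime : (Ideal.span {x}).IsPrime := (Ideal.span_singleton_prime hx.ne_zero).mpr hx
  have hdom : IsDomain (S ⧸ Ideal.span {x}) := (Ideal.Quotient.isDomain_iff_prime _).mpr hprime
  have hloc : IsLocalRing (S ⧸ Ideal.span {x}) :=
    IsLocalRing.of_surjective' (Ideal.Quotient.mk _) Ideal.Quotient.mk_surjective
  have key : (maximalIdeal (S ⧸ Ideal.span {x}) : Submodule (S ⧸ Ideal.span {x}) (S ⧸ Ideal.span {x})) =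
      Submodule.span (S ⧸ Ideal.span {x}) {Ideal.Quotient.mk (Ideal.span {x}) y} := by
    -- `𝔪_{S/(x)} = (ȳ)`
    have hmap : maximalIdeal (S ⧸ Ideal.span {x}) =
        (maximalIdeal S).map (Ideal.Quotient.mk (Ideal.span {x})) := by
      have hxm : x ∈ maximalIdeal S := by rw [hmax]; exact Ideal.subset_span (by simp)
      have hle : Ideal.span {x} ≤ maximalIdeal S := (Ideal.span_singleton_le_iff_mem _).mpr hxm
      rcases Ideal.map_eq_top_or_isMaximal_of_surjective (Ideal.Quotient.mk (Ideal.span {x}))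
        Ideal.Quotient.mk_surjective (maximalIdeal.isMaximal S) with htop | hmax'
      · exfalso
        have h1 : (1 : S ⧸ Ideal.span {x}) ∈
            (maximalIdeal S).map (Ideal.Quotient.mk (Ideal.span {x})) := by
          rw [htop]; trivial
        obtain ⟨z, hz, hz1⟩ :=
          (Ideal.mem_map_iff_of_surjective (Ideal.Quotient.mk (Ideal.span {x}))
            Ideal.Quotient.mk_surjective).mp h1
        have hker : z - 1 ∈ Ideal.span {x} :=
          Ideal.Quotient.eq.mp (hz1.trans (RingHom.map_one _).symm)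
        have h1m : (1 : S) ∈ maximalIdeal S := by
          have := Ideal.sub_mem _ hz (hle hker)
          rwa [sub_sub_cancel] at this
        exact (maximalIdeal.isMaximal S).ne_top ((Ideal.eq_top_iff_one _).mpr h1m)
      · exact (IsLocalRing.eq_maximalIdeal hmax').symm
    rw [hmap, hmax, Ideal.map_span, Set.image_pair]
    have h0 : Ideal.Quotient.mk (Ideal.span {x}) x = 0 :=
      Ideal.Quotient.eq_zero_iff_mem.mpr (Ideal.mem_span_singleton_self _)
    rw [h0]
    show Ideal.span {0, _} = Ideal.span {_}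
    apply le_antisymm
    · rw [Ideal.span_le]
      rintro z (rfl | hz)
      · exact Ideal.zero_mem _
      · rw [Set.mem_singleton_iff.mp hz]; exact Ideal.subset_span rfl
    · exact Ideal.span_mono (by simp)
  have hgoal : (maximalIdeal (S ⧸ Ideal.span {x})).IsPrincipal := by
    refine ⟨⟨Ideal.Quotient.mk _ y, ?_⟩⟩
    exact key
  exact ((tfae_of_isNoetherianRing_of_isLocalRing_of_isDomain (S ⧸ Ideal.span {x})).out 4 0).mp
    hgoal

variable [IsDomain S]

/-- A noetherian local domain with `𝔪 = (x, y)`, `x` prime, is a unique factorisation domain. -/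
theorem ufd {x y : S} (hx : Prime x) (hmax : maximalIdeal S = Ideal.span {x, y}) :
    UniqueFactorizationMonoid S := by
  haveI := isPrincipalIdealRing_quot hx hmax
  exact Fermat.Agent.RED.CORE.LocalUFD15.ufd x hx

/-- `𝔪 ^ 2 = (x², x y, y²)`: normal form of its elements. -/
theorem exists_rep_of_mem_sq {x y f : S} (hmax : maximalIdeal S = Ideal.span {x, y})
    (hf : f ∈ maximalIdeal S ^ 2) : ∃ a b c : S, f = a * x ^ 2 + b * (x * y) + c * y ^ 2 := by
  rw [hmax, pow_two, Ideal.span_pair_mul_span_pair] at hf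
  obtain ⟨c1, z1, hz1, h1⟩ := Ideal.mem_span_insert.mp hf
  obtain ⟨c2, z2, hz2, h2⟩ := Ideal.mem_span_insert.mp hz1
  obtain ⟨c3, z3, hz3, h3⟩ := Ideal.mem_span_insert.mp hz2
  obtain ⟨c4, h4⟩ := Ideal.mem_span_singleton'.mp hz3
  exact ⟨c1, c2 + c3, c4, by rw [h1, h2, h3, ← h4]; ring⟩

/-- `x ∉ 𝔪 ^ 2` when `𝔪 = (x, y)`, `x` prime, `x ∤ y`. -/
theorem notMem_sq {x y : S} (hx : Prime x) (hxy : ¬ x ∣ y)
    (hmax : maximalIdeal S = Ideal.span {x, y}) : x ∉ maximalIdeal S ^ 2 := by
  intro hmem
  obtain ⟨a, b, c, h⟩ := exists_rep_of_mem_sq hmax hmem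
  have hxm : x ∈ maximalIdeal S := by rw [hmax]; exact Ideal.subset_span (by simp)
  have hym : y ∈ maximalIdeal S := by rw [hmax]; exact Ideal.subset_span (by simp)
  -- `x ∣ c y²`, hence `x ∣ c`
  have h1 : x ∣ c * y ^ 2 := ⟨1 - a * x - b * y, by linear_combination (-1 : S) * h⟩
  have hc : x ∣ c := by
    rcases hx.dvd_or_dvd h1 with h' | h'
    · exact h'
    · exact absurd (hx.dvd_of_dvd_pow h') hxy
  obtain ⟨c', rfl⟩ := hc
  -- cancel `x`: `1 = a x + b y + c' y²`
  have h2 : x * 1 = x * (a * x + b * y + c' * y ^ 2) := by linear_combination h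
  have h3 : (1 : S) = a * x + b * y + c' * y ^ 2 := mul_left_cancel₀ hx.ne_zero h2
  have h1m : (1 : S) ∈ maximalIdeal S := by
    rw [h3]
    exact Ideal.add_mem _ (Ideal.add_mem _ (Ideal.mul_mem_left _ _ hxm) (Ideal.mul_mem_left _ _ hym))
      (Ideal.mul_mem_left _ _ (Ideal.pow_mem_of_mem _ hym 2 (by norm_num)))
  exact (maximalIdeal.isMaximal S).ne_top ((Ideal.eq_top_iff_one _).mpr h1m)

/-- In a regular two-dimensional local ring every `f ∈ 𝔪 ∖ 𝔪 ^ 2` is a prime element. -/
theorem prime_of_notMem_sq {x y f : S} (hx : Prime x) (hmax : maximalIdeal S = Ideal.span {x, y})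
    (hfm : f ∈ maximalIdeal S) (hf : f ∉ maximalIdeal S ^ 2) : Prime f := by
  haveI := ufd hx hmax
  rw [← UniqueFactorizationMonoid.irreducible_iff_prime]
  refine ⟨(mem_maximalIdeal _).mp hfm, fun a b hab => ?_⟩
  by_contra hcon
  push Not at hcon
  apply hf
  rw [hab, pow_two]
  exact Ideal.mul_mem_mul ((mem_maximalIdeal _).mpr hcon.1) ((mem_maximalIdeal _).mpr hcon.2)

/-- **Change of regular parameters.** -/
theorem param_congr {x y T T' : S} (hx : Prime x) (hy : Prime y) (hxy : ¬ x ∣ y) (hyx : ¬ y ∣ x)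
    (hmax : maximalIdeal S = Ideal.span {x, y})
    (hT : T - x ∈ maximalIdeal S ^ 2) (hT' : T' - y ∈ maximalIdeal S ^ 2) :
    maximalIdeal S = Ideal.span {T', T} ∧ Prime T ∧ Prime T' ∧ ¬ T ∣ T' ∧ ¬ T' ∣ T := by
  have hxm : x ∈ maximalIdeal S := by rw [hmax]; exact Ideal.subset_span (by simp)
  have hym : y ∈ maximalIdeal S := by rw [hmax]; exact Ideal.subset_span (by simp)
  have hsqle : maximalIdeal S ^ 2 ≤ maximalIdeal S := Ideal.pow_le_self two_ne_zero
  have hTm : T ∈ maximalIdeal S := by
    have := Ideal.add_mem _ (hsqle hT) hxm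
    rwa [sub_add_cancel] at this
  have hT'm : T' ∈ maximalIdeal S := by
    have := Ideal.add_mem _ (hsqle hT') hym
    rwa [sub_add_cancel] at this
  have hmax' : maximalIdeal S = Ideal.span {y, x} := by rw [hmax, Set.pair_comm]
  have hxsq : x ∉ maximalIdeal S ^ 2 := notMem_sq hx hxy hmax
  have hysq : y ∉ maximalIdeal S ^ 2 := notMem_sq hy hyx hmax'
  have hTsq : T ∉ maximalIdeal S ^ 2 := fun h => hxsq (by
    have := Ideal.sub_mem _ h hT
    rwa [sub_sub_cancel] at this)
  have hT'sq : T' ∉ maximalIdeal S ^ 2 := fun h => hysq (by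
    have := Ideal.sub_mem _ h hT'
    rwa [sub_sub_cancel] at this)
  -- Nakayama: `𝔪 = (T', T)`
  have hspan : maximalIdeal S = Ideal.span {T', T} := by
    refine le_antisymm ?_ ?_
    · refine Submodule.le_of_le_smul_of_le_jacobson_bot (IsNoetherian.noetherian _)
        (maximalIdeal_le_jacobson _) ?_
      rw [smul_eq_mul, ← pow_two]
      conv_lhs => rw [hmax]
      rw [Ideal.span_le]
      rintro z (rfl | hz)
      · have : z = T - (T - z) := by ring
        rw [this]
        exact Ideal.sub_mem _ (Ideal.mem_sup_left (Ideal.subset_span (by simp)))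
          (Ideal.mem_sup_right hT)
      · rw [Set.mem_singleton_iff.mp hz]
        have : y = T' - (T' - y) := by ring
        rw [this]
        exact Ideal.sub_mem _ (Ideal.mem_sup_left (Ideal.subset_span (by simp)))
          (Ideal.mem_sup_right hT')
    · rw [Ideal.span_le]
      rintro z (rfl | hz)
      · exact hT'm
      · rw [Set.mem_singleton_iff.mp hz]; exact hTm
  have hTprime : Prime T := prime_of_notMem_sq hx hmax hTm hTsq
  have hT'prime : Prime T' := prime_of_notMem_sq hx hmax hT'm hT'sq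
  -- if `T ∣ T'` then `𝔪 = (T)`, so `𝔪 ^ 2 = (T ^ 2)`, `x = T · unit`, `𝔪 = (x) ∋ y`
  have hprinc : ∀ {A A' : S}, A - x ∈ maximalIdeal S ^ 2 → maximalIdeal S = Ideal.span {A', A} →
      A ∈ maximalIdeal S → ¬ A ∣ A' := by
    intro A A' hA hsp hAm hdvd
    have hmA : maximalIdeal S = Ideal.span {A} := by
      rw [hsp]
      apply le_antisymm
      · rw [Ideal.span_le]
        rintro z (rfl | hz)
        · exact Ideal.mem_span_singleton.mpr hdvd
        · rw [Set.mem_singleton_iff.mp hz]; exact Ideal.mem_span_singleton_self _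
      · exact Ideal.span_mono (by simp)
    rw [hmA, Ideal.span_singleton_pow, Ideal.mem_span_singleton] at hA
    obtain ⟨g, hg⟩ := hA
    -- `x = A (1 - A g)`
    have hxA : x = A * (1 - A * g) := by linear_combination (-1 : S) * hg
    have hu : IsUnit (1 - A * g) := by
      by_contra hnu
      have h1 : 1 - A * g ∈ maximalIdeal S := (mem_maximalIdeal _).mpr hnu
      have h2 : (1 : S) ∈ maximalIdeal S := by
        have := Ideal.add_mem _ h1 (Ideal.mul_mem_right g _ hAm)
        rwa [sub_add_cancel] at this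
      exact (maximalIdeal.isMaximal S).ne_top ((Ideal.eq_top_iff_one _).mpr h2)
    obtain ⟨v, hv⟩ := hu
    have hAx : A = x * (↑v⁻¹ : S) := by
      rw [hxA, ← hv, mul_assoc, Units.mul_inv, mul_one]
    have hyA : y ∈ Ideal.span {A} := hmA ▸ hym
    obtain ⟨w, hw⟩ := Ideal.mem_span_singleton'.mp hyA
    exact hxy ⟨(↑v⁻¹ : S) * w, by rw [← hw, hAx]; ring⟩
  refine ⟨hspan, hTprime, hT'prime, hprinc hT hspan hTm, ?_⟩
  -- the mirror statement, with the roles of `x`, `y` exchanged
  have hspan' : maximalIdeal S = Ideal.span {T, T'} := by rw [hspan, Set.pair_comm]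
  intro hdvd
  -- same argument with `y`
  have hmA : maximalIdeal S = Ideal.span {T'} := by
    rw [hspan']
    apply le_antisymm
    · rw [Ideal.span_le]
      rintro z (rfl | hz)
      · exact Ideal.mem_span_singleton.mpr hdvd
      · rw [Set.mem_singleton_iff.mp hz]; exact Ideal.mem_span_singleton_self _
    · exact Ideal.span_mono (by simp)
  have hT'2 := hT'
  rw [hmA, Ideal.span_singleton_pow, Ideal.mem_span_singleton] at hT'2
  obtain ⟨g, hg⟩ := hT'2
  have hyA : y = T' * (1 - T' * g) := by linear_combination (-1 : S) * hg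
  have hu : IsUnit (1 - T' * g) := by
    by_contra hnu
    have h1 : 1 - T' * g ∈ maximalIdeal S := (mem_maximalIdeal _).mpr hnu
    have h2 : (1 : S) ∈ maximalIdeal S := by
      have := Ideal.add_mem _ h1 (Ideal.mul_mem_right g _ hT'm)
      rwa [sub_add_cancel] at this
    exact (maximalIdeal.isMaximal S).ne_top ((Ideal.eq_top_iff_one _).mpr h2)
  obtain ⟨v, hv⟩ := hu
  have hAy : T' = y * (↑v⁻¹ : S) := by
    rw [hyA, ← hv, mul_assoc, Units.mul_inv, mul_one]
  have hxA : x ∈ Ideal.span {T'} := hmA ▸ hxm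
  obtain ⟨w, hw⟩ := Ideal.mem_span_singleton'.mp hxA
  exact hyx ⟨(↑v⁻¹ : S) * w, by rw [← hw, hAy]; ring⟩

end Fermat.Agent.ES.P36.NodeParam10
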