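/-
Program P (S36), chapter REG, brick R3 (helper10): the LEVEL-`q` NODES ARE REGULAR, abstract core
(helper2's (D1.5)–(D1.7), `S36_REG2.md` §1), pure algebra, Mathlib only.

`S` a local ring (the local ring `B'_{z'}` of a chart of `X0(q M')` at a crossing point), `P1`, `P2`
two prime ideals (the centres of the two vertical valuation rings `O1`, `O2`), `x ∈ P2`, `y ∈ P1`
(Program N's node coordinates: `x = t − t₁^q`-like, `y = t₁ − t^q`-like) with

* `x ∉ P1`, `y ∉ P2`                 (the branches are not centred at the closed point),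
* `𝔪 ≤ P1 + (x)`, `𝔪 ≤ P2 + (y)`     (the branches `S/P1`, `S/P2` have the uniformisers `x`, `y`:
                                      both are instances of the last clause of `StrongCoords` on main),
* `𝔪 = (a, b)` for SOME `a, b`       (embedding dimension `≤ 2`: the output of the discriminant
                                      lemma (D0) for ONE of the two projections to level `M'`).

Then `𝔪 = (x, y)` (`maximalIdeal_eq_span_pair_of_branches`; no noetherian hypothesis: a
`2 × 2` determinant argument).  If moreover `S` is noetherian, `P2 = (x)` and `P1 = (y)`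
(`prime_eq_span_singleton`, Nakayama), so `x`, `y` are prime elements; and if `S` is a domain,
`π ∈ P1 ∩ P2` and `x y = π e`, then `e` is a UNIT (`node_regular`: thickness one).
-/
import Mathlib

set_option autoImplicit false

namespace Fermat.Agent.ES.P36.NodeReg10

open IsLocalRing

section Core

variable {S : Type*} [CommRing S] [IsLocalRing S]

/-- A proper prime of a local ring lies in the maximal ideal. -/
theorem prime_le_maximalIdeal (P : Ideal S) [hP : P.IsPrime] : P ≤ maximalIdeal S :=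
  IsLocalRing.le_maximalIdeal hP.ne_top

/-- **Tangent direction of a branch.** If the branch `S/P` has the uniformiser `x`
(`𝔪 ≤ P + (x)`, `x ∉ P`), then `x ∉ P + 𝔪 ^ 2`. -/
theorem notMem_sup_sq (P : Ideal S) [hP : P.IsPrime] {x : S} (hxm : x ∈ maximalIdeal S)
    (hx : x ∉ P) (hgen : maximalIdeal S ≤ P ⊔ Ideal.span {x}) :
    x ∉ P ⊔ maximalIdeal S ^ 2 := by
  intro hmem
  -- `𝔪 ^ 2 ≤ P + (x ^ 2)`
  have hsq : maximalIdeal S ^ 2 ≤ P ⊔ Ideal.span {x ^ 2} := by
    rw [pow_two, Ideal.mul_le]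
    intro r hr s hs
    obtain ⟨p1, hp1, z1, hz1, h1⟩ := Submodule.mem_sup.mp (hgen hr)
    obtain ⟨p2, hp2, z2, hz2, h2⟩ := Submodule.mem_sup.mp (hgen hs)
    obtain ⟨c1, hc1⟩ := Ideal.mem_span_singleton'.mp hz1
    obtain ⟨c2, hc2⟩ := Ideal.mem_span_singleton'.mp hz2
    have : r * s = (p1 * s + c1 * x * p2) + c1 * c2 * x ^ 2 := by
      rw [← h1, ← h2, ← hc1, ← hc2]; ring
    rw [this]
    exact Submodule.add_mem_sup (P.add_mem (P.mul_mem_right _ hp1) (P.mul_mem_left _ hp2))
      (Ideal.mul_mem_left _ _ (Ideal.mem_span_singleton_self _))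
  obtain ⟨p, hp, m, hm, hpm⟩ := Submodule.mem_sup.mp hmem
  obtain ⟨p', hp', z, hz, hpz⟩ := Submodule.mem_sup.mp (hsq hm)
  obtain ⟨u, hu⟩ := Ideal.mem_span_singleton'.mp hz
  -- `x (1 - u x) ∈ P`
  have hprod : x * (1 - u * x) ∈ P := by
    have : x * (1 - u * x) = p + p' := by
      linear_combination (-1 : S) * hpm - hpz - hu
    rw [this]
    exact P.add_mem hp hp'
  rcases hP.mem_or_mem hprod with h | h
  · exact hx h
  · have h1 : (1 - u * x) ∈ maximalIdeal S := prime_le_maximalIdeal P h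
    have h2 : u * x ∈ maximalIdeal S := Ideal.mul_mem_left _ _ hxm
    have h3 : (1 : S) ∈ maximalIdeal S := by
      have := Ideal.add_mem _ h1 h2
      rwa [sub_add_cancel] at this
    exact (maximalIdeal.isMaximal S).ne_top ((Ideal.eq_top_iff_one _).mpr h3)

omit [IsLocalRing S] in
/-- Cramer's rule for two generators. -/
theorem span_pair_le_of_det {a b x y l1 m1 l2 m2 : S} (hx : x = l1 * a + m1 * b)
    (hy : y = l2 * a + m2 * b) (hΔ : IsUnit (l1 * m2 - m1 * l2)) :
    Ideal.span {a, b} ≤ Ideal.span {x, y} := by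
  obtain ⟨Δ, hΔ⟩ := hΔ
  have hxm : x ∈ Ideal.span {x, y} := Ideal.subset_span (by simp)
  have hym : y ∈ Ideal.span {x, y} := Ideal.subset_span (by simp)
  have ha : a = (↑Δ⁻¹ : S) * (m2 * x - m1 * y) := by
    have h1 : m2 * x - m1 * y = (Δ : S) * a := by rw [hΔ, hx, hy]; ring
    rw [h1, ← mul_assoc, Units.inv_mul, one_mul]
  have hb : b = (↑Δ⁻¹ : S) * (l1 * y - l2 * x) := by
    have h1 : l1 * y - l2 * x = (Δ : S) * b := by rw [hΔ, hx, hy]; ring
    rw [h1, ← mul_assoc, Units.inv_mul, one_mul]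
  rw [Ideal.span_le]
  rintro z (hz | hz)
  · rw [hz, ha]
    exact Ideal.mul_mem_left _ _ (Ideal.sub_mem _ (Ideal.mul_mem_left _ _ hxm)
      (Ideal.mul_mem_left _ _ hym))
  · rw [Set.mem_singleton_iff.mp hz, hb]
    exact Ideal.mul_mem_left _ _ (Ideal.sub_mem _ (Ideal.mul_mem_left _ _ hym)
      (Ideal.mul_mem_left _ _ hxm))

/-- **(D1.6)** Two branches with independent tangent directions at a point of embedding dimension
`≤ 2`: the maximal ideal is generated by the two branch coordinates. -/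
theorem maximalIdeal_eq_span_pair_of_branches (x y a b : S) (P1 P2 : Ideal S)
    [hP1 : P1.IsPrime] [hP2 : P2.IsPrime]
    (hy1 : y ∈ P1) (hx2 : x ∈ P2) (hx1 : x ∉ P1) (hy2 : y ∉ P2)
    (hgen1 : maximalIdeal S ≤ P1 ⊔ Ideal.span {x})
    (hgen2 : maximalIdeal S ≤ P2 ⊔ Ideal.span {y})
    (hab : maximalIdeal S = Ideal.span {a, b}) :
    maximalIdeal S = Ideal.span {x, y} := by
  have hxm : x ∈ maximalIdeal S := prime_le_maximalIdeal P2 hx2
  have hym : y ∈ maximalIdeal S := prime_le_maximalIdeal P1 hy1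
  have ham : a ∈ maximalIdeal S := by rw [hab]; exact Ideal.subset_span (by simp)
  have hbm : b ∈ maximalIdeal S := by rw [hab]; exact Ideal.subset_span (by simp)
  have hA : x ∉ P1 ⊔ maximalIdeal S ^ 2 := notMem_sup_sq P1 hxm hx1 hgen1
  have hB : y ∉ P2 ⊔ maximalIdeal S ^ 2 := notMem_sup_sq P2 hym hy2 hgen2
  have hle : Ideal.span {x, y} ≤ maximalIdeal S := by
    rw [Ideal.span_le]
    rintro z (rfl | hz)
    · exact hxm
    · rw [Set.mem_singleton_iff.mp hz]; exact hym
  obtain ⟨l1, m1, hx⟩ := Ideal.mem_span_pair.mp (hab ▸ hxm)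
  obtain ⟨l2, m2, hy⟩ := Ideal.mem_span_pair.mp (hab ▸ hym)
  -- products of two elements of `𝔪` lie in `𝔪 ^ 2`
  have hmul : ∀ {c d : S}, c ∈ maximalIdeal S → d ∈ maximalIdeal S →
      c * d ∈ maximalIdeal S ^ 2 := by
    intro c d hc hd
    rw [pow_two]; exact Ideal.mul_mem_mul hc hd
  by_cases hΔ : IsUnit (l1 * m2 - m1 * l2)
  · refine le_antisymm ?_ hle
    rw [hab]
    exact span_pair_le_of_det hx.symm hy.symm hΔ
  · exfalso
    have hΔm : l1 * m2 - m1 * l2 ∈ maximalIdeal S := (mem_maximalIdeal _).mpr hΔ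
    -- a relation `c1 x + c2 y ∈ 𝔪 ^ 2` with `c2` a unit contradicts `hB`
    have keyB : ∀ c1 c2 : S, IsUnit c2 → c1 * x + c2 * y ∈ maximalIdeal S ^ 2 → False := by
      intro c1 c2 hc2 hrel
      obtain ⟨v, rfl⟩ := hc2
      apply hB
      have : y = (↑v⁻¹ : S) * (-c1) * x + (↑v⁻¹ : S) * (c1 * x + (v : S) * y) := by
        have h1 : (↑v⁻¹ : S) * ((v : S) * y) = y := by rw [← mul_assoc, Units.inv_mul, one_mul]
        linear_combination (-1 : S) * h1
      rw [this]
      exact Submodule.add_mem_sup (Ideal.mul_mem_left _ _ hx2) (Ideal.mul_mem_left _ _ hrel)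
    by_cases hl1 : IsUnit l1
    · refine keyB (-l2) l1 hl1 ?_
      have : -l2 * x + l1 * y = (l1 * m2 - m1 * l2) * b := by rw [← hx, ← hy]; ring
      rw [this]
      exact hmul hΔm hbm
    · by_cases hm1 : IsUnit m1
      · refine keyB (-m2) m1 hm1 ?_
        have : -m2 * x + m1 * y = (-(l1 * m2 - m1 * l2)) * a := by rw [← hx, ← hy]; ring
        rw [this]
        exact hmul (Ideal.neg_mem_iff _ |>.mpr hΔm) ham
      · -- `x ∈ 𝔪 ^ 2`
        apply hA
        have hl1m : l1 ∈ maximalIdeal S := (mem_maximalIdeal _).mpr hl1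
        have hm1m : m1 ∈ maximalIdeal S := (mem_maximalIdeal _).mpr hm1
        rw [← hx]
        exact Ideal.mem_sup_right (Ideal.add_mem _ (hmul hl1m ham) (hmul hm1m hbm))

/-- **(D1.6), second half.** In a noetherian local ring with `𝔪 = (x, y)`, a prime containing `x`
but not `y` is `(x)`. -/
theorem prime_eq_span_singleton [IsNoetherianRing S] (x y : S) (P : Ideal S) [hP : P.IsPrime]
    (hmax : maximalIdeal S = Ideal.span {x, y}) (hx : x ∈ P) (hy : y ∉ P) :
    P = Ideal.span {x} := by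
  refine le_antisymm ?_ ((Ideal.span_singleton_le_iff_mem _).mpr hx)
  have hstep : P ≤ Ideal.span {x} ⊔ maximalIdeal S • P := by
    intro f hf
    have hfm : f ∈ maximalIdeal S := prime_le_maximalIdeal P hf
    rw [hmax] at hfm
    obtain ⟨c, d, hcd⟩ := Ideal.mem_span_pair.mp hfm
    have hdy : d * y ∈ P := by
      have : d * y = f - c * x := by rw [← hcd]; ring
      rw [this]
      exact P.sub_mem hf (P.mul_mem_left _ hx)
    have hd : d ∈ P := (hP.mem_or_mem hdy).resolve_right hy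
    rw [← hcd]
    refine Submodule.add_mem_sup (Ideal.mul_mem_left _ _ (Ideal.mem_span_singleton_self x)) ?_
    rw [mul_comm d y]
    have hym : y ∈ maximalIdeal S := by rw [hmax]; exact Ideal.subset_span (by simp)
    exact Submodule.smul_mem_smul hym hd
  exact Submodule.le_of_le_smul_of_le_jacobson_bot (IsNoetherian.noetherian P)
    (maximalIdeal_le_jacobson _) hstep

/-- **R3 = (D1.5)–(D1.7): the level-`q` node is regular with `𝔪 = (x, y)`, the two vertical primes
are `(x)` and `(y)`, and the thickness is one (`x y = π e` with `e` a unit).** -/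
theorem node_regular [IsDomain S] [IsNoetherianRing S] (x y p e a b : S) (P1 P2 : Ideal S)
    [hP1 : P1.IsPrime] [hP2 : P2.IsPrime]
    (hy1 : y ∈ P1) (hp1 : p ∈ P1) (hx2 : x ∈ P2) (hp2 : p ∈ P2) (hx1 : x ∉ P1) (hy2 : y ∉ P2)
    (hgen1 : maximalIdeal S ≤ P1 ⊔ Ideal.span {x})
    (hgen2 : maximalIdeal S ≤ P2 ⊔ Ideal.span {y})
    (hab : maximalIdeal S = Ideal.span {a, b})
    (hxy : x * y = p * e) :
    maximalIdeal S = Ideal.span {x, y} ∧ P2 = Ideal.span {x} ∧ P1 = Ideal.span {y} ∧
      Prime x ∧ Prime y ∧ IsUnit e := by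
  have hmax := maximalIdeal_eq_span_pair_of_branches x y a b P1 P2 hy1 hx2 hx1 hy2 hgen1 hgen2 hab
  have hP2eq : P2 = Ideal.span {x} := prime_eq_span_singleton x y P2 hmax hx2 hy2
  have hmax' : maximalIdeal S = Ideal.span {y, x} := by rw [hmax, Set.pair_comm]
  have hP1eq : P1 = Ideal.span {y} := prime_eq_span_singleton y x P1 hmax' hy1 hx1
  have hx0 : x ≠ 0 := fun h => hx1 (h ▸ P1.zero_mem)
  have hy0 : y ≠ 0 := fun h => hy2 (h ▸ P2.zero_mem)
  have hxprime : Prime x := (Ideal.span_singleton_prime hx0).mp (hP2eq ▸ hP2)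
  have hyprime : Prime y := (Ideal.span_singleton_prime hy0).mp (hP1eq ▸ hP1)
  refine ⟨hmax, hP2eq, hP1eq, hxprime, hyprime, ?_⟩
  -- `p ∈ (x) ∩ (y) = (x y)`
  obtain ⟨g, hg⟩ := Ideal.mem_span_singleton'.mp (hP2eq ▸ hp2)
  have hgy : g ∈ P1 := by
    have : g * x ∈ P1 := hg ▸ hp1
    exact (hP1.mem_or_mem this).resolve_right hx1
  obtain ⟨f, hf⟩ := Ideal.mem_span_singleton'.mp (hP1eq ▸ hgy)
  have hfe : x * y * (f * e) = x * y * 1 := by
    rw [mul_one]
    calc x * y * (f * e) = (f * y * x) * e := by ring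
      _ = p * e := by rw [hf, hg]
      _ = x * y := hxy.symm
  have : f * e = 1 := mul_left_cancel₀ (mul_ne_zero hx0 hy0) hfe
  exact IsUnit.of_mul_eq_one f (by rw [mul_comm]; exact this)

end Core

end Fermat.Agent.ES.P36.NodeReg10
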