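/-
Program P (S36), chapter REG, brick R6α (helper10): FEEDING THE EISENSTEIN STEP at a triple point,
abstract part (Mathlib + `EisStep26` + `NodeReg10` + `NodeParam10`).

`S` = the regular local ring of the level-`q` chart at a node (`𝔪 = (x, y)`, `x`, `y` prime: output
of R3), `T ⊇ S` the integral closure of `S` in `F'' = F'(z)`, `z = t₂ − c`, `H ∈ S[Z]` the minimal
polynomial of `z`.  The hypotheses `EisHyp s' s H` of `EisStep26` are obtained WITHOUT any polynomial
Kronecker congruence: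

* `coeff_mem_of_mem_maximal` : if `z` lies in EVERY maximal ideal of `T` then all lower coefficients
  of `H` lie in `𝔪_S` (`H ≡ Z^n mod 𝔪_S`).  [Model: `t₂ − c ∈ z''` for every point `z''` over the
  node, by the elementwise Kronecker relations on the three components.]
* `norm_congr_sq` : if `N ∈ S` satisfies `N ≡ s' mod (x)` and `N ≡ a mod (y)` with `a ∈ 𝔪²`, and
  `s' ∈ (y) + 𝔪²`, then `N ≡ s' mod 𝔪²`.  [Model: `N = N_{F''/F'}(z)`; the two congruences are
  `NormRam20.norm_congr_single_insep` on `O2'` (`z^q ≡ t₁ − c' = s'` on `v₃`) and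
  `NormRam20.norm_congr_ram` on `O1'` (`z ≡ t₁^q − c ∈ 𝔪²` on `v₁`, `z ≡ t − c` on `v₂`).]
* `param_of_kron` : Program N's Kronecker data (`x ∣ s − c^q`, `y ∣ s' − c'^q`, `s`, `s'` uniformisers
  of the two branches) give `𝔪 = (s', s)`, `s`, `s'` prime, `s ∤ s'`, `s' ∤ s`.
* `eisHyp_of_norm` : the assembly `EisHyp s' s H`.
-/
import Mathlib
import Fermat.Agent.ES.P36.EisStep26
import Fermat.Agent.ES.P36.NodeReg10
import Fermat.Agent.ES.P36.NodeParam10

set_option autoImplicit false
set_option linter.unusedSectionVars false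
set_option linter.style.haveILetI false

namespace Fermat.Agent.ES.P36.EisFeed10

open IsLocalRing Polynomial

/-! ### `H ≡ Z ^ n` modulo `𝔪_S` -/

section Radical

variable {S : Type*} [CommRing S] [IsLocalRing S] {T : Type*} [CommRing T] [Algebra S T]
  [Algebra.IsIntegral S T]

/-- A monic polynomial over a field dividing a power of `X` is a power of `X`. -/
theorem eq_X_pow_of_dvd_X_pow {k : Type*} [Field k] {P : k[X]} (hP : P.Monic) {N : ℕ}
    (h : P ∣ X ^ N) : P = X ^ P.natDegree := by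
  obtain ⟨j, -, hj⟩ := (dvd_prime_pow Polynomial.prime_X N).mp h
  have := eq_of_monic_of_associated hP (monic_X_pow j) hj
  rw [this, natDegree_X_pow]

/-- **`H ≡ Z ^ n mod 𝔪_S`.** `T` integral over the local ring `S`, `z ∈ T` lying in every maximal
ideal of `T`, `H` monic generating the kernel of `S[Z] → T`, `Z ↦ z`. -/
theorem coeff_mem_of_mem_maximal (z : T) (hz : ∀ M : Ideal T, M.IsMaximal → z ∈ M)
    (H : S[X]) (hH : H.Monic)
    (hker : ∀ A : S[X], A.eval₂ (algebraMap S T) z = 0 → H ∣ A) :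
    ∀ i < H.natDegree, H.coeff i ∈ maximalIdeal S := by
  classical
  set k := ResidueField S
  set Hbar : k[X] := H.map (residue S) with hHbar
  have hHbarm : Hbar.Monic := hH.map _
  -- `T` as an `S[X]`-algebra
  let φ : S[X] →+* T := eval₂RingHom (algebraMap S T) z
  letI : Algebra S[X] T := φ.toAlgebra
  have hφ : ∀ A : S[X], algebraMap S[X] T A = A.eval₂ (algebraMap S T) z := fun A => rfl
  haveI : IsScalarTower S S[X] T := IsScalarTower.of_algebraMap_eq fun s => by
    rw [hφ, Polynomial.algebraMap_apply, Algebra.algebraMap_self, RingHom.id_apply, eval₂_C]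
  haveI : Algebra.IsIntegral S[X] T := Algebra.IsIntegral.tower_top (R := S) (S := S[X]) (T := T)
  -- every maximal ideal of `k[X]` containing `H̄` contains `X`
  have hmax : ∀ Q : Ideal k[X], Q.IsMaximal → Hbar ∈ Q → (X : k[X]) ∈ Q := by
    intro Q hQ hHQ
    have hsurj : Function.Surjective (mapRingHom (residue S)) :=
      map_surjective _ (residue_surjective)
    haveI hq : (Q.comap (mapRingHom (residue S))).IsMaximal :=
      Ideal.comap_isMaximal_of_surjective _ hsurj
    set q := Q.comap (mapRingHom (residue S)) with hqdef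
    have hHq : H ∈ q := by
      rw [hqdef, Ideal.mem_comap]
      exact hHQ
    -- the kernel of `S[X] → T` lies in `q`
    have hkerq : (⊥ : Ideal T).comap (algebraMap S[X] T) ≤ q := by
      intro A hA
      rw [Ideal.mem_comap, Ideal.mem_bot, hφ] at hA
      obtain ⟨D, rfl⟩ := hker A hA
      exact Ideal.mul_mem_right _ _ hHq
    obtain ⟨Q', -, hQ'prime, hQ'q⟩ :=
      Ideal.exists_ideal_over_prime_of_isIntegral q (⊥ : Ideal T) hkerq
    obtain ⟨M, hM, hQ'M⟩ := Ideal.exists_le_maximal Q' hQ'prime.ne_top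
    have hqM : q ≤ M.comap (algebraMap S[X] T) := by
      rw [← hQ'q]
      exact Ideal.comap_mono hQ'M
    have hMne : M.comap (algebraMap S[X] T) ≠ ⊤ := by
      intro htop
      have : (1 : S[X]) ∈ M.comap (algebraMap S[X] T) := by rw [htop]; trivial
      rw [Ideal.mem_comap, map_one] at this
      exact hM.ne_top ((Ideal.eq_top_iff_one _).mpr this)
    have hqeq : q = M.comap (algebraMap S[X] T) := hq.eq_of_le hMne hqM
    have hXq : (X : S[X]) ∈ q := by
      rw [hqeq, Ideal.mem_comap, hφ, eval₂_X]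
      exact hz M hM
    have : mapRingHom (residue S) (X : S[X]) ∈ Q := hXq
    simpa using this
  -- hence `X` lies in the radical of `(H̄)`
  have hjac : (X : k[X]) ∈ (Ideal.span {Hbar}).jacobson := by
    rw [Ideal.jacobson, Ideal.mem_sInf]
    rintro Q ⟨hle, hQ⟩
    exact hmax Q hQ (hle (Ideal.mem_span_singleton_self _))
  rw [← Ideal.radical_eq_jacobson] at hjac
  obtain ⟨N, hN⟩ := hjac
  have hdvd : Hbar ∣ X ^ N := Ideal.mem_span_singleton.mp hN
  have heq : Hbar = X ^ Hbar.natDegree := eq_X_pow_of_dvd_X_pow hHbarm hdvd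
  have hdeg : Hbar.natDegree = H.natDegree := hH.natDegree_map _
  intro i hi
  have hcoeff : Hbar.coeff i = 0 := by
    rw [heq, coeff_X_pow, if_neg]
    rw [hdeg]; exact hi.ne
  rw [hHbar, coeff_map] at hcoeff
  exact (residue_eq_zero_iff _).mp hcoeff

end Radical

/-! ### The constant coefficient modulo `𝔪 ^ 2` and the regular parameters -/

section Param

variable {S : Type*} [CommRing S] [IsLocalRing S] [IsNoetherianRing S] [IsDomain S]

/-- `x ∉ (y) + 𝔪 ^ 2` when `𝔪 = (x, y)`, `y` prime, `y ∤ x`. -/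
theorem notMem_span_sup_sq {x y : S} (hy : Prime y) (hyx : ¬ y ∣ x)
    (hmax : maximalIdeal S = Ideal.span {x, y}) :
    x ∉ Ideal.span {y} ⊔ maximalIdeal S ^ 2 := by
  haveI : (Ideal.span {y}).IsPrime := (Ideal.span_singleton_prime hy.ne_zero).mpr hy
  have hxm : x ∈ maximalIdeal S := by rw [hmax]; exact Ideal.subset_span (by simp)
  refine NodeReg10.notMem_sup_sq (Ideal.span {y}) hxm
    (fun h => hyx (Ideal.mem_span_singleton.mp h)) ?_
  rw [hmax, Ideal.span_insert, sup_comm]

/-- **The constant coefficient.** `N ≡ s' mod (x)`, `N ≡ a mod (y)` with `a ∈ 𝔪 ^ 2`, and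
`s' ∈ (y) + 𝔪 ^ 2`: then `N ≡ s' mod 𝔪 ^ 2`. -/
theorem norm_congr_sq {x y N s' a : S} (hy : Prime y) (hyx : ¬ y ∣ x)
    (hmax : maximalIdeal S = Ideal.span {x, y})
    (hs' : s' ∈ Ideal.span {y} ⊔ maximalIdeal S ^ 2)
    (hN2 : x ∣ N - s') (hN1 : y ∣ N - a) (ha : a ∈ maximalIdeal S ^ 2) :
    N - s' ∈ maximalIdeal S ^ 2 := by
  obtain ⟨g, hg⟩ := hN2
  have hxm : x ∈ maximalIdeal S := by rw [hmax]; exact Ideal.subset_span (by simp)
  by_cases hgu : IsUnit g
  · exfalso
    apply notMem_span_sup_sq hy hyx hmax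
    obtain ⟨v, rfl⟩ := hgu
    obtain ⟨p, hp, m, hm, hpm⟩ := Submodule.mem_sup.mp hs'
    obtain ⟨h2, hh2⟩ := hN1
    -- `x v = N − s' = (y h2 + a) − (p + m)`
    have hxv : x = (↑v⁻¹ : S) * (y * h2 - p) + (↑v⁻¹ : S) * (a - m) := by
      have h1 : x * (v : S) = y * h2 + a - (p + m) := by
        rw [← hg, hpm]; linear_combination hh2
      have h3 : x = (↑v⁻¹ : S) * (x * (v : S)) := by
        rw [mul_comm x, ← mul_assoc, Units.inv_mul, one_mul]
      rw [h3, h1]; ring
    rw [hxv]
    refine Submodule.add_mem_sup (Ideal.mul_mem_left _ _ (Ideal.sub_mem _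
      (Ideal.mul_mem_right _ _ (Ideal.mem_span_singleton_self y)) hp))
      (Ideal.mul_mem_left _ _ (Ideal.sub_mem _ ha hm))
  · rw [hg, pow_two]
    exact Ideal.mul_mem_mul hxm ((mem_maximalIdeal _).mpr hgu)

/-- **Kronecker parameters.** -/
theorem param_of_kron {x y s s' c c' : S} {q : ℕ} (hq : 2 ≤ q) (hx : Prime x) (hy : Prime y)
    (hxy : ¬ x ∣ y) (hyx : ¬ y ∣ x) (hmax : maximalIdeal S = Ideal.span {x, y})
    (hc : c ∈ maximalIdeal S) (hc' : c' ∈ maximalIdeal S)
    (hs : x ∣ s - c ^ q) (hs' : y ∣ s' - c' ^ q)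
    (hgen1 : maximalIdeal S ≤ Ideal.span {y} ⊔ Ideal.span {s})
    (hgen2 : maximalIdeal S ≤ Ideal.span {x} ⊔ Ideal.span {s'}) :
    maximalIdeal S = Ideal.span {s', s} ∧ Prime s ∧ Prime s' ∧ ¬ s ∣ s' ∧ ¬ s' ∣ s ∧
      s' ∈ Ideal.span {y} ⊔ maximalIdeal S ^ 2 := by
  have hxm : x ∈ maximalIdeal S := by rw [hmax]; exact Ideal.subset_span (by simp)
  have hym : y ∈ maximalIdeal S := by rw [hmax]; exact Ideal.subset_span (by simp)
  have hpowsq : ∀ {w : S}, w ∈ maximalIdeal S → w ^ q ∈ maximalIdeal S ^ 2 := fun hw =>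
    Ideal.pow_le_pow_right hq (Ideal.pow_mem_pow hw q)
  have hsqle : maximalIdeal S ^ 2 ≤ maximalIdeal S := Ideal.pow_le_self two_ne_zero
  -- the generic half: `s = g x + c ^ q` with `g` a unit
  have half : ∀ {x y s c : S}, Prime x → Prime y → ¬ y ∣ x → x ∈ maximalIdeal S →
      c ∈ maximalIdeal S → x ∣ s - c ^ q →
      maximalIdeal S ≤ Ideal.span {y} ⊔ Ideal.span {s} →
      ∃ g : S, IsUnit g ∧ s - g * x ∈ maximalIdeal S ^ 2 := by
    intro x y s c hx hy hxy hxm hc hs hgen
    haveI : (Ideal.span {y}).IsPrime := (Ideal.span_singleton_prime hy.ne_zero).mpr hy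
    obtain ⟨g, hg⟩ := hs
    have hsm : s ∈ maximalIdeal S := by
      have : s = x * g + c ^ q := by linear_combination hg
      rw [this]
      exact Ideal.add_mem _ (Ideal.mul_mem_right _ _ hxm) (hsqle (hpowsq hc))
    have hsy : s ∉ Ideal.span {y} := by
      intro h
      have hle : maximalIdeal S ≤ Ideal.span {y} := by
        refine hgen.trans (sup_le le_rfl ?_)
        exact (Ideal.span_singleton_le_iff_mem _).mpr h
      exact hxy (Ideal.mem_span_singleton.mp (hle hxm))
    have hns := NodeReg10.notMem_sup_sq (Ideal.span {y}) hsm hsy hgen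
    refine ⟨g, ?_, ?_⟩
    · by_contra hgu
      apply hns
      have : s = x * g + c ^ q := by linear_combination hg
      rw [this]
      refine Ideal.mem_sup_right (Ideal.add_mem _ ?_ (hpowsq hc))
      rw [pow_two]
      exact Ideal.mul_mem_mul hxm ((mem_maximalIdeal _).mpr hgu)
    · have : s - g * x = c ^ q := by linear_combination hg
      rw [this]
      exact hpowsq hc
  obtain ⟨g, hgu, hsg⟩ := half hx hy hyx hxm hc hs hgen1
  have hmax' : maximalIdeal S = Ideal.span {y, x} := by rw [hmax, Set.pair_comm]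
  obtain ⟨g', hg'u, hs'g⟩ := half hy hx hxy hym hc' hs' hgen2
  obtain ⟨v, rfl⟩ := hgu
  obtain ⟨v', rfl⟩ := hg'u
  have hpx : Prime ((v : S) * x) := (Associated.prime_iff ⟨v, by rw [mul_comm]⟩).mp hx
  have hpy : Prime ((v' : S) * y) := (Associated.prime_iff ⟨v', by rw [mul_comm]⟩).mp hy
  have hdvd1 : ¬ (v : S) * x ∣ (v' : S) * y := by
    intro h
    apply hxy
    have h1 : x ∣ (v' : S) * y := (Dvd.intro_left _ rfl).trans h
    exact (hx.dvd_or_dvd h1).resolve_left
      (fun h2 => hx.not_isUnit (isUnit_of_dvd_unit h2 v'.isUnit))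
  have hdvd2 : ¬ (v' : S) * y ∣ (v : S) * x := by
    intro h
    apply hyx
    have h1 : y ∣ (v : S) * x := (Dvd.intro_left _ rfl).trans h
    exact (hy.dvd_or_dvd h1).resolve_left
      (fun h2 => hy.not_isUnit (isUnit_of_dvd_unit h2 v.isUnit))
  have hmaxv : maximalIdeal S = Ideal.span {(v : S) * x, (v' : S) * y} := by
    rw [hmax]
    apply le_antisymm
    · rw [Ideal.span_le]
      rintro w (rfl | hw)
      · have : w = (↑v⁻¹ : S) * ((v : S) * w) := by
          rw [← mul_assoc, Units.inv_mul, one_mul]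
        rw [this]
        exact Ideal.mul_mem_left _ _ (Ideal.subset_span (by simp))
      · rw [Set.mem_singleton_iff.mp hw]
        have : y = (↑v'⁻¹ : S) * ((v' : S) * y) := by
          rw [← mul_assoc, Units.inv_mul, one_mul]
        rw [this]
        exact Ideal.mul_mem_left _ _ (Ideal.subset_span (by simp))
    · rw [Ideal.span_le]
      rintro w (rfl | hw)
      · exact Ideal.mul_mem_left _ _ (Ideal.subset_span (by simp))
      · rw [Set.mem_singleton_iff.mp hw]
        exact Ideal.mul_mem_left _ _ (Ideal.subset_span (by simp))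
  obtain ⟨h1, h2, h3, h4, h5⟩ :=
    NodeParam10.param_congr hpx hpy hdvd1 hdvd2 hmaxv hsg hs'g
  refine ⟨h1, h2, h3, h4, h5, ?_⟩
  have : s' = (v' : S) * y + (s' - (v' : S) * y) := by ring
  rw [this]
  exact Submodule.add_mem_sup (Ideal.mul_mem_left _ _ (Ideal.mem_span_singleton_self y)) hs'g

end Param

/-! ### Assembly -/

section Assembly

variable {S : Type*} [CommRing S] [IsLocalRing S] [IsNoetherianRing S] [IsDomain S]
  {T : Type*} [CommRing T] [Algebra S T] [Algebra.IsIntegral S T]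

/-- **`EisHyp s' s H` from Program N's node data, the radical condition and the two norm
congruences.** `ε` is the sign `(-1) ^ n` relating `H(0)` and the norm `N`. -/
theorem eisHyp_of_norm {x y s s' c c' N a ε : S} {q : ℕ} (hq : 2 ≤ q)
    (hx : Prime x) (hy : Prime y) (hxy : ¬ x ∣ y) (hyx : ¬ y ∣ x)
    (hmax : maximalIdeal S = Ideal.span {x, y})
    (hc : c ∈ maximalIdeal S) (hc' : c' ∈ maximalIdeal S)
    (hs : x ∣ s - c ^ q) (hs' : y ∣ s' - c' ^ q)
    (hgen1 : maximalIdeal S ≤ Ideal.span {y} ⊔ Ideal.span {s})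
    (hgen2 : maximalIdeal S ≤ Ideal.span {x} ⊔ Ideal.span {s'})
    (z : T) (hz : ∀ M : Ideal T, M.IsMaximal → z ∈ M)
    (H : S[X]) (hH : H.Monic) (hdeg : 0 < H.natDegree)
    (hker : ∀ A : S[X], A.eval₂ (algebraMap S T) z = 0 → H ∣ A)
    (hε : IsUnit ε) (hHN : H.coeff 0 = ε * N)
    (hN2 : x ∣ N - s') (hN1 : y ∣ N - a) (ha : a ∈ maximalIdeal S ^ 2) :
    EisStep26.EisHyp s' s H := by
  obtain ⟨hm, hsp, -, hss', -, hs'mem⟩ :=
    param_of_kron hq hx hy hxy hyx hmax hc hc' hs hs' hgen1 hgen2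
  refine ⟨hm, hsp, hss', hH, hdeg, coeff_mem_of_mem_maximal z hz H hH hker, ε, hε, ?_⟩
  have hcong := norm_congr_sq hy hyx hmax hs'mem hN2 hN1 ha
  have : H.coeff 0 - ε * s' = ε * (N - s') := by rw [hHN]; ring
  rw [this]
  exact Ideal.mul_mem_left _ _ hcong

end Assembly

end Fermat.Agent.ES.P36.EisFeed10
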