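/-
Program P (S36), chapter REG, brick R3 (helper10), third file: the LEVEL-`q` NODE IS REGULAR in
CHART FORM (Program N/O vocabulary: `B : Subalgebra R F`, `𝔪 : Ideal B`, `O1 O2 : ValuationSubring F`,
`C := NodalSmooth13.locSub B 𝔪 ⊂ F`).

INPUT at a closed point `𝔪` lying on both components:
* the chart facts `leO`, `unif`, `pi_nonunit` for `O1`, `O2` (π a uniformiser of both), `hon1`, `hon2`;
* `hne1`, `hne2`: neither component is centred at the closed point (some `f ∈ 𝔪`, `f ∉ π O_j`);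
* `x y e : B` with the four clauses of main's `NodeStrong4.StrongCoords π B O1 O2 𝔪`;
* `htwo`: `𝔪 B_𝔪` is generated by TWO elements (element form) — the output of the discriminant
  lemma (D0)–(D1.5) (`DiscReg5` ∘ `QuotDisc3` ∘ `RegLocal3`, packaged by helper3's `NodeDisc3`).

OUTPUT (`nodeReg_chart`): in `C = B_𝔪`: `𝔪_C = (x, y)`; `x`, `y` are prime elements, `x ∤ y`, `y ∤ x`;
`c ∈ π O2 ↔ x ∣ c` and `c ∈ π O1 ↔ y ∣ c` for `c ∈ C` (the vertical primes are `(x)`, `(y)`);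
`e ∉ 𝔪` (thickness one: `π = e⁻¹ x y` in `C`).
-/
import Mathlib
import Fermat.Agent.ES.N34.NodalSmooth13
import Fermat.Agent.ES.P36.NodeReg10

set_option autoImplicit false
set_option linter.unusedSectionVars false
set_option linter.style.haveILetI false

namespace Fermat.Agent.ES.P36.NodeRegChart10

open IsLocalRing Fermat.Agent.ES.N34.NodalCore13 Fermat.Agent.ES.N34.NodalSmooth13

variable {R F : Type*} [CommRing R] [Field F] [Algebra R F]

section Centre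

variable (π : R) (B : Subalgebra R F) (O : ValuationSubring F) (𝔪 : Ideal B) [h𝔪 : 𝔪.IsPrime]

/-- `B_𝔪 ⊆ O` when the component of `O` passes through `𝔪`. -/
theorem locSub_le (leO : ∀ x ∈ B, x ∈ O)
    (unif : ∀ x ∈ O, x⁻¹ ∉ O → ∃ c ∈ O, x = algebraMap R F π * c)
    (hon : ∀ b : B, (∃ c ∈ O, (b : F) = algebraMap R F π * c) → b ∈ 𝔪) :
    ∀ c ∈ locSub B 𝔪, c ∈ O := by
  rintro c ⟨a, d, hd, h⟩
  have hd0 := coe_ne_zero_of_notMem B 𝔪 hd
  have hdinv : ((d : F))⁻¹ ∈ O := by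
    by_contra hcon
    obtain ⟨o, ho, hdo⟩ := unif _ (leO _ d.2) hcon
    exact hd (hon d ⟨o, ho, hdo⟩)
  have : c = (a : F) * ((d : F))⁻¹ := by rw [← h]; field_simp
  rw [this]
  exact O.mul_mem _ _ (leO _ a.2) hdinv

/-- The centre of `O` on `B_𝔪`: the elements of `B_𝔪` lying in `π O`. -/
def centre (hCO : ∀ c ∈ locSub B 𝔪, c ∈ O) : Ideal ↥(locSub B 𝔪) where
  carrier := {c | ∃ o ∈ O, (c : F) = algebraMap R F π * o}
  zero_mem' := ⟨0, O.zero_mem, by simp⟩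
  add_mem' := by
    rintro a b ⟨o, ho, hao⟩ ⟨o', ho', hbo⟩
    exact ⟨o + o', O.add_mem _ _ ho ho', by push_cast; rw [hao, hbo]; ring⟩
  smul_mem' := by
    rintro a b ⟨o, ho, hbo⟩
    exact ⟨(a : F) * o, O.mul_mem _ _ (hCO _ a.2) ho, by
      show ((a * b : ↥(locSub B 𝔪)) : F) = _
      push_cast; rw [hbo]; ring⟩

theorem mem_centre (hCO : ∀ c ∈ locSub B 𝔪, c ∈ O) (c : ↥(locSub B 𝔪)) :
    c ∈ centre π B O 𝔪 hCO ↔ ∃ o ∈ O, (c : F) = algebraMap R F π * o := Iff.rfl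

/-- The centre is a prime ideal (`π O` is the maximal ideal of `O`). -/
theorem centre_isPrime (hCO : ∀ c ∈ locSub B 𝔪, c ∈ O)
    (pi_nonunit : (algebraMap R F π)⁻¹ ∉ O)
    (unif : ∀ x ∈ O, x⁻¹ ∉ O → ∃ c ∈ O, x = algebraMap R F π * c) :
    (centre π B O 𝔪 hCO).IsPrime := by
  have hπ0 : algebraMap R F π ≠ 0 := by
    intro h0
    apply pi_nonunit
    rw [h0, inv_zero]
    exact O.zero_mem
  refine ⟨?_, ?_⟩
  · intro htop
    have h1 : (1 : ↥(locSub B 𝔪)) ∈ centre π B O 𝔪 hCO := by rw [htop]; trivial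
    obtain ⟨o, ho, h⟩ := h1
    apply pi_nonunit
    have : (algebraMap R F π)⁻¹ = o := by
      have h' : (1 : F) = algebraMap R F π * o := by simpa using h
      field_simp
      exact h'
    rw [this]; exact ho
  · intro a b hab
    by_cases ha : a ∈ centre π B O 𝔪 hCO
    · exact Or.inl ha
    · right
      have hainv : ((a : F))⁻¹ ∈ O := by
        by_contra hcon
        exact ha (unif _ (hCO _ a.2) hcon)
      have ha0 : (a : F) ≠ 0 := by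
        intro h0
        apply ha
        have : a = 0 := Subtype.ext h0
        rw [this]; exact Ideal.zero_mem _
      obtain ⟨o, ho, h⟩ := hab
      refine ⟨((a : F))⁻¹ * o, O.mul_mem _ _ hainv ho, ?_⟩
      have h' : (a : F) * (b : F) = algebraMap R F π * o := h
      field_simp
      linear_combination h'

end Centre

section Main

variable (π : R) (B : Subalgebra R F) (𝔪 : Ideal B) [h𝔪 : 𝔪.IsPrime]

/-- An element of `B_𝔪` with numerator in the ideal `I` of `B` lies in `I B_𝔪`. -/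
theorem mem_map_of_num_mem (I : Ideal B) {z : ↥(locSub B 𝔪)} {a d : B} (ha : a ∈ I) (hd : d ∉ 𝔪)
    (h : (z : F) * (d : F) = (a : F)) : z ∈ I.map (algebraMap ↥B ↥(locSub B 𝔪)) := by
  rw [IsLocalization.mem_map_algebraMap_iff 𝔪.primeCompl]
  exact ⟨(⟨a, ha⟩, ⟨d, hd⟩), Subtype.ext h⟩

/-- `𝔪_{B_𝔪} = 𝔪 B_𝔪`. -/
theorem maximalIdeal_locSub :
    maximalIdeal ↥(locSub B 𝔪) = 𝔪.map (algebraMap ↥B ↥(locSub B 𝔪)) :=
  (IsLocalization.AtPrime.map_eq_maximalIdeal 𝔪 ↥(locSub B 𝔪)).symm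

/-- Element form ⇒ ideal form of "`𝔪 B_𝔪` is generated by `a`, `b`". -/
theorem maximalIdeal_eq_span_pair_of_elementwise {a b : B} (ha : a ∈ 𝔪) (hb : b ∈ 𝔪)
    (hgen : ∀ f ∈ 𝔪, ∃ d : B, d ∉ 𝔪 ∧ d * f ∈ Ideal.span {a, b}) :
    maximalIdeal ↥(locSub B 𝔪) = Ideal.span {algebraMap ↥B ↥(locSub B 𝔪) a,
      algebraMap ↥B ↥(locSub B 𝔪) b} := by
  have hspan : (Ideal.span {a, b}).map (algebraMap ↥B ↥(locSub B 𝔪)) =
      Ideal.span {algebraMap ↥B ↥(locSub B 𝔪) a, algebraMap ↥B ↥(locSub B 𝔪) b} := by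
    rw [Ideal.map_span, Set.image_pair]
  rw [maximalIdeal_locSub, ← hspan]
  apply le_antisymm
  · rw [Ideal.map_le_iff_le_comap]
    intro f hf
    obtain ⟨d, hd, hdf⟩ := hgen f hf
    rw [Ideal.mem_comap]
    refine mem_map_of_num_mem B 𝔪 _ hdf hd ?_
    show (f : F) * (d : F) = ((d * f : B) : F)
    push_cast; ring
  · refine Ideal.map_mono ?_
    rw [Ideal.span_le]
    rintro z (rfl | hz)
    · exact ha
    · rw [Set.mem_singleton_iff.mp hz]; exact hb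

variable (O1 O2 : ValuationSubring F)

/-- **R3 in chart form: the level-`q` node is regular, `𝔪 B_𝔪 = (x, y)`, the vertical primes are
`(x)` and `(y)`, thickness one.** -/
theorem nodeReg_chart (noethB : IsNoetherianRing B)
    (leO1 : ∀ x ∈ B, x ∈ O1) (leO2 : ∀ x ∈ B, x ∈ O2)
    (pi_nonunit1 : (algebraMap R F π)⁻¹ ∉ O1) (pi_nonunit2 : (algebraMap R F π)⁻¹ ∉ O2)
    (unif1 : ∀ x ∈ O1, x⁻¹ ∉ O1 → ∃ c ∈ O1, x = algebraMap R F π * c)
    (unif2 : ∀ x ∈ O2, x⁻¹ ∉ O2 → ∃ c ∈ O2, x = algebraMap R F π * c)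
    (hon1 : ∀ b : B, (∃ c ∈ O1, (b : F) = algebraMap R F π * c) → b ∈ 𝔪)
    (hon2 : ∀ b : B, (∃ c ∈ O2, (b : F) = algebraMap R F π * c) → b ∈ 𝔪)
    (hne1 : ∃ f ∈ 𝔪, ¬ ∃ c ∈ O1, (f : F) = algebraMap R F π * c)
    (hne2 : ∃ f ∈ 𝔪, ¬ ∃ c ∈ O2, (f : F) = algebraMap R F π * c)
    (x y e : B)
    (hx : ∃ o ∈ O2, (x : F) = algebraMap R F π * o)
    (hy : ∃ o ∈ O1, (y : F) = algebraMap R F π * o)
    (hxy : x * y = algebraMap R B π * e)
    (hspan : ∀ f ∈ 𝔪, ∃ d : B, d ∉ 𝔪 ∧ ∃ a b e' : B,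
      d * f = a * x + b * y + algebraMap R B π * e')
    (htwo : ∃ a b : B, a ∈ 𝔪 ∧ b ∈ 𝔪 ∧ ∀ f ∈ 𝔪, ∃ d : B, d ∉ 𝔪 ∧ d * f ∈ Ideal.span {a, b}) :
    maximalIdeal ↥(locSub B 𝔪) = Ideal.span {algebraMap ↥B ↥(locSub B 𝔪) x,
        algebraMap ↥B ↥(locSub B 𝔪) y} ∧
      Prime (algebraMap ↥B ↥(locSub B 𝔪) x) ∧ Prime (algebraMap ↥B ↥(locSub B 𝔪) y) ∧
      ¬ algebraMap ↥B ↥(locSub B 𝔪) x ∣ algebraMap ↥B ↥(locSub B 𝔪) y ∧
      ¬ algebraMap ↥B ↥(locSub B 𝔪) y ∣ algebraMap ↥B ↥(locSub B 𝔪) x ∧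
      (∀ c : ↥(locSub B 𝔪), (∃ o ∈ O2, (c : F) = algebraMap R F π * o) ↔
        algebraMap ↥B ↥(locSub B 𝔪) x ∣ c) ∧
      (∀ c : ↥(locSub B 𝔪), (∃ o ∈ O1, (c : F) = algebraMap R F π * o) ↔
        algebraMap ↥B ↥(locSub B 𝔪) y ∣ c) ∧
      e ∉ 𝔪 := by
  classical
  have hCO1 := locSub_le π B O1 𝔪 leO1 unif1 hon1
  have hCO2 := locSub_le π B O2 𝔪 leO2 unif2 hon2
  haveI hP1 := centre_isPrime π B O1 𝔪 hCO1 pi_nonunit1 unif1
  haveI hP2 := centre_isPrime π B O2 𝔪 hCO2 pi_nonunit2 unif2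
  haveI : IsNoetherianRing ↥(locSub B 𝔪) :=
    IsLocalization.isNoetherianRing 𝔪.primeCompl _ noethB
  set P1 := centre π B O1 𝔪 hCO1 with hP1def
  set P2 := centre π B O2 𝔪 hCO2 with hP2def
  set xC : ↥(locSub B 𝔪) := algebraMap ↥B ↥(locSub B 𝔪) x with hxC
  set yC : ↥(locSub B 𝔪) := algebraMap ↥B ↥(locSub B 𝔪) y with hyC
  set pC : ↥(locSub B 𝔪) := algebraMap ↥B ↥(locSub B 𝔪) (algebraMap R B π) with hpC
  set eC : ↥(locSub B 𝔪) := algebraMap ↥B ↥(locSub B 𝔪) e with heC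
  have hpF : ((algebraMap R B π : B) : F) = algebraMap R F π := rfl
  -- memberships
  have hy1 : yC ∈ P1 := hy
  have hx2 : xC ∈ P2 := hx
  have hp1 : pC ∈ P1 := ⟨1, O1.one_mem, by rw [mul_one]; rfl⟩
  have hp2 : pC ∈ P2 := ⟨1, O2.one_mem, by rw [mul_one]; rfl⟩
  -- generation of `𝔪_C` modulo each centre
  have hgen : ∀ (P : Ideal ↥(locSub B 𝔪)) (w w' : ↥(locSub B 𝔪)), w' ∈ P → pC ∈ P →
      (∀ f ∈ 𝔪, ∃ d : B, d ∉ 𝔪 ∧ ∃ a b e' : B, (d : F) * (f : F) =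
        (a : F) * (w : F) + (b : F) * (w' : F) + algebraMap R F π * (e' : F)) →
      maximalIdeal ↥(locSub B 𝔪) ≤ P ⊔ Ideal.span {w} := by
    intro P w w' hw' hpP hsp z hz
    obtain ⟨a0, d0, hd0, hz0⟩ := z.2
    have ha0 : a0 ∈ 𝔪 := num_mem_of_not_isUnit B 𝔪 ((mem_maximalIdeal _).mp hz) hd0 hz0
    obtain ⟨d, hd, a, b, e', hdf⟩ := hsp a0 ha0
    have hdd : d * d0 ∉ 𝔪 := fun hh => (h𝔪.mem_or_mem hh).elim hd hd0
    have hdd0 : ((d * d0 : B) : F) ≠ 0 := coe_ne_zero_of_notMem B 𝔪 hdd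
    set u : ↥(locSub B 𝔪) := ⟨(((d * d0 : B) : F))⁻¹, inv_mem_locSub B 𝔪 hdd⟩ with hu
    have hzeq : z = u * (algebraMap ↥B ↥(locSub B 𝔪) b * w' +
        algebraMap ↥B ↥(locSub B 𝔪) e' * pC) + u * algebraMap ↥B ↥(locSub B 𝔪) a * w := by
      apply Subtype.ext
      show (z : F) = (((d * d0 : B) : F))⁻¹ * ((b : F) * (w' : F) + (e' : F) * algebraMap R F π)
        + (((d * d0 : B) : F))⁻¹ * (a : F) * (w : F)
      have h1 : (z : F) * ((d * d0 : B) : F) = (d : F) * (a0 : F) := by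
        push_cast; rw [← hz0]; ring
      field_simp
      rw [h1, hdf]; ring
    rw [hzeq]
    refine Submodule.add_mem_sup (Ideal.mul_mem_left _ _
      (Ideal.add_mem _ (Ideal.mul_mem_left _ _ hw') (Ideal.mul_mem_left _ _ hpP)))
      (Ideal.mul_mem_left _ _ (Ideal.mem_span_singleton_self _))
  have hgen1 : maximalIdeal ↥(locSub B 𝔪) ≤ P1 ⊔ Ideal.span {xC} := by
    refine hgen P1 xC yC hy1 hp1 ?_
    intro f hf
    obtain ⟨d, hd, a, b, e', h⟩ := hspan f hf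
    refine ⟨d, hd, a, b, e', ?_⟩
    have h' : ((d * f : B) : F) = ((a * x + b * y + algebraMap R B π * e' : B) : F) :=
      congrArg (fun z : B => (z : F)) h
    push_cast at h'
    rw [h']; rfl
  have hgen2 : maximalIdeal ↥(locSub B 𝔪) ≤ P2 ⊔ Ideal.span {yC} := by
    refine hgen P2 yC xC hx2 hp2 ?_
    intro f hf
    obtain ⟨d, hd, a, b, e', h⟩ := hspan f hf
    refine ⟨d, hd, b, a, e', ?_⟩
    have h' : ((d * f : B) : F) = ((a * x + b * y + algebraMap R B π * e' : B) : F) :=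
      congrArg (fun z : B => (z : F)) h
    push_cast at h'
    rw [h']
    show (a : F) * (x : F) + (b : F) * (y : F) + algebraMap R F π * (e' : F) =
      (b : F) * (y : F) + (a : F) * (x : F) + algebraMap R F π * (e' : F)
    ring
  -- the branches are not centred at the closed point
  have hnot : ∀ (P : Ideal ↥(locSub B 𝔪)) (w : ↥(locSub B 𝔪)),
      maximalIdeal ↥(locSub B 𝔪) ≤ P ⊔ Ideal.span {w} →
      (∃ f ∈ 𝔪, algebraMap ↥B ↥(locSub B 𝔪) f ∉ P) → w ∉ P := by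
    intro P w hle ⟨f, hf, hfP⟩ hw
    apply hfP
    have hfm : algebraMap ↥B ↥(locSub B 𝔪) f ∈ maximalIdeal ↥(locSub B 𝔪) :=
      (mem_maximalIdeal _).mpr (not_isUnit_of_mem B 𝔪 hf)
    have := hle hfm
    rwa [sup_eq_left.mpr ((Ideal.span_singleton_le_iff_mem _).mpr hw)] at this
  have hx1 : xC ∉ P1 := by
    obtain ⟨f, hf, hfn⟩ := hne1
    exact hnot P1 xC hgen1 ⟨f, hf, hfn⟩
  have hy2 : yC ∉ P2 := by
    obtain ⟨f, hf, hfn⟩ := hne2
    exact hnot P2 yC hgen2 ⟨f, hf, hfn⟩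
  -- two generators
  obtain ⟨a, b, ha, hb, hab⟩ := htwo
  have habC := maximalIdeal_eq_span_pair_of_elementwise B 𝔪 ha hb hab
  have hxyC : xC * yC = pC * eC := by
    rw [hxC, hyC, hpC, heC, ← map_mul, ← map_mul, hxy]
  obtain ⟨hmax, hP2eq, hP1eq, hxprime, hyprime, heunit⟩ :=
    NodeReg10.node_regular xC yC pC eC _ _ P1 P2 hy1 hp1 hx2 hp2 hx1 hy2 hgen1 hgen2 habC hxyC
  refine ⟨hmax, hxprime, hyprime, ?_, ?_, ?_, ?_, ?_⟩
  · intro hdvd
    apply hy2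
    rw [hP2eq]
    exact Ideal.mem_span_singleton.mpr hdvd
  · intro hdvd
    apply hx1
    rw [hP1eq]
    exact Ideal.mem_span_singleton.mpr hdvd
  · intro c
    rw [← Ideal.mem_span_singleton, ← hP2eq]
    exact (mem_centre π B O2 𝔪 hCO2 c).symm
  · intro c
    rw [← Ideal.mem_span_singleton, ← hP1eq]
    exact (mem_centre π B O1 𝔪 hCO1 c).symm
  · intro he
    exact not_isUnit_of_mem B 𝔪 he heunit

end Main

end Fermat.Agent.ES.P36.NodeRegChart10
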