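/-
Program P (S36), chapter REG, brick R3 (helper10), MODEL FORM: **the level-`M' q` nodes are regular —
per chart and per number field** (the package consumed by R6 (`CrossModel29`), by S5b
(`BranchModel15.NodeItemsP` through `NodeBelowFeed10` / `NodeBelowOf15`) and by R7).

* `NodeRegAt π B O1 O2` : at every closed point `𝔪 ∋ π` of the chart `B` through which both components
  pass there are `x y e : B` with `x y = π e` and the full conclusion of
  `NodeRegChart10.nodeReg_chart` in `C = B_𝔪` (`𝔪_C = (x, y)`, `x`, `y` prime, `x ∤ y`, `y ∤ x`,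
  `c ∈ π O2 ↔ x ∣ c`, `c ∈ π O1 ↔ y ∣ c`, `e ∉ 𝔪`), together with `B_𝔪 ⊆ O1`, `B_𝔪 ⊆ O2`;
* `TwoGenAt π B O1 O2` : the R1/R2 input at the same points (two local generators: `htwo` =
  `RegChart21.exists_two_generators`; neither component is centred at the point: `hne1`, `hne2`);
* `nodeRegAt_of` : chart facts + `StrongCoords` (Program N/O) + `TwoGenAt` ⊢ `NodeRegAt`;
* `nodeRegAt_pair` : both charts at once from `NumData13.NodalNumData` + `NodeStrong4.StrongNodes`;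
* per `K` at the `ModelDefs9` data: `TwoGenItems`, `NodeRegItems`, `nodeRegItems_of`.
-/
import Mathlib
import Fermat.Agent.ES.N35.NodeStrong4
import Fermat.Agent.ES.P36.NodeRegChart10

set_option autoImplicit false
set_option linter.unusedSectionVars false
set_option linter.style.haveILetI false
set_option synthInstance.maxHeartbeats 400000

namespace Fermat.Agent.ES.P36.NodeRegAt10

open IsLocalRing Fermat.Agent.ES.N34.NodalCore13 Fermat.Agent.ES.N34.NodalSmooth13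
  Fermat.Agent.ES.N34.NumData13 Fermat.Agent.ES.N35.NodeStrong4

section Generic

variable {R F : Type*} [CommRing R] [Field F] [Algebra R F]

/-- **R3 on one chart**: every two-branch closed point is a regular node of thickness one. -/
def NodeRegAt (π : R) (B : Subalgebra R F) (O1 O2 : ValuationSubring F) : Prop :=
  ∀ (𝔪 : Ideal B) (h𝔪 : 𝔪.IsMaximal), algebraMap R B π ∈ 𝔪 →
    ¬ OffBranch π B O1 𝔪 → ¬ OffBranch π B O2 𝔪 →
    (haveI := h𝔪.isPrime
     ∃ x y e : B, x * y = algebraMap R B π * e ∧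
      (∀ c ∈ locSub B 𝔪, c ∈ O1) ∧ (∀ c ∈ locSub B 𝔪, c ∈ O2) ∧
      maximalIdeal ↥(locSub B 𝔪) = Ideal.span {algebraMap ↥B ↥(locSub B 𝔪) x,
        algebraMap ↥B ↥(locSub B 𝔪) y} ∧
      Prime (algebraMap ↥B ↥(locSub B 𝔪) x) ∧ Prime (algebraMap ↥B ↥(locSub B 𝔪) y) ∧
      ¬ algebraMap ↥B ↥(locSub B 𝔪) x ∣ algebraMap ↥B ↥(locSub B 𝔪) y ∧
      ¬ algebraMap ↥B ↥(locSub B 𝔪) y ∣ algebraMap ↥B ↥(locSub B 𝔪) x ∧
      (∀ c : ↥(locSub B 𝔪), (∃ o ∈ O2, (c : F) = algebraMap R F π * o) ↔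
        algebraMap ↥B ↥(locSub B 𝔪) x ∣ c) ∧
      (∀ c : ↥(locSub B 𝔪), (∃ o ∈ O1, (c : F) = algebraMap R F π * o) ↔
        algebraMap ↥B ↥(locSub B 𝔪) y ∣ c) ∧
      e ∉ 𝔪)

/-- **The R1/R2 input on one chart** (`RegChart21.exists_two_generators` + non-centredness). -/
def TwoGenAt (π : R) (B : Subalgebra R F) (O1 O2 : ValuationSubring F) : Prop :=
  ∀ (𝔪 : Ideal B), 𝔪.IsMaximal → algebraMap R B π ∈ 𝔪 →
    ¬ OffBranch π B O1 𝔪 → ¬ OffBranch π B O2 𝔪 →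
    (∃ a b : B, a ∈ 𝔪 ∧ b ∈ 𝔪 ∧ ∀ f ∈ 𝔪, ∃ d : B, d ∉ 𝔪 ∧ d * f ∈ Ideal.span {a, b}) ∧
    (∃ f ∈ 𝔪, ¬ ∃ c ∈ O1, (f : F) = algebraMap R F π * c) ∧
    (∃ f ∈ 𝔪, ¬ ∃ c ∈ O2, (f : F) = algebraMap R F π * c)

/-- **R3 on one chart, from Program N/O's strong node coordinates and the two-generator input.** -/
theorem nodeRegAt_of (π : R) (B : Subalgebra R F) (O1 O2 : ValuationSubring F)
    (noethB : IsNoetherianRing B)
    (leO1 : ∀ x ∈ B, x ∈ O1) (leO2 : ∀ x ∈ B, x ∈ O2)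
    (pi_nonunit1 : (algebraMap R F π)⁻¹ ∉ O1) (pi_nonunit2 : (algebraMap R F π)⁻¹ ∉ O2)
    (unif1 : ∀ x ∈ O1, x⁻¹ ∉ O1 → ∃ c ∈ O1, x = algebraMap R F π * c)
    (unif2 : ∀ x ∈ O2, x⁻¹ ∉ O2 → ∃ c ∈ O2, x = algebraMap R F π * c)
    (hstrong : ∀ 𝔪 : Ideal B, 𝔪.IsMaximal → algebraMap R B π ∈ 𝔪 →
      ¬ OffBranch π B O1 𝔪 → ¬ OffBranch π B O2 𝔪 → StrongCoords π B O1 O2 𝔪)
    (htwo : TwoGenAt π B O1 O2) : NodeRegAt π B O1 O2 := by
  intro 𝔪 h𝔪 hπ𝔪 h1 h2
  haveI := h𝔪.isPrime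
  obtain ⟨x, y, hx, hy, ⟨e, hxy⟩, hspan⟩ := hstrong 𝔪 h𝔪 hπ𝔪 h1 h2
  obtain ⟨htwo', hne1, hne2⟩ := htwo 𝔪 h𝔪 hπ𝔪 h1 h2
  have hon1 := on_of_not_offBranch h1
  have hon2 := on_of_not_offBranch h2
  have key := NodeRegChart10.nodeReg_chart π B 𝔪 O1 O2 noethB leO1 leO2 pi_nonunit1 pi_nonunit2
    unif1 unif2 hon1 hon2 hne1 hne2 x y e hx hy hxy hspan htwo'
  exact ⟨x, y, e, hxy, NodeRegChart10.locSub_le π B O1 𝔪 leO1 unif1 hon1,
    NodeRegChart10.locSub_le π B O2 𝔪 leO2 unif2 hon2, key⟩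

end Generic

section Pair

variable {R K F : Type*} [CommRing R] [Field K] [Field F] [Algebra R K] [Algebra K F]
  [Algebra R F] [IsScalarTower R K F]

/-- **R3 on both charts** from the MODEL bundle of Program N, the strong node coordinates of Program O
and the two-generator input. -/
theorem nodeRegAt_pair {π : R} {t : F} {B0 B1 : Subalgebra R F} {O1 O2 : ValuationSubring F}
    (D : NodalNumData R K F π t B0 B1 O1 O2) (hS : StrongNodes π B0 B1 O1 O2)
    (h0 : TwoGenAt π B0 O1 O2) (h1 : TwoGenAt π B1 O1 O2) :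
    NodeRegAt π B0 O1 O2 ∧ NodeRegAt π B1 O1 O2 :=
  ⟨nodeRegAt_of π B0 O1 O2 D.noeth0 D.model.le_O1_0 D.model.le_O2_0 D.model.pi_nonunit1
      D.model.pi_nonunit2 D.model.unif1 D.model.unif2 hS.1 h0,
    nodeRegAt_of π B1 O1 O2 D.noeth1 D.model.le_O1_1 D.model.le_O2_1 D.model.pi_nonunit1
      D.model.pi_nonunit2 D.model.unif1 D.model.unif2 hS.2 h1⟩

end Pair

noncomputable section Concrete

open HahnSeries ModularCurve
open Fermat.Agent.RED.Interface4 Fermat.Agent.RED.PUR.GaussGen8 Fermat.Agent.RED.BASE.EtaQuot12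
  Fermat.Agent.RED.ModelTargets4 Fermat.Agent.ES.N34.ModelDefs9 Fermat.Agent.ES.N34.ModelTop4

variable (n e q M' : ℕ) [NeZero n] [NeZero M'] [NeZero q] (A : ValuationSubring Qbar)
  (K : IntermediateField ℚ Qbar)

set_option maxHeartbeats 4000000 in
/-- **The R1/R2 input at `K`** (target of `RegInst21`): two local generators and non-centredness at
every two-branch point of the two charts of level `M' q`. -/
def TwoGenItems : Prop :=
  ∀ (ht : tq (↥K) n e ∈ FK M' K) (hE : FK (M' * q) K ≤ fracField (AK A K))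
    (π : ↥(AK A K)) (hπ : IsUnif (AK A K) π),
    TwoGenAt π (B0 A q ht) (O1 M' q hπ hE) (O2 M' q hπ hE) ∧
      TwoGenAt π (B1 A q ht) (O1 M' q hπ hE) (O2 M' q hπ hE)

set_option maxHeartbeats 4000000 in
/-- **R3 at `K`**: the nodes of the two charts of level `M' q` are regular of thickness one. -/
def NodeRegItems : Prop :=
  ∀ (ht : tq (↥K) n e ∈ FK M' K) (hE : FK (M' * q) K ≤ fracField (AK A K))
    (π : ↥(AK A K)) (hπ : IsUnif (AK A K) π),
    NodeRegAt π (B0 A q ht) (O1 M' q hπ hE) (O2 M' q hπ hE) ∧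
      NodeRegAt π (B1 A q ht) (O1 M' q hπ hE) (O2 M' q hπ hE)

variable {n e q M' A K}

set_option maxHeartbeats 4000000 in
/-- **R3 at `K`** from Program N's MODEL bundle at `K` (`ModelInert4.nodalNumData_*_inertial`),
Program O's `StrongItems` (`ModelOAt4.levelO_at`) and `TwoGenItems` (`RegInst21` + R2). -/
theorem nodeRegItems_of
    (hD : ∃ (ht : tq (↥K) n e ∈ FK M' K) (hE : FK (M' * q) K ≤ fracField (AK A K)),
      ∀ (π : ↥(AK A K)) (hπ : IsUnif (AK A K) π),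
        NodalNumData ↥(AK A K) ↥K ↥(FK (M' * q) K) π (tN q ht) (B0 A q ht) (B1 A q ht)
          (O1 M' q hπ hE) (O2 M' q hπ hE))
    (hS : StrongItems n e q M' A K) (hT : TwoGenItems n e q M' A K) :
    NodeRegItems n e q M' A K := by
  obtain ⟨ht₀, hE₀, hD⟩ := hD
  intro ht hE π hπ
  obtain ⟨h0, h1⟩ := hT ht hE π hπ
  exact nodeRegAt_pair (hD π hπ) (hS ht hE π hπ) h0 h1

end Concrete

end Fermat.Agent.ES.P36.NodeRegAt10
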