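/-
Program P (S36), chapter (SS)/REG, brick R6 (helper4): **the contract `EisItems29.EisAt` for ONE chart
and ONE side, in chart vocabulary** — the wrapper of helper10's `TripleKron10.tripleNode_of_kron`
which is INSTANCE-FREE in the degeneracy map (`φ : E →+* F` is made the algebra structure inside the
proof), so that it serves the `α₂`-side (`φ = α₂`, `ψ = β₂`) and its mirror (`φ = β₂`, `ψ = α₂`,
`α ↔ β`, `W1 ↔ W2`, `V1 ↔ V3`) alike.

Inputs, all quantifier-free over the closed points: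
* the chart facts of level `q` (`Bq`: noetherian, fraction field, `⊆ W1 ⊓ W2`, saturation, `π` a
  uniformiser of `W1`, `W2`) and of level `q²` (`B`: `⊆ V1 ⊓ V2 ⊓ V3`, `π` non-unit, `B` = integral
  closure of `φ Bq`: `hB2`, `hB3`);
* table (G2): the six positions, `V1 ≠ V2`, the ramification witness `t` of `V2 | W1` (`hram`), the
  residually independent family `b` of `V3 | W2` (`hb`), `[F : φ E] ≤ q`;
* R3 at level `q`: `NodeRegAt10.NodeRegAt π Bq W1 W2`;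
* Program N: (C-prin) `SmoothN5.BranchPrincipalVia` for `(α, W1)` and `(β, W2)` from a level-`M'`
  chart `B₀`, and the Kronecker congruences in the explicit form `v = g u` (`K1`, `K2`).

Output: `eisAt_of_kron : EisAt q π φ ψ Bq B W1 W2 V3`.
Also `nodeRegAt_symm` (R3 is symmetric in the two components) and `contract_isMaximal`.
-/
import Mathlib
import Fermat.Agent.ES.N34.SmoothN5
import Fermat.Agent.ES.P36.EisItems29
import Fermat.Agent.ES.P36.TripleKron10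
import Fermat.Agent.ES.P36.NodeRegAt10

set_option autoImplicit false
set_option linter.unusedSectionVars false
set_option linter.style.haveILetI false

namespace Fermat.Agent.ES.P36.EisGen4

open IsLocalRing Fermat.Agent.ES.N34.NodalCore13 Fermat.Agent.ES.N34.NodalSmooth13
  Fermat.Agent.ES.N34.SmoothN5 Fermat.Agent.ES.P36.PtsAsm9 Fermat.Agent.ES.P36.EisItems29
  Fermat.Agent.ES.P36.NodeRegAt10 Fermat.Agent.ES.P36.IntClLoc10

section Symm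

variable {R F : Type*} [CommRing R] [Field F] [Algebra R F]

/-- **R3 is symmetric in the two components** (exchange the two local equations). -/
theorem nodeRegAt_symm {π : R} {B : Subalgebra R F} {O1 O2 : ValuationSubring F}
    (h : NodeRegAt π B O1 O2) : NodeRegAt π B O2 O1 := by
  intro 𝔪 h𝔪 hπ𝔪 h2 h1
  haveI := h𝔪.isPrime
  obtain ⟨x, y, e, hxy, hC1, hC2, hmax, hx, hy, hxny, hynx, hO2, hO1, he⟩ := h 𝔪 h𝔪 hπ𝔪 h1 h2
  refine ⟨y, x, e, by rw [mul_comm]; exact hxy, hC2, hC1, ?_, hy, hx, hynx, hxny, hO1, hO2, he⟩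
  rw [Ideal.span_pair_comm]
  exact hmax

end Symm

section Contract

variable {R E F : Type*} [CommRing R] [Field E] [Field F] [Algebra R E] [Algebra R F]

/-- the restriction of `φ` to the charts is integral when `B` is integral over `φ Bq`. -/
theorem chartRestrict_isIntegral (φ : E →+* F) (Bq : Subalgebra R E) (B : Subalgebra R F)
    (hφB : ∀ b ∈ Bq, φ b ∈ B)
    (hB2 : ∀ b ∈ B, (φ.comp (algebraMap ↥Bq E)).IsIntegralElem b) :
    (chartRestrict φ Bq B hφB).IsIntegral := by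
  intro b
  obtain ⟨p, hp, hpb⟩ := hB2 (b : F) b.2
  refine ⟨p, hp, ?_⟩
  apply Subtype.ext
  have h1 : ((Polynomial.eval₂ (chartRestrict φ Bq B hφB) b p : ↥B) : F) =
      Polynomial.eval₂ ((B.val : ↥B →+* F).comp (chartRestrict φ Bq B hφB)) (B.val b) p :=
    Polynomial.hom_eval₂ p (chartRestrict φ Bq B hφB) (B.val : ↥B →+* F) b
  have h2 : ((B.val : ↥B →+* F).comp (chartRestrict φ Bq B hφB)) =
      φ.comp (algebraMap ↥Bq E) := RingHom.ext fun _ => rfl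
  rw [h1, h2]
  exact hpb

/-- **the contraction of a closed point is a closed point** (`B` integral over `φ Bq`). -/
theorem contract_isMaximal (φ : E →+* F) (Bq : Subalgebra R E) (B : Subalgebra R F)
    (hφB : ∀ b ∈ Bq, φ b ∈ B)
    (hB2 : ∀ b ∈ B, (φ.comp (algebraMap ↥Bq E)).IsIntegralElem b)
    (𝔪 : Ideal ↥B) (h𝔪 : 𝔪.IsMaximal) : (contract φ Bq B hφB 𝔪).IsMaximal :=
  Ideal.isMaximal_comap_of_isIntegral_of_isMaximal' (chartRestrict φ Bq B hφB)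
    (chartRestrict_isIntegral φ Bq B hφB hB2) 𝔪

end Contract

section Gen

variable {R F : Type*} [CommRing R] [Field F] [Algebra R F]

/-- **(C-prin) at a node, in the local ring**: if `𝔫 ⊆ (σ) + π W` up to denominators (the literal
conclusion of `SmoothN5.BranchPrincipalVia` at `𝔫`) and `p` is the local equation of the OTHER
component (`c ∈ π W ↔ p ∣ c`), then `𝔪_S ≤ (p) ⊔ (σ)`. -/
theorem maximalIdeal_le_of_prin (π : R) (B : Subalgebra R F) (𝔫 : Ideal ↥B) [h𝔫 : 𝔫.IsPrime]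
    (W : ValuationSubring F) (σ : ↥B)
    (hgen : ∀ y ∈ 𝔫, ∃ d : ↥B, d ∉ 𝔫 ∧ ∃ b : ↥B, ∃ c ∈ W,
      (d : F) * (y : F) - (b : F) * (σ : F) = algebraMap R F π * c)
    (p : ↥(locSub B 𝔫))
    (hp : ∀ c : ↥(locSub B 𝔫), (∃ o ∈ W, (c : F) = algebraMap R F π * o) ↔ p ∣ c) :
    maximalIdeal ↥(locSub B 𝔫) ≤
      Ideal.span {p} ⊔ Ideal.span {algebraMap ↥B ↥(locSub B 𝔫) σ} := by
  intro f hf
  obtain ⟨a, d, hd, hfd⟩ := f.2
  have ha : a ∈ 𝔫 := num_mem_of_not_isUnit B 𝔫 ((mem_maximalIdeal _).mp hf) hd hfd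
  obtain ⟨d', hd', b, c, hc, hrel⟩ := hgen a ha
  set ι := algebraMap ↥B ↥(locSub B 𝔫) with hι
  -- `ι d' * ι a - ι b * ι σ` is divisible by `p`
  have hdvd : p ∣ ι d' * ι a - ι b * ι σ := by
    rw [← hp]
    exact ⟨c, hc, hrel⟩
  have hmem : ι d' * ι a ∈ Ideal.span {p} ⊔ Ideal.span {ι σ} := by
    have : ι d' * ι a = (ι d' * ι a - ι b * ι σ) + ι b * ι σ := by ring
    rw [this]
    exact Submodule.add_mem_sup (Ideal.mem_span_singleton.mpr hdvd)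
      (Ideal.mul_mem_left _ _ (Ideal.mem_span_singleton_self _))
  have hud : IsUnit (ι d) := (IsLocalization.AtPrime.isUnit_to_map_iff ↥(locSub B 𝔫) 𝔫 d).mpr hd
  have hud' : IsUnit (ι d') :=
    (IsLocalization.AtPrime.isUnit_to_map_iff ↥(locSub B 𝔫) 𝔫 d').mpr hd'
  have hfa : f * ι d = ι a := Subtype.ext hfd
  obtain ⟨w, hw⟩ := hud.exists_right_inv
  obtain ⟨w', hw'⟩ := hud'.exists_left_inv
  have hf' : f = (w * w') * (ι d' * ι a) := by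
    calc f = f * (ι d * w) := by rw [hw, mul_one]
      _ = (f * ι d) * w := by ring
      _ = ι a * w := by rw [hfa]
      _ = (w' * ι d') * (ι a * w) := by rw [hw', one_mul]
      _ = (w * w') * (ι d' * ι a) := by ring
  rw [hf']
  exact Ideal.mul_mem_left _ _ hmem

end Gen

section Main

variable {R FM E F B₀ : Type*} [CommRing R] [CommRing FM] [Field E] [Field F] [Algebra R E]
  [Algebra R F]

set_option maxHeartbeats 1600000 in
/-- **The contract `EisAt` for one chart and one side, from table (G2), R3 at level `q`, (C-prin)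
and the explicit Kronecker congruences.**  Instance-free in `φ`. -/
theorem eisAt_of_kron {q k : ℕ} (hq : q.Prime) (hqk : q = k + 2) (π : R)
    (φ ψ : E →+* F)
    (hφR : ∀ r : R, φ (algebraMap R E r) = algebraMap R F r)
    (hψπ : ψ (algebraMap R E π) = algebraMap R F π)
    (hfin : letI := φ.toAlgebra; Module.Finite E F)
    (hn : (letI := φ.toAlgebra; Module.finrank E F) ≤ q)
    (Bq : Subalgebra R E) (B : Subalgebra R F)
    (noethBq : IsNoetherianRing Bq)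
    (frac : ∀ x : E, ∃ a ∈ Bq, ∃ b ∈ Bq, b ≠ 0 ∧ x * b = a)
    (hB2 : ∀ b ∈ B, (φ.comp (algebraMap ↥Bq E)).IsIntegralElem b)
    (hB3 : ∀ x : F, (φ.comp (algebraMap ↥Bq E)).IsIntegralElem x → x ∈ B)
    (α β : FM →+* E) (hαβ : ∀ w : FM, φ (β w) = ψ (α w))
    (W1 W2 : ValuationSubring E) (V1 V2 V3 : ValuationSubring F)
    (hV1φ : V1.comap φ = W1) (hV2φ : V2.comap φ = W1) (hV3φ : V3.comap φ = W2)
    (hV1ψ : V1.comap ψ = W1) (hV2ψ : V2.comap ψ = W2) (hV3ψ : V3.comap ψ = W2)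
    (leW1 : ∀ b ∈ Bq, b ∈ W1) (leW2 : ∀ b ∈ Bq, b ∈ W2)
    (leV1 : ∀ b ∈ B, b ∈ V1) (leV2 : ∀ b ∈ B, b ∈ V2) (leV3 : ∀ b ∈ B, b ∈ V3)
    (unif1 : ∀ x ∈ W1, x⁻¹ ∉ W1 → ∃ c ∈ W1, x = algebraMap R E π * c)
    (unif2 : ∀ x ∈ W2, x⁻¹ ∉ W2 → ∃ c ∈ W2, x = algebraMap R E π * c)
    (pi_nonunitV1 : (algebraMap R F π)⁻¹ ∉ V1) (pi_nonunitV2 : (algebraMap R F π)⁻¹ ∉ V2)
    (pi_nonunitV3 : (algebraMap R F π)⁻¹ ∉ V3)
    (hqπ : ∃ r : R, (q : R) = π * r)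
    (sat : ∀ b ∈ Bq, ∀ c : E, c ∈ W1 → c ∈ W2 → b = algebraMap R E π * c → c ∈ Bq)
    (h12 : V1 ≠ V2) {t : F} (ht0 : t ≠ 0) (ht2 : V2.valuation t < 1)
    (hram : ∀ a : E, W1.valuation a < 1 → V2.valuation (φ a) ≤ V2.valuation t ^ (k + 1))
    (b : Fin q → F) (hbO : ∀ i, b i ∈ V3)
    (hb : ∀ a : Fin q → E, (∀ i, W2.valuation (a i) ≤ 1) →
      V3.valuation (∑ i, φ (a i) * b i) < 1 → ∀ i, W2.valuation (a i) < 1)
    (hnode : NodeRegAt π Bq W1 W2)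
    (ι₀ : B₀ → FM) (g : B₀ → B₀)
    (hαB : ∀ u : B₀, α (ι₀ u) ∈ Bq) (hβB : ∀ u : B₀, β (ι₀ u) ∈ Bq)
    (hP1 : BranchPrincipalVia (fun u : B₀ => α (ι₀ u)) π Bq W1)
    (hP2 : BranchPrincipalVia (fun u : B₀ => β (ι₀ u)) π Bq W2)
    (K1 : ∀ u : B₀, ∃ o ∈ W1, β (ι₀ u) - (α (ι₀ (g u))) ^ q = algebraMap R E π * o)
    (K2 : ∀ u : B₀, ∃ o ∈ W2, α (ι₀ u) - (β (ι₀ (g u))) ^ q = algebraMap R E π * o) :
    EisAt q π φ ψ Bq B W1 W2 V3 := by
  classical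
  intro hφB hψB 𝔪 h𝔪 hπ𝔪 hn1 hn2
  haveI h𝔪p : 𝔪.IsPrime := h𝔪.isPrime
  set 𝔫 : Ideal ↥Bq := contract φ Bq B hφB 𝔪 with h𝔫def
  have h𝔫max : 𝔫.IsMaximal := contract_isMaximal φ Bq B hφB hB2 𝔪 h𝔪
  have hπ𝔫 : algebraMap R ↥Bq π ∈ 𝔫 := pi_mem_contract φ hφR Bq B hφB 𝔪 hπ𝔪
  -- R3 at the node
  obtain ⟨x0, y0, e0, hxy0, hSW1, hSW2, hmax, hx, hy, hxy, hyx, hO2, hO1, he0⟩ :=
    hnode 𝔫 h𝔫max hπ𝔫 hn1 hn2
  set ι : ↥Bq →+* ↥(locSub Bq 𝔫) := algebraMap ↥Bq ↥(locSub Bq 𝔫) with hι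
  -- (C-prin) at the node
  obtain ⟨u₀, hu₀B, hu₀𝔫, hg1⟩ := hP1 𝔫 h𝔫max hπ𝔫
  obtain ⟨u₁, hu₁B, hu₁𝔫, hg2⟩ := hP2 𝔫 h𝔫max hπ𝔫
  have hgen1 : maximalIdeal ↥(locSub Bq 𝔫) ≤ Ideal.span {ι y0} ⊔
      Ideal.span {ι ⟨α (ι₀ u₀), hαB u₀⟩} :=
    maximalIdeal_le_of_prin π Bq 𝔫 W1 ⟨α (ι₀ u₀), hαB u₀⟩ hg1 (ι y0) hO1
  have hgen2 : maximalIdeal ↥(locSub Bq 𝔫) ≤ Ideal.span {ι x0} ⊔
      Ideal.span {ι ⟨β (ι₀ u₁), hβB u₁⟩} :=
    maximalIdeal_le_of_prin π Bq 𝔫 W2 ⟨β (ι₀ u₁), hβB u₁⟩ hg2 (ι x0) hO2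
  -- the Kronecker congruences
  set v₀ : B₀ := g u₀ with hv₀
  set v₁ : B₀ := g u₁ with hv₁
  set w₁ : B₀ := g v₁ with hw₁
  have K2u₀ := K2 u₀
  have K1u₁ := K1 u₁
  have K2u₁ := K2 u₁
  have K1v₁ := K1 v₁
  have K2v₁ := K2 v₁
  -- the algebra structure along `φ`
  letI algφ : Algebra E F := φ.toAlgebra
  haveI tower : IsScalarTower R E F := IsScalarTower.of_algebraMap_eq fun r => (hφR r).symm
  haveI : FiniteDimensional E F := hfin
  have hcompeq : (algebraMap ↥Bq F : ↥Bq →+* F) = φ.comp (algebraMap ↥Bq E) :=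
    RingHom.ext fun _ => rfl
  have hB2' : ∀ b ∈ B, IsIntegral ↥Bq b := by
    intro b hb
    show (algebraMap ↥Bq F).IsIntegralElem b
    rw [hcompeq]
    exact hB2 b hb
  have hB3' : ∀ x : F, IsIntegral ↥Bq x → x ∈ B := by
    intro x hx
    apply hB3
    rw [← hcompeq]
    exact hx
  have hcontr : ∀ b : Bq, (⟨algebraMap E F b, hφB b b.2⟩ : B) ∈ 𝔪 → b ∈ 𝔫 := fun _ h => h
  have hram' : ∀ a : E, (V1.comap (algebraMap E F)).valuation a < 1 →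
      V2.valuation (algebraMap E F a) ≤ V2.valuation t ^ (k + 1) := by
    intro a ha
    have : V1.comap (algebraMap E F) = W1 := hV1φ
    rw [this] at ha
    exact hram a ha
  have hb' : ∀ a : Fin q → E, (∀ i, (V3.comap (algebraMap E F)).valuation (a i) ≤ 1) →
      V3.valuation (∑ i, algebraMap E F (a i) * b i) < 1 →
      ∀ i, (V3.comap (algebraMap E F)).valuation (a i) < 1 := by
    have e3 : V3.comap (algebraMap E F) = W2 := hV3φ
    rw [e3]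
    exact hb
  obtain ⟨hEis, -, hint, -⟩ := TripleKron10.tripleNode_of_kron (R := R) (FM := FM) (E := E) (F := F)
    π Bq 𝔫 B 𝔪 hq hqk hn noethBq frac hφB hB2' hB3' hcontr hπ𝔫 α β ψ hψπ hαβ hψB W1 W2 V1 V2 V3
    hV1φ hV2φ hV3φ hV1ψ hV2ψ hV3ψ leW1 leW2 hSW1 hSW2 leV1 leV2 leV3 unif1 unif2 pi_nonunitV1
    pi_nonunitV2 pi_nonunitV3 hqπ sat h12 ht0 ht2 hram' b hbO hb' hx hy hxy hyx hmax hO2 hO1
    (ι₀ u₀) (ι₀ v₀) (ι₀ u₁) (ι₀ v₁) (ι₀ w₁) (hαB u₀) (hβB v₀) (hβB u₁) (hαB v₁) (hαB u₁) (hβB v₁)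
    (hαB w₁) (hβB w₁) hu₀𝔫 hu₁𝔫 hgen1 hgen2 K2u₀ K1u₁ K2u₁ K1v₁ K2v₁
  -- the elements of `S`
  set x : ↥(locSub Bq 𝔫) := ι x0 with hxdef
  set y : ↥(locSub Bq 𝔫) := ι y0 with hydef
  set s : ↥(locSub Bq 𝔫) := ι ⟨α (ι₀ u₀), hαB u₀⟩ with hsdef
  set c : ↥(locSub Bq 𝔫) := ι ⟨β (ι₀ v₀), hβB v₀⟩ with hcdef
  set s' : ↥(locSub Bq 𝔫) := ι ⟨β (ι₀ u₁), hβB u₁⟩ with hs'def
  set c' : ↥(locSub Bq 𝔫) := ι ⟨α (ι₀ v₁), hαB v₁⟩ with hc'def
  have hιmem : ∀ b : ↥Bq, b ∈ 𝔫 → ι b ∈ maximalIdeal ↥(locSub Bq 𝔫) := fun b hb =>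
    (mem_maximalIdeal _).mpr (not_isUnit_of_mem Bq 𝔫 hb)
  have hxm : x ∈ maximalIdeal ↥(locSub Bq 𝔫) := by rw [hmax]; exact Ideal.subset_span (by simp)
  have hym : y ∈ maximalIdeal ↥(locSub Bq 𝔫) := by rw [hmax]; exact Ideal.subset_span (by simp)
  have hs : x ∣ s - c ^ q := by
    rw [← hO2]
    obtain ⟨o, ho, h⟩ := K2u₀
    exact ⟨o, ho, h⟩
  have hs' : y ∣ s' - c' ^ q := by
    rw [← hO1]
    obtain ⟨o, ho, h⟩ := K1u₁
    exact ⟨o, ho, h⟩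
  have hsm : s ∈ maximalIdeal ↥(locSub Bq 𝔫) := hιmem _ hu₀𝔫
  have hs'm : s' ∈ maximalIdeal ↥(locSub Bq 𝔫) := hιmem _ hu₁𝔫
  have hc : c ∈ maximalIdeal ↥(locSub Bq 𝔫) :=
    TripleKron10.mem_of_pow_sub_mem hsm (Ideal.mem_of_dvd _ hs hxm)
  have hc' : c' ∈ maximalIdeal ↥(locSub Bq 𝔫) :=
    TripleKron10.mem_of_pow_sub_mem hs'm (Ideal.mem_of_dvd _ hs' hym)
  have hpiW : ∀ (V : ValuationSubring F) (W : ValuationSubring E), V.comap φ = W →
      (algebraMap R F π)⁻¹ ∉ V → (algebraMap R E π)⁻¹ ∉ W := by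
    intro V W hVW hV hW
    apply hV
    rw [← hVW] at hW
    have : φ ((algebraMap R E π)⁻¹) ∈ V := hW
    rwa [map_inv₀, hφR] at this
  refine ⟨x, y, s, s', c, c', ⟨β (ι₀ v₁), hβB v₁⟩, ?_⟩
  refine
    { noeth := noethBq
      frac := frac
      unif1 := unif1
      unif2 := unif2
      pi_nonunit1 := hpiW V1 W1 hV1φ pi_nonunitV1
      pi_nonunit2 := hpiW V3 W2 hV3φ pi_nonunitV3
      nmax := h𝔫max
      hSW1 := hSW1
      hSW2 := hSW2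
      hmax := hmax
      hx := hx
      hy := hy
      hxy := hxy
      hyx := hyx
      hO2 := hO2
      hO1 := hO1
      hprod := ?_
      hc := hc
      hc' := hc'
      hs := hs
      hs' := hs'
      hgen1 := hgen1
      hgen2 := hgen2
      hEis := ?_
      hint := ?_
      hK := ?_ }
  · refine ⟨ι e0, (IsLocalization.AtPrime.isUnit_to_map_iff ↥(locSub Bq 𝔫) 𝔫 e0).mpr he0, ?_⟩
    have := congrArg ι hxy0
    rw [map_mul, map_mul] at this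
    rw [hxdef, hydef, this]
    rfl
  · exact hEis
  · intro w hw
    have h := hint w hw
    have e : (algebraMap ↥(locSub Bq 𝔫) F : ↥(locSub Bq 𝔫) →+* F) =
        φ.comp (algebraMap ↥(locSub Bq 𝔫) E) := RingHom.ext fun _ => rfl
    show (φ.comp (algebraMap ↥(locSub Bq 𝔫) E)).IsIntegralElem w
    rw [← e]
    exact h
  · obtain ⟨o, ho, h⟩ := K2u₁
    refine ⟨ψ o, ?_, ?_⟩
    · have : o ∈ V3.comap ψ := by rw [hV3ψ]; exact ho
      exact this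
    · show φ (β (ι₀ u₁)) - ψ (β (ι₀ v₁)) ^ q = algebraMap R F π * ψ o
      rw [hαβ, ← map_pow, ← map_sub, h, map_mul, hψπ]

end Main

end Fermat.Agent.ES.P36.EisGen4
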