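/-
Program P (S36), chapter (SS)/REG, brick R6 (helper4), integrality inputs of `EisGen4.eisAt_of_kron`
in chart vocabulary (Mathlib + `ChartGeneric22` only):

* `isIntegralElem_of_forall_mem_range` : integrality over a ring all of whose elements are values
  of `f` is `f.IsIntegralElem`;
* `isIntegral_adjoin_trans'` : transitivity of integrality over `R[x]` (`R` any commutative ring);
* `isIntegral_symm` : **the symmetric modular equation** — if `α(G)(β f) = 0 ⟹ β(G)(α f) = 0` for
  all polynomials `G` (`SymEq23.eval_beta_alpha`), then `β f` integral over `R[α f]` implies `α f`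
  integral over `R[β f]`;
* `isIntegral_adjoin_map'`, `hsint_of_symm` : transport along a ring hom over `R`; **(★)** `t` is
  integral over `R[t₁]`;
* `hB2_of_chart`, `hB3_of_chart` : for `Bq = chart R s'`, `B = chart R s`, `φ s' ∈ B` and `s` integral
  over `R[φ s']`: `B` is the integral closure of `φ Bq` (the hypotheses `hB2`, `hB3` of
  `EisGen4.eisAt_of_kron`).
-/
import Mathlib
import Fermat.Agent.RED.PUR.ChartGeneric22

set_option autoImplicit false
set_option linter.unusedSectionVars false

open Polynomial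

namespace Fermat.Agent.ES.P36.EisInt4

open Fermat.Agent.RED.PUR.ChartGeneric22

section Range

variable {C A F : Type*} [CommRing C] [CommRing A] [CommRing F] [Nontrivial F]

/-- If `b` is integral along `j : A → F` and every value of `j` is a value of `f : C → F`, then `b`
is integral along `f`. -/
theorem isIntegralElem_of_forall_mem_range (f : C →+* F) (j : A →+* F)
    (hj : ∀ a : A, ∃ c : C, f c = j a) {b : F} (hb : j.IsIntegralElem b) :
    f.IsIntegralElem b := by
  obtain ⟨p, hp, hpb⟩ := hb
  have hlift : p.map j ∈ Polynomial.lifts f := by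
    rw [Polynomial.lifts_iff_coeff_lifts]
    intro n
    rw [Polynomial.coeff_map]
    obtain ⟨c, hc⟩ := hj (p.coeff n)
    exact ⟨c, hc⟩
  obtain ⟨Q, hQ, -, hQm⟩ := Polynomial.lifts_and_degree_eq_and_monic hlift (hp.map j)
  refine ⟨Q, hQm, ?_⟩
  rw [← Polynomial.eval_map, hQ, Polynomial.eval_map]
  exact hpb

end Range

section Trans

variable {R L : Type*} [CommRing R] [CommRing L] [Algebra R L]

/-- integrality over `R[x]` is transitive (`R` any commutative ring). -/
theorem isIntegral_adjoin_trans' {x y z : L} (hy : IsIntegral (Algebra.adjoin R {x}) y)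
    (hz : IsIntegral (Algebra.adjoin R {y}) z) : IsIntegral (Algebra.adjoin R {x}) z := by
  set S := Algebra.adjoin R {x} with hS
  set C := integralClosure S L with hC
  have hyC : y ∈ C.restrictScalars R := hy
  have hle : Algebra.adjoin R {y} ≤ C.restrictScalars R :=
    Algebra.adjoin_le (Set.singleton_subset_iff.mpr hyC)
  let φ : Algebra.adjoin R {y} →+* C :=
    ((Algebra.adjoin R {y}).val.toRingHom).codRestrict C.toSubring (fun r => hle r.2)
  have h1 : IsIntegral C ((RingHom.id L) z) :=
    IsIntegral.map_of_comp_eq φ (RingHom.id L) (by ext r; rfl) hz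
  exact isIntegral_trans (R := S) (A := C) z h1

end Trans

section Symm

variable {R FM E : Type*} [CommRing R] [Field FM] [Field E] [Algebra R FM] [Algebra R E]

/-- **The symmetric modular equation, integral form.** -/
theorem isIntegral_symm (a b : FM →+* E)
    (ha : ∀ r : R, a (algebraMap R FM r) = algebraMap R E r)
    (hb : ∀ r : R, b (algebraMap R FM r) = algebraMap R E r)
    (hsym : ∀ (G : FM[X]) (f : FM), (G.map a).eval (b f) = 0 → (G.map b).eval (a f) = 0)
    (f : FM) (h : IsIntegral (Algebra.adjoin R {a f}) (b f)) :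
    IsIntegral (Algebra.adjoin R {b f}) (a f) := by
  let aA : FM →ₐ[R] E := { a with commutes' := ha }
  let bA : FM →ₐ[R] E := { b with commutes' := hb }
  -- lift the equation to `R[f]`
  have hrange : ∀ c : ↥(Algebra.adjoin R {a f}), ∃ d : ↥(Algebra.adjoin R {f}),
      (a.comp (algebraMap ↥(Algebra.adjoin R {f}) FM)) d =
        algebraMap ↥(Algebra.adjoin R {a f}) E c := by
    intro c
    have hc : (c : E) ∈ (Algebra.adjoin R {f}).map aA := by
      rw [AlgHom.map_adjoin_singleton]
      exact c.2
    obtain ⟨d, hd, hdc⟩ := hc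
    exact ⟨⟨d, hd⟩, hdc⟩
  obtain ⟨Q, hQm, hQ⟩ := isIntegralElem_of_forall_mem_range
    (a.comp (algebraMap ↥(Algebra.adjoin R {f}) FM))
    (algebraMap ↥(Algebra.adjoin R {a f}) E) hrange h
  -- the polynomial over `FM`
  set G : FM[X] := Q.map (algebraMap ↥(Algebra.adjoin R {f}) FM) with hG
  have h1 : (G.map a).eval (b f) = 0 := by
    rw [hG, Polynomial.map_map, Polynomial.eval_map]
    exact hQ
  have h2 := hsym G f h1
  rw [hG, Polynomial.map_map, Polynomial.eval_map] at h2
  -- `b` restricted to `R[f] → R[b f]`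
  have hmem : ∀ d : ↥(Algebra.adjoin R {f}), b (d : FM) ∈ Algebra.adjoin R {b f} := by
    intro d
    have : bA (d : FM) ∈ (Algebra.adjoin R {f}).map bA := ⟨d, d.2, rfl⟩
    rw [AlgHom.map_adjoin_singleton] at this
    exact this
  let b' : ↥(Algebra.adjoin R {f}) →+* ↥(Algebra.adjoin R {b f}) :=
    (b.comp (algebraMap ↥(Algebra.adjoin R {f}) FM)).codRestrict
      (Algebra.adjoin R {b f}).toSubring hmem
  refine ⟨Q.map b', hQm.map b', ?_⟩
  rw [Polynomial.eval₂_map]
  have hcomp : (algebraMap ↥(Algebra.adjoin R {b f}) E).comp b' =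
      b.comp (algebraMap ↥(Algebra.adjoin R {f}) FM) := RingHom.ext fun _ => rfl
  rw [hcomp]
  exact h2

end Symm

section Map

variable {R E F : Type*} [CommRing R] [CommRing E] [CommRing F] [Algebra R E] [Algebra R F]

/-- integrality over `R[x]` is transported by ring homomorphisms over `R`. -/
theorem isIntegral_adjoin_map' (φ : E →+* F) (hφ : ∀ r : R, φ (algebraMap R E r) = algebraMap R F r)
    {x z : E} (h : IsIntegral (Algebra.adjoin R {x}) z) :
    IsIntegral (Algebra.adjoin R {φ x}) (φ z) := by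
  let φA : E →ₐ[R] F := { φ with commutes' := hφ }
  have hmem : ∀ r : Algebra.adjoin R {x}, φ (r : E) ∈ Algebra.adjoin R {φ x} := by
    intro r
    have : φA (r : E) ∈ (Algebra.adjoin R {x}).map φA := ⟨r, r.2, rfl⟩
    rw [AlgHom.map_adjoin_singleton] at this
    exact this
  let φ' : Algebra.adjoin R {x} →+* Algebra.adjoin R {φ x} :=
    ((φ.comp (Algebra.adjoin R {x}).val.toRingHom).codRestrict
      (Algebra.adjoin R {φ x}).toSubring hmem)
  exact IsIntegral.map_of_comp_eq φ' φ (by ext r; rfl) h

end Map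

section SymmTwo

variable {R FM E F : Type*} [CommRing R] [Field FM] [Field E] [Field F] [Algebra R FM]
  [Algebra R E] [Algebra R F]

/-- **(★)** `ψ (a f)` is integral over `R[φ (a f)]` when `b f` is integral over `R[a f]`, the
modular equation is symmetric and `φ ∘ a = ψ ∘ b` (model: `a b = α β`, `φ ψ = β₂ α₂`, `f = tM`:
`t = α₂ α tM` is integral over `R[t₁]`, `t₁ = β₂ α tM = α₂ β tM`). -/
theorem hsint_of_symm (a b : FM →+* E) (φ ψ : E →+* F)
    (ha : ∀ r : R, a (algebraMap R FM r) = algebraMap R E r)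
    (hb : ∀ r : R, b (algebraMap R FM r) = algebraMap R E r)
    (hψ : ∀ r : R, ψ (algebraMap R E r) = algebraMap R F r)
    (hab : ∀ w : FM, φ (a w) = ψ (b w))
    (hsym : ∀ (G : FM[X]) (f : FM), (G.map a).eval (b f) = 0 → (G.map b).eval (a f) = 0)
    (f : FM) (h : IsIntegral (Algebra.adjoin R {a f}) (b f)) :
    IsIntegral (Algebra.adjoin R {φ (a f)}) (ψ (a f)) := by
  have h1 : IsIntegral (Algebra.adjoin R {b f}) (a f) := isIntegral_symm a b ha hb hsym f h
  have h2 := isIntegral_adjoin_map' ψ hψ h1
  rw [hab]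
  exact h2

/-- **(★) at the chart at infinity**: the same with all four elements inverted. -/
theorem hsint_of_symm_inv (a b : FM →+* E) (φ ψ : E →+* F)
    (ha : ∀ r : R, a (algebraMap R FM r) = algebraMap R E r)
    (hb : ∀ r : R, b (algebraMap R FM r) = algebraMap R E r)
    (hψ : ∀ r : R, ψ (algebraMap R E r) = algebraMap R F r)
    (hab : ∀ w : FM, φ (a w) = ψ (b w))
    (hsym : ∀ (G : FM[X]) (f : FM), (G.map a).eval (b f) = 0 → (G.map b).eval (a f) = 0)
    (f : FM) (h : IsIntegral (Algebra.adjoin R {(a f)⁻¹}) (b f)⁻¹) :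
    IsIntegral (Algebra.adjoin R {φ (a f)⁻¹}) (ψ (a f))⁻¹ := by
  have h' : IsIntegral (Algebra.adjoin R {a f⁻¹}) (b f⁻¹) := by
    rw [map_inv₀, map_inv₀]; exact h
  have h2 := hsint_of_symm a b φ ψ ha hb hψ hab hsym f⁻¹ h'
  rw [map_inv₀ a, map_inv₀ ψ] at h2
  exact h2

end SymmTwo

section Self

variable {R F : Type*} [CommRing R] [CommRing F] [Algebra R F]

/-- `x` is integral over `R[x]`. -/
theorem isIntegral_adjoin_self (x : F) : IsIntegral (Algebra.adjoin R {x}) x :=
  isIntegral_algebraMap (x := (⟨x, Algebra.self_mem_adjoin_singleton R x⟩ : Algebra.adjoin R {x}))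

end Self

section Chart

variable {R E F : Type*} [CommRing R] [Field E] [Field F] [Algebra R E] [Algebra R F]

/-- **`B = chart R s` is integral over `φ (chart R s')`** when `s` is integral over `R[φ s']`. -/
theorem hB2_of_chart (φ : E →+* F) (hφ : ∀ r : R, φ (algebraMap R E r) = algebraMap R F r)
    {s' : E} {s : F} (hs : IsIntegral (Algebra.adjoin R {φ s'}) s) :
    ∀ b ∈ chart R s, (φ.comp (algebraMap ↥(chart R s') E)).IsIntegralElem b := by
  intro b hb
  have hb' : IsIntegral (Algebra.adjoin R {φ s'}) b :=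
    isIntegral_adjoin_trans' hs ((mem_chart_iff).mp hb)
  let φA : E →ₐ[R] F := { φ with commutes' := hφ }
  refine isIntegralElem_of_forall_mem_range (φ.comp (algebraMap ↥(chart R s') E))
    (algebraMap ↥(Algebra.adjoin R {φ s'}) F) ?_ hb'
  intro c
  have hc : (c : F) ∈ (Algebra.adjoin R {s'}).map φA := by
    rw [AlgHom.map_adjoin_singleton]
    exact c.2
  obtain ⟨d, hd, hdc⟩ := hc
  exact ⟨⟨d, adjoin_le_chart s' hd⟩, hdc⟩

/-- **`B = chart R s` contains every element integral over `φ (chart R s')`** when `φ s' ∈ B`. -/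
theorem hB3_of_chart (φ : E →+* F) {s' : E} {s : F} (hφB : ∀ x ∈ chart R s', φ x ∈ chart R s) :
    ∀ x : F, (φ.comp (algebraMap ↥(chart R s') E)).IsIntegralElem x → x ∈ chart R s := by
  intro x hx
  apply chart_intcl
  refine isIntegralElem_of_forall_mem_range (algebraMap ↥(chart R s) F)
    (φ.comp (algebraMap ↥(chart R s') E)) ?_ hx
  intro c
  exact ⟨⟨φ (c : E), hφB _ c.2⟩, rfl⟩

end Chart

end Fermat.Agent.ES.P36.EisInt4
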