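/-
Program P (S36), chapter (SS)/REG, brick R6 (helper4), GAUSS LAYER: **`EisItems29.EisAt` for one chart
and one side over `(Kt, O, EM, E', E)`** — `EisGen4.eisAt_of_kron` fed with facts in the shapes in
which the model supplies them:

* table (G2) in the valuation shapes of `GenTable11.TableG2` (positions, `h12`, the uniformiser `T`
  of the middle ring with `HasOrd V₂ T π (q − 1)`, the residually independent family, `FiniteAlong`,
  `finrankAlong`);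
* the level-`q` chart `chart O s'` with the fields of `NodalCore13.NodalTwoChartModel` /
  `NumData13.NodalNumData`, the level-`q²` chart `chart O s` with the fields of
  `MultiCore13.MultiChartModel`;
* `φ s' ∈ chart O s` and `s` integral over `O[φ s']` (`EisInt4.hB2_of_chart / hB3_of_chart`);
* R3 (`NodeRegAt10.NodeRegAt`), (C-prin) in the literal shape of `ModelN4.TwoLevelInputs.prin0j`,
  and the Kronecker congruences with an explicit Frobenius-inverse action `g` on the level-`M'` chart.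

The statement is symmetric: the `β₂`-side is the same theorem at
`(φ, ψ, a, b, W1, W2, V1, V2, V3) := (β₂, α₂, β, α, O2q, O1q, O₃, O₂, O₁)`.
-/
import Mathlib
import Fermat.Agent.ES.N34.ModelN4
import Fermat.Agent.ES.P36.GenTable11
import Fermat.Agent.ES.P36.EisGen4
import Fermat.Agent.ES.P36.EisInt4

set_option autoImplicit false
set_option linter.unusedSectionVars false
set_option synthInstance.maxHeartbeats 400000

open HahnSeries AlgebraicCurve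

noncomputable section

namespace Fermat.Agent.ES.P36.EisTable4

open Fermat.Agent.RED.PUR.ChartGeneric22 Fermat.Agent.RED.PUR.UniqueExt20
  Fermat.Agent.ES.N34.NodalCore13 Fermat.Agent.ES.N34.SmoothN5
  Fermat.Agent.ES.P36.OrdVal20 Fermat.Agent.ES.P36.EisItems29 Fermat.Agent.ES.P36.NodeRegAt10
  Fermat.Agent.ES.P36.EisGen4 Fermat.Agent.ES.P36.EisInt4

variable {Kt : Type*} [Field Kt] {O : ValuationSubring Kt}
  {EM E' E : IntermediateField Kt (LaurentSeries Kt)}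

/-- (RAM) in the instance-free shape of `EisGen4.eisAt_of_kron`, from `T ^ (q − 1) ~ π` and `π` a
uniformiser of `W1`. -/
theorem hram_of_table {q k : ℕ} (hqk : q = k + 2) {π : ↥O} (φ : ↥E' →ₐ[Kt] ↥E)
    {W1 : ValuationSubring ↥E'} {V2 : ValuationSubring ↥E} (c2φ : V2.comap φ.toRingHom = W1)
    {T : ↥E} (hTπ : HasOrd V2 T (algebraMap Kt ↥E (π : Kt)) ((q : ℤ) - 1))
    (unif1 : ∀ x ∈ W1, x⁻¹ ∉ W1 → ∃ c ∈ W1, x = algebraMap ↥O ↥E' π * c) :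
    ∀ x : ↥E', W1.valuation x < 1 →
      V2.valuation (φ.toRingHom x) ≤ V2.valuation T ^ (k + 1) := by
  intro x hx
  have hπval : V2.valuation (algebraMap Kt ↥E (π : Kt)) = V2.valuation T ^ (k + 1) := by
    unfold HasOrd at hTπ
    have e : ((q : ℤ) - 1) = ((k + 1 : ℕ) : ℤ) := by rw [hqk]; push_cast; ring
    rw [e, zpow_natCast] at hTπ
    exact hTπ
  rcases (val_lt_one_iff W1).mp hx with h0 | hinv
  · rw [h0, map_zero, map_zero]
    exact zero_le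
  · have hxW : x ∈ W1 := (W1.valuation_le_one_iff x).mp hx.le
    obtain ⟨c, hc, hxc⟩ := unif1 x hxW hinv
    have hφc : φ.toRingHom c ∈ V2 := by
      have : c ∈ V2.comap φ.toRingHom := by rw [c2φ]; exact hc
      exact this
    have hφπ : φ.toRingHom (algebraMap ↥O ↥E' π) = algebraMap Kt ↥E (π : Kt) :=
      φ.commutes (π : Kt)
    rw [hxc, map_mul, hφπ, map_mul, hπval]
    exact mul_le_of_le_one_right' ((V2.valuation_le_one_iff _).mpr hφc)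

set_option maxHeartbeats 1600000 in
/-- **`EisAt` for one chart and one side over a Gauss base.** -/
theorem eisAt_core {q k : ℕ} (hq : q.Prime) (hqk : q = k + 2) {π : ↥O}
    (hqπ : ∃ r : ↥O, (q : ↥O) = π * r)
    (φ ψ : ↥E' →ₐ[Kt] ↥E) (hfin : FiniteAlong Kt φ) (hdeg : finrankAlong Kt φ = q)
    (a b : ↥EM →ₐ[Kt] ↥E') (hab : ∀ w : ↥EM, φ (b w) = ψ (a w))
    {W1 W2 : ValuationSubring ↥E'} {V1 V2 V3 : ValuationSubring ↥E}
    (c1φ : V1.comap φ.toRingHom = W1) (c2φ : V2.comap φ.toRingHom = W1)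
    (c3φ : V3.comap φ.toRingHom = W2)
    (c1ψ : V1.comap ψ.toRingHom = W1) (c2ψ : V2.comap ψ.toRingHom = W2)
    (c3ψ : V3.comap ψ.toRingHom = W2)
    (h12 : V1 ≠ V2) {T : ↥E} (hT0 : T ≠ 0) (hT1 : V2.valuation T < 1)
    (hTπ : HasOrd V2 T (algebraMap Kt ↥E (π : Kt)) ((q : ℤ) - 1))
    (fam : ∃ bb : Fin q → ↥E, (∀ i, bb i ∈ V3) ∧
      ∀ x : Fin q → ↥E', (∀ i, W2.valuation (x i) ≤ 1) →
        V3.valuation (∑ i, φ (x i) * bb i) < 1 → ∀ i, W2.valuation (x i) < 1)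
    {sM : ↥EM} {s' : ↥E'} {s : ↥E}
    (noethBq : IsNoetherianRing ↥(chart ↥O s'))
    (frac : ∀ x : ↥E', ∃ u ∈ chart ↥O s', ∃ v ∈ chart ↥O s', v ≠ 0 ∧ x * v = u)
    (leW1 : ∀ x ∈ chart ↥O s', x ∈ W1) (leW2 : ∀ x ∈ chart ↥O s', x ∈ W2)
    (unif1 : ∀ x ∈ W1, x⁻¹ ∉ W1 → ∃ c ∈ W1, x = algebraMap ↥O ↥E' π * c)
    (unif2 : ∀ x ∈ W2, x⁻¹ ∉ W2 → ∃ c ∈ W2, x = algebraMap ↥O ↥E' π * c)
    (sat : ∀ x ∈ chart ↥O s', ∀ c : ↥E', c ∈ W1 → c ∈ W2 →
      x = algebraMap ↥O ↥E' π * c → c ∈ chart ↥O s')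
    (leV1 : ∀ x ∈ chart ↥O s, x ∈ V1) (leV2 : ∀ x ∈ chart ↥O s, x ∈ V2)
    (leV3 : ∀ x ∈ chart ↥O s, x ∈ V3)
    (pn1 : (algebraMap ↥O ↥E π)⁻¹ ∉ V1) (pn2 : (algebraMap ↥O ↥E π)⁻¹ ∉ V2)
    (pn3 : (algebraMap ↥O ↥E π)⁻¹ ∉ V3)
    (hφs : φ s' ∈ chart ↥O s)
    (hsint : IsIntegral (Algebra.adjoin ↥O {φ s'}) s)
    (hnode : NodeRegAt π (chart ↥O s') W1 W2)
    (g : ↥(chart ↥O sM) → ↥(chart ↥O sM))
    (haB : ∀ u : ↥(chart ↥O sM), a (u : ↥EM) ∈ chart ↥O s')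
    (hbB : ∀ u : ↥(chart ↥O sM), b (u : ↥EM) ∈ chart ↥O s')
    (hP1 : BranchPrincipalVia (fun u : ↥(chart ↥O sM) => a (u : ↥EM)) π (chart ↥O s') W1)
    (hP2 : BranchPrincipalVia (fun u : ↥(chart ↥O sM) => b (u : ↥EM)) π (chart ↥O s') W2)
    (K1 : ∀ u : ↥(chart ↥O sM), ∃ o ∈ W1,
      b (u : ↥EM) - (a ((g u : ↥(chart ↥O sM)) : ↥EM)) ^ q = algebraMap ↥O ↥E' π * o)
    (K2 : ∀ u : ↥(chart ↥O sM), ∃ o ∈ W2,
      a (u : ↥EM) - (b ((g u : ↥(chart ↥O sM)) : ↥EM)) ^ q = algebraMap ↥O ↥E' π * o) :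
    EisAt q π φ.toRingHom ψ.toRingHom (chart ↥O s') (chart ↥O s) W1 W2 V3 := by
  have hφR : ∀ r : ↥O, φ.toRingHom (algebraMap ↥O ↥E' r) = algebraMap ↥O ↥E r :=
    Fermat.Agent.ES.N34.ModelN4.algHom_algebraMap_O O E' E φ
  have hψR : ∀ r : ↥O, ψ.toRingHom (algebraMap ↥O ↥E' r) = algebraMap ↥O ↥E r :=
    Fermat.Agent.ES.N34.ModelN4.algHom_algebraMap_O O E' E ψ
  have hφB : ∀ x ∈ chart ↥O s', φ.toRingHom x ∈ chart ↥O s := fun x hx =>
    Fermat.Agent.ES.N34.ModelN4.map_mem_chart φ.toRingHom hφR hφs hx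
  obtain ⟨bb, hbbO, hbb⟩ := fam
  exact eisAt_of_kron hq hqk π φ.toRingHom ψ.toRingHom hφR (hψR π) hfin hdeg.le
    (chart ↥O s') (chart ↥O s) noethBq frac
    (hB2_of_chart φ.toRingHom hφR hsint) (hB3_of_chart φ.toRingHom hφB)
    a.toRingHom b.toRingHom hab W1 W2 V1 V2 V3 c1φ c2φ c3φ c1ψ c2ψ c3ψ leW1 leW2 leV1 leV2 leV3
    unif1 unif2 pn1 pn2 pn3 hqπ sat h12 hT0 hT1 (hram_of_table hqk φ c2φ hTπ unif1) bb hbbO hbb
    hnode (fun u : ↥(chart ↥O sM) => (u : ↥EM)) g haB hbB hP1 hP2 K1 K2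

end Fermat.Agent.ES.P36.EisTable4
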