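/-
Program P (S36), MODEL-P helper brick (helper23): **the modular equation is SYMMETRIC** — the
"dual isogeny" root, from the Atkin–Lehner embedding `Conjugates11.exists_W`.

`N` a level, `ℓ ∤ N` prime, `α, β : F_N → F_{Nℓ}` the degeneracy maps (`α` = inclusion, `β` = `𝐪 ↦ 𝐪^ℓ`).
For every polynomial `G` over `F_N` and every `f ∈ F_N`:

    `α(G)(β f) = 0  ⟹  β(G)(α f) = 0`       (`eval_beta_alpha_bar` over `ℚbar`, `eval_beta_alpha` over `K`).

In words: if `G = G(t; Y)` is the minimal polynomial of `t₁ = t(𝐪^ℓ)` over `α F_N`, then `t = t(𝐪)` is a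
root of `G(t₁; Z)`.  At level `N ℓ²` this says that BOTH `t` and `t₂ = t(𝐪^{ℓ²})` are roots of the same
polynomial `β(G)` with coefficients in the middle field (`t₂`: apply `β₂` to `α(G)(β t) = 0`), which is what
the Eisenstein step (D1.7), (D2.3) `H(Z) = Φ(t₁; Z)/(Z - t)` and the two-slope polynomial of
`ξ = t₂ - t` use.
-/
import Mathlib
import Fermat.Agent.ES.KRON.Conjugates11
import Fermat.Agent.ES.N35.NormBC1
import Fermat.Agent.ES.N34.ModelDefs9

set_option autoImplicit false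
set_option linter.unusedSectionVars false
set_option synthInstance.maxHeartbeats 400000
set_option maxHeartbeats 2000000

open ModularCurve Polynomial

noncomputable section

namespace Fermat.Agent.ES.P36.SymEq23

open Fermat.Agent.X0 Fermat.Agent.RED.Interface4 Fermat.Agent.ES.KRON.Conjugates11
open Fermat.Agent.RED.DESC

section Bar

variable (N ℓ : ℕ) [NeZero N] [NeZero ℓ]

/-- the coercion `F̄_M → ℚbar((𝐪))` as a ring hom. -/
def coeHom (M : ℕ) : Fbar M →+* LaurentSeries Qbar := (Fbar M).val.toRingHom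

theorem coeHom_apply (M : ℕ) (x : Fbar M) : coeHom M x = (x : LaurentSeries Qbar) := rfl

/-- **symmetry of the modular equation over `ℚbar`.** -/
theorem eval_beta_alpha_bar (hℓ : ℓ.Prime) (hℓN : ¬ ℓ ∣ N) (G : (Fbar N)[X]) (f : Fbar N)
    (h : (G.map (heckeAlphaBar Qbar N ℓ).toRingHom).eval (heckeBetaBar Qbar N ℓ f) = 0) :
    (G.map (heckeBetaBar Qbar N ℓ).toRingHom).eval (heckeAlphaBar Qbar N ℓ f) = 0 := by
  obtain ⟨W, hWβ, hWα⟩ := exists_W N ℓ hℓ hℓN
  -- both sides are `eval₂ ((𝐪 ↦ 𝐪^ℓ) ∘ coe) (coe f) G`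
  have hW : W ((G.map (heckeAlphaBar Qbar N ℓ).toRingHom).eval (heckeBetaBar Qbar N ℓ f)) =
      G.eval₂ ((qExpand Qbar ℓ).comp (coeHom N)) (f : LaurentSeries Qbar) := by
    rw [eval_map, hom_eval₂, hWβ]
    congr 1
    exact RingHom.ext fun c => hWα c
  have hC : coeHom (N * ℓ)
      ((G.map (heckeBetaBar Qbar N ℓ).toRingHom).eval (heckeAlphaBar Qbar N ℓ f)) =
      G.eval₂ ((qExpand Qbar ℓ).comp (coeHom N)) (f : LaurentSeries Qbar) := by
    rw [eval_map, hom_eval₂, coeHom_apply, coe_heckeAlphaBar]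
    congr 1
  rw [h, map_zero] at hW
  have h0 : coeHom (N * ℓ)
      ((G.map (heckeBetaBar Qbar N ℓ).toRingHom).eval (heckeAlphaBar Qbar N ℓ f)) = 0 := by
    rw [hC, ← hW]
  exact (map_eq_zero_iff _ (coeHom (N * ℓ)).injective).mp h0

end Bar

section OverK

variable (K : IntermediateField ℚ Qbar) (N ℓ : ℕ) [NeZero N] [NeZero ℓ]

/-- **symmetry of the modular equation over `K`.** -/
theorem eval_beta_alpha (hℓ : ℓ.Prime) (hℓN : ¬ ℓ ∣ N) (G : (FK N K)[X]) (f : FK N K)
    (h : (G.map (heckeAlphaBar K N ℓ).toRingHom).eval (heckeBetaBar K N ℓ f) = 0) :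
    (G.map (heckeBetaBar K N ℓ).toRingHom).eval (heckeAlphaBar K N ℓ f) = 0 := by
  set bc := PlaceExtend27.baseChangeHom N K with hbc
  set bc' := PlaceExtend27.baseChangeHom (N * ℓ) K with hbc'
  have hα : bc'.comp (heckeAlphaBar K N ℓ).toRingHom =
      ((heckeAlphaBar Qbar N ℓ).toRingHom).comp bc := by
    exact RingHom.ext fun x => Fermat.Agent.ES.N35.NormBC1.baseChangeHom_alpha K N ℓ x
  have hβ : bc'.comp (heckeBetaBar K N ℓ).toRingHom =
      ((heckeBetaBar Qbar N ℓ).toRingHom).comp bc := by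
    exact RingHom.ext fun x => Fermat.Agent.ES.N35.NormBC1.baseChangeHom_beta K N ℓ x
  have h1 : ((G.map bc).map (heckeAlphaBar Qbar N ℓ).toRingHom).eval
      (heckeBetaBar Qbar N ℓ (bc f)) = 0 := by
    have := congrArg bc' h
    rw [map_zero, eval_map, hom_eval₂, hα] at this
    rw [Polynomial.map_map, eval_map]
    have hf : bc' ((heckeBetaBar K N ℓ) f) = heckeBetaBar Qbar N ℓ (bc f) :=
      Fermat.Agent.ES.N35.NormBC1.baseChangeHom_beta K N ℓ f
    rw [hf] at this
    exact this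
  have h2 := eval_beta_alpha_bar N ℓ hℓ hℓN (G.map bc) (bc f) h1
  have h3 : bc' ((G.map (heckeBetaBar K N ℓ).toRingHom).eval (heckeAlphaBar K N ℓ f)) = 0 := by
    rw [eval_map, hom_eval₂, hβ]
    have hf : bc' ((heckeAlphaBar K N ℓ) f) = heckeAlphaBar Qbar N ℓ (bc f) :=
      Fermat.Agent.ES.N35.NormBC1.baseChangeHom_alpha K N ℓ f
    rw [hf]
    rw [Polynomial.map_map, eval_map] at h2
    exact h2
  exact (map_eq_zero_iff _ (PlaceExtend27.baseChangeHom_injective (N * ℓ) K)).mp h3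

/-- the same in `ModelDefs9` vocabulary (`alpha`, `beta`). -/
theorem eval_beta_alpha_model (M' q : ℕ) [NeZero M'] [NeZero q] (hq : q.Prime) (hqM : ¬ q ∣ M')
    (G : (FK M' K)[X]) (f : FK M' K)
    (h : (G.map (Fermat.Agent.ES.N34.ModelDefs9.alpha K M' q).toRingHom).eval
      (Fermat.Agent.ES.N34.ModelDefs9.beta K M' q f) = 0) :
    (G.map (Fermat.Agent.ES.N34.ModelDefs9.beta K M' q).toRingHom).eval
      (Fermat.Agent.ES.N34.ModelDefs9.alpha K M' q f) = 0 :=
  eval_beta_alpha K M' q hq hqM G f h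

end OverK

end Fermat.Agent.ES.P36.SymEq23
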