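/-
Program P (S36), chapter (SS)/REG, brick R6 (helper4), MODEL: **the shared contract
`EisItems29.EisItemsP n e q M' A K` at ONE number field `K`** (both charts, both sides), by
instantiating `EisTable4.eisAt_core` — a pure plug of per-`K` packages:

* `htab   : BranchModel15.TableItemsP q M' A K`      — table (G2) (`TableItems11.tableItems_of`);
* `hmulti : PtsModel9.MultiItemsP n e q M' A K`      — the model of level `M' q²` (M7);
* `hnode  : NodeRegAt10.NodeRegItems n e q M' A K`   — R3 at level `M' q` (`nodeRegItems_of`);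
* the five items of level `M' q` (`ModelInert4.items_four_inertial / items_nine_inertial`) and a
  Frobenius inverse `hF : ModelQAt4.FrobInvAt A K q` (`ModelInert4.frobInvAt_of_isInertial`).

Side `α₂`: `(φ, ψ, a, b, W1, W2, V1, V2, V3) = (α₂, β₂, α, β, O1q, O2q, O₁, O₂, O₃)`, `s = α₂ s'`.
Side `β₂` (mirror): `(β₂, α₂, β, α, O2q, O1q, O₃, O₂, O₁)`; the only side-specific input is
**(★)** `t` integral over `R[t₁]` (`t₁ = β₂ tN`), from the symmetric modular equation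
`SymEq23.eval_beta_alpha_model` and `ModEqItems` (`EisInt4.hsint_of_symm`).
-/
import Mathlib
import Fermat.Agent.ES.N34.KronChart15
import Fermat.Agent.ES.N34.KronItems15
import Fermat.Agent.ES.N34.IsoM25
import Fermat.Agent.ES.P36.SymEq23
import Fermat.Agent.ES.P36.ModelQAt4
import Fermat.Agent.ES.P36.ModelP4
import Fermat.Agent.ES.P36.PtsModel9
import Fermat.Agent.ES.P36.BranchModel15
import Fermat.Agent.ES.P36.NodeRegAt10
import Fermat.Agent.ES.P36.EisItems29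
import Fermat.Agent.ES.P36.EisTable4

set_option autoImplicit false
set_option linter.unusedSectionVars false
set_option linter.style.haveILetI false
set_option synthInstance.maxHeartbeats 400000
set_option maxHeartbeats 4000000

open HahnSeries ModularCurve AlgebraicCurve

noncomputable section

namespace Fermat.Agent.ES.P36.EisModel4

open Fermat.Agent.RED.Interface4 Fermat.Agent.RED.PUR.GaussGen8 Fermat.Agent.RED.PUR.GaussBridge10
  Fermat.Agent.RED.PUR.ChartGeneric22 Fermat.Agent.RED.BASE.EtaQuot12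
  Fermat.Agent.ES.N34 Fermat.Agent.ES.N34.ModelN4 Fermat.Agent.ES.N34.NumData13
  Fermat.Agent.ES.N34.KronChart15 Fermat.Agent.ES.N34.FrickeFK8
  Fermat.Agent.ES.P36.ModelDefsP9 Fermat.Agent.ES.P36.ModelQAt4 Fermat.Agent.ES.P36.PtsModel9
  Fermat.Agent.ES.P36.BranchModel15 Fermat.Agent.ES.P36.GenTable11
  Fermat.Agent.ES.P36.NodeRegAt10 Fermat.Agent.ES.P36.EisItems29 Fermat.Agent.ES.P36.EisGen4
  Fermat.Agent.ES.P36.EisInt4 Fermat.Agent.ES.P36.EisTable4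

variable {n e q M' : ℕ} [NeZero n] [NeZero M'] [NeZero q] {A : ValuationSubring Qbar}
  {K : IntermediateField ℚ Qbar}

/-! ### The Frobenius-inverse action on the level-`M'` charts -/

/-- `g_ψ` on the chart `B0M`. -/
def gpsi0 (ψ : K ≃ₐ[ℚ] K)
    (hψO : ∀ x ∈ AK A K, ((ψ : K ≃ₐ[ℚ] K) : K →+* K) x ∈ AK A K)
    (ht : tq (↥K) n e ∈ FK M' K) : ↥(ModelDefs9.B0M A ht) → ↥(ModelDefs9.B0M A ht) :=
  fun u => ⟨arithmeticRingAut (modularFunctionFieldFull M') ψ (u : FK M' K),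
    gpsi_mem_B0M M' ψ hψO ht u.2⟩

/-- `g_ψ` on the chart `B1M`. -/
def gpsi1 (ψ : K ≃ₐ[ℚ] K)
    (hψO : ∀ x ∈ AK A K, ((ψ : K ≃ₐ[ℚ] K) : K →+* K) x ∈ AK A K)
    (ht : tq (↥K) n e ∈ FK M' K) : ↥(ModelDefs9.B1M A ht) → ↥(ModelDefs9.B1M A ht) :=
  fun u => ⟨arithmeticRingAut (modularFunctionFieldFull M') ψ (u : FK M' K),
    gpsi_mem_B1M M' ψ hψO ht u.2⟩

/-! ### The four instances -/

section Inst

variable (hq : q.Prime) (hqM : ¬ q ∣ M') (hA : A.LiesOverPrime q) [FiniteDimensional ℚ K]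
  (hF : FrobInvAt A K q)
  (hI : ChartItems n e q M' A K ∧ GlueItems n e q M' A K ∧ ModEqItems n e q M' A K ∧
    KronItems n e q M' A K ∧ PrinItems n e q M' A K)
  (htab : TableItemsP q M' A K) (hmulti : MultiItemsP n e q M' A K)
  (hnode : NodeRegItems n e q M' A K)
include hq hqM hA hF hI htab hmulti hnode

/-- **The shared contract of R6 at ONE `K`**: `EisAt` on both charts and for both degeneracy maps. -/
theorem eisItemsP_of : EisItemsP n e q M' A K := by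
  intro ht π hπ O2 hO2
  obtain ⟨k, hqk⟩ : ∃ k, q = k + 2 := ⟨q - 2, by have := hq.two_le; omega⟩
  haveI hdvr : IsDiscreteValuationRing ↥(AK A K) :=
    Fermat.Agent.RED.DESC.NumberFieldDVR27.isDiscreteValuationRing_AK A K hq.ne_zero hA
  have hirr : Irreducible π := (IsDiscreteValuationRing.irreducible_iff_uniformizer π).mpr hπ.max_eq
  haveI : Fact q.Prime := ⟨hq⟩
  haveI : CharP (Res (AK A K)) q :=
    Fermat.Agent.RED.DESC.NumberFieldDVR27.charP_residueField_AK A K hq hA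
  obtain ⟨h1, h2, h3, h4, h5⟩ := hI
  obtain ⟨ht₀, hE₀, hin⟩ := twoLevelInputs_of_items hq.two_le h1 h2 h3 h4 h5
  have hE : FK (M' * q) K ≤ fracField (AK A K) := FK_le_fracField A K (M' * q)
  have hin' := hin π hπ
  have D := nodalNumData_of_inputs hin'
  obtain ⟨T, H⟩ := htab π hπ O2 hO2
  have M := hmulti ht π hπ O2 hO2
  obtain ⟨hy0, hy1⟩ := h3 ht
  obtain ⟨ψ, hψO, hψ⟩ := hF
  have hqπ := Fermat.Agent.ES.P36.ModelP4.q_eq_pi_mul q hA hπ
  have hiso : ∀ x : FK M' K, (x : LaurentSeries K) ∈ gaussRing (AK A K) →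
      ((frickeFK M' K x : FK M' K) : LaurentSeries K) ∈ gaussRing (AK A K) :=
    fun x hx => (Fermat.Agent.ES.N34.IsoM25.isoM A K M' q hirr hqM x).mp hx
  have hle0 := Fermat.Agent.ES.N34.KronItems15.le_B0M (A := A) hirr ht
  have hle1 := Fermat.Agent.ES.N34.KronItems15.le_B1M (A := A) hirr ht
  -- the explicit Kronecker congruences, both charts
  have hKa0 : ∀ u : ↥(ModelDefs9.B0M A ht), ∃ o ∈ O2q M' q hπ,
      ModelDefs9.alpha K M' q (u : FK M' K) -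
        (ModelDefs9.beta K M' q ((gpsi0 ψ hψO ht u : ↥(ModelDefs9.B0M A ht)) : FK M' K)) ^ q =
        algebraMap ↥(AK A K) ↥(FK (M' * q) K) π * o := fun u =>
    kron_two' M' q hπ hE ψ hψO hψ (u : FK M' K) (hiso _ (hle0 _ u.2))
  have hKb0 : ∀ u : ↥(ModelDefs9.B0M A ht), ∃ o ∈ O1q M' q hπ,
      ModelDefs9.beta K M' q (u : FK M' K) -
        (ModelDefs9.alpha K M' q ((gpsi0 ψ hψO ht u : ↥(ModelDefs9.B0M A ht)) : FK M' K)) ^ q =
        algebraMap ↥(AK A K) ↥(FK (M' * q) K) π * o := fun u =>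
    kron_one M' q hπ hE ψ hψO hψ (u : FK M' K) (hle0 _ u.2)
  have hKa1 : ∀ u : ↥(ModelDefs9.B1M A ht), ∃ o ∈ O2q M' q hπ,
      ModelDefs9.alpha K M' q (u : FK M' K) -
        (ModelDefs9.beta K M' q ((gpsi1 ψ hψO ht u : ↥(ModelDefs9.B1M A ht)) : FK M' K)) ^ q =
        algebraMap ↥(AK A K) ↥(FK (M' * q) K) π * o := fun u =>
    kron_two' M' q hπ hE ψ hψO hψ (u : FK M' K) (hiso _ (hle1 _ u.2))
  have hKb1 : ∀ u : ↥(ModelDefs9.B1M A ht), ∃ o ∈ O1q M' q hπ,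
      ModelDefs9.beta K M' q (u : FK M' K) -
        (ModelDefs9.alpha K M' q ((gpsi1 ψ hψO ht u : ↥(ModelDefs9.B1M A ht)) : FK M' K)) ^ q =
        algebraMap ↥(AK A K) ↥(FK (M' * q) K) π * o := fun u =>
    kron_one M' q hπ hE ψ hψO hψ (u : FK M' K) (hle1 _ u.2)
  -- (★): `t` integral over `R[β₂ tN]`, `t⁻¹` integral over `R[β₂ tN⁻¹]`
  have hcα := algHom_algebraMap_O (AK A K) (FK M' K) (FK (M' * q) K) (ModelDefs9.alpha K M' q)
  have hcβ := algHom_algebraMap_O (AK A K) (FK M' K) (FK (M' * q) K) (ModelDefs9.beta K M' q)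
  have hcα₂ := algHom_algebraMap_O (AK A K) (FK (M' * q) K) (FK (M' * q * q) K) (alpha2 K M' q)
  have hsym := Fermat.Agent.ES.P36.SymEq23.eval_beta_alpha_model K M' q hq hqM
  have hsint0 : IsIntegral (Algebra.adjoin ↥(AK A K) {beta2 K M' q (ModelDefs9.tN q ht)})
      (t q ht) :=
    hsint_of_symm (ModelDefs9.alpha K M' q).toRingHom (ModelDefs9.beta K M' q).toRingHom
      (beta2 K M' q).toRingHom (alpha2 K M' q).toRingHom hcα hcβ hcα₂
      (fun w => (alpha2_beta K M' q w).symm) hsym (ModelDefs9.tM ht) hy0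
  have hsint1 : IsIntegral (Algebra.adjoin ↥(AK A K) {beta2 K M' q (ModelDefs9.tN q ht)⁻¹})
      (t q ht)⁻¹ :=
    hsint_of_symm_inv (ModelDefs9.alpha K M' q).toRingHom (ModelDefs9.beta K M' q).toRingHom
      (beta2 K M' q).toRingHom (alpha2 K M' q).toRingHom hcα hcβ hcα₂
      (fun w => (alpha2_beta K M' q w).symm) hsym (ModelDefs9.tM ht) hy1
  have hR3 := hnode ht hE π hπ
  refine ⟨?_, ?_, ?_, ?_⟩
  · -- `α₂`-side, chart `0`
    exact eisAt_core hq hqk hqπ (alpha2 K M' q) (beta2 K M' q) H.finα H.degα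
      (ModelDefs9.alpha K M' q) (ModelDefs9.beta K M' q) (fun w => alpha2_beta K M' q w)
      H.cα1 H.cα2 H.cα3 H.cβ1 H.cβ2 H.cβ3 H.h12 H.hT0 H.hT1 H.hTπ H.famα
      (sM := ModelDefs9.tM ht) (s' := ModelDefs9.tN q ht) (s := t q ht)
      D.noeth0 D.frac0 D.model.le_O1_0 D.model.le_O2_0 D.model.unif1 D.model.unif2 D.model.sat0
      (M.le_O_0 0) (M.le_O_0 1) (M.le_O_0 2) (M.pi_nonunit 0) (M.pi_nonunit 1) (M.pi_nonunit 2)
      (self_mem_chart _) (isIntegral_adjoin_self _)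
      hR3.1 (gpsi0 ψ hψO ht) hin'.a_mem0 hin'.b_mem0 hin'.prin01 hin'.prin02 hKb0 hKa0
  · -- `β₂`-side, chart `0`
    exact eisAt_core hq hqk hqπ (beta2 K M' q) (alpha2 K M' q) H.finβ H.degβ
      (ModelDefs9.beta K M' q) (ModelDefs9.alpha K M' q) (fun w => (alpha2_beta K M' q w).symm)
      H.cβ3 H.cβ2 H.cβ1 H.cα3 H.cα2 H.cα1 H.h32 H.hT0 H.hT1 H.hTπ H.famβ
      (sM := ModelDefs9.tM ht) (s' := ModelDefs9.tN q ht) (s := t q ht)
      D.noeth0 D.frac0 D.model.le_O2_0 D.model.le_O1_0 D.model.unif2 D.model.unif1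
      (fun x hx c hc2 hc1 hxc => D.model.sat0 x hx c hc1 hc2 hxc)
      (M.le_O_0 2) (M.le_O_0 1) (M.le_O_0 0) (M.pi_nonunit 2) (M.pi_nonunit 1) (M.pi_nonunit 0)
      (Fermat.Agent.ES.P36.ChartMaps9.beta2_mem_B0 ht hy0 (self_mem_chart _)) hsint0
      (nodeRegAt_symm hR3.1) (gpsi0 ψ hψO ht)
      hin'.b_mem0 hin'.a_mem0 hin'.prin02 hin'.prin01 hKa0 hKb0
  · -- `α₂`-side, chart `1`
    exact eisAt_core hq hqk hqπ (alpha2 K M' q) (beta2 K M' q) H.finα H.degα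
      (ModelDefs9.alpha K M' q) (ModelDefs9.beta K M' q) (fun w => alpha2_beta K M' q w)
      H.cα1 H.cα2 H.cα3 H.cβ1 H.cβ2 H.cβ3 H.h12 H.hT0 H.hT1 H.hTπ H.famα
      (sM := (ModelDefs9.tM ht)⁻¹) (s' := (ModelDefs9.tN q ht)⁻¹) (s := (t q ht)⁻¹)
      D.noeth1 D.frac1 D.model.le_O1_1 D.model.le_O2_1 D.model.unif1 D.model.unif2 D.model.sat1
      (M.le_O_1 0) (M.le_O_1 1) (M.le_O_1 2) (M.pi_nonunit 0) (M.pi_nonunit 1) (M.pi_nonunit 2)
      (by rw [map_inv₀]; exact self_mem_chart _)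
      (by rw [map_inv₀]; exact isIntegral_adjoin_self _)
      hR3.2 (gpsi1 ψ hψO ht) hin'.a_mem1 hin'.b_mem1 hin'.prin11 hin'.prin12 hKb1 hKa1
  · -- `β₂`-side, chart `1`
    exact eisAt_core hq hqk hqπ (beta2 K M' q) (alpha2 K M' q) H.finβ H.degβ
      (ModelDefs9.beta K M' q) (ModelDefs9.alpha K M' q) (fun w => (alpha2_beta K M' q w).symm)
      H.cβ3 H.cβ2 H.cβ1 H.cα3 H.cα2 H.cα1 H.h32 H.hT0 H.hT1 H.hTπ H.famβ
      (sM := (ModelDefs9.tM ht)⁻¹) (s' := (ModelDefs9.tN q ht)⁻¹) (s := (t q ht)⁻¹)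
      D.noeth1 D.frac1 D.model.le_O2_1 D.model.le_O1_1 D.model.unif2 D.model.unif1
      (fun x hx c hc2 hc1 hxc => D.model.sat1 x hx c hc1 hc2 hxc)
      (M.le_O_1 2) (M.le_O_1 1) (M.le_O_1 0) (M.pi_nonunit 2) (M.pi_nonunit 1) (M.pi_nonunit 0)
      (Fermat.Agent.ES.P36.ChartMaps9.beta2_mem_B1 ht hy1 (self_mem_chart _)) hsint1
      (nodeRegAt_symm hR3.2) (gpsi1 ψ hψO ht)
      hin'.b_mem1 hin'.a_mem1 hin'.prin12 hin'.prin11 hKa1 hKb1

end Inst

end Fermat.Agent.ES.P36.EisModel4
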