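/-
Program P (S36), MODEL-P, brick M7a-4 — helper4: **the level-`M' q` model over an INERTIAL number
field** (`InertField27.IsInertial A K`: fixed by the inertia group of `A`, stable under its
decomposition group), i.e. `modelInput_inertial`: the readiness hypothesis `ModelQAt4.FrobInvAt A K q`
of the per-`K` level-`M' q` model (`ModelQAt4`, `ModelOAt4`) is discharged by
`InertField27.exists_frobInv_of_isInertial`.  The only remaining readiness hypothesis is
`hζ : zetaK M' ∈ K`.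

* `frobInvAt_of_isInertial`;
* `items_four_inertial / items_nine_inertial` : the five items of Program N at `K`;
* `twoLevelInputs_inertial`, `nodalNumData_four_inertial / nodalNumData_nine_inertial`;
* `levelO_four_inertial / levelO_nine_inertial` : all items of Programs N and O at `K`.
-/
import Mathlib
import Fermat.Agent.ES.P36.InertField27
import Fermat.Agent.ES.P36.ModelOAt4

set_option autoImplicit false
set_option synthInstance.maxHeartbeats 400000
set_option linter.unusedSectionVars false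

noncomputable section

open HahnSeries ModularCurve IntermediateField
open scoped MatrixGroups

namespace Fermat.Agent.ES.P36.ModelInert4

open Fermat.Agent.RED.Interface4 Fermat.Agent.RED.PUR.GaussGen8 Fermat.Agent.RED.PUR.KtGauss8
  Fermat.Agent.RED.PUR.G1Package8 Fermat.Agent.RED.BASE.EtaQuot12
  Fermat.Agent.RED.PUR.ChartGeneric22 Fermat.Agent.RED.ModelTargets4
  Fermat.Agent.ES.N34.ModelDefs9 Fermat.Agent.ES.N34.ModelN4 Fermat.Agent.ES.N34.ModelTop4
  Fermat.Agent.ES.N34.LevelM20 Fermat.Agent.ES.N34.PrinItems12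
  Fermat.Agent.ES.N35.CompData16 Fermat.Agent.ES.N35.CompItems16 Fermat.Agent.ES.N35.SurjModel15
  Fermat.Agent.ES.N35.IntNode16 Fermat.Agent.ES.N35.NodeStrong4 Fermat.Agent.ES.N35.NodeGlue4
  Fermat.Agent.ES.P36.ModelQAt4 Fermat.Agent.ES.P36.ModelOAt4 Fermat.Agent.ES.P36.InertField27
  Fermat.Agent.X0 Fermat.Agent.ES.N34.NumData13 Fermat.Agent.RED.BASE.Hauptmodul12

variable {n e M' : ℕ} [NeZero n] [NeZero M'] {q : ℕ} [NeZero q] {A : ValuationSubring Qbar}
  {K : IntermediateField ℚ Qbar}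

/-- An inertial number field has a Frobenius inverse. -/
theorem frobInvAt_of_isInertial (hK : IsInertial A K) (hq : q.Prime) (hA : A.LiesOverPrime q) :
    FrobInvAt A K q :=
  exists_frobInv_of_isInertial hK q hq hA

/-- The five items of Program N at an inertial `K`, `q` odd, `4 ∣ M'`. -/
theorem items_four_inertial (hq : q.Prime) (hq2 : q ≠ 2) (hqM : ¬ q ∣ M') (hM : 4 ∣ M')
    (hA : A.LiesOverPrime q) [FiniteDimensional ℚ K] (hK : IsInertial A K)
    (hζ : zetaK M' ∈ K) :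
    ChartItems 4 8 q M' A K ∧ GlueItems 4 8 q M' A K ∧ ModEqItems 4 8 q M' A K ∧
      KronItems 4 8 q M' A K ∧ PrinItems 4 8 q M' A K :=
  items_four_at hq hq2 hqM hM hA hζ (frobInvAt_of_isInertial hK hq hA)

/-- The five items of Program N at an inertial `K`, `q = 2`, `9 ∣ M'`. -/
theorem items_nine_inertial [NeZero 2] (hqM : ¬ 2 ∣ M') (hM : 9 ∣ M')
    (hA : A.LiesOverPrime 2) [FiniteDimensional ℚ K] (hK : IsInertial A K)
    (hζ : zetaK M' ∈ K) :
    ChartItems 9 3 2 M' A K ∧ GlueItems 9 3 2 M' A K ∧ ModEqItems 9 3 2 M' A K ∧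
      KronItems 9 3 2 M' A K ∧ PrinItems 9 3 2 M' A K :=
  items_nine_at hqM hM hA hζ (frobInvAt_of_isInertial hK Nat.prime_two hA)

/-- **`modelInput_inertial`**: the two-level inputs of the level-`M' q` model at an inertial `K`. -/
theorem twoLevelInputs_inertial (hb : BaseHyp n e) (hnM : n ∣ M') (hq : q.Prime) (hqn : ¬ q ∣ n)
    (hqM : ¬ q ∣ M') (hA : A.LiesOverPrime q) (cv : SL(2, ℤ) → Option Kbar)
    (hcv : Fermat.Agent.RED.BASE.MainCusp12.CuspExports n e M' cv)
    [FiniteDimensional ℚ K] (hK : IsInertial A K) (hζ : zetaK M' ∈ K) :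
    ∃ (ht : tq (↥K) n e ∈ FK M' K) (hE : FK (M' * q) K ≤ fracField (AK A K)),
      ∀ (π : ↥(AK A K)) (hπ : IsUnif (AK A K) π),
        TwoLevelInputs (AK A K) (FK M' K) (FK (M' * q) K) (alpha K M' q) (beta K M' q) q π
          (tM ht) (O1 M' q hπ hE) (O2 M' q hπ hE) :=
  twoLevelInputs_at hb hnM hq hqn hqM hA cv hcv hζ (frobInvAt_of_isInertial hK hq hA)

/-- The nodal numerical data of the level-`M' q` model at an inertial `K` (`q` odd, `4 ∣ M'`). -/
theorem nodalNumData_four_inertial (hq : q.Prime) (hq2 : q ≠ 2) (hqM : ¬ q ∣ M') (hM : 4 ∣ M')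
    (hA : A.LiesOverPrime q) [FiniteDimensional ℚ K] (hK : IsInertial A K)
    (hζ : zetaK M' ∈ K) :
    ∃ (ht : tq (↥K) 4 8 ∈ FK M' K) (hE : FK (M' * q) K ≤ fracField (AK A K)),
      ∀ (π : ↥(AK A K)) (hπ : IsUnif (AK A K) π),
        NodalNumData ↥(AK A K) ↥K ↥(FK (M' * q) K) π (tN q ht) (B0 A q ht) (B1 A q ht)
          (O1 M' q hπ hE) (O2 M' q hπ hE) :=
  nodalNumData_four_at hq hq2 hqM hM hA hζ (frobInvAt_of_isInertial hK hq hA)

/-- The nodal numerical data of the level-`M' 2` model at an inertial `K` (`q = 2`, `9 ∣ M'`). -/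
theorem nodalNumData_nine_inertial [NeZero 2] (hqM : ¬ 2 ∣ M') (hM : 9 ∣ M')
    (hA : A.LiesOverPrime 2) [FiniteDimensional ℚ K] (hK : IsInertial A K)
    (hζ : zetaK M' ∈ K) :
    ∃ (ht : tq (↥K) 9 3 ∈ FK M' K) (hE : FK (M' * 2) K ≤ fracField (AK A K)),
      ∀ (π : ↥(AK A K)) (hπ : IsUnif (AK A K) π),
        NodalNumData ↥(AK A K) ↥K ↥(FK (M' * 2) K) π (tN 2 ht) (B0 A 2 ht) (B1 A 2 ht)
          (O1 M' 2 hπ hE) (O2 M' 2 hπ hE) :=
  nodalNumData_nine_at hqM hM hA hζ (frobInvAt_of_isInertial hK Nat.prime_two hA)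

/-- All items of Programs N and O at an inertial `K` (`q` odd, `4 ∣ M'`). -/
theorem levelO_four_inertial (hq : q.Prime) (hq2 : q ≠ 2) (hqM : ¬ q ∣ M') (hM : 4 ∣ M')
    (hA : A.LiesOverPrime q) [FiniteDimensional ℚ K] (hK : IsInertial A K)
    (hζ : zetaK M' ∈ K) :
    AllItems 4 8 q M' A K ∧ CompItems 4 8 q M' A K ∧ SurjItems 4 8 q M' A K ∧
      IntNodeItems 4 8 q M' A K ∧ StrongItems 4 8 q M' A K ∧ GlueNodeItems 4 8 q M' A K :=
  levelO_four_at hq hq2 hqM hM hA hζ (frobInvAt_of_isInertial hK hq hA)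

/-- All items of Programs N and O at an inertial `K` (`q = 2`, `9 ∣ M'`). -/
theorem levelO_nine_inertial [NeZero 2] (hqM : ¬ 2 ∣ M') (hM : 9 ∣ M')
    (hA : A.LiesOverPrime 2) [FiniteDimensional ℚ K] (hK : IsInertial A K)
    (hζ : zetaK M' ∈ K) :
    AllItems 9 3 2 M' A K ∧ CompItems 9 3 2 M' A K ∧ SurjItems 9 3 2 M' A K ∧
      IntNodeItems 9 3 2 M' A K ∧ StrongItems 9 3 2 M' A K ∧ GlueNodeItems 9 3 2 M' A K :=
  levelO_nine_at hqM hM hA hζ (frobInvAt_of_isInertial hK Nat.prime_two hA)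

end Fermat.Agent.ES.P36.ModelInert4
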