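/-
Program P (S36), chapter (SS)/REG, brick R6 (helper4), FINAL PLUG: **`EisItems29.EisItemsP` over an
INERTIAL number field `K ∋ ζ_{M'}`** (the readiness of record `NumAsmP12.ReadyP`), for the two
Hauptmoduln `(4, 8)` (`q` odd, `4 ∣ M'`) and `(9, 3)` (`q = 2`, `9 ∣ M'`).

Open inputs, each a per-`K` package of record:
* `htab   : BranchModel15.TableItemsP q M' A K`    (`TableItems11.tableItems_of`),
* `hmulti : PtsModel9.MultiItemsP n e q M' A K`    (`ModelFinalP4.multiItemsP_of_complete`),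
* `hT     : NodeRegAt10.TwoGenItems n e q M' A K`  (R1/R2: `RegInst21`).
Discharged here: the level-`M' q` items and the Frobenius inverse (`ModelInert4`), R3
(`NodeRegAt10.nodeRegItems_of` with `ModelInert4.nodalNumData_*_inertial`, `levelO_*_inertial`).
-/
import Mathlib
import Fermat.Agent.ES.P36.ModelInert4
import Fermat.Agent.ES.P36.EisModel4

set_option autoImplicit false
set_option synthInstance.maxHeartbeats 400000

noncomputable section

open HahnSeries ModularCurve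

namespace Fermat.Agent.ES.P36.EisFinal4

open Fermat.Agent.RED.Interface4 Fermat.Agent.RED.PUR.GaussGen8 Fermat.Agent.X0
  Fermat.Agent.ES.P36.InertField27 Fermat.Agent.ES.P36.ModelInert4
  Fermat.Agent.ES.P36.PtsModel9 Fermat.Agent.ES.P36.BranchModel15
  Fermat.Agent.ES.P36.NodeRegAt10 Fermat.Agent.ES.P36.EisItems29 Fermat.Agent.ES.P36.EisModel4

variable {q M' : ℕ} [NeZero M'] [NeZero q] {A : ValuationSubring Qbar}
  {K : IntermediateField ℚ Qbar}

/-- R3 at an inertial `K` from the two-generator input (`q` odd, `4 ∣ M'`). -/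
theorem nodeRegItems_four (hq : q.Prime) (hq2 : q ≠ 2) (hqM : ¬ q ∣ M') (hM : 4 ∣ M')
    (hA : A.LiesOverPrime q) [FiniteDimensional ℚ K] (hK : IsInertial A K) (hζ : zetaK M' ∈ K)
    (hT : TwoGenItems 4 8 q M' A K) : NodeRegItems 4 8 q M' A K :=
  nodeRegItems_of (nodalNumData_four_inertial hq hq2 hqM hM hA hK hζ)
    (levelO_four_inertial hq hq2 hqM hM hA hK hζ).2.2.2.2.1 hT

/-- R3 at an inertial `K` from the two-generator input (`q = 2`, `9 ∣ M'`). -/
theorem nodeRegItems_nine [NeZero 2] (hqM : ¬ 2 ∣ M') (hM : 9 ∣ M')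
    (hA : A.LiesOverPrime 2) [FiniteDimensional ℚ K] (hK : IsInertial A K) (hζ : zetaK M' ∈ K)
    (hT : TwoGenItems 9 3 2 M' A K) : NodeRegItems 9 3 2 M' A K :=
  nodeRegItems_of (nodalNumData_nine_inertial hqM hM hA hK hζ)
    (levelO_nine_inertial hqM hM hA hK hζ).2.2.2.2.1 hT

/-- **`EisItemsP 4 8` over an inertial `K ∋ ζ_{M'}`** (`q` odd, `4 ∣ M'`), from R3. -/
theorem eisItemsP_four_of_node (hq : q.Prime) (hq2 : q ≠ 2) (hqM : ¬ q ∣ M') (hM : 4 ∣ M')
    (hA : A.LiesOverPrime q) [FiniteDimensional ℚ K] (hK : IsInertial A K) (hζ : zetaK M' ∈ K)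
    (htab : TableItemsP q M' A K) (hmulti : MultiItemsP 4 8 q M' A K)
    (hnode : NodeRegItems 4 8 q M' A K) : EisItemsP 4 8 q M' A K :=
  eisItemsP_of hq hqM hA (frobInvAt_of_isInertial hK hq hA)
    (items_four_inertial hq hq2 hqM hM hA hK hζ) htab hmulti hnode

/-- **`EisItemsP 9 3` over an inertial `K ∋ ζ_{M'}`** (`q = 2`, `9 ∣ M'`), from R3. -/
theorem eisItemsP_nine_of_node [NeZero 2] (hqM : ¬ 2 ∣ M') (hM : 9 ∣ M')
    (hA : A.LiesOverPrime 2) [FiniteDimensional ℚ K] (hK : IsInertial A K) (hζ : zetaK M' ∈ K)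
    (htab : TableItemsP 2 M' A K) (hmulti : MultiItemsP 9 3 2 M' A K)
    (hnode : NodeRegItems 9 3 2 M' A K) : EisItemsP 9 3 2 M' A K :=
  eisItemsP_of Nat.prime_two hqM hA (frobInvAt_of_isInertial hK Nat.prime_two hA)
    (items_nine_inertial hqM hM hA hK hζ) htab hmulti hnode

/-- **`EisItemsP 4 8` over an inertial `K ∋ ζ_{M'}`** from the two-generator input of R1/R2. -/
theorem eisItemsP_four (hq : q.Prime) (hq2 : q ≠ 2) (hqM : ¬ q ∣ M') (hM : 4 ∣ M')
    (hA : A.LiesOverPrime q) [FiniteDimensional ℚ K] (hK : IsInertial A K) (hζ : zetaK M' ∈ K)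
    (htab : TableItemsP q M' A K) (hmulti : MultiItemsP 4 8 q M' A K)
    (hT : TwoGenItems 4 8 q M' A K) : EisItemsP 4 8 q M' A K :=
  eisItemsP_four_of_node hq hq2 hqM hM hA hK hζ htab hmulti
    (nodeRegItems_four hq hq2 hqM hM hA hK hζ hT)

/-- **`EisItemsP 9 3` over an inertial `K ∋ ζ_{M'}`** from the two-generator input of R1/R2. -/
theorem eisItemsP_nine [NeZero 2] (hqM : ¬ 2 ∣ M') (hM : 9 ∣ M')
    (hA : A.LiesOverPrime 2) [FiniteDimensional ℚ K] (hK : IsInertial A K) (hζ : zetaK M' ∈ K)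
    (htab : TableItemsP 2 M' A K) (hmulti : MultiItemsP 9 3 2 M' A K)
    (hT : TwoGenItems 9 3 2 M' A K) : EisItemsP 9 3 2 M' A K :=
  eisItemsP_nine_of_node hqM hM hA hK hζ htab hmulti (nodeRegItems_nine hqM hM hA hK hζ hT)

end Fermat.Agent.ES.P36.EisFinal4
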