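/-
Program P (S36), chapter REG, brick R6α (helper10), second file: THE INTEGRAL CLOSURE OF THE NODE
IN `F''` IS THE EISENSTEIN EXTENSION (generic algebra: Mathlib + `EisStep26` + `EisFeed10`).

`S` the regular local ring of the level-`q` chart at a node (`𝔪_S = (x, y)`, `x`, `y` prime),
`E = Frac S`, `F / E` finite, `T := integralClosure S F`, `z ∈ T` lying in every maximal ideal of `T`,
`N := N_{F/E}(z) ∈ S` with `N ≡ s' mod (x)` and `N ≡ a mod (y)`, `a ∈ 𝔪²` (Program N's Kronecker
parameters `s`, `s'`).  Then (`integralClosure_eisenstein`):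

* `F = E(z)` (`(minpoly S z).natDegree = [F : E]` — NOT assumed: it follows from `N ∉ 𝔪²`);
* `T` is a LOCAL noetherian domain with `𝔪_T = (s, z)`, `z` is a prime element, `T` is a UFD and
  `T ⧸ (z)` is a principal ideal ring.

In particular there is exactly ONE point of level `q²` above the node (uniqueness is not an input).
-/
import Mathlib
import Fermat.Agent.ES.P36.EisFeed10

set_option autoImplicit false
set_option linter.unusedSectionVars false
set_option linter.style.haveILetI false

namespace Fermat.Agent.ES.P36.EisIdent10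

open IsLocalRing Polynomial Module IntermediateField

section Norm

variable {S : Type*} [CommRing S] [IsDomain S] [IsLocalRing S]
  {E F : Type*} [Field E] [Field F] [Algebra S E] [IsFractionRing S E] [Algebra E F] [Algebra S F]
  [IsScalarTower S E F] [FiniteDimensional E F]

/-- **The degree is automatic.** If the norm `N` of `z` is not in `𝔪²` while the constant coefficient
of the minimal polynomial of `z` lies in `𝔪`, then `F = E(z)` and `H(0) = (-1)^[F:E] N`. -/
theorem natDegree_eq_finrank_of_norm [IsIntegrallyClosed S] (zF : F) (hz : IsIntegral S zF)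
    (N : S) (hN : algebraMap S E N = Algebra.norm E zF)
    (hNsq : N ∉ maximalIdeal S ^ 2) (h0 : (minpoly S zF).coeff 0 ∈ maximalIdeal S) :
    (minpoly S zF).natDegree = finrank E F ∧
      (minpoly S zF).coeff 0 = (-1) ^ finrank E F * N := by
  have hzE : IsIntegral E zF := hz.tower_top
  have hmin : minpoly E zF = (minpoly S zF).map (algebraMap S E) :=
    minpoly.isIntegrallyClosed_eq_field_fractions' E hz
  have hmonic : (minpoly S zF).Monic := minpoly.monic hz
  set d := (minpoly S zF).natDegree with hd
  have hdE : (minpoly E zF).natDegree = d := by rw [hmin, hmonic.natDegree_map]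
  set r := finrank E⟮zF⟯ F with hr
  have hdr : d * r = finrank E F := by
    rw [← hdE, ← adjoin.finrank hzE, hr]
    exact finrank_mul_finrank E E⟮zF⟯ F
  have hrpos : 0 < r := finrank_pos
  -- the norm formula
  have hnorm : Algebra.norm E zF = ((-1) ^ d * algebraMap S E ((minpoly S zF).coeff 0)) ^ r := by
    rw [Algebra.norm_eq_norm_adjoin E zF]
    have hpb := Algebra.PowerBasis.norm_gen_eq_coeff_zero_minpoly (adjoin.powerBasis hzE)
    rw [adjoin.powerBasis_gen, adjoin.powerBasis_dim, minpoly_gen, hdE, hmin, coeff_map] at hpb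
    rw [hpb]
  have hNeq : N = ((-1) ^ d * (minpoly S zF).coeff 0) ^ r := by
    apply IsFractionRing.injective S E
    rw [hN, hnorm]
    simp only [map_pow, map_mul, map_neg, map_one]
  have hr1 : r = 1 := by
    by_contra hne
    have hr2 : 2 ≤ r := by omega
    apply hNsq
    rw [hNeq]
    exact Ideal.pow_le_pow_right hr2 (Ideal.pow_mem_pow (Ideal.mul_mem_left _ _ h0) r)
  rw [hr1, mul_one] at hdr
  rw [hr1, pow_one] at hNeq
  refine ⟨hdr, ?_⟩
  rw [← hdr, hNeq, ← mul_assoc, ← pow_add, ← two_mul, pow_mul]
  simp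

end Norm

section Main

variable {S : Type*} [CommRing S] [IsDomain S] [IsLocalRing S] [IsNoetherianRing S]
  {E F : Type*} [Field E] [Field F] [Algebra S E] [IsFractionRing S E] [Algebra E F] [Algebra S F]
  [IsScalarTower S E F] [FiniteDimensional E F]

/-- Every element of `F = E(z)` becomes a polynomial in `z` with coefficients in `S` after
multiplication by a nonzero element of `S`. -/
theorem exists_mul_eq_aeval (zF : F) (hzE : IsIntegral E zF) (htop : E⟮zF⟯ = ⊤) (f : F) :
    ∃ (b : S) (A : S[X]), b ≠ 0 ∧ algebraMap S F b * f = aeval zF A := by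
  have hf : f ∈ E⟮zF⟯ := by rw [htop]; trivial
  have halg : (E⟮zF⟯).toSubalgebra = Algebra.adjoin E {zF} :=
    adjoin_simple_toSubalgebra_of_isAlgebraic hzE.isAlgebraic
  have hf' : f ∈ Algebra.adjoin E {zF} := by
    rw [← halg]; exact hf
  rw [Algebra.adjoin_singleton_eq_range_aeval] at hf'
  obtain ⟨p, hp⟩ := hf'
  obtain ⟨b, hb, hbp⟩ := IsLocalization.integerNormalization_spec (nonZeroDivisors S) p
  refine ⟨b, IsLocalization.integerNormalization (nonZeroDivisors S) p,
    nonZeroDivisors.ne_zero hb, ?_⟩
  have h1 : aeval zF (IsLocalization.integerNormalization (nonZeroDivisors S) p) =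
      aeval zF ((IsLocalization.integerNormalization (nonZeroDivisors S) p).map
        (algebraMap S E)) := by
    rw [aeval_map_algebraMap]
  have hp' : aeval zF p = f := hp
  rw [h1, hbp, ← hp', Algebra.smul_def, map_mul, Polynomial.algebraMap_apply, aeval_C,
    ← IsScalarTower.algebraMap_apply]

/-- **R6α, generic form: the integral closure of the node in `F''` is the Eisenstein extension.** -/
theorem integralClosure_eisenstein {x y s s' c c' N a : S} {q : ℕ} (hq : 2 ≤ q)
    (hx : Prime x) (hy : Prime y) (hxy : ¬ x ∣ y) (hyx : ¬ y ∣ x)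
    (hmax : maximalIdeal S = Ideal.span {x, y})
    (hc : c ∈ maximalIdeal S) (hc' : c' ∈ maximalIdeal S)
    (hs : x ∣ s - c ^ q) (hs' : y ∣ s' - c' ^ q)
    (hgen1 : maximalIdeal S ≤ Ideal.span {y} ⊔ Ideal.span {s})
    (hgen2 : maximalIdeal S ≤ Ideal.span {x} ⊔ Ideal.span {s'})
    (zF : F) (hzint : IsIntegral S zF)
    (hzrad : ∀ M : Ideal ↥(integralClosure S F), M.IsMaximal →
      (⟨zF, hzint⟩ : ↥(integralClosure S F)) ∈ M)
    (hN : algebraMap S E N = Algebra.norm E zF)
    (hN2 : x ∣ N - s') (hN1 : y ∣ N - a) (ha : a ∈ maximalIdeal S ^ 2) :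
    (minpoly S zF).natDegree = finrank E F ∧
    ∃ (_ : IsLocalRing ↥(integralClosure S F)),
      maximalIdeal ↥(integralClosure S F) =
        Ideal.span {algebraMap S ↥(integralClosure S F) s, ⟨zF, hzint⟩} ∧
      Prime (⟨zF, hzint⟩ : ↥(integralClosure S F)) ∧
      IsNoetherianRing ↥(integralClosure S F) := by
  classical
  -- `S` is a UFD, hence integrally closed
  haveI hufd : UniqueFactorizationMonoid S := NodeParam10.ufd hx hmax
  haveI hIC : IsIntegrallyClosed S := inferInstance
  set T := ↥(integralClosure S F) with hT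
  set z : T := ⟨zF, hzint⟩ with hzdef
  set H : S[X] := minpoly S zF with hH
  have hmonic : H.Monic := minpoly.monic hzint
  have hdegpos : 0 < H.natDegree := minpoly.natDegree_pos hzint
  have hinjSF : Function.Injective (algebraMap S F) := by
    rw [IsScalarTower.algebraMap_eq S E F]
    exact (algebraMap E F).injective.comp (IsFractionRing.injective S E)
  haveI : FaithfulSMul S F := (faithfulSMul_iff_algebraMap_injective S F).mpr hinjSF
  have hinjST : Function.Injective (algebraMap S T) := by
    intro a b hab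
    apply hinjSF
    have := congrArg (fun t : T => (t : F)) hab
    exact this
  -- evaluation in `T` versus evaluation in `F`
  have heval : ∀ A : S[X], ((A.eval₂ (algebraMap S T) z : T) : F) = aeval zF A := by
    intro A
    have h1 : A.eval₂ (algebraMap S T) z = aeval z A := (aeval_def z A).symm
    rw [h1]
    exact (Subalgebra.aeval_coe (integralClosure S F) z A).symm
  -- the kernel of `S[X] → T`
  have hker : ∀ A : S[X], A.eval₂ (algebraMap S T) z = 0 → H ∣ A := by
    intro A hA
    refine minpoly.isIntegrallyClosed_dvd hzint ?_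
    rw [← heval A, hA]; rfl
  -- Kronecker parameters
  obtain ⟨hm, hsp, hs'p, hss', hs's, hs'mem⟩ :=
    EisFeed10.param_of_kron hq hx hy hxy hyx hmax hc hc' hs hs' hgen1 hgen2
  -- lower coefficients
  haveI : Algebra.IsIntegral S T := inferInstance
  have hcoeff := EisFeed10.coeff_mem_of_mem_maximal z hzrad H hmonic hker
  -- the norm modulo `𝔪²`
  have hcong := EisFeed10.norm_congr_sq hy hyx hmax hs'mem hN2 hN1 ha
  have hs'sq : s' ∉ maximalIdeal S ^ 2 := NodeParam10.notMem_sq hs'p hs's hm
  have hNsq : N ∉ maximalIdeal S ^ 2 := by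
    intro h
    apply hs'sq
    have := Ideal.sub_mem _ h hcong
    rwa [sub_sub_cancel] at this
  obtain ⟨hdeg, hH0⟩ := natDegree_eq_finrank_of_norm zF hzint N hN hNsq (hcoeff 0 hdegpos)
  refine ⟨hdeg, ?_⟩
  -- the Eisenstein hypotheses
  have hε : IsUnit ((-1 : S) ^ finrank E F) := (isUnit_one.neg).pow _
  have hEis : EisStep26.EisHyp s' s H := by
    refine ⟨hm, hsp, hss', hmonic, hdegpos, hcoeff, (-1) ^ finrank E F, hε, ?_⟩
    have : H.coeff 0 - (-1) ^ finrank E F * s' = (-1) ^ finrank E F * (N - s') := by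
      rw [hH0]; ring
    rw [this]
    exact Ideal.mul_mem_left _ _ hcong
  -- `F = E(z)`
  have hzE : IsIntegral E zF := hzint.tower_top
  have htop : E⟮zF⟯ = ⊤ := by
    rw [Field.primitive_element_iff_minpoly_natDegree_eq,
      minpoly.isIntegrallyClosed_eq_field_fractions' E hzint, hmonic.natDegree_map]
    exact hdeg
  -- identification with the Eisenstein extension
  have hzroot : H.eval₂ (algebraMap S T) z = 0 := by
    apply Subtype.ext
    rw [heval]
    exact minpoly.aeval S zF
  have hfrac : ∀ t : T, ∃ (b : S) (A : S[X]), b ≠ 0 ∧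
      algebraMap S T b * t = A.eval₂ (algebraMap S T) z := by
    intro t
    obtain ⟨b, A, hb, hbA⟩ := exists_mul_eq_aeval (S := S) zF hzE htop (t : F)
    refine ⟨b, A, hb, Subtype.ext ?_⟩
    rw [heval, ← hbA]
    rfl
  have hbij := hEis.lift_bijective hinjST z hzroot hfrac
  set φ : AdjoinRoot H →+* T := AdjoinRoot.lift (algebraMap S T) z hzroot with hφ
  obtain ⟨hloc', hdom', hnoeth', -, -, hmax', hprime', -, -⟩ := EisStep26.eisenstein_step hEis
  haveI := hloc'
  haveI := hdom'
  haveI := hnoeth'
  have hφof : ∀ b : S, φ (AdjoinRoot.of H b) = algebraMap S T b := fun b => AdjoinRoot.lift_of hzroot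
  have hφroot : φ (AdjoinRoot.root H) = z := AdjoinRoot.lift_root hzroot
  haveI hlocT : IsLocalRing T := IsLocalRing.of_surjective' φ hbij.2
  have hnoethT : IsNoetherianRing T := isNoetherianRing_of_surjective _ _ φ hbij.2
  set e : AdjoinRoot H ≃+* T := RingEquiv.ofBijective φ hbij with he
  have heφ : ∀ w, e w = φ w := fun w => rfl
  refine ⟨hlocT, ?_, ?_, hnoethT⟩
  · -- the maximal ideal
    ext t
    obtain ⟨w, rfl⟩ := hbij.2 t
    have hunit : IsUnit (φ w) ↔ IsUnit w := by
      rw [← heφ]; exact MulEquiv.isUnit_map e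
    rw [mem_maximalIdeal, mem_nonunits_iff, hunit, ← mem_nonunits_iff, ← mem_maximalIdeal, hmax',
      Ideal.mem_span_pair, Ideal.mem_span_pair]
    constructor
    · rintro ⟨a1, b1, rfl⟩
      exact ⟨φ a1, φ b1, by rw [map_add, map_mul, map_mul, hφof, hφroot]⟩
    · rintro ⟨a1, b1, hab⟩
      obtain ⟨a2, rfl⟩ := hbij.2 a1
      obtain ⟨b2, rfl⟩ := hbij.2 b1
      refine ⟨a2, b2, hbij.1 ?_⟩
      rw [map_add, map_mul, map_mul, hφof, hφroot, hab]
  · -- the root is prime
    have : Prime (e (AdjoinRoot.root H)) := (MulEquiv.prime_iff e).mpr hprime'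
    rwa [heφ, hφroot] at this

end Main

end Fermat.Agent.ES.P36.EisIdent10
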