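/-
Program P (S36), TOP-P (S36_NOTE1, brick A5 + final assembly), helper12: **the frozen S36 conclusion
from the geometric input `FixTors`** (= (K_c) of the sizing note), the facts HECKE-P about the two
degeneracy maps at the pair `(M₀ q, q)`, Kolchin-lite and the separating polynomial of a newform.

* `FixTors c` : for `q ∤ M₀`, `A` over `q`, `y ∈ J₀(M₀ q²)(ℚ̄)` of order prime to `q`, fixed by the inertia
  group of `A`, with `α_* y = 0 = β_* y` (push-forwards to level `M₀ q`): `c q M₀ • y = 0`;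
* `HeckePStmt` : integrality, finiteness and the norm formula for `heckeAlphaBar/BetaBar ℚbar (M₀ q) q`;
* `tate_fixed_eq_zero` : `FixTors` on the Tate module: an inertia-fixed `x ∈ T_p J₀(M₀ q²)` killed by
  `α_*`, `β_*` is `0`;
* `s36_of_fixTors` : the literal frozen S36 conclusion.
-/
import Mathlib
import Fermat.Agent.ES.N35.TateFrob12
import Fermat.Agent.ES.N35.QNewCore19
import Fermat.Agent.ES.N35.S35Top12
import Fermat.Agent.ES.P36.EigenInertOf12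
import Fermat.Agent.Lib.FrobeniusExists
import Fermat.Prelude.Def_CuspForm_Newforms

set_option autoImplicit false
set_option synthInstance.maxHeartbeats 400000
set_option linter.unusedSectionVars false
set_option linter.style.haveILetI false

noncomputable section

open AlgebraicCurve ModularCurve TensorProduct Polynomial

namespace Fermat.Agent.ES.P36.S36Top12

open Fermat.Agent.ES.N35.PushO12 Fermat.Agent.ES.N35.TateFrob12
  Fermat.Agent.ES.J.TateModule13 Fermat.Agent.ES.J.TateJZero13 Fermat.Agent.ES.N35.QNewCore19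
  Fermat.Agent.ES.N35.S35Top12 Fermat.Agent.ES.P36.EigenInertOf12
  Fermat.Agent.ES.K.HeckeTate26

local notation "Qb" => AlgebraicClosure ℚ

/-- **HECKE-P** (statement): the two degeneracy maps `Fbar (M₀ q) → Fbar (M₀ q²)` at the pair
`(N, ℓ) = (M₀ q, q)` are integral, finite and satisfy the norm formula. -/
def HeckePStmt : Prop :=
  ∀ (M₀ q : ℕ) [NeZero M₀] [NeZero q], q.Prime → ¬ q ∣ M₀ →
    ∃ (_hα : (heckeAlphaBar Qb (M₀ * q) q).toRingHom.IsIntegral)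
      (hfα : FiniteAlong Qb (heckeAlphaBar Qb (M₀ * q) q))
      (_hβ : (heckeBetaBar Qb (M₀ * q) q).toRingHom.IsIntegral)
      (hfβ : FiniteAlong Qb (heckeBetaBar Qb (M₀ * q) q)),
      NormFormulaAlong Qb (heckeAlphaBar Qb (M₀ * q) q) hfα ∧
      NormFormulaAlong Qb (heckeBetaBar Qb (M₀ * q) q) hfβ

/-- **The geometric input of S36, `JZero` form** (= (K_c)): for `q ∤ M₀`, `A` over `q`,
`y ∈ J₀(M₀ q²)(ℚ̄)` of order prime to `q`, fixed by the inertia group of `A`, with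
`α_* y = 0 = β_* y`:  `c q M₀ • y = 0`. -/
def FixTors (c : ℕ → ℕ → ℕ) : Prop :=
  ∀ (M₀ q : ℕ) [NeZero M₀] [NeZero q] (_hq : q.Prime) (_hqM : ¬ q ∣ M₀)
    (hα : (heckeAlphaBar Qb (M₀ * q) q).toRingHom.IsIntegral)
    (hfα : FiniteAlong Qb (heckeAlphaBar Qb (M₀ * q) q))
    (hNα : NormFormulaAlong Qb (heckeAlphaBar Qb (M₀ * q) q) hfα)
    (hβ : (heckeBetaBar Qb (M₀ * q) q).toRingHom.IsIntegral)
    (hfβ : FiniteAlong Qb (heckeBetaBar Qb (M₀ * q) q))
    (hNβ : NormFormulaAlong Qb (heckeBetaBar Qb (M₀ * q) q) hfβ)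
    (A : ValuationSubring Qb), A.LiesOverPrime q →
    ∀ m : ℕ, ¬ q ∣ m → ∀ y : JZero (M₀ * q * q), m • y = 0 →
      (∀ τ ∈ A.inertiaSubgroupIn ℚ, τ • y = y) →
      pic0PushAlong (heckeAlphaBar Qb (M₀ * q) q) hα hfα hNα y = 0 →
      pic0PushAlong (heckeBetaBar Qb (M₀ * q) q) hβ hfβ hNβ y = 0 →
      c q M₀ • y = 0

section Level

variable {M₀ q : ℕ} [NeZero M₀] [NeZero q]

/-- the push-forward along `heckeAlphaBar ℚbar N q` is Galois-equivariant (any level `N`). -/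
theorem alphaPush2_smul (N : ℕ) [NeZero N]
    (hα : (heckeAlphaBar Qb N q).toRingHom.IsIntegral)
    (hfα : FiniteAlong Qb (heckeAlphaBar Qb N q))
    (hNα : NormFormulaAlong Qb (heckeAlphaBar Qb N q) hfα)
    (σ : Qb ≃ₐ[ℚ] Qb) (y : JZero (N * q)) :
    pic0PushAlong (heckeAlphaBar Qb N q) hα hfα hNα (σ • y) =
      σ • pic0PushAlong (heckeAlphaBar Qb N q) hα hfα hNα y := by
  haveI : HasPrincipalDivisors Qb (laurentBaseChange Qb (modularFunctionFieldFull (N * q))) :=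
    Fermat.Agent.RED.TOP.FbarFacts20.hasPrincipalDivisors_bar (N * q)
  rw [galois_smul_pic0_def, galois_smul_pic0_def]
  exact pic0PushAlong_smul (heckeAlphaBar Qb N q) _ _ _
    (arithmeticGalois (modularFunctionFieldFull N) σ)
    (arithmeticGalois (modularFunctionFieldFull (N * q)) σ)
    (Fermat.Agent.ES.HECKE.HeckeGalois12.heckeAlphaBar_smul N q σ)
    (fun w => Fermat.Agent.ES.HECKE.FundId12.inertiaDegAlong_eq_one (heckeAlphaBar Qb N q) _
      hfα (Fermat.Agent.RED.TOP.FbarFacts20.isGen_j N) w) y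

/-- the push-forward along `heckeBetaBar ℚbar N q` is Galois-equivariant (any level `N`). -/
theorem betaPush2_smul (N : ℕ) [NeZero N]
    (hβ : (heckeBetaBar Qb N q).toRingHom.IsIntegral)
    (hfβ : FiniteAlong Qb (heckeBetaBar Qb N q))
    (hNβ : NormFormulaAlong Qb (heckeBetaBar Qb N q) hfβ)
    (σ : Qb ≃ₐ[ℚ] Qb) (y : JZero (N * q)) :
    pic0PushAlong (heckeBetaBar Qb N q) hβ hfβ hNβ (σ • y) =
      σ • pic0PushAlong (heckeBetaBar Qb N q) hβ hfβ hNβ y := by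
  haveI : HasPrincipalDivisors Qb (laurentBaseChange Qb (modularFunctionFieldFull (N * q))) :=
    Fermat.Agent.RED.TOP.FbarFacts20.hasPrincipalDivisors_bar (N * q)
  rw [galois_smul_pic0_def, galois_smul_pic0_def]
  exact pic0PushAlong_smul (heckeBetaBar Qb N q) _ _ _
    (arithmeticGalois (modularFunctionFieldFull N) σ)
    (arithmeticGalois (modularFunctionFieldFull (N * q)) σ)
    (Fermat.Agent.ES.HECKE.HeckeGalois12.heckeBetaBar_smul N q σ)
    (fun w => Fermat.Agent.ES.HECKE.FundId12.inertiaDegAlong_eq_one (heckeBetaBar Qb N q) _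
      hfβ (Fermat.Agent.RED.TOP.FbarFacts20.isGen_j N) w) y

variable (p : ℕ) [hp : Fact p.Prime]

/-- `α_*` on Tate modules, level `M₀ q² → M₀ q`. -/
def alphaT2 (hα : (heckeAlphaBar Qb (M₀ * q) q).toRingHom.IsIntegral)
    (hfα : FiniteAlong Qb (heckeAlphaBar Qb (M₀ * q) q))
    (hNα : NormFormulaAlong Qb (heckeAlphaBar Qb (M₀ * q) q) hfα) :
    TJ p (M₀ * q * q) →ₗ[ℤ_[p]] TJ p (M₀ * q) :=
  map (pic0PushAlong (heckeAlphaBar Qb (M₀ * q) q) hα hfα hNα)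

/-- `β_*` on Tate modules, level `M₀ q² → M₀ q`. -/
def betaT2 (hβ : (heckeBetaBar Qb (M₀ * q) q).toRingHom.IsIntegral)
    (hfβ : FiniteAlong Qb (heckeBetaBar Qb (M₀ * q) q))
    (hNβ : NormFormulaAlong Qb (heckeBetaBar Qb (M₀ * q) q) hfβ) :
    TJ p (M₀ * q * q) →ₗ[ℤ_[p]] TJ p (M₀ * q) :=
  map (pic0PushAlong (heckeBetaBar Qb (M₀ * q) q) hβ hfβ hNβ)

variable {p}

theorem alphaT2_rhoT (hα : (heckeAlphaBar Qb (M₀ * q) q).toRingHom.IsIntegral)
    (hfα : FiniteAlong Qb (heckeAlphaBar Qb (M₀ * q) q))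
    (hNα : NormFormulaAlong Qb (heckeAlphaBar Qb (M₀ * q) q) hfα)
    (σ : Qb ≃ₐ[ℚ] Qb) (x : TJ p (M₀ * q * q)) :
    alphaT2 p hα hfα hNα (rhoT p (M₀ * q * q) σ x) = rhoT p (M₀ * q) σ (alphaT2 p hα hfα hNα x) := by
  ext k
  show pic0PushAlong (heckeAlphaBar Qb (M₀ * q) q) hα hfα hNα (σ • proj k x) =
    σ • pic0PushAlong (heckeAlphaBar Qb (M₀ * q) q) hα hfα hNα (proj k x)
  exact alphaPush2_smul (M₀ * q) hα hfα hNα σ (proj k x)

theorem betaT2_rhoT (hβ : (heckeBetaBar Qb (M₀ * q) q).toRingHom.IsIntegral)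
    (hfβ : FiniteAlong Qb (heckeBetaBar Qb (M₀ * q) q))
    (hNβ : NormFormulaAlong Qb (heckeBetaBar Qb (M₀ * q) q) hfβ)
    (σ : Qb ≃ₐ[ℚ] Qb) (x : TJ p (M₀ * q * q)) :
    betaT2 p hβ hfβ hNβ (rhoT p (M₀ * q * q) σ x) = rhoT p (M₀ * q) σ (betaT2 p hβ hfβ hNβ x) := by
  ext k
  show pic0PushAlong (heckeBetaBar Qb (M₀ * q) q) hβ hfβ hNβ (σ • proj k x) =
    σ • pic0PushAlong (heckeBetaBar Qb (M₀ * q) q) hβ hfβ hNβ (proj k x)
  exact betaPush2_smul (M₀ * q) hβ hfβ hNβ σ (proj k x)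

/-- **`FixTors` on the Tate module**: an inertia-fixed `x ∈ T_p J₀(M₀ q²)` killed by both degeneracy
push-forwards to level `M₀ q` is `0`. -/
theorem tate_fixed_eq_zero {c : ℕ → ℕ → ℕ} (hc : ∀ q M₀, c q M₀ ≠ 0) (hFT : FixTors c)
    (hq : q.Prime) (hqM : ¬ q ∣ M₀) (hqp : q ≠ p)
    (hα : (heckeAlphaBar Qb (M₀ * q) q).toRingHom.IsIntegral)
    (hfα : FiniteAlong Qb (heckeAlphaBar Qb (M₀ * q) q))
    (hNα : NormFormulaAlong Qb (heckeAlphaBar Qb (M₀ * q) q) hfα)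
    (hβ : (heckeBetaBar Qb (M₀ * q) q).toRingHom.IsIntegral)
    (hfβ : FiniteAlong Qb (heckeBetaBar Qb (M₀ * q) q))
    (hNβ : NormFormulaAlong Qb (heckeBetaBar Qb (M₀ * q) q) hfβ)
    (A : ValuationSubring Qb) (hA : A.LiesOverPrime q) (x : TJ p (M₀ * q * q))
    (hfix : ∀ τ ∈ A.inertiaSubgroupIn ℚ, rhoT p (M₀ * q * q) τ x = x)
    (ha : alphaT2 p hα hfα hNα x = 0) (hb : betaT2 p hβ hfβ hNβ x = 0) :
    x = 0 := by
  have hcz : ((c q M₀ : ℕ) : ℤ_[p]) ≠ 0 := Nat.cast_ne_zero.mpr (hc q M₀)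
  apply eq_zero_of_smul_eq_zero hcz
  apply eq_zero_of_forall_proj
  intro k
  rw [proj_natCast_smul]
  have hk : ¬ q ∣ p ^ k := not_dvd_pow hq hqp k
  refine hFT M₀ q hq hqM hα hfα hNα hβ hfβ hNβ A hA (p ^ k) hk (proj k x) (pow_smul_proj k x)
    (fun τ hτ => ?_) ?_ ?_
  · rw [← proj_rhoT, hfix τ hτ]
  · have := congrArg (proj k) ha
    exact this
  · have := congrArg (proj k) hb
    exact this

end Level

/-- **The frozen S36 conclusion from `FixTors`, HECKE-P, Kolchin-lite and `SepStmt`.** -/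
theorem s36_of_fixTors (hK : KolchinStmt) (hH : HeckePStmt) {c : ℕ → ℕ → ℕ}
    (hc : ∀ q M₀, c q M₀ ≠ 0) (hFT : FixTors c) (hsep : SepStmt)
    {M : ℕ} [NeZero M] {g : CuspForm (CongruenceSubgroup.Gamma0 M) 2} (hg : g.IsNewform)
    (lam : ℕ) [Fact lam.Prime]
    (S : Finset ℕ)
    (O' : Type) [CommRing O'] [IsDomain O'] [IsDiscreteValuationRing O']
    [IsAdicComplete (IsLocalRing.maximalIdeal O') O'] [Finite (IsLocalRing.ResidueField O')]
    [CharZero O'] (hlamO' : (lam : O') ∈ IsLocalRing.maximalIdeal O')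
    (chig : CuspForm.heckeAlgebra M 2 (↑S : Set ℕ) →+* ℂ)
    (hchig : ∀ (ℓ : ℕ) (hℓ : ℓ.Prime) (hℓM : ¬ ℓ ∣ M) (hℓS : ℓ ∉ (↑S : Set ℕ)),
      chig (CuspForm.heckeAlgebra.T hℓ hℓM hℓS) = ModularFormClass.qCoeff g ℓ)
    (iota : chig.range →+* O')
    (hlamS : lam ∈ S) (hMS : ∀ q : ℕ, q.Prime → q ∣ M → q ∈ S)
    :
    ∃ (O'' : Type) (_ : CommRing O'') (_ : IsDomain O'') (_ : IsDiscreteValuationRing O'')
      (_ : IsAdicComplete (IsLocalRing.maximalIdeal O'') O'') (_ : Finite (IsLocalRing.ResidueField O''))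
      (_ : CharZero O'') (_ : Algebra O' O'') (_ : Module.Finite O' O'') (_ : IsLocalHom (algebraMap O' O'')),
      Function.Injective (algebraMap O' O'') ∧
      ∃ ρ : GaloisRepAdic O'',
        (∀ (ℓ : ℕ) (hℓ : ℓ.Prime) (hℓM : ¬ ℓ ∣ M) (hℓS : ℓ ∉ (↑S : Set ℕ)),
          ∀ A : ValuationSubring (AlgebraicClosure ℚ), A.LiesOverPrime ℓ →
            ∀ σ : AlgebraicClosure ℚ ≃ₐ[ℚ] AlgebraicClosure ℚ, A.IsFrobeniusAt σ ℓ →
              LinearMap.charpoly (ρ.ρ σ) =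
                X ^ 2 - C (algebraMap O' O'' ((iota.comp chig.rangeRestrict) (CuspForm.heckeAlgebra.T hℓ hℓM hℓS))) * X
                  + C ((ℓ : O''))) ∧
        (∀ q : ℕ, q.Prime → q ≠ lam → M.factorization q = 2 → ¬ ρ.IsUnipotentOnInertiaAt q) := by
  have hS : ∀ q : ℕ, q.Prime → q ∣ M → q ∈ (↑S : Set ℕ) :=
    fun q hq h => Finset.mem_coe.mpr (hMS q hq h)
  refine s36_of_hecke hK hg lam S O' hlamO' chig iota hlamS hMS hS (fun q hq hqlam hq2 => ?_)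
  -- split the level: `M = M₀ * q * q`, `q ∤ M₀`
  have hM0' : M ≠ 0 := NeZero.ne M
  obtain ⟨M₀, hM₀, hqM₀⟩ : ∃ M₀, M = M₀ * q * q ∧ ¬ q ∣ M₀ := by
    refine ⟨M / q ^ M.factorization q, ?_, Nat.not_dvd_ordCompl hq hM0'⟩
    have h1 := Nat.ordProj_mul_ordCompl_eq_self M q
    rw [hq2] at h1 ⊢
    rw [mul_assoc, ← pow_two, mul_comm]
    exact h1.symm
  subst hM₀
  have hM0 : M₀ ≠ 0 := fun h => hM0' (by rw [h, zero_mul, zero_mul])
  haveI : NeZero M₀ := ⟨hM0⟩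
  haveI : NeZero q := ⟨hq.ne_zero⟩
  have hdvd : M₀ * q ∣ M₀ * q * q := dvd_mul_right (M₀ * q) q
  have hne : M₀ * q ≠ M₀ * q * q := by
    intro h
    have h1 : M₀ * q * 1 = M₀ * q * q := by rw [mul_one]; exact h
    have := Nat.eq_of_mul_eq_mul_left (Nat.pos_of_ne_zero (NeZero.ne (M₀ * q))) h1
    exact hq.one_lt.ne this
  obtain ⟨hα, hfα, hβ, hfβ, hNα, hNβ⟩ := hH M₀ q hq hqM₀
  -- the separating polynomial and the element `x₀`
  obtain ⟨s, hs0, hsg⟩ := hsep hdvd hne hg S hMS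
  obtain ⟨x₀, hx₀, hD⟩ := exists_qnew_of_sep lam S hlamS hMS
    (fun r hr h => hMS r hr (h.trans hdvd)) hS chig hchig s hs0 hsg
  obtain ⟨A, hA⟩ := Fermat.Agent.Lib.FrobeniusExists.exists_valuationSubring_liesOverPrime q hq
  refine ⟨x₀, ?_, A, hA, fun x hfix => ?_⟩
  · intro h0
    apply hx₀
    have h1 : iota (chig.rangeRestrict x₀) = iota 0 := by rw [map_zero]; exact h0
    exact congrArg Subtype.val (iota_injective chig iota h1)
  · exact tate_fixed_eq_zero hc hFT hq hqM₀ hqlam hα hfα hNα hβ hfβ hNβ A hA _ hfix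
      (hD (alphaT2 lam hα hfα hNα) (alphaT2_rhoT hα hfα hNα) x)
      (hD (betaT2 lam hβ hfβ hNβ) (betaT2_rhoT hβ hfβ hNβ) x)

end Fermat.Agent.ES.P36.S36Top12
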