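/-
Program P (S36), TOP-P (the Kummer ⇄ `JZero` bridge), helper12: **`IfaceP17.FixBar` at all levels `N₀ q²`
gives `S36Top12.FixTors`** (twin of `PushO12.frobTors_of_fBar` / `TorsionInertia12.inertiaTors_of_uBar`).

`y = [D]`, `m • D = div f`:
* `τ • y = y` ⇒ `τD − D = div h` ⇒ `div (τ f) = div (f h^m)` ⇒ `τ f = κ • (f * h ^ m)`
  (`exists_smul_eq_of_fixed`);
* `α_* y = 0`, `β_* y = 0` ⇒ (E) `N f = κ • g ^ m` (`PushO12.exists_norm_eq_of_push_eq_zero`);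
* `f ^ c = κ • s ^ m` ⇒ `m • (c • D) = m • div s` ⇒ `c • D = div s` ⇒ `c • y = 0`.
Also: `heckePStmt` — the facts HECKE-P from `HeckeDeg19`.
-/
import Mathlib
import Fermat.Agent.ES.P36.S36Top12
import Fermat.Agent.ES.P36.IfaceP17
import Fermat.Agent.ES.P36.HeckeDeg19

set_option autoImplicit false
set_option synthInstance.maxHeartbeats 400000
set_option linter.unusedSectionVars false
set_option linter.style.haveILetI false

open HahnSeries AlgebraicCurve ModularCurve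

noncomputable section

namespace Fermat.Agent.ES.P36.FixBridge12

open Fermat.Agent.RED.Interface4 Fermat.Agent.ES.N34.IfaceN4 Fermat.Agent.ES.N34.TorsionInertia12
  Fermat.Agent.ES.N35.PushO12 Fermat.Agent.ES.P36.S36Top12 Fermat.Agent.ES.P36.IfaceP17
open Fermat.Agent.ES.HECKE.BaseChange19 (normAlong)

section Fixed

variable {N : ℕ} [NeZero N]

/-- a fixed class: `τ • [D] = [D]`, `m • D = div f` ⇒ `τ f = κ • (f * h ^ m)`. -/
theorem exists_smul_eq_of_fixed (τ : Qbar ≃ₐ[ℚ] Qbar)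
    (D : Divisor.degZero (K := Qbar) (F := Fbar N))
    (hfix : τ • (Pic0.mk D : JZero N) = Pic0.mk D) {m : ℕ} {f : Fbar N} (hf : f ≠ 0)
    (hfD : ∀ v : Place Qbar (Fbar N), (m : ℤ) * (D : Divisor Qbar (Fbar N)) v = v.ord f) :
    ∃ (κ : Qbar) (h : Fbar N), κ ≠ 0 ∧ h ≠ 0 ∧ gB N τ f = κ • (f * h ^ m) := by
  set g := gal N τ with hg
  have h1 : (Pic0.mk D : Pic0 Qbar (Fbar N)) = Pic0.mk (SemilinearAut.degZeroSMulHom g D) := by
    have : g • (Pic0.mk D : Pic0 Qbar (Fbar N)) = Pic0.mk D := hfix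
    rw [SemilinearAut.pic0_smul_mk] at this
    exact this.symm
  have h2 := (QuotientAddGroup.eq).mp h1
  rw [AddSubgroup.mem_addSubgroupOf] at h2
  obtain ⟨h, hh0, hhD⟩ := h2
  have hordh : ∀ v : Place Qbar (Fbar N),
      v.ord h = -(D : Divisor Qbar (Fbar N)) v + (D : Divisor Qbar (Fbar N)) (g⁻¹ • v) := by
    intro v
    rw [← hhD v]
    simp only [AddSubgroup.coe_add, AddSubgroup.coe_neg, Finsupp.coe_add, Finsupp.coe_neg,
      Pi.add_apply, Pi.neg_apply, SemilinearAut.coe_degZeroSMulHom,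
      SemilinearAut.divisor_smul_apply]
  have hgf0 : gB N τ f ≠ 0 := gB_ne_zero τ hf
  have hden0 : f * h ^ m ≠ 0 := mul_ne_zero hf (pow_ne_zero m hh0)
  obtain ⟨κ, hκ0, hκ⟩ := exists_const_of_ord_eq_zero (x := gB N τ f / (f * h ^ m))
    (div_ne_zero hgf0 hden0) (fun v => by
      rw [div_eq_mul_inv, v.ord_mul hgf0 (inv_ne_zero hden0), v.ord_inv,
        v.ord_mul hf (pow_ne_zero m hh0), ← zpow_natCast h m, v.ord_zpow, ord_gB, hordh v,
        ← hfD v, ← hfD (g⁻¹ • v)]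
      ring)
  refine ⟨κ, h, hκ0, hh0, ?_⟩
  rw [Algebra.smul_def, ← hκ, div_mul_cancel₀ _ hden0]

end Fixed

set_option maxHeartbeats 1000000 in
/-- **The bridge**: (K_c) in Kummer form at all levels `N₀ q²` gives `FixTors`. -/
theorem fixTors_of_fixBar {c : ℕ → ℕ}
    (hF : ∀ (q N₀ : ℕ) [NeZero N₀] [NeZero q] (A : ValuationSubring Qbar), q.Prime → ¬ q ∣ N₀ →
      A.LiesOverPrime q → FixBar (c q) q N₀ A) : FixTors (fun q _ => c q) := by
  intro M₀ q _ _ hq hqM hα hfα hNα hβ hfβ hNβ A hA m hm y hy hfix hαy hβy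
  obtain ⟨⟨D, hD⟩, rfl⟩ := Pic0.mk_surjective y
  have hm0 : m ≠ 0 := fun h0 => hm (h0 ▸ dvd_zero q)
  have hmZ : (m : ℤ) ≠ 0 := by exact_mod_cast hm0
  -- `m • D` is principal
  have hmD : m • D ∈ Divisor.principal (K := Qbar) (F := Fbar (M₀ * q * q)) := by
    have h1 : Pic0.mk (m • (⟨D, hD⟩ : Divisor.degZero (K := Qbar) (F := Fbar (M₀ * q * q)))) = 0 := by
      rw [← hy]; rfl
    have h2 := (QuotientAddGroup.eq_zero_iff _).mp h1
    rw [AddSubgroup.mem_addSubgroupOf] at h2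
    simpa using h2
  obtain ⟨f, hf0, hfD⟩ := hmD
  have hfD' : ∀ v : Place Qbar (Fbar (M₀ * q * q)), (m : ℤ) * D v = v.ord f := by
    intro v
    rw [← hfD v]
    simp
  -- (E)
  have hEα := exists_norm_eq_of_push_eq_zero (heckeAlphaBar Qbar (M₀ * q) q) hα hfα hNα ⟨D, hD⟩
    hαy hf0 hfD'
  have hEβ := exists_norm_eq_of_push_eq_zero (heckeBetaBar Qbar (M₀ * q) q) hβ hfβ hNβ ⟨D, hD⟩
    hβy hf0 hfD'
  -- fixed
  have hI : ∀ τ ∈ A.inertiaSubgroupIn ℚ, ∃ (κ : Qbar) (h : Fbar (M₀ * q * q)), κ ≠ 0 ∧ h ≠ 0 ∧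
      gB (M₀ * q * q) τ f = κ • (f * h ^ m) :=
    fun τ hτ => exists_smul_eq_of_fixed τ ⟨D, hD⟩ (hfix τ hτ) hf0 hfD'
  obtain ⟨κ, s, hκ0, hs0, hs⟩ := hF q M₀ A hq hqM hA m hm f hf0
    (fun v => ⟨D v, (hfD' v).symm⟩) hI hEα hEβ
  -- the goal in `Pic0`
  have hns : ∀ (n : ℕ) (E : Divisor.degZero (K := Qbar) (F := Fbar (M₀ * q * q))),
      n • Pic0.mk E = Pic0.mk (n • E) := fun n E => rfl
  show c q • Pic0.mk ⟨D, hD⟩ = 0
  rw [hns]
  refine (QuotientAddGroup.eq_zero_iff _).mpr ?_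
  rw [AddSubgroup.mem_addSubgroupOf]
  refine ⟨s, hs0, fun v => ?_⟩
  apply mul_left_cancel₀ hmZ
  have h1 := congrArg v.ord hs
  rw [Algebra.smul_def, v.ord_mul ((map_ne_zero _).mpr hκ0) (pow_ne_zero m hs0),
    Fermat.Agent.X0.FF.ord_algebraMap, zero_add, ← zpow_natCast s m, v.ord_zpow,
    ← zpow_natCast f (c q), v.ord_zpow, ← hfD' v] at h1
  rw [← h1]
  simp only [AddSubgroup.coe_nsmul, Finsupp.smul_apply, nsmul_eq_mul]
  ring

/-- **HECKE-P** from `HeckeDeg19`. -/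
theorem heckePStmt : HeckePStmt := by
  intro M₀ q _ _ hq _
  have hdvd : q ∣ M₀ * q := dvd_mul_left q M₀
  exact ⟨Fermat.Agent.ES.P36.HeckeDeg19.heckeAlphaBarIntegral_of_dvd Qbar (M₀ * q) q hq hdvd,
    Fermat.Agent.ES.P36.HeckeDeg19.finiteAlong_alpha_of_dvd Qbar (M₀ * q) q hq hdvd,
    Fermat.Agent.ES.P36.HeckeDeg19.heckeBetaBarIntegral_of_dvd Qbar (M₀ * q) q hq hdvd,
    Fermat.Agent.ES.P36.HeckeDeg19.finiteAlong_beta_of_dvd Qbar (M₀ * q) q hq hdvd,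
    Fermat.Agent.ES.P36.HeckeDeg19.normFormulaAlong_alpha_of_dvd (M₀ * q) q hq hdvd,
    Fermat.Agent.ES.P36.HeckeDeg19.normFormulaAlong_beta_of_dvd (M₀ * q) q hq hdvd⟩

end Fermat.Agent.ES.P36.FixBridge12
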