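/-
Program P (S36), chapter (G) of NUM-P, brick G4-abs/2 (helper11): **the Frobenius/root fields of
`GenAbs20.GenModel` from the LEVEL-`q` Kronecker congruence** — pure algebra, no `q`-expansions at level `q²`.

Three fields `F₀` (level `M′`), `F′` (level `M′q`), `F″` (level `M′q²`); `p r : F₀ →+* F′` and
`P Q : F′ →+* F″` with `P ∘ r = Q ∘ p`; valuation subrings `Ov ⊂ F₀`, `W ⊂ F′`, `V ⊂ F″` with `V ∩ P F′ = W = V ∩ Q F′`,
`W ∩ p F₀ = Ov`; residue degree one of `V | W` along `P` and of `W | Ov` along `p`; a bijection `s₀` of `F₀`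
preserving `Ov` with the Kronecker congruence `r (s₀ z) ≡ (p z)^q mod 𝔪_W` (`z ∈ Ov`).  Then

* `frob_of_kron` : `∀ h ∈ V, ∃ x ∈ W, h^q ≡ Q x mod 𝔪_V`   (`κ(V)^q ⊂ Q κ(W)`),
* `root_of_kron` : `∀ g ∈ W, ∃ g' ∈ V, g'^q ≡ Q g mod 𝔪_V`   (`Q κ(W) ⊂ κ(V)^q`).

Use: `(P, Q, p, r) = (α₂, β₂, α, β)`, `V = V₁`, `W = W1` gives `frobβ1`, `rootβ1` (Kronecker at the `∞`-branch, `KronMC15.kbar_one`);
`(P, Q, p, r) = (β₂, α₂, β, α)`, `V = V₃`, `W = W2` gives `frobα3`, `rootα3` (`kbar_two`); the residue degree one of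
`V₃ | W2` along `β₂` is `GenTable11.ram_res_left` for the pair `(V₃, V₂)`.
-/
import Mathlib
import Fermat.Agent.ES.P36.GenAbs20

set_option autoImplicit false

namespace Fermat.Agent.ES.P36.FrobRoot11

open Fermat.Agent.ES.P36.OrdVal20 Fermat.Agent.ES.P36.GenAbs20

variable {F₀ F' F'' : Type*} [Field F₀] [Field F'] [Field F'']
  {p r : F₀ →+* F'} {P Q : F' →+* F''}
  {Ov : ValuationSubring F₀} {W : ValuationSubring F'} {V : ValuationSubring F''}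
  {q : ℕ}

/-- `κ(V)^q ⊂ Q κ(W)`. -/
theorem frob_of_kron (hPQ : ∀ z, P (r z) = Q (p z))
    (cP : V.comap P = W) (cp : W.comap p = Ov)
    (resP : ∀ h ∈ V, ∃ x ∈ W, V.valuation (h - P x) < 1)
    (resp : ∀ x ∈ W, ∃ z ∈ Ov, W.valuation (x - p z) < 1)
    (s₀ : F₀ → F₀) (hs₀ : ∀ z ∈ Ov, s₀ z ∈ Ov)
    (kron : ∀ z ∈ Ov, W.valuation (r (s₀ z) - p z ^ q) < 1) :
    ∀ h ∈ V, ∃ x ∈ W, V.valuation (h ^ q - Q x) < 1 := by
  intro h hV
  obtain ⟨x₁, hx₁W, hx₁⟩ := resP h hV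
  obtain ⟨z, hz, hzx⟩ := resp x₁ hx₁W
  have hpzW : p z ∈ W := by
    have : z ∈ W.comap p := by rw [cp]; exact hz
    exact this
  have hPpzV : P (p z) ∈ V := by
    have : p z ∈ V.comap P := by rw [cP]; exact hpzW
    exact this
  -- `h ≡ P (p z)`
  have h1 : V.valuation (P x₁ - P (p z)) < 1 := by
    rw [← map_sub]; exact val_map_lt_one cP hzx
  have h2 : V.valuation (h - P (p z)) < 1 := cong_trans V hx₁ h1
  -- `h^q ≡ P (p z)^q = P ((p z)^q)`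
  have h3 : V.valuation (h ^ q - P (p z) ^ q) < 1 :=
    cong_pow V ((V.valuation_le_one_iff _).mpr hV) ((V.valuation_le_one_iff _).mpr hPpzV) h2 q
  -- `P ((p z)^q) ≡ P (r (s₀ z)) = Q (p (s₀ z))`
  have h4 : V.valuation (P (r (s₀ z)) - P (p z ^ q)) < 1 := by
    rw [← map_sub]; exact val_map_lt_one cP (kron z hz)
  refine ⟨p (s₀ z), ?_, ?_⟩
  · have : s₀ z ∈ W.comap p := by rw [cp]; exact hs₀ z hz
    exact this
  · rw [← hPQ]
    rw [map_pow] at h4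
    exact cong_trans V h3 (cong_symm V h4)

/-- `Q κ(W) ⊂ κ(V)^q`. -/
theorem root_of_kron (hPQ : ∀ z, P (r z) = Q (p z))
    (cP : V.comap P = W) (cQ : V.comap Q = W) (cp : W.comap p = Ov)
    (resp : ∀ x ∈ W, ∃ z ∈ Ov, W.valuation (x - p z) < 1)
    (s₀ s₀' : F₀ → F₀) (hs₀' : ∀ z ∈ Ov, s₀' z ∈ Ov) (hinv : ∀ z, s₀ (s₀' z) = z)
    (kron : ∀ z ∈ Ov, W.valuation (r (s₀ z) - p z ^ q) < 1) :
    ∀ g ∈ W, ∃ g' ∈ V, V.valuation (g' ^ q - Q g) < 1 := by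
  intro g hg
  obtain ⟨z, hz, hzg⟩ := resp g hg
  set z' := s₀' z with hz'
  have hz'O : z' ∈ Ov := hs₀' z hz
  have hpz'W : p z' ∈ W := by
    have : z' ∈ W.comap p := by rw [cp]; exact hz'O
    exact this
  have hg'V : P (p z') ∈ V := by
    have : p z' ∈ V.comap P := by rw [cP]; exact hpz'W
    exact this
  refine ⟨P (p z'), hg'V, ?_⟩
  -- `Q g ≡ Q (p z) = P (r z) = P (r (s₀ z')) ≡ P ((p z')^q) = (P (p z'))^q`
  have h1 : V.valuation (Q g - Q (p z)) < 1 := by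
    rw [← map_sub]; exact val_map_lt_one cQ hzg
  have h2 : V.valuation (P (r (s₀ z')) - P (p z' ^ q)) < 1 := by
    rw [← map_sub]; exact val_map_lt_one cP (kron z' hz'O)
  rw [hz', hinv, hPQ, map_pow] at h2
  exact cong_symm V (cong_trans V h1 h2)

end Fermat.Agent.ES.P36.FrobRoot11
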