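/-
Program P (S36), chapter MODEL-P, brick M2 (helper25): **the first Gauss valuation `v₁` (q-expansion at
`∞`) at the level `M' q²`**, in the `ModelDefs9` vocabulary (`ModelDefs9` is generic in `M'`, so the level
`M' q²` is the pair `(M' * q, q)`):

  `α₂ := alpha K (M' * q) q`, `β₂ := beta K (M' * q) q : FK (M' * q) K →ₐ[K] FK (M' * q * q) K`,
  `O1″ := O1 (M' * q) q hπ hE″`, `O1′ := O1 M' q hπ hE′`.

* (a) degree: `relfinrank_level_dvd` (`[F_{Nℓ} : F_N] = ℓ` for a prime `ℓ ∣ N`), `relfinrank_level_sq`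
  (`[F_{M q²} : K(t)] = [F_M : K(t)] (q + 1) q`), `degLe_level_sq`, the package `g2_v1_sq`
  (twin of `GaussVOne25.g2_v1`);
* (b) `qExpand_mem_gaussRing_iff` : `V_q` is a Gauss isometry on `Frac O((𝐪))`;
* (c) positions of `v₁` over the level `M' q`: `alpha2_mem_O1_iff`, `beta2_mem_O1_iff` (+ `comap` forms,
  compositions down to the good level `M'`, residues);
* (d) `v1_export` (twin of `GaussVTwoInst25.v2_export`): `t″ := α₂ (α tM)` has transcendental residue and
  `n' = [F_{M'} : K(t)]` elements `α₂ (α b_i)` of `O1″` have `κ(t~)`-independent residues; FK-form of the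
  degree.
-/
import Mathlib
import Fermat.Agent.ES.N34.GaussVOne25
import Fermat.Agent.ES.N34.GaussVTwoFam25
import Fermat.Agent.ES.N34.IsoM25
import Fermat.Agent.ES.N34.ModelGlue22
import Fermat.Agent.ES.N34.BranchInt5
import Fermat.Agent.IG.PR.Counting20

set_option autoImplicit false
set_option linter.unusedSectionVars false

noncomputable section

open HahnSeries ModularCurve IntermediateField

namespace Fermat.Agent.ES.P36.GaussVOneSq25

open Fermat.Agent.RED.PUR.GaussGen8 Fermat.Agent.RED.PUR.KtGauss8 Fermat.Agent.RED.PUR.G1Package8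
open Fermat.Agent.RED.PUR Fermat.Agent.IG.PR Fermat.Agent.IG Fermat.Agent.ES.N34

/-! ### (a) degrees -/

section Degree

variable (κ : Type) [Field κ] [CharZero κ]

/-- **`[F_{Nℓ} : F_N] = ℓ`** for a prime `ℓ ∣ N`. -/
theorem relfinrank_level_dvd (N ℓ : ℕ) [NeZero N] [NeZero ℓ] (hℓ : ℓ.Prime) (hℓN : ℓ ∣ N) :
    relfinrank (modularFunctionFieldFullC κ N) (modularFunctionFieldFullC κ (N * ℓ)) = ℓ := by
  have h1 := DegBaseChange25.relfinrank_fullC_eq_psi_of_charZero κ N
  have h2 := DegBaseChange25.relfinrank_fullC_eq_psi_of_charZero κ (N * ℓ)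
  have hmul := relfinrank_mul_relfinrank (Fermat.Agent.ES.HECKE.DegreeL25.simple_le_fullC κ N)
    (full_degeneracyC_le κ (dvd_mul_right N ℓ))
  have hψ : dedekindPsi (N * ℓ) = dedekindPsi N * ℓ := by
    rw [mul_comm N ℓ, PR.Counting20.psi_prime_mul_of_dvd hℓ (NeZero.ne N) hℓN, mul_comm]
  rw [h1, h2, hψ] at hmul
  exact Nat.eq_of_mul_eq_mul_left (Fermat.Agent.X0.GNPsi.gnp_dedekindPsi_pos (NeZero.ne N)) hmul

end Degree

section DegreeT

variable {K : Type} [Field K] [CharZero K] (O : ValuationSubring K)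

/-- `F_M ≤ F_{M q q}`. -/
theorem fullC_le_sq (M q : ℕ) [NeZero M] [NeZero q] :
    modularFunctionFieldFullC K M ≤ modularFunctionFieldFullC K (M * q * q) :=
  (full_degeneracyC_le K (dvd_mul_right M q)).trans
    (full_degeneracyC_le K (dvd_mul_right (M * q) q))

/-- **(a)** `[F_{M q²} : K(t)] = [F_M : K(t)] (q + 1) q`. -/
theorem relfinrank_level_sq (M q : ℕ) [NeZero M] [NeZero q] (hq : q.Prime) (hqM : ¬ q ∣ M)
    (tG : ↥(gaussRing O)) (htE : (tG : LaurentSeries K) ∈ modularFunctionFieldFullC K M) :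
    relfinrank (Kt O tG) (modularFunctionFieldFullC K (M * q * q)) =
      relfinrank (Kt O tG) (modularFunctionFieldFullC K M) * (q + 1) * q := by
  have hle : Kt O tG ≤ modularFunctionFieldFullC K (M * q) :=
    (GaussVOne25.Kt_le_fullC O M tG htE).trans (full_degeneracyC_le K (dvd_mul_right M q))
  have h := relfinrank_mul_relfinrank hle (full_degeneracyC_le K (dvd_mul_right (M * q) q))
  rw [← h, GaussVOne25.relfinrank_level_mul O M q hq hqM tG htE,
    relfinrank_level_dvd K (M * q) q hq (dvd_mul_left q M)]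

/-- `(DEG)` at level `M q²`. -/
theorem degLe_level_sq (M q : ℕ) [NeZero M] [NeZero q] (hq : q.Prime) (hqM : ¬ q ∣ M)
    (tG : ↥(gaussRing O)) (htE : (tG : LaurentSeries K) ∈ modularFunctionFieldFullC K M)
    (hn : relfinrank (Kt O tG) (modularFunctionFieldFullC K M) ≠ 0) :
    DegLe O (modularFunctionFieldFullC K (M * q * q)) tG
      (relfinrank (Kt O tG) (modularFunctionFieldFullC K M) * (q + 1) * q) := by
  intro m c hc hli
  have hle : Kt O tG ≤ modularFunctionFieldFullC K (M * q * q) :=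
    (GaussVOne25.Kt_le_fullC O M tG htE).trans (fullC_le_sq M q)
  have hne : relfinrank (Kt O tG) (modularFunctionFieldFullC K (M * q * q)) ≠ 0 := by
    rw [relfinrank_level_sq O M q hq hqM tG htE]
    exact Nat.mul_ne_zero (Nat.mul_ne_zero hn (Nat.succ_ne_zero q)) hq.ne_zero
  have := FamilyForm20.le_relfinrank_of_family hle m hne c hc hli
  rwa [relfinrank_level_sq O M q hq hqM tG htE] at this

/-- **(G2-v1) at level `M q²`.**  For a parameter `t ∈ F_M ∩ gaussRing` with `j ∈ K(t)`, `n' = [F_M : K(t)]`: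
`[F_{Mq²} : K(t)] = n' (q + 1) q`, `n' ≠ 0`, `(DEG)` with `n' (q + 1) q`, and `n'` elements of
`F_M ∩ gaussRing ⊂ F_{Mq²}` with `κ(t~)`-independent residues. -/
theorem g2_v1_sq [IsDiscreteValuationRing ↥O] {π : ↥O} (hπ : Irreducible π) (q : ℕ) [Fact q.Prime]
    [CharP (Res O) q] (M : ℕ) [NeZero M] (hqM : ¬ q ∣ M) (tG : ↥(gaussRing O))
    (htE : (tG : LaurentSeries K) ∈ modularFunctionFieldFullC K M)
    (hjt : jqModC K ∈ Kt O tG) :
    relfinrank (Kt O tG) (modularFunctionFieldFullC K (M * q * q)) =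
        relfinrank (Kt O tG) (modularFunctionFieldFullC K M) * (q + 1) * q ∧
      relfinrank (Kt O tG) (modularFunctionFieldFullC K M) ≠ 0 ∧
      DegLe O (modularFunctionFieldFullC K (M * q * q)) tG
        (relfinrank (Kt O tG) (modularFunctionFieldFullC K M) * (q + 1) * q) ∧
      Irr O (modularFunctionFieldFullC K (M * q * q)) tG
        (relfinrank (Kt O tG) (modularFunctionFieldFullC K M)) ∧
      Irr O (modularFunctionFieldFullC K M) tG
        (relfinrank (Kt O tG) (modularFunctionFieldFullC K M)) := by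
  have hq : q.Prime := Fact.out
  have : NeZero q := ⟨hq.ne_zero⟩
  obtain ⟨hn0, -, hirr⟩ := GaussInstN25.degLe_irr_fullC O hπ q M hqM tG htE hjt
  exact ⟨relfinrank_level_sq O M q hq hqM tG htE, hn0,
    degLe_level_sq O M q hq hqM tG htE hn0,
    GaussVOne25.irr_mono O (fullC_le_sq M q) tG hirr, hirr⟩

end DegreeT

/-! ### (b) `V_q` is a Gauss isometry on `Frac O((𝐪))` -/

section QExp

variable {K : Type*} [Field K] {O : ValuationSubring K} (q : ℕ) [NeZero q]

/-- **`V_q f ∈ gaussRing ↔ f ∈ gaussRing`** for `f ∈ Frac O((𝐪))`. -/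
theorem qExpand_mem_gaussRing_iff {π : ↥O} (hπ : IsUnif O π) {f : LaurentSeries K}
    (hf : f ∈ fracField O) : qExpand K q f ∈ gaussRing O ↔ f ∈ gaussRing O := by
  refine ⟨fun h => ?_, fun h => GaussVTwoFam25.qExpand_mem_gaussRing q h⟩
  by_cases h0 : f = 0
  · rw [h0]; exact zero_mem _
  obtain ⟨i, j, u, hu, hfu⟩ := exists_unit_rep hπ hf h0
  have hl := piK_ne_zero hπ
  rcases Nat.lt_or_ge i j with hij | hji
  · -- impossible: `V_q f · π^k = V_q u` with `k ≥ 1` and `V_q u` a Gauss unit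
    exfalso
    obtain ⟨k, rfl⟩ := Nat.exists_eq_add_of_lt hij
    have hi : piK π ^ i ≠ 0 := pow_ne_zero _ hl
    have hfk : f * piK π ^ (k + 1) = (u : LaurentSeries K) := by
      apply mul_left_cancel₀ hi
      rw [← hfu, show i + k + 1 = i + (k + 1) by ring, _root_.pow_add]; ring
    have hV : qExpand K q f * piK π ^ (k + 1) = qExpand K q (u : LaurentSeries K) := by
      rw [← hfk, map_mul, map_pow, qExpand_C]
    have hVu : qExpand K q (u : LaurentSeries K) ∈ gaussRing O :=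
      GaussVTwoFam25.qExpand_mem_gaussRing q u.2
    have hred : gaussRed O ⟨qExpand K q (u : LaurentSeries K), hVu⟩ = 0 := by
      have e : (⟨qExpand K q (u : LaurentSeries K), hVu⟩ : ↥(gaussRing O)) =
          ⟨qExpand K q f, h⟩ * constG O π ^ (k + 1) := Subtype.ext hV.symm
      rw [e, map_mul, map_pow, gaussRed_unif hπ, zero_pow (Nat.succ_ne_zero k), mul_zero]
    rw [GaussVTwoFam25.gaussRed_qExpand] at hred
    exact hu (qExpand_injective q (by rw [hred, map_zero]))
  · obtain ⟨k, rfl⟩ := Nat.exists_eq_add_of_le hji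
    have : f = piK π ^ k * (u : LaurentSeries K) := by
      have hj : piK π ^ j ≠ 0 := pow_ne_zero _ hl
      apply mul_right_cancel₀ hj
      rw [hfu, _root_.pow_add]; ring
    rw [this]
    exact mul_mem (pow_mem (piK_mem π) k) u.2

end QExp

/-! ### (c) positions of `v₁` over the level `M' q` and over the good level `M'` -/

section Model

open Fermat.Agent.RED.Interface4 Fermat.Agent.ES.N34.ModelDefs9 Fermat.Agent.RED.PUR.GaussBridge10
  Fermat.Agent.ES.N34.GaussEmb22 Fermat.Agent.ES.N34.ModelGlue22 Fermat.Agent.ES.N34.IsoM25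
  Fermat.Agent.RED.BASE Fermat.Agent.RED.BASE.EtaQuot12

variable {A : ValuationSubring Qbar} {K : IntermediateField ℚ Qbar} (M' q : ℕ) [NeZero M'] [NeZero q]
  {π : ↥(AK A K)}

section Positions

variable (hu : IsUnif (AK A K) π) (hE' : FK (M' * q) K ≤ fracField (AK A K))
  (hE'' : FK (M' * q * q) K ≤ fracField (AK A K))

/-- `v₁ | O1′` along `α₂` (the `(e, f) = (1, 1)` position): `α₂ x ∈ O1″ ↔ x ∈ O1′`. -/
theorem alpha2_mem_O1_iff (x : FK (M' * q) K) :
    alpha K (M' * q) q x ∈ O1 (M' * q) q hu hE'' ↔ x ∈ O1 M' q hu hE' := by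
  rw [BranchInt5.alpha_mem_O1_iff, mem_O1_iff]

/-- `v₁ | O1′` along `β₂` (the purely inseparable position): `β₂ x ∈ O1″ ↔ x ∈ O1′`. -/
theorem beta2_mem_O1_iff (x : FK (M' * q) K) :
    beta K (M' * q) q x ∈ O1 (M' * q) q hu hE'' ↔ x ∈ O1 M' q hu hE' := by
  rw [BranchInt5.beta_mem_O1_iff_qExpand, mem_O1_iff]
  exact qExpand_mem_gaussRing_iff q hu (hE' x.2)

/-- `O1″ ∩ α₂(F′) = α₂(O1′)`, `comap` form. -/
theorem comap_alpha2_O1 :
    (O1 (M' * q) q hu hE'').comap
        ((alpha K (M' * q) q : FK (M' * q) K →ₐ[K] FK (M' * q * q) K) : _ →+* _) =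
      O1 M' q hu hE' := by
  refine SetLike.ext fun x => ?_
  rw [ValuationSubring.mem_comap, RingHom.coe_coe]
  exact alpha2_mem_O1_iff M' q hu hE' hE'' x

/-- `O1″ ∩ β₂(F′) = β₂(O1′)`, `comap` form. -/
theorem comap_beta2_O1 :
    (O1 (M' * q) q hu hE'').comap
        ((beta K (M' * q) q : FK (M' * q) K →ₐ[K] FK (M' * q * q) K) : _ →+* _) =
      O1 M' q hu hE' := by
  refine SetLike.ext fun x => ?_
  rw [ValuationSubring.mem_comap, RingHom.coe_coe]
  exact beta2_mem_O1_iff M' q hu hE' hE'' x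

/-- down to the good level: `α₂ (α z) ∈ O1″ ↔ ↑z ∈ gaussRing`. -/
theorem alpha2_alpha_mem_O1_iff (z : FK M' K) :
    alpha K (M' * q) q (alpha K M' q z) ∈ O1 (M' * q) q hu hE'' ↔
      (z : LaurentSeries ↥K) ∈ gaussRing (AK A K) := by
  rw [BranchInt5.alpha_mem_O1_iff, coe_alpha]

/-- `β₂ (α z) ∈ O1″ ↔ ↑z ∈ gaussRing`. -/
theorem beta2_alpha_mem_O1_iff (z : FK M' K) :
    beta K (M' * q) q (alpha K M' q z) ∈ O1 (M' * q) q hu hE'' ↔
      (z : LaurentSeries ↥K) ∈ gaussRing (AK A K) := by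
  rw [beta2_mem_O1_iff M' q hu (FK_le_fracField A K (M' * q)) hE'', BranchInt5.alpha_mem_O1_iff]

/-- `α₂ (β z) ∈ O1″ ↔ ↑z ∈ gaussRing`. -/
theorem alpha2_beta_mem_O1_iff (z : FK M' K) :
    alpha K (M' * q) q (beta K M' q z) ∈ O1 (M' * q) q hu hE'' ↔
      (z : LaurentSeries ↥K) ∈ gaussRing (AK A K) := by
  rw [alpha2_mem_O1_iff M' q hu (FK_le_fracField A K (M' * q)) hE'',
    BranchInt5.beta_mem_O1_iff_qExpand]
  exact qExpand_mem_gaussRing_iff q hu (FK_le_fracField A K M' z.2)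

/-- `β₂ (β z) ∈ O1″ ↔ ↑z ∈ gaussRing`. -/
theorem beta2_beta_mem_O1_iff (z : FK M' K) :
    beta K (M' * q) q (beta K M' q z) ∈ O1 (M' * q) q hu hE'' ↔
      (z : LaurentSeries ↥K) ∈ gaussRing (AK A K) := by
  rw [beta2_mem_O1_iff M' q hu (FK_le_fracField A K (M' * q)) hE'',
    BranchInt5.beta_mem_O1_iff_qExpand]
  exact qExpand_mem_gaussRing_iff q hu (FK_le_fracField A K M' z.2)

/-- residues along `α₂`: unchanged. -/
theorem gaussRed_alpha2 (x : FK (M' * q) K)
    (hx : ((alpha K (M' * q) q x : FK (M' * q * q) K) : LaurentSeries ↥K) ∈ gaussRing (AK A K))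
    (hx' : (x : LaurentSeries ↥K) ∈ gaussRing (AK A K)) :
    gaussRed (AK A K) ⟨((alpha K (M' * q) q x : FK (M' * q * q) K) : LaurentSeries ↥K), hx⟩ =
      gaussRed (AK A K) ⟨(x : LaurentSeries ↥K), hx'⟩ :=
  congrArg (gaussRed (AK A K)) (Subtype.ext (coe_alpha K (M' * q) q x))

/-- residues along `β₂`: `V_q` of the residue (so the residue field of `β₂(F′)` at `v₁` is `κ(O1′)^q`
in characteristic `q`). -/
theorem gaussRed_beta2 (x : FK (M' * q) K)
    (hx : ((beta K (M' * q) q x : FK (M' * q * q) K) : LaurentSeries ↥K) ∈ gaussRing (AK A K))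
    (hx' : (x : LaurentSeries ↥K) ∈ gaussRing (AK A K)) :
    gaussRed (AK A K) ⟨((beta K (M' * q) q x : FK (M' * q * q) K) : LaurentSeries ↥K), hx⟩ =
      qExpand (Res (AK A K)) q (gaussRed (AK A K) ⟨(x : LaurentSeries ↥K), hx'⟩) := by
  have e : (⟨((beta K (M' * q) q x : FK (M' * q * q) K) : LaurentSeries ↥K), hx⟩ :
      ↥(gaussRing (AK A K))) =
      ⟨qExpand (↥K) q ((⟨(x : LaurentSeries ↥K), hx'⟩ : ↥(gaussRing (AK A K))) : LaurentSeries ↥K),
        GaussVTwoFam25.qExpand_mem_gaussRing q hx'⟩ := Subtype.ext (coe_beta K (M' * q) q x)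
  rw [e, GaussVTwoFam25.gaussRed_qExpand]

end Positions

/-! ### (d) the export: parameter, family, degree at level `M' q²` -/

section Export

variable [hq : Fact q.Prime] [IsDiscreteValuationRing ↥(AK A K)] [CharP (Res (AK A K)) q]
  {n e : ℕ} [NeZero n]

set_option synthInstance.maxHeartbeats 400000
set_option maxHeartbeats 1000000

/-- the parameter `t″ := α₂ (α tM)` at level `M' q²` has the `q`-expansion `tq K n e`. -/
theorem coe_tPP (ht : tq (↥K) n e ∈ FK M' K) :
    ((alpha K (M' * q) q (tN q ht) : FK (M' * q * q) K) : LaurentSeries K) = tq (↥K) n e := by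
  rw [coe_alpha, coe_tN]

theorem tPP_mem_gaussRing (ht : tq (↥K) n e ∈ FK M' K) :
    ((alpha K (M' * q) q (tN q ht) : FK (M' * q * q) K) : LaurentSeries K) ∈ gaussRing (AK A K) := by
  rw [coe_tPP]
  exact TBridge15.tq_mem_gaussRing (AK A K) n e

theorem tPP_eq_tG (ht : tq (↥K) n e ∈ FK M' K)
    (ht₁ : ((alpha K (M' * q) q (tN q ht) : FK (M' * q * q) K) : LaurentSeries K) ∈
      gaussRing (AK A K)) :
    (⟨((alpha K (M' * q) q (tN q ht) : FK (M' * q * q) K) : LaurentSeries K), ht₁⟩ :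
      ↥(gaussRing (AK A K))) = TBridge15.tG (AK A K) n e :=
  Subtype.ext (coe_tPP M' q ht)

theorem transcendental_tPP (ht : tq (↥K) n e ∈ FK M' K)
    (ht₁ : ((alpha K (M' * q) q (tN q ht) : FK (M' * q * q) K) : LaurentSeries K) ∈
      gaussRing (AK A K)) :
    Transcendental (Res (AK A K)) (gaussRed (AK A K)
      ⟨((alpha K (M' * q) q (tN q ht) : FK (M' * q * q) K) : LaurentSeries K), ht₁⟩) := by
  rw [tPP_eq_tG M' q ht ht₁]
  exact TBridge15.transcendental_gaussRed_tG (AK A K) n e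

/-- **degree at level `M' q²`, FK-form**: `[FK (M' q²) K : K(t)] = n' (q + 1) q`, `n' ≠ 0`, and `(DEG)`. -/
theorem degree_FK_sq (hπ : Irreducible π) (hqM : ¬ q ∣ M') (ht : tq (↥K) n e ∈ FK M' K)
    (hjt : jqModC (↥K) ∈ Kt (AK A K) (TBridge15.tG (AK A K) n e)) :
    relfinrank (Kt (AK A K) (TBridge15.tG (AK A K) n e)) (FK (M' * q * q) K) =
        relfinrank (Kt (AK A K) (TBridge15.tG (AK A K) n e)) (FK M' K) * (q + 1) * q ∧
      relfinrank (Kt (AK A K) (TBridge15.tG (AK A K) n e)) (FK M' K) ≠ 0 ∧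
      DegLe (AK A K) (FK (M' * q * q) K) (TBridge15.tG (AK A K) n e)
        (relfinrank (Kt (AK A K) (TBridge15.tG (AK A K) n e)) (FK M' K) * (q + 1) * q) := by
  have hFKM : FK M' K = modularFunctionFieldFullC (↥K) M' :=
    DegBaseChange25.laurentBaseChange_full_eq (L := ↥K) M'
  have hFKN : FK (M' * q * q) K = modularFunctionFieldFullC (↥K) (M' * q * q) :=
    DegBaseChange25.laurentBaseChange_full_eq (L := ↥K) (M' * q * q)
  have htE : ((TBridge15.tG (AK A K) n e : ↥(gaussRing (AK A K))) : LaurentSeries K) ∈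
      modularFunctionFieldFullC (↥K) M' := by
    rw [← hFKM]; exact ht
  obtain ⟨hdeg, hn0, hdl, -, -⟩ :=
    g2_v1_sq (AK A K) hπ q M' hqM (TBridge15.tG (AK A K) n e) htE hjt
  rw [← hFKN, ← hFKM] at hdeg
  rw [← hFKM] at hn0
  rw [← hFKN, ← hFKM] at hdl
  exact ⟨hdeg, hn0, hdl⟩

/-- **(V1) export at level `M' q²`** (twin of `GaussVTwoInst25.v2_export`): the level-`M'` `Irr`-family
`b` (`n' = [FK M' K : K(t)]` elements of the Gauss ring), pushed by `α₂ ∘ α`, is a family of `O1″` whose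
residues are independent over `κ(t″~)`. -/
theorem v1_export (hπ : Irreducible π) (hE'' : FK (M' * q * q) K ≤ fracField (AK A K))
    (hqM : ¬ q ∣ M') (ht : tq (↥K) n e ∈ FK M' K)
    (hjt : jqModC (↥K) ∈ Kt (AK A K) (TBridge15.tG (AK A K) n e)) :
    ∃ (b : Fin (IntermediateField.relfinrank
          (Kt (AK A K) (TBridge15.tG (AK A K) n e)) (FK M' K)) → FK M' K)
      (_ : ∀ i, ((b i : FK M' K) : LaurentSeries K) ∈ gaussRing (AK A K))
      (ht₁ : (FK (M' * q * q) K).val (alpha K (M' * q) q (tN q ht)) ∈ gaussRing (AK A K))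
      (_ : Transcendental (Res (AK A K))
        (gaussRed (AK A K) ⟨(FK (M' * q * q) K).val (alpha K (M' * q) q (tN q ht)), ht₁⟩))
      (hb₁ : ∀ i, alpha K (M' * q) q (alpha K M' q (b i)) ∈
        O1 (M' * q) q (isUnif_of_irreducible (AK A K) hπ) hE''),
      LinearIndependent
        ↥(kt (AK A K) ⟨(FK (M' * q * q) K).val (alpha K (M' * q) q (tN q ht)), ht₁⟩)
        (fun i => redOf (isGaussPullback_O1 (M' * q) q (isUnif_of_irreducible (AK A K) hπ) hE'')
          ⟨alpha K (M' * q) q (alpha K M' q (b i)), hb₁ i⟩) := by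
  classical
  have hπu := isUnif_of_irreducible (AK A K) hπ
  have hEM := FK_le_fracField A K M'
  have hV₁ : IsGaussPullback (AK A K) (FK M' K).val (OvE (AK A K) hπ (FK M' K) hEM) :=
    G2Out22.isGaussPullback_OvE hπ hEM
  have htM : (FK M' K).val (tM ht) ∈ gaussRing (AK A K) := TBridge15.tq_mem_gaussRing (AK A K) n e
  obtain ⟨-, -, hirrt⟩ := GaussInstN25.degLe_irr_tq (AK A K) hπ q M' hqM n e ht hjt
  obtain ⟨b, hb, hli⟩ := exists_family_of_irr hπ hEM (tM ht) htM hirrt
  have hbG : ∀ i, ((b i : FK M' K) : LaurentSeries K) ∈ gaussRing (AK A K) := fun i =>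
    (mem_OvE_iff (AK A K) hπ (FK M' K) hEM (b i)).mp (hb i)
  have ht₁ : (FK (M' * q * q) K).val (alpha K (M' * q) q (tN q ht)) ∈ gaussRing (AK A K) :=
    tPP_mem_gaussRing M' q ht
  have hb₁ : ∀ i, alpha K (M' * q) q (alpha K M' q (b i)) ∈ O1 (M' * q) q hπu hE'' := fun i =>
    (alpha2_alpha_mem_O1_iff M' q hπu hE'' (b i)).mpr (hbG i)
  refine ⟨b, hbG, ht₁, transcendental_tPP M' q ht ht₁, hb₁, ?_⟩
  -- the residues are those of the level-`M'` family
  have h1 : (fun i => redOf (isGaussPullback_O1 (M' * q) q hπu hE'')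
      ⟨alpha K (M' * q) q (alpha K M' q (b i)), hb₁ i⟩) =
      fun i => redOf hV₁ ⟨b i, hb i⟩ := by
    funext i
    have hx' : (FK (M' * q * q) K).val (alpha K (M' * q) q (alpha K M' q (b i))) ∈
        gaussRing (AK A K) := (isGaussPullback_O1 (M' * q) q hπu hE'' _).mp (hb₁ i)
    have hx2 : (FK M' K).val (b i) ∈ gaussRing (AK A K) := hbG i
    rw [GaussVTwoFam25.redOf_mk (isGaussPullback_O1 (M' * q) q hπu hE'') (hb₁ i) hx',
      GaussVTwoFam25.redOf_mk hV₁ (hb i) hx2]
    have e : (⟨(FK (M' * q * q) K).val (alpha K (M' * q) q (alpha K M' q (b i))), hx'⟩ :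
        ↥(gaussRing (AK A K))) = ⟨(FK M' K).val (b i), hx2⟩ :=
      Subtype.mk_eq_mk.mpr ((coe_alpha K (M' * q) q _).trans (coe_alpha K M' q (b i)))
    rw [e]
  rw [h1]
  have heq : (⟨(FK (M' * q * q) K).val (alpha K (M' * q) q (tN q ht)), ht₁⟩ :
      ↥(gaussRing (AK A K))) = ⟨(FK M' K).val (tM ht), htM⟩ :=
    Subtype.ext (coe_tPP M' q ht)
  have key : ∀ tg : ↥(gaussRing (AK A K)), tg = ⟨(FK M' K).val (tM ht), htM⟩ →
      LinearIndependent ↥(kt (AK A K) tg) (fun i => redOf hV₁ ⟨b i, hb i⟩) := by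
    rintro _ rfl
    exact hli
  exact key _ heq

end Export

end Model

end Fermat.Agent.ES.P36.GaussVOneSq25
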