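/-
Program P (S36), brick G3b (helper20): **the generic-point chapter (G5–G6) over the SAME base field**
(route of record, helper12's simplification).

`GenAbs20.exists_u` needs `hroots` (the three residue constants are `m`-th powers of constants), which
forces an `f`-dependent unramified enlargement of the base.  Here this is replaced by

* the `β`-ramified branch `V₃, V₂ | W2` (`GenModelB`, mirror of the `α` fields of `GenModel`), and
* `halg` : a unit constant which is an `m`-th power in the residue field of `W1` is an `m`-th power in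
  the residue field of `R` (`k` algebraically closed in `κ(W1)`; `ConstRes21`),

at the price of one more factor `q + 1` in the exponent.  The two ramified branches give two
congruences for `f₁^(q−1)` at `V₂`; comparing them, `(r₁′/r₂′)^(q+1)` is an `m`-th power in `k`, hence
the three residue constants of `f₁^((q−1)(q+1))` agree up to `m`-th powers of constants.

* `exists_residue_rel` : the four residue relations (G5).
* `exists_pi_form`     : (G6) three local `m`-th roots ⇒ `(Φ / H′^m)^q = 1 + π c`.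
* `exists_u_alg`       : `u = f^(q(q−1)(q+1)²) · κ · h^m = 1 + π c`, `c ∈ V₁ ⊓ V₂ ⊓ V₃`.
* `halg_of_const`      : `halg` from the `ConstRes21` form (`G^m ≡ r ⇒ G ≡ constant`).
-/
import Mathlib
import Fermat.Agent.ES.P36.GenAbs20

set_option autoImplicit false

namespace Fermat.Agent.ES.P36.GenAlg20

open Fermat.Agent.ES.P36.OrdVal20 Fermat.Agent.ES.P36.Approx3v9 Fermat.Agent.ES.P36.GenAbs20

/-! ### Congruences of units -/

section Cong

variable {F : Type*} [Field F] (V : ValuationSubring F)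

theorem cong_refl (a : F) : V.valuation (a - a) < 1 := by
  rw [sub_self, map_zero]; exact zero_lt_one

theorem ne_zero_of_val_eq_one {a : F} (ha : V.valuation a = 1) : a ≠ 0 := by
  rintro rfl; rw [map_zero] at ha; exact zero_ne_one ha

theorem cong_inv {a b : F} (ha : V.valuation a = 1) (hb : V.valuation b = 1)
    (hab : V.valuation (a - b) < 1) : V.valuation (a⁻¹ - b⁻¹) < 1 := by
  have ha0 := ne_zero_of_val_eq_one V ha
  have hb0 := ne_zero_of_val_eq_one V hb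
  have e : a⁻¹ - b⁻¹ = (b - a) / (a * b) := by field_simp
  rw [e, map_div₀, map_mul, ha, hb, mul_one, div_one]
  exact cong_symm V hab

theorem cong_div {a a' b b' : F} (ha' : V.valuation a' ≤ 1) (hb : V.valuation b = 1)
    (hb' : V.valuation b' = 1) (hab : V.valuation (a - a') < 1) (hbb : V.valuation (b - b') < 1) :
    V.valuation (a / b - a' / b') < 1 := by
  rw [div_eq_mul_inv, div_eq_mul_inv]
  exact cong_mul V ha' (by rw [map_inv₀, hb, inv_one]) hab (cong_inv V hb hb' hbb)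

/-- dividing a congruence by a unit. -/
theorem cong_div_unit {a b u : F} (hu : V.valuation u = 1) (hab : V.valuation (a - b * u) < 1) :
    V.valuation (a / u - b) < 1 := by
  have hu0 := ne_zero_of_val_eq_one V hu
  have e : a / u - b = (a - b * u) / u := by field_simp
  rw [e, map_div₀, hu, div_one]
  exact hab

end Cong

/-! ### The `β`-ramified branch -/

section Main

variable {K F' F'' : Type*} [Field K] [Field F'] [Field F''] [Algebra K F'] [Algebra K F'']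

/-- **the `β`-ramified branch** `V₃, V₂ | W2` along `β`, `(e, f) = (1,1), (q−1,1)`: the mirror of the
fields `cα1 cα2 ramα resα1 resα2` of `GenModel`. -/
structure GenModelB (β : F' →+* F'') (Nβ : F'' →*₀ F') (W2 : ValuationSubring F')
    (V₂ V₃ : ValuationSubring F'') (q : ℕ) : Prop where
  cβ2 : V₂.comap β = W2
  cβ3 : V₃.comap β = W2
  ramβ : ∀ h x₃ x₂, h ∈ V₃ → h ∈ V₂ → x₃ ∈ W2 → x₂ ∈ W2 → V₃.valuation (h - β x₃) < 1 →
    V₂.valuation (h - β x₂) < 1 → W2.valuation (Nβ h - x₃ * x₂ ^ (q - 1)) < 1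
  resβ3 : ∀ h ∈ V₃, ∃ x ∈ W2, V₃.valuation (h - β x) < 1
  resβ2 : ∀ h ∈ V₂, ∃ x ∈ W2, V₂.valuation (h - β x) < 1

variable {R : ValuationSubring K} {π : K} {q : ℕ} {α β : F' →+* F''} {Nα Nβ : F'' →*₀ F'}
  {W1 W2 : ValuationSubring F'} {V₁ V₂ V₃ : ValuationSubring F''} {T : F''}

/-- **(G4)+(G5), all four branches**: `f^(q+1) = π^a H^m f₁` with `f₁` a unit at `V₁ V₂ V₃`, and
`f₁ ≡ r₂′ γ₁^m (V₁)`, `f₁ ≡ r₁′ γ₃^m (V₃)`, `f₁^(q−1) ≡ (r₁/r₂′)(αγ)^m ≡ (r₂/r₁′)(βγ′)^m (V₂)` with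
unit constants `r₁′^q ≡ r₁`, `r₂′^q ≡ r₂`. -/
theorem exists_residue_rel (M : GenModel R π q α β Nα Nβ W1 W2 V₁ V₂ V₃ T)
    (B : GenModelB β Nβ W2 V₂ V₃ q) {m : ℕ} (hm : m ≠ 0)
    (perf : ∀ r, R.valuation r = 1 → ∃ r', R.valuation r' = 1 ∧ R.valuation (r' ^ q - r) < 1)
    {f : F''} (hf : f ≠ 0) {c₁ c₂ : K} (hc₁ : c₁ ≠ 0) (hc₂ : c₂ ≠ 0)
    {g₁ g₂ : F'} (hg₁ : g₁ ≠ 0) (hg₂ : g₂ ≠ 0)
    (hα : Nα f = algebraMap K F' c₁ * g₁ ^ m) (hβ : Nβ f = algebraMap K F' c₂ * g₂ ^ m) :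
    ∃ (a : ℤ) (H : F''), H ≠ 0 ∧
      ∃ (r₁ r₂ r₁' r₂' : K) (γ₁ γ₃ : F'') (γ γ' : F'),
        R.valuation r₁ = 1 ∧ R.valuation r₂ = 1 ∧ R.valuation r₁' = 1 ∧ R.valuation r₂' = 1 ∧
        R.valuation (r₁' ^ q - r₁) < 1 ∧ R.valuation (r₂' ^ q - r₂) < 1 ∧
        V₁.valuation γ₁ = 1 ∧ V₃.valuation γ₃ = 1 ∧ W1.valuation γ = 1 ∧ W2.valuation γ' = 1 ∧
        V₁.valuation (f ^ (q + 1) / (algebraMap K F'' π ^ a * H ^ m)) = 1 ∧
        V₂.valuation (f ^ (q + 1) / (algebraMap K F'' π ^ a * H ^ m)) = 1 ∧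
        V₃.valuation (f ^ (q + 1) / (algebraMap K F'' π ^ a * H ^ m)) = 1 ∧
        V₁.valuation (f ^ (q + 1) / (algebraMap K F'' π ^ a * H ^ m) -
          algebraMap K F'' r₂' * γ₁ ^ m) < 1 ∧
        V₂.valuation ((f ^ (q + 1) / (algebraMap K F'' π ^ a * H ^ m)) ^ (q - 1) -
          algebraMap K F'' (r₁ / r₂') * α γ ^ m) < 1 ∧
        V₂.valuation ((f ^ (q + 1) / (algebraMap K F'' π ^ a * H ^ m)) ^ (q - 1) -
          algebraMap K F'' (r₂ / r₁') * β γ' ^ m) < 1 ∧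
        V₃.valuation (f ^ (q + 1) / (algebraMap K F'' π ^ a * H ^ m) -
          algebraMap K F'' r₁' * γ₃ ^ m) < 1 := by
  have hπ'0 := M.hπ'0
  have hπ''0 := M.hπ''0
  have hπ'1 : W1.valuation (algebraMap K F' π) < 1 := val_map_lt_one M.cK1 M.hπR
  have hπ'2 : W2.valuation (algebraMap K F' π) < 1 := val_map_lt_one M.cK2 M.hπR
  have hπ''1 : V₁.valuation (algebraMap K F'' π) < 1 := val_map_lt_one M.cK''1 M.hπR
  -- uniformisers adapted to the three rings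
  obtain ⟨T₁, -, hT₁1, hT₁2, hT₁3⟩ := M.inc.exists_unif hπ''1 M.unifV1
  obtain ⟨T₂, -, hT₂2, hT₂3, hT₂1⟩ := M.inc.rotate.exists_unif M.hT1 M.unifV2
  -- constants have the same order at `W1` and `W2`
  have hconst : ∀ c : K, c ≠ 0 → ∃ n : ℤ, HasOrd W1 (algebraMap K F' π) (algebraMap K F' c) n ∧
      HasOrd W2 (algebraMap K F' π) (algebraMap K F' c) n := fun c hc => by
    obtain ⟨n, hn⟩ := M.discR c hc
    exact ⟨n, hasOrd_map M.cK1 M.hπ0 hn, hasOrd_map M.cK2 M.hπ0 hn⟩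
  obtain ⟨a, H, hH0, hu1, hu2, hu3⟩ := exists_unit_form (Nα := Nα) (Nβ := Nβ) hπ'0 hπ'1 hπ'2
    hπ''0 M.hT0 M.hTπ M.ordα1 M.ordα2 M.ordβ1 M.ordβ2 M.discW1 M.discW2 M.discV1 M.discV2 M.discV3
    (show HasOrd V₁ (algebraMap K F'' π) T₁ 1 by unfold HasOrd; rw [hT₁1, zpow_one]) hT₁2 hT₁3
    hT₂1 (show HasOrd V₂ T T₂ 1 by unfold HasOrd; rw [hT₂2, zpow_one]) hT₂3
    hf hg₁ hg₂ (hconst c₁ hc₁) (hconst c₂ hc₂) hα hβ
  refine ⟨a, H, hH0, ?_⟩
  set f₁ := f ^ (q + 1) / (algebraMap K F'' π ^ a * H ^ m) with hf₁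
  -- the norms of `f₁`
  have hNH : ∀ N : F'' →*₀ F', N H ≠ 0 := fun N => (map_ne_zero N).mpr hH0
  have hkey : ∀ C g NH P : F', NH ≠ 0 → P ≠ 0 →
      (C * g ^ m) ^ (q + 1) / (P * NH ^ m) = (C ^ (q + 1) / P) * (g ^ (q + 1) / NH) ^ m := by
    intro C g NH P h1 h2
    rw [div_pow]
    field_simp
    ring
  have hNα : Nα f₁ = algebraMap K F' (c₁ ^ (q + 1) / (π ^ q) ^ a) *
      (g₁ ^ (q + 1) / Nα H) ^ m := by
    rw [hf₁, map_div₀, map_pow, map_mul, map_zpow₀, map_pow, hα, M.Nαπ, map_div₀, map_pow,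
      map_zpow₀, map_pow]
    exact hkey _ _ _ _ (hNH Nα) (zpow_ne_zero _ (pow_ne_zero _ hπ'0))
  have hNβ : Nβ f₁ = algebraMap K F' (c₂ ^ (q + 1) / (π ^ q) ^ a) *
      (g₂ ^ (q + 1) / Nβ H) ^ m := by
    rw [hf₁, map_div₀, map_pow, map_mul, map_zpow₀, map_pow, hβ, M.Nβπ, map_div₀, map_pow,
      map_zpow₀, map_pow]
    exact hkey _ _ _ _ (hNH Nβ) (zpow_ne_zero _ (pow_ne_zero _ hπ'0))
  have hcα0 : c₁ ^ (q + 1) / (π ^ q) ^ a ≠ 0 :=
    div_ne_zero (pow_ne_zero _ hc₁) (zpow_ne_zero _ (pow_ne_zero _ M.hπ0))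
  have hcβ0 : c₂ ^ (q + 1) / (π ^ q) ^ a ≠ 0 :=
    div_ne_zero (pow_ne_zero _ hc₂) (zpow_ne_zero _ (pow_ne_zero _ M.hπ0))
  have hGα0 : g₁ ^ (q + 1) / Nα H ≠ 0 := div_ne_zero (pow_ne_zero _ hg₁) (hNH Nα)
  have hGβ0 : g₂ ^ (q + 1) / Nβ H ≠ 0 := div_ne_zero (pow_ne_zero _ hg₂) (hNH Nβ)
  -- the norms are units
  have hNα1 : W1.valuation (Nα f₁) = 1 := by
    have := M.ordα1 f₁ 0 0 (HasOrd.of_val_eq_one hu1) (HasOrd.of_val_eq_one hu2)
    rw [add_zero] at this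
    exact this.val_eq_one
  have hNα2 : W2.valuation (Nα f₁) = 1 := by
    have := M.ordα2 f₁ 0 (HasOrd.of_val_eq_one hu3)
    rw [mul_zero] at this
    exact this.val_eq_one
  have hNβ1 : W1.valuation (Nβ f₁) = 1 := by
    have := M.ordβ1 f₁ 0 (HasOrd.of_val_eq_one hu1)
    rw [mul_zero] at this
    exact this.val_eq_one
  have hNβ2 : W2.valuation (Nβ f₁) = 1 := by
    have := M.ordβ2 f₁ 0 0 (HasOrd.of_val_eq_one hu2) (HasOrd.of_val_eq_one hu3)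
    rw [add_zero] at this
    exact this.val_eq_one
  -- normalise
  obtain ⟨b₁, G₁, hr₁, hG₁1, hG₁2, hNα'⟩ := normalise_two M.cK1 M.cK2 M.hπ0 M.hπR M.discR
    M.discW1 M.discW2 hm hcα0 hGα0 hNα hNα1 hNα2
  obtain ⟨b₂, G₂, hr₂, hG₂1, hG₂2, hNβ'⟩ := normalise_two M.cK1 M.cK2 M.hπ0 M.hπR M.discR
    M.discW1 M.discW2 hm hcβ0 hGβ0 hNβ hNβ1 hNβ2
  set r₁ := c₁ ^ (q + 1) / (π ^ q) ^ a * π ^ ((m : ℤ) * b₁) with hr₁def
  set r₂ := c₂ ^ (q + 1) / (π ^ q) ^ a * π ^ ((m : ℤ) * b₂) with hr₂def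
  obtain ⟨r₁', hr₁'1, hr₁'⟩ := perf r₁ hr₁
  obtain ⟨r₂', hr₂'1, hr₂'⟩ := perf r₂ hr₂
  -- `q ∈ 𝔪` at `V₁`, `V₃`
  have hqV : ∀ V : ValuationSubring F'', V.comap (algebraMap K F'') = R →
      V.valuation ((q : ℕ) : F'') < 1 := fun V hV => by
    have h1 : R.valuation ((q : ℕ) : K) < 1 := M.hqR.trans_lt M.hπR
    have := val_map_lt_one hV h1
    rwa [map_natCast] at this
  -- constants through `algebraMap K F'`
  have hW : ∀ {W : ValuationSubring F'}, W.comap (algebraMap K F') = R → ∀ {r : K},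
      R.valuation r = 1 → W.valuation (algebraMap K F' r) = 1 := fun hW _ hr =>
    val_map_eq_one hW hr
  have hWlt : ∀ {W : ValuationSubring F'}, W.comap (algebraMap K F') = R → ∀ {r r' : K},
      R.valuation (r' ^ q - r) < 1 →
      W.valuation (algebraMap K F' r' ^ q - algebraMap K F' r) < 1 := fun hW _ _ h => by
    rw [← map_pow, ← map_sub]; exact val_map_lt_one hW h
  -- (‡3): the inseparable branch of `α`
  obtain ⟨g₃, hg₃1, hg₃⟩ := res_insep (N := Nα) M.hq M.cα3 (hqV V₃ M.cK''3) M.insα M.frobα3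
    M.rootα3 hu3 hNα' hG₁2 (hW M.cK2 hr₁'1).le (hWlt M.cK2 hr₁')
  -- (‡1): the inseparable branch of `β`
  obtain ⟨g₁', hg₁'1, hg₁'⟩ := res_insep (N := Nβ) M.hq M.cβ1 (hqV V₁ M.cK''1) M.insβ M.frobβ1
    M.rootβ1 hu1 hNβ' hG₂1 (hW M.cK1 hr₂'1).le (hWlt M.cK1 hr₂')
  -- the `α`-ramified branch
  have hg₁'α : V₁.valuation (f₁ - α (algebraMap K F' r₂') * g₁' ^ m) < 1 := by
    rw [M.hαK, ← M.hβK]; exact hg₁'
  obtain ⟨γ, hγ1, hγ⟩ := res_ram (Nα := Nα) M.cα1 M.cα2 M.ramα M.resα1 M.resα2 hu1 hu2 hNα' hG₁1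
    (hW M.cK1 hr₂'1) hg₁'1 hg₁'α
  rw [← map_div₀, M.hαK] at hγ
  -- the `β`-ramified branch
  have hg₃β : V₃.valuation (f₁ - β (algebraMap K F' r₁') * g₃ ^ m) < 1 := by
    rw [M.hβK, ← M.hαK]; exact hg₃
  obtain ⟨γ', hγ'1, hγ'⟩ := res_ram (Nα := Nβ) B.cβ3 B.cβ2 B.ramβ B.resβ3 B.resβ2 hu3 hu2 hNβ'
    hG₂2 (hW M.cK2 hr₁'1) hg₃1 hg₃β
  rw [← map_div₀, M.hβK] at hγ'
  rw [M.hαK] at hg₃
  rw [M.hβK] at hg₁'
  exact ⟨r₁, r₂, r₁', r₂', g₁', g₃, γ, γ', hr₁, hr₂, hr₁'1, hr₂'1, hr₁', hr₂', hg₁'1, hg₃1, hγ1,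
    hγ'1, hu1, hu2, hu3, hg₁', hγ, hγ', hg₃⟩

/-- **(G6)**: if `Φ ≡ η_i^m mod 𝔪_i` with `η_i` a unit of `V_i` (`i = 1, 2, 3`), then
`(Φ / H′^m)^q = 1 + π c` with `c ∈ V₁ ⊓ V₂ ⊓ V₃` for some `H′ ≠ 0`. -/
theorem exists_pi_form (M : GenModel R π q α β Nα Nβ W1 W2 V₁ V₂ V₃ T) {m : ℕ}
    {Φ η₁ η₂ η₃ : F''} (hη₁ : V₁.valuation η₁ = 1) (hη₂ : V₂.valuation η₂ = 1)
    (hη₃ : V₃.valuation η₃ = 1) (hc1 : V₁.valuation (Φ - η₁ ^ m) < 1)
    (hc2 : V₂.valuation (Φ - η₂ ^ m) < 1) (hc3 : V₃.valuation (Φ - η₃ ^ m) < 1) :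
    ∃ H' : F'', H' ≠ 0 ∧ ∃ c : F'', c ∈ V₁ ∧ c ∈ V₂ ∧ c ∈ V₃ ∧
      (Φ / H' ^ m) ^ q = 1 + algebraMap K F'' π * c := by
  have hπ''0 := M.hπ''0
  obtain ⟨H', hH'1, hH'2, hH'3⟩ := M.inc.exists_approx hη₁.le hη₂.le hη₃.le
  have hH'u1 : V₁.valuation H' = 1 := val_eq_one_of_cong V₁ hη₁ hH'1
  have hH'u2 : V₂.valuation H' = 1 := val_eq_one_of_cong V₂ hη₂ hH'2
  have hH'u3 : V₃.valuation H' = 1 := val_eq_one_of_cong V₃ hη₃ hH'3
  have hH'0 : H' ≠ 0 := ne_zero_of_val_eq_one V₁ hH'u1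
  -- `x = Φ / H'^m − 1 ∈ 𝔪₁ ∩ 𝔪₂ ∩ 𝔪₃`
  have hx : ∀ (V : ValuationSubring F'') {η : F''}, V.valuation η = 1 → V.valuation H' = 1 →
      V.valuation (H' - η) < 1 → V.valuation (Φ - η ^ m) < 1 →
      V.valuation (Φ / H' ^ m - 1) < 1 := by
    intro V η hη hH' hHη hfη
    have e : Φ / H' ^ m - 1 = (Φ - H' ^ m) / H' ^ m := by
      field_simp
    rw [e, map_div₀, map_pow, hH', one_pow, div_one]
    exact cong_trans V hfη (cong_symm V (cong_pow V hH'.le hη.le hHη m))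
  have hx1 := hx V₁ hη₁ hH'u1 hH'1 hc1
  have hx2 := hx V₂ hη₂ hH'u2 hH'2 hc2
  have hx3 := hx V₃ hη₃ hH'u3 hH'3 hc3
  -- `q ∈ π V_i`
  have hqπ : ∀ V : ValuationSubring F'', V.comap (algebraMap K F'') = R →
      V.valuation ((q : ℕ) : F'') ≤ V.valuation (algebraMap K F'' π) := fun V hV => by
    have := val_map_le_of_le hV M.hπ0 M.hqR
    rwa [map_natCast] at this
  have hπ''le : ∀ V : ValuationSubring F'', V.comap (algebraMap K F'') = R →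
      V.valuation (algebraMap K F'' π) ≤ 1 := fun V hV => (val_map_lt_one hV M.hπR).le
  -- `x^q ∈ π V_i`
  have hq1 : 1 ≤ q := M.hq.one_lt.le
  have hxq1 : V₁.valuation (Φ / H' ^ m - 1) ^ q ≤ V₁.valuation (algebraMap K F'' π) := by
    refine (pow_le_pow_left₀ zero_le (M.unifV1 _ hx1) q).trans ?_
    exact pow_le_of_le_one zero_le (hπ''le V₁ M.cK''1) M.hq.ne_zero
  have hxq3 : V₃.valuation (Φ / H' ^ m - 1) ^ q ≤ V₃.valuation (algebraMap K F'' π) := by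
    refine (pow_le_pow_left₀ zero_le (M.unifV3 _ hx3) q).trans ?_
    exact pow_le_of_le_one zero_le (hπ''le V₃ M.cK''3) M.hq.ne_zero
  have hxq2 : V₂.valuation (Φ / H' ^ m - 1) ^ q ≤ V₂.valuation (algebraMap K F'' π) := by
    refine (pow_le_pow_left₀ zero_le (M.unifV2 _ hx2) q).trans ?_
    have hTπ := M.hTπ
    unfold HasOrd at hTπ
    have hcast : ((q : ℤ) - 1) = ((q - 1 : ℕ) : ℤ) := by
      rw [Nat.cast_sub hq1, Nat.cast_one]
    rw [hTπ, hcast, zpow_natCast]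
    have hqq : q = (q - 1) + 1 := by omega
    conv_lhs => rw [hqq, pow_succ]
    exact mul_le_of_le_one_right' M.hT1.le
  obtain ⟨c, hc, hcV1, hcV2, hcV3⟩ := exists_one_add_pow_prime_eq V₁ V₂ V₃ M.hq hπ''0
    (hqπ V₁ M.cK''1) hx1 hxq1 (hqπ V₂ M.cK''2) hx2 hxq2 (hqπ V₃ M.cK''3) hx3 hxq3
  refine ⟨H', hH'0, c, (V₁.valuation_le_one_iff _).mp hcV1, (V₂.valuation_le_one_iff _).mp hcV2,
    (V₃.valuation_le_one_iff _).mp hcV3, ?_⟩
  rw [← hc, add_sub_cancel]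

/-- **(G) the generic-point theorem over the same base field**: if `N_α f = c₁ g₁^m`,
`N_β f = c₂ g₂^m`, the residue field of `R` is perfect (`perf`) and algebraically closed in the
residue field of `W1` as far as `m`-th roots of unit constants go (`halg`), then
`u := f^(q(q−1)(q+1)²) · κ · h^m` satisfies `u = 1 + π c` with `c ∈ V₁ ⊓ V₂ ⊓ V₃`. -/
theorem exists_u_alg (M : GenModel R π q α β Nα Nβ W1 W2 V₁ V₂ V₃ T)
    (B : GenModelB β Nβ W2 V₂ V₃ q) {m : ℕ} (hm : m ≠ 0)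
    (perf : ∀ r, R.valuation r = 1 → ∃ r', R.valuation r' = 1 ∧ R.valuation (r' ^ q - r) < 1)
    (halg : ∀ (r : K) (G : F'), R.valuation r = 1 → W1.valuation G = 1 →
      W1.valuation (G ^ m - algebraMap K F' r) < 1 →
      ∃ d : K, R.valuation d = 1 ∧ R.valuation (d ^ m - r) < 1)
    {f : F''} (hf : f ≠ 0) {c₁ c₂ : K} (hc₁ : c₁ ≠ 0) (hc₂ : c₂ ≠ 0)
    {g₁ g₂ : F'} (hg₁ : g₁ ≠ 0) (hg₂ : g₂ ≠ 0)
    (hα : Nα f = algebraMap K F' c₁ * g₁ ^ m) (hβ : Nβ f = algebraMap K F' c₂ * g₂ ^ m) :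
    ∃ (κ : K) (h : F''), κ ≠ 0 ∧ h ≠ 0 ∧ ∃ c : F'', c ∈ V₁ ∧ c ∈ V₂ ∧ c ∈ V₃ ∧
      f ^ (q * (q - 1) * (q + 1) ^ 2) * algebraMap K F'' κ * h ^ m =
        1 + algebraMap K F'' π * c := by
  obtain ⟨a, H, hH0, r₁, r₂, r₁', r₂', γ₁, γ₃, γ, γ', hr₁, hr₂, hr₁', hr₂', hE1, hE2, hγ₁, hγ₃,
    hγ, hγ', hu1, hu2, hu3, h1, h2, h2', h3⟩ :=
    exists_residue_rel M B hm perf hf hc₁ hc₂ hg₁ hg₂ hα hβ
  have hπ''0 := M.hπ''0
  set P := algebraMap K F'' π ^ a with hP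
  have hP0 : P ≠ 0 := zpow_ne_zero _ hπ''0
  set f₁ := f ^ (q + 1) / (P * H ^ m) with hf₁
  have hr₁0 := ne_zero_of_val_eq_one R hr₁
  have hr₂0 := ne_zero_of_val_eq_one R hr₂
  have hr₁'0 := ne_zero_of_val_eq_one R hr₁'
  have hr₂'0 := ne_zero_of_val_eq_one R hr₂'
  -- constants through `algebraMap K F''`
  have hA : ∀ (V : ValuationSubring F''), V.comap (algebraMap K F'') = R → ∀ {r : K},
      R.valuation r = 1 → V.valuation (algebraMap K F'' r) = 1 := fun V hV _ hr =>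
    val_map_eq_one hV hr
  have hAlt : ∀ (V : ValuationSubring F''), V.comap (algebraMap K F'') = R → ∀ {r s : K},
      R.valuation (r - s) < 1 → V.valuation (algebraMap K F'' r - algebraMap K F'' s) < 1 :=
    fun V hV _ _ h => by rw [← map_sub]; exact val_map_lt_one hV h
  -- Step A: `ρ = (r₁/r₂′)/(r₂/r₁′)` is an `m`-th power in the residue field of `W1`
  have hβγ' : V₂.valuation (β γ') = 1 := val_map_eq_one B.cβ2 hγ'
  obtain ⟨x, hxW, hx⟩ := M.resα2 (β γ') ((V₂.valuation_le_one_iff _).mp hβγ'.le)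
  have hαx : V₂.valuation (α x) = 1 := val_eq_one_of_cong V₂ hβγ' (cong_symm V₂ hx)
  have hx1 : W1.valuation x = 1 := val_eq_one_of_map M.cα2 hαx
  have hs12 : R.valuation (r₁ / r₂') = 1 := by rw [map_div₀, hr₁, hr₂', div_one]
  have hs21 : R.valuation (r₂ / r₁') = 1 := by rw [map_div₀, hr₂, hr₁', div_one]
  have hcmp : V₂.valuation (α (algebraMap K F' (r₁ / r₂') * γ ^ m) -
      α (algebraMap K F' (r₂ / r₁') * x ^ m)) < 1 := by
    rw [map_mul, map_mul, map_pow, map_pow, M.hαK, M.hαK]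
    refine cong_trans V₂ (cong_symm V₂ h2) (cong_trans V₂ h2' ?_)
    exact cong_mul_left V₂ _ (hA V₂ M.cK''2 hs21).le (cong_pow V₂ hβγ'.le hαx.le hx m)
  have hcmpW : W1.valuation (algebraMap K F' (r₁ / r₂') * γ ^ m -
      algebraMap K F' (r₂ / r₁') * x ^ m) < 1 := by
    refine val_lt_one_of_map M.cα2 ?_
    rw [map_sub]; exact hcmp
  set ρ := (r₁ / r₂') / (r₂ / r₁') with hρ
  have hρ1 : R.valuation ρ = 1 := by rw [hρ, map_div₀, hs12, hs21, div_one]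
  have hγ0 := ne_zero_of_val_eq_one W1 hγ
  have hG : W1.valuation ((x / γ) ^ m - algebraMap K F' ρ) < 1 := by
    have hs0 : algebraMap K F' (r₂ / r₁') ≠ 0 :=
      (map_ne_zero _).mpr (div_ne_zero hr₂0 hr₁'0)
    have hγm0 : γ ^ m ≠ 0 := pow_ne_zero _ hγ0
    have e : (x / γ) ^ m - algebraMap K F' ρ =
        -((algebraMap K F' (r₂ / r₁') * γ ^ m)⁻¹ *
          (algebraMap K F' (r₁ / r₂') * γ ^ m - algebraMap K F' (r₂ / r₁') * x ^ m)) := by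
      rw [hρ, map_div₀ (algebraMap K F') (r₁ / r₂') (r₂ / r₁'), div_pow]
      generalize algebraMap K F' (r₂ / r₁') = s at hs0
      generalize algebraMap K F' (r₁ / r₂') = s'
      generalize γ ^ m = Y at hγm0
      field_simp
      ring
    rw [e, Valuation.map_neg, map_mul]
    refine (mul_le_of_le_one_left' ?_).trans_lt hcmpW
    rw [map_inv₀, map_mul, map_pow, hγ, one_pow, mul_one, val_map_eq_one M.cK1 hs21, inv_one]
  obtain ⟨d, hd1, hd⟩ := halg ρ (x / γ) hρ1 (by rw [map_div₀, hx1, hγ, div_one]) hG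
  -- Step B: the constants
  set ρ' := r₁' ^ (q + 1) / r₂' ^ (q + 1) with hρ'
  have hρ'1 : R.valuation ρ' = 1 := by
    rw [hρ', map_div₀, map_pow, map_pow, hr₁', hr₂', one_pow, div_one]
  have hc12 : R.valuation (r₁ / r₂' - r₁' ^ q / r₂') < 1 :=
    cong_div R (by rw [map_pow, hr₁', one_pow]) hr₂' hr₂' (cong_symm R hE1) (cong_refl R r₂')
  have hc21 : R.valuation (r₂ / r₁' - r₂' ^ q / r₁') < 1 :=
    cong_div R (by rw [map_pow, hr₂', one_pow]) hr₁' hr₁' (cong_symm R hE2) (cong_refl R r₁')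
  have hρρ' : R.valuation (ρ - ρ') < 1 := by
    have e : ρ' = (r₁' ^ q / r₂') / (r₂' ^ q / r₁') := by
      rw [hρ']; field_simp; ring
    rw [hρ, e]
    refine cong_div R ?_ hs21 ?_ hc12 hc21
    · rw [map_div₀, map_pow, hr₁', hr₂', one_pow, div_one]
    · rw [map_div₀, map_pow, hr₁', hr₂', one_pow, div_one]
  have hdρ' : R.valuation (d ^ m - ρ') < 1 := cong_trans R hd hρρ'
  have hdm1 : R.valuation (d ^ m) = 1 := by rw [map_pow, hd1, one_pow]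
  set κ' := r₂' ^ ((q - 1) * (q + 1)) with hκ'
  have hκ'1 : R.valuation κ' = 1 := by rw [hκ', map_pow, hr₂', one_pow]
  have hκ'0 := ne_zero_of_val_eq_one R hκ'1
  -- (C3) `r₁′^E ≡ κ′ (d^(q−1))^m`
  have hC3 : R.valuation (r₁' ^ ((q - 1) * (q + 1)) - κ' * (d ^ (q - 1)) ^ m) < 1 := by
    have e1 : r₁' ^ ((q - 1) * (q + 1)) = κ' * ρ' ^ (q - 1) := by
      rw [hκ', hρ', div_pow, ← pow_mul, ← pow_mul, mul_comm (q + 1) (q - 1)]
      field_simp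
    have e2 : κ' * (d ^ (q - 1)) ^ m = κ' * (d ^ m) ^ (q - 1) := by ring
    rw [e1, e2]
    exact cong_mul_left R _ hκ'1.le (cong_symm R (cong_pow R hdm1.le hρ'1.le hdρ' _))
  -- (C2) `(r₁/r₂′)^(q+1) ≡ κ′ (d^q)^m`
  have hC2 : R.valuation ((r₁ / r₂') ^ (q + 1) - κ' * (d ^ q) ^ m) < 1 := by
    have hq1 : 1 ≤ q := M.hq.one_lt.le
    have e1 : (r₁' ^ q / r₂') ^ (q + 1) = κ' * ρ' ^ q := by
      rw [hκ', hρ', div_pow, div_pow, ← pow_mul, ← pow_mul]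
      obtain ⟨n, hn⟩ : ∃ n, q = n + 1 := ⟨q - 1, by omega⟩
      subst hn
      rw [Nat.add_sub_cancel]
      field_simp
      ring
    have e2 : κ' * (d ^ q) ^ m = κ' * (d ^ m) ^ q := by ring
    refine cong_trans R (cong_pow R hs12.le ?_ hc12 (q + 1)) ?_
    · rw [map_div₀, map_pow, hr₁', hr₂', one_pow, div_one]
    · rw [e1, e2]
      exact cong_mul_left R _ hκ'1.le (cong_symm R (cong_pow R hdm1.le hρ'1.le hdρ' _))
  -- Step C: the three local `m`-th roots of `Φ := f₁^E / κ′`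
  set Aκ := algebraMap K F'' κ' with hAκ
  have hAκ0 : Aκ ≠ 0 := (map_ne_zero _).mpr hκ'0
  set Φ := f₁ ^ ((q - 1) * (q + 1)) / Aκ with hΦ
  -- `V₁`
  have hη₁ : V₁.valuation (γ₁ ^ ((q - 1) * (q + 1))) = 1 := by rw [map_pow, hγ₁, one_pow]
  have hΦ1 : V₁.valuation (Φ - (γ₁ ^ ((q - 1) * (q + 1))) ^ m) < 1 := by
    refine cong_div_unit V₁ (hA V₁ M.cK''1 hκ'1) ?_
    have e : (γ₁ ^ ((q - 1) * (q + 1))) ^ m * Aκ =
        (algebraMap K F'' r₂' * γ₁ ^ m) ^ ((q - 1) * (q + 1)) := by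
      rw [hAκ, hκ', map_pow]; ring
    rw [e]
    refine cong_pow V₁ hu1.le ?_ h1 _
    rw [map_mul, map_pow, hγ₁, one_pow, mul_one]
    exact (hA V₁ M.cK''1 hr₂').le
  -- `V₃`
  have hη₃ : V₃.valuation (algebraMap K F'' (d ^ (q - 1)) * γ₃ ^ ((q - 1) * (q + 1))) = 1 := by
    rw [map_mul, map_pow _ γ₃, hγ₃, one_pow, mul_one]
    exact hA V₃ M.cK''3 (by rw [map_pow, hd1, one_pow])
  have hΦ3 : V₃.valuation
      (Φ - (algebraMap K F'' (d ^ (q - 1)) * γ₃ ^ ((q - 1) * (q + 1))) ^ m) < 1 := by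
    refine cong_div_unit V₃ (hA V₃ M.cK''3 hκ'1) ?_
    have e : (algebraMap K F'' (d ^ (q - 1)) * γ₃ ^ ((q - 1) * (q + 1))) ^ m * Aκ =
        algebraMap K F'' (κ' * (d ^ (q - 1)) ^ m) * (γ₃ ^ m) ^ ((q - 1) * (q + 1)) := by
      rw [hAκ, map_mul, map_pow _ (d ^ (q - 1)) m]; ring
    rw [e]
    have hstep : V₃.valuation (f₁ ^ ((q - 1) * (q + 1)) -
        algebraMap K F'' (r₁' ^ ((q - 1) * (q + 1))) * (γ₃ ^ m) ^ ((q - 1) * (q + 1))) < 1 := by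
      have e' : algebraMap K F'' (r₁' ^ ((q - 1) * (q + 1))) * (γ₃ ^ m) ^ ((q - 1) * (q + 1)) =
          (algebraMap K F'' r₁' * γ₃ ^ m) ^ ((q - 1) * (q + 1)) := by
        rw [map_pow]; ring
      rw [e']
      refine cong_pow V₃ hu3.le ?_ h3 _
      rw [map_mul, map_pow, hγ₃, one_pow, mul_one]
      exact (hA V₃ M.cK''3 hr₁').le
    refine cong_trans V₃ hstep ?_
    have hle : V₃.valuation ((γ₃ ^ m) ^ ((q - 1) * (q + 1))) ≤ 1 := by
      rw [map_pow, map_pow, hγ₃, one_pow, one_pow]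
    rw [← sub_mul, map_mul]
    exact (mul_le_of_le_one_right' hle).trans_lt (hAlt V₃ M.cK''3 hC3)
  -- `V₂`
  have hαγ : V₂.valuation (α γ) = 1 := val_map_eq_one M.cα2 hγ
  have hη₂ : V₂.valuation (algebraMap K F'' (d ^ q) * α γ ^ (q + 1)) = 1 := by
    rw [map_mul, map_pow _ (α γ), hαγ, one_pow, mul_one]
    exact hA V₂ M.cK''2 (by rw [map_pow, hd1, one_pow])
  have hΦ2 : V₂.valuation (Φ - (algebraMap K F'' (d ^ q) * α γ ^ (q + 1)) ^ m) < 1 := by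
    refine cong_div_unit V₂ (hA V₂ M.cK''2 hκ'1) ?_
    have e : (algebraMap K F'' (d ^ q) * α γ ^ (q + 1)) ^ m * Aκ =
        algebraMap K F'' (κ' * (d ^ q) ^ m) * (α γ ^ m) ^ (q + 1) := by
      rw [hAκ, map_mul, map_pow _ (d ^ q) m]; ring
    rw [e]
    have hstep : V₂.valuation (f₁ ^ ((q - 1) * (q + 1)) -
        algebraMap K F'' ((r₁ / r₂') ^ (q + 1)) * (α γ ^ m) ^ (q + 1)) < 1 := by
      have e' : algebraMap K F'' ((r₁ / r₂') ^ (q + 1)) * (α γ ^ m) ^ (q + 1) =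
          (algebraMap K F'' (r₁ / r₂') * α γ ^ m) ^ (q + 1) := by
        rw [map_pow]; ring
      rw [e', pow_mul]
      refine cong_pow V₂ ?_ ?_ h2 _
      · rw [map_pow, hu2, one_pow]
      · rw [map_mul, map_pow, hαγ, one_pow, mul_one]
        exact (hA V₂ M.cK''2 hs12).le
    refine cong_trans V₂ hstep ?_
    have hle : V₂.valuation ((α γ ^ m) ^ (q + 1)) ≤ 1 := by
      rw [map_pow, map_pow, hαγ, one_pow, one_pow]
    rw [← sub_mul, map_mul]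
    exact (mul_le_of_le_one_right' hle).trans_lt (hAlt V₂ M.cK''2 hC2)
  -- Step D: (G6)
  obtain ⟨H', hH'0, c, hcV1, hcV2, hcV3, hc⟩ := exists_pi_form M hη₁ hη₂ hη₃ hΦ1 hΦ2 hΦ3
  have hπK : (π ^ a) ^ ((q - 1) * (q + 1) * q) ≠ 0 := pow_ne_zero _ (zpow_ne_zero _ M.hπ0)
  refine ⟨((π ^ a) ^ ((q - 1) * (q + 1) * q) * κ' ^ q)⁻¹,
    (H ^ ((q - 1) * (q + 1) * q) * H' ^ q)⁻¹,
    inv_ne_zero (mul_ne_zero hπK (pow_ne_zero _ hκ'0)),
    inv_ne_zero (mul_ne_zero (pow_ne_zero _ hH0) (pow_ne_zero _ hH'0)), c, hcV1, hcV2, hcV3, ?_⟩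
  rw [← hc, hΦ, hf₁, map_inv₀, map_mul, map_pow, map_pow, map_zpow₀, ← hP, ← hAκ]
  generalize q - 1 = n
  ring

/-- `halg` from the `ConstRes21` form: if every `W1`-unit `G` with `G^m ≡ r` (`r` a unit constant) is
congruent to a unit constant, then `halg` holds. -/
theorem halg_of_const {R : ValuationSubring K} {W1 : ValuationSubring F'}
    (cK1 : W1.comap (algebraMap K F') = R) {m : ℕ}
    (hconst : ∀ (r : K) (G : F'), R.valuation r = 1 → W1.valuation G = 1 →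
      W1.valuation (G ^ m - algebraMap K F' r) < 1 →
      ∃ d : K, R.valuation d = 1 ∧ W1.valuation (G - algebraMap K F' d) < 1)
    (r : K) (G : F') (hr : R.valuation r = 1) (hG : W1.valuation G = 1)
    (h : W1.valuation (G ^ m - algebraMap K F' r) < 1) :
    ∃ d : K, R.valuation d = 1 ∧ R.valuation (d ^ m - r) < 1 := by
  obtain ⟨d, hd1, hd⟩ := hconst r G hr hG h
  refine ⟨d, hd1, val_lt_one_of_map cK1 ?_⟩
  rw [map_sub, map_pow]
  refine cong_trans W1 (cong_pow W1 (val_map_eq_one cK1 hd1).le hG.le (cong_symm W1 hd) m) h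

end Main

end Fermat.Agent.ES.P36.GenAlg20
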