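/-
Program P (S36), brick G4/base (helper17): **the BASE fields of `GenAbs20.GenModel`** at the `ModelDefs9` data of
level `M' q` — nothing at level `q²`.  PER-`K`: no `∃ K₀`, no `[Normal ℚ K]`; hypotheses only.

Generic part (`O` a valuation subring of a field `K` with a uniformiser `π` in the sense of `GaussGen8.IsUnif`):
* `val_unif_lt_one`, `val_le_val_unif`, `val_natCast_le_val_unif`, `exists_hasOrd_base` : `hπR`, `hqR`, `discR`;
* for a Gauss pull-back `V` (`GaussEmb22.IsGaussPullback O ι V`):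
  `C_mem_gaussRing_iff`, `comap_algebraMap_eq` (`cK`), `exists_hasOrd_of_pullback` (`disc`),
  `val_le_val_unif_of_pullback` (`unif`), `val_unif_lt_one_of_pullback`.
Concrete part (`R := AK A K`, `F′ := FK (M' * q) K`, `W1 := ModelDefs9.O1 M' q hπ hE`, `W2 := ModelDefs9.O2 M' q hπ hE`):
`hπR`, `hqR`, `discR`, `cK1`, `cK2`, `discW1`, `discW2`, `unifW1`, `unifW2`, `ne`, `hW12`, `hW21` (incomparability), and the common restriction of
`W1`, `W2` to the Gauss ring of level `M'` along `alpha` and along `beta` (`comap_alpha_O1/O2`, `comap_beta_O1/O2`).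
-/
import Mathlib
import Fermat.Agent.ES.N34.GaussEmb22
import Fermat.Agent.ES.N34.IsoM25
import Fermat.Agent.ES.N34.OneNeTwo3
import Fermat.Agent.ES.N35.PiMaps26
import Fermat.Agent.RED.DESC.NumberFieldDVR27
import Fermat.Agent.RED.PUR.GaussBridge10
import Fermat.Agent.ES.P36.OrdVal20

set_option autoImplicit false
set_option linter.unusedSectionVars false
set_option synthInstance.maxHeartbeats 400000
set_option linter.style.haveILetI false

noncomputable section

open HahnSeries ModularCurve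

namespace Fermat.Agent.ES.P36.GenBase17

open Fermat.Agent.RED.Interface4 Fermat.Agent.RED.PUR.GaussGen8 Fermat.Agent.ES.N34.GaussEmb22
  Fermat.Agent.ES.P36.OrdVal20

/-! ### The base valuation ring -/

section Base

variable {K : Type*} [Field K] {O : ValuationSubring K} {π : ↥O}

/-- `hπR`. -/
theorem val_unif_lt_one (hπ : IsUnif O π) : O.valuation ((π : ↥O) : K) < 1 := by
  rw [← ValuationSubring.valuation_lt_one_iff, hπ.max_eq]
  exact Ideal.mem_span_singleton_self π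

/-- `π` is a uniformiser: every element of the maximal ideal has valuation `≤ v(π)`. -/
theorem val_le_val_unif (hπ : IsUnif O π) {c : K} (hc : O.valuation c < 1) :
    O.valuation c ≤ O.valuation ((π : ↥O) : K) := by
  have hcO : c ∈ O := (O.valuation_le_one_iff c).mp hc.le
  have hm : (⟨c, hcO⟩ : ↥O) ∈ IsLocalRing.maximalIdeal ↥O :=
    (O.valuation_lt_one_iff ⟨c, hcO⟩).mpr hc
  rw [hπ.max_eq, Ideal.mem_span_singleton] at hm
  obtain ⟨d, hd⟩ := hm
  have hcd : c = (π : K) * (d : K) := congrArg Subtype.val hd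
  rw [hcd, map_mul]
  exact mul_le_of_le_one_right' (O.valuation_le_one d)

/-- `hqR`: the residue characteristic lies in `π O`. -/
theorem val_natCast_le_val_unif (hπ : IsUnif O π) (q : ℕ) [CharP (Res O) q] :
    O.valuation ((q : ℕ) : K) ≤ O.valuation ((π : ↥O) : K) := by
  refine val_le_val_unif hπ ?_
  have hm : ((q : ℕ) : ↥O) ∈ IsLocalRing.maximalIdeal ↥O := by
    rw [← IsLocalRing.residue_eq_zero_iff, map_natCast]
    exact CharP.cast_eq_zero (Res O) q
  have := (O.valuation_lt_one_iff _).mp hm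
  simpa using this

/-- auxiliary: integral nonzero elements have an order. -/
theorem exists_hasOrd_of_mem (hπ : IsUnif O π) :
    ∀ (n : ℕ) (c : ↥O), c ≠ 0 → ¬ π ^ (n + 1) ∣ c →
      ∃ k : ℕ, O.valuation ((c : ↥O) : K) = O.valuation ((π : ↥O) : K) ^ k := by
  intro n
  induction n with
  | zero =>
    intro c _ hnd
    refine ⟨0, ?_⟩
    rw [pow_zero]
    rw [zero_add, pow_one] at hnd
    have hu : IsUnit c := by
      by_contra hnu
      have hm : c ∈ IsLocalRing.maximalIdeal ↥O := (IsLocalRing.mem_maximalIdeal c).mpr hnu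
      rw [hπ.max_eq, Ideal.mem_span_singleton] at hm
      exact hnd hm
    exact (O.valuation_eq_one_iff c).mp hu
  | succ n ih =>
    intro c hc hnd
    by_cases hu : IsUnit c
    · exact ⟨0, by rw [pow_zero]; exact (O.valuation_eq_one_iff c).mp hu⟩
    · have hm : c ∈ IsLocalRing.maximalIdeal ↥O := (IsLocalRing.mem_maximalIdeal c).mpr hu
      rw [hπ.max_eq, Ideal.mem_span_singleton] at hm
      obtain ⟨d, rfl⟩ := hm
      have hd0 : d ≠ 0 := fun h => hc (by rw [h, mul_zero])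
      have hdn : ¬ π ^ (n + 1) ∣ d := by
        rintro ⟨e, he⟩
        apply hnd
        refine ⟨e, ?_⟩
        rw [he, pow_succ' π (n + 1)]
        ring
      obtain ⟨k, hk⟩ := ih d hd0 hdn
      refine ⟨k + 1, ?_⟩
      have : ((π * d : ↥O) : K) = (π : K) * (d : K) := rfl
      rw [this, map_mul, hk, pow_succ']

/-- `discR`: the value group of `O` is generated by `v(π)`. -/
theorem exists_hasOrd_base (hπ : IsUnif O π) (c : K) (hc : c ≠ 0) :
    ∃ n : ℤ, HasOrd O ((π : ↥O) : K) c n := by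
  have key : ∀ c : K, c ≠ 0 → c ∈ O → ∃ n : ℤ, HasOrd O ((π : ↥O) : K) c n := by
    intro c hc hcO
    have hc' : (⟨c, hcO⟩ : ↥O) ≠ 0 := fun h => hc (congrArg Subtype.val h)
    obtain ⟨n, hn⟩ := hπ.sep ⟨c, hcO⟩ hc'
    obtain ⟨k, hk⟩ := exists_hasOrd_of_mem hπ n ⟨c, hcO⟩ hc' hn
    exact ⟨(k : ℤ), by unfold HasOrd; rw [zpow_natCast]; exact hk⟩
  rcases O.mem_or_inv_mem c with h | h
  · exact key c hc h
  · obtain ⟨n, hn⟩ := key c⁻¹ (inv_ne_zero hc) h
    refine ⟨-n, ?_⟩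
    have := hn.inv
    rwa [inv_inv] at this

end Base

/-! ### Gauss pull-backs -/

section Pullback

variable {K : Type*} [Field K] {O : ValuationSubring K} {π : ↥O}
  {F : Type*} [Field F] [Algebra K F] {ι : F →ₐ[K] LaurentSeries K} {V : ValuationSubring F}

/-- a constant lies in the Gauss ring iff it lies in `O`. -/
theorem C_mem_gaussRing_iff (hπ : IsUnif O π) (c : K) :
    (HahnSeries.C c : LaurentSeries K) ∈ gaussRing O ↔ c ∈ O := by
  constructor
  · intro h
    by_contra hc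
    have hinv : c⁻¹ ∈ O := (O.mem_or_inv_mem c).resolve_left hc
    have hc0 : c ≠ 0 := fun h0 => hc (h0 ▸ O.zero_mem)
    have hnu : ¬ IsUnit (⟨c⁻¹, hinv⟩ : ↥O) := by
      intro hu
      obtain ⟨u, hu⟩ := hu
      apply hc
      have h1 : ((u⁻¹ : (↥O)ˣ) : ↥O) * ⟨c⁻¹, hinv⟩ = 1 := by rw [← hu]; exact u.inv_mul
      have h2 : (((u⁻¹ : (↥O)ˣ) : ↥O) : K) * c⁻¹ = 1 := congrArg Subtype.val h1
      have h3 : (((u⁻¹ : (↥O)ˣ) : ↥O) : K) = c := by
        field_simp at h2
        exact h2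
      rw [← h3]
      exact ((u⁻¹ : (↥O)ˣ) : ↥O).2
    have hm : (⟨c⁻¹, hinv⟩ : ↥O) ∈ IsLocalRing.maximalIdeal ↥O :=
      (IsLocalRing.mem_maximalIdeal _).mpr hnu
    rw [hπ.max_eq, Ideal.mem_span_singleton] at hm
    obtain ⟨d, hd⟩ := hm
    have hd' : c⁻¹ = (π : K) * (d : K) := congrArg Subtype.val hd
    have h1 : (1 : ↥(gaussRing O)) = constG O π * (⟨HahnSeries.C c, h⟩ * constG O d) := by
      apply Subtype.ext
      show (1 : LaurentSeries K) = HahnSeries.C ((π : ↥O) : K) * (HahnSeries.C c * HahnSeries.C ((d : ↥O) : K))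
      rw [← map_mul, ← map_mul, mul_comm c, ← mul_assoc, ← hd', inv_mul_cancel₀ hc0, map_one]
    have := congrArg (gaussRed O) h1
    rw [map_one, map_mul, gaussRed_unif hπ, zero_mul] at this
    exact one_ne_zero this
  · intro h
    exact C_mem O ⟨c, h⟩

/-- `cK`: a Gauss pull-back restricts to `O` on the constants. -/
theorem comap_algebraMap_eq (hV : IsGaussPullback O ι V) (hπ : IsUnif O π) :
    V.comap (algebraMap K F) = O := by
  ext c
  rw [ValuationSubring.mem_comap, hV, map_algebraMap, C_mem_gaussRing_iff hπ]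

theorem map_unif (π : ↥O) : ι (algebraMap K F ((π : ↥O) : K)) = piK π := map_algebraMap _

/-- `disc`: the value group of a Gauss pull-back is generated by `v(π)`. -/
theorem exists_hasOrd_of_pullback (hV : IsGaussPullback O ι V) (hπ : IsUnif O π) (g : F)
    (hg : g ≠ 0) : ∃ n : ℤ, HasOrd V (algebraMap K F ((π : ↥O) : K)) g n := by
  have hfrac : ι g ∈ fracField O := by
    rcases V.mem_or_inv_mem g with h | h
    · exact gaussRing_le_fracField O ((hV g).mp h)
    · have h1 : ι g⁻¹ ∈ fracField O := gaussRing_le_fracField O ((hV _).mp h)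
      rw [map_inv₀] at h1
      have h2 := inv_mem h1
      rwa [inv_inv] at h2
  have hιg0 : ι g ≠ 0 :=
    fun h => hg ((map_eq_zero_iff _ (ι : F →+* LaurentSeries K).injective).mp h)
  obtain ⟨i, j, u, hu, hrel⟩ := exists_unit_rep hπ hfrac hιg0
  set ϖ : F := algebraMap K F ((π : ↥O) : K) with hϖ
  have hϖ0 : ϖ ≠ 0 := by
    intro h0
    have : ι ϖ = 0 := by rw [h0, map_zero]
    rw [hϖ, map_unif] at this
    exact piK_ne_zero hπ this
  set y : F := g * ϖ ^ j / ϖ ^ i with hy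
  have hιy : ι y = (u : LaurentSeries K) := by
    rw [hy, map_div₀, map_mul, map_pow, map_pow, hϖ, map_unif, hrel,
      mul_div_assoc, mul_comm, div_mul_cancel₀ _ (pow_ne_zero i (piK_ne_zero hπ))]
  have hyV : y ∈ V := by rw [hV, hιy]; exact u.2
  have hyinv : y⁻¹ ∈ V := by
    rw [hV, map_inv₀, hιy]
    exact inv_mem_of_gaussRed_ne_zero O u hu
  have hy0 : y ≠ 0 := by
    intro h0
    apply hu
    have : (u : LaurentSeries K) = 0 := by rw [← hιy, h0, map_zero]
    have hu0 : u = 0 := Subtype.ext this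
    rw [hu0, map_zero]
  have hy1 : V.valuation y = 1 := by
    refine le_antisymm ((V.valuation_le_one_iff y).mpr hyV) ?_
    have h1 : V.valuation y⁻¹ ≤ 1 := (V.valuation_le_one_iff _).mpr hyinv
    rw [map_inv₀] at h1
    have hpos : 0 < V.valuation y := zero_lt_iff.mpr ((Valuation.ne_zero_iff _).mpr hy0)
    exact (inv_le_one₀ hpos).mp h1
  refine ⟨(i : ℤ) - (j : ℤ), ?_⟩
  unfold HasOrd
  have hvϖ : V.valuation ϖ ≠ 0 := (Valuation.ne_zero_iff _).mpr hϖ0
  have hg' : g = y * ϖ ^ i / ϖ ^ j := by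
    rw [hy]
    field_simp
  rw [hg', map_div₀, map_mul, hy1, one_mul, map_pow, map_pow, zpow_sub₀ hvϖ, zpow_natCast,
    zpow_natCast]

/-- `v(π) < 1` at a Gauss pull-back. -/
theorem val_unif_lt_one_of_pullback (hV : IsGaussPullback O ι V) (hπ : IsUnif O π) :
    V.valuation (algebraMap K F ((π : ↥O) : K)) < 1 := by
  have hc := comap_algebraMap_eq hV hπ
  have h := val_unif_lt_one hπ
  by_contra hcon
  rw [not_lt] at hcon
  -- then `π⁻¹ ∈ V ∩ K = O`
  have hπ0 : ((π : ↥O) : K) ≠ 0 := fun h0 => hπ.ne_zero (Subtype.ext h0)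
  have h1 : V.valuation (algebraMap K F ((π : ↥O) : K)⁻¹) ≤ 1 := by
    rw [map_inv₀, map_inv₀]
    exact inv_le_one_of_one_le₀ hcon
  have h2 : ((π : ↥O) : K)⁻¹ ∈ V.comap (algebraMap K F) :=
    ValuationSubring.mem_comap.mpr ((V.valuation_le_one_iff _).mp h1)
  rw [hc] at h2
  have h3 : O.valuation ((π : ↥O) : K)⁻¹ ≤ 1 := (O.valuation_le_one_iff _).mpr h2
  rw [map_inv₀] at h3
  have hpos : 0 < O.valuation ((π : ↥O) : K) := zero_lt_iff.mpr ((Valuation.ne_zero_iff _).mpr hπ0)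
  exact absurd h (not_lt.mpr ((inv_le_one₀ hpos).mp h3))

/-- `unif`: `π` is a uniformiser of a Gauss pull-back. -/
theorem val_le_val_unif_of_pullback (hV : IsGaussPullback O ι V) (hπ : IsUnif O π) (x : F)
    (hx : V.valuation x < 1) : V.valuation x ≤ V.valuation (algebraMap K F ((π : ↥O) : K)) := by
  have hxV : x ∈ V := (V.valuation_le_one_iff x).mp hx.le
  have h1 : redOf hV ⟨x, hxV⟩ = 0 := (redOf_eq_zero_iff hV ⟨x, hxV⟩).mpr hx
  rw [redOf_apply, gaussRed_eq_zero_iff hπ] at h1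
  obtain ⟨g, hg⟩ := h1
  have hg' : ι x = piK π * (g : LaurentSeries K) :=
    congrArg (fun y : ↥(gaussRing O) => (y : LaurentSeries K)) hg
  set ϖ : F := algebraMap K F ((π : ↥O) : K) with hϖ
  have hϖ0 : ϖ ≠ 0 := by
    intro h0
    have : ι ϖ = 0 := by rw [h0, map_zero]
    rw [hϖ, map_unif] at this
    exact piK_ne_zero hπ this
  have hcV : x / ϖ ∈ V := by
    rw [hV, map_div₀, hϖ, map_unif, hg', mul_comm, mul_div_assoc, div_self (piK_ne_zero hπ), mul_one]
    exact g.2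
  have hx' : x = ϖ * (x / ϖ) := by field_simp
  rw [hx', map_mul]
  exact mul_le_of_le_one_right' ((V.valuation_le_one_iff _).mpr hcV)

end Pullback

/-! ### Incomparability of two discrete valuation subrings with a common uniformiser -/

section Incomp

variable {F : Type*} [Field F] {W1 W2 : ValuationSubring F} {ϖ : F}

/-- if `W1` is discrete with uniformiser `ϖ`, `ϖ` is a non-unit of `W2` and `W1 ≤ W2`, then `W2 ≤ W1`. -/
theorem le_of_le_of_disc (hϖ0 : ϖ ≠ 0) (hd : ∀ g : F, g ≠ 0 → ∃ n : ℤ, HasOrd W1 ϖ g n)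
    (hϖ1 : W1.valuation ϖ < 1) (hϖ2 : W2.valuation ϖ < 1) (hle : W1 ≤ W2) : W2 ≤ W1 := by
  intro x hx
  by_cases hx0 : x = 0
  · rw [hx0]; exact W1.zero_mem
  obtain ⟨n, hn⟩ := hd x hx0
  unfold HasOrd at hn
  have hv1 : W1.valuation ϖ ≠ 0 := (Valuation.ne_zero_iff _).mpr hϖ0
  have hv2 : W2.valuation ϖ ≠ 0 := (Valuation.ne_zero_iff _).mpr hϖ0
  -- `y = x / ϖ^n` is a unit of `W1`, hence of `W2`
  set y : F := x / ϖ ^ n with hy
  have hy1 : W1.valuation y = 1 := by
    rw [hy, map_div₀, map_zpow₀, hn, div_self (zpow_ne_zero n hv1)]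
  have hy0 : y ≠ 0 := by
    intro h0
    rw [h0, map_zero] at hy1
    exact zero_ne_one hy1
  have hyW1 : y ∈ W1 := (W1.valuation_le_one_iff y).mp hy1.le
  have hyinvW1 : y⁻¹ ∈ W1 := by
    rw [← W1.valuation_le_one_iff, map_inv₀, hy1, inv_one]
  have hy2 : W2.valuation y = 1 := by
    refine le_antisymm ((W2.valuation_le_one_iff y).mpr (hle hyW1)) ?_
    have h1 : W2.valuation y⁻¹ ≤ 1 := (W2.valuation_le_one_iff _).mpr (hle hyinvW1)
    rw [map_inv₀] at h1
    have hpos : 0 < W2.valuation y := zero_lt_iff.mpr ((Valuation.ne_zero_iff _).mpr hy0)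
    exact (inv_le_one₀ hpos).mp h1
  have hx' : x = y * ϖ ^ n := by
    rw [hy, div_mul_cancel₀ _ (zpow_ne_zero n hϖ0)]
  have hx2 : W2.valuation x = W2.valuation ϖ ^ n := by
    rw [hx', map_mul, hy2, one_mul, map_zpow₀]
  have hxle : W2.valuation x ≤ 1 := (W2.valuation_le_one_iff x).mpr hx
  rw [hx2] at hxle
  -- `n ≥ 0`
  have hn0 : 0 ≤ n := by
    by_contra hneg
    rw [not_le] at hneg
    have hpos2 : 0 < W2.valuation ϖ := zero_lt_iff.mpr hv2
    have : 1 < W2.valuation ϖ ^ n := by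
      have h1 : W2.valuation ϖ ^ (0 : ℤ) < W2.valuation ϖ ^ n :=
        zpow_lt_zpow_right_of_lt_one₀ hpos2 hϖ2 hneg
      rwa [zpow_zero] at h1
    exact absurd hxle (not_le.mpr this)
  rw [← W1.valuation_le_one_iff, hn]
  obtain ⟨k, rfl⟩ := Int.eq_ofNat_of_zero_le hn0
  rw [zpow_natCast]
  exact pow_le_one₀ zero_le hϖ1.le

/-- two different discrete valuation subrings with a common uniformiser are incomparable. -/
theorem not_le_of_ne_of_disc (hϖ0 : ϖ ≠ 0) (hd : ∀ g : F, g ≠ 0 → ∃ n : ℤ, HasOrd W1 ϖ g n)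
    (hϖ1 : W1.valuation ϖ < 1) (hϖ2 : W2.valuation ϖ < 1) (hne : W1 ≠ W2) : ¬ W1 ≤ W2 :=
  fun hle => hne (le_antisymm hle (le_of_le_of_disc hϖ0 hd hϖ1 hϖ2 hle))

end Incomp

/-! ### The bundle of base fields -/

/-- the BASE fields of `GenAbs20.GenModel` (everything that only involves `R`, `π`, `W1`, `W2`). -/
structure BaseG {K F' : Type*} [Field K] [Field F'] [Algebra K F'] (R : ValuationSubring K) (π : K)
    (q : ℕ) (W1 W2 : ValuationSubring F') : Prop where
  hπ0 : π ≠ 0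
  hπR : R.valuation π < 1
  hqR : R.valuation ((q : ℕ) : K) ≤ R.valuation π
  discR : ∀ c : K, c ≠ 0 → ∃ n : ℤ, HasOrd R π c n
  cK1 : W1.comap (algebraMap K F') = R
  cK2 : W2.comap (algebraMap K F') = R
  hπW1 : W1.valuation (algebraMap K F' π) < 1
  hπW2 : W2.valuation (algebraMap K F' π) < 1
  unifW1 : ∀ x : F', W1.valuation x < 1 → W1.valuation x ≤ W1.valuation (algebraMap K F' π)
  unifW2 : ∀ x : F', W2.valuation x < 1 → W2.valuation x ≤ W2.valuation (algebraMap K F' π)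
  discW1 : ∀ g : F', g ≠ 0 → ∃ n : ℤ, HasOrd W1 (algebraMap K F' π) g n
  discW2 : ∀ g : F', g ≠ 0 → ∃ n : ℤ, HasOrd W2 (algebraMap K F' π) g n
  ne : W1 ≠ W2
  hW12 : ¬ W1 ≤ W2
  hW21 : ¬ W2 ≤ W1

/-! ### The `ModelDefs9` data at level `M' q` -/

section Concrete

open Fermat.Agent.ES.N34.ModelDefs9 Fermat.Agent.ES.N34.FrickeFK8 Fermat.Agent.ES.N34.IsoM25

variable {A : ValuationSubring Qbar} {K : IntermediateField ℚ Qbar} (M' q : ℕ) [NeZero M'] [NeZero q]
  {π : ↥(AK A K)} (hπ : IsUnif (AK A K) π) (hE : FK (M' * q) K ≤ fracField (AK A K))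

/-- `W1 = O1` is the Gauss pull-back along the expansion at `∞`. -/
theorem isGaussPullback_W1 :
    IsGaussPullback (AK A K) (FK (M' * q) K).val (O1 M' q hπ hE) := fun _ => Iff.rfl

/-- `W2 = O2` is the Gauss pull-back along the expansion at the cusp `0`. -/
theorem isGaussPullback_W2 :
    IsGaussPullback (AK A K) (iotaAlg (M' * q) K) (O2 M' q hπ hE) := fun _ => Iff.rfl

include hπ in
/-- `π ≠ 0` in `F′`. -/
theorem pi1_ne_zero : algebraMap ↥K ↥(FK (M' * q) K) ((π : ↥(AK A K)) : ↥K) ≠ 0 := by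
  intro h0
  have h1 : ((π : ↥(AK A K)) : ↥K) = 0 :=
    (map_eq_zero_iff _ (algebraMap ↥K ↥(FK (M' * q) K)).injective).mp h0
  exact hπ.ne_zero (Subtype.ext h1)

/-- `cK1`. -/
theorem cK1 : (O1 M' q hπ hE).comap (algebraMap ↥K ↥(FK (M' * q) K)) = AK A K :=
  comap_algebraMap_eq (isGaussPullback_W1 M' q hπ hE) hπ

/-- `cK2`. -/
theorem cK2 : (O2 M' q hπ hE).comap (algebraMap ↥K ↥(FK (M' * q) K)) = AK A K :=
  comap_algebraMap_eq (isGaussPullback_W2 M' q hπ hE) hπ

/-- `discW1`. -/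
theorem discW1 (g : ↥(FK (M' * q) K)) (hg : g ≠ 0) :
    ∃ n : ℤ, HasOrd (O1 M' q hπ hE) (algebraMap ↥K ↥(FK (M' * q) K) ((π : ↥(AK A K)) : ↥K)) g n :=
  exists_hasOrd_of_pullback (isGaussPullback_W1 M' q hπ hE) hπ g hg

/-- `discW2`. -/
theorem discW2 (g : ↥(FK (M' * q) K)) (hg : g ≠ 0) :
    ∃ n : ℤ, HasOrd (O2 M' q hπ hE) (algebraMap ↥K ↥(FK (M' * q) K) ((π : ↥(AK A K)) : ↥K)) g n :=
  exists_hasOrd_of_pullback (isGaussPullback_W2 M' q hπ hE) hπ g hg

/-- `O1 ∩ alpha(F_{M'}) = alpha(Ov_{M'})`, `comap` form. -/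
theorem comap_alpha_O1 (hE₀ : FK M' K ≤ fracField (AK A K)) :
    (O1 M' q hπ hE).comap (alpha K M' q).toRingHom = gaussVS hπ (FK M' K) hE₀ := by
  ext z
  rw [ValuationSubring.mem_comap, mem_gaussVS_iff]
  exact Fermat.Agent.ES.N34.BranchInt5.alpha_mem_O1_iff M' q hπ hE z

/-- `O1 ∩ beta(F_{M'}) = beta(Ov_{M'})`, `comap` form. -/
theorem comap_beta_O1 (hE₀ : FK M' K ≤ fracField (AK A K)) :
    (O1 M' q hπ hE).comap (beta K M' q).toRingHom = gaussVS hπ (FK M' K) hE₀ := by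
  ext z
  rw [ValuationSubring.mem_comap, mem_gaussVS_iff]
  exact Fermat.Agent.ES.N35.PiMaps26.beta_mem_O1_iff M' q hπ hE z

section Iso

variable [hq : Fact q.Prime] [IsDiscreteValuationRing ↥(AK A K)] [CharP (Res (AK A K)) q]

/-- `O2 ∩ alpha(F_{M'}) = alpha(Ov_{M'})`, `comap` form (uses the level-`M'` isometry `IsoM25.isoM`). -/
theorem comap_alpha_O2 (hqM : ¬ q ∣ M') (hE₀ : FK M' K ≤ fracField (AK A K)) :
    (O2 M' q hπ hE).comap (alpha K M' q).toRingHom = gaussVS hπ (FK M' K) hE₀ := by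
  have hirr : Irreducible π := (IsDiscreteValuationRing.irreducible_iff_uniformizer π).mpr hπ.max_eq
  ext z
  rw [ValuationSubring.mem_comap, mem_gaussVS_iff]
  exact Fermat.Agent.ES.N35.PiMaps26.alpha_mem_O2_iff M' q hπ hE
    (fun x => isoM A K M' q hirr hqM x) z

/-- `O2 ∩ beta(F_{M'}) = beta(Ov_{M'})`, `comap` form. -/
theorem comap_beta_O2 (hqM : ¬ q ∣ M') (hE₀ : FK M' K ≤ fracField (AK A K)) :
    (O2 M' q hπ hE).comap (beta K M' q).toRingHom = gaussVS hπ (FK M' K) hE₀ := by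
  have hirr : Irreducible π := (IsDiscreteValuationRing.irreducible_iff_uniformizer π).mpr hπ.max_eq
  ext z
  rw [ValuationSubring.mem_comap, mem_gaussVS_iff]
  exact Fermat.Agent.ES.N34.BranchInt5.beta_mem_O2_iff M' q hπ hE
    (fun x => isoM A K M' q hirr hqM x) z

/-- the two branches have the SAME restriction to level `M'` along `alpha`. -/
theorem comap_alpha_O1_eq_O2 (hqM : ¬ q ∣ M') :
    (O1 M' q hπ hE).comap (alpha K M' q).toRingHom = (O2 M' q hπ hE).comap (alpha K M' q).toRingHom := by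
  rw [comap_alpha_O1 M' q hπ hE (Fermat.Agent.RED.PUR.GaussBridge10.FK_le_fracField A K M'),
    comap_alpha_O2 M' q hπ hE hqM (Fermat.Agent.RED.PUR.GaussBridge10.FK_le_fracField A K M')]

/-- the two branches have the SAME restriction to level `M'` along `beta`. -/
theorem comap_beta_O1_eq_O2 (hqM : ¬ q ∣ M') :
    (O1 M' q hπ hE).comap (beta K M' q).toRingHom = (O2 M' q hπ hE).comap (beta K M' q).toRingHom := by
  rw [comap_beta_O1 M' q hπ hE (Fermat.Agent.RED.PUR.GaussBridge10.FK_le_fracField A K M'),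
    comap_beta_O2 M' q hπ hE hqM (Fermat.Agent.RED.PUR.GaussBridge10.FK_le_fracField A K M')]

/-- **The base fields at the `ModelDefs9` data**, instance form. -/
theorem baseG : BaseG (AK A K) ((π : ↥(AK A K)) : ↥K) q (O1 M' q hπ hE) (O2 M' q hπ hE) where
  hπ0 := fun h0 => hπ.ne_zero (Subtype.ext h0)
  hπR := val_unif_lt_one hπ
  hqR := val_natCast_le_val_unif hπ q
  discR := exists_hasOrd_base hπ
  cK1 := cK1 M' q hπ hE
  cK2 := cK2 M' q hπ hE
  hπW1 := val_unif_lt_one_of_pullback (isGaussPullback_W1 M' q hπ hE) hπ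
  hπW2 := val_unif_lt_one_of_pullback (isGaussPullback_W2 M' q hπ hE) hπ
  unifW1 := val_le_val_unif_of_pullback (isGaussPullback_W1 M' q hπ hE) hπ
  unifW2 := val_le_val_unif_of_pullback (isGaussPullback_W2 M' q hπ hE) hπ
  discW1 := discW1 M' q hπ hE
  discW2 := discW2 M' q hπ hE
  ne := Fermat.Agent.ES.N34.OneNeTwo3.o1_ne_o2 M' q hπ hE
  hW12 := not_le_of_ne_of_disc (pi1_ne_zero M' q hπ) (discW1 M' q hπ hE)
    (val_unif_lt_one_of_pullback (isGaussPullback_W1 M' q hπ hE) hπ)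
    (val_unif_lt_one_of_pullback (isGaussPullback_W2 M' q hπ hE) hπ)
    (Fermat.Agent.ES.N34.OneNeTwo3.o1_ne_o2 M' q hπ hE)
  hW21 := not_le_of_ne_of_disc (pi1_ne_zero M' q hπ) (discW2 M' q hπ hE)
    (val_unif_lt_one_of_pullback (isGaussPullback_W2 M' q hπ hE) hπ)
    (val_unif_lt_one_of_pullback (isGaussPullback_W1 M' q hπ hE) hπ)
    (Fermat.Agent.ES.N34.OneNeTwo3.o1_ne_o2 M' q hπ hE).symm

end Iso

/-- **The base fields at the `ModelDefs9` data**, hypothesis form (per `K`; no `K₀`, no normality). -/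
theorem baseG_of_liesOver [FiniteDimensional ℚ K] (hq : q.Prime) (hA : A.LiesOverPrime q) :
    BaseG (AK A K) ((π : ↥(AK A K)) : ↥K) q (O1 M' q hπ hE) (O2 M' q hπ hE) := by
  haveI : Fact q.Prime := ⟨hq⟩
  haveI : IsDiscreteValuationRing ↥(AK A K) :=
    Fermat.Agent.RED.DESC.NumberFieldDVR27.isDiscreteValuationRing_AK A K hq.ne_zero hA
  haveI : CharP (Res (AK A K)) q :=
    Fermat.Agent.RED.DESC.NumberFieldDVR27.charP_residueField_AK A K hq hA
  exact baseG M' q hπ hE

/-- common restriction along `alpha`, hypothesis form. -/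
theorem comap_alpha_O1_eq_O2_of_liesOver [FiniteDimensional ℚ K] (hq : q.Prime) (hqM : ¬ q ∣ M')
    (hA : A.LiesOverPrime q) :
    (O1 M' q hπ hE).comap (alpha K M' q).toRingHom = (O2 M' q hπ hE).comap (alpha K M' q).toRingHom := by
  haveI : Fact q.Prime := ⟨hq⟩
  haveI : IsDiscreteValuationRing ↥(AK A K) :=
    Fermat.Agent.RED.DESC.NumberFieldDVR27.isDiscreteValuationRing_AK A K hq.ne_zero hA
  haveI : CharP (Res (AK A K)) q :=
    Fermat.Agent.RED.DESC.NumberFieldDVR27.charP_residueField_AK A K hq hA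
  exact comap_alpha_O1_eq_O2 M' q hπ hE hqM

/-- common restriction along `beta`, hypothesis form. -/
theorem comap_beta_O1_eq_O2_of_liesOver [FiniteDimensional ℚ K] (hq : q.Prime) (hqM : ¬ q ∣ M')
    (hA : A.LiesOverPrime q) :
    (O1 M' q hπ hE).comap (beta K M' q).toRingHom = (O2 M' q hπ hE).comap (beta K M' q).toRingHom := by
  haveI : Fact q.Prime := ⟨hq⟩
  haveI : IsDiscreteValuationRing ↥(AK A K) :=
    Fermat.Agent.RED.DESC.NumberFieldDVR27.isDiscreteValuationRing_AK A K hq.ne_zero hA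
  haveI : CharP (Res (AK A K)) q :=
    Fermat.Agent.RED.DESC.NumberFieldDVR27.charP_residueField_AK A K hq hA
  exact comap_beta_O1_eq_O2 M' q hπ hE hqM

end Concrete

end Fermat.Agent.ES.P36.GenBase17
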