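/-
Program P (S36), chapter (G) of NUM-P, brick G4 (helper11): **(G) at the MODEL-P data** (`ModelDefsP9`).

`R = A_K`, `F′ = FK (M' q) K`, `F″ = FK (M' q q) K`, `α₂ β₂ = alpha2/beta2`, `W1 W2 = O1q/O2q`, `V₁ = O1`, `V₃ = O3`,
`V₂ = O` any middle valuation ring with uniformiser `T`.  The facts which other bricks supply are packaged as five
small `Prop`-structures in the LITERAL shapes consumed here:

* `BaseFacts`  (GenBase17): `R`, `π`, restrictions of `W1 W2` to `K`, discreteness and uniformiser of `W1 W2`, incomparability;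
* `V1Facts`    (M2): `π` uniformiser of `V₁`, discreteness, the residually independent family along `β₂`;
* `V3Facts`    (M3): positions of `V₃`, `π` uniformiser, discreteness, the residually independent family along `α₂`;
* `MidUnif`    (M4/M6): position of `V₂`, `V₂ ≠ V₁`, `T` a uniformiser with `T^(q−1) ~ π`, discreteness;
* `KronFacts`  (KRON at level `q`, per `K`): residue degree one of `W1 | Ov` along `α`, of `W2 | Ov` along `β`, and the two
  Kronecker congruences in valuation form for a bijection `s₀` of `F_{M'}` preserving `Ov`.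

`tableG2_model : TableG2 …`, `genModel_model : GenModel …` and `exists_u_model` (= `GenModel.exists_u` at the model:
the output (U1) of chapter (G)).
-/
import Mathlib
import Fermat.Agent.ES.P36.ModelDefsP9
import Fermat.Agent.ES.P36.HeckeDeg19
import Fermat.Agent.ES.P36.GenTable11
import Fermat.Agent.ES.P36.FrobRoot11

set_option autoImplicit false
set_option linter.unusedSectionVars false
set_option linter.style.haveILetI false
set_option synthInstance.maxHeartbeats 400000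
set_option maxHeartbeats 4000000

noncomputable section

open HahnSeries ModularCurve AlgebraicCurve

namespace Fermat.Agent.ES.P36.GenInst11

open Fermat.Agent.RED.Interface4 Fermat.Agent.RED.PUR.GaussGen8 Fermat.Agent.RED.PUR.GaussBridge10
  Fermat.Agent.ES.N34 Fermat.Agent.ES.P36.ModelDefsP9
  Fermat.Agent.ES.P36.OrdVal20 Fermat.Agent.ES.P36.GenAbs20 Fermat.Agent.ES.P36.GenTable11

variable (A : ValuationSubring Qbar) (K : IntermediateField ℚ Qbar) (M' q : ℕ) [NeZero M'] [NeZero q]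
  {π : ↥(AK A K)}

/-- the Gauss valuation ring of the good level `M'`. -/
abbrev OvM (hπ : IsUnif (AK A K) π) : ValuationSubring ↥(FK M' K) :=
  gaussVS hπ (FK M' K) (FK_le_fracField A K M')

/-- `π` in `F′`. -/
abbrev pi1 (π : ↥(AK A K)) : ↥(FK (M' * q) K) := algebraMap ↥K ↥(FK (M' * q) K) (π : ↥K)

/-- `π` in `F″`. -/
abbrev pi2 (π : ↥(AK A K)) : ↥(FK (M' * q * q) K) := algebraMap ↥K ↥(FK (M' * q * q) K) (π : ↥K)

/-- **base facts** (level `q` only). -/
structure BaseFacts (hπ : IsUnif (AK A K) π) : Prop where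
  hπ0 : (π : ↥K) ≠ 0
  hπR : (AK A K).valuation (π : ↥K) < 1
  hqR : (AK A K).valuation ((q : ℕ) : ↥K) ≤ (AK A K).valuation (π : ↥K)
  discR : ∀ c : ↥K, c ≠ 0 → ∃ n : ℤ, HasOrd (AK A K) (π : ↥K) c n
  cK1 : (O1q M' q hπ).comap (algebraMap ↥K ↥(FK (M' * q) K)) = AK A K
  cK2 : (O2q M' q hπ).comap (algebraMap ↥K ↥(FK (M' * q) K)) = AK A K
  unifW1 : ∀ a : ↥(FK (M' * q) K), (O1q M' q hπ).valuation a < 1 →
    (O1q M' q hπ).valuation a ≤ (O1q M' q hπ).valuation (pi1 A K M' q π)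
  unifW2 : ∀ a : ↥(FK (M' * q) K), (O2q M' q hπ).valuation a < 1 →
    (O2q M' q hπ).valuation a ≤ (O2q M' q hπ).valuation (pi1 A K M' q π)
  discW1 : ∀ g : ↥(FK (M' * q) K), g ≠ 0 → ∃ n : ℤ, HasOrd (O1q M' q hπ) (pi1 A K M' q π) g n
  discW2 : ∀ g : ↥(FK (M' * q) K), g ≠ 0 → ∃ n : ℤ, HasOrd (O2q M' q hπ) (pi1 A K M' q π) g n
  hW12 : ¬ O1q M' q hπ ≤ O2q M' q hπ
  hW21 : ¬ O2q M' q hπ ≤ O1q M' q hπ

/-- **facts at `V₁ = O1`** (expansion at `∞`, level `M' q²`). -/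
structure V1Facts (hπ : IsUnif (AK A K) π) : Prop where
  unif : ∀ x : ↥(FK (M' * q * q) K), (O1 M' q hπ).valuation x < 1 →
    (O1 M' q hπ).valuation x ≤ (O1 M' q hπ).valuation (pi2 A K M' q π)
  disc : ∀ f : ↥(FK (M' * q * q) K), f ≠ 0 → ∃ n : ℤ, HasOrd (O1 M' q hπ) (pi2 A K M' q π) f n
  fam : ∃ b : Fin q → ↥(FK (M' * q * q) K), (∀ i, b i ∈ O1 M' q hπ) ∧
    ∀ a : Fin q → ↥(FK (M' * q) K), (∀ i, (O1q M' q hπ).valuation (a i) ≤ 1) →
      (O1 M' q hπ).valuation (∑ i, beta2 K M' q (a i) * b i) < 1 →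
      ∀ i, (O1q M' q hπ).valuation (a i) < 1

/-- **facts at `V₃ = O3`** (expansion at `0`, level `M' q²`). -/
structure V3Facts (hπ : IsUnif (AK A K) π) : Prop where
  cα : (O3 M' q hπ).comap (alpha2 K M' q).toRingHom = O2q M' q hπ
  cβ : (O3 M' q hπ).comap (beta2 K M' q).toRingHom = O2q M' q hπ
  unif : ∀ x : ↥(FK (M' * q * q) K), (O3 M' q hπ).valuation x < 1 →
    (O3 M' q hπ).valuation x ≤ (O3 M' q hπ).valuation (pi2 A K M' q π)
  disc : ∀ f : ↥(FK (M' * q * q) K), f ≠ 0 → ∃ n : ℤ, HasOrd (O3 M' q hπ) (pi2 A K M' q π) f n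
  fam : ∃ b : Fin q → ↥(FK (M' * q * q) K), (∀ i, b i ∈ O3 M' q hπ) ∧
    ∀ a : Fin q → ↥(FK (M' * q) K), (∀ i, (O2q M' q hπ).valuation (a i) ≤ 1) →
      (O3 M' q hπ).valuation (∑ i, alpha2 K M' q (a i) * b i) < 1 →
      ∀ i, (O2q M' q hπ).valuation (a i) < 1

/-- **the middle valuation ring with its uniformiser.** -/
structure MidUnif (hπ : IsUnif (AK A K) π) (O : ValuationSubring ↥(FK (M' * q * q) K))
    (T : ↥(FK (M' * q * q) K)) : Prop where
  pos : IsMidPos M' q hπ O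
  ne1 : O ≠ O1 M' q hπ
  hT0 : T ≠ 0
  hT1 : O.valuation T < 1
  hTπ : HasOrd O T (pi2 A K M' q π) ((q : ℤ) - 1)
  unif : ∀ x : ↥(FK (M' * q * q) K), O.valuation x < 1 → O.valuation x ≤ O.valuation T
  disc : ∀ f : ↥(FK (M' * q * q) K), f ≠ 0 → ∃ n : ℤ, HasOrd O T f n

/-- **Kronecker at level `q`, per `K`**, valuation form. -/
structure KronFacts (hπ : IsUnif (AK A K) π) : Prop where
  ca1 : (O1q M' q hπ).comap (ModelDefs9.alpha K M' q).toRingHom = OvM A K M' hπ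
  cb2 : (O2q M' q hπ).comap (ModelDefs9.beta K M' q).toRingHom = OvM A K M' hπ
  res1 : ∀ x ∈ O1q M' q hπ, ∃ z ∈ OvM A K M' hπ,
    (O1q M' q hπ).valuation (x - ModelDefs9.alpha K M' q z) < 1
  res2 : ∀ y ∈ O2q M' q hπ, ∃ z ∈ OvM A K M' hπ,
    (O2q M' q hπ).valuation (y - ModelDefs9.beta K M' q z) < 1
  kron : ∃ s₀ s₀' : ↥(FK M' K) → ↥(FK M' K),
    (∀ z ∈ OvM A K M' hπ, s₀ z ∈ OvM A K M' hπ) ∧ (∀ z ∈ OvM A K M' hπ, s₀' z ∈ OvM A K M' hπ) ∧
    (∀ z, s₀ (s₀' z) = z) ∧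
    (∀ z ∈ OvM A K M' hπ, (O1q M' q hπ).valuation
      (ModelDefs9.beta K M' q (s₀ z) - ModelDefs9.alpha K M' q z ^ q) < 1) ∧
    (∀ z ∈ OvM A K M' hπ, (O2q M' q hπ).valuation
      (ModelDefs9.alpha K M' q (s₀ z) - ModelDefs9.beta K M' q z ^ q) < 1)

variable {A K M' q}

/-- **the table (G2) at the model.** -/
theorem tableG2_model (hq : q.Prime) {hπ : IsUnif (AK A K) π}
    (B : BaseFacts A K M' q hπ) (X1 : V1Facts A K M' q hπ) (X3 : V3Facts A K M' q hπ)
    (Kr : KronFacts A K M' q hπ) {O : ValuationSubring ↥(FK (M' * q * q) K)}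
    {T : ↥(FK (M' * q * q) K)} (Mid : MidUnif A K M' q hπ O T) :
    TableG2 (AK A K) (π : ↥K) q (alpha2 K M' q) (beta2 K M' q) (O1q M' q hπ) (O2q M' q hπ)
      (O1 M' q hπ) O (O3 M' q hπ) T := by
  have hqN : q ∣ M' * q := dvd_mul_left q M'
  have finα : FiniteAlong (↥K) (alpha2 K M' q) :=
    HeckeDeg19.finiteAlong_alpha_of_dvd (↥K) (M' * q) q hq hqN
  have finβ : FiniteAlong (↥K) (beta2 K M' q) :=
    HeckeDeg19.finiteAlong_beta_of_dvd (↥K) (M' * q) q hq hqN
  have degα : finrankAlong (↥K) (alpha2 K M' q) = q :=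
    HeckeDeg19.finrankAlong_alpha_of_dvd (↥K) (M' * q) q hq hqN
  have degβ : finrankAlong (↥K) (beta2 K M' q) = q :=
    HeckeDeg19.finrankAlong_beta_of_dvd (↥K) (M' * q) q hq hqN
  have cα1 : (O1 M' q hπ).comap (alpha2 K M' q).toRingHom = O1q M' q hπ :=
    O1_comap_alpha2 M' q hπ
  have cβ1 : (O1 M' q hπ).comap (beta2 K M' q).toRingHom = O1q M' q hπ :=
    O1_comap_beta2 M' q hπ
  obtain ⟨k, hk⟩ := Nat.exists_eq_add_of_le' hq.two_le
  have hkZ : ((q : ℤ) - 1) = (k : ℤ) + 1 := by rw [hk]; push_cast; ring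
  have hπ1 : pi1 A K M' q π ≠ 0 := (map_ne_zero _).mpr B.hπ0
  have eα : (alpha2 K M' q).toRingHom (pi1 A K M' q π) = pi2 A K M' q π :=
    (alpha2 K M' q).commutes _
  have eβ : (beta2 K M' q).toRingHom (pi1 A K M' q π) = pi2 A K M' q π :=
    (beta2 K M' q).commutes _
  -- residue degree one of `V₁ | W1` along `α₂` and of `V₃ | W2` along `β₂`
  have resα1 : ∀ h ∈ O1 M' q hπ, ∃ x ∈ O1q M' q hπ,
      (O1 M' q hπ).valuation (h - (alpha2 K M' q).toRingHom x) < 1 := by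
    letI := algebraAlong (alpha2 K M' q)
    haveI : FiniteDimensional ↥(FK (M' * q) K) ↥(FK (M' * q * q) K) := finα
    have hdeg : Module.finrank ↥(FK (M' * q) K) ↥(FK (M' * q * q) K) = k + 2 := by
      rw [← hk]; exact degα
    have hTϖ : HasOrd O T (algebraMap ↥(FK (M' * q) K) ↥(FK (M' * q * q) K) (pi1 A K M' q π))
        ((k : ℤ) + 1) := by
      have e : algebraMap ↥(FK (M' * q) K) ↥(FK (M' * q * q) K) (pi1 A K M' q π) =
          pi2 A K M' q π := eα
      rw [e, ← hkZ]; exact Mid.hTπ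
    intro h h1
    exact ram_res_left (E := ↥(FK (M' * q) K)) (F := ↥(FK (M' * q * q) K)) hdeg cα1 Mid.pos.1
      Mid.ne1.symm Mid.hT0 Mid.hT1 hπ1 hTϖ B.unifW1 h1
  have resβ3 : ∀ h ∈ O3 M' q hπ, ∃ x ∈ O2q M' q hπ,
      (O3 M' q hπ).valuation (h - (beta2 K M' q).toRingHom x) < 1 := by
    letI := algebraAlong (beta2 K M' q)
    haveI : FiniteDimensional ↥(FK (M' * q) K) ↥(FK (M' * q * q) K) := finβ
    have hdeg : Module.finrank ↥(FK (M' * q) K) ↥(FK (M' * q * q) K) = k + 2 := by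
      rw [← hk]; exact degβ
    have hTϖ : HasOrd O T (algebraMap ↥(FK (M' * q) K) ↥(FK (M' * q * q) K) (pi1 A K M' q π))
        ((k : ℤ) + 1) := by
      have e : algebraMap ↥(FK (M' * q) K) ↥(FK (M' * q * q) K) (pi1 A K M' q π) =
          pi2 A K M' q π := eβ
      rw [e, ← hkZ]; exact Mid.hTπ
    have h32 : O3 M' q hπ ≠ O := by
      intro h
      apply B.hW21
      have h1 := X3.cα
      rw [h, Mid.pos.1] at h1
      rw [h1]
    intro h h3
    exact ram_res_left (E := ↥(FK (M' * q) K)) (F := ↥(FK (M' * q * q) K)) hdeg X3.cβ Mid.pos.2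
      h32 Mid.hT0 Mid.hT1 hπ1 hTϖ B.unifW2 h3
  obtain ⟨s₀, s₀', hs₀, hs₀', hinv, kron1, kron2⟩ := Kr.kron
  have hPQ1 : ∀ z, (alpha2 K M' q).toRingHom ((ModelDefs9.beta K M' q).toRingHom z) =
      (beta2 K M' q).toRingHom ((ModelDefs9.alpha K M' q).toRingHom z) :=
    fun z => alpha2_beta K M' q z
  have hPQ2 : ∀ z, (beta2 K M' q).toRingHom ((ModelDefs9.alpha K M' q).toRingHom z) =
      (alpha2 K M' q).toRingHom ((ModelDefs9.beta K M' q).toRingHom z) :=
    fun z => (alpha2_beta K M' q z).symm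
  exact
    { hq := hq
      hπ0 := B.hπ0
      hπR := B.hπR
      hqR := B.hqR
      discR := B.discR
      cK1 := B.cK1
      cK2 := B.cK2
      finα := finα
      finβ := finβ
      degα := degα
      degβ := degβ
      cα1 := cα1
      cα2 := Mid.pos.1
      cα3 := X3.cα
      cβ1 := cβ1
      cβ2 := Mid.pos.2
      cβ3 := X3.cβ
      h12 := Mid.ne1.symm
      hW12 := B.hW12
      hW21 := B.hW21
      hT0 := Mid.hT0
      hT1 := Mid.hT1
      hTπ := Mid.hTπ
      unifV1 := X1.unif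
      unifV2 := Mid.unif
      unifV3 := X3.unif
      discW1 := B.discW1
      discW2 := B.discW2
      discV1 := X1.disc
      discV2 := Mid.disc
      discV3 := X3.disc
      famα := X3.fam
      famβ := X1.fam
      frobα3 := FrobRoot11.frob_of_kron (p := (ModelDefs9.beta K M' q).toRingHom)
        (r := (ModelDefs9.alpha K M' q).toRingHom) (P := (beta2 K M' q).toRingHom)
        (Q := (alpha2 K M' q).toRingHom) hPQ2 X3.cβ Kr.cb2 resβ3 Kr.res2 s₀ hs₀ kron2
      rootα3 := FrobRoot11.root_of_kron (p := (ModelDefs9.beta K M' q).toRingHom)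
        (r := (ModelDefs9.alpha K M' q).toRingHom) (P := (beta2 K M' q).toRingHom)
        (Q := (alpha2 K M' q).toRingHom) hPQ2 X3.cβ X3.cα Kr.cb2 Kr.res2 s₀ s₀' hs₀' hinv kron2
      frobβ1 := FrobRoot11.frob_of_kron (p := (ModelDefs9.alpha K M' q).toRingHom)
        (r := (ModelDefs9.beta K M' q).toRingHom) (P := (alpha2 K M' q).toRingHom)
        (Q := (beta2 K M' q).toRingHom) hPQ1 cα1 Kr.ca1 resα1 Kr.res1 s₀ hs₀ kron1
      rootβ1 := FrobRoot11.root_of_kron (p := (ModelDefs9.alpha K M' q).toRingHom)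
        (r := (ModelDefs9.beta K M' q).toRingHom) (P := (alpha2 K M' q).toRingHom)
        (Q := (beta2 K M' q).toRingHom) hPQ1 cα1 cβ1 Kr.ca1 Kr.res1 s₀ s₀' hs₀' hinv kron1 }

/-- **`GenModel` at the model.** -/
theorem genModel_model (hq : q.Prime) {hπ : IsUnif (AK A K) π}
    (B : BaseFacts A K M' q hπ) (X1 : V1Facts A K M' q hπ) (X3 : V3Facts A K M' q hπ)
    (Kr : KronFacts A K M' q hπ) {O : ValuationSubring ↥(FK (M' * q * q) K)}
    {T : ↥(FK (M' * q * q) K)} (Mid : MidUnif A K M' q hπ O T) :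
    GenModel (AK A K) (π : ↥K) q (alpha2 K M' q).toRingHom (beta2 K M' q).toRingHom
      (normZ (alpha2 K M' q) (tableG2_model hq B X1 X3 Kr Mid).finα)
      (normZ (beta2 K M' q) (tableG2_model hq B X1 X3 Kr Mid).finβ)
      (O1q M' q hπ) (O2q M' q hπ) (O1 M' q hπ) O (O3 M' q hπ) T :=
  (tableG2_model hq B X1 X3 Kr Mid).genModel

end Fermat.Agent.ES.P36.GenInst11
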