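/-
Program P (S36), brick G4/base, adapter (helper17): **`GenInst11.BaseFacts` at the `ModelDefsP9` data** from `GenBase17`,
and the two `comap` fields `ca1`, `cb2` of `GenInst11.KronFacts`.  PER-`K`: no `∃ K₀`, no `[Normal ℚ K]`.
-/
import Mathlib
import Fermat.Agent.ES.P36.GenBase17
import Fermat.Agent.ES.P36.GenInst11

set_option autoImplicit false
set_option linter.unusedSectionVars false
set_option linter.style.haveILetI false
set_option synthInstance.maxHeartbeats 400000

noncomputable section

open HahnSeries ModularCurve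

namespace Fermat.Agent.ES.P36.GenBaseInst17

open Fermat.Agent.RED.Interface4 Fermat.Agent.RED.PUR.GaussGen8 Fermat.Agent.RED.PUR.GaussBridge10
  Fermat.Agent.ES.P36.ModelDefsP9 Fermat.Agent.ES.P36.GenInst11

variable {A : ValuationSubring Qbar} {K : IntermediateField ℚ Qbar} (M' q : ℕ) [NeZero M'] [NeZero q]
  {π : ↥(AK A K)} (hπ : IsUnif (AK A K) π)

/-- **`BaseFacts` at the model** (hypothesis form). -/
theorem baseFacts [FiniteDimensional ℚ K] (hq : q.Prime) (hA : A.LiesOverPrime q) :
    BaseFacts A K M' q hπ := by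
  have B := GenBase17.baseG_of_liesOver M' q hπ (FK_le_fracField A K (M' * q)) hq hA
  exact
    { hπ0 := B.hπ0
      hπR := B.hπR
      hqR := B.hqR
      discR := B.discR
      cK1 := B.cK1
      cK2 := B.cK2
      unifW1 := B.unifW1
      unifW2 := B.unifW2
      discW1 := B.discW1
      discW2 := B.discW2
      hW12 := B.hW12
      hW21 := B.hW21 }

/-- `KronFacts.ca1`. -/
theorem ca1 :
    (O1q M' q hπ).comap (Fermat.Agent.ES.N34.ModelDefs9.alpha K M' q).toRingHom = OvM A K M' hπ :=
  GenBase17.comap_alpha_O1 M' q hπ (FK_le_fracField A K (M' * q)) (FK_le_fracField A K M')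

/-- `KronFacts.cb2` (uses the level-`M'` isometry). -/
theorem cb2 [FiniteDimensional ℚ K] (hq : q.Prime) (hqM : ¬ q ∣ M') (hA : A.LiesOverPrime q) :
    (O2q M' q hπ).comap (Fermat.Agent.ES.N34.ModelDefs9.beta K M' q).toRingHom = OvM A K M' hπ := by
  haveI : Fact q.Prime := ⟨hq⟩
  haveI : IsDiscreteValuationRing ↥(AK A K) :=
    Fermat.Agent.RED.DESC.NumberFieldDVR27.isDiscreteValuationRing_AK A K hq.ne_zero hA
  haveI : CharP (Res (AK A K)) q :=
    Fermat.Agent.RED.DESC.NumberFieldDVR27.charP_residueField_AK A K hq hA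
  exact GenBase17.comap_beta_O2 M' q hπ (FK_le_fracField A K (M' * q)) hqM (FK_le_fracField A K M')

end Fermat.Agent.ES.P36.GenBaseInst17
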