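/-
Program P (S36), chapter (G) of NUM-P, brick G4-B (helper11): **the `β`-ramified branch `GenAlg20.GenModelB` from the
table (G2)**, abstractly and at the MODEL-P data, and the generic-point theorem `GenAlg20.exists_u_alg` at the model.

`GenModelB β Nβ W2 V₂ V₃ q` (helper20, `GenAlg20`) is the mirror of the fields `cα1 cα2 ramα resα1 resα2` of
`GenAbs20.GenModel`: the pair `V₃, V₂ | W2` along `β` with `(e, f) = (1, 1), (q − 1, 1)`.  All five fields follow from
the table `GenTable11.TableG2` (no new input): positions `cβ3 cβ2`, `V₃ ≠ V₂`, `T^(q−1) ~ π` at `V₂`, `π` a uniformiser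
of `W2` — through `GenTable11.ram_congr / ram_res_left / ram_res_right` (= `NormRam20` at `k + 2 = q`).

* `TableG2.genModelB` : `GenModelB β.toRingHom (normZ β _) W2 V₂ V₃ q`;
* `genModelB_model`   : the same at the model (`beta2`, `O2q`, `O`, `O3`);
* `exists_u_alg_model`: `GenAlg20.exists_u_alg` at the model — the output (U1) of chapter (G) over the SAME base field,
  exponent `q (q − 1) (q + 1)²`, hypotheses `perf` + `halg` and the two norm relations.
-/
import Mathlib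
import Fermat.Agent.ES.P36.GenAlg20
import Fermat.Agent.ES.P36.GenInst11

set_option autoImplicit false
set_option linter.unusedSectionVars false
set_option linter.style.haveILetI false
set_option synthInstance.maxHeartbeats 400000
set_option maxHeartbeats 4000000

noncomputable section

open HahnSeries ModularCurve AlgebraicCurve

namespace Fermat.Agent.ES.P36.GenInstB11

open Fermat.Agent.RED.Interface4 Fermat.Agent.RED.PUR.GaussGen8 Fermat.Agent.RED.PUR.GaussBridge10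
  Fermat.Agent.ES.N34 Fermat.Agent.ES.P36.ModelDefsP9
  Fermat.Agent.ES.P36.OrdVal20 Fermat.Agent.ES.P36.GenAbs20 Fermat.Agent.ES.P36.GenAlg20
  Fermat.Agent.ES.P36.GenTable11 Fermat.Agent.ES.P36.GenInst11

/-! ### Abstract: `GenModelB` from the table -/

section Abstract

variable {K F' F'' : Type*} [Field K] [Field F'] [Field F''] [Algebra K F'] [Algebra K F'']
  {R : ValuationSubring K} {π : K} {q : ℕ} {α β : F' →ₐ[K] F''}
  {W1 W2 : ValuationSubring F'} {V₁ V₂ V₃ : ValuationSubring F''} {T : F''}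

/-- **`GenModelB` from the table**: the ramified pair `V₃, V₂ | W2` along `β`. -/
theorem genModelB_of_table (H : TableG2 R π q α β W1 W2 V₁ V₂ V₃ T) :
    GenModelB β.toRingHom (normZ β H.finβ) W2 V₂ V₃ q := by
  obtain ⟨k, hk⟩ := Nat.exists_eq_add_of_le' H.hq.two_le
  have hk1 : q - 1 = k + 1 := by omega
  have hkZ : ((q : ℤ) - 1) = (k : ℤ) + 1 := by rw [hk]; push_cast; ring
  have hTπ' : HasOrd V₂ T (algebraMap K F'' π) ((k : ℤ) + 1) := hkZ ▸ H.hTπ
  letI := algebraAlong β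
  haveI : FiniteDimensional F' F'' := H.finβ
  have hdeg : Module.finrank F' F'' = k + 2 := by rw [← hk]; exact H.degβ
  have c1 : V₃.comap (algebraMap F' F'') = W2 := H.cβ3
  have c2 : V₂.comap (algebraMap F' F'') = W2 := H.cβ2
  have e : algebraMap F' F'' (algebraMap K F' π) = algebraMap K F'' π := H.βπ
  have hTϖ : HasOrd V₂ T (algebraMap F' F'' (algebraMap K F' π)) ((k : ℤ) + 1) := by
    rw [e]; exact hTπ'
  refine ⟨H.cβ2, H.cβ3, fun h x₃ x₂ h3 h2 hx₃ hx₂ hc3 hc2 => ?_, fun h h3 => ?_, fun h h2 => ?_⟩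
  · rw [hk1]
    exact ram_congr hdeg c1 c2 H.h32 H.hT0 H.hT1 H.hπ'0 hTϖ H.unifW2 h3 h2 hx₃ hx₂ hc3 hc2
  · exact ram_res_left hdeg c1 c2 H.h32 H.hT0 H.hT1 H.hπ'0 hTϖ H.unifW2 h3
  · exact ram_res_right hdeg c1 c2 H.h32 H.hT0 H.hT1 H.hπ'0 hTϖ H.unifW2 h2

end Abstract

/-! ### At the model -/

section Model

variable {A : ValuationSubring Qbar} {K : IntermediateField ℚ Qbar} {M' q : ℕ} [NeZero M'] [NeZero q]
  {π : ↥(AK A K)}

/-- **`GenModelB` at the model.** -/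
theorem genModelB_model (hq : q.Prime) {hπ : IsUnif (AK A K) π}
    (B : BaseFacts A K M' q hπ) (X1 : V1Facts A K M' q hπ) (X3 : V3Facts A K M' q hπ)
    (Kr : KronFacts A K M' q hπ) {O : ValuationSubring ↥(FK (M' * q * q) K)}
    {T : ↥(FK (M' * q * q) K)} (Mid : MidUnif A K M' q hπ O T) :
    GenModelB (beta2 K M' q).toRingHom
      (normZ (beta2 K M' q) (tableG2_model hq B X1 X3 Kr Mid).finβ)
      (O2q M' q hπ) O (O3 M' q hπ) q :=
  genModelB_of_table (tableG2_model hq B X1 X3 Kr Mid)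

/-- **(G) at the model, over the same base field** (`GenAlg20.exists_u_alg`): if the norms of `f ∈ F″ˣ` along `α₂`, `β₂`
are `c₁ g₁^m`, `c₂ g₂^m`, then `f^(q(q−1)(q+1)²) κ h^m = 1 + π c` with `c` integral at `O1`, `O`, `O3`. -/
theorem exists_u_alg_model (hq : q.Prime) {hπ : IsUnif (AK A K) π}
    (B : BaseFacts A K M' q hπ) (X1 : V1Facts A K M' q hπ) (X3 : V3Facts A K M' q hπ)
    (Kr : KronFacts A K M' q hπ) {O : ValuationSubring ↥(FK (M' * q * q) K)}
    {T : ↥(FK (M' * q * q) K)} (Mid : MidUnif A K M' q hπ O T) {m : ℕ} (hm : m ≠ 0)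
    (perf : ∀ r : ↥K, (AK A K).valuation r = 1 →
      ∃ r' : ↥K, (AK A K).valuation r' = 1 ∧ (AK A K).valuation (r' ^ q - r) < 1)
    (halg : ∀ (r : ↥K) (G : ↥(FK (M' * q) K)), (AK A K).valuation r = 1 →
      (O1q M' q hπ).valuation G = 1 →
      (O1q M' q hπ).valuation (G ^ m - algebraMap ↥K ↥(FK (M' * q) K) r) < 1 →
      ∃ d : ↥K, (AK A K).valuation d = 1 ∧ (AK A K).valuation (d ^ m - r) < 1)
    {f : ↥(FK (M' * q * q) K)} (hf : f ≠ 0) {c₁ c₂ : ↥K} (hc₁ : c₁ ≠ 0) (hc₂ : c₂ ≠ 0)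
    {g₁ g₂ : ↥(FK (M' * q) K)} (hg₁ : g₁ ≠ 0) (hg₂ : g₂ ≠ 0)
    (hα : normZ (alpha2 K M' q) (tableG2_model hq B X1 X3 Kr Mid).finα f =
      algebraMap ↥K ↥(FK (M' * q) K) c₁ * g₁ ^ m)
    (hβ : normZ (beta2 K M' q) (tableG2_model hq B X1 X3 Kr Mid).finβ f =
      algebraMap ↥K ↥(FK (M' * q) K) c₂ * g₂ ^ m) :
    ∃ (κ : ↥K) (h : ↥(FK (M' * q * q) K)), κ ≠ 0 ∧ h ≠ 0 ∧
      ∃ c : ↥(FK (M' * q * q) K), c ∈ O1 M' q hπ ∧ c ∈ O ∧ c ∈ O3 M' q hπ ∧
        f ^ (q * (q - 1) * (q + 1) ^ 2) * algebraMap ↥K ↥(FK (M' * q * q) K) κ * h ^ m =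
          1 + pi2 A K M' q π * c :=
  exists_u_alg (genModel_model hq B X1 X3 Kr Mid) (genModelB_model hq B X1 X3 Kr Mid) hm perf halg
    hf hc₁ hc₂ hg₁ hg₂ hα hβ

end Model

end Fermat.Agent.ES.P36.GenInstB11
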