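/-
Program P (S36), brick G3-roots (helper20): **constants become `m`-th powers after adjoining roots of unity
of order prime to the residue characteristic** — the hypothesis `hroots` of `GenAbs20.GenModel.exists_u`,
and `perfS`, in the `R.valuation` form.  Mathlib only.

* `exists_root_of_primitiveRoot` : `R` a valuation subring of `K`, `ζ ∈ K` a primitive `N`-th root of unity,
  `N` a unit of `R`, `m * Q₁ ∣ N`; `r` a unit of `R` with `r ^ Q₁ ≡ 1 mod 𝔪_R` (e.g. `r` in a subfield whose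
  residue field has `Q₁ + 1` elements).  Then `r ≡ d ^ m mod 𝔪_R` for some unit `d` (a power of `ζ`).
* `exists_frobenius_root` : finite residue field of characteristic `q` ⇒ `q`-th roots modulo `𝔪_R`.
-/
import Mathlib

set_option autoImplicit false

namespace Fermat.Agent.ES.P36.RootsUnr20

open Polynomial

variable {K : Type*} [Field K] (R : ValuationSubring K)

theorem val_eq_one_of_pow_eq_one' {x : K} {m : ℕ} (hm : m ≠ 0) (h : R.valuation x ^ m = 1) :
    R.valuation x = 1 := by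
  rcases lt_trichotomy (R.valuation x) 1 with hlt | heq | hgt
  · have := pow_lt_one₀ zero_le hlt hm
    rw [h] at this
    exact absurd this (lt_irrefl _)
  · exact heq
  · have := one_lt_pow₀ hgt hm
    rw [h] at this
    exact absurd this (lt_irrefl _)

/-- `a ^ n ≡ 1` from `a ≡ 1`-type congruences: `a ^ c ≡ b ^ c` from `a ≡ b` (integral elements). -/
theorem val_pow_sub_pow_lt' {a b : K} (ha : R.valuation a ≤ 1) (hb : R.valuation b ≤ 1)
    (hab : R.valuation (a - b) < 1) (n : ℕ) : R.valuation (a ^ n - b ^ n) < 1 := by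
  obtain ⟨c, hc⟩ := sub_dvd_pow_sub_pow (⟨a, (R.valuation_le_one_iff a).mp ha⟩ : ↥R)
    ⟨b, (R.valuation_le_one_iff b).mp hb⟩ n
  have hc' : a ^ n - b ^ n = (a - b) * (c : K) := by
    have := congrArg (Subtype.val : ↥R → K) hc
    simpa using this
  rw [hc', map_mul]
  exact (mul_le_of_le_one_right' ((R.valuation_le_one_iff _).mpr c.2)).trans_lt hab

/-- a product of integral elements lying in `𝔪_R` has a factor in `𝔪_R`. -/
theorem exists_val_lt_one_of_prod {ι : Type*} (s : Finset ι) (f : ι → K)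
    (hf : ∀ i ∈ s, R.valuation (f i) ≤ 1) (h : R.valuation (∏ i ∈ s, f i) < 1) :
    ∃ i ∈ s, R.valuation (f i) < 1 := by
  by_contra hcon
  push Not at hcon
  have h1 : ∀ i ∈ s, R.valuation (f i) = 1 := fun i hi => le_antisymm (hf i hi) (hcon i hi)
  rw [map_prod, Finset.prod_congr rfl h1, Finset.prod_const_one] at h
  exact lt_irrefl _ h

variable {R}

/-- a primitive `N`-th root of unity with `N ∈ R^×` stays of exact order `N` modulo `𝔪_R`. -/
theorem dvd_of_val_pow_sub_one_lt {N : ℕ} {ζ : K} (hζ : IsPrimitiveRoot ζ N)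
    (hN : R.valuation (N : K) = 1) {j : ℕ} (hj : R.valuation (ζ ^ j - 1) < 1) : N ∣ j := by
  have hN0 : N ≠ 0 := by
    rintro rfl
    rw [Nat.cast_zero, map_zero] at hN
    exact zero_ne_one hN
  have hζ1 : R.valuation ζ = 1 :=
    val_eq_one_of_pow_eq_one' R hN0 (by rw [← map_pow, hζ.pow_eq_one, map_one])
  by_contra hdvd
  obtain ⟨n, rfl⟩ : ∃ n, N = n + 1 := ⟨N - 1, by omega⟩
  have hmod : ζ ^ j = ζ ^ (j % (n + 1)) := by
    conv_lhs => rw [← Nat.div_add_mod j (n + 1), pow_add, pow_mul, hζ.pow_eq_one, one_pow, one_mul]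
  have hj' : 0 < j % (n + 1) := Nat.pos_of_ne_zero fun h0 => hdvd (Nat.dvd_of_mod_eq_zero h0)
  have hlt : j % (n + 1) < n + 1 := Nat.mod_lt _ (Nat.succ_pos n)
  have hprod := hζ.prod_one_sub_pow_eq_order
  have hmem : j % (n + 1) - 1 ∈ Finset.range n := by
    rw [Finset.mem_range]; omega
  have hfac : R.valuation (1 - ζ ^ (j % (n + 1) - 1 + 1)) < 1 := by
    have e : j % (n + 1) - 1 + 1 = j % (n + 1) := by omega
    rw [e, ← hmod, ← Valuation.map_neg, neg_sub]
    exact hj
  have hle : ∀ k ∈ Finset.range n, R.valuation (1 - ζ ^ (k + 1)) ≤ 1 := fun k _ =>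
    (Valuation.map_sub _ _ _).trans (max_le (by rw [map_one]) (by rw [map_pow, hζ1, one_pow]))
  have hval : R.valuation (∏ k ∈ Finset.range n, (1 - ζ ^ (k + 1))) < 1 := by
    rw [← Finset.mul_prod_erase _ _ hmem, map_mul]
    refine (mul_le_of_le_one_right' ?_).trans_lt hfac
    rw [map_prod]
    exact Finset.prod_le_one' fun k hk => hle k (Finset.mem_of_mem_erase hk)
  rw [hprod] at hval
  have : R.valuation (((n + 1 : ℕ) : K)) = R.valuation ((n : K) + 1) := by push_cast; rfl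
  rw [this] at hN
  rw [hN] at hval
  exact lt_irrefl _ hval

/-- **constants become `m`-th powers**: see the file header. -/
theorem exists_root_of_primitiveRoot {N m Q₁ : ℕ} {ζ : K} (hζ : IsPrimitiveRoot ζ N)
    (hN : R.valuation (N : K) = 1) (hdiv : m * Q₁ ∣ N) (hQ₁ : 0 < Q₁)
    {r : K} (hr : R.valuation r = 1) (hrQ : R.valuation (r ^ Q₁ - 1) < 1) :
    ∃ d : K, R.valuation d = 1 ∧ R.valuation (d ^ m - r) < 1 := by
  have hN0 : N ≠ 0 := by
    rintro rfl
    rw [Nat.cast_zero, map_zero] at hN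
    exact zero_ne_one hN
  have hζ1 : R.valuation ζ = 1 :=
    val_eq_one_of_pow_eq_one' R hN0 (by rw [← map_pow, hζ.pow_eq_one, map_one])
  obtain ⟨c, hc⟩ := hdiv
  -- `r ^ N ≡ 1`
  have hrN : R.valuation (r ^ N - 1) < 1 := by
    have e : r ^ N - 1 = (r ^ Q₁) ^ (m * c) - 1 ^ (m * c) := by
      rw [one_pow, ← pow_mul, hc]; congr 2; ring
    rw [e]
    exact val_pow_sub_pow_lt' R (by rw [map_pow, hr, one_pow]) (by rw [map_one]) hrQ _
  -- `r ^ N - 1 = ∏ (r - ζ ^ i)`
  have hprod : r ^ N - 1 = ∏ i ∈ Finset.range N, (r - ζ ^ i) := by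
    have h := X_pow_sub_C_eq_prod hζ (Nat.pos_of_ne_zero hN0) (one_pow N)
    have := congrArg (Polynomial.eval r) h
    simpa [eval_prod] using this
  rw [hprod] at hrN
  obtain ⟨i, -, hi⟩ := exists_val_lt_one_of_prod R _ _ (fun i _ =>
    (Valuation.map_sub _ _ _).trans (max_le hr.le (by rw [map_pow, hζ1, one_pow]))) hrN
  -- `ζ ^ (i Q₁) ≡ 1`
  have hiQ : R.valuation (ζ ^ (i * Q₁) - 1) < 1 := by
    have e : ζ ^ (i * Q₁) - 1 = -((r ^ Q₁ - (ζ ^ i) ^ Q₁) - (r ^ Q₁ - 1)) := by
      rw [pow_mul]; ring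
    rw [e, Valuation.map_neg]
    refine Valuation.map_sub_lt _ ?_ hrQ
    exact val_pow_sub_pow_lt' R hr.le (by rw [map_pow, hζ1, one_pow]) hi _
  have hdvd := dvd_of_val_pow_sub_one_lt hζ hN hiQ
  -- `m ∣ i`
  have hmi : m ∣ i := by
    rw [hc] at hdvd
    have h1 : m * c * Q₁ ∣ i * Q₁ := by
      have : m * Q₁ * c = m * c * Q₁ := by ring
      rwa [this] at hdvd
    have h2 := Nat.dvd_of_mul_dvd_mul_right hQ₁ h1
    exact Dvd.dvd.trans (Dvd.intro c rfl) h2
  obtain ⟨i', rfl⟩ := hmi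
  refine ⟨ζ ^ i', by rw [map_pow, hζ1, one_pow], ?_⟩
  rw [← pow_mul, mul_comm i' m, ← Valuation.map_neg, neg_sub]
  exact hi

/-- **`q`-th roots modulo `𝔪_R`** when the residue field is finite of characteristic `q`. -/
theorem exists_frobenius_root (q : ℕ) [Fact q.Prime] [Finite (IsLocalRing.ResidueField ↥R)]
    [CharP (IsLocalRing.ResidueField ↥R) q] {r : K} (hr : R.valuation r ≤ 1) :
    ∃ r' : K, R.valuation r' ≤ 1 ∧ R.valuation (r' ^ q - r) < 1 := by
  have hsurj : Function.Surjective (frobenius (IsLocalRing.ResidueField ↥R) q) :=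
    (Finite.injective_iff_surjective).mp (frobenius_inj _ q)
  obtain ⟨y, hy⟩ := hsurj (IsLocalRing.residue ↥R ⟨r, (R.valuation_le_one_iff r).mp hr⟩)
  obtain ⟨r', rfl⟩ := IsLocalRing.residue_surjective y
  refine ⟨(r' : K), (R.valuation_le_one_iff _).mpr r'.2, ?_⟩
  have hmem : r' ^ q - ⟨r, (R.valuation_le_one_iff r).mp hr⟩ ∈ IsLocalRing.maximalIdeal ↥R := by
    rw [← IsLocalRing.residue_eq_zero_iff, map_sub, map_pow, sub_eq_zero]
    exact hy
  have := (R.valuation_lt_one_iff _).mp hmem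
  simpa using this

end Fermat.Agent.ES.P36.RootsUnr20
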