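/-
Program P (S36), chapter (G) of NUM-P, brick G5-supp (helper20): **the two constant-field hypotheses of
`GenAlg20.exists_u_alg` at the model** (`GenInstB11.exists_u_alg_model`).

* `perf_of_finite` / `perf_AK` : the residue field of `R = A ∩ K` is finite of characteristic `q`,
  hence perfect: every unit of `R` is a `q`-th power modulo `𝔪_R`  (hypothesis `perf`).
* `halg_of_pullback` / `halg_O1q` : for a Gauss pull-back `V` (e.g. `O1q`, the expansion at `∞` at
  level `M′ q`), a unit constant which is an `m`-th power in the residue field of `V` is an `m`-th power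
  in the residue field of `R`, `q ∤ m`  (hypothesis `halg`; `ConstRes21.exists_const_of_pow'`).
-/
import Mathlib
import Fermat.Agent.RED.DESC.NumberFieldDVR27
import Fermat.Agent.ES.P36.RootsUnr20
import Fermat.Agent.ES.P36.ConstRes21
import Fermat.Agent.ES.P36.ModelDefsP9
import Fermat.Agent.ES.P36.GenAlg20

set_option autoImplicit false
set_option linter.unusedSectionVars false
set_option synthInstance.maxHeartbeats 400000

noncomputable section

namespace Fermat.Agent.ES.P36.GenSupp20

open Fermat.Agent.ES.P36.OrdVal20 Fermat.Agent.ES.P36.GenAbs20 Fermat.Agent.ES.P36.GenAlg20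
open Fermat.Agent.RED.PUR.GaussGen8 Fermat.Agent.ES.N34.GaussEmb22

/-! ### `perf` -/

section Perf

variable {K : Type*} [Field K] (R : ValuationSubring K)

/-- **`perf`** from a finite residue field of characteristic `q`. -/
theorem perf_of_finite (q : ℕ) [Fact q.Prime] [Finite (IsLocalRing.ResidueField ↥R)]
    [CharP (IsLocalRing.ResidueField ↥R) q] :
    ∀ r : K, R.valuation r = 1 →
      ∃ r' : K, R.valuation r' = 1 ∧ R.valuation (r' ^ q - r) < 1 := by
  intro r hr
  obtain ⟨r', -, hr'⟩ := RootsUnr20.exists_frobenius_root (R := R) q hr.le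
  refine ⟨r', ?_, hr'⟩
  have h1 : R.valuation (r' ^ q) = 1 := val_eq_one_of_cong R hr hr'
  rw [map_pow] at h1
  exact val_eq_one_of_pow_eq_one R (Fact.out : q.Prime).ne_zero h1

end Perf

/-! ### `halg` -/

section Halg

variable {K : Type*} [Field K] {O : ValuationSubring K} [IsDiscreteValuationRing ↥O]
  {F : Type*} [Field F] [Algebra K F] {ι : F →ₐ[K] LaurentSeries K} {V : ValuationSubring F}

/-- **`halg`** for a Gauss pull-back: `G^m ≡ r mod 𝔪_V` (`r` a unit of `O`, `G` a unit of `V`, `m`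
invertible in the residue field) ⇒ `r ≡ d^m mod 𝔪_O` for a unit `d` of `O`. -/
theorem halg_of_pullback (hV : IsGaussPullback O ι V) (m : ℕ) (hm : (m : Res O) ≠ 0) :
    ∀ (r : K) (G : F), O.valuation r = 1 → V.valuation G = 1 →
      V.valuation (G ^ m - algebraMap K F r) < 1 →
      ∃ d : K, O.valuation d = 1 ∧ O.valuation (d ^ m - r) < 1 := by
  intro r G hr hG h
  have hrO : r ∈ O := (O.valuation_le_one_iff r).mp hr.le
  have hκ : IsUnit (⟨r, hrO⟩ : ↥O) := (O.valuation_eq_one_iff ⟨r, hrO⟩).mpr hr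
  obtain ⟨γ, hγ, hGγ⟩ := ConstRes21.exists_const_of_pow' hV m hm
    ((V.valuation_le_one_iff _).mp hG.le) hκ h
  have hγ1 : O.valuation (γ : K) = 1 := (O.valuation_eq_one_iff γ).mp hγ
  refine ⟨(γ : K), hγ1, ?_⟩
  have hAγ : V.valuation (algebraMap K F (γ : K)) ≤ 1 :=
    (V.valuation_le_one_iff _).mpr (algebraMap_mem hV γ)
  have h1 : V.valuation (algebraMap K F ((γ : K) ^ m - r)) < 1 := by
    rw [map_sub, map_pow]
    exact cong_trans V (cong_pow V hAγ hG.le (cong_symm V hGγ) m) h
  by_contra hcon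
  have hmem : (γ : K) ^ m - r ∈ O := O.sub_mem (O.pow_mem γ.2 m) hrO
  have hle : O.valuation ((γ : K) ^ m - r) ≤ 1 := (O.valuation_le_one_iff _).mpr hmem
  have heq : O.valuation ((γ : K) ^ m - r) = 1 := le_antisymm hle (not_lt.mp hcon)
  have hne : (γ : K) ^ m - r ≠ 0 := ne_zero_of_val_eq_one O heq
  have hinv : ((γ : K) ^ m - r)⁻¹ ∈ O :=
    (O.valuation_le_one_iff _).mp (by rw [map_inv₀, heq, inv_one])
  have hV1 : V.valuation (algebraMap K F (((γ : K) ^ m - r)⁻¹)) ≤ 1 :=
    (V.valuation_le_one_iff _).mpr (algebraMap_mem hV ⟨_, hinv⟩)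
  rw [map_inv₀, map_inv₀] at hV1
  have hpos : 0 < V.valuation (algebraMap K F ((γ : K) ^ m - r)) :=
    zero_lt_iff.mpr ((Valuation.ne_zero_iff _).mpr ((map_ne_zero _).mpr hne))
  exact absurd h1 (not_lt.mpr ((inv_le_one₀ hpos).mp hV1))

end Halg

/-! ### At the model -/

section Model

open Fermat.Agent.RED.Interface4 Fermat.Agent.RED.DESC.NumberFieldDVR27
  Fermat.Agent.RED.PUR.GaussBridge10 Fermat.Agent.ES.N34.ModelGlue22 Fermat.Agent.ES.P36.ModelDefsP9

variable (A : ValuationSubring Qbar) (K : IntermediateField ℚ Qbar)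

/-- **`perf` at `R = A ∩ K`**, `K` a number field, `A` over `q`. -/
theorem perf_AK [FiniteDimensional ℚ K] {q : ℕ} (hq : q.Prime) (hA : A.LiesOverPrime q) :
    ∀ r : ↥K, (AK A K).valuation r = 1 →
      ∃ r' : ↥K, (AK A K).valuation r' = 1 ∧ (AK A K).valuation (r' ^ q - r) < 1 := by
  have : Fact q.Prime := ⟨hq⟩
  have := finite_residueField_AK A K hq.ne_zero hA
  have := charP_residueField_AK A K hq hA
  exact perf_of_finite (AK A K) q

variable {A K}

/-- **`halg` at `W1 = O1q`** (level `M′ q`, expansion at `∞`), in the literal shape of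
`GenInstB11.exists_u_alg_model`. -/
theorem halg_O1q (M' q : ℕ) [NeZero M'] [NeZero q] [IsDiscreteValuationRing ↥(AK A K)]
    [CharP (Res (AK A K)) q] {π : ↥(AK A K)} (hq : q.Prime) (hπ : IsUnif (AK A K) π) {m : ℕ}
    (hm : ¬ q ∣ m) :
    ∀ (r : ↥K) (G : ↥(FK (M' * q) K)), (AK A K).valuation r = 1 →
      (O1q M' q hπ).valuation G = 1 →
      (O1q M' q hπ).valuation (G ^ m - algebraMap ↥K ↥(FK (M' * q) K) r) < 1 →
      ∃ d : ↥K, (AK A K).valuation d = 1 ∧ (AK A K).valuation (d ^ m - r) < 1 :=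
  halg_of_pullback (isGaussPullback_O1 M' q hπ (FK_le_fracField A K (M' * q))) m
    (ConstRes21.natCast_res_ne_zero q hq hm)

/-- the same with the instances discharged: `K` a number field, `A` over `q`. -/
theorem halg_O1q_of_liesOver (M' q : ℕ) [NeZero M'] [NeZero q] [FiniteDimensional ℚ K]
    (hq : q.Prime) (hA : A.LiesOverPrime q) {π : ↥(AK A K)} (hπ : IsUnif (AK A K) π) {m : ℕ}
    (hm : ¬ q ∣ m) :
    ∀ (r : ↥K) (G : ↥(FK (M' * q) K)), (AK A K).valuation r = 1 →
      (O1q M' q hπ).valuation G = 1 →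
      (O1q M' q hπ).valuation (G ^ m - algebraMap ↥K ↥(FK (M' * q) K) r) < 1 →
      ∃ d : ↥K, (AK A K).valuation d = 1 ∧ (AK A K).valuation (d ^ m - r) < 1 := by
  have := isDiscreteValuationRing_AK A K hq.ne_zero hA
  have : CharP (Res (AK A K)) q := charP_residueField_AK A K hq hA
  exact halg_O1q M' q hq hπ hm

end Model

end Fermat.Agent.ES.P36.GenSupp20
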