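/-
Program P (S36), chapter (G) of NUM-P, brick G-asm (helper20): **the package `NumCoreP13.GenItemsP` of C2
(and `NumCoreP13.ApproxItemsP`) from the model-side suppliers of chapter (G).**

`GenFactsP A K M' q` bundles, for every uniformiser `π` of `A_K`, the five supplier structures of
`GenInst11` (`BaseFacts`, `V1Facts`, `V3Facts`, `KronFacts`, and `MidUnif` for every middle valuation
ring).  Then

* `genItemsP_of`    : `GenItemsP q M' A K (q (q − 1) (q + 1)²) m` for `q ∤ m`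
  (= `GenInstB11.exists_u_alg_model` + `GenSupp20.perf_AK` + `GenSupp20.halg_O1q_of_liesOver`,
  rewritten in `MultiCore13.PiOM` form);
* `approxItemsP_of` : `ApproxItemsP q M' A K` (pairwise incomparability, `v(q) ≥ v(π)`, `q v(x) ≥ v(π)`).
-/
import Mathlib
import Fermat.Agent.ES.P36.GenInstB11
import Fermat.Agent.ES.P36.GenSupp20
import Fermat.Agent.ES.P36.NumCoreP13

set_option autoImplicit false
set_option linter.unusedSectionVars false
set_option synthInstance.maxHeartbeats 400000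
set_option maxHeartbeats 4000000

noncomputable section

open HahnSeries ModularCurve AlgebraicCurve

namespace Fermat.Agent.ES.P36.GenItems20

open Fermat.Agent.RED.Interface4 Fermat.Agent.RED.PUR.GaussGen8 Fermat.Agent.RED.PUR.GaussBridge10
  Fermat.Agent.ES.N34 Fermat.Agent.ES.P36.ModelDefsP9 Fermat.Agent.ES.P36.MultiCore13
  Fermat.Agent.ES.P36.OrdVal20 Fermat.Agent.ES.P36.Approx3v9 Fermat.Agent.ES.P36.GenAbs20
  Fermat.Agent.ES.P36.GenAlg20 Fermat.Agent.ES.P36.GenTable11 Fermat.Agent.ES.P36.GenInst11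
  Fermat.Agent.ES.P36.GenInstB11 Fermat.Agent.ES.P36.GenSupp20 Fermat.Agent.ES.P36.NumCoreP13
open Fermat.Agent.ES.HECKE.BaseChange19 (normAlong)

/-! ### Abstract: the approximation facts of a `GenModel` -/

section Abstract

variable {K F' F'' : Type*} [Field K] [Field F'] [Field F''] [Algebra K F'] [Algebra K F'']
  {R : ValuationSubring K} {π : K} {q : ℕ} {α β : F' →+* F''} {Nα Nβ : F'' →*₀ F'}
  {W1 W2 : ValuationSubring F'} {V₁ V₂ V₃ : ValuationSubring F''} {T : F''}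

/-- `v(q) ≥ v(π)` and `q · v(x) ≥ v(π)` for `v(x) > 0`, at each of the three rings of a `GenModel`. -/
theorem approx_of_genModel (M : GenModel R π q α β Nα Nβ W1 W2 V₁ V₂ V₃ T) :
    ∀ V : ValuationSubring F'', (V = V₁ ∨ V = V₂ ∨ V = V₃) →
      V.valuation ((q : ℕ) : F'') ≤ V.valuation (algebraMap K F'' π) ∧
        ∀ x : F'', V.valuation x < 1 → V.valuation x ^ q ≤ V.valuation (algebraMap K F'' π) := by
  have hqπ : ∀ V : ValuationSubring F'', V.comap (algebraMap K F'') = R →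
      V.valuation ((q : ℕ) : F'') ≤ V.valuation (algebraMap K F'' π) := fun V hV => by
    have := val_map_le_of_le hV M.hπ0 M.hqR
    rwa [map_natCast] at this
  have hπ''le : ∀ V : ValuationSubring F'', V.comap (algebraMap K F'') = R →
      V.valuation (algebraMap K F'' π) ≤ 1 := fun V hV => (val_map_lt_one hV M.hπR).le
  have hq1 : 1 ≤ q := M.hq.one_lt.le
  rintro V (rfl | rfl | rfl)
  · refine ⟨hqπ _ M.cK''1, fun x hx => ?_⟩
    refine (pow_le_pow_left₀ zero_le (M.unifV1 _ hx) q).trans ?_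
    exact pow_le_of_le_one zero_le (hπ''le _ M.cK''1) M.hq.ne_zero
  · refine ⟨hqπ _ M.cK''2, fun x hx => ?_⟩
    refine (pow_le_pow_left₀ zero_le (M.unifV2 _ hx) q).trans ?_
    have hTπ := M.hTπ
    unfold HasOrd at hTπ
    have hcast : ((q : ℤ) - 1) = ((q - 1 : ℕ) : ℤ) := by
      rw [Nat.cast_sub hq1, Nat.cast_one]
    rw [hTπ, hcast, zpow_natCast]
    have hqq : q = (q - 1) + 1 := by omega
    conv_lhs => rw [hqq, pow_succ]
    exact mul_le_of_le_one_right' M.hT1.le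
  · refine ⟨hqπ _ M.cK''3, fun x hx => ?_⟩
    refine (pow_le_pow_left₀ zero_le (M.unifV3 _ hx) q).trans ?_
    exact pow_le_of_le_one zero_le (hπ''le _ M.cK''3) M.hq.ne_zero

end Abstract

/-! ### At the model -/

section Model

variable (A : ValuationSubring Qbar) (K : IntermediateField ℚ Qbar) (M' q : ℕ) [NeZero M'] [NeZero q]

/-- **the model-side suppliers of chapter (G) at `K`**: the five supplier structures of `GenInst11`
for every uniformiser `π` of `A_K` (and every middle valuation ring). -/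
structure GenFactsP : Prop where
  base : ∀ (π : ↥(AK A K)) (hπ : IsUnif (AK A K) π), BaseFacts A K M' q hπ
  v1 : ∀ (π : ↥(AK A K)) (hπ : IsUnif (AK A K) π), V1Facts A K M' q hπ
  v3 : ∀ (π : ↥(AK A K)) (hπ : IsUnif (AK A K) π), V3Facts A K M' q hπ
  kron : ∀ (π : ↥(AK A K)) (hπ : IsUnif (AK A K) π), KronFacts A K M' q hπ
  mid : ∀ (π : ↥(AK A K)) (hπ : IsUnif (AK A K) π)
    (O2 : ValuationSubring ↥(FK (M' * q * q) K)), IsMid M' q hπ O2 →
    ∃ T : ↥(FK (M' * q * q) K), MidUnif A K M' q hπ O2 T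

variable {A K M' q}

/-- membership in the three rings, as a statement on the family `Ofam`. -/
theorem forall_mem_Ofam {π : ↥(AK A K)} (hπ : IsUnif (AK A K) π)
    (O2 : ValuationSubring ↥(FK (M' * q * q) K)) {c : ↥(FK (M' * q * q) K)}
    (h1 : c ∈ O1 M' q hπ) (h2 : c ∈ O2) (h3 : c ∈ O3 M' q hπ) :
    ∀ i, c ∈ Ofam M' q hπ O2 i := by
  intro i
  fin_cases i
  · exact h1
  · exact h2
  · exact h3

/-- **`GenItemsP` from the suppliers**, `c₀ = q (q − 1) (q + 1)²`. -/
theorem genItemsP_of [FiniteDimensional ℚ K] (hq : q.Prime) (hA : A.LiesOverPrime q)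
    (G : GenFactsP A K M' q) {m : ℕ} (hm : ¬ q ∣ m) :
    GenItemsP q M' A K (q * (q - 1) * (q + 1) ^ 2) m := by
  intro π hπ O2 hO2 f hf
  obtain ⟨hf0, -, ⟨c₁, g₁, hc₁, hg₁, hα⟩, ⟨c₂, g₂, hc₂, hg₂, hβ⟩⟩ := hf
  obtain ⟨T, Mid⟩ := G.mid π hπ O2 hO2
  have hm0 : m ≠ 0 := fun h0 => hm (h0 ▸ dvd_zero q)
  have hα' : normZ (alpha2 K M' q)
      (tableG2_model hq (G.base π hπ) (G.v1 π hπ) (G.v3 π hπ) (G.kron π hπ) Mid).finα f =
      algebraMap ↥K ↥(FK (M' * q) K) c₁ * g₁ ^ m := by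
    rw [← Algebra.smul_def]; exact hα
  have hβ' : normZ (beta2 K M' q)
      (tableG2_model hq (G.base π hπ) (G.v1 π hπ) (G.v3 π hπ) (G.kron π hπ) Mid).finβ f =
      algebraMap ↥K ↥(FK (M' * q) K) c₂ * g₂ ^ m := by
    rw [← Algebra.smul_def]; exact hβ
  obtain ⟨κ, h, hκ, hh, c, hc1, hc2, hc3, hu⟩ :=
    exists_u_alg_model hq (G.base π hπ) (G.v1 π hπ) (G.v3 π hπ) (G.kron π hπ) Mid hm0
      (perf_AK A K hq hA) (halg_O1q_of_liesOver M' q hq hA hπ hm) hf0 hc₁ hc₂ hg₁ hg₂ hα' hβ'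
  refine ⟨κ, h, hκ, hh, c, forall_mem_Ofam hπ O2 hc1 hc2 hc3, ?_⟩
  rw [hu, add_sub_cancel_left]
  rfl

/-- **`ApproxItemsP` from the suppliers.** -/
theorem approxItemsP_of (hq : q.Prime) (G : GenFactsP A K M' q) : ApproxItemsP q M' A K := by
  intro π hπ O2 hO2
  obtain ⟨T, Mid⟩ := G.mid π hπ O2 hO2
  have M := genModel_model hq (G.base π hπ) (G.v1 π hπ) (G.v3 π hπ) (G.kron π hπ) Mid
  have h := approx_of_genModel M
  refine ⟨M.inc, ?_⟩
  intro V hV
  exact h V hV

end Model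

end Fermat.Agent.ES.P36.GenItems20
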