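/-
Program P (S36), chapter INERT-P, ψ-twin block part 2 (helper19; brick from helper27 #13040, ruling p13):
**the Frobenius side of the Kronecker congruences over an INERTIAL number field** — twin of
`ES/N35/KronMC15` with `[Normal ℚ K]` replaced by `(hK : InertField27.IsInertial A K)` and
`σ.restrictNormal K`, `resK K σ⁻¹` replaced by `resD hK hσ := InertField27.resI K σ …` (`σ ∈ D_A`, so
`σ K = K` by `hK.2`).

Vocabulary: `R = AK A K`, `F₀ = FK M' K`, `F = FK (M' * q) K`, `s₀ = gK M' K (resD hK hσ)` (the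
coefficientwise action of `σ|K`), `s₀' = gK M' K (resD hK hσ⁻¹)` its inverse, `α = alpha K M' q`,
`β = beta K M' q`, `O1`, `O2` of `ModelDefs9`.

* `resD`, `coe_resD`, `resD_inv_resD`, `resD_resD_inv`, `resD_mem_AK`, `isDecompBase_resD`;
* `frobInv_of_isInertial` : `ψ := resD hK hσ⁻¹` (for a GIVEN Frobenius lift `σ`) satisfies `hψO`, `hψ` of
  `KronN14.kron_gauss`;
* `gpsi_gK`, `gK_gpsi` : `s₀' (s₀ x) = x`, `s₀ (s₀' x) = x`;
* `gK_mem_gaussRing_iff`, `gK_mem_gaussVS_iff` : `s₀` (any `σ ∈ D_A`) preserves the Gauss ring;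
* `kron_add_one` : `β (s₀ z) - (α z) ^ q ∈ π O1` for EVERY `z` in the Gauss ring of `F₀` (additive form);
  `kron_add_two` : `α (s₀ z) - (β z) ^ q ∈ π O2`;
* `kron_val_one`, `kron_val_two` : the same in the valuation form `W.valuation (r (s₀ z) - p z ^ q) < 1`
  consumed by `FrobRoot11.frob_of_kron / root_of_kron` (`Ov = gaussVS hπ (FK M' K) hEM`);
* `kbar_one`, `kbar_two`, `kbar_one_VS`, `kbar_two_VS` : the multiplicative-congruence forms for units
  (literal twins of `KronMC15`);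
* `exists_frob_package` : everything `FrobRoot11` needs, as one existential (`s₀ s₀' : F₀ → F₀`).
-/
import Mathlib
import Fermat.Agent.ES.P36.InertField27
import Fermat.Agent.ES.N34.IsoM25
import Fermat.Agent.ES.N34.BranchInt5
import Fermat.Agent.ES.N34.IfaceN4
import Fermat.Agent.ES.N34.ModelGlue22
import Fermat.Agent.ES.N35.MulCong29
import Fermat.Agent.ES.N35.FrobGauss21

set_option autoImplicit false
set_option linter.unusedSectionVars false
set_option synthInstance.maxHeartbeats 400000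

noncomputable section

open HahnSeries ModularCurve

namespace Fermat.Agent.ES.P36.KronMCInert19

open Fermat.Agent.RED.Interface4 Fermat.Agent.RED.PUR.GaussGen8
  Fermat.Agent.ES.N34.FrickeFK8 Fermat.Agent.ES.N34.ModelDefs9 Fermat.Agent.ES.N34.KronN14
  Fermat.Agent.ES.N34.KronChart15 Fermat.Agent.ES.N34.IfaceN4
  Fermat.Agent.RED.DESC Fermat.Agent.ES.RED.GaloisRed21 Fermat.Agent.ES.N35.MulCong29
  Fermat.Agent.ES.N35.FrobGauss21 Fermat.Agent.ES.N34.GaussEmb22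
  Fermat.Agent.ES.P36.InertField27

variable {A : ValuationSubring Qbar} {K : IntermediateField ℚ Qbar}

/-! ### Restriction of the decomposition group to an inertial field -/

/-- `σ|_K` for `σ ∈ D_A` and `K` inertial at `A`. -/
def resD (hK : IsInertial A K) {σ : Qbar ≃ₐ[ℚ] Qbar} (hσ : σ ∈ A.decompositionSubgroup ℚ) :
    K ≃ₐ[ℚ] K :=
  resI K σ (hK.2 σ hσ) (hK.2 σ⁻¹ (inv_mem hσ))

theorem coe_resD (hK : IsInertial A K) {σ : Qbar ≃ₐ[ℚ] Qbar}
    (hσ : σ ∈ A.decompositionSubgroup ℚ) (a : K) :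
    ((resD hK hσ a : K) : Qbar) = σ (a : Qbar) := rfl

theorem resD_inv_resD (hK : IsInertial A K) {σ : Qbar ≃ₐ[ℚ] Qbar}
    (hσ : σ ∈ A.decompositionSubgroup ℚ) (a : K) :
    resD hK (inv_mem hσ) (resD hK hσ a) = a := by
  apply Subtype.ext
  rw [coe_resD, coe_resD]
  exact AlgEquiv.symm_apply_apply σ _

theorem resD_resD_inv (hK : IsInertial A K) {σ : Qbar ≃ₐ[ℚ] Qbar}
    (hσ : σ ∈ A.decompositionSubgroup ℚ) (a : K) :
    resD hK hσ (resD hK (inv_mem hσ) a) = a := by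
  apply Subtype.ext
  rw [coe_resD, coe_resD]
  exact AlgEquiv.apply_symm_apply σ _

theorem resD_symm_apply (hK : IsInertial A K) {σ : Qbar ≃ₐ[ℚ] Qbar}
    (hσ : σ ∈ A.decompositionSubgroup ℚ) (a : K) :
    (resD hK hσ).symm a = resD hK (inv_mem hσ) a := by
  rw [AlgEquiv.symm_apply_eq, resD_resD_inv]

theorem resD_mem_AK (hK : IsInertial A K) {σ : Qbar ≃ₐ[ℚ] Qbar}
    (hσ : σ ∈ A.decompositionSubgroup ℚ) {a : K} (ha : a ∈ AK A K) :
    resD hK hσ a ∈ AK A K :=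
  resI_mem_AK hσ _ _ ha

/-- `σ|_K` preserves `A ∩ K` in both directions. -/
theorem isDecompBase_resD (hK : IsInertial A K) {σ : Qbar ≃ₐ[ℚ] Qbar}
    (hσ : σ ∈ A.decompositionSubgroup ℚ) :
    IsDecompBase (AK A K) (resD hK hσ).toRingEquiv := by
  refine ⟨fun a ha => resD_mem_AK hK hσ ha, fun a ha => ?_⟩
  have h := resD_mem_AK hK (inv_mem hσ) ha
  rw [← resD_symm_apply] at h
  exact h

/-- `ψ ∘ σ|K = id` on `K` (`ψ := resD hK hσ⁻¹`). -/
theorem psi_comp_sigma (hK : IsInertial A K) {σ : Qbar ≃ₐ[ℚ] Qbar}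
    (hσ : σ ∈ A.decompositionSubgroup ℚ) :
    ((resD hK (inv_mem hσ) : K ≃ₐ[ℚ] K) : K →+* K).comp ((resD hK hσ : K ≃ₐ[ℚ] K) : K →+* K) =
      RingHom.id K :=
  RingHom.ext fun a => resD_inv_resD hK hσ a

/-- `σ|K ∘ ψ = id` on `K`. -/
theorem sigma_comp_psi (hK : IsInertial A K) {σ : Qbar ≃ₐ[ℚ] Qbar}
    (hσ : σ ∈ A.decompositionSubgroup ℚ) :
    ((resD hK hσ : K ≃ₐ[ℚ] K) : K →+* K).comp ((resD hK (inv_mem hσ) : K ≃ₐ[ℚ] K) : K →+* K) =
      RingHom.id K :=
  RingHom.ext fun a => resD_resD_inv hK hσ a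

/-! ### The inverse of a GIVEN Frobenius lift -/

/-- **The inverse of a GIVEN Frobenius lift, restricted to an inertial `K`**, satisfies the hypotheses
`hψO`, `hψ` of `KronN14.kron_gauss` (twin of `KronMC15.frobInv_of`). -/
theorem frobInv_of_isInertial (hK : IsInertial A K) {q : ℕ} {σ : Qbar ≃ₐ[ℚ] Qbar}
    (hσ : A.IsFrobeniusAt σ q) :
    ∃ (hψO : ∀ x ∈ AK A K,
        ((resD hK (inv_mem hσ.mem_decompositionSubgroup) : K ≃ₐ[ℚ] K) : K →+* K) x ∈ AK A K),
      ∀ x : ↥(AK A K),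
        res0 (AK A K) (restrictO (AK A K)
          ((resD hK (inv_mem hσ.mem_decompositionSubgroup) : K ≃ₐ[ℚ] K) : K →+* K) hψO x) ^ q =
          res0 (AK A K) x := by
  have hD : σ ∈ A.decompositionSubgroup ℚ := hσ.mem_decompositionSubgroup
  have hD' : σ⁻¹ ∈ A.decompositionSubgroup ℚ := inv_mem hD
  have hψO : ∀ x ∈ AK A K, ((resD hK hD' : K ≃ₐ[ℚ] K) : K →+* K) x ∈ AK A K :=
    fun x hx => resD_mem_AK hK hD' hx
  refine ⟨hψO, fun x => ?_⟩
  set y : ↥(AK A K) := restrictO (AK A K) ((resD hK hD' : K ≃ₐ[ℚ] K) : K →+* K) hψO x with hy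
  apply NumberFieldDVR27.resMap_injective A K
  rw [map_pow, NumberFieldDVR27.resMap_residue, NumberFieldDVR27.resMap_residue]
  have h1 := psiRes_of_isFrobeniusAt A hσ (IsLocalRing.residue ↥A (NumberFieldDVR27.incl A K y))
  rw [psiRes_residue] at h1
  rw [← h1]
  congr 1
  apply Subtype.ext
  rw [coe_sigmaA, NumberFieldDVR27.coe_incl, NumberFieldDVR27.coe_incl]
  have h2 : (((y : ↥(AK A K)) : K) : Qbar) = σ⁻¹ (((x : ↥(AK A K)) : K) : Qbar) :=
    coe_resD hK hD' (x : K)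
  rw [h2]
  exact AlgEquiv.apply_symm_apply σ _

/-! ### The coefficientwise action `s₀` of `σ|K` -/

section Action

variable (hK : IsInertial A K) {σ : Qbar ≃ₐ[ℚ] Qbar} (hσ : σ ∈ A.decompositionSubgroup ℚ)

theorem coe_gK (N : ℕ) (x : FK N K) :
    ((gK N K (resD hK hσ) x : FK N K) : LaurentSeries K) =
      coeffMap ((resD hK hσ).toRingEquiv : K →+* K) (x : LaurentSeries K) := rfl

/-- `gψ (s₀ x) = x`. -/
theorem gpsi_gK (N : ℕ) (x : FK N K) :
    gK N K (resD hK (inv_mem hσ)) (gK N K (resD hK hσ) x) = x := by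
  apply Subtype.ext
  rw [coe_arithmeticRingAut_apply, coe_arithmeticRingAut_apply, coeffMap_coeffMap,
    psi_comp_sigma, coeffMap_id]

/-- `s₀ (gψ x) = x`. -/
theorem gK_gpsi (N : ℕ) (x : FK N K) :
    gK N K (resD hK hσ) (gK N K (resD hK (inv_mem hσ)) x) = x := by
  apply Subtype.ext
  rw [coe_arithmeticRingAut_apply, coe_arithmeticRingAut_apply, coeffMap_coeffMap,
    sigma_comp_psi, coeffMap_id]

/-- `s₀` preserves the Gauss ring, expansion form (any `σ ∈ D_A`). -/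
theorem gK_mem_gaussRing_iff (N : ℕ) (x : FK N K) :
    ((gK N K (resD hK hσ) x : FK N K) : LaurentSeries K) ∈ gaussRing (AK A K) ↔
      (x : LaurentSeries K) ∈ gaussRing (AK A K) := by
  rw [coe_gK]
  exact (isDecompBase_resD hK hσ).coeffMap_mem_gaussRing_iff _

/-- **`s₀` preserves the Gauss valuation ring of `F_K`.** -/
theorem gK_mem_gaussVS_iff (N : ℕ) {π : ↥(AK A K)} (hπ : IsUnif (AK A K) π)
    (hE : FK N K ≤ fracField (AK A K)) (x : FK N K) :
    gK N K (resD hK hσ) x ∈ gaussVS hπ (FK N K) hE ↔ x ∈ gaussVS hπ (FK N K) hE := by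
  rw [mem_gaussVS_iff, mem_gaussVS_iff]
  exact gK_mem_gaussRing_iff hK hσ N x

end Action

/-! ### The Kronecker congruences for a Frobenius lift -/

section Kron

variable (hK : IsInertial A K) (M' q : ℕ) [NeZero M'] [NeZero q] [Fact q.Prime]
  [CharP (Res (AK A K)) q]
  {π : ↥(AK A K)} (hπ : IsUnif (AK A K) π) (hE : FK (M' * q) K ≤ fracField (AK A K))
  {σ : Qbar ≃ₐ[ℚ] Qbar} (hσ : A.IsFrobeniusAt σ q)

/-- **(K1), additive form**: `β (s₀ z) - (α z) ^ q ∈ π O1` for every `z` of the Gauss ring of `F₀`. -/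
theorem kron_add_one (z : FK M' K) (hz : (z : LaurentSeries K) ∈ gaussRing (AK A K)) :
    ∃ o ∈ O1 M' q hπ hE,
      beta K M' q (gK M' K (resD hK hσ.mem_decompositionSubgroup) z) - alpha K M' q z ^ q =
        algebraMap ↥(AK A K) ↥(FK (M' * q) K) π * o := by
  have hD := hσ.mem_decompositionSubgroup
  obtain ⟨hψO, hψ⟩ := frobInv_of_isInertial hK hσ
  obtain ⟨o, ho, h⟩ := kron_one M' q hπ hE (resD hK (inv_mem hD)) hψO hψ
    (gK M' K (resD hK hD) z) ((gK_mem_gaussRing_iff hK hD M' z).mpr hz)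
  have e := gpsi_gK hK hD M' z
  rw [e] at h
  exact ⟨o, ho, h⟩

/-- **(K2), additive form**: `α (s₀ z) - (β z) ^ q ∈ π O2` for every `z` of the Gauss ring of `F₀`. -/
theorem kron_add_two [IsDiscreteValuationRing ↥(AK A K)] (hirr : Irreducible π) (hqM : ¬ q ∣ M')
    (z : FK M' K) (hz : (z : LaurentSeries K) ∈ gaussRing (AK A K)) :
    ∃ o ∈ O2 M' q hπ hE,
      alpha K M' q (gK M' K (resD hK hσ.mem_decompositionSubgroup) z) - beta K M' q z ^ q =
        algebraMap ↥(AK A K) ↥(FK (M' * q) K) π * o := by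
  have hD := hσ.mem_decompositionSubgroup
  obtain ⟨hψO, hψ⟩ := frobInv_of_isInertial hK hσ
  have hiso : ∀ x : FK M' K, (x : LaurentSeries K) ∈ gaussRing (AK A K) ↔
      ((frickeFK M' K x : FK M' K) : LaurentSeries K) ∈ gaussRing (AK A K) :=
    fun x => Fermat.Agent.ES.N34.IsoM25.isoM A K M' q hirr hqM x
  obtain ⟨o, ho, h⟩ := kron_two' M' q hπ hE (resD hK (inv_mem hD)) hψO hψ
    (gK M' K (resD hK hD) z) ((hiso _).mp ((gK_mem_gaussRing_iff hK hD M' z).mpr hz))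
  have e := gpsi_gK hK hD M' z
  rw [e] at h
  exact ⟨o, ho, h⟩

/-- **(K̄1) = `hK1`**: `β (s₀ x) ≡ (α x) ^ q  mod^× π O1` for a unit `x` of the Gauss ring of `F₀`
(twin of `KronMC15.kbar_one`). -/
theorem kbar_one (x : FK M' K) (hx0 : x ≠ 0)
    (hx : (x : LaurentSeries K) ∈ gaussRing (AK A K))
    (hx' : ((x⁻¹ : FK M' K) : LaurentSeries K) ∈ gaussRing (AK A K)) :
    MC (algebraMap ↥(AK A K) ↥(FK (M' * q) K) π) (O1 M' q hπ hE)
      (beta K M' q (gK M' K (resD hK hσ.mem_decompositionSubgroup) x)) (alpha K M' q x ^ q) := by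
  show ∃ c ∈ O1 M' q hπ hE,
      beta K M' q (gK M' K (resD hK hσ.mem_decompositionSubgroup) x) / alpha K M' q x ^ q - 1 =
        algebraMap ↥(AK A K) ↥(FK (M' * q) K) π * c
  obtain ⟨o, ho, h⟩ := kron_add_one hK M' q hπ hE hσ x hx
  have hax : (alpha K M' q x)⁻¹ ∈ O1 M' q hπ hE := by
    rw [← map_inv₀]
    exact (Fermat.Agent.ES.N34.BranchInt5.alpha_mem_O1_iff M' q hπ hE x⁻¹).mpr hx'
  have ha0 : alpha K M' q x ≠ 0 := (map_ne_zero _).mpr hx0
  refine ⟨o * (alpha K M' q x)⁻¹ ^ q, (O1 M' q hπ hE).mul_mem _ _ ho (pow_mem hax q), ?_⟩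
  have h2 : beta K M' q (gK M' K (resD hK hσ.mem_decompositionSubgroup) x) / alpha K M' q x ^ q - 1 =
      (beta K M' q (gK M' K (resD hK hσ.mem_decompositionSubgroup) x) - alpha K M' q x ^ q) *
        (alpha K M' q x)⁻¹ ^ q := by
    rw [inv_pow, sub_mul, mul_inv_cancel₀ (pow_ne_zero q ha0), div_eq_mul_inv]
  rw [h2, h, mul_assoc]

/-- **(K̄2) = `hK2`**: `α (s₀ y) ≡ (β y) ^ q  mod^× π O2` for a unit `y` of the Gauss ring of `F₀`
(twin of `KronMC15.kbar_two`). -/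
theorem kbar_two [IsDiscreteValuationRing ↥(AK A K)] (hirr : Irreducible π) (hqM : ¬ q ∣ M')
    (y : FK M' K) (hy0 : y ≠ 0)
    (hy : (y : LaurentSeries K) ∈ gaussRing (AK A K))
    (hy' : ((y⁻¹ : FK M' K) : LaurentSeries K) ∈ gaussRing (AK A K)) :
    MC (algebraMap ↥(AK A K) ↥(FK (M' * q) K) π) (O2 M' q hπ hE)
      (alpha K M' q (gK M' K (resD hK hσ.mem_decompositionSubgroup) y)) (beta K M' q y ^ q) := by
  show ∃ c ∈ O2 M' q hπ hE,
      alpha K M' q (gK M' K (resD hK hσ.mem_decompositionSubgroup) y) / beta K M' q y ^ q - 1 =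
        algebraMap ↥(AK A K) ↥(FK (M' * q) K) π * c
  have hiso : ∀ x : FK M' K, (x : LaurentSeries K) ∈ gaussRing (AK A K) ↔
      ((frickeFK M' K x : FK M' K) : LaurentSeries K) ∈ gaussRing (AK A K) :=
    fun x => Fermat.Agent.ES.N34.IsoM25.isoM A K M' q hirr hqM x
  obtain ⟨o, ho, h⟩ := kron_add_two hK M' q hπ hE hσ hirr hqM y hy
  have hby : (beta K M' q y)⁻¹ ∈ O2 M' q hπ hE := by
    rw [← map_inv₀]
    exact (Fermat.Agent.ES.N34.BranchInt5.beta_mem_O2_iff M' q hπ hE hiso y⁻¹).mpr hy'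
  have hb0 : beta K M' q y ≠ 0 := (map_ne_zero _).mpr hy0
  refine ⟨o * (beta K M' q y)⁻¹ ^ q, (O2 M' q hπ hE).mul_mem _ _ ho (pow_mem hby q), ?_⟩
  have h2 : alpha K M' q (gK M' K (resD hK hσ.mem_decompositionSubgroup) y) / beta K M' q y ^ q - 1 =
      (alpha K M' q (gK M' K (resD hK hσ.mem_decompositionSubgroup) y) - beta K M' q y ^ q) *
        (beta K M' q y)⁻¹ ^ q := by
    rw [inv_pow, sub_mul, mul_inv_cancel₀ (pow_ne_zero q hb0), div_eq_mul_inv]
  rw [h2, h, mul_assoc]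

/-! ### Literal shapes with `Ov := gaussVS hπ (FK M' K) hEM` -/

section Literal

variable (hEM : FK M' K ≤ fracField (AK A K))

/-- `hK1` for every unit `x` of `Ov` (twin of `KronMC15.kbar_one_VS`). -/
theorem kbar_one_VS (x : FK M' K) (hx0 : x ≠ 0) (hx : x ∈ gaussVS hπ (FK M' K) hEM)
    (hx' : x⁻¹ ∈ gaussVS hπ (FK M' K) hEM) :
    MC (algebraMap ↥(AK A K) ↥(FK (M' * q) K) π) (O1 M' q hπ hE)
      (beta K M' q (gK M' K (resD hK hσ.mem_decompositionSubgroup) x)) (alpha K M' q x ^ q) :=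
  kbar_one hK M' q hπ hE hσ x hx0 ((mem_gaussVS_iff hπ _ hEM x).mp hx)
    ((mem_gaussVS_iff hπ _ hEM x⁻¹).mp hx')

/-- `hK2` for every unit `y` of `Ov` (twin of `KronMC15.kbar_two_VS`). -/
theorem kbar_two_VS [IsDiscreteValuationRing ↥(AK A K)] (hqM : ¬ q ∣ M')
    (y : FK M' K) (hy0 : y ≠ 0) (hy : y ∈ gaussVS hπ (FK M' K) hEM)
    (hy' : y⁻¹ ∈ gaussVS hπ (FK M' K) hEM) :
    MC (algebraMap ↥(AK A K) ↥(FK (M' * q) K) π) (O2 M' q hπ hE)
      (alpha K M' q (gK M' K (resD hK hσ.mem_decompositionSubgroup) y)) (beta K M' q y ^ q) :=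
  kbar_two hK M' q hπ hE hσ
    ((IsDiscreteValuationRing.irreducible_iff_uniformizer π).mpr hπ.max_eq) hqM y hy0
    ((mem_gaussVS_iff hπ _ hEM y).mp hy) ((mem_gaussVS_iff hπ _ hEM y⁻¹).mp hy')

/-- `π c` has valuation `< 1` in a Gauss pull-back. -/
theorem val_pi_mul_lt_one {F : Type*} [Field F] [Algebra ↥K F] [Algebra ↥(AK A K) F]
    [IsScalarTower ↥(AK A K) ↥K F] {ι : F →ₐ[↥K] LaurentSeries ↥K} {V : ValuationSubring F}
    [IsDiscreteValuationRing ↥(AK A K)]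
    (hV : IsGaussPullback (AK A K) ι V) (hirr : Irreducible π) {c : F} (hc : c ∈ V) :
    V.valuation (algebraMap ↥(AK A K) F π * c) < 1 := by
  have hπV : algebraMap ↥(AK A K) F π ∈ V := algebraMap_O_mem hV π
  have hπi : (algebraMap ↥(AK A K) F π)⁻¹ ∉ V := by
    rw [algebraMap_O_eq]; exact pi_inv_not_mem hV hirr
  have h1 : V.valuation (algebraMap ↥(AK A K) F π) < 1 := by
    rcases lt_or_eq_of_le ((V.valuation_le_one_iff _).mpr hπV) with h | h
    · exact h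
    · exfalso
      apply hπi
      rw [← V.valuation_le_one_iff, map_inv₀, h, inv_one]
  rw [map_mul]
  calc V.valuation (algebraMap ↥(AK A K) F π) * V.valuation c
      ≤ V.valuation (algebraMap ↥(AK A K) F π) * 1 :=
        mul_le_mul' le_rfl ((V.valuation_le_one_iff _).mpr hc)
    _ < 1 := by rw [mul_one]; exact h1

/-- **(K1), valuation form** — the literal `kron` hypothesis of `FrobRoot11.frob_of_kron/root_of_kron`
at `(p, r, W, Ov) = (α, β, O1, gaussVS)`. -/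
theorem kron_val_one [IsDiscreteValuationRing ↥(AK A K)] (hirr : Irreducible π) :
    ∀ z ∈ gaussVS hπ (FK M' K) hEM,
      (O1 M' q hπ hE).valuation
        ((beta K M' q : ↥(FK M' K) →+* ↥(FK (M' * q) K))
            (gK M' K (resD hK hσ.mem_decompositionSubgroup) z) -
          (alpha K M' q : ↥(FK M' K) →+* ↥(FK (M' * q) K)) z ^ q) < 1 := by
  intro z hz
  obtain ⟨o, ho, h⟩ := kron_add_one hK M' q hπ hE hσ z ((mem_gaussVS_iff hπ _ hEM z).mp hz)
  show (O1 M' q hπ hE).valuation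
    (beta K M' q (gK M' K (resD hK hσ.mem_decompositionSubgroup) z) - alpha K M' q z ^ q) < 1
  rw [h]
  exact val_pi_mul_lt_one (Fermat.Agent.ES.N34.ModelGlue22.isGaussPullback_O1 M' q hπ hE) hirr ho

/-- **(K2), valuation form** — the literal `kron` hypothesis of `FrobRoot11` at
`(p, r, W, Ov) = (β, α, O2, gaussVS)`. -/
theorem kron_val_two [IsDiscreteValuationRing ↥(AK A K)] (hirr : Irreducible π) (hqM : ¬ q ∣ M') :
    ∀ z ∈ gaussVS hπ (FK M' K) hEM,
      (O2 M' q hπ hE).valuation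
        ((alpha K M' q : ↥(FK M' K) →+* ↥(FK (M' * q) K))
            (gK M' K (resD hK hσ.mem_decompositionSubgroup) z) -
          (beta K M' q : ↥(FK M' K) →+* ↥(FK (M' * q) K)) z ^ q) < 1 := by
  intro z hz
  obtain ⟨o, ho, h⟩ :=
    kron_add_two hK M' q hπ hE hσ hirr hqM z ((mem_gaussVS_iff hπ _ hEM z).mp hz)
  show (O2 M' q hπ hE).valuation
    (alpha K M' q (gK M' K (resD hK hσ.mem_decompositionSubgroup) z) - beta K M' q z ^ q) < 1
  rw [h]
  exact val_pi_mul_lt_one (Fermat.Agent.ES.N34.ModelGlue22.isGaussPullback_O2 M' q hπ hE) hirr ho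

end Literal

end Kron

/-! ### One existential package for `FrobRoot11` -/

/-- **Everything `FrobRoot11.frob_of_kron / root_of_kron` need at the level-`M' q` data over an inertial
`K`**: a bijection `s₀` of `F₀ = FK M' K` (with inverse `s₀'`), both preserving `Ov = gaussVS`, with the two
Kronecker congruences in valuation form. -/
theorem exists_frob_package (hK : IsInertial A K) (M' q : ℕ) [NeZero M'] [NeZero q]
    [FiniteDimensional ℚ K] (hq : q.Prime) (hqM : ¬ q ∣ M') (hA : A.LiesOverPrime q)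
    {π : ↥(AK A K)} (hπ : IsUnif (AK A K) π) (hE : FK (M' * q) K ≤ fracField (AK A K))
    (hEM : FK M' K ≤ fracField (AK A K)) :
    ∃ s₀ s₀' : ↥(FK M' K) → ↥(FK M' K),
      (∀ z ∈ gaussVS hπ (FK M' K) hEM, s₀ z ∈ gaussVS hπ (FK M' K) hEM) ∧
      (∀ z ∈ gaussVS hπ (FK M' K) hEM, s₀' z ∈ gaussVS hπ (FK M' K) hEM) ∧
      (∀ z, s₀ (s₀' z) = z) ∧ (∀ z, s₀' (s₀ z) = z) ∧
      (∀ z ∈ gaussVS hπ (FK M' K) hEM,
        (O1 M' q hπ hE).valuation
          ((beta K M' q : ↥(FK M' K) →+* ↥(FK (M' * q) K)) (s₀ z) -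
            (alpha K M' q : ↥(FK M' K) →+* ↥(FK (M' * q) K)) z ^ q) < 1) ∧
      (∀ z ∈ gaussVS hπ (FK M' K) hEM,
        (O2 M' q hπ hE).valuation
          ((alpha K M' q : ↥(FK M' K) →+* ↥(FK (M' * q) K)) (s₀ z) -
            (beta K M' q : ↥(FK M' K) →+* ↥(FK (M' * q) K)) z ^ q) < 1) := by
  have hdvr : IsDiscreteValuationRing ↥(AK A K) :=
    Fermat.Agent.RED.DESC.NumberFieldDVR27.isDiscreteValuationRing_AK A K hq.ne_zero hA
  have hirr : Irreducible π := (IsDiscreteValuationRing.irreducible_iff_uniformizer π).mpr hπ.max_eq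
  have : Fact q.Prime := ⟨hq⟩
  have : CharP (Res (AK A K)) q := NumberFieldDVR27.charP_residueField_AK A K hq hA
  obtain ⟨σ, hσ⟩ := Fermat.Agent.ES.FROB.FrobFacts12.exists_isFrobeniusAt_of q hq A hA
  have hD := hσ.mem_decompositionSubgroup
  refine ⟨gK M' K (resD hK hD), gK M' K (resD hK (inv_mem hD)),
    fun z hz => (gK_mem_gaussVS_iff hK hD M' hπ hEM z).mpr hz,
    fun z hz => (gK_mem_gaussVS_iff hK (inv_mem hD) M' hπ hEM z).mpr hz,
    fun z => gK_gpsi hK hD M' z, fun z => gpsi_gK hK hD M' z,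
    kron_val_one hK M' q hπ hE hσ hEM hirr, kron_val_two hK M' q hπ hE hσ hEM hirr hqM⟩

end Fermat.Agent.ES.P36.KronMCInert19
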