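/-
Program P (S36), chapter (G) of NUM-P, brick G4-K (helper11): **the supplier `KronFacts` of `GenInst11`**, per inertial
number field `K` (no `∃ K₀`, no `[Normal ℚ K]`).

* `kronFacts_of` : `KronFacts A K M' q hπ` from helper17's base bundle (`GenBaseInst17.ca1/cb2`, `BaseG.hπW1/hπW2`),
  `CombA26.HcombAt` (residue degree one of `O1 | Ov` along `alpha`; the W-transport `CombW5.hcomb_O2_of_O1` gives
  `O2 | Ov` along `beta`) and a Frobenius package in the literal shape of `KronMCInert19.exists_frob_package`;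
* `kronFacts_of_isInertial` : the same with helper19's package plugged in (`K` inertial at `A`).
-/
import Mathlib
import Fermat.Agent.ES.N34.CombA26
import Fermat.Agent.ES.N34.CombW5
import Fermat.Agent.ES.P36.GenBaseInst17
import Fermat.Agent.ES.P36.KronMCInert19

set_option autoImplicit false
set_option linter.unusedSectionVars false
set_option linter.style.haveILetI false
set_option synthInstance.maxHeartbeats 400000
set_option maxHeartbeats 4000000

noncomputable section

open HahnSeries ModularCurve AlgebraicCurve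

namespace Fermat.Agent.ES.P36.KronInst11

open Fermat.Agent.RED.Interface4 Fermat.Agent.RED.PUR.GaussGen8 Fermat.Agent.RED.PUR.GaussBridge10
  Fermat.Agent.RED.BASE.EtaQuot12 Fermat.Agent.ES.N34 Fermat.Agent.ES.P36.ModelDefsP9
  Fermat.Agent.ES.P36.OrdVal20 Fermat.Agent.ES.P36.GenInst11

/-! ### `KronFacts` -/

section Kron

variable {A : ValuationSubring Qbar} {K : IntermediateField ℚ Qbar} {M' q : ℕ} [NeZero M'] [NeZero q]
  {π : ↥(AK A K)}

/-- **`KronFacts` at the model** from the base bundle, `hcomb` at `(O1, alpha)` and a Frobenius package. -/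
theorem kronFacts_of [FiniteDimensional ℚ K] (hq : q.Prime) (hqM : ¬ q ∣ M') (hA : A.LiesOverPrime q)
    (hπ : IsUnif (AK A K) π) {n e : ℕ} [NeZero n] (ht : tq (↥K) n e ∈ FK M' K)
    (hc : CombA26.HcombAt n e q M' A K)
    (hkron : ∃ s₀ s₀' : ↥(FK M' K) → ↥(FK M' K),
      (∀ z ∈ OvM A K M' hπ, s₀ z ∈ OvM A K M' hπ) ∧ (∀ z ∈ OvM A K M' hπ, s₀' z ∈ OvM A K M' hπ) ∧
      (∀ z, s₀ (s₀' z) = z) ∧
      (∀ z ∈ OvM A K M' hπ, (O1q M' q hπ).valuation
        (ModelDefs9.beta K M' q (s₀ z) - ModelDefs9.alpha K M' q z ^ q) < 1) ∧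
      (∀ z ∈ OvM A K M' hπ, (O2q M' q hπ).valuation
        (ModelDefs9.alpha K M' q (s₀ z) - ModelDefs9.beta K M' q z ^ q) < 1)) :
    KronFacts A K M' q hπ := by
  haveI : Fact q.Prime := ⟨hq⟩
  haveI hdvr : IsDiscreteValuationRing ↥(AK A K) :=
    Fermat.Agent.RED.DESC.NumberFieldDVR27.isDiscreteValuationRing_AK A K hq.ne_zero hA
  haveI : CharP (Res (AK A K)) q :=
    Fermat.Agent.RED.DESC.NumberFieldDVR27.charP_residueField_AK A K hq hA
  have hirr : Irreducible π := (IsDiscreteValuationRing.irreducible_iff_uniformizer π).mpr hπ.max_eq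
  have hE : FK (M' * q) K ≤ fracField (AK A K) := FK_le_fracField A K (M' * q)
  have hEM : FK M' K ≤ fracField (AK A K) := FK_le_fracField A K M'
  have G := GenBase17.baseG_of_liesOver M' q hπ hE hq hA
  have hiso : ∀ x : FK M' K, (x : LaurentSeries ↥K) ∈ gaussRing (AK A K) ↔
      ((FrickeFK8.frickeFK M' K x : FK M' K) : LaurentSeries ↥K) ∈ gaussRing (AK A K) :=
    fun x => IsoM25.isoM A K M' q hirr hqM x
  have h1 := hc ht hE π hπ
  have h2 := CombW5.hcomb_O2_of_O1 M' q hπ hE hiso h1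
  have eπ : algebraMap ↥(AK A K) ↥(FK (M' * q) K) π =
      algebraMap ↥K ↥(FK (M' * q) K) ((π : ↥(AK A K)) : ↥K) := rfl
  refine ⟨GenBaseInst17.ca1 M' q hπ, GenBaseInst17.cb2 M' q hπ hq hqM hA,
    fun x hx => ?_, fun y hy => ?_, hkron⟩
  · obtain ⟨z, hz, c, hcO, hxz⟩ := h1 x hx
    refine ⟨z, (mem_gaussVS_iff hπ _ hEM z).mpr hz, ?_⟩
    rw [hxz, eπ, map_mul]
    have hc1 : (O1q M' q hπ).valuation c ≤ 1 := (ValuationSubring.valuation_le_one_iff _ _).mpr hcO
    exact lt_of_le_of_lt (mul_le_of_le_one_right' hc1) G.hπW1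
  · obtain ⟨z, hz, c, hcO, hyz⟩ := h2 y hy
    refine ⟨z, (mem_gaussVS_iff hπ _ hEM z).mpr hz, ?_⟩
    rw [hyz, eπ, map_mul]
    have hc1 : (O2q M' q hπ).valuation c ≤ 1 := (ValuationSubring.valuation_le_one_iff _ _).mpr hcO
    exact lt_of_le_of_lt (mul_le_of_le_one_right' hc1) G.hπW2

/-- **`KronFacts` at the model over an inertial `K`** (helper19's Frobenius package plugged in). -/
theorem kronFacts_of_isInertial [FiniteDimensional ℚ K] (hK : InertField27.IsInertial A K)
    (hq : q.Prime) (hqM : ¬ q ∣ M') (hA : A.LiesOverPrime q)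
    (hπ : IsUnif (AK A K) π) {n e : ℕ} [NeZero n] (ht : tq (↥K) n e ∈ FK M' K)
    (hc : CombA26.HcombAt n e q M' A K) : KronFacts A K M' q hπ := by
  obtain ⟨s₀, s₀', h1, h2, h3, -, h5, h6⟩ := KronMCInert19.exists_frob_package hK M' q hq hqM hA hπ
    (FK_le_fracField A K (M' * q)) (FK_le_fracField A K M')
  exact kronFacts_of hq hqM hA hπ ht hc ⟨s₀, s₀', h1, h2, h3, h5, h6⟩

end Kron

end Fermat.Agent.ES.P36.KronInst11
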