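/-
Program P (S36), chapter MODEL-P, brick M3, second half (helper8): **`GenInst11.V3Facts` at the
`ModelDefsP9` data**, per `K`, with the single hypothesis `hπ : IsUnif (AK A K) π` (no `∃ K₀`, no
normality, no DVR instance), plus `GaussVThree8` restated in `ModelDefsP9` vocabulary.

* `O3_eq_O2`, `O2q_eq_O2` : `rfl`-bridges `ModelDefsP9.O3/O2q` ↔ `ModelDefs9.O2` (levels `M' q²`, `M' q`);
* `wNN_alpha2`, `wNN_beta2`, `wNN_alpha2_alpha`, `wNN_beta2_beta` : `W_{M'q²}` versus the degeneracy maps;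
* `alpha2_mem_O3_iff`, `beta2_mem_O3_iff`, `O3_comap_alpha2`, `O3_comap_beta2` (`cα`, `cβ`);
  `alpha2_alpha_mem_O3_iff`, `beta2_beta_mem_O3_iff` (over the Gauss ring of the good level; `q ∤ M'`);
* `O3_unif`, `O3_disc` (`GenBase17`'s Gauss pull-back lemmas at `O3`);
* `O3_fam` : the family `w^i` (`i < q`, `w = x_{M'q²}`, `ι₃ w = j(𝐪)`) of `O3` is residually independent over
  `O2q` along `α₂` (`GaussVTwoFam25.eq_zero_of_sum_qExpand_mul_pow`);
* **`v3Facts hπ : GenInst11.V3Facts A K M' q hπ`**.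
-/
import Mathlib
import Fermat.Agent.ES.P36.GaussVThree8
import Fermat.Agent.ES.P36.GenInst11
import Fermat.Agent.ES.P36.GenBase17

set_option autoImplicit false
set_option linter.unusedSectionVars false

noncomputable section

open HahnSeries ModularCurve

namespace Fermat.Agent.ES.P36.V3Facts8

open Fermat.Agent.RED.Interface4 Fermat.Agent.RED.PUR.GaussGen8 Fermat.Agent.RED.PUR.GaussBridge10
open Fermat.Agent.ES.N34 Fermat.Agent.ES.N34.GaussEmb22 Fermat.Agent.ES.N34.FrickeFK8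
open Fermat.Agent.ES.N34.ModelGlue22 Fermat.Agent.ES.N34.IsoM25
open Fermat.Agent.ES.P36.ModelDefsP9 Fermat.Agent.ES.P36.OrdVal20 Fermat.Agent.ES.P36.GenInst11

set_option synthInstance.maxHeartbeats 400000
set_option maxHeartbeats 400000

variable {A : ValuationSubring Qbar} {K : IntermediateField ℚ Qbar} (M' q : ℕ) [NeZero M'] [NeZero q]
  {π : ↥(AK A K)}

/-! ### `rfl`-bridges -/

theorem O3_eq_O2 (hπ : IsUnif (AK A K) π) :
    O3 M' q hπ = ModelDefs9.O2 (M' * q) q hπ (FK_le_fracField A K (M' * q * q)) := rfl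

theorem O2q_eq_O2 (hπ : IsUnif (AK A K) π) :
    O2q M' q hπ = ModelDefs9.O2 M' q hπ (FK_le_fracField A K (M' * q)) := rfl

/-- `O3` is the Gauss pull-back along `ι₃`. -/
theorem isGaussPullback_O3 (hπ : IsUnif (AK A K) π) :
    IsGaussPullback (AK A K) (iota3 K M' q) (O3 M' q hπ) := fun _ => Iff.rfl

/-- `O2q` is the Gauss pull-back along `ι₂′`. -/
theorem isGaussPullback_O2q (hπ : IsUnif (AK A K) π) :
    IsGaussPullback (AK A K) (iota2Alg K M' q) (O2q M' q hπ) := fun _ => Iff.rfl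

/-! ### `W_{M' q²}` versus the degeneracy maps -/

section Fricke

variable (K)

theorem wNN_alpha2 (x : FK (M' * q) K) :
    wNN K M' q (alpha2 K M' q x) = beta2 K M' q (ModelDefs9.wN K M' q x) :=
  FrickeV11.frickeFK_alpha (M' * q) q K x

theorem wNN_beta2 (x : FK (M' * q) K) :
    wNN K M' q (beta2 K M' q x) = alpha2 K M' q (ModelDefs9.wN K M' q x) :=
  FrickeV11.frickeFK_beta (M' * q) q K x

theorem wNN_alpha2_alpha (x : FK M' K) :
    wNN K M' q (alpha2 K M' q (ModelDefs9.alpha K M' q x)) =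
      beta2 K M' q (ModelDefs9.beta K M' q (frickeFK M' K x)) := by
  rw [wNN_alpha2, FrickeV11.wN_alpha]

theorem wNN_beta2_beta (x : FK M' K) :
    wNN K M' q (beta2 K M' q (ModelDefs9.beta K M' q x)) =
      alpha2 K M' q (ModelDefs9.alpha K M' q (frickeFK M' K x)) := by
  rw [wNN_beta2, FrickeV11.wN_beta]

end Fricke

/-! ### Positions of `v₃` -/

theorem alpha2_mem_O3_iff (hπ : IsUnif (AK A K) π) (x : FK (M' * q) K) :
    alpha2 K M' q x ∈ O3 M' q hπ ↔ x ∈ O2q M' q hπ :=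
  GaussVThree8.alpha2_mem_O3_iff M' q hπ _ _ x

theorem beta2_mem_O3_iff (hπ : IsUnif (AK A K) π) (x : FK (M' * q) K) :
    beta2 K M' q x ∈ O3 M' q hπ ↔ x ∈ O2q M' q hπ :=
  GaussVThree8.beta2_mem_O3_iff M' q hπ _ _ x

/-- `cα`. -/
theorem O3_comap_alpha2 (hπ : IsUnif (AK A K) π) :
    (O3 M' q hπ).comap (alpha2 K M' q).toRingHom = O2q M' q hπ :=
  GaussVThree8.comap_alpha2_O3 M' q hπ _ _

/-- `cβ`. -/
theorem O3_comap_beta2 (hπ : IsUnif (AK A K) π) :
    (O3 M' q hπ).comap (beta2 K M' q).toRingHom = O2q M' q hπ :=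
  GaussVThree8.comap_beta2_O3 M' q hπ _ _

section Good

variable [hq : Fact q.Prime] [IsDiscreteValuationRing ↥(AK A K)] [CharP (Res (AK A K)) q]

theorem alpha2_alpha_mem_O3_iff (hπ : Irreducible π) (hqM : ¬ q ∣ M') (x : FK M' K) :
    alpha2 K M' q (ModelDefs9.alpha K M' q x) ∈ O3 M' q (isUnif_of_irreducible (AK A K) hπ) ↔
      (x : LaurentSeries K) ∈ gaussRing (AK A K) :=
  GaussVThree8.alpha2_alpha_mem_O3_iff M' q hπ hqM (FK_le_fracField A K (M' * q)) _ x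

theorem beta2_beta_mem_O3_iff (hπ : Irreducible π) (hqM : ¬ q ∣ M') (x : FK M' K) :
    beta2 K M' q (ModelDefs9.beta K M' q x) ∈ O3 M' q (isUnif_of_irreducible (AK A K) hπ) ↔
      (x : LaurentSeries K) ∈ gaussRing (AK A K) :=
  GaussVThree8.beta2_beta_mem_O3_iff M' q hπ hqM (FK_le_fracField A K (M' * q)) _ x

end Good

/-! ### `π` is a uniformiser of `v₃`; discreteness -/

/-- `unif`. -/
theorem O3_unif (hπ : IsUnif (AK A K) π) (x : ↥(FK (M' * q * q) K))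
    (hx : (O3 M' q hπ).valuation x < 1) :
    (O3 M' q hπ).valuation x ≤ (O3 M' q hπ).valuation (pi2 A K M' q π) :=
  GenBase17.val_le_val_unif_of_pullback (isGaussPullback_O3 M' q hπ) hπ x hx

/-- `disc`. -/
theorem O3_disc (hπ : IsUnif (AK A K) π) (f : ↥(FK (M' * q * q) K)) (hf : f ≠ 0) :
    ∃ n : ℤ, HasOrd (O3 M' q hπ) (pi2 A K M' q π) f n :=
  GenBase17.exists_hasOrd_of_pullback (isGaussPullback_O3 M' q hπ) hπ f hf

/-! ### The family `w^i` along `α₂` -/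

/-- The family in `ModelDefs9` vocabulary (levels `M' q` and `M' q²`). -/
theorem fam_O2 (hπ : IsUnif (AK A K) π) (hE' : FK (M' * q) K ≤ fracField (AK A K))
    (hE : FK (M' * q * q) K ≤ fracField (AK A K)) :
    ∃ b : Fin q → ↥(FK (M' * q * q) K), (∀ i, b i ∈ ModelDefs9.O2 (M' * q) q hπ hE) ∧
      ∀ a : Fin q → ↥(FK (M' * q) K), (∀ i, a i ∈ ModelDefs9.O2 M' q hπ hE') →
        (ModelDefs9.O2 (M' * q) q hπ hE).valuation
          (∑ i, ModelDefs9.alpha K (M' * q) q (a i) * b i) < 1 →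
        ∀ i, (ModelDefs9.O2 M' q hπ hE').valuation (a i) < 1 := by
  classical
  have hV3 := isGaussPullback_O2 (A := A) (K := K) (M' * q) q hπ hE
  have hV2 := isGaussPullback_O2 (A := A) (K := K) M' q hπ hE'
  -- the element `w = x_{M' q²}`, `ι₃ w = j(𝐪)`
  have hw : iota2Alg K (M' * q) q (jTop K (M' * q * q)) ∈ gaussRing (AK A K) := by
    show iotaAlg (M' * q * q) K (jTop K (M' * q * q)) ∈ gaussRing (AK A K)
    rw [iotaAlg_jTop]; exact jqd_mem_gaussRing (AK A K) 1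
  have hwV : jTop K (M' * q * q) ∈ ModelDefs9.O2 (M' * q) q hπ hE := (hV3 _).mpr hw
  have hwe : (⟨iota2Alg K (M' * q) q (jTop K (M' * q * q)), hw⟩ : ↥(gaussRing (AK A K))) =
      ⟨qExpand K 1 (jqModC K), jqd_mem_gaussRing (AK A K) 1⟩ :=
    Subtype.ext (iotaAlg_jTop K (M' * q * q))
  have hJ0 : gaussRed (AK A K) ⟨iota2Alg K (M' * q) q (jTop K (M' * q * q)), hw⟩ ≠ 0 := by
    rw [hwe]; exact gaussRed_jqd_ne_zero (AK A K) 1
  have hJ : IsCoprime
      (gaussRed (AK A K) ⟨iota2Alg K (M' * q) q (jTop K (M' * q * q)), hw⟩).order (q : ℤ) := by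
    rw [hwe, order_gaussRed_jqd]
    simp only [Nat.cast_one]
    exact (isCoprime_one_left (x := (q : ℤ))).neg_left
  refine ⟨fun i => jTop K (M' * q * q) ^ (i : ℕ), fun i => pow_mem hwV _, ?_⟩
  intro a haV hsum
  have haV3 : ∀ i, ModelDefs9.alpha K (M' * q) q (a i) ∈ ModelDefs9.O2 (M' * q) q hπ hE :=
    fun i => (GaussVThree8.alpha2_mem_O3_iff M' q hπ hE' hE (a i)).mpr (haV i)
  -- the sum inside the valuation ring
  have hSmem : (∑ i, ModelDefs9.alpha K (M' * q) q (a i) * jTop K (M' * q * q) ^ (i : ℕ)) ∈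
      ModelDefs9.O2 (M' * q) q hπ hE :=
    sum_mem fun i _ => mul_mem (haV3 i) (pow_mem hwV _)
  have hSeq : (⟨∑ i, ModelDefs9.alpha K (M' * q) q (a i) * jTop K (M' * q * q) ^ (i : ℕ), hSmem⟩ :
      ↥(ModelDefs9.O2 (M' * q) q hπ hE)) =
      ∑ i, (⟨ModelDefs9.alpha K (M' * q) q (a i), haV3 i⟩ : ↥(ModelDefs9.O2 (M' * q) q hπ hE)) *
        (⟨jTop K (M' * q * q), hwV⟩ : ↥(ModelDefs9.O2 (M' * q) q hπ hE)) ^ (i : ℕ) := by
    apply Subtype.ext
    rw [AddSubmonoidClass.coe_finsetSum]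
    rfl
  have h0 : redOf hV3 ⟨_, hSmem⟩ = 0 := (redOf_eq_zero_iff hV3 ⟨_, hSmem⟩).mpr hsum
  have h1 : ∑ i : Fin q, qExpand (Res (AK A K)) q (redOf hV2 ⟨a i, haV i⟩) *
      gaussRed (AK A K) ⟨iota2Alg K (M' * q) q (jTop K (M' * q * q)), hw⟩ ^ (i : ℕ) = 0 := by
    rw [← h0, hSeq, map_sum]
    refine Finset.sum_congr rfl fun i _ => ?_
    rw [map_mul, map_pow, GaussVThree8.redOf_alpha2 M' q hπ hE' hE (a i) (haV i) (haV3 i)]
    rfl
  have h2 := GaussVTwoFam25.eq_zero_of_sum_qExpand_mul_pow q hJ0 hJ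
    (fun i => redOf hV2 ⟨a i, haV i⟩) h1
  intro i
  exact (redOf_eq_zero_iff hV2 ⟨a i, haV i⟩).mp (h2 i)

/-- `fam`, in the literal shape of `GenInst11.V3Facts`. -/
theorem O3_fam (hπ : IsUnif (AK A K) π) :
    ∃ b : Fin q → ↥(FK (M' * q * q) K), (∀ i, b i ∈ O3 M' q hπ) ∧
      ∀ a : Fin q → ↥(FK (M' * q) K), (∀ i, (O2q M' q hπ).valuation (a i) ≤ 1) →
        (O3 M' q hπ).valuation (∑ i, alpha2 K M' q (a i) * b i) < 1 →
        ∀ i, (O2q M' q hπ).valuation (a i) < 1 := by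
  obtain ⟨b, hb, hfam⟩ := fam_O2 (A := A) (K := K) M' q hπ (FK_le_fracField A K (M' * q))
    (FK_le_fracField A K (M' * q * q))
  refine ⟨b, hb, fun a ha hsum i => ?_⟩
  exact hfam a (fun i => ((O2q M' q hπ).valuation_le_one_iff _).mp (ha i)) hsum i

/-- **M3: the `V₃`-facts of (G) at the model.** -/
theorem v3Facts (hπ : IsUnif (AK A K) π) : V3Facts A K M' q hπ where
  cα := O3_comap_alpha2 M' q hπ
  cβ := O3_comap_beta2 M' q hπ
  unif := O3_unif M' q hπ
  disc := O3_disc M' q hπ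
  fam := O3_fam M' q hπ

end Fermat.Agent.ES.P36.V3Facts8
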