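/-
Program P (S36), chapter (G) of NUM-P, brick G4-top (helper11): **the package `NumCoreP13.GenItemsP` over an inertial
number field `K`**, with the suppliers of chapter (G) that are already theorems plugged in:

* `BaseFacts`  := `GenBaseInst17.baseFacts` (helper17);
* `V3Facts`    := `V3Facts8.v3Facts` (helper8, M3);
* `KronFacts`  := `KronInst11.kronFacts_of_isInertial` (helper19's Frobenius package + `CombA26.HcombAt`);
* `perf`, `halg` inside `GenItems20.genItemsP_of` (helper20).

What remains as hypotheses: `V1Facts` for every uniformiser (M2, helper25) and `MidUnif` for every middle valuation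
ring (M4/M6, helper23), plus the two level-`M'` inputs `ht : tq ∈ F_{M'}` and `hc : HcombAt` (both available per `K`:
`CoeffField4.tq_mem_FK`, `CombA26.hcombAt_of … (CoeffField4.j_mem_adjoin …)`).

* `genFactsP_of_isInertial` : a term of `GenItems20.GenFactsP A K M' q`;
* `genItemsP_of_isInertial` : `GenItemsP q M' A K (q (q − 1) (q + 1)²) m` for `q ∤ m`.
-/
import Mathlib
import Fermat.Agent.ES.P36.GenItems20
import Fermat.Agent.ES.P36.KronInst11
import Fermat.Agent.ES.P36.V3Facts8

set_option autoImplicit false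
set_option linter.unusedSectionVars false
set_option synthInstance.maxHeartbeats 400000
set_option maxHeartbeats 4000000

noncomputable section

open HahnSeries ModularCurve AlgebraicCurve

namespace Fermat.Agent.ES.P36.GenFacts11

open Fermat.Agent.RED.Interface4 Fermat.Agent.RED.PUR.GaussGen8 Fermat.Agent.RED.PUR.GaussBridge10
  Fermat.Agent.RED.BASE.EtaQuot12 Fermat.Agent.ES.N34 Fermat.Agent.ES.P36.ModelDefsP9
  Fermat.Agent.ES.P36.GenInst11 Fermat.Agent.ES.P36.GenItems20 Fermat.Agent.ES.P36.NumCoreP13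

variable {A : ValuationSubring Qbar} {K : IntermediateField ℚ Qbar} {M' q : ℕ} [NeZero M'] [NeZero q]

/-- **the suppliers of chapter (G) over an inertial `K`**, modulo `V1Facts` (M2) and `MidUnif` (M4/M6). -/
theorem genFactsP_of_isInertial [FiniteDimensional ℚ K] (hK : InertField27.IsInertial A K)
    (hq : q.Prime) (hqM : ¬ q ∣ M') (hA : A.LiesOverPrime q)
    {n e : ℕ} [NeZero n] (ht : tq (↥K) n e ∈ FK M' K) (hc : CombA26.HcombAt n e q M' A K)
    (hv1 : ∀ (π : ↥(AK A K)) (hπ : IsUnif (AK A K) π), V1Facts A K M' q hπ)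
    (hmid : ∀ (π : ↥(AK A K)) (hπ : IsUnif (AK A K) π)
      (O2 : ValuationSubring ↥(FK (M' * q * q) K)), IsMid M' q hπ O2 →
      ∃ T : ↥(FK (M' * q * q) K), MidUnif A K M' q hπ O2 T) :
    GenFactsP A K M' q where
  base := fun _ hπ => GenBaseInst17.baseFacts M' q hπ hq hA
  v1 := hv1
  v3 := fun _ hπ => V3Facts8.v3Facts M' q hπ
  kron := fun _ hπ => KronInst11.kronFacts_of_isInertial hK hq hqM hA hπ ht hc
  mid := hmid

/-- **`GenItemsP` over an inertial `K`**, `c₀ = q (q − 1) (q + 1)²`, modulo `V1Facts` and `MidUnif`. -/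
theorem genItemsP_of_isInertial [FiniteDimensional ℚ K] (hK : InertField27.IsInertial A K)
    (hq : q.Prime) (hqM : ¬ q ∣ M') (hA : A.LiesOverPrime q)
    {n e : ℕ} [NeZero n] (ht : tq (↥K) n e ∈ FK M' K) (hc : CombA26.HcombAt n e q M' A K)
    (hv1 : ∀ (π : ↥(AK A K)) (hπ : IsUnif (AK A K) π), V1Facts A K M' q hπ)
    (hmid : ∀ (π : ↥(AK A K)) (hπ : IsUnif (AK A K) π)
      (O2 : ValuationSubring ↥(FK (M' * q * q) K)), IsMid M' q hπ O2 →
      ∃ T : ↥(FK (M' * q * q) K), MidUnif A K M' q hπ O2 T) {m : ℕ} (hm : ¬ q ∣ m) :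
    GenItemsP q M' A K (q * (q - 1) * (q + 1) ^ 2) m :=
  genItemsP_of hq hA (genFactsP_of_isInertial hK hq hqM hA ht hc hv1 hmid) hm

end Fermat.Agent.ES.P36.GenFacts11
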