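/-
Program P (S36), chapter (MODEL-P), brick M6 (helper22): the RELATIVE residually independent family
`1, w, …, w^{q-1}` for a Gauss pull-back `V''` of `F''` over a Gauss pull-back `V'` of `F'`, along a
map `g : F' → F''` that is `V_q` (`𝐪 ↦ 𝐪^q`) on expansions — the purely inseparable residue
extension of degree `q` (`v₃ | O2'` along `α₂`, and `v₁ | O1'` along `β₂`), in the literal
elementwise shape of `UniqueExt20.eq_of_residually_independent` / `ThreeComplete22.three_complete`.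

`w` is any element of `F''` whose residue has order prime to `q` (in the model `w = jTop`,
`ι w = j(𝐪)`, order `-1`).
-/
import Mathlib
import Fermat.Agent.ES.N34.GaussEmb22
import Fermat.Agent.ES.N34.GaussVTwoFam25

set_option autoImplicit false
set_option linter.unusedSectionVars false

noncomputable section

open HahnSeries ModularCurve

namespace Fermat.Agent.ES.P36.RelFam22

open Fermat.Agent.RED.PUR.GaussGen8 Fermat.Agent.ES.N34.GaussEmb22
  Fermat.Agent.ES.N34.GaussVTwoFam25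

variable {K : Type*} [Field K] {O : ValuationSubring K} (q : ℕ) [NeZero q]
  {F' F'' : Type*} [Field F'] [Field F''] [Algebra K F'] [Algebra K F'']
  {ι' : F' →ₐ[K] LaurentSeries K} {ι'' : F'' →ₐ[K] LaurentSeries K}
  {V' : ValuationSubring F'} {V'' : ValuationSubring F''}

/-- `g` maps `V'` into `V''`. -/
theorem map_mem (hV' : IsGaussPullback O ι' V') (hV'' : IsGaussPullback O ι'' V'')
    (g : F' →+* F'') (hg : ∀ x, ι'' (g x) = qExpand K q (ι' x)) {x : F'} (hx : x ∈ V') :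
    g x ∈ V'' := by
  rw [hV'', hg]
  exact qExpand_mem_gaussRing q ((hV' x).mp hx)

/-- the residue of `g x` is `V_q` of the residue of `x`. -/
theorem redOf_map (hV' : IsGaussPullback O ι' V') (hV'' : IsGaussPullback O ι'' V'')
    (g : F' →+* F'') (hg : ∀ x, ι'' (g x) = qExpand K q (ι' x)) {x : F'} (hx : x ∈ V') :
    redOf hV'' ⟨g x, map_mem q hV' hV'' g hg hx⟩ = qExpand (Res O) q (redOf hV' ⟨x, hx⟩) := by
  rw [redOf_apply, redOf_apply]
  have h1 : (toGauss hV'' ⟨g x, map_mem q hV' hV'' g hg hx⟩ : ↥(gaussRing O)) =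
      ⟨qExpand K q ((toGauss hV' ⟨x, hx⟩ : ↥(gaussRing O)) : LaurentSeries K),
        qExpand_mem_gaussRing q (toGauss hV' ⟨x, hx⟩).2⟩ := Subtype.ext (hg x)
  rw [h1, gaussRed_qExpand]

/-- **The relative family** `1, w, …, w^{q-1}`: a combination with coefficients in `g(V')` lying in
`𝔪_{V''}` has all its coefficients in `g(𝔪_{V'})`. -/
theorem rel_family (hV' : IsGaussPullback O ι' V') (hV'' : IsGaussPullback O ι'' V'')
    (g : F' →+* F'') (hg : ∀ x, ι'' (g x) = qExpand K q (ι' x))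
    {w : F''} (hw : ι'' w ∈ gaussRing O) (hJ0 : gaussRed O ⟨ι'' w, hw⟩ ≠ 0)
    (hJ : IsCoprime (gaussRed O ⟨ι'' w, hw⟩).order (q : ℤ))
    (a : Fin q → F') (ha : ∀ i, a i ∈ V')
    (hsum : V''.valuation (∑ i, g (a i) * w ^ (i : ℕ)) < 1) :
    ∀ i, V'.valuation (a i) < 1 := by
  have hwV : w ∈ V'' := (hV'' w).mpr hw
  have hmem : ∀ i, g (a i) ∈ V'' := fun i => map_mem q hV' hV'' g hg (ha i)
  have hS : (∑ i, g (a i) * w ^ (i : ℕ)) ∈ V'' :=
    V''.toSubring.sum_mem fun i _ => V''.mul_mem _ _ (hmem i) (pow_mem hwV _)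
  have h0 : redOf hV'' ⟨_, hS⟩ = 0 := (redOf_eq_zero_iff hV'' ⟨_, hS⟩).mpr hsum
  have hsplit : (⟨_, hS⟩ : V'') = ∑ i, (⟨g (a i), hmem i⟩ : V'') * (⟨w, hwV⟩ : V'') ^ (i : ℕ) := by
    apply Subtype.ext
    push_cast
    rfl
  rw [hsplit, map_sum] at h0
  have h1 : ∑ i : Fin q, qExpand (Res O) q (redOf hV' ⟨a i, ha i⟩) *
      (gaussRed O ⟨ι'' w, hw⟩) ^ (i : ℕ) = 0 := by
    rw [← h0]
    refine Finset.sum_congr rfl fun i _ => ?_
    rw [map_mul, map_pow, redOf_map q hV' hV'' g hg (ha i)]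
    rfl
  have h2 := eq_zero_of_sum_qExpand_mul_pow q hJ0 hJ _ h1
  intro i
  exact (redOf_eq_zero_iff hV' ⟨a i, ha i⟩).mp (h2 i)

end Fermat.Agent.ES.P36.RelFam22
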