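/-
Program P (S36), chapter (MODEL-P), brick M6 (helper22): **table G2 at the model** — positions of the
vertical valuation rings of level `M' q²` over those of level `M' q`, and completeness of the list
`{v₁, v₂, v₃}`.  Written on top of MAIN only, at the `ModelDefs9` names with the pair `(M' * q, q)`:

  `F' = FK (M' * q) K`, `F'' = FK (M' * q * q) K`, `α₂ = alpha K (M' * q) q`, `β₂ = beta K (M' * q) q`,
  `O1' = O1 M' q`, `O2' = O2 M' q` (level `M' q`),
  `v₁ = O1 (M' * q) q` (expansion at `∞`), `v₃ = O2 (M' * q) q` (Fricke side, `= IsoM25.O2N (M'*q*q)`),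
  `v₂` = ANY valuation subring `V` with `V.comap α₂ = O1'`, `V ≠ v₁` (helper9's `IsMid`), together
  with the ramification witness `V.valuation ξ ^ (q - 1) = V.valuation π` (helper23's `NewtonTwo23`).

* `comap_alpha2_v1`, `comap_beta2_v1`, `comap_alpha2_v3`, `comap_beta2_v3`: the four positions.
* `isDiscOver_v1`: `FundIneq22.IsDiscOver v₁ π` along `α₂`.
* `rel_family_v3`: `1, w, …, w^{q-1}` (`w = jTop`) is residually independent for `v₃ | O2'` along `α₂`.
* `three_complete_model`: every valuation subring of `F''` with the same restriction to `K(t'')` as `v₁`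
  is `v₁`, `V` or `v₃` (`t'' = α₂ (tN q ht)`), in the literal `hall`-shape of `SatFam22.sat_both_fam`.
-/
import Mathlib
import Fermat.Agent.ES.N34.GaussVTwoInst25
import Fermat.Agent.ES.N35.PiMaps26
import Fermat.Agent.ES.P36.FundIneq22
import Fermat.Agent.ES.P36.ThreeComplete22
import Fermat.Agent.ES.P36.RelFam22

set_option autoImplicit false
set_option linter.unusedSectionVars false

noncomputable section

open HahnSeries ModularCurve IntermediateField Polynomial AlgebraicCurve

namespace Fermat.Agent.ES.P36.TableP22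

open Fermat.Agent.RED.Interface4 Fermat.Agent.RED.PUR.GaussGen8 Fermat.Agent.RED.PUR.KtGauss8
open Fermat.Agent.RED.PUR.G1Package8 Fermat.Agent.RED.PUR.GaussBridge10
open Fermat.Agent.ES.N34.GaussEmb22 Fermat.Agent.ES.N34.FrickeFK8 Fermat.Agent.ES.N34.ModelDefs9
open Fermat.Agent.ES.N34.ModelGlue22 Fermat.Agent.ES.N34.IsoM25
open Fermat.Agent.RED.BASE Fermat.Agent.RED.BASE.EtaQuot12
open Fermat.Agent.ES.P36.FundIneq22

set_option synthInstance.maxHeartbeats 400000
set_option maxHeartbeats 1000000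

variable {A : ValuationSubring Qbar} {K : IntermediateField ℚ Qbar} (M' q : ℕ) [NeZero M']
  [NeZero q] {π : ↥(AK A K)}

/-! ### The four positions of `v₁`, `v₃` -/

section Positions

variable (hu : IsUnif (AK A K) π)

/-- `v₁ | O1'` along `α₂`. -/
theorem comap_alpha2_v1 :
    (O1 (M' * q) q hu (FK_le_fracField A K (M' * q * q))).comap (alpha K (M' * q) q).toRingHom =
      O1 M' q hu (FK_le_fracField A K (M' * q)) :=
  by
    ext z
    rw [ValuationSubring.mem_comap]
    exact Fermat.Agent.ES.N34.BranchInt5.alpha_mem_O1_iff (M' * q) q hu _ z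

/-- `v₁ | O1'` along `β₂`. -/
theorem comap_beta2_v1 :
    (O1 (M' * q) q hu (FK_le_fracField A K (M' * q * q))).comap (beta K (M' * q) q).toRingHom =
      O1 M' q hu (FK_le_fracField A K (M' * q)) :=
  by
    ext z
    rw [ValuationSubring.mem_comap]
    exact Fermat.Agent.ES.N35.PiMaps26.beta_mem_O1_iff (M' * q) q hu _ z

/-- `v₃ | O2'` along `β₂`. -/
theorem comap_beta2_v3 :
    (O2 (M' * q) q hu (FK_le_fracField A K (M' * q * q))).comap (beta K (M' * q) q).toRingHom =
      O2 M' q hu (FK_le_fracField A K (M' * q)) :=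
  by
    ext z
    rw [ValuationSubring.mem_comap]
    show beta K (M' * q) q z ∈ O2 (M' * q) q hu _ ↔ _
    rw [mem_O2_iff_wN_mem_O1, Fermat.Agent.ES.N34.FrickeV11.wN_beta,
      Fermat.Agent.ES.N34.BranchInt5.alpha_mem_O1_iff]
    rfl

/-- `v₃ | O2'` along `α₂`. -/
theorem comap_alpha2_v3 :
    (O2 (M' * q) q hu (FK_le_fracField A K (M' * q * q))).comap (alpha K (M' * q) q).toRingHom =
      O2 M' q hu (FK_le_fracField A K (M' * q)) :=
  by
    ext z
    rw [ValuationSubring.mem_comap]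
    show alpha K (M' * q) q z ∈ O2 (M' * q) q hu _ ↔ _
    rw [Fermat.Agent.ES.N34.BranchInt5.alpha_mem_O2_iff_qExpand,
      Fermat.Agent.ES.N35.PiMaps26.qExpand_mem_gaussRing_iff hu q
        (FK_le_fracField A K (M' * q) (frickeFK (M' * q) K z).2)]
    rfl

end Positions

/-! ### `IsDiscOver` for Gauss pull-backs -/

section Disc

variable {K₀ : Type*} [Field K₀] {O : ValuationSubring K₀} [IsDiscreteValuationRing ↥O] {ϖ : ↥O}
  {F' F'' : Type*} [Field F'] [Field F''] [Algebra K₀ F'] [Algebra K₀ F''] [Algebra F' F'']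
  [IsScalarTower K₀ F' F''] {ι : F'' →ₐ[K₀] LaurentSeries K₀} {V : ValuationSubring F''}

/-- A Gauss pull-back is discrete over any intermediate field, with uniformiser `ϖ`. -/
theorem isDiscOver_of_gaussPullback (hV : IsGaussPullback O ι V) (hϖ : Irreducible ϖ) :
    IsDiscOver V (algebraMap K₀ F' (ϖ : K₀)) := by
  have hmap : algebraMap F' F'' (algebraMap K₀ F' (ϖ : K₀)) = algebraMap K₀ F'' (ϖ : K₀) :=
    (IsScalarTower.algebraMap_apply K₀ F' F'' _).symm
  have hϖ0 : algebraMap K₀ F'' (ϖ : K₀) ≠ 0 := fun h0 =>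
    hϖ.ne_zero (Subtype.ext ((map_eq_zero_iff _ (algebraMap K₀ F'').injective).mp h0))
  refine ⟨?_, ?_, ?_, ?_⟩
  · rw [hmap]; exact val_pi_lt_one hV hϖ
  · intro h0
    exact hϖ.ne_zero (Subtype.ext ((map_eq_zero_iff _ (algebraMap K₀ F').injective).mp h0))
  · intro c hc
    rw [hmap]
    by_cases hc0 : algebraMap F' F'' c = 0
    · rw [hc0, map_zero]; exact zero_le
    have hmem : algebraMap F' F'' c ∈ V := (V.valuation_le_one_iff _).mp hc.le
    have hinv : (algebraMap F' F'' c)⁻¹ ∉ V :=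
      ((Fermat.Agent.RED.PUR.UniqueExt20.val_lt_one_iff V).mp hc).resolve_left hc0
    obtain ⟨c', hc', hcc'⟩ := unif hV hϖ _ hmem hinv
    rw [hcc', map_mul]
    exact mul_le_of_le_one_right' ((V.valuation_le_one_iff _).mpr hc')
  · intro x
    rw [hmap]
    exact arch hV hϖ x

end Disc

/-! ### The relative family of `v₃ | O2'` along `α₂` and of `v₁ | O1'` along `β₂` -/

section Rel

variable [IsDiscreteValuationRing ↥(AK A K)] (hu : IsUnif (AK A K) π)

/-- `ι₃ (jTop) = j(𝐪)` lies in the Gauss ring, its residue is non-zero of order `-1`. -/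
theorem jTop_data (N : ℕ) [NeZero N] :
    ∃ hw : iotaAlg N K (jTop K N) ∈ gaussRing (AK A K),
      gaussRed (AK A K) ⟨iotaAlg N K (jTop K N), hw⟩ ≠ 0 ∧
      IsCoprime (gaussRed (AK A K) ⟨iotaAlg N K (jTop K N), hw⟩).order (q : ℤ) := by
  have hw : iotaAlg N K (jTop K N) ∈ gaussRing (AK A K) := by
    rw [iotaAlg_jTop]; exact jqd_mem_gaussRing (AK A K) 1
  have hwe : (⟨iotaAlg N K (jTop K N), hw⟩ : ↥(gaussRing (AK A K))) =
      ⟨qExpand K 1 (jqModC K), jqd_mem_gaussRing (AK A K) 1⟩ :=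
    Subtype.ext (iotaAlg_jTop K N)
  refine ⟨hw, ?_, ?_⟩
  · rw [hwe]; exact gaussRed_jqd_ne_zero (AK A K) 1
  · rw [hwe, order_gaussRed_jqd]
    simp only [Nat.cast_one]
    exact (isCoprime_one_left (x := (q : ℤ))).neg_left

/-- **`v₃ | O2'` along `α₂`**: `1, w, …, w^{q-1}`, `w = jTop`, residually independent (UniqueExt20
shape, unfolded). -/
theorem rel_family_v3 (a : Fin q → FK (M' * q) K)
    (ha : ∀ i, a i ∈ O2 M' q hu (FK_le_fracField A K (M' * q)))
    (hsum : (O2 (M' * q) q hu (FK_le_fracField A K (M' * q * q))).valuation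
      (∑ i, alpha K (M' * q) q (a i) * jTop K (M' * q * q) ^ (i : ℕ)) < 1) :
    ∀ i, (O2 M' q hu (FK_le_fracField A K (M' * q))).valuation (a i) < 1 := by
  obtain ⟨hw, hJ0, hJ⟩ := jTop_data (A := A) (K := K) q (M' * q * q)
  exact Fermat.Agent.ES.P36.RelFam22.rel_family q
    (isGaussPullback_O2 (A := A) (K := K) M' q hu (FK_le_fracField A K (M' * q)))
    (isGaussPullback_O2 (A := A) (K := K) (M' * q) q hu (FK_le_fracField A K (M' * q * q)))
    (alpha K (M' * q) q).toRingHom
    (fun x => Fermat.Agent.ES.N34.FrickeV11.iota2_alpha K (M' * q) q x)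
    hw hJ0 hJ a ha hsum

end Rel

/-! ### Completeness of `{v₁, V₂, v₃}` at the model -/

section Complete

variable [hq : Fact q.Prime] [IsDiscreteValuationRing ↥(AK A K)] [CharP (Res (AK A K)) q]
  {n e : ℕ} [NeZero n]

/-- **(THREE) at the model.**  `V₂` is any valuation subring of `F''` over `O1'` (along `α₂`) different
from `v₁`, with the ramification witness `ξ`; `[F'' : α₂ F'] ≤ q`.  Then every valuation subring of
`F''` with the same restriction to `K(t'')`, `t'' = α₂ (tN q ht)`, as `v₁` is `v₁`, `V₂` or `v₃`. -/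
theorem three_complete_model (hπ : Irreducible π) (hqM : ¬ q ∣ M') (ht : tq (↥K) n e ∈ FK M' K)
    (hjt : jqModC (↥K) ∈ Kt (AK A K) (TBridge15.tG (AK A K) n e))
    (hfin : FiniteAlong (↥K) (alpha K (M' * q) q))
    (hdeg : finrankAlong (↥K) (alpha K (M' * q) q) ≤ q)
    (V₂ : ValuationSubring ↥(FK (M' * q * q) K))
    (hmid : V₂.comap (alpha K (M' * q) q).toRingHom =
      O1 M' q (isUnif_of_irreducible (AK A K) hπ) (FK_le_fracField A K (M' * q)))
    (hne : O1 (M' * q) q (isUnif_of_irreducible (AK A K) hπ) (FK_le_fracField A K (M' * q * q)) ≠ V₂)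
    {ξ : FK (M' * q * q) K}
    (hξ : V₂.valuation ξ ^ (q - 1) =
      V₂.valuation (algebraMap (↥K) (FK (M' * q * q) K) ((π : ↥(AK A K)) : ↥K)))
    (V : ValuationSubring ↥(FK (M' * q * q) K))
    (hV : V.comap (algebraMap (IntermediateField.adjoin (↥K) {alpha K (M' * q) q (tN q ht)})
        (FK (M' * q * q) K)) =
      (O1 (M' * q) q (isUnif_of_irreducible (AK A K) hπ) (FK_le_fracField A K (M' * q * q))).comap
        (algebraMap (IntermediateField.adjoin (↥K) {alpha K (M' * q) q (tN q ht)})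
          (FK (M' * q * q) K))) :
    V = O1 (M' * q) q (isUnif_of_irreducible (AK A K) hπ) (FK_le_fracField A K (M' * q * q)) ∨
      V = V₂ ∨
      V = O2 (M' * q) q (isUnif_of_irreducible (AK A K) hπ) (FK_le_fracField A K (M' * q * q)) := by
  set hu := isUnif_of_irreducible (AK A K) hπ with hhu
  have G := Fermat.Agent.ES.N34.GaussVTwoInst25.glueOut_tq (A := A) M' q hπ
    (FK_le_fracField A K (M' * q)) hqM ht hjt
  have hV₁ := isGaussPullback_O1 (A := A) (K := K) (M' * q) q hu (FK_le_fracField A K (M' * q * q))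
  have hq1 : 1 ≤ q := hq.out.one_le
  have hcomm : alpha K (M' * q) q (algebraMap ↥K ↥(FK (M' * q) K) ((π : ↥(AK A K)) : ↥K)) =
      algebraMap ↥K ↥(FK (M' * q * q) K) ((π : ↥(AK A K)) : ↥K) := AlgHom.commutes _ _
  have hπ0 : algebraMap ↥K ↥(FK (M' * q * q) K) ((π : ↥(AK A K)) : ↥K) ≠ 0 := fun h0 =>
    hπ.ne_zero (Subtype.ext ((map_eq_zero_iff _ (algebraMap ↥K ↥(FK (M' * q * q) K)).injective).mp h0))
  obtain ⟨hw, -, -⟩ := jTop_data (A := A) (K := K) q (M' * q * q)
  refine Fermat.Agent.ES.P36.ThreeComplete22.three_complete_along (alpha K (M' * q) q) (tN q ht)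
    (O1 M' q hu (FK_le_fracField A K (M' * q))) (O2 M' q hu (FK_le_fracField A K (M' * q)))
    G.two _ V₂ _ (comap_alpha2_v1 M' q hu) hmid (comap_alpha2_v3 M' q hu) hne
    (ϖ := algebraMap ↥K ↥(FK (M' * q) K) ((π : ↥(AK A K)) : ↥K)) ?_ ?_ ?_ ?_
    (ξ := ξ) (e := q - 1) ?_ hfin ?_ (n₃ := q) hdeg
    (fun i => jTop K (M' * q * q) ^ (i : ℕ)) ?_ ?_ V hV
  · rw [hcomm]; exact val_pi_lt_one hV₁ hπ
  · intro h0
    exact hπ.ne_zero (Subtype.ext ((map_eq_zero_iff _ (algebraMap ↥K ↥(FK (M' * q) K)).injective).mp h0))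
  · intro c hc
    rw [hcomm]
    by_cases hc0 : alpha K (M' * q) q c = 0
    · rw [hc0, map_zero]; exact zero_le
    have hmem : alpha K (M' * q) q c ∈ O1 (M' * q) q hu (FK_le_fracField A K (M' * q * q)) :=
      (ValuationSubring.valuation_le_one_iff _ _).mp hc.le
    have hinv := ((Fermat.Agent.RED.PUR.UniqueExt20.val_lt_one_iff _).mp hc).resolve_left hc0
    obtain ⟨c', hc', hcc'⟩ := unif hV₁ hπ _ hmem hinv
    rw [hcc', map_mul]
    exact mul_le_of_le_one_right' ((ValuationSubring.valuation_le_one_iff _ _).mpr hc')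
  · intro x
    rw [hcomm]
    exact arch hV₁ hπ x
  · rw [hξ, hcomm]
  · have : 1 + (q - 1) = q := by omega
    rw [this]; exact hdeg
  · intro i
    exact pow_mem ((isGaussPullback_O2 (A := A) (K := K) (M' * q) q hu
      (FK_le_fracField A K (M' * q * q)) _).mpr hw) _
  · intro a ha hsum
    exact rel_family_v3 M' q hu a ha hsum

end Complete

end Fermat.Agent.ES.P36.TableP22
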