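/-
Program P (S36), chapter MODEL-P, brick M6-hall (helper11): **completeness of `{v₁, v₂, v₃}` over the Gauss valuation of
`K(t)` at the MODEL-P names** — the input `hall` of M7 (`ModelP4.AllAtComap` / `ModelP4.AllAt`) and of
`SatFam22.sat_both_fam` — from helper22's `TableP22.three_complete_model` (stated at the `ModelDefs9` names of the pair
`(M' * q, q)`).

For a middle valuation ring `O2` (`ModelDefsP9.IsMid`) with a ramification witness `ξ`
(`O2.valuation ξ ^ (q − 1) = O2.valuation π`; e.g. `T` of `GenInst11.MidUnif`): every valuation subring of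
`F″ = FK (M' q²) K` which has the same restriction to `K(t)` as `O1` is one of `O1`, `O2`, `O3`.

* `hall_comap`        : the comap form = the body of `ModelP4.AllAtComap q ht hπ O2`, spelled out;
* `hall_elem`         : the elementwise form = the body of `ModelP4.AllAt q ht hπ O2`, spelled out;
* `hall_comap_of_mid`, `hall_elem_of_mid` : the same for EVERY middle ring, from `∀ IsMid O2, ∃ T, MidUnif … O2 T`.
Per `K`: `[FiniteDimensional ℚ K]`, `A` over `q`, `q ∤ M'`, `tq ∈ F_{M'}`, `j ∈ K(tq)`; no `∃ K₀`, no normality.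
-/
import Mathlib
import Fermat.Agent.ES.P36.TableP22
import Fermat.Agent.ES.P36.HeckeDeg19
import Fermat.Agent.ES.P36.GenInst11

set_option autoImplicit false
set_option linter.unusedSectionVars false
set_option linter.style.haveILetI false
set_option synthInstance.maxHeartbeats 400000
set_option maxHeartbeats 4000000

noncomputable section

open HahnSeries ModularCurve AlgebraicCurve IntermediateField

namespace Fermat.Agent.ES.P36.HallModel11

open Fermat.Agent.RED.Interface4 Fermat.Agent.RED.PUR.GaussGen8 Fermat.Agent.RED.PUR.GaussBridge10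
  Fermat.Agent.RED.PUR.KtGauss8 Fermat.Agent.RED.BASE Fermat.Agent.RED.BASE.EtaQuot12
  Fermat.Agent.ES.N34 Fermat.Agent.ES.P36.ModelDefsP9
  Fermat.Agent.ES.P36.OrdVal20 Fermat.Agent.ES.P36.GenInst11

variable {A : ValuationSubring Qbar} {K : IntermediateField ℚ Qbar} {M' q : ℕ} [NeZero M'] [NeZero q]
  {n e : ℕ} [NeZero n] {π : ↥(AK A K)}

/-- **completeness, disjunction form at the MODEL-P names** (`t`, `O1`, `O3` of `ModelDefsP9`). -/
theorem three_complete [FiniteDimensional ℚ K] (hq : q.Prime) (hqM : ¬ q ∣ M')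
    (hA : A.LiesOverPrime q) (ht : tq (↥K) n e ∈ FK M' K)
    (hJ : jqModC (↥K) ∈ IntermediateField.adjoin (↥K) {tq (↥K) n e})
    (hπ : IsUnif (AK A K) π) {O2 : ValuationSubring ↥(FK (M' * q * q) K)}
    (hO2 : IsMid M' q hπ O2) {ξ : ↥(FK (M' * q * q) K)}
    (hξ : O2.valuation ξ ^ (q - 1) = O2.valuation (pi2 A K M' q π))
    (V : ValuationSubring ↥(FK (M' * q * q) K))
    (hV : V.comap (algebraMap (IntermediateField.adjoin (↥K) {t q ht}) ↥(FK (M' * q * q) K)) =
      (O1 M' q hπ).comap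
        (algebraMap (IntermediateField.adjoin (↥K) {t q ht}) ↥(FK (M' * q * q) K))) :
    V = O1 M' q hπ ∨ V = O2 ∨ V = O3 M' q hπ := by
  haveI : Fact q.Prime := ⟨hq⟩
  haveI hdvr : IsDiscreteValuationRing ↥(AK A K) :=
    Fermat.Agent.RED.DESC.NumberFieldDVR27.isDiscreteValuationRing_AK A K hq.ne_zero hA
  haveI : CharP (Res (AK A K)) q :=
    Fermat.Agent.RED.DESC.NumberFieldDVR27.charP_residueField_AK A K hq hA
  have hirr : Irreducible π := (IsDiscreteValuationRing.irreducible_iff_uniformizer π).mpr hπ.max_eq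
  have hqN : q ∣ M' * q := dvd_mul_left q M'
  have hjt : jqModC (↥K) ∈ Kt (AK A K) (TBridge15.tG (AK A K) n e) := hJ
  have hfin : FiniteAlong (↥K) (ModelDefs9.alpha K (M' * q) q) :=
    HeckeDeg19.finiteAlong_alpha_of_dvd (↥K) (M' * q) q hq hqN
  have hdeg : finrankAlong (↥K) (ModelDefs9.alpha K (M' * q) q) ≤ q :=
    (HeckeDeg19.finrankAlong_alpha_of_dvd (↥K) (M' * q) q hq hqN).le
  have hmid : O2.comap (ModelDefs9.alpha K (M' * q) q).toRingHom =
      ModelDefs9.O1 M' q (isUnif_of_irreducible (AK A K) hirr) (FK_le_fracField A K (M' * q)) :=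
    hO2.1
  have hne : ModelDefs9.O1 (M' * q) q (isUnif_of_irreducible (AK A K) hirr)
      (FK_le_fracField A K (M' * q * q)) ≠ O2 := fun h => hO2.2 h.symm
  exact TableP22.three_complete_model M' q hirr hqM ht hjt hfin hdeg O2 hmid hne hξ V hV

/-- **the comap form** (= the body of `ModelP4.AllAtComap q ht hπ O2`; literal `hall` of
`SatFam22.sat_both_fam` for the family `Ofam M' q hπ O2`, `i₀ = 0`). -/
theorem hall_comap [FiniteDimensional ℚ K] (hq : q.Prime) (hqM : ¬ q ∣ M')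
    (hA : A.LiesOverPrime q) (ht : tq (↥K) n e ∈ FK M' K)
    (hJ : jqModC (↥K) ∈ IntermediateField.adjoin (↥K) {tq (↥K) n e})
    (hπ : IsUnif (AK A K) π) {O2 : ValuationSubring ↥(FK (M' * q * q) K)}
    (hO2 : IsMid M' q hπ O2) {ξ : ↥(FK (M' * q * q) K)}
    (hξ : O2.valuation ξ ^ (q - 1) = O2.valuation (pi2 A K M' q π)) :
    ∀ V : ValuationSubring ↥(FK (M' * q * q) K),
      V.comap (algebraMap (IntermediateField.adjoin (↥K) {t q ht}) ↥(FK (M' * q * q) K)) =
        (Ofam M' q hπ O2 0).comap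
          (algebraMap (IntermediateField.adjoin (↥K) {t q ht}) ↥(FK (M' * q * q) K)) →
      ∃ i, V = Ofam M' q hπ O2 i := by
  intro V hV
  rcases three_complete hq hqM hA ht hJ hπ hO2 hξ V hV with h | h | h
  · exact ⟨0, h⟩
  · exact ⟨1, h⟩
  · exact ⟨2, h⟩

/-- **the elementwise form** (= the body of `ModelP4.AllAt q ht hπ O2`). -/
theorem hall_elem [FiniteDimensional ℚ K] (hq : q.Prime) (hqM : ¬ q ∣ M')
    (hA : A.LiesOverPrime q) (ht : tq (↥K) n e ∈ FK M' K)
    (hJ : jqModC (↥K) ∈ IntermediateField.adjoin (↥K) {tq (↥K) n e})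
    (hπ : IsUnif (AK A K) π) {O2 : ValuationSubring ↥(FK (M' * q * q) K)}
    (hO2 : IsMid M' q hπ O2) {ξ : ↥(FK (M' * q * q) K)}
    (hξ : O2.valuation ξ ^ (q - 1) = O2.valuation (pi2 A K M' q π)) :
    ∀ V : ValuationSubring ↥(FK (M' * q * q) K),
      (∀ a : ↥(FK (M' * q * q) K), a ∈ IntermediateField.adjoin (↥K) {t q ht} →
        (a ∈ V ↔ a ∈ O1 M' q hπ)) →
      V = O1 M' q hπ ∨ V = O2 ∨ V = O3 M' q hπ := by
  intro V hV
  refine three_complete hq hqM hA ht hJ hπ hO2 hξ V ?_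
  ext a
  rw [ValuationSubring.mem_comap, ValuationSubring.mem_comap]
  exact hV _ a.2

/-- the ramification witness from `MidUnif`. -/
theorem witness_of_midUnif {hπ : IsUnif (AK A K) π} {O2 : ValuationSubring ↥(FK (M' * q * q) K)}
    {T : ↥(FK (M' * q * q) K)} (hq : q.Prime) (Mid : MidUnif A K M' q hπ O2 T) :
    O2.valuation T ^ (q - 1) = O2.valuation (pi2 A K M' q π) := by
  have h := Mid.hTπ
  unfold HasOrd at h
  have e : ((q : ℤ) - 1) = ((q - 1 : ℕ) : ℤ) := by
    have := hq.one_lt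
    omega
  rw [e, zpow_natCast] at h
  exact h.symm

/-- **`hall` for every middle valuation ring, comap form** (= `∀ ht π hπ O2, IsMid … → AllAtComap q ht hπ O2`). -/
theorem hall_comap_of_mid [FiniteDimensional ℚ K] (hq : q.Prime) (hqM : ¬ q ∣ M')
    (hA : A.LiesOverPrime q) (hJ : jqModC (↥K) ∈ IntermediateField.adjoin (↥K) {tq (↥K) n e})
    (hmid : ∀ (π : ↥(AK A K)) (hπ : IsUnif (AK A K) π)
      (O2 : ValuationSubring ↥(FK (M' * q * q) K)), IsMid M' q hπ O2 →
      ∃ T : ↥(FK (M' * q * q) K), MidUnif A K M' q hπ O2 T) :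
    ∀ (ht : tq (↥K) n e ∈ FK M' K) (π : ↥(AK A K)) (hπ : IsUnif (AK A K) π)
      (O2 : ValuationSubring ↥(FK (M' * q * q) K)), IsMid M' q hπ O2 →
      ∀ V : ValuationSubring ↥(FK (M' * q * q) K),
        V.comap (algebraMap (IntermediateField.adjoin (↥K) {t q ht}) ↥(FK (M' * q * q) K)) =
          (Ofam M' q hπ O2 0).comap
            (algebraMap (IntermediateField.adjoin (↥K) {t q ht}) ↥(FK (M' * q * q) K)) →
        ∃ i, V = Ofam M' q hπ O2 i := by
  intro ht π hπ O2 hO2
  obtain ⟨T, Mid⟩ := hmid π hπ O2 hO2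
  exact hall_comap hq hqM hA ht hJ hπ hO2 (witness_of_midUnif hq Mid)

/-- **`hall` for every middle valuation ring, elementwise form** (= `∀ ht π hπ O2, IsMid … → AllAt q ht hπ O2`,
the literal `hall` of `ModelP4.modelItemsP_at` / `multiItemsP_at`). -/
theorem hall_elem_of_mid [FiniteDimensional ℚ K] (hq : q.Prime) (hqM : ¬ q ∣ M')
    (hA : A.LiesOverPrime q) (hJ : jqModC (↥K) ∈ IntermediateField.adjoin (↥K) {tq (↥K) n e})
    (hmid : ∀ (π : ↥(AK A K)) (hπ : IsUnif (AK A K) π)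
      (O2 : ValuationSubring ↥(FK (M' * q * q) K)), IsMid M' q hπ O2 →
      ∃ T : ↥(FK (M' * q * q) K), MidUnif A K M' q hπ O2 T) :
    ∀ (ht : tq (↥K) n e ∈ FK M' K) (π : ↥(AK A K)) (hπ : IsUnif (AK A K) π)
      (O2 : ValuationSubring ↥(FK (M' * q * q) K)), IsMid M' q hπ O2 →
      ∀ V : ValuationSubring ↥(FK (M' * q * q) K),
        (∀ a : ↥(FK (M' * q * q) K), a ∈ IntermediateField.adjoin (↥K) {t q ht} →
          (a ∈ V ↔ a ∈ O1 M' q hπ)) →
        V = O1 M' q hπ ∨ V = O2 ∨ V = O3 M' q hπ := by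
  intro ht π hπ O2 hO2
  obtain ⟨T, Mid⟩ := hmid π hπ O2 hO2
  exact hall_elem hq hqM hA ht hJ hπ hO2 (witness_of_midUnif hq Mid)

end Fermat.Agent.ES.P36.HallModel11
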