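/-
Program P (S36), chapter (R8) "points of type I", brick M2 third file (helper25): **the inputs of
`RegIGauss16.locStartM_gauss` / `RegIOne16.oneBranch_gauss` at the level `M' q²`**, per `K`, in
helper16's literal shapes.

* `hcomb_of_res` (abstract): residue degree one along `φ₂` (`V | W`) and along `φ₁` (`W | O_M`), with `π`
  a uniformiser of `V`, give `V = φ₂ φ₁ (O_M) + π V`;
* `hcomb_O1` : `hcomb` at `(φ, Oj) = (α₂ ∘ α, O1)` and `hcomb_O3` : `hcomb` at `(β₂ ∘ β, O3)`, from the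
  supplier structures of `GenInst11` (`GenModel.resα1` / `GenModelB.resβ3`: residue degree one of `V₁ | W1`
  along `α₂` resp. of `V₃ | W2` along `β₂`, which come from the ramification `e = q − 1` of the middle ring and
  `Σ e f ≤ q`; `KronFacts.res1/res2`: residue degree one at level `q`);
* the C₁-side inputs `hOj`, `hφO`, `hy`, `htw` (both charts) for `φ₁ = α₂ ∘ α`, `t = φ₁ t_M` (`rfl`).
-/
import Mathlib
import Fermat.Agent.RED.PUR.G1Package8
import Fermat.Agent.ES.N34.CompHyp16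
import Fermat.Agent.ES.P36.GaussVOneSq25
import Fermat.Agent.ES.P36.GenInstB11

set_option autoImplicit false
set_option linter.unusedSectionVars false
set_option synthInstance.maxHeartbeats 400000
set_option maxHeartbeats 1000000

noncomputable section

open HahnSeries ModularCurve

namespace Fermat.Agent.ES.P36.HcombSq25

/-! ### abstract composition -/

section Abstract

variable {K : Type*} [Field K] {FM F' F'' : Type*} [Field FM] [Field F'] [Field F'']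
  [Algebra K FM] [Algebra K F'] [Algebra K F'']

/-- **`V = φ₂ φ₁ (O_M) + π V`** from residue degree one in both steps. -/
theorem hcomb_of_res (π : K) (hπ0 : π ≠ 0) (φ₁ : FM →ₐ[K] F') (φ₂ : F' →ₐ[K] F'')
    {OM : ValuationSubring FM} {W : ValuationSubring F'} {V : ValuationSubring F''}
    (hc : V.comap φ₂.toRingHom = W)
    (res2 : ∀ h ∈ V, ∃ x ∈ W, V.valuation (h - φ₂.toRingHom x) < 1)
    (res1 : ∀ x ∈ W, ∃ z ∈ OM, W.valuation (x - φ₁ z) < 1)
    (unifV : ∀ x : F'', V.valuation x < 1 → V.valuation x ≤ V.valuation (algebraMap K F'' π)) :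
    ∀ h ∈ V, ∃ z ∈ OM, ∃ c ∈ V, h - φ₂ (φ₁ z) = algebraMap K F'' π * c := by
  intro h hh
  obtain ⟨x, hxW, hx⟩ := res2 h hh
  obtain ⟨z, hz, hxz⟩ := res1 x hxW
  have h1 : V.valuation (φ₂.toRingHom (x - φ₁ z)) < 1 :=
    Fermat.Agent.ES.P36.GenAbs20.val_map_lt_one hc hxz
  have h2 : V.valuation (h - φ₂ (φ₁ z)) < 1 := by
    have e : h - φ₂ (φ₁ z) = (h - φ₂.toRingHom x) + φ₂.toRingHom (x - φ₁ z) := by
      rw [map_sub]
      show h - φ₂ (φ₁ z) = h - φ₂ x + (φ₂ x - φ₂ (φ₁ z))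
      ring
    rw [e]
    exact Valuation.map_add_lt _ hx h1
  have h3 := unifV _ h2
  have hπF : algebraMap K F'' π ≠ 0 := (map_ne_zero _).mpr hπ0
  have hvπ : V.valuation (algebraMap K F'' π) ≠ 0 := (Valuation.ne_zero_iff _).mpr hπF
  refine ⟨z, hz, (h - φ₂ (φ₁ z)) / algebraMap K F'' π, ?_, ?_⟩
  · rw [← V.valuation_le_one_iff, map_div₀]
    exact div_le_one_of_le₀ h3 zero_le
  · rw [mul_div_cancel₀ _ hπF]

end Abstract

/-! ### the model -/

open Fermat.Agent.RED.Interface4 Fermat.Agent.RED.PUR.GaussGen8 Fermat.Agent.RED.PUR.GaussBridge10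
  Fermat.Agent.RED.PUR.G1Package8 Fermat.Agent.RED.PUR.ChartGeneric22
  Fermat.Agent.ES.N34 Fermat.Agent.ES.N34.GaussEmb22 Fermat.Agent.ES.N34.CompHyp16
  Fermat.Agent.ES.P36.ModelDefsP9 Fermat.Agent.ES.P36.OrdVal20 Fermat.Agent.ES.P36.GenAbs20
  Fermat.Agent.ES.P36.GenAlg20 Fermat.Agent.ES.P36.GenInst11 Fermat.Agent.ES.P36.GenInstB11
  Fermat.Agent.RED.BASE Fermat.Agent.RED.BASE.EtaQuot12

variable {A : ValuationSubring Qbar} {K : IntermediateField ℚ Qbar} (M' q : ℕ) [NeZero M'] [NeZero q]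
  {π : ↥(AK A K)}

/-- `φ₁ = α₂ ∘ α : F_{M'} → F_{M' q²}` (expansions unchanged). -/
def phi1 (K : IntermediateField ℚ Qbar) (M' q : ℕ) [NeZero M'] [NeZero q] :
    ↥(FK M' K) →ₐ[↥K] ↥(FK (M' * q * q) K) :=
  (alpha2 K M' q).comp (ModelDefs9.alpha K M' q)

/-- `φ₃ = β₂ ∘ β : F_{M'} → F_{M' q²}` (expansions `𝐪 ↦ 𝐪^{q²}`). -/
def phi3 (K : IntermediateField ℚ Qbar) (M' q : ℕ) [NeZero M'] [NeZero q] :
    ↥(FK M' K) →ₐ[↥K] ↥(FK (M' * q * q) K) :=
  (beta2 K M' q).comp (ModelDefs9.beta K M' q)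

theorem phi1_apply (z : ↥(FK M' K)) :
    phi1 K M' q z = alpha2 K M' q (ModelDefs9.alpha K M' q z) := rfl

theorem phi3_apply (z : ↥(FK M' K)) :
    phi3 K M' q z = beta2 K M' q (ModelDefs9.beta K M' q z) := rfl

theorem algebraMap_AK_eq_pi2 :
    algebraMap ↥(AK A K) ↥(FK (M' * q * q) K) π = pi2 A K M' q π :=
  Subtype.ext ((Fermat.Agent.RED.NumInst4.coe_algebraMap_OE (AK A K) (FK (M' * q * q) K) π).trans
    (algebraMap_eq_C _).symm)

section Hcomb

variable {M' q} [IsDiscreteValuationRing ↥(AK A K)]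

/-- **`hcomb` at `(α₂ ∘ α, O1)`** in the literal shape of `RegIGauss16.locStartM_gauss`. -/
theorem hcomb_O1 (hq : q.Prime) (hπ : Irreducible π)
    (B : BaseFacts A K M' q (isUnif_of_irreducible (AK A K) hπ))
    (X1 : V1Facts A K M' q (isUnif_of_irreducible (AK A K) hπ))
    (X3 : V3Facts A K M' q (isUnif_of_irreducible (AK A K) hπ))
    (Kr : KronFacts A K M' q (isUnif_of_irreducible (AK A K) hπ))
    {O : ValuationSubring ↥(FK (M' * q * q) K)} {T : ↥(FK (M' * q * q) K)}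
    (Mid : MidUnif A K M' q (isUnif_of_irreducible (AK A K) hπ) O T) :
    ∀ x ∈ O1 M' q (isUnif_of_irreducible (AK A K) hπ),
      ∃ z ∈ OvE (AK A K) hπ (FK M' K) (FK_le_fracField A K M'),
        ∃ c ∈ O1 M' q (isUnif_of_irreducible (AK A K) hπ),
          x - phi1 K M' q z = algebraMap ↥(AK A K) ↥(FK (M' * q * q) K) π * c := by
  have G := genModel_model hq B X1 X3 Kr Mid
  intro x hx
  rw [algebraMap_AK_eq_pi2]
  exact hcomb_of_res (π : ↥K) B.hπ0 (ModelDefs9.alpha K M' q) (alpha2 K M' q) G.cα1 G.resα1 Kr.res1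
    X1.unif x hx

/-- **`hcomb` at `(β₂ ∘ β, O3)`** in the literal shape of `RegIGauss16.locStartM_gauss`. -/
theorem hcomb_O3 (hq : q.Prime) (hπ : Irreducible π)
    (B : BaseFacts A K M' q (isUnif_of_irreducible (AK A K) hπ))
    (X1 : V1Facts A K M' q (isUnif_of_irreducible (AK A K) hπ))
    (X3 : V3Facts A K M' q (isUnif_of_irreducible (AK A K) hπ))
    (Kr : KronFacts A K M' q (isUnif_of_irreducible (AK A K) hπ))
    {O : ValuationSubring ↥(FK (M' * q * q) K)} {T : ↥(FK (M' * q * q) K)}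
    (Mid : MidUnif A K M' q (isUnif_of_irreducible (AK A K) hπ) O T) :
    ∀ x ∈ O3 M' q (isUnif_of_irreducible (AK A K) hπ),
      ∃ z ∈ OvE (AK A K) hπ (FK M' K) (FK_le_fracField A K M'),
        ∃ c ∈ O3 M' q (isUnif_of_irreducible (AK A K) hπ),
          x - phi3 K M' q z = algebraMap ↥(AK A K) ↥(FK (M' * q * q) K) π * c := by
  have GB := genModelB_model hq B X1 X3 Kr Mid
  intro x hx
  rw [algebraMap_AK_eq_pi2]
  exact hcomb_of_res (π : ↥K) B.hπ0 (ModelDefs9.beta K M' q) (beta2 K M' q) GB.cβ3 GB.resβ3 Kr.res2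
    X3.unif x hx

end Hcomb

/-! ### the remaining C₁-side inputs -/

section COne

variable [IsDiscreteValuationRing ↥(AK A K)] {n e : ℕ} [NeZero n]

/-- `hOj`. -/
theorem hOj_O1 (hπ : IsUnif (AK A K) π) :
    IsGaussPullback (AK A K) (FK (M' * q * q) K).val (O1 M' q hπ) :=
  fun _ => Iff.rfl

/-- `hφO`. -/
theorem hphiO_O1 (hπ : Irreducible π) (z : ↥(FK M' K)) :
    phi1 K M' q z ∈ O1 M' q (isUnif_of_irreducible (AK A K) hπ) ↔
      z ∈ OvE (AK A K) hπ (FK M' K) (FK_le_fracField A K M') := by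
  rw [mem_OvE_iff]
  exact GaussVOneSq25.alpha2_alpha_mem_O1_iff M' q (isUnif_of_irreducible (AK A K) hπ)
    (FK_le_fracField A K (M' * q * q)) z

/-- `t = φ₁ t_M`. -/
theorem t_eq_phi1 (ht : tq (↥K) n e ∈ FK M' K) : t q ht = phi1 K M' q (ModelDefs9.tM ht) := rfl

/-- `hy`, chart `0`. -/
theorem hy0_O1 (ht : tq (↥K) n e ∈ FK M' K) :
    phi1 K M' q (ModelDefs9.tM ht) ∈ chart ↥(AK A K) (t q ht) :=
  self_mem_chart (R := ↥(AK A K)) (t q ht)

/-- `htw`, chart `0`. -/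
theorem htw0_O1 (hπ : IsUnif (AK A K) π) (ht : tq (↥K) n e ∈ FK M' K) :
    ∃ w : ↥(chart ↥(AK A K) (ModelDefs9.tM ht)),
      PiMul π (O1 M' q hπ) (t q ht - phi1 K M' q (w : ↥(FK M' K))) := by
  refine ⟨⟨ModelDefs9.tM ht, self_mem_chart _⟩, 0, (O1 M' q hπ).zero_mem, ?_⟩
  rw [mul_zero]
  exact sub_self _

/-- `hy`, chart `1`. -/
theorem hy1_O1 (ht : tq (↥K) n e ∈ FK M' K) :
    phi1 K M' q (ModelDefs9.tM ht)⁻¹ ∈ chart ↥(AK A K) (t q ht)⁻¹ := by
  rw [map_inv₀]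
  exact self_mem_chart (R := ↥(AK A K)) (t q ht)⁻¹

/-- `htw`, chart `1`. -/
theorem htw1_O1 (hπ : IsUnif (AK A K) π) (ht : tq (↥K) n e ∈ FK M' K) :
    ∃ w : ↥(chart ↥(AK A K) (ModelDefs9.tM ht)⁻¹),
      PiMul π (O1 M' q hπ) ((t q ht)⁻¹ - phi1 K M' q (w : ↥(FK M' K))) := by
  refine ⟨⟨(ModelDefs9.tM ht)⁻¹, self_mem_chart _⟩, 0, (O1 M' q hπ).zero_mem, ?_⟩
  rw [mul_zero, map_inv₀]
  exact sub_self _

end COne

end Fermat.Agent.ES.P36.HcombSq25
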