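/-
Program P (S36), chapter REG, brick R1 part 2 (helper3): **the horizontal input `hUNR` of
`RegLocal3.not_dvd_discr_local` / `discr_eq_pi_pow_mul_unit`, PER-K and at ANY level.**

* `hunrOff_at` : `OffIface4.HUNROff (AK A K) (FK M K) ϖ t (cuspSet A K cv)` for ONE number field `K`
  containing the finite cusp values of `t`, at any level `M` with `n ∣ M`, for a prime `ℓ ∤ n`
  (`ℓ ∣ M` ALLOWED: the statement lives on the generic fibre).  Twin of Program H's
  `HunrOffConcrete3.hH_off`, which has the `∃ K₀` shape (`EventuallyT`) and the spurious hypothesis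
  `¬ ℓ ∣ M`.  `hunrOff_four`, `hunrOff_nine` : the two base cases `(n, e) = (4, 8)`, `(9, 3)`.
* `hUNR_of_hunrOff` : generic bridge `HUNROff ⟹ hUNR` of `RegLocal3`: `R0` a local ring receiving
  `O[X]` (through `X ↦ t`, e.g. `R0 = (B0)_{x0}`, `B0` the level-`M'` chart, `t` its Hauptmodul), `S` an
  `R0`-algebra inside `E` containing the chart of `t` in `E`, such that `t - c` is a unit of `R0` for
  every finite cusp value `c` ((D4): the point `x0` does not lie over a cusp).  NO unramifiedness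
  statement at the lower level is needed: the uniformiser produced by `HUNROff` is a polynomial in `t`.
-/
import Mathlib
import Fermat.Agent.RED.PUR.HunrOffConcrete3

set_option autoImplicit false
set_option linter.unusedSectionVars false
set_option linter.unusedVariables false
set_option linter.style.haveILetI false

open ModularCurve IntermediateField Polynomial
open scoped MatrixGroups

noncomputable section

namespace Fermat.Agent.ES.P36.HunrLevel3

open Fermat.Agent.X0 Fermat.Agent.X0.FF AlgebraicCurve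
open Fermat.Agent.RED.BASE.Interface12 Fermat.Agent.RED.BASE.EtaQuot12
open Fermat.Agent.RED.PUR.OffIface4
open Fermat.Agent.RED.PUR.IntClosBase13

/-! ### Per-`K`, any level -/

section Concrete

open Fermat.Agent.RED.Interface4 Fermat.Agent.RED.ModelTargets4 Fermat.Agent.RED.NumInst4
  Fermat.Agent.RED.DESC.NumberFieldDVR27 Fermat.Agent.RED.DESC.PlaceExtend27
  Fermat.Agent.RED.BASE Fermat.Agent.RED.BASE.Hauptmodul12

variable {n e : ℕ} [NeZero n] {M : ℕ} [NeZero M] {A : ValuationSubring Qbar}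

/-- **`HUNROff` at one number field `K` and any level `M`** (`n ∣ M`, `ℓ ∤ n`; `ℓ ∣ M` allowed). -/
theorem hunrOff_at (hb : BaseHyp n e) (hnM : n ∣ M) {ℓ : ℕ} (hℓ : ℓ.Prime)
    (hℓn : ¬ ℓ ∣ n) (hA : A.LiesOverPrime ℓ) (cv : SL(2, ℤ) → Option Kbar)
    (hcv : MainCusp12.CuspExports n e M cv)
    (K : IntermediateField ℚ Qbar) [hKfd : FiniteDimensional ℚ K]
    (hcvK : ∀ (γ : SL(2, ℤ)) (c : Kbar), cv γ = some c → c ∈ K)
    (ϖ : ↥(AK A K)) (hϖ : Irreducible ϖ) (t : ↥(FK M K))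
    (htq : (t : LaurentSeries K) = tq K n e) :
    HUNROff (AK A K) (FK M K) ϖ t (cuspSet A K cv) := by
  have hB := Main12.baseExports hb M hnM
  have hdvr : IsDiscreteValuationRing ↥(AK A K) := isDiscreteValuationRing_AK A K hℓ.ne_zero hA
  have halg : Algebra.IsAlgebraic ↥K Qbar := isAlgebraic_Qbar_over K
  -- BASE data
  obtain ⟨hm1, hU⟩ := hB.unbranched
  obtain ⟨hm2, hC⟩ := hcv.cuspExp
  obtain ⟨hm3, hgen⟩ := hB.isGen
  have hconst : ∀ c : Kbar, tF M hB.mem ≠ algebraMap Kbar (FF M) c := fun c hc =>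
    Fermat.Agent.X0.FF.IsGen.sub_algebraMap_ne_zero hgen c (sub_eq_zero.mpr hc)
  have hnA : ((n : Qbar))⁻¹ ∈ A := inv_natCast_mem hℓ hA n hℓn
  have hn0 : n ≠ 0 := NeZero.ne n
  -- finite cusp values lie in `A ∩ K`
  have hcvA : ∀ γ c, cv γ = some c → ∃ a : ↥(AK A K), algebraMap ↥(AK A K) Kbar a = c := by
    intro γ c hγ
    have hcK : c ∈ K := hcvK γ c hγ
    have hcA : c ∈ A := by
      have hs := hC γ
      rw [hγ] at hs
      obtain ⟨a, lam, V, -, -, -, -, hInt, -⟩ := hs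
      exact hInt.mem_of_inv_mem A hnA hn0
    exact ⟨⟨⟨c, hcK⟩, hcA⟩, rfl⟩
  have hbc : ∀ a : ↥K, baseChangeHom M K (algebraMap ↥K ↥(FK M K) a) =
      algebraMap Kbar (FF M) (algebraMap ↥K Kbar a) := fun a => baseChangeHom_algebraMap M K a
  have ht : baseChangeHom M K t = tF M hB.mem :=
    Fermat.Agent.RED.CUSP.RankConcrete16.baseChangeHom_eq_tF M K hB.mem t htq
  have hExt : ∀ w : Place ↥K ↥(FK M K), ∃ (v : Place Kbar (FF M)) (d : ℕ), 0 < d ∧
      ∀ f : ↥(FK M K), v.ord (baseChangeHom M K f) = (d : ℤ) * w.ord f :=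
    fun w => exists_place_above M K w
  have hπ0 : algebraMap ↥(AK A K) ↥(FK M K) ϖ ≠ 0 :=
    Fermat.Agent.RED.PUR.G1Package8.algebraMap_pi_ne_zero hϖ
  have hK : ∀ a : ↥K, ∃ (r : ↥(AK A K)) (k : ℕ),
      algebraMap ↥K ↥(FK M K) a * algebraMap ↥(AK A K) ↥(FK M K) ϖ ^ k =
        algebraMap ↥(AK A K) ↥(FK M K) r := by
    intro a
    haveI : IsScalarTower ↥(AK A K) ↥K ↥(FK M K) := isScalarTower_OE (AK A K) (FK M K)
    obtain ⟨r, k, hrk⟩ := Fermat.Agent.RED.CORE.LocalStep15.hK_of_dvr (R := ↥(AK A K)) (K := ↥K)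
      (C := ↥(AK A K)) (F := ↥(FK M K)) ϖ (Fermat.Agent.RED.ModelAsm4.dvr_factor hϖ) a
    exact ⟨r, k, hrk⟩
  exact Fermat.Agent.RED.PUR.HunrOffConcrete3.hunrOff_gen (AK A K) (FK M K) n e M cv hB.mem hU hC
    hconst hcvA (baseChangeHom M K) hbc t ht hExt ϖ hπ0 hK (cuspSet A K cv) (fun a ha => ha)

/-- `ℓ` odd: Hauptmodul `tq · 4 8`, any level `M` divisible by `4`. -/
theorem hunrOff_four (hM : 4 ∣ M) {ℓ : ℕ} (hℓ : ℓ.Prime) (hℓ2 : ℓ ≠ 2)
    (hA : A.LiesOverPrime ℓ) (K : IntermediateField ℚ Qbar) [FiniteDimensional ℚ K]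
    (hcvK : ∀ (γ : SL(2, ℤ)) (c : Kbar), CuspExpMain11.cvT 4 8 M γ = some c → c ∈ K)
    (ϖ : ↥(AK A K)) (hϖ : Irreducible ϖ) (t : ↥(FK M K))
    (htq : (t : LaurentSeries K) = tq K 4 8) :
    HUNROff (AK A K) (FK M K) ϖ t (cuspSet A K (CuspExpMain11.cvT 4 8 M)) := by
  have hℓn : ¬ ℓ ∣ 4 := by
    intro h
    have h2 : ℓ ∣ 2 ^ 2 := by norm_num; exact h
    exact hℓ2 ((Nat.prime_dvd_prime_iff_eq hℓ Nat.prime_two).mp (hℓ.dvd_of_dvd_pow h2))
  exact hunrOff_at Hauptmodul12.baseHyp_four hM hℓ hℓn hA _ (MainCusp12.cuspExports_four M hM) K hcvK ϖ hϖ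
    t htq

/-- `ℓ = 2`: Hauptmodul `tq · 9 3`, any level `M` divisible by `9`. -/
theorem hunrOff_nine (hM : 9 ∣ M) (hA : A.LiesOverPrime 2)
    (K : IntermediateField ℚ Qbar) [FiniteDimensional ℚ K]
    (hcvK : ∀ (γ : SL(2, ℤ)) (c : Kbar), CuspExpMain11.cvT 9 3 M γ = some c → c ∈ K)
    (ϖ : ↥(AK A K)) (hϖ : Irreducible ϖ) (t : ↥(FK M K))
    (htq : (t : LaurentSeries K) = tq K 9 3) :
    HUNROff (AK A K) (FK M K) ϖ t (cuspSet A K (CuspExpMain11.cvT 9 3 M)) :=
  hunrOff_at Hauptmodul12.baseHyp_nine hM Nat.prime_two (by decide) hA _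
    (MainCusp12.cuspExports_nine M hM) K hcvK ϖ hϖ t htq

end Concrete

/-! ### The bridge `HUNROff ⟹ hUNR` -/

section Bridge

variable {K : Type*} [Field K] (O : ValuationSubring K) (E : IntermediateField K (LaurentSeries K))

/-- **Bridge.**  `R0` a local ring receiving `O[X]` by `φ` (`X ↦ t`), `S` an `R0`-algebra mapping to `E`
compatibly (`hφ`) whose image contains the chart of `t` (`hchart`), every `t - c` (`c` a finite cusp
value) a unit of `R0` (`hcusp`).  Then `HUNROff` yields the hypothesis `hUNR` of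
`RegLocal3.not_dvd_discr_local` with `π := φ (C ϖ)`. -/
theorem hUNR_of_hunrOff (ϖ : ↥O) (t : ↥E) (Sset : Set ↥O) (h : HUNROff O E ϖ t Sset)
    {R0 S : Type*} [CommRing R0] [IsLocalRing R0] [CommRing S] [Algebra R0 S] [Algebra S ↥E]
    (φ : (↥O)[X] →+* R0)
    (hφ : ∀ r : (↥O)[X], algebraMap S ↥E (algebraMap R0 S (φ r)) = aeval t r)
    (hchart : ∀ s : ↥E, IsIntegral ↥(Algebra.adjoin ↥O {t}) s → ∃ s' : S, algebraMap S ↥E s' = s)
    (hcusp : ∀ c ∈ Sset, IsUnit (φ (X - C c))) :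
    ∀ O' : ValuationSubring ↥E, (∀ s : S, algebraMap S ↥E s ∈ O') →
      IsDiscreteValuationRing O' →
      (algebraMap S ↥E (algebraMap R0 S (φ (C ϖ))))⁻¹ ∈ O' →
      ∃ g0 : R0, (algebraMap S ↥E (algebraMap R0 S g0))⁻¹ ∉ O' ∧
        ∀ y ∈ O', y⁻¹ ∉ O' → y / algebraMap S ↥E (algebraMap R0 S g0) ∈ O' := by
  intro O' hS hdvr hπ
  set P : Ideal (↥O)[X] := (IsLocalRing.maximalIdeal R0).comap φ with hP
  have hPc : ∀ c ∈ Sset, (X - C c : (↥O)[X]) ∉ P := by
    intro c hc hmem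
    rw [hP, Ideal.mem_comap, IsLocalRing.mem_maximalIdeal, mem_nonunits_iff] at hmem
    exact hmem (hcusp c hc)
  obtain ⟨g0, hg1, hg2⟩ := h P hPc O'
    (fun s hs => by
      obtain ⟨s', rfl⟩ := hchart s hs
      exact hS s')
    hdvr
    (by
      have := hφ (C ϖ)
      rw [aeval_C] at this
      rw [← this]
      exact hπ)
    (fun r hr => by
      have hu : IsUnit (φ r) := by
        by_contra hnu
        apply hr
        rw [hP, Ideal.mem_comap, IsLocalRing.mem_maximalIdeal, mem_nonunits_iff]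
        exact hnu
      have hu' : IsUnit (algebraMap S ↥E (algebraMap R0 S (φ r))) := (hu.map _).map _
      obtain ⟨u, hu''⟩ := (hu.map (algebraMap R0 S))
      have h1 : algebraMap S ↥E ((↑u⁻¹ : S)) = (aeval t r)⁻¹ := by
        rw [← hφ r, ← hu'']
        have h2 : algebraMap S ↥E (↑u⁻¹ : S) * algebraMap S ↥E (↑u : S) = 1 := by
          rw [← map_mul, Units.inv_mul, map_one]
        exact eq_inv_of_mul_eq_one_left h2
      rw [← h1]
      exact hS _)
  refine ⟨φ g0, ?_, ?_⟩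
  · rw [hφ]; exact hg1
  · intro y hy hy'
    rw [hφ]
    exact hg2 y hy hy'

end Bridge

end Fermat.Agent.ES.P36.HunrLevel3
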