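/-
Program P (S36), chapter REG, brick R7c(a) (helper26): **horizontal unramifiedness PLACE BY PLACE**,
per `K`, at ANY level `M` (`n ∣ M`; `ℓ ∣ M` allowed), WITHOUT a hypothesis on the closed point.

Program H's `HUNROff` (and `HunrLevel3.hunrOff_at`) quantifies over ideals `P` of `O[X]` containing no
`X - c` (`c` a finite cusp value): it says nothing at a closed point whose `t`-value IS a cusp value,
although most horizontal places through such a point are not cusp places.  Here the condition is put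
on the PLACE:

* `unif_of_noncusp_at`     (chart `t`): a DVR `O' ⊇ chart` of `FK M K` in which `ϖ` and all `t - c`
  (`c` a finite cusp value) are units has a uniformiser `g0(t)`, `g0 ∈ (A ∩ K)[X]`;
* `unif_of_noncusp_inv_at` (chart `s = t⁻¹`): the same with `ϖ`, `s` and all `c s - 1` units.

(Both are per-`K` wrappers of `HorizPlace20.exists_uniformizer(_inv)`: `Unbranched` at level `M`.)

* `hUNR_of_split`, `hUNR_of_split_inv` : the generic bridge to the hypothesis `hUNR` of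
  `RegLocal3.not_dvd_discr_local` / `DiscRegSemi5` (twin of `HunrLevel3.hUNR_of_hunrOff` WITHOUT the
  hypothesis `hcusp`): the non-cusp places are handled by the statements above, the CUSP places
  (some `t - c` resp. `s` resp. `c s - 1` is not a unit of `O'`) are a hypothesis `hcp` (= R7c(b),
  helper3: widths).
-/
import Mathlib
import Fermat.Agent.RED.PUR.HunrOffConcrete3

set_option autoImplicit false
set_option linter.unusedSectionVars false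
set_option linter.unusedVariables false
set_option linter.style.haveILetI false

open ModularCurve IntermediateField Polynomial
open scoped MatrixGroups

noncomputable section

namespace Fermat.Agent.ES.P36.HunrPlace26

open Fermat.Agent.X0 Fermat.Agent.X0.FF AlgebraicCurve
open Fermat.Agent.RED.BASE.Interface12 Fermat.Agent.RED.BASE.EtaQuot12
open Fermat.Agent.RED.PUR.OffIface4
open Fermat.Agent.RED.PUR.IntClosBase13

/-! ### Generic part -/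

section Generic

variable {K : Type*} [Field K] [CharZero K] (O : ValuationSubring K)
  (E : IntermediateField K (LaurentSeries K))
  (n e M : ℕ) [NeZero n] [NeZero M] (cv : SL(2, ℤ) → Option Kbar)
  [Algebra K Kbar] [Algebra ↥O Kbar] [IsScalarTower ↥O K Kbar] [Algebra.IsAlgebraic K Kbar]

/-- **Uniformiser at a non-cusp place, chart `t`**, generic form. -/
theorem unif_of_noncusp_gen (h : TMem n e M)
    (hU : ∀ v : Place Kbar (FF M), 0 ≤ v.ord (jF M) →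
      ∃ c : Kbar, v.ord (tF M h - algebraMap Kbar (FF M) c) = 1)
    (hC : ∀ γ : SL(2, ℤ), CuspShape n ((cuspData M).T γ (tF M h)) (cv γ))
    (hconst : ∀ c : Kbar, tF M h ≠ algebraMap Kbar (FF M) c)
    (hcvA : ∀ γ c, cv γ = some c → ∃ a : ↥O, algebraMap ↥O Kbar a = c)
    (bc : ↥E →+* FF M)
    (hbc : ∀ a : K, bc (algebraMap K ↥E a) = algebraMap Kbar (FF M) (algebraMap K Kbar a))
    (t : ↥E) (ht : bc t = tF M h)
    (hExt : ∀ w : Place K ↥E, ∃ (v : Place Kbar (FF M)) (d : ℕ), 0 < d ∧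
      ∀ f : ↥E, v.ord (bc f) = (d : ℤ) * w.ord f)
    (π : ↥O) (hπ0 : algebraMap ↥O ↥E π ≠ 0)
    (hK : ∀ a : K, ∃ (r : ↥O) (k : ℕ),
      algebraMap K ↥E a * algebraMap ↥O ↥E π ^ k = algebraMap ↥O ↥E r)
    (S : Set ↥O)
    (hS : ∀ a : ↥O, (∃ γ, cv γ = some (algebraMap ↥O Kbar a)) → a ∈ S)
    (O' : ValuationSubring ↥E)
    (hB : ∀ s : ↥E, IsIntegral ↥(Algebra.adjoin ↥O {t}) s → s ∈ O')
    (hdvr : IsDiscreteValuationRing O')
    (h1 : (algebraMap ↥O ↥E π)⁻¹ ∈ O')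
    (hnc : ∀ c ∈ S, (aeval t (X - C c : (↥O)[X]))⁻¹ ∈ O') :
    ∃ g0 : (↥O)[X], (aeval t g0)⁻¹ ∉ O' ∧ ∀ y ∈ O', y⁻¹ ∉ O' → y / aeval t g0 ∈ O' := by
  haveI : IsScalarTower ↥O K ↥E := Fermat.Agent.RED.NumInst4.isScalarTower_OE O E
  letI : Algebra (↥O)[X] ↥E := polyAlgebra (A := ↥O) t
  haveI : IsScalarTower ↥O (↥O)[X] ↥E := polyAlgebra_isScalarTower (A := ↥O) t
  have hXt : algebraMap (↥O)[X] ↥E X = t := polyAlgebra_algebraMap_X (A := ↥O) t
  have haev : ∀ p : (↥O)[X], algebraMap (↥O)[X] ↥E p = aeval t p := fun p =>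
    algebraMap_eq_aeval hXt p
  have hX : ∀ p : (↥O)[X],
      algebraMap (↥O)[X] ↥E (algebraMap (↥O)[X] (↥O)[X] p) = aeval t p := fun p => by
    rw [Algebra.algebraMap_self, RingHom.id_apply, haev]
  haveI := hdvr
  have hB' : ∀ z : (↥O)[X], algebraMap (↥O)[X] ↥E z ∈ O' := fun z => by
    rw [haev]
    exact Fermat.Agent.RED.CUSP.HunrCuspConcrete3.aeval_mem_of_chart_le O E t O' hB z
  have hπ' : (algebraMap (↥O)[X] ↥E (algebraMap (↥O)[X] (↥O)[X] (C π)))⁻¹ ∈ O' := by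
    rw [hX, aeval_C]; exact h1
  have hnc' : ∀ a : ↥O, (∃ γ, cv γ = some (algebraMap ↥O Kbar a)) →
      (algebraMap (↥O)[X] ↥E (algebraMap (↥O)[X] (↥O)[X] (X - C a)))⁻¹ ∈ O' := fun a ha => by
    rw [hX]
    exact hnc a (hS a ha)
  have key := Fermat.Agent.RED.PUR.HorizPlace20.exists_uniformizer n e M cv (A := ↥O) (K := K)
    (F := ↥E) (B := (↥O)[X]) h hU hC hconst hcvA bc hbc t ht hExt hX π hπ0 hK O' hB' hπ' hnc'
  obtain ⟨g0, hg1, hg2⟩ := key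
  refine ⟨g0, ?_, ?_⟩
  · rw [hX] at hg1; exact hg1
  · intro y hy hy'
    have := hg2 y hy hy'
    rw [hX] at this
    exact this

/-- **Uniformiser at a non-cusp place, chart `s = t⁻¹`**, generic form. -/
theorem unif_of_noncusp_inv_gen (h : TMem n e M)
    (hU : ∀ v : Place Kbar (FF M), 0 ≤ v.ord (jF M) →
      ∃ c : Kbar, v.ord (tF M h - algebraMap Kbar (FF M) c) = 1)
    (hC : ∀ γ : SL(2, ℤ), CuspShape n ((cuspData M).T γ (tF M h)) (cv γ))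
    (hconst : ∀ c : Kbar, tF M h ≠ algebraMap Kbar (FF M) c)
    (hcvA : ∀ γ c, cv γ = some c → ∃ a : ↥O, algebraMap ↥O Kbar a = c)
    (bc : ↥E →+* FF M)
    (hbc : ∀ a : K, bc (algebraMap K ↥E a) = algebraMap Kbar (FF M) (algebraMap K Kbar a))
    (s : ↥E) (hs : bc s = (tF M h)⁻¹)
    (hExt : ∀ w : Place K ↥E, ∃ (v : Place Kbar (FF M)) (d : ℕ), 0 < d ∧
      ∀ f : ↥E, v.ord (bc f) = (d : ℤ) * w.ord f)
    (π : ↥O) (hπ0 : algebraMap ↥O ↥E π ≠ 0)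
    (hK : ∀ a : K, ∃ (r : ↥O) (k : ℕ),
      algebraMap K ↥E a * algebraMap ↥O ↥E π ^ k = algebraMap ↥O ↥E r)
    (S : Set ↥O)
    (hS : ∀ a : ↥O, (∃ γ, cv γ = some (algebraMap ↥O Kbar a)) → a ∈ S)
    (O' : ValuationSubring ↥E)
    (hB : ∀ z : ↥E, IsIntegral ↥(Algebra.adjoin ↥O {s}) z → z ∈ O')
    (hdvr : IsDiscreteValuationRing O')
    (h1 : (algebraMap ↥O ↥E π)⁻¹ ∈ O')
    (hsu : (aeval s (X : (↥O)[X]))⁻¹ ∈ O')
    (hnc : ∀ c ∈ S, (aeval s (C c * X - 1 : (↥O)[X]))⁻¹ ∈ O') :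
    ∃ g0 : (↥O)[X], (aeval s g0)⁻¹ ∉ O' ∧ ∀ y ∈ O', y⁻¹ ∉ O' → y / aeval s g0 ∈ O' := by
  haveI : IsScalarTower ↥O K ↥E := Fermat.Agent.RED.NumInst4.isScalarTower_OE O E
  letI : Algebra (↥O)[X] ↥E := polyAlgebra (A := ↥O) s
  haveI : IsScalarTower ↥O (↥O)[X] ↥E := polyAlgebra_isScalarTower (A := ↥O) s
  have hXt : algebraMap (↥O)[X] ↥E X = s := polyAlgebra_algebraMap_X (A := ↥O) s
  have haev : ∀ p : (↥O)[X], algebraMap (↥O)[X] ↥E p = aeval s p := fun p =>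
    algebraMap_eq_aeval hXt p
  have hX : ∀ p : (↥O)[X],
      algebraMap (↥O)[X] ↥E (algebraMap (↥O)[X] (↥O)[X] p) = aeval s p := fun p => by
    rw [Algebra.algebraMap_self, RingHom.id_apply, haev]
  haveI := hdvr
  have hB' : ∀ z : (↥O)[X], algebraMap (↥O)[X] ↥E z ∈ O' := fun z => by
    rw [haev]
    exact Fermat.Agent.RED.CUSP.HunrCuspConcrete3.aeval_mem_of_chart_le O E s O' hB z
  have hπ' : (algebraMap (↥O)[X] ↥E (algebraMap (↥O)[X] (↥O)[X] (C π)))⁻¹ ∈ O' := by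
    rw [hX, aeval_C]; exact h1
  have hsu' : (algebraMap (↥O)[X] ↥E (algebraMap (↥O)[X] (↥O)[X] X))⁻¹ ∈ O' := by
    rw [hX]; exact hsu
  have hnc' : ∀ a : ↥O, (∃ γ, cv γ = some (algebraMap ↥O Kbar a)) →
      (algebraMap (↥O)[X] ↥E (algebraMap (↥O)[X] (↥O)[X] (C a * X - 1)))⁻¹ ∈ O' := fun a ha => by
    rw [hX]
    exact hnc a (hS a ha)
  have key := Fermat.Agent.RED.PUR.HorizPlace20.exists_uniformizer_inv n e M cv (A := ↥O) (K := K)
    (F := ↥E) (B := (↥O)[X]) h hU hC hconst hcvA bc hbc s hs hExt hX π hπ0 hK O' hB' hπ' hsu' hnc'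
  obtain ⟨g0, hg1, hg2⟩ := key
  refine ⟨g0, ?_, ?_⟩
  · rw [hX] at hg1; exact hg1
  · intro y hy hy'
    have := hg2 y hy hy'
    rw [hX] at this
    exact this

end Generic

/-! ### Per-`K`, any level -/

section Concrete

open Fermat.Agent.RED.Interface4 Fermat.Agent.RED.ModelTargets4 Fermat.Agent.RED.NumInst4
  Fermat.Agent.RED.DESC.NumberFieldDVR27 Fermat.Agent.RED.DESC.PlaceExtend27
  Fermat.Agent.RED.BASE Fermat.Agent.RED.BASE.Hauptmodul12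

variable {n e : ℕ} [NeZero n] {M : ℕ} [NeZero M] {A : ValuationSubring Qbar}

/-- **R7c(a), chart `t`**: at ONE number field `K` containing the finite cusp values, any level `M`
with `n ∣ M` (`ℓ ∤ n`; `ℓ ∣ M` allowed): a DVR `O'` of `FK M K` containing the chart of `t`, in which
`ϖ` and all `t - c` (`c ∈ cuspSet`) are units, has a uniformiser `g0(t)`, `g0 ∈ (A ∩ K)[X]`. -/
theorem unif_of_noncusp_at (hb : BaseHyp n e) (hnM : n ∣ M) {ℓ : ℕ} (hℓ : ℓ.Prime)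
    (hℓn : ¬ ℓ ∣ n) (hA : A.LiesOverPrime ℓ) (cv : SL(2, ℤ) → Option Kbar)
    (hcv : MainCusp12.CuspExports n e M cv)
    (K : IntermediateField ℚ Qbar) [hKfd : FiniteDimensional ℚ K]
    (hcvK : ∀ (γ : SL(2, ℤ)) (c : Kbar), cv γ = some c → c ∈ K)
    (ϖ : ↥(AK A K)) (hϖ : Irreducible ϖ) (t : ↥(FK M K))
    (htq : (t : LaurentSeries K) = tq K n e)
    (O' : ValuationSubring ↥(FK M K))
    (hB : ∀ s : ↥(FK M K), IsIntegral ↥(Algebra.adjoin ↥(AK A K) {t}) s → s ∈ O')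
    (hdvr : IsDiscreteValuationRing O')
    (h1 : (algebraMap ↥(AK A K) ↥(FK M K) ϖ)⁻¹ ∈ O')
    (hnc : ∀ c ∈ cuspSet A K cv, (aeval t (X - C c : (↥(AK A K))[X]))⁻¹ ∈ O') :
    ∃ g0 : (↥(AK A K))[X], (aeval t g0)⁻¹ ∉ O' ∧ ∀ y ∈ O', y⁻¹ ∉ O' → y / aeval t g0 ∈ O' := by
  have hB' := Main12.baseExports hb M hnM
  have hdvrA : IsDiscreteValuationRing ↥(AK A K) := isDiscreteValuationRing_AK A K hℓ.ne_zero hA
  have halg : Algebra.IsAlgebraic ↥K Qbar := isAlgebraic_Qbar_over K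
  obtain ⟨hm1, hU⟩ := hB'.unbranched
  obtain ⟨hm2, hC⟩ := hcv.cuspExp
  obtain ⟨hm3, hgen⟩ := hB'.isGen
  have hconst : ∀ c : Kbar, tF M hB'.mem ≠ algebraMap Kbar (FF M) c := fun c hc =>
    Fermat.Agent.X0.FF.IsGen.sub_algebraMap_ne_zero hgen c (sub_eq_zero.mpr hc)
  have hnA : ((n : Qbar))⁻¹ ∈ A := inv_natCast_mem hℓ hA n hℓn
  have hn0 : n ≠ 0 := NeZero.ne n
  have hcvA : ∀ γ c, cv γ = some c → ∃ a : ↥(AK A K), algebraMap ↥(AK A K) Kbar a = c := by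
    intro γ c hγ
    have hcK : c ∈ K := hcvK γ c hγ
    have hcA : c ∈ A := by
      have hs := hC γ
      rw [hγ] at hs
      obtain ⟨a, lam, V, -, -, -, -, hInt, -⟩ := hs
      exact hInt.mem_of_inv_mem A hnA hn0
    exact ⟨⟨⟨c, hcK⟩, hcA⟩, rfl⟩
  have hbc : ∀ a : ↥K, baseChangeHom M K (algebraMap ↥K ↥(FK M K) a) =
      algebraMap Kbar (FF M) (algebraMap ↥K Kbar a) := fun a => baseChangeHom_algebraMap M K a
  have ht : baseChangeHom M K t = tF M hB'.mem :=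
    Fermat.Agent.RED.CUSP.RankConcrete16.baseChangeHom_eq_tF M K hB'.mem t htq
  have hExt : ∀ w : Place ↥K ↥(FK M K), ∃ (v : Place Kbar (FF M)) (d : ℕ), 0 < d ∧
      ∀ f : ↥(FK M K), v.ord (baseChangeHom M K f) = (d : ℤ) * w.ord f :=
    fun w => exists_place_above M K w
  have hπ0 : algebraMap ↥(AK A K) ↥(FK M K) ϖ ≠ 0 :=
    Fermat.Agent.RED.PUR.G1Package8.algebraMap_pi_ne_zero hϖ
  have hK : ∀ a : ↥K, ∃ (r : ↥(AK A K)) (k : ℕ),
      algebraMap ↥K ↥(FK M K) a * algebraMap ↥(AK A K) ↥(FK M K) ϖ ^ k =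
        algebraMap ↥(AK A K) ↥(FK M K) r := by
    intro a
    haveI : IsScalarTower ↥(AK A K) ↥K ↥(FK M K) := isScalarTower_OE (AK A K) (FK M K)
    obtain ⟨r, k, hrk⟩ := Fermat.Agent.RED.CORE.LocalStep15.hK_of_dvr (R := ↥(AK A K)) (K := ↥K)
      (C := ↥(AK A K)) (F := ↥(FK M K)) ϖ (Fermat.Agent.RED.ModelAsm4.dvr_factor hϖ) a
    exact ⟨r, k, hrk⟩
  exact unif_of_noncusp_gen (AK A K) (FK M K) n e M cv hB'.mem hU hC hconst hcvA
    (baseChangeHom M K) hbc t ht hExt ϖ hπ0 hK (cuspSet A K cv) (fun a ha => ha) O' hB hdvr h1 hnc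

/-- **R7c(a), chart `s = t⁻¹`**: a DVR `O'` of `FK M K` containing the chart of `s := t⁻¹`, in which
`ϖ`, `s` and all `c s - 1` (`c ∈ cuspSet`) are units, has a uniformiser `g0(s)`. -/
theorem unif_of_noncusp_inv_at (hb : BaseHyp n e) (hnM : n ∣ M) {ℓ : ℕ} (hℓ : ℓ.Prime)
    (hℓn : ¬ ℓ ∣ n) (hA : A.LiesOverPrime ℓ) (cv : SL(2, ℤ) → Option Kbar)
    (hcv : MainCusp12.CuspExports n e M cv)
    (K : IntermediateField ℚ Qbar) [hKfd : FiniteDimensional ℚ K]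
    (hcvK : ∀ (γ : SL(2, ℤ)) (c : Kbar), cv γ = some c → c ∈ K)
    (ϖ : ↥(AK A K)) (hϖ : Irreducible ϖ) (t : ↥(FK M K))
    (htq : (t : LaurentSeries K) = tq K n e)
    (O' : ValuationSubring ↥(FK M K))
    (hB : ∀ z : ↥(FK M K), IsIntegral ↥(Algebra.adjoin ↥(AK A K) {t⁻¹}) z → z ∈ O')
    (hdvr : IsDiscreteValuationRing O')
    (h1 : (algebraMap ↥(AK A K) ↥(FK M K) ϖ)⁻¹ ∈ O')
    (hsu : (aeval t⁻¹ (X : (↥(AK A K))[X]))⁻¹ ∈ O')
    (hnc : ∀ c ∈ cuspSet A K cv, (aeval t⁻¹ (C c * X - 1 : (↥(AK A K))[X]))⁻¹ ∈ O') :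
    ∃ g0 : (↥(AK A K))[X], (aeval t⁻¹ g0)⁻¹ ∉ O' ∧
      ∀ y ∈ O', y⁻¹ ∉ O' → y / aeval t⁻¹ g0 ∈ O' := by
  have hB' := Main12.baseExports hb M hnM
  have hdvrA : IsDiscreteValuationRing ↥(AK A K) := isDiscreteValuationRing_AK A K hℓ.ne_zero hA
  have halg : Algebra.IsAlgebraic ↥K Qbar := isAlgebraic_Qbar_over K
  obtain ⟨hm1, hU⟩ := hB'.unbranched
  obtain ⟨hm2, hC⟩ := hcv.cuspExp
  obtain ⟨hm3, hgen⟩ := hB'.isGen
  have hconst : ∀ c : Kbar, tF M hB'.mem ≠ algebraMap Kbar (FF M) c := fun c hc =>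
    Fermat.Agent.X0.FF.IsGen.sub_algebraMap_ne_zero hgen c (sub_eq_zero.mpr hc)
  have hnA : ((n : Qbar))⁻¹ ∈ A := inv_natCast_mem hℓ hA n hℓn
  have hn0 : n ≠ 0 := NeZero.ne n
  have hcvA : ∀ γ c, cv γ = some c → ∃ a : ↥(AK A K), algebraMap ↥(AK A K) Kbar a = c := by
    intro γ c hγ
    have hcK : c ∈ K := hcvK γ c hγ
    have hcA : c ∈ A := by
      have hs := hC γ
      rw [hγ] at hs
      obtain ⟨a, lam, V, -, -, -, -, hInt, -⟩ := hs
      exact hInt.mem_of_inv_mem A hnA hn0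
    exact ⟨⟨⟨c, hcK⟩, hcA⟩, rfl⟩
  have hbc : ∀ a : ↥K, baseChangeHom M K (algebraMap ↥K ↥(FK M K) a) =
      algebraMap Kbar (FF M) (algebraMap ↥K Kbar a) := fun a => baseChangeHom_algebraMap M K a
  have ht : baseChangeHom M K t = tF M hB'.mem :=
    Fermat.Agent.RED.CUSP.RankConcrete16.baseChangeHom_eq_tF M K hB'.mem t htq
  have hs : baseChangeHom M K t⁻¹ = (tF M hB'.mem)⁻¹ := by rw [map_inv₀, ht]
  have hExt : ∀ w : Place ↥K ↥(FK M K), ∃ (v : Place Kbar (FF M)) (d : ℕ), 0 < d ∧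
      ∀ f : ↥(FK M K), v.ord (baseChangeHom M K f) = (d : ℤ) * w.ord f :=
    fun w => exists_place_above M K w
  have hπ0 : algebraMap ↥(AK A K) ↥(FK M K) ϖ ≠ 0 :=
    Fermat.Agent.RED.PUR.G1Package8.algebraMap_pi_ne_zero hϖ
  have hK : ∀ a : ↥K, ∃ (r : ↥(AK A K)) (k : ℕ),
      algebraMap ↥K ↥(FK M K) a * algebraMap ↥(AK A K) ↥(FK M K) ϖ ^ k =
        algebraMap ↥(AK A K) ↥(FK M K) r := by
    intro a
    haveI : IsScalarTower ↥(AK A K) ↥K ↥(FK M K) := isScalarTower_OE (AK A K) (FK M K)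
    obtain ⟨r, k, hrk⟩ := Fermat.Agent.RED.CORE.LocalStep15.hK_of_dvr (R := ↥(AK A K)) (K := ↥K)
      (C := ↥(AK A K)) (F := ↥(FK M K)) ϖ (Fermat.Agent.RED.ModelAsm4.dvr_factor hϖ) a
    exact ⟨r, k, hrk⟩
  exact unif_of_noncusp_inv_gen (AK A K) (FK M K) n e M cv hB'.mem hU hC hconst hcvA
    (baseChangeHom M K) hbc t⁻¹ hs hExt ϖ hπ0 hK (cuspSet A K cv) (fun a ha => ha) O' hB hdvr h1
    hsu hnc

end Concrete

/-! ### The bridge to `hUNR` -/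

section Bridge

variable {K : Type*} [Field K] (O : ValuationSubring K) (E : IntermediateField K (LaurentSeries K))

/-- **Bridge (chart `t`), no hypothesis on the closed point.**  `R0` a ring receiving `O[X]` by `φ`
(`X ↦ t`), `S` an `R0`-algebra mapping to `E` compatibly (`hφ`) whose image contains the chart of `t`
(`hchart`).  If the NON-cusp places have polynomial uniformisers (`hnc`: the conclusion of
`unif_of_noncusp_at`) and the CUSP places through `S` have uniformisers in `R0` (`hcp`), then the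
hypothesis `hUNR` of `RegLocal3.not_dvd_discr_local` holds with `π := φ (C ϖ)`. -/
theorem hUNR_of_split (ϖ : ↥O) (t : ↥E) (Sset : Set ↥O)
    {R0 S : Type*} [CommRing R0] [CommRing S] [Algebra R0 S] [Algebra S ↥E]
    (φ : (↥O)[X] →+* R0)
    (hφ : ∀ r : (↥O)[X], algebraMap S ↥E (algebraMap R0 S (φ r)) = aeval t r)
    (hchart : ∀ s : ↥E, IsIntegral ↥(Algebra.adjoin ↥O {t}) s → ∃ s' : S, algebraMap S ↥E s' = s)
    (hnc : ∀ O' : ValuationSubring ↥E,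
      (∀ s : ↥E, IsIntegral ↥(Algebra.adjoin ↥O {t}) s → s ∈ O') →
      IsDiscreteValuationRing O' → (algebraMap ↥O ↥E ϖ)⁻¹ ∈ O' →
      (∀ c ∈ Sset, (aeval t (X - C c : (↥O)[X]))⁻¹ ∈ O') →
      ∃ g0 : (↥O)[X], (aeval t g0)⁻¹ ∉ O' ∧ ∀ y ∈ O', y⁻¹ ∉ O' → y / aeval t g0 ∈ O')
    (hcp : ∀ O' : ValuationSubring ↥E, (∀ s : S, algebraMap S ↥E s ∈ O') →
      IsDiscreteValuationRing O' →
      (algebraMap S ↥E (algebraMap R0 S (φ (C ϖ))))⁻¹ ∈ O' →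
      (∃ c ∈ Sset, (aeval t (X - C c : (↥O)[X]))⁻¹ ∉ O') →
      ∃ g0 : R0, (algebraMap S ↥E (algebraMap R0 S g0))⁻¹ ∉ O' ∧
        ∀ y ∈ O', y⁻¹ ∉ O' → y / algebraMap S ↥E (algebraMap R0 S g0) ∈ O') :
    ∀ O' : ValuationSubring ↥E, (∀ s : S, algebraMap S ↥E s ∈ O') →
      IsDiscreteValuationRing O' →
      (algebraMap S ↥E (algebraMap R0 S (φ (C ϖ))))⁻¹ ∈ O' →
      ∃ g0 : R0, (algebraMap S ↥E (algebraMap R0 S g0))⁻¹ ∉ O' ∧
        ∀ y ∈ O', y⁻¹ ∉ O' → y / algebraMap S ↥E (algebraMap R0 S g0) ∈ O' := by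
  intro O' hS hdvr hπ
  by_cases hall : ∀ c ∈ Sset, (aeval t (X - C c : (↥O)[X]))⁻¹ ∈ O'
  · obtain ⟨g0, hg1, hg2⟩ := hnc O'
      (fun s hs => by
        obtain ⟨s', rfl⟩ := hchart s hs
        exact hS s')
      hdvr
      (by
        have := hφ (C ϖ)
        rw [aeval_C] at this
        rw [← this]
        exact hπ)
      hall
    refine ⟨φ g0, ?_, ?_⟩
    · rw [hφ]; exact hg1
    · intro y hy hy'
      rw [hφ]
      exact hg2 y hy hy'
  · push Not at hall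
    obtain ⟨c, hc, hcn⟩ := hall
    exact hcp O' hS hdvr hπ ⟨c, hc, hcn⟩

/-- **Bridge (chart `s = t⁻¹`).**  Same with `X ↦ s`; the cusp places are those at which `s` or some
`c s - 1` is not a unit. -/
theorem hUNR_of_split_inv (ϖ : ↥O) (s : ↥E) (Sset : Set ↥O)
    {R0 S : Type*} [CommRing R0] [CommRing S] [Algebra R0 S] [Algebra S ↥E]
    (φ : (↥O)[X] →+* R0)
    (hφ : ∀ r : (↥O)[X], algebraMap S ↥E (algebraMap R0 S (φ r)) = aeval s r)
    (hchart : ∀ z : ↥E, IsIntegral ↥(Algebra.adjoin ↥O {s}) z → ∃ s' : S, algebraMap S ↥E s' = z)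
    (hnc : ∀ O' : ValuationSubring ↥E,
      (∀ z : ↥E, IsIntegral ↥(Algebra.adjoin ↥O {s}) z → z ∈ O') →
      IsDiscreteValuationRing O' → (algebraMap ↥O ↥E ϖ)⁻¹ ∈ O' →
      (aeval s (X : (↥O)[X]))⁻¹ ∈ O' →
      (∀ c ∈ Sset, (aeval s (C c * X - 1 : (↥O)[X]))⁻¹ ∈ O') →
      ∃ g0 : (↥O)[X], (aeval s g0)⁻¹ ∉ O' ∧ ∀ y ∈ O', y⁻¹ ∉ O' → y / aeval s g0 ∈ O')
    (hcp : ∀ O' : ValuationSubring ↥E, (∀ z : S, algebraMap S ↥E z ∈ O') →
      IsDiscreteValuationRing O' →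
      (algebraMap S ↥E (algebraMap R0 S (φ (C ϖ))))⁻¹ ∈ O' →
      ((aeval s (X : (↥O)[X]))⁻¹ ∉ O' ∨
        ∃ c ∈ Sset, (aeval s (C c * X - 1 : (↥O)[X]))⁻¹ ∉ O') →
      ∃ g0 : R0, (algebraMap S ↥E (algebraMap R0 S g0))⁻¹ ∉ O' ∧
        ∀ y ∈ O', y⁻¹ ∉ O' → y / algebraMap S ↥E (algebraMap R0 S g0) ∈ O') :
    ∀ O' : ValuationSubring ↥E, (∀ z : S, algebraMap S ↥E z ∈ O') →
      IsDiscreteValuationRing O' →
      (algebraMap S ↥E (algebraMap R0 S (φ (C ϖ))))⁻¹ ∈ O' →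
      ∃ g0 : R0, (algebraMap S ↥E (algebraMap R0 S g0))⁻¹ ∉ O' ∧
        ∀ y ∈ O', y⁻¹ ∉ O' → y / algebraMap S ↥E (algebraMap R0 S g0) ∈ O' := by
  intro O' hS hdvr hπ
  by_cases hsu : (aeval s (X : (↥O)[X]))⁻¹ ∈ O'
  · by_cases hall : ∀ c ∈ Sset, (aeval s (C c * X - 1 : (↥O)[X]))⁻¹ ∈ O'
    · obtain ⟨g0, hg1, hg2⟩ := hnc O'
        (fun z hz => by
          obtain ⟨s', rfl⟩ := hchart z hz
          exact hS s')
        hdvr
        (by
          have := hφ (C ϖ)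
          rw [aeval_C] at this
          rw [← this]
          exact hπ)
        hsu hall
      refine ⟨φ g0, ?_, ?_⟩
      · rw [hφ]; exact hg1
      · intro y hy hy'
        rw [hφ]
        exact hg2 y hy hy'
    · push Not at hall
      obtain ⟨c, hc, hcn⟩ := hall
      exact hcp O' hS hdvr hπ (Or.inr ⟨c, hc, hcn⟩)
  · exact hcp O' hS hdvr hπ (Or.inl hsu)

end Bridge

end Fermat.Agent.ES.P36.HunrPlace26
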