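/-
Program P (S36), chapter REG, brick R7c glue (helper26): **the per-`K` hypothesis `hUNR` at level `M' q²`, in
the LITERAL chart shape of `RegSemiChart20.regDataSemi_chart`** (helper20), from

* the non-cusp places: `HunrPlace26.unif_of_noncusp_at / _inv_at` at the level `M := M' q q`
  (uniformiser `g0(t)`, `g0 ∈ A_K[X]`, and `g0(t) = α₂ (g0(tN))` with `g0(tN)` in the level-`M' q` chart);
* the cusp places: ONE named hypothesis `hcp` (chart `t`: some `t − c` is not a unit of `O`; chart `s = t⁻¹`: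
  `s` is not a unit of `O`, or some `c s − 1` is not) in the same chart shape — the conclusion of helper3's
  `HunrCuspSq3` (R7c(b)).

Vocabulary: `ModelDefs9` (level `M' q`: `tN`, charts `B0`, `B1`) and `ModelDefsP9` (level `M' q²`: `alpha2`,
`t = α₂ tN`, charts `B0`, `B1`).  `φ := (alpha2 K M' q).toRingHom`, `x1` ANY ideal of the lower chart.
`hUNR_sq_chart1_of_mem` : at the points `x1 ∋ s` of the chart at `∞` only the disjunct "`s` is not a unit" of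
`hcp` can occur.  The section `Generic` is the same glue for an abstract pair of charts.
-/
import Mathlib
import Fermat.Agent.ES.P36.HunrPlace26
import Fermat.Agent.ES.P36.ModelDefsP9

set_option autoImplicit false
set_option linter.unusedSectionVars false
set_option linter.unusedVariables false
set_option linter.style.haveILetI false
set_option synthInstance.maxHeartbeats 400000

open ModularCurve IntermediateField Polynomial
open scoped MatrixGroups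

noncomputable section

namespace Fermat.Agent.ES.P36.HunrSq26

/-! ### Generic glue -/

section Generic

variable {R F₁ F₂ : Type*} [CommRing R] [Field F₁] [Field F₂] [Algebra R F₁] [Algebra R F₂]
  (φ : F₁ →+* F₂) (hφR : ∀ r : R, φ (algebraMap R F₁ r) = algebraMap R F₂ r)

include hφR in
/-- `φ (p(s₁)) = p(φ s₁)` for `p ∈ R[X]`. -/
theorem map_aeval (s₁ : F₁) (p : R[X]) : φ (aeval s₁ p) = aeval (φ s₁) p := by
  rw [aeval_def, aeval_def, hom_eval₂]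
  have hc : φ.comp (algebraMap R F₁) = algebraMap R F₂ := RingHom.ext fun r => hφR r
  rw [hc]

include hφR in
/-- **Generic glue**: the uniformiser of the places satisfying `Cond` is `g0(s₂)`, `g0 ∈ R[X]`, `s₂ = φ s₁`,
`R[s₁] ⊆ BM`; the other places are the hypothesis `hcp`. -/
theorem hUNR_chart_of_split (s₁ : F₁) (BM : Subalgebra R F₁) (hBM : ∀ p : R[X], aeval s₁ p ∈ BM)
    (B : Subalgebra R F₂) (x1 : Ideal ↥BM) (ϖ : R) (Cond : ValuationSubring F₂ → Prop)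
    (hnc : ∀ O : ValuationSubring F₂, (∀ s ∈ B, s ∈ O) → IsDiscreteValuationRing O →
      (algebraMap R F₂ ϖ)⁻¹ ∈ O → Cond O →
      ∃ g0 : R[X], (aeval (φ s₁) g0)⁻¹ ∉ O ∧ ∀ y ∈ O, y⁻¹ ∉ O → y / aeval (φ s₁) g0 ∈ O)
    (hcp : ∀ O : ValuationSubring F₂, (∀ s ∈ B, s ∈ O) →
      (∀ d : ↥BM, d ∉ x1 → (φ (d : F₁))⁻¹ ∈ O) →
      IsDiscreteValuationRing O → (algebraMap R F₂ ϖ)⁻¹ ∈ O → ¬ Cond O →
      ∃ g : ↥BM, (φ (g : F₁))⁻¹ ∉ O ∧ ∀ y ∈ O, y⁻¹ ∉ O → y / φ (g : F₁) ∈ O) :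
    ∀ O : ValuationSubring F₂, (∀ s ∈ B, s ∈ O) →
      (∀ d : ↥BM, d ∉ x1 → (φ (d : F₁))⁻¹ ∈ O) →
      IsDiscreteValuationRing O → (algebraMap R F₂ ϖ)⁻¹ ∈ O →
      ∃ g : ↥BM, (φ (g : F₁))⁻¹ ∉ O ∧ ∀ y ∈ O, y⁻¹ ∉ O → y / φ (g : F₁) ∈ O := by
  intro O hB hx hdvr hπ
  by_cases hall : Cond O
  · obtain ⟨g0, hg1, hg2⟩ := hnc O hB hdvr hπ hall
    refine ⟨⟨aeval s₁ g0, hBM g0⟩, ?_, ?_⟩
    · show (φ (aeval s₁ g0))⁻¹ ∉ O
      rw [map_aeval φ hφR]; exact hg1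
    · intro y hy hy'
      show y / φ (aeval s₁ g0) ∈ O
      rw [map_aeval φ hφR]; exact hg2 y hy hy'
  · exact hcp O hB hx hdvr hπ hall

include hφR in
/-- If `s₁ ∈ x1` then every `c s₁ − 1` is a unit of a valuation ring through `x1`. -/
theorem inv_mem_of_mem (s₁ : F₁) (BM : Subalgebra R F₁) (hBM : ∀ p : R[X], aeval s₁ p ∈ BM)
    (x1 : Ideal ↥BM) (hx1 : x1 ≠ ⊤) (hsx : (⟨aeval s₁ (X : R[X]), hBM X⟩ : ↥BM) ∈ x1)
    (O : ValuationSubring F₂) (hx : ∀ d : ↥BM, d ∉ x1 → (φ (d : F₁))⁻¹ ∈ O) (c : R) :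
    (aeval (φ s₁) (C c * X - 1 : R[X]))⁻¹ ∈ O := by
  set d : ↥BM := ⟨aeval s₁ (C c * X - 1 : R[X]), hBM _⟩ with hd
  have hdx : d ∉ x1 := by
    intro hmem
    apply hx1
    rw [Ideal.eq_top_iff_one]
    have h1 : (1 : ↥BM) = algebraMap R ↥BM c * ⟨aeval s₁ (X : R[X]), hBM X⟩ - d := by
      apply Subtype.ext
      rw [hd]
      simp only [Subalgebra.coe_sub, Subalgebra.coe_mul, Subalgebra.coe_one, map_sub, map_mul,
        aeval_C, aeval_X, map_one, Subalgebra.coe_algebraMap]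
      ring
    rw [h1]
    exact x1.sub_mem (x1.mul_mem_left _ hsx) hmem
  have := hx d hdx
  rwa [hd, map_aeval φ hφR] at this

end Generic

/-! ### The model -/

open Fermat.Agent.X0
open Fermat.Agent.RED.Interface4 Fermat.Agent.RED.ModelTargets4
open Fermat.Agent.RED.BASE Fermat.Agent.RED.BASE.Interface12 Fermat.Agent.RED.BASE.EtaQuot12
  Fermat.Agent.RED.BASE.Hauptmodul12
open Fermat.Agent.RED.PUR.ChartGeneric22
open Fermat.Agent.ES.N34 Fermat.Agent.ES.P36.ModelDefsP9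

variable {n e : ℕ} [NeZero n] {A : ValuationSubring Qbar} {K : IntermediateField ℚ Qbar}
  {M' : ℕ} [NeZero M'] (q : ℕ) [NeZero q]

/-- `α₂` is the identity on the constants of `A_K` (the `hφR` of `RegSemiChart20`). -/
theorem alpha2_algebraMap (r : ↥(AK A K)) :
    (alpha2 K M' q).toRingHom (algebraMap ↥(AK A K) ↥(FK (M' * q) K) r) =
      algebraMap ↥(AK A K) ↥(FK (M' * q * q) K) r := by
  have h1 : algebraMap ↥(AK A K) ↥(FK (M' * q) K) r =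
      algebraMap ↥K ↥(FK (M' * q) K) (algebraMap ↥(AK A K) ↥K r) :=
    IsScalarTower.algebraMap_apply _ _ _ r
  have h2 : algebraMap ↥(AK A K) ↥(FK (M' * q * q) K) r =
      algebraMap ↥K ↥(FK (M' * q * q) K) (algebraMap ↥(AK A K) ↥K r) :=
    IsScalarTower.algebraMap_apply _ _ _ r
  rw [h1, h2]
  exact (alpha2 K M' q).commutes _

/-- `p(tN)` lies in the chart `0` of level `M' q`. -/
theorem aeval_tN_mem_B0 (ht : tq (↥K) n e ∈ FK M' K) (p : (↥(AK A K))[X]) :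
    aeval (ModelDefs9.tN q ht) p ∈ ModelDefs9.B0 A q ht :=
  adjoin_le_chart (R := ↥(AK A K)) (ModelDefs9.tN q ht) (aeval_mem_adjoin_singleton _ _)

/-- `p(tN⁻¹)` lies in the chart `1` of level `M' q`. -/
theorem aeval_tN_inv_mem_B1 (ht : tq (↥K) n e ∈ FK M' K) (p : (↥(AK A K))[X]) :
    aeval (ModelDefs9.tN q ht)⁻¹ p ∈ ModelDefs9.B1 A q ht :=
  adjoin_le_chart (R := ↥(AK A K)) (ModelDefs9.tN q ht)⁻¹ (aeval_mem_adjoin_singleton _ _)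

theorem alpha2_tN (ht : tq (↥K) n e ∈ FK M' K) :
    (alpha2 K M' q).toRingHom (ModelDefs9.tN q ht) = t q ht := rfl

theorem alpha2_tN_inv (ht : tq (↥K) n e ∈ FK M' K) :
    (alpha2 K M' q).toRingHom (ModelDefs9.tN q ht)⁻¹ = (t q ht)⁻¹ := by
  rw [map_inv₀]; rfl

/-- **`hUNR` at level `M' q²`, chart `t`**, in the literal shape of `RegSemiChart20.regDataSemi_chart`
(`φ := (alpha2 K M' q).toRingHom`, `BM := ModelDefs9.B0 A q ht`, `B := ModelDefsP9.B0 A q ht`), from the cusp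
places `hcp`. -/
theorem hUNR_sq_chart0 (hb : BaseHyp n e) (hnM : n ∣ M' * q * q) (hq : q.Prime) (hqn : ¬ q ∣ n)
    (hA : A.LiesOverPrime q) (cv : SL(2, ℤ) → Option Kbar)
    (hcv : MainCusp12.CuspExports n e (M' * q * q) cv)
    [hKfd : FiniteDimensional ℚ K]
    (hcvK : ∀ (γ : SL(2, ℤ)) (c : Kbar), cv γ = some c → c ∈ K)
    (ϖ : ↥(AK A K)) (hϖ : Irreducible ϖ) (ht : tq (↥K) n e ∈ FK M' K)
    (x1 : Ideal ↥(ModelDefs9.B0 A q ht))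
    (hcp : ∀ O : ValuationSubring ↥(FK (M' * q * q) K), (∀ s ∈ B0 A q ht, s ∈ O) →
      (∀ d : ↥(ModelDefs9.B0 A q ht), d ∉ x1 →
        ((alpha2 K M' q).toRingHom (d : ↥(FK (M' * q) K)))⁻¹ ∈ O) →
      IsDiscreteValuationRing O → (algebraMap ↥(AK A K) ↥(FK (M' * q * q) K) ϖ)⁻¹ ∈ O →
      (¬ ∀ c ∈ cuspSet A K cv, (aeval (t q ht) (X - C c : (↥(AK A K))[X]))⁻¹ ∈ O) →
      ∃ g : ↥(ModelDefs9.B0 A q ht),
        ((alpha2 K M' q).toRingHom (g : ↥(FK (M' * q) K)))⁻¹ ∉ O ∧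
        ∀ y ∈ O, y⁻¹ ∉ O → y / (alpha2 K M' q).toRingHom (g : ↥(FK (M' * q) K)) ∈ O) :
    ∀ O : ValuationSubring ↥(FK (M' * q * q) K), (∀ s ∈ B0 A q ht, s ∈ O) →
      (∀ d : ↥(ModelDefs9.B0 A q ht), d ∉ x1 →
        ((alpha2 K M' q).toRingHom (d : ↥(FK (M' * q) K)))⁻¹ ∈ O) →
      IsDiscreteValuationRing O → (algebraMap ↥(AK A K) ↥(FK (M' * q * q) K) ϖ)⁻¹ ∈ O →
      ∃ g : ↥(ModelDefs9.B0 A q ht),
        ((alpha2 K M' q).toRingHom (g : ↥(FK (M' * q) K)))⁻¹ ∉ O ∧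
        ∀ y ∈ O, y⁻¹ ∉ O → y / (alpha2 K M' q).toRingHom (g : ↥(FK (M' * q) K)) ∈ O := by
  refine hUNR_chart_of_split (alpha2 K M' q).toRingHom (alpha2_algebraMap q)
    (ModelDefs9.tN q ht) (ModelDefs9.B0 A q ht) (aeval_tN_mem_B0 q ht) (B0 A q ht) x1 ϖ
    (fun O => ∀ c ∈ cuspSet A K cv, (aeval (t q ht) (X - C c : (↥(AK A K))[X]))⁻¹ ∈ O) ?_ hcp
  intro O hB hdvr hπ hall
  rw [alpha2_tN]
  exact HunrPlace26.unif_of_noncusp_at hb hnM hq hqn hA cv hcv K hcvK ϖ hϖ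
    (t q ht) (coe_t q ht) O (fun s hs => hB s hs) hdvr hπ hall

/-- **`hUNR` at level `M' q²`, chart `s = t⁻¹`**, same shape (`BM := ModelDefs9.B1 A q ht`,
`B := ModelDefsP9.B1 A q ht`). -/
theorem hUNR_sq_chart1 (hb : BaseHyp n e) (hnM : n ∣ M' * q * q) (hq : q.Prime) (hqn : ¬ q ∣ n)
    (hA : A.LiesOverPrime q) (cv : SL(2, ℤ) → Option Kbar)
    (hcv : MainCusp12.CuspExports n e (M' * q * q) cv)
    [hKfd : FiniteDimensional ℚ K]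
    (hcvK : ∀ (γ : SL(2, ℤ)) (c : Kbar), cv γ = some c → c ∈ K)
    (ϖ : ↥(AK A K)) (hϖ : Irreducible ϖ) (ht : tq (↥K) n e ∈ FK M' K)
    (x1 : Ideal ↥(ModelDefs9.B1 A q ht))
    (hcp : ∀ O : ValuationSubring ↥(FK (M' * q * q) K), (∀ s ∈ B1 A q ht, s ∈ O) →
      (∀ d : ↥(ModelDefs9.B1 A q ht), d ∉ x1 →
        ((alpha2 K M' q).toRingHom (d : ↥(FK (M' * q) K)))⁻¹ ∈ O) →
      IsDiscreteValuationRing O → (algebraMap ↥(AK A K) ↥(FK (M' * q * q) K) ϖ)⁻¹ ∈ O →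
      (¬ ((aeval (t q ht)⁻¹ (X : (↥(AK A K))[X]))⁻¹ ∈ O ∧
        ∀ c ∈ cuspSet A K cv, (aeval (t q ht)⁻¹ (C c * X - 1 : (↥(AK A K))[X]))⁻¹ ∈ O)) →
      ∃ g : ↥(ModelDefs9.B1 A q ht),
        ((alpha2 K M' q).toRingHom (g : ↥(FK (M' * q) K)))⁻¹ ∉ O ∧
        ∀ y ∈ O, y⁻¹ ∉ O → y / (alpha2 K M' q).toRingHom (g : ↥(FK (M' * q) K)) ∈ O) :
    ∀ O : ValuationSubring ↥(FK (M' * q * q) K), (∀ s ∈ B1 A q ht, s ∈ O) →
      (∀ d : ↥(ModelDefs9.B1 A q ht), d ∉ x1 →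
        ((alpha2 K M' q).toRingHom (d : ↥(FK (M' * q) K)))⁻¹ ∈ O) →
      IsDiscreteValuationRing O → (algebraMap ↥(AK A K) ↥(FK (M' * q * q) K) ϖ)⁻¹ ∈ O →
      ∃ g : ↥(ModelDefs9.B1 A q ht),
        ((alpha2 K M' q).toRingHom (g : ↥(FK (M' * q) K)))⁻¹ ∉ O ∧
        ∀ y ∈ O, y⁻¹ ∉ O → y / (alpha2 K M' q).toRingHom (g : ↥(FK (M' * q) K)) ∈ O := by
  refine hUNR_chart_of_split (alpha2 K M' q).toRingHom (alpha2_algebraMap q)
    (ModelDefs9.tN q ht)⁻¹ (ModelDefs9.B1 A q ht) (aeval_tN_inv_mem_B1 q ht) (B1 A q ht) x1 ϖ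
    (fun O => (aeval (t q ht)⁻¹ (X : (↥(AK A K))[X]))⁻¹ ∈ O ∧
      ∀ c ∈ cuspSet A K cv, (aeval (t q ht)⁻¹ (C c * X - 1 : (↥(AK A K))[X]))⁻¹ ∈ O) ?_ hcp
  intro O hB hdvr hπ hall
  rw [alpha2_tN_inv]
  exact HunrPlace26.unif_of_noncusp_inv_at hb hnM hq hqn hA cv hcv K hcvK ϖ hϖ
    (t q ht) (coe_t q ht) O (fun s hs => hB s hs) hdvr hπ hall.1 hall.2

/-- **Chart `s = t⁻¹` at the points over `t = ∞`** (`s ∈ x1`): only the cusp places "`s` is not a unit of `O`"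
are needed (at a place through `x1` every `c s − 1` is a unit). -/
theorem hUNR_sq_chart1_of_mem (hb : BaseHyp n e) (hnM : n ∣ M' * q * q) (hq : q.Prime)
    (hqn : ¬ q ∣ n) (hA : A.LiesOverPrime q) (cv : SL(2, ℤ) → Option Kbar)
    (hcv : MainCusp12.CuspExports n e (M' * q * q) cv)
    [hKfd : FiniteDimensional ℚ K]
    (hcvK : ∀ (γ : SL(2, ℤ)) (c : Kbar), cv γ = some c → c ∈ K)
    (ϖ : ↥(AK A K)) (hϖ : Irreducible ϖ) (ht : tq (↥K) n e ∈ FK M' K)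
    (x1 : Ideal ↥(ModelDefs9.B1 A q ht)) (hx1 : x1 ≠ ⊤)
    (hsx : (⟨aeval (ModelDefs9.tN q ht)⁻¹ (X : (↥(AK A K))[X]),
      aeval_tN_inv_mem_B1 q ht X⟩ : ↥(ModelDefs9.B1 A q ht)) ∈ x1)
    (hcp : ∀ O : ValuationSubring ↥(FK (M' * q * q) K), (∀ s ∈ B1 A q ht, s ∈ O) →
      (∀ d : ↥(ModelDefs9.B1 A q ht), d ∉ x1 →
        ((alpha2 K M' q).toRingHom (d : ↥(FK (M' * q) K)))⁻¹ ∈ O) →
      IsDiscreteValuationRing O → (algebraMap ↥(AK A K) ↥(FK (M' * q * q) K) ϖ)⁻¹ ∈ O →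
      (aeval (t q ht)⁻¹ (X : (↥(AK A K))[X]))⁻¹ ∉ O →
      ∃ g : ↥(ModelDefs9.B1 A q ht),
        ((alpha2 K M' q).toRingHom (g : ↥(FK (M' * q) K)))⁻¹ ∉ O ∧
        ∀ y ∈ O, y⁻¹ ∉ O → y / (alpha2 K M' q).toRingHom (g : ↥(FK (M' * q) K)) ∈ O) :
    ∀ O : ValuationSubring ↥(FK (M' * q * q) K), (∀ s ∈ B1 A q ht, s ∈ O) →
      (∀ d : ↥(ModelDefs9.B1 A q ht), d ∉ x1 →
        ((alpha2 K M' q).toRingHom (d : ↥(FK (M' * q) K)))⁻¹ ∈ O) →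
      IsDiscreteValuationRing O → (algebraMap ↥(AK A K) ↥(FK (M' * q * q) K) ϖ)⁻¹ ∈ O →
      ∃ g : ↥(ModelDefs9.B1 A q ht),
        ((alpha2 K M' q).toRingHom (g : ↥(FK (M' * q) K)))⁻¹ ∉ O ∧
        ∀ y ∈ O, y⁻¹ ∉ O → y / (alpha2 K M' q).toRingHom (g : ↥(FK (M' * q) K)) ∈ O := by
  refine hUNR_sq_chart1 q hb hnM hq hqn hA cv hcv hcvK ϖ hϖ ht x1 ?_
  intro O hB hx hdvr hπ hnot
  apply hcp O hB hx hdvr hπ
  intro hsu
  apply hnot
  refine ⟨hsu, fun c _ => ?_⟩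
  have := inv_mem_of_mem (alpha2 K M' q).toRingHom (alpha2_algebraMap q) (ModelDefs9.tN q ht)⁻¹
    (ModelDefs9.B1 A q ht) (aeval_tN_inv_mem_B1 q ht) x1 hx1 hsx O hx c
  rwa [alpha2_tN_inv] at this

end Fermat.Agent.ES.P36.HunrSq26
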