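/-
Program P (S36), chapter REG, brick R7c glue, part 2 (helper26): **`hUNRM` of
`TypeTwoClause9.oneBranch_typeTwo` at level `M' q²`, BOTH charts, in its literal shape**
(`∀ x1, x1.IsMaximal → π ∈ x1 → OffBranch π B_i' W2 x1 → [hUNR at x1]`), from the cusp places only:

* `hcp0` : at every closed point `x0` of the chart `t` (level `M' q`) off `W2`, the places with `t - c` a
  non-unit (`c` a finite cusp value) have a uniformiser from the lower chart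
  (= `HunrCuspSq3.unif_of_cusp_sq_at` + suppliers);
* `hcp1` : at every closed point `x1` of the chart `s = t⁻¹` off `W2`, the places with `s` a non-unit have one
  (= `HunrCuspSq3.unif_of_cusp_sq_inf_at` + suppliers).

The closed points `x1 ∌ s` of the chart `s` over a finite nonzero cusp value are treated by CHART TRANSFER
(`RED.ChartTransfer3.contractIdeal`): `x0 := x1 ∩ B0'` is a closed point of the chart `t` with the same local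
ring, `OffBranch` and `hUNR` transfer (section `Generic`: `offBranch_contractIdeal`, `hUNR_of_contractIdeal`).
-/
import Mathlib
import Fermat.Agent.ES.P36.HunrSq26
import Fermat.Agent.RED.ChartTransfer3
import Fermat.Agent.ES.N34.NodalCore13
import Fermat.Agent.RED.BASE.TqTranscendental19

set_option autoImplicit false
set_option linter.unusedSectionVars false
set_option linter.unusedVariables false
set_option linter.style.haveILetI false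
set_option synthInstance.maxHeartbeats 400000

open ModularCurve IntermediateField Polynomial
open scoped MatrixGroups

noncomputable section

namespace Fermat.Agent.ES.P36.HunrSqInv26

open Fermat.Agent.RED.PUR.ChartGeneric22 Fermat.Agent.RED.ChartTransfer3
  Fermat.Agent.ES.N34.NodalCore13

/-! ### Generic chart transfer -/

section Generic

variable {R F₁ F₂ : Type*} [CommRing R] [Field F₁] [Field F₂] [Algebra R F₁] [Algebra R F₂]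

/-- `t⁻¹ ^ j * (t ^ j * e) = e`. -/
theorem inv_pow_mul_pow_mul {t : F₁} (ht : t ≠ 0) (j : ℕ) (e : F₁) :
    t⁻¹ ^ j * (t ^ j * e) = e := by
  rw [← mul_assoc, ← mul_pow, inv_mul_cancel₀ ht, one_pow, one_mul]

/-- **`OffBranch` transfers to the contraction**: if the component `W ∋ t` does not pass through the point
`x ∌ t⁻¹` of the chart `t⁻¹`, it does not pass through `x ∩ chart R t`. -/
theorem offBranch_contractIdeal (π : R) {t : F₁} (ht : t ≠ 0) (W : ValuationSubring F₁)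
    (htW : t ∈ W) (x : Ideal (chart R t⁻¹)) (hx : x.IsPrime)
    (htx : (⟨t⁻¹, self_mem_chart t⁻¹⟩ : chart R t⁻¹) ∉ x)
    (h : OffBranch π (chart R t⁻¹) W x) : OffBranch π (chart R t) W (contractIdeal ht x) := by
  obtain ⟨e, hex, c, hc, hec⟩ := h
  obtain ⟨j, hj⟩ := exists_pow_mul_mem_chart (R := R) ht e.2
  refine ⟨⟨_, hj⟩, ?_, t ^ j * c, W.mul_mem _ _ (pow_mem htW j) hc, ?_⟩
  · intro hmem
    have hm : t⁻¹ ^ j * (t ^ j * (e : F₁)) ∈ chart R t⁻¹ := by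
      rw [inv_pow_mul_pow_mul ht]; exact e.2
    have h1 : (⟨_, hm⟩ : chart R t⁻¹) ∈ x := mem_of_mem_contract hx htx hmem hm
    have h2 : (⟨_, hm⟩ : chart R t⁻¹) = e := Subtype.ext (inv_pow_mul_pow_mul ht j _)
    rw [h2] at h1
    exact hex h1
  · show t ^ j * (e : F₁) = algebraMap R F₁ π * (t ^ j * c)
    rw [hec]; ring

variable (φ : F₁ →+* F₂)

/-- `(φ d)⁻¹ = (φ t)⁻¹ ^ k * (φ (t⁻¹ ^ k * d))⁻¹`. -/
theorem map_inv_eq {t : F₁} (ht : t ≠ 0) (k : ℕ) (d : F₁) :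
    (φ d)⁻¹ = (φ t)⁻¹ ^ k * (φ (t⁻¹ ^ k * d))⁻¹ := by
  have h0 : φ t ≠ 0 := (_root_.map_ne_zero φ).mpr ht
  rw [map_mul, map_pow, map_inv₀, mul_inv, ← mul_assoc, inv_pow, inv_inv,
    inv_mul_cancel₀ (pow_ne_zero k h0), one_mul]

/-- **`hUNR` transfers from the contraction**: `x1 ∌ t⁻¹` a point of the chart `t⁻¹` (lower level),
`x0 := x1 ∩ chart R t`; horizontal unramifiedness over `x0` on the charts `t`, `φ t` gives it over `x1`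
on the charts `t⁻¹`, `(φ t)⁻¹`. -/
theorem hUNR_of_contractIdeal (π : R) {t : F₁} (ht : t ≠ 0) (x1 : Ideal (chart R t⁻¹))
    (htx : (⟨t⁻¹, self_mem_chart t⁻¹⟩ : chart R t⁻¹) ∉ x1)
    (h0 : ∀ O : ValuationSubring F₂, (∀ s ∈ chart R (φ t), s ∈ O) →
      (∀ d : ↥(chart R t), d ∉ contractIdeal ht x1 → (φ (d : F₁))⁻¹ ∈ O) →
      IsDiscreteValuationRing O → (algebraMap R F₂ π)⁻¹ ∈ O →
      ∃ g : ↥(chart R t), (φ (g : F₁))⁻¹ ∉ O ∧ ∀ y ∈ O, y⁻¹ ∉ O → y / φ (g : F₁) ∈ O) :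
    ∀ O : ValuationSubring F₂, (∀ s ∈ chart R (φ t)⁻¹, s ∈ O) →
      (∀ d : ↥(chart R t⁻¹), d ∉ x1 → (φ (d : F₁))⁻¹ ∈ O) →
      IsDiscreteValuationRing O → (algebraMap R F₂ π)⁻¹ ∈ O →
      ∃ g : ↥(chart R t⁻¹), (φ (g : F₁))⁻¹ ∉ O ∧ ∀ y ∈ O, y⁻¹ ∉ O → y / φ (g : F₁) ∈ O := by
  intro O hB hx hdvr hπ
  have hφt0 : φ t ≠ 0 := (_root_.map_ne_zero φ).mpr ht
  have hu : (φ t)⁻¹ ∈ O := hB _ (self_mem_chart _)
  have hu' : φ t ∈ O := by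
    have h1 := hx ⟨t⁻¹, self_mem_chart t⁻¹⟩ htx
    have h2 : (φ ((⟨t⁻¹, self_mem_chart t⁻¹⟩ : chart R t⁻¹) : F₁))⁻¹ = φ t := by
      show (φ t⁻¹)⁻¹ = φ t
      rw [map_inv₀, inv_inv]
    rwa [h2] at h1
  have hR : ∀ r : R, algebraMap R F₂ r ∈ O := fun r => hB _ (Subalgebra.algebraMap_mem _ r)
  have hB0 : ∀ s ∈ chart R (φ t), s ∈ O := chart_le_valuationSubring O hR hu'
  have hcen0 : ∀ d : ↥(chart R t), d ∉ contractIdeal ht x1 → (φ (d : F₁))⁻¹ ∈ O := by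
    intro d hd
    obtain ⟨k, hk⟩ := exists_tinv_pow_mul_mem ht d
    have hdx : (⟨_, hk⟩ : chart R t⁻¹) ∉ x1 := fun h => hd ⟨k, hk, h⟩
    have h1 : (φ (t⁻¹ ^ k * (d : F₁)))⁻¹ ∈ O := hx ⟨_, hk⟩ hdx
    rw [map_inv_eq φ ht k]
    exact O.mul_mem _ _ (pow_mem hu k) h1
  obtain ⟨g, hg1, hg2⟩ := h0 O hB0 hcen0 hdvr hπ
  obtain ⟨k, hk⟩ := exists_tinv_pow_mul_mem ht g
  refine ⟨⟨_, hk⟩, ?_, ?_⟩
  · intro hmem
    apply hg1
    rw [map_inv_eq φ ht k]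
    exact O.mul_mem _ _ (pow_mem hu k) hmem
  · intro y hy hy'
    have h1 := hg2 y hy hy'
    have h2 : y / φ (t⁻¹ ^ k * (g : F₁)) = y / φ (g : F₁) * φ t ^ k := by
      rw [div_eq_mul_inv, div_eq_mul_inv, map_mul, map_pow, map_inv₀, mul_inv, inv_pow, inv_inv]
      ring
    show y / φ (t⁻¹ ^ k * (g : F₁)) ∈ O
    rw [h2]
    exact O.mul_mem _ _ h1 (pow_mem hu' k)

end Generic

/-! ### The model -/

open Fermat.Agent.X0
open Fermat.Agent.RED.Interface4 Fermat.Agent.RED.ModelTargets4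
open Fermat.Agent.RED.BASE Fermat.Agent.RED.BASE.Interface12 Fermat.Agent.RED.BASE.EtaQuot12
  Fermat.Agent.RED.BASE.Hauptmodul12
open Fermat.Agent.ES.N34 Fermat.Agent.ES.P36.ModelDefsP9 Fermat.Agent.ES.P36.HunrSq26

variable {n e : ℕ} [NeZero n] {A : ValuationSubring Qbar} {K : IntermediateField ℚ Qbar}
  {M' : ℕ} [NeZero M'] (q : ℕ) [NeZero q]

theorem tN_ne_zero (ht : tq (↥K) n e ∈ FK M' K) : ModelDefs9.tN q ht ≠ 0 := by
  have h0 : ModelDefs9.tM ht ≠ 0 := fun h =>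
    Fermat.Agent.RED.BASE.TqTranscendental19.tq_ne_zero (↥K) n e (congrArg Subtype.val h)
  rw [ModelDefs9.tN]; exact (_root_.map_ne_zero _).mpr h0

/-- **`hUNRM` at level `M' q²`, chart `t`**, in the literal shape of `TypeTwoClause9.oneBranch_typeTwo`. -/
theorem hUNRM_sq_chart0 (hb : BaseHyp n e) (hnM : n ∣ M' * q * q) (hq : q.Prime) (hqn : ¬ q ∣ n)
    (hA : A.LiesOverPrime q) (cv : SL(2, ℤ) → Option Kbar)
    (hcv : MainCusp12.CuspExports n e (M' * q * q) cv)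
    [hKfd : FiniteDimensional ℚ K]
    (hcvK : ∀ (γ : SL(2, ℤ)) (c : Kbar), cv γ = some c → c ∈ K)
    (ϖ : ↥(AK A K)) (hϖ : Irreducible ϖ) (ht : tq (↥K) n e ∈ FK M' K)
    (W2 : ValuationSubring ↥(FK (M' * q) K))
    (hcp0 : ∀ x0 : Ideal ↥(ModelDefs9.B0 A q ht), x0.IsMaximal →
      algebraMap ↥(AK A K) ↥(ModelDefs9.B0 A q ht) ϖ ∈ x0 →
      OffBranch ϖ (ModelDefs9.B0 A q ht) W2 x0 → ∀ c ∈ cuspSet A K cv,
      ∀ O : ValuationSubring ↥(FK (M' * q * q) K), IsDiscreteValuationRing O →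
      (∀ s ∈ B0 A q ht, s ∈ O) →
      (∀ d : ↥(ModelDefs9.B0 A q ht), d ∉ x0 → (alpha2 K M' q (d : ↥(FK (M' * q) K)))⁻¹ ∈ O) →
      (algebraMap ↥(AK A K) ↥(FK (M' * q * q) K) ϖ)⁻¹ ∈ O →
      (t q ht - algebraMap ↥(AK A K) ↥(FK (M' * q * q) K) c)⁻¹ ∉ O →
      ∃ g : ↥(ModelDefs9.B0 A q ht), (alpha2 K M' q (g : ↥(FK (M' * q) K)))⁻¹ ∉ O ∧
        ∀ y ∈ O, y⁻¹ ∉ O → y / alpha2 K M' q (g : ↥(FK (M' * q) K)) ∈ O) :
    ∀ x1 : Ideal ↥(ModelDefs9.B0 A q ht), x1.IsMaximal →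
      algebraMap ↥(AK A K) ↥(ModelDefs9.B0 A q ht) ϖ ∈ x1 →
      OffBranch ϖ (ModelDefs9.B0 A q ht) W2 x1 →
      ∀ O : ValuationSubring ↥(FK (M' * q * q) K), (∀ s ∈ B0 A q ht, s ∈ O) →
      (∀ d : ↥(ModelDefs9.B0 A q ht), d ∉ x1 →
        ((alpha2 K M' q).toRingHom (d : ↥(FK (M' * q) K)))⁻¹ ∈ O) →
      IsDiscreteValuationRing O → (algebraMap ↥(AK A K) ↥(FK (M' * q * q) K) ϖ)⁻¹ ∈ O →
      ∃ g : ↥(ModelDefs9.B0 A q ht),
        ((alpha2 K M' q).toRingHom (g : ↥(FK (M' * q) K)))⁻¹ ∉ O ∧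
        ∀ y ∈ O, y⁻¹ ∉ O → y / (alpha2 K M' q).toRingHom (g : ↥(FK (M' * q) K)) ∈ O := by
  intro x1 hx1 hπx hoff
  refine hUNR_sq_chart0 q hb hnM hq hqn hA cv hcv hcvK ϖ hϖ ht x1 ?_
  intro O hB hx hdvr hπ hnot
  rw [not_forall] at hnot
  obtain ⟨c, hnot⟩ := hnot
  rw [Classical.not_imp] at hnot
  obtain ⟨hc, hnot⟩ := hnot
  have hcusp : (t q ht - algebraMap ↥(AK A K) ↥(FK (M' * q * q) K) c)⁻¹ ∉ O := by
    have h1 : aeval (t q ht) (X - C c : (↥(AK A K))[X]) =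
        t q ht - algebraMap ↥(AK A K) ↥(FK (M' * q * q) K) c := by
      rw [map_sub, aeval_X, aeval_C]
    rwa [h1] at hnot
  exact hcp0 x1 hx1 hπx hoff c hc O hdvr hB hx hπ hcusp

/-- **`hUNRM` at level `M' q²`, chart `s = t⁻¹`**, same shape.  `hfin` : the residue fields of the closed
points of the lower chart `s` are torsion (finite fields; `ChartTransfer3.exists_pow_sub_one_mem_of_finite`). -/
theorem hUNRM_sq_chart1 (hb : BaseHyp n e) (hnM : n ∣ M' * q * q) (hq : q.Prime) (hqn : ¬ q ∣ n)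
    (hA : A.LiesOverPrime q) (cv : SL(2, ℤ) → Option Kbar)
    (hcv : MainCusp12.CuspExports n e (M' * q * q) cv)
    [hKfd : FiniteDimensional ℚ K]
    (hcvK : ∀ (γ : SL(2, ℤ)) (c : Kbar), cv γ = some c → c ∈ K)
    (ϖ : ↥(AK A K)) (hϖ : Irreducible ϖ) (ht : tq (↥K) n e ∈ FK M' K)
    (W2 : ValuationSubring ↥(FK (M' * q) K)) (htW : ModelDefs9.tN q ht ∈ W2)
    (hfin : ∀ x1 : Ideal ↥(ModelDefs9.B1 A q ht), x1.IsMaximal →
      algebraMap ↥(AK A K) ↥(ModelDefs9.B1 A q ht) ϖ ∈ x1 →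
      ∀ b : ↥(ModelDefs9.B1 A q ht), b ∉ x1 → ∃ k : ℕ, 0 < k ∧ b ^ k - 1 ∈ x1)
    (hcp0 : ∀ x0 : Ideal ↥(ModelDefs9.B0 A q ht), x0.IsMaximal →
      algebraMap ↥(AK A K) ↥(ModelDefs9.B0 A q ht) ϖ ∈ x0 →
      OffBranch ϖ (ModelDefs9.B0 A q ht) W2 x0 → ∀ c ∈ cuspSet A K cv,
      ∀ O : ValuationSubring ↥(FK (M' * q * q) K), IsDiscreteValuationRing O →
      (∀ s ∈ B0 A q ht, s ∈ O) →
      (∀ d : ↥(ModelDefs9.B0 A q ht), d ∉ x0 → (alpha2 K M' q (d : ↥(FK (M' * q) K)))⁻¹ ∈ O) →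
      (algebraMap ↥(AK A K) ↥(FK (M' * q * q) K) ϖ)⁻¹ ∈ O →
      (t q ht - algebraMap ↥(AK A K) ↥(FK (M' * q * q) K) c)⁻¹ ∉ O →
      ∃ g : ↥(ModelDefs9.B0 A q ht), (alpha2 K M' q (g : ↥(FK (M' * q) K)))⁻¹ ∉ O ∧
        ∀ y ∈ O, y⁻¹ ∉ O → y / alpha2 K M' q (g : ↥(FK (M' * q) K)) ∈ O)
    (hcp1 : ∀ x1 : Ideal ↥(ModelDefs9.B1 A q ht), x1.IsMaximal →
      algebraMap ↥(AK A K) ↥(ModelDefs9.B1 A q ht) ϖ ∈ x1 →
      OffBranch ϖ (ModelDefs9.B1 A q ht) W2 x1 →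
      ∀ O : ValuationSubring ↥(FK (M' * q * q) K), IsDiscreteValuationRing O →
      (∀ s ∈ B1 A q ht, s ∈ O) →
      (∀ d : ↥(ModelDefs9.B1 A q ht), d ∉ x1 → (alpha2 K M' q (d : ↥(FK (M' * q) K)))⁻¹ ∈ O) →
      (algebraMap ↥(AK A K) ↥(FK (M' * q * q) K) ϖ)⁻¹ ∈ O →
      ((t q ht)⁻¹)⁻¹ ∉ O →
      ∃ g : ↥(ModelDefs9.B1 A q ht), (alpha2 K M' q (g : ↥(FK (M' * q) K)))⁻¹ ∉ O ∧
        ∀ y ∈ O, y⁻¹ ∉ O → y / alpha2 K M' q (g : ↥(FK (M' * q) K)) ∈ O) :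
    ∀ x1 : Ideal ↥(ModelDefs9.B1 A q ht), x1.IsMaximal →
      algebraMap ↥(AK A K) ↥(ModelDefs9.B1 A q ht) ϖ ∈ x1 →
      OffBranch ϖ (ModelDefs9.B1 A q ht) W2 x1 →
      ∀ O : ValuationSubring ↥(FK (M' * q * q) K), (∀ s ∈ B1 A q ht, s ∈ O) →
      (∀ d : ↥(ModelDefs9.B1 A q ht), d ∉ x1 →
        ((alpha2 K M' q).toRingHom (d : ↥(FK (M' * q) K)))⁻¹ ∈ O) →
      IsDiscreteValuationRing O → (algebraMap ↥(AK A K) ↥(FK (M' * q * q) K) ϖ)⁻¹ ∈ O →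
      ∃ g : ↥(ModelDefs9.B1 A q ht),
        ((alpha2 K M' q).toRingHom (g : ↥(FK (M' * q) K)))⁻¹ ∉ O ∧
        ∀ y ∈ O, y⁻¹ ∉ O → y / (alpha2 K M' q).toRingHom (g : ↥(FK (M' * q) K)) ∈ O := by
  intro x1 hx1 hπx hoff
  have ht0 : ModelDefs9.tN q ht ≠ 0 := tN_ne_zero q ht
  by_cases hs : (⟨(ModelDefs9.tN q ht)⁻¹, self_mem_chart _⟩ :
      ↥(chart ↥(AK A K) (ModelDefs9.tN q ht)⁻¹)) ∈ x1
  · -- the points over `t = ∞`
    refine hUNR_sq_chart1_of_mem q hb hnM hq hqn hA cv hcv hcvK ϖ hϖ ht x1 hx1.ne_top ?_ ?_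
    · have h1 : (⟨aeval (ModelDefs9.tN q ht)⁻¹ (X : (↥(AK A K))[X]),
          aeval_tN_inv_mem_B1 q ht X⟩ : ↥(ModelDefs9.B1 A q ht)) =
          (⟨(ModelDefs9.tN q ht)⁻¹, self_mem_chart _⟩ :
            ↥(chart ↥(AK A K) (ModelDefs9.tN q ht)⁻¹)) := Subtype.ext (aeval_X _)
      rw [h1]; exact hs
    · intro O hB hx hdvr hπ hnot
      rw [aeval_X] at hnot
      exact hcp1 x1 hx1 hπx hoff O hdvr hB hx hπ hnot
  · -- the points with `s ∉ x1`: chart transfer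
    have hx0max : (contractIdeal ht0 x1).IsMaximal :=
      contractIdeal_isMaximal ht0 hx1 hs (hfin x1 hx1 hπx)
    have hπx0 : algebraMap ↥(AK A K) ↥(chart ↥(AK A K) (ModelDefs9.tN q ht)) ϖ ∈
        contractIdeal ht0 x1 := algebraMap_mem_contractIdeal ht0 hπx
    have hoff0 : OffBranch ϖ (chart ↥(AK A K) (ModelDefs9.tN q ht)) W2 (contractIdeal ht0 x1) :=
      offBranch_contractIdeal ϖ ht0 W2 htW x1 hx1.isPrime hs hoff
    have h0 := hUNRM_sq_chart0 q hb hnM hq hqn hA cv hcv hcvK ϖ hϖ ht W2 hcp0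
      (contractIdeal ht0 x1) hx0max hπx0 hoff0
    exact hUNR_of_contractIdeal (alpha2 K M' q).toRingHom ϖ ht0 x1 hs h0

end Fermat.Agent.ES.P36.HunrSqInv26
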