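/-
# Programme P, R7c: `hUNR` at level `M' q²` at the type-I points of the level-`M' q` charts, per `K`
(helper3; the final plug of R7c(a) [helper26: HunrPlace26, HunrSq26, HunrSqInv26, ChartTorsion26] and
R7c(b) [helper3: CuspWidth3 … HunrCuspSq3, CuspBranchInst3])

`hUNRM_chart0_at` / `hUNRM_chart1_at` : for every closed point `x1 ∋ π` of the level-`M' q` chart
`B0' = chart (tN)` resp. `B1' = chart (tN⁻¹)` OFF the component `O2`, every DVR `O ⊇ B_i″` of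
`K·F_{M'qq}` centred over `x1` in which `π` is a unit has a uniformiser `α₂ g`, `g ∈ B_i'`.
This is `HunrSqInv26.hUNRM_sq_chart0/1` with `hcvK`, `hcp0`, `hcp1`, `hfin`, `htW` discharged; the shape is
the `hUNRM` of `TypeTwoClause9.oneBranch_typeTwo` / `HunrAt` of `TypeTwoModel20`.

Remaining inputs: `hb hnM hq hqM hA`, cusp exports at the top level, readiness `zetaK M' ∈ K`, the S34
items `PrinItems`, `GlueItems` at level `M' q`, and the chart facts `hnoeth_i`, `hfrac_i` of the level-`M' q`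
charts (`NodalNumData.noeth0/frac0/noeth1/frac1`).
-/
import Mathlib
import Fermat.Agent.ES.P36.CuspBranchInst3
import Fermat.Agent.ES.P36.HunrSqInv26
import Fermat.Agent.ES.P36.ChartTorsion26

set_option autoImplicit false
set_option linter.unusedSectionVars false
set_option linter.unusedVariables false
set_option linter.style.haveILetI false
set_option synthInstance.maxHeartbeats 400000
set_option maxHeartbeats 6400000

open ModularCurve
open scoped MatrixGroups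

noncomputable section

namespace Fermat.Agent.ES.P36.HunrSqAt3

open AlgebraicCurve IsLocalRing Polynomial Fermat.Agent.X0 Fermat.Agent.X0.FF
open Fermat.Agent.RED.PUR.ChartGeneric22 Fermat.Agent.RED.ModelIface4
open Fermat.Agent.RED.Interface4 Fermat.Agent.RED.ModelTargets4
open Fermat.Agent.RED.BASE Fermat.Agent.RED.BASE.Interface12 Fermat.Agent.RED.BASE.EtaQuot12
  Fermat.Agent.RED.BASE.Hauptmodul12
open Fermat.Agent.ES.N34 Fermat.Agent.ES.P36 Fermat.Agent.ES.P36.ModelDefsP9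
open Fermat.Agent.RED.PUR.GaussGen8
open Fermat.Agent.ES.N34.NodalCore13 Fermat.Agent.ES.N34.ModelN4

variable {n e : ℕ} [NeZero n] {M' q : ℕ} [NeZero M'] [NeZero q] {A : ValuationSubring Qbar}
  {K : IntermediateField ℚ Qbar} [FiniteDimensional ℚ K]

/-- **`hUNR` at level `M' q²`, chart `t`, at the type-I points off `O2`, per `K`.** -/
theorem hUNRM_chart0_at (hb : BaseHyp n e) (hnM : n ∣ M') (hq : q.Prime) (hqM : ¬ q ∣ M')
    (hA : A.LiesOverPrime q) (cv : SL(2, ℤ) → Option Kbar)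
    (hcv : MainCusp12.CuspExports n e (M' * q * q) cv) (hζ : zetaK M' ∈ K)
    (hP : PrinItems n e q M' A K) (hG : GlueItems n e q M' A K)
    (ht : tq (↥K) n e ∈ FK M' K) (hE : FK (M' * q) K ≤ fracField (AK A K))
    {π : ↥(AK A K)} (hπ : IsUnif (AK A K) π)
    (hnoeth : IsNoetherianRing ↥(ModelDefs9.B0 A q ht))
    (hfrac : ∀ x : ↥(FK (M' * q) K), ∃ a ∈ ModelDefs9.B0 A q ht,
      ∃ b ∈ ModelDefs9.B0 A q ht, b ≠ 0 ∧ x * b = a) :
    ∀ x1 : Ideal ↥(ModelDefs9.B0 A q ht), x1.IsMaximal →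
      algebraMap ↥(AK A K) ↥(ModelDefs9.B0 A q ht) π ∈ x1 →
      OffBranch π (ModelDefs9.B0 A q ht) (ModelDefs9.O2 M' q hπ hE) x1 →
      ∀ O : ValuationSubring ↥(FK (M' * q * q) K), (∀ s ∈ B0 A q ht, s ∈ O) →
      (∀ d : ↥(ModelDefs9.B0 A q ht), d ∉ x1 →
        ((alpha2 K M' q).toRingHom (d : ↥(FK (M' * q) K)))⁻¹ ∈ O) →
      IsDiscreteValuationRing O → (algebraMap ↥(AK A K) ↥(FK (M' * q * q) K) π)⁻¹ ∈ O →
      ∃ g : ↥(ModelDefs9.B0 A q ht),
        ((alpha2 K M' q).toRingHom (g : ↥(FK (M' * q) K)))⁻¹ ∉ O ∧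
        ∀ y ∈ O, y⁻¹ ∉ O → y / (alpha2 K M' q).toRingHom (g : ↥(FK (M' * q) K)) ∈ O := by
  haveI hdvrA : IsDiscreteValuationRing ↥(AK A K) :=
    Fermat.Agent.RED.DESC.NumberFieldDVR27.isDiscreteValuationRing_AK A K hq.ne_zero hA
  have hirr : Irreducible π :=
    (IsDiscreteValuationRing.irreducible_iff_uniformizer π).mpr hπ.max_eq
  have hnM2 : n ∣ M' * q * q := (hnM.mul_right q).mul_right q
  have hqn : ¬ q ∣ n := fun h => hqM (h.trans hnM)
  exact HunrSqInv26.hUNRM_sq_chart0 q hb hnM2 hq hqn hA cv hcv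
    (CuspValLevel3.cuspValue_mem_of_zeta hb hnM2 hnM hcv.cuspExp hζ) π hirr ht
    (ModelDefs9.O2 M' q hπ hE)
    (CuspBranchInst3.hcp0_at hb hnM hq hqM hA cv hcv hζ hP hG ht hE hπ hnoeth hfrac)

/-- **`hUNR` at level `M' q²`, chart `t⁻¹`, at the type-I points off `O2`, per `K`.** -/
theorem hUNRM_chart1_at (hb : BaseHyp n e) (hnM : n ∣ M') (hq : q.Prime) (hqM : ¬ q ∣ M')
    (hA : A.LiesOverPrime q) (cv : SL(2, ℤ) → Option Kbar)
    (hcv : MainCusp12.CuspExports n e (M' * q * q) cv) (hζ : zetaK M' ∈ K)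
    (hP : PrinItems n e q M' A K) (hG : GlueItems n e q M' A K)
    (ht : tq (↥K) n e ∈ FK M' K) (hE : FK (M' * q) K ≤ fracField (AK A K))
    {π : ↥(AK A K)} (hπ : IsUnif (AK A K) π)
    (hnoeth0 : IsNoetherianRing ↥(ModelDefs9.B0 A q ht))
    (hfrac0 : ∀ x : ↥(FK (M' * q) K), ∃ a ∈ ModelDefs9.B0 A q ht,
      ∃ b ∈ ModelDefs9.B0 A q ht, b ≠ 0 ∧ x * b = a)
    (hnoeth1 : IsNoetherianRing ↥(ModelDefs9.B1 A q ht))
    (hfrac1 : ∀ x : ↥(FK (M' * q) K), ∃ a ∈ ModelDefs9.B1 A q ht,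
      ∃ b ∈ ModelDefs9.B1 A q ht, b ≠ 0 ∧ x * b = a) :
    ∀ x1 : Ideal ↥(ModelDefs9.B1 A q ht), x1.IsMaximal →
      algebraMap ↥(AK A K) ↥(ModelDefs9.B1 A q ht) π ∈ x1 →
      OffBranch π (ModelDefs9.B1 A q ht) (ModelDefs9.O2 M' q hπ hE) x1 →
      ∀ O : ValuationSubring ↥(FK (M' * q * q) K), (∀ s ∈ B1 A q ht, s ∈ O) →
      (∀ d : ↥(ModelDefs9.B1 A q ht), d ∉ x1 →
        ((alpha2 K M' q).toRingHom (d : ↥(FK (M' * q) K)))⁻¹ ∈ O) →
      IsDiscreteValuationRing O → (algebraMap ↥(AK A K) ↥(FK (M' * q * q) K) π)⁻¹ ∈ O →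
      ∃ g : ↥(ModelDefs9.B1 A q ht),
        ((alpha2 K M' q).toRingHom (g : ↥(FK (M' * q) K)))⁻¹ ∉ O ∧
        ∀ y ∈ O, y⁻¹ ∉ O → y / (alpha2 K M' q).toRingHom (g : ↥(FK (M' * q) K)) ∈ O := by
  haveI hdvrA : IsDiscreteValuationRing ↥(AK A K) :=
    Fermat.Agent.RED.DESC.NumberFieldDVR27.isDiscreteValuationRing_AK A K hq.ne_zero hA
  have hirr : Irreducible π :=
    (IsDiscreteValuationRing.irreducible_iff_uniformizer π).mpr hπ.max_eq
  have hnM2 : n ∣ M' * q * q := (hnM.mul_right q).mul_right q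
  have hqn : ¬ q ∣ n := fun h => hqM (h.trans hnM)
  have hB := Main12.baseExports hb M' hnM
  have hJ : jqModC K ∈ IntermediateField.adjoin K {tq (↥K) n e} :=
    Fermat.Agent.ES.P36.CoeffField4.j_mem_adjoin n e hB.genBase K
  have g := hG ht hE π hπ
  have htW : ModelDefs9.tN q ht ∈ ModelDefs9.O2 M' q hπ hE :=
    g.le_O2_0 _ (self_mem_chart (R := ↥(AK A K)) (ModelDefs9.tN q ht))
  exact HunrSqInv26.hUNRM_sq_chart1 q hb hnM2 hq hqn hA cv hcv
    (CuspValLevel3.cuspValue_mem_of_zeta hb hnM2 hnM hcv.cuspExp hζ) π hirr ht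
    (ModelDefs9.O2 M' q hπ hE) htW
    (ChartTorsion26.hfin_at q hq hA K ht hJ π hirr).2
    (CuspBranchInst3.hcp0_at hb hnM hq hqM hA cv hcv hζ hP hG ht hE hπ hnoeth0 hfrac0)
    (CuspBranchInst3.hcp1_at hb hnM hq hqM hA cv hcv hζ hP hG ht hE hπ hnoeth1 hfrac1)

end Fermat.Agent.ES.P36.HunrSqAt3
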