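/-
Program P (S36), chapter INERT-P, supplement (helper27): the inverse Frobenius `ψ` on an inertial number
field `K` TOGETHER WITH the stability of `A ∩ K` under `ψ⁻¹` (asked by the (G)-instance `KronFacts`:
the coefficient-wise `ψ`-twist is then a BIJECTION of the Gauss ring).

* `resI_symm_apply` : `(σ|_K)⁻¹ = σ⁻¹|_K` pointwise;
* `resI_symm_mem_AK` : `σ ∈ D_A` ⇒ `(σ|_K)⁻¹ (A ∩ K) ⊆ A ∩ K`;
* `mem_AK_resI_iff` : `σ|_K x ∈ A ∩ K ↔ x ∈ A ∩ K`;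
* `exists_frobInv_equiv_of_isInertial` : the conclusion of `InertField27.exists_frobInv_of_isInertial`
  plus `∀ x ∈ A ∩ K, ψ.symm x ∈ A ∩ K`.
-/
import Mathlib
import Fermat.Agent.ES.P36.InertField27

set_option autoImplicit false
set_option linter.unusedSectionVars false
set_option synthInstance.maxHeartbeats 400000

noncomputable section

open HahnSeries ModularCurve

namespace Fermat.Agent.ES.P36.InertFrob27

open Fermat.Agent.RED.Interface4 Fermat.Agent.RED.PUR.GaussGen8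
  Fermat.Agent.RED.DESC Fermat.Agent.ES.RED.GaloisRed21
  Fermat.Agent.ES.N34.KronChart15 Fermat.Agent.ES.N34.KronN14
  Fermat.Agent.ES.P36.InertField27

variable (A : ValuationSubring Qbar) {K : IntermediateField ℚ Qbar}

theorem coe_resI_symm_apply (σ : Qbar ≃ₐ[ℚ] Qbar) (h : ∀ x ∈ K, σ x ∈ K)
    (h' : ∀ x ∈ K, σ⁻¹ x ∈ K) (a : K) :
    (((resI K σ h h').symm a : K) : Qbar) = σ⁻¹ (a : Qbar) := rfl

theorem resI_symm_mem_AK {σ : Qbar ≃ₐ[ℚ] Qbar} (hσ : σ ∈ A.decompositionSubgroup ℚ)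
    (h : ∀ x ∈ K, σ x ∈ K) (h' : ∀ x ∈ K, σ⁻¹ x ∈ K) {a : K} (ha : a ∈ AK A K) :
    (resI K σ h h').symm a ∈ AK A K := by
  rw [NumberFieldDVR27.mem_AK_iff] at ha ⊢
  rw [coe_resI_symm_apply]
  exact (sigmaA A ⟨σ⁻¹, inv_mem hσ⟩ ⟨(a : Qbar), ha⟩).2

theorem mem_AK_resI_iff {σ : Qbar ≃ₐ[ℚ] Qbar} (hσ : σ ∈ A.decompositionSubgroup ℚ)
    (h : ∀ x ∈ K, σ x ∈ K) (h' : ∀ x ∈ K, σ⁻¹ x ∈ K) (a : K) :
    resI K σ h h' a ∈ AK A K ↔ a ∈ AK A K := by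
  refine ⟨fun ha => ?_, fun ha => resI_mem_AK hσ h h' ha⟩
  have := resI_symm_mem_AK A hσ h h' ha
  rwa [AlgEquiv.symm_apply_apply] at this

/-- **The inverse Frobenius on an inertial `K`, as an automorphism of `A ∩ K`**: the conclusion of
`InertField27.exists_frobInv_of_isInertial` together with the stability of `A ∩ K` under `ψ⁻¹`. -/
theorem exists_frobInv_equiv_of_isInertial (hK : IsInertial A K) (q : ℕ)
    (hq : q.Prime) (hA : A.LiesOverPrime q) :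
    ∃ (ψ : K ≃ₐ[ℚ] K) (hψO : ∀ x ∈ AK A K, ((ψ : K ≃ₐ[ℚ] K) : K →+* K) x ∈ AK A K),
      (∀ x ∈ AK A K, ψ.symm x ∈ AK A K) ∧
      ∀ x : ↥(AK A K),
        res0 (AK A K) (restrictO (AK A K) ((ψ : K ≃ₐ[ℚ] K) : K →+* K) hψO x) ^ q =
          res0 (AK A K) x := by
  obtain ⟨σ, hσ⟩ := Fermat.Agent.ES.FROB.FrobFacts12.exists_isFrobeniusAt_of q hq A hA
  have hD : σ ∈ A.decompositionSubgroup ℚ := hσ.mem_decompositionSubgroup
  have hD' : σ⁻¹ ∈ A.decompositionSubgroup ℚ := inv_mem hD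
  have h1 : ∀ x ∈ K, σ⁻¹ x ∈ K := hK.2 _ hD'
  have h2 : ∀ x ∈ K, (σ⁻¹)⁻¹ x ∈ K := by
    rw [inv_inv]; exact hK.2 _ hD
  have hψO : ∀ x ∈ AK A K, ((resI K σ⁻¹ h1 h2 : K ≃ₐ[ℚ] K) : K →+* K) x ∈ AK A K :=
    fun x hx => resI_mem_AK hD' h1 h2 hx
  refine ⟨resI K σ⁻¹ h1 h2, hψO, fun x hx => resI_symm_mem_AK A hD' h1 h2 hx, fun x => ?_⟩
  set y : ↥(AK A K) := restrictO (AK A K) ((resI K σ⁻¹ h1 h2 : K ≃ₐ[ℚ] K) : K →+* K) hψO x with hy
  apply NumberFieldDVR27.resMap_injective A K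
  rw [map_pow, NumberFieldDVR27.resMap_residue, NumberFieldDVR27.resMap_residue]
  have h3 := psiRes_of_isFrobeniusAt A hσ (IsLocalRing.residue ↥A (NumberFieldDVR27.incl A K y))
  rw [psiRes_residue] at h3
  rw [← h3]
  congr 1
  apply Subtype.ext
  rw [coe_sigmaA, NumberFieldDVR27.coe_incl, NumberFieldDVR27.coe_incl]
  have h4 : (((y : ↥(AK A K)) : K) : Qbar) = σ⁻¹ (((x : ↥(AK A K)) : K) : Qbar) :=
    coe_resI σ⁻¹ h1 h2 (x : K)
  rw [h4]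
  exact AlgEquiv.apply_symm_apply σ _

end Fermat.Agent.ES.P36.InertFrob27
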