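/-
Program P (S36), chapter REG, brick R6, `β₂`-side integrality (helper23).  PER `K`.

**`B″` is the integral closure of `β₂ (B′)` in `F″`** (both charts): the hypotheses `hB2`, `hB3` of
`EisGen4.eisAt_of_kron` at `φ := β₂`.

The point is that the modular equation of level `q` is SYMMETRIC (`SymEq23.eval_beta_alpha_model`):
`yN = β tM` is integral over `R[tN] = R[α tM]` (`ModEqItems`: `yN ∈ B0′`); lifting a monic equation to a
polynomial `G` over `R[tM]` with `α(G)(β tM) = 0` and applying the symmetry gives `β(G)(α tM) = 0`, i.e. `tN` is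
integral over `R[yN]`: `tN ∈ chart R yN` (`sym_chart`).  Applying `α₂`: `t = α₂ tN ∈ chart R t₁`,
`t₁ = α₂ yN = β₂ tN`, hence `B0″ = chart R t ⊆ chart R (β₂ tN)`, and every element of the latter is integral
over `β₂ (R[tN]) ⊆ β₂ (B0′)`.  The converse inclusion is `ChartMaps9.beta2_mem_B0` + integral closedness.

* generic: `exists_of_mem_adjoin_map`, `map_mem_adjoin`, `exists_monic_lift`, `sym_chart`, `chart_le_chart`,
  `isIntegralElem_of_mem_chart`, `mem_chart_of_isIntegralElem`;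
* model: `tN_mem_chart_yN`, `tN_inv_mem_chart_yN_inv`, `t_mem_chart_t1`, `t_inv_mem_chart_t1_inv`,
  **`hB2_beta2_B0`, `hB3_beta2_B0`, `hB2_beta2_B1`, `hB3_beta2_B1`** (and the `α₂`-twins `hB2_alpha2_B0`, …).
-/
import Mathlib
import Fermat.Agent.ES.P36.SymEq23
import Fermat.Agent.ES.P36.ChartMaps9

set_option autoImplicit false
set_option linter.unusedSectionVars false
set_option synthInstance.maxHeartbeats 400000
set_option maxHeartbeats 1000000

open HahnSeries ModularCurve Polynomial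

noncomputable section

namespace Fermat.Agent.ES.P36.IntBeta23

open Fermat.Agent.RED.PUR.ChartGeneric22

/-! ### Generic lemmas -/

section Generic

variable {R F₀ F₁ : Type*} [CommRing R] [Field F₀] [Field F₁] [Algebra R F₀] [Algebra R F₁]

/-- `R[φ f] ⊆ φ (R[f])`. -/
theorem exists_of_mem_adjoin_map (φ : F₀ →+* F₁)
    (hφ : ∀ r : R, φ (algebraMap R F₀ r) = algebraMap R F₁ r) (f : F₀) {c : F₁}
    (hc : c ∈ Algebra.adjoin R {φ f}) : ∃ d ∈ Algebra.adjoin R {f}, φ d = c := by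
  let φA : F₀ →ₐ[R] F₁ := { φ with commutes' := hφ }
  have h : (Algebra.adjoin R {f}).map φA = Algebra.adjoin R {φ f} := by
    rw [AlgHom.map_adjoin, Set.image_singleton]
    rfl
  rw [← h] at hc
  obtain ⟨d, hd, hdc⟩ := hc
  exact ⟨d, hd, hdc⟩

/-- `φ (R[f]) ⊆ R[φ f]`. -/
theorem map_mem_adjoin (φ : F₀ →+* F₁)
    (hφ : ∀ r : R, φ (algebraMap R F₀ r) = algebraMap R F₁ r) (f : F₀) {d : F₀}
    (hd : d ∈ Algebra.adjoin R {f}) : φ d ∈ Algebra.adjoin R {φ f} := by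
  let φA : F₀ →ₐ[R] F₁ := { φ with commutes' := hφ }
  have h : (Algebra.adjoin R {f}).map φA = Algebra.adjoin R {φ f} := by
    rw [AlgHom.map_adjoin, Set.image_singleton]
    rfl
  rw [← h]
  exact ⟨d, hd, rfl⟩

/-- a monic polynomial whose coefficients are images of elements of `S` is the image of a monic polynomial
with coefficients in `S`. -/
theorem exists_monic_lift (φ : F₀ →+* F₁) (S : Subalgebra R F₀) (P : F₁[X]) (hP : P.Monic)
    (hc : ∀ i, ∃ d ∈ S, φ d = P.coeff i) :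
    ∃ G : F₀[X], G.Monic ∧ (∀ i, G.coeff i ∈ S) ∧ G.map φ = P := by
  set g : ↥S →+* F₁ := φ.comp (algebraMap ↥S F₀) with hg
  have hl : P ∈ lifts g := by
    rw [lifts_iff_coeff_lifts]
    intro i
    obtain ⟨d, hd, hdc⟩ := hc i
    exact ⟨⟨d, hd⟩, hdc⟩
  obtain ⟨p, hp, -, hpm⟩ := lifts_and_natDegree_eq_and_monic hl hP
  refine ⟨p.map (algebraMap ↥S F₀), hpm.map _, fun i => ?_, ?_⟩
  · rw [coeff_map]
    exact (p.coeff i).2
  · rw [Polynomial.map_map]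
    exact hp

/-- **the symmetric modular equation, chart form**: if `β f` is integral over `R[α f]`, then `α f` is
integral over `R[β f]`. -/
theorem sym_chart (α β : F₀ →+* F₁)
    (hα : ∀ r : R, α (algebraMap R F₀ r) = algebraMap R F₁ r)
    (hβ : ∀ r : R, β (algebraMap R F₀ r) = algebraMap R F₁ r)
    (sym : ∀ (G : F₀[X]) (f : F₀), (G.map α).eval (β f) = 0 → (G.map β).eval (α f) = 0)
    (f : F₀) (h : β f ∈ chart R (α f)) : α f ∈ chart R (β f) := by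
  rw [mem_chart_iff, isIntegral_subalgebra_iff] at h ⊢
  obtain ⟨P, hP, hcoef, hev⟩ := h
  obtain ⟨G, hG, hGc, hGP⟩ := exists_monic_lift α (Algebra.adjoin R {f}) P hP
    (fun i => exists_of_mem_adjoin_map α hα f (hcoef i))
  refine ⟨G.map β, hG.map β, fun i => ?_, sym G f (by rw [hGP]; exact hev)⟩
  rw [coeff_map]
  exact map_mem_adjoin β hβ f (hGc i)

/-- `t ∈ chart R s` implies `chart R t ⊆ chart R s`. -/
theorem chart_le_chart {s t : F₁} (h : t ∈ chart R s) : chart R t ≤ chart R s := by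
  intro x hx
  apply chart_intcl
  rw [mem_chart_iff, isIntegral_subalgebra_iff] at hx
  rw [isIntegral_subalgebra_iff]
  obtain ⟨P, hP, hcoef, hev⟩ := hx
  have hle : Algebra.adjoin R {t} ≤ chart R s :=
    Algebra.adjoin_le (by
      intro y hy
      rw [Set.mem_singleton_iff] at hy
      subst hy
      exact h)
  exact ⟨P, hP, fun i => hle (hcoef i), hev⟩

/-- every element of `chart R (ψ s)` is integral over `ψ (Bq)` as soon as `R[s] ⊆ Bq`
(`RingHom.IsIntegralElem` form). -/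
theorem isIntegralElem_of_mem_chart (ψ : F₀ →+* F₁)
    (hψ : ∀ r : R, ψ (algebraMap R F₀ r) = algebraMap R F₁ r) {s : F₀} (Bq : Subalgebra R F₀)
    (hs : Algebra.adjoin R {s} ≤ Bq) {b : F₁} (hb : b ∈ chart R (ψ s)) :
    (ψ.comp (algebraMap ↥Bq F₀)).IsIntegralElem b := by
  rw [mem_chart_iff, isIntegral_subalgebra_iff] at hb
  obtain ⟨P, hP, hcoef, hev⟩ := hb
  set g : ↥Bq →+* F₁ := ψ.comp (algebraMap ↥Bq F₀) with hg
  have hl : P ∈ lifts g := by
    rw [lifts_iff_coeff_lifts]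
    intro i
    obtain ⟨d, hd, hdc⟩ := exists_of_mem_adjoin_map ψ hψ s (hcoef i)
    exact ⟨⟨d, hs hd⟩, hdc⟩
  obtain ⟨p, hp, -, hpm⟩ := lifts_and_natDegree_eq_and_monic hl hP
  refine ⟨p, hpm, ?_⟩
  rw [← eval_map, hp, hev]

/-- an element integral over `ψ (Bq)` lies in the chart as soon as `ψ (Bq)` does. -/
theorem mem_chart_of_isIntegralElem (ψ : F₀ →+* F₁) (Bq : Subalgebra R F₀) {t : F₁}
    (hψB : ∀ y ∈ Bq, ψ y ∈ chart R t) {x : F₁}
    (hx : (ψ.comp (algebraMap ↥Bq F₀)).IsIntegralElem x) : x ∈ chart R t := by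
  obtain ⟨p, hp, hpx⟩ := hx
  apply chart_intcl
  rw [isIntegral_subalgebra_iff]
  refine ⟨p.map (ψ.comp (algebraMap ↥Bq F₀)), hp.map _, fun i => ?_, ?_⟩
  · rw [coeff_map]
    exact hψB _ (p.coeff i).2
  · rw [eval_map]
    exact hpx

end Generic

/-! ### The model -/

section Model

open Fermat.Agent.RED.Interface4 Fermat.Agent.RED.PUR.GaussGen8 Fermat.Agent.RED.BASE.EtaQuot12
  Fermat.Agent.ES.N34 Fermat.Agent.ES.P36.ModelDefsP9

variable {n e q M' : ℕ} [NeZero n] [NeZero M'] [NeZero q] {A : ValuationSubring Qbar}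
  {K : IntermediateField ℚ Qbar}

theorem alpha_commutes (r : ↥(AK A K)) :
    (ModelDefs9.alpha K M' q).toRingHom (algebraMap ↥(AK A K) ↥(FK M' K) r) =
      algebraMap ↥(AK A K) ↥(FK (M' * q) K) r :=
  (ModelDefs9.alpha K M' q).commutes ((r : ↥(AK A K)) : ↥K)

theorem beta_commutes (r : ↥(AK A K)) :
    (ModelDefs9.beta K M' q).toRingHom (algebraMap ↥(AK A K) ↥(FK M' K) r) =
      algebraMap ↥(AK A K) ↥(FK (M' * q) K) r :=
  (ModelDefs9.beta K M' q).commutes ((r : ↥(AK A K)) : ↥K)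

theorem alpha2_commutes (r : ↥(AK A K)) :
    (alpha2 K M' q).toRingHom (algebraMap ↥(AK A K) ↥(FK (M' * q) K) r) =
      algebraMap ↥(AK A K) ↥(FK (M' * q * q) K) r :=
  (alpha2 K M' q).commutes ((r : ↥(AK A K)) : ↥K)

theorem beta2_commutes (r : ↥(AK A K)) :
    (beta2 K M' q).toRingHom (algebraMap ↥(AK A K) ↥(FK (M' * q) K) r) =
      algebraMap ↥(AK A K) ↥(FK (M' * q * q) K) r :=
  (beta2 K M' q).commutes ((r : ↥(AK A K)) : ↥K)

/-- **`tN` is integral over `R[yN]`** (symmetry of the modular equation). -/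
theorem tN_mem_chart_yN (hq : q.Prime) (hqM : ¬ q ∣ M') (ht : tq (↥K) n e ∈ FK M' K)
    (hy0 : ModelDefs9.yN q ht ∈ ModelDefs9.B0 A q ht) :
    ModelDefs9.tN q ht ∈ chart ↥(AK A K) (ModelDefs9.yN q ht) :=
  sym_chart (R := ↥(AK A K)) (ModelDefs9.alpha K M' q).toRingHom (ModelDefs9.beta K M' q).toRingHom
    alpha_commutes beta_commutes
    (fun G f h => SymEq23.eval_beta_alpha_model K M' q hq hqM G f h) (ModelDefs9.tM ht) hy0

/-- **`tN⁻¹` is integral over `R[yN⁻¹]`.** -/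
theorem tN_inv_mem_chart_yN_inv (hq : q.Prime) (hqM : ¬ q ∣ M') (ht : tq (↥K) n e ∈ FK M' K)
    (hy1 : (ModelDefs9.yN q ht)⁻¹ ∈ ModelDefs9.B1 A q ht) :
    (ModelDefs9.tN q ht)⁻¹ ∈ chart ↥(AK A K) (ModelDefs9.yN q ht)⁻¹ := by
  have h := sym_chart (R := ↥(AK A K)) (ModelDefs9.alpha K M' q).toRingHom
    (ModelDefs9.beta K M' q).toRingHom alpha_commutes beta_commutes
    (fun G f h => SymEq23.eval_beta_alpha_model K M' q hq hqM G f h) (ModelDefs9.tM ht)⁻¹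
    (by
      show (ModelDefs9.beta K M' q) (ModelDefs9.tM ht)⁻¹ ∈
        chart ↥(AK A K) ((ModelDefs9.alpha K M' q) (ModelDefs9.tM ht)⁻¹)
      rw [map_inv₀, map_inv₀]
      exact hy1)
  have h' : (ModelDefs9.alpha K M' q) (ModelDefs9.tM ht)⁻¹ ∈
      chart ↥(AK A K) ((ModelDefs9.beta K M' q) (ModelDefs9.tM ht)⁻¹) := h
  rw [map_inv₀, map_inv₀] at h'
  exact h'

/-- `t ∈ chart R t₁`. -/
theorem t_mem_chart_t1 (hq : q.Prime) (hqM : ¬ q ∣ M') (ht : tq (↥K) n e ∈ FK M' K)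
    (hy0 : ModelDefs9.yN q ht ∈ ModelDefs9.B0 A q ht) :
    t q ht ∈ chart ↥(AK A K) (t1 q ht) :=
  ModelN4.map_mem_chart (alpha2 K M' q).toRingHom alpha2_commutes
    (s := ModelDefs9.yN q ht) (t := t1 q ht) (self_mem_chart _) (tN_mem_chart_yN hq hqM ht hy0)

/-- `t⁻¹ ∈ chart R t₁⁻¹`. -/
theorem t_inv_mem_chart_t1_inv (hq : q.Prime) (hqM : ¬ q ∣ M') (ht : tq (↥K) n e ∈ FK M' K)
    (hy1 : (ModelDefs9.yN q ht)⁻¹ ∈ ModelDefs9.B1 A q ht) :
    (t q ht)⁻¹ ∈ chart ↥(AK A K) (t1 q ht)⁻¹ := by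
  have h := ModelN4.map_mem_chart (R := ↥(AK A K)) (alpha2 K M' q).toRingHom alpha2_commutes
    (s := (ModelDefs9.yN q ht)⁻¹) (t := (t1 q ht)⁻¹)
    (by
      show (alpha2 K M' q) (ModelDefs9.yN q ht)⁻¹ ∈ chart ↥(AK A K) (t1 q ht)⁻¹
      rw [map_inv₀]
      exact self_mem_chart _)
    (tN_inv_mem_chart_yN_inv hq hqM ht hy1)
  have h' : (alpha2 K M' q) (ModelDefs9.tN q ht)⁻¹ ∈ chart ↥(AK A K) (t1 q ht)⁻¹ := h
  rw [map_inv₀] at h'
  exact h'

/-- **`hB2` at `φ := β₂`, chart `0`**: every element of `B0″` is integral over `β₂ (B0′)`. -/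
theorem hB2_beta2_B0 (hq : q.Prime) (hqM : ¬ q ∣ M') (ht : tq (↥K) n e ∈ FK M' K)
    (hy0 : ModelDefs9.yN q ht ∈ ModelDefs9.B0 A q ht) :
    ∀ b ∈ B0 A q ht, ((beta2 K M' q).toRingHom.comp
      (algebraMap ↥(ModelDefs9.B0 A q ht) ↥(FK (M' * q) K))).IsIntegralElem b := by
  intro b hb
  have h1 : b ∈ chart ↥(AK A K) (t1 q ht) := chart_le_chart (t_mem_chart_t1 hq hqM ht hy0) hb
  rw [t1_eq_beta2] at h1
  exact isIntegralElem_of_mem_chart (beta2 K M' q).toRingHom beta2_commutes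
    (ModelDefs9.B0 A q ht) (adjoin_le_chart _) h1

/-- **`hB3` at `φ := β₂`, chart `0`**: an element of `F″` integral over `β₂ (B0′)` lies in `B0″`. -/
theorem hB3_beta2_B0 (ht : tq (↥K) n e ∈ FK M' K)
    (hy0 : ModelDefs9.yN q ht ∈ ModelDefs9.B0 A q ht) :
    ∀ x : ↥(FK (M' * q * q) K), ((beta2 K M' q).toRingHom.comp
      (algebraMap ↥(ModelDefs9.B0 A q ht) ↥(FK (M' * q) K))).IsIntegralElem x → x ∈ B0 A q ht :=
  fun _ hx => mem_chart_of_isIntegralElem (beta2 K M' q).toRingHom (ModelDefs9.B0 A q ht)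
    (fun _ hy => ChartMaps9.beta2_mem_B0 ht hy0 hy) hx

/-- **`hB2` at `φ := β₂`, chart `1`.** -/
theorem hB2_beta2_B1 (hq : q.Prime) (hqM : ¬ q ∣ M') (ht : tq (↥K) n e ∈ FK M' K)
    (hy1 : (ModelDefs9.yN q ht)⁻¹ ∈ ModelDefs9.B1 A q ht) :
    ∀ b ∈ B1 A q ht, ((beta2 K M' q).toRingHom.comp
      (algebraMap ↥(ModelDefs9.B1 A q ht) ↥(FK (M' * q) K))).IsIntegralElem b := by
  intro b hb
  have h1 : b ∈ chart ↥(AK A K) (t1 q ht)⁻¹ :=
    chart_le_chart (t_inv_mem_chart_t1_inv hq hqM ht hy1) hb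
  have h2 : (t1 q ht)⁻¹ = (beta2 K M' q).toRingHom (ModelDefs9.tN q ht)⁻¹ := by
    show (t1 q ht)⁻¹ = (beta2 K M' q) (ModelDefs9.tN q ht)⁻¹
    rw [map_inv₀, t1_eq_beta2]
  rw [h2] at h1
  exact isIntegralElem_of_mem_chart (beta2 K M' q).toRingHom beta2_commutes
    (ModelDefs9.B1 A q ht) (adjoin_le_chart _) h1

/-- **`hB3` at `φ := β₂`, chart `1`.** -/
theorem hB3_beta2_B1 (ht : tq (↥K) n e ∈ FK M' K)
    (hy1 : (ModelDefs9.yN q ht)⁻¹ ∈ ModelDefs9.B1 A q ht) :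
    ∀ x : ↥(FK (M' * q * q) K), ((beta2 K M' q).toRingHom.comp
      (algebraMap ↥(ModelDefs9.B1 A q ht) ↥(FK (M' * q) K))).IsIntegralElem x → x ∈ B1 A q ht :=
  fun _ hx => mem_chart_of_isIntegralElem (beta2 K M' q).toRingHom (ModelDefs9.B1 A q ht)
    (fun _ hy => ChartMaps9.beta2_mem_B1 ht hy1 hy) hx

/-! ### The `α₂`-twins (no symmetry needed: `α₂ tN = t`) -/

theorem hB2_alpha2_B0 (ht : tq (↥K) n e ∈ FK M' K) :
    ∀ b ∈ B0 A q ht, ((alpha2 K M' q).toRingHom.comp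
      (algebraMap ↥(ModelDefs9.B0 A q ht) ↥(FK (M' * q) K))).IsIntegralElem b :=
  fun _ hb => isIntegralElem_of_mem_chart (alpha2 K M' q).toRingHom alpha2_commutes
    (ModelDefs9.B0 A q ht) (adjoin_le_chart _) hb

theorem hB3_alpha2_B0 (ht : tq (↥K) n e ∈ FK M' K) :
    ∀ x : ↥(FK (M' * q * q) K), ((alpha2 K M' q).toRingHom.comp
      (algebraMap ↥(ModelDefs9.B0 A q ht) ↥(FK (M' * q) K))).IsIntegralElem x → x ∈ B0 A q ht :=
  fun _ hx => mem_chart_of_isIntegralElem (alpha2 K M' q).toRingHom (ModelDefs9.B0 A q ht)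
    (fun _ hy => ChartMaps9.alpha2_mem_B0 ht hy) hx

theorem hB2_alpha2_B1 (ht : tq (↥K) n e ∈ FK M' K) :
    ∀ b ∈ B1 A q ht, ((alpha2 K M' q).toRingHom.comp
      (algebraMap ↥(ModelDefs9.B1 A q ht) ↥(FK (M' * q) K))).IsIntegralElem b := by
  intro b hb
  have h2 : (t q ht)⁻¹ = (alpha2 K M' q).toRingHom (ModelDefs9.tN q ht)⁻¹ := by
    show (t q ht)⁻¹ = (alpha2 K M' q) (ModelDefs9.tN q ht)⁻¹
    rw [map_inv₀]
    rfl
  have h1 : b ∈ chart ↥(AK A K) ((alpha2 K M' q).toRingHom (ModelDefs9.tN q ht)⁻¹) := by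
    rw [← h2]
    exact hb
  exact isIntegralElem_of_mem_chart (alpha2 K M' q).toRingHom alpha2_commutes
    (ModelDefs9.B1 A q ht) (adjoin_le_chart _) h1

theorem hB3_alpha2_B1 (ht : tq (↥K) n e ∈ FK M' K) :
    ∀ x : ↥(FK (M' * q * q) K), ((alpha2 K M' q).toRingHom.comp
      (algebraMap ↥(ModelDefs9.B1 A q ht) ↥(FK (M' * q) K))).IsIntegralElem x → x ∈ B1 A q ht :=
  fun _ hx => mem_chart_of_isIntegralElem (alpha2 K M' q).toRingHom (ModelDefs9.B1 A q ht)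
    (fun _ hy => ChartMaps9.alpha2_mem_B1 ht hy) hx

end Model

end Fermat.Agent.ES.P36.IntBeta23
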