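/-
Program P (S36), chapter REG, brick R6α (helper10), third file: CHART PLUMBING — the localised chart
of level `q²` at a point over the node IS the integral closure of the localised chart of level `q`.

`E ⊂ F` fields (`Algebra E F` = one degeneracy map), `Bq : Subalgebra R E` the chart of level `q`,
`B : Subalgebra R F` the chart of level `q²`, which is the integral closure of `Bq` in `F`
(`hB1`: `Bq → B`; `hB2`: `B` is integral over `Bq`; `hB3`: `B` contains every element of `F` integral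
over `Bq`), `𝔪` a MAXIMAL ideal of `B`, `𝔫` a prime of `Bq` with `𝔪 ∩ Bq = 𝔫` (`hcontr`),
`S := locSub Bq 𝔫 ⊂ E`, `C := locSub B 𝔪 ⊂ F`, `T := integralClosure S F`.

* `mem_locSub_of_isIntegral` : `T ⊆ C` (clearing denominators);
* `isIntegral_of_mem_locSub` : `C ⊆ T` WHEN `T` IS LOCAL (then `𝔪` is the only point over `𝔫`);
* `equivLoc` : `T ≃+* C` (identity on `F`), with the transport lemmas `maximalIdeal_locSub_eq_span_pair`,
  `prime_of_prime`;
* `hmap_locSub`, `isUnit_of_isUnit_locMap`, `isIntegral_locMap` : the last three items of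
  helper15's contract `BranchLoc15.NodeBelow` (stated for the literal ring hom);
* `mem_maximal_of_forall_prime` : `hzrad` of `EisIdent10.integralClosure_eisenstein` from a chart-level
  hypothesis (`z` lies in every prime of `B` containing the image of `𝔫`).
-/
import Mathlib
import Fermat.Agent.ES.N34.NodalSmooth13

set_option autoImplicit false
set_option linter.unusedSectionVars false
set_option linter.style.haveILetI false

namespace Fermat.Agent.ES.P36.IntClLoc10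

open IsLocalRing Fermat.Agent.ES.N34.NodalCore13 Fermat.Agent.ES.N34.NodalSmooth13

variable {R E F : Type*} [CommRing R] [Field E] [Field F] [Algebra R E] [Algebra R F] [Algebra E F]
  [IsScalarTower R E F]

variable (Bq : Subalgebra R E) (𝔫 : Ideal Bq) [h𝔫 : 𝔫.IsPrime] (B : Subalgebra R F) (𝔪 : Ideal B)

/-- `Bq → (Bq)_𝔫 → F` is a tower. -/
instance towerLoc : IsScalarTower ↥Bq ↥(locSub Bq 𝔫) F :=
  IsScalarTower.of_algebraMap_eq fun _ => rfl

section Up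

variable [h𝔪 : 𝔪.IsPrime]

/-- `E → F` maps `(Bq)_𝔫` into `B_𝔪` (the item `hmap` of `BranchLoc15.NodeBelow`). -/
theorem hmap_locSub (hB1 : ∀ b ∈ Bq, algebraMap E F b ∈ B)
    (hcontr : ∀ b : Bq, (⟨algebraMap E F b, hB1 b b.2⟩ : B) ∈ 𝔪 → b ∈ 𝔫) :
    ∀ x ∈ locSub Bq 𝔫, algebraMap E F x ∈ locSub B 𝔪 := by
  rintro x ⟨a, d, hd, h⟩
  refine ⟨⟨algebraMap E F a, hB1 a a.2⟩, ⟨algebraMap E F d, hB1 d d.2⟩, fun hh => hd (hcontr d hh), ?_⟩
  show algebraMap E F x * algebraMap E F (d : E) = algebraMap E F (a : E)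
  rw [← map_mul, h]

/-- **`T ⊆ C`**: an element of `F` integral over `(Bq)_𝔫` lies in `B_𝔪`. -/
theorem mem_locSub_of_isIntegral (hB1 : ∀ b ∈ Bq, algebraMap E F b ∈ B)
    (hB3 : ∀ x : F, IsIntegral ↥Bq x → x ∈ B)
    (hcontr : ∀ b : Bq, (⟨algebraMap E F b, hB1 b b.2⟩ : B) ∈ 𝔪 → b ∈ 𝔫)
    {c : F} (hc : IsIntegral ↥(locSub Bq 𝔫) c) : c ∈ locSub B 𝔪 := by
  obtain ⟨⟨d, hd⟩, hdc⟩ :=
    IsIntegral.exists_multiple_integral_of_isLocalization 𝔫.primeCompl (Rₘ := ↥(locSub Bq 𝔫)) c hc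
  have hd' : d ∉ 𝔫 := hd
  have hmem : algebraMap E F (d : E) * c ∈ B := by
    have := hB3 _ hdc
    rwa [Submonoid.smul_def, Algebra.smul_def] at this
  refine ⟨⟨_, hmem⟩, ⟨algebraMap E F d, hB1 d d.2⟩, fun hh => hd' (hcontr d hh), ?_⟩
  show c * algebraMap E F (d : E) = algebraMap E F (d : E) * c
  ring

end Up

section Down

variable [h𝔪 : 𝔪.IsMaximal]

/-- **`C ⊆ T` when `T` is local**: an element of `B_𝔪` is integral over `(Bq)_𝔫`. -/
theorem isIntegral_of_mem_locSub [IsLocalRing ↥(integralClosure ↥(locSub Bq 𝔫) F)]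
    (hB1 : ∀ b ∈ Bq, algebraMap E F b ∈ B)
    (hB2 : ∀ b ∈ B, IsIntegral ↥Bq b)
    (hB3 : ∀ x : F, IsIntegral ↥Bq x → x ∈ B)
    (hcontr : ∀ b : Bq, (⟨algebraMap E F b, hB1 b b.2⟩ : B) ∈ 𝔪 → b ∈ 𝔫)
    {c : F} (hc : c ∈ @locSub R F _ _ _ B 𝔪 h𝔪.isPrime) : IsIntegral ↥(locSub Bq 𝔫) c := by
  haveI h𝔪p : 𝔪.IsPrime := h𝔪.isPrime
  set T := integralClosure ↥(locSub Bq 𝔫) F with hT
  have hBT : ∀ b ∈ B, IsIntegral ↥(locSub Bq 𝔫) b := fun b hb =>
    (hB2 b hb).tower_top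
  obtain ⟨a, d, hd, h⟩ := hc
  have hd0 : (d : F) ≠ 0 := coe_ne_zero_of_notMem B 𝔪 hd
  -- `d` is a unit of `T`
  have hdT : (d : F) ∈ T := hBT _ d.2
  have hunit : IsUnit (⟨(d : F), hdT⟩ : ↥T) := by
    by_contra hnu
    have hdm : (⟨(d : F), hdT⟩ : ↥T) ∈ maximalIdeal ↥T := (mem_maximalIdeal _).mpr hnu
    -- `y d + m = 1` in `B`, `m ∈ 𝔪`
    obtain ⟨y, m, hm, hym⟩ := h𝔪.exists_inv hd
    have hyT : (y : F) ∈ T := hBT _ y.2
    have hmT : (m : F) ∈ T := hBT _ m.2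
    have hmeq : (⟨(m : F), hmT⟩ : ↥T) = 1 - ⟨(y : F), hyT⟩ * ⟨(d : F), hdT⟩ := by
      apply Subtype.ext
      have := congrArg (fun z : ↥B => (z : F)) hym
      simp only [Subalgebra.coe_add, Subalgebra.coe_mul, Subalgebra.coe_one] at this
      show (m : F) = 1 - (y : F) * (d : F)
      linear_combination this
    have hmunit : IsUnit (⟨(m : F), hmT⟩ : ↥T) := by
      by_contra hmn
      have hmm : (⟨(m : F), hmT⟩ : ↥T) ∈ maximalIdeal ↥T := (mem_maximalIdeal _).mpr hmn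
      have h1 : (1 : ↥T) ∈ maximalIdeal ↥T := by
        have := Ideal.add_mem _ hmm (Ideal.mul_mem_left _ ⟨(y : F), hyT⟩ hdm)
        rwa [hmeq, sub_add_cancel] at this
      exact (maximalIdeal.isMaximal ↥T).ne_top ((Ideal.eq_top_iff_one _).mpr h1)
    obtain ⟨u, hu⟩ := hmunit.exists_right_inv
    have huF : (m : F) * (u : F) = 1 := by
      have := congrArg (fun z : ↥T => (z : F)) hu
      simpa using this
    -- clear the denominator of `u`
    obtain ⟨⟨d', hd'⟩, hd'u⟩ :=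
      IsIntegral.exists_multiple_integral_of_isLocalization 𝔫.primeCompl
        (Rₘ := ↥(locSub Bq 𝔫)) (u : F) u.2
    have hd'n : d' ∉ 𝔫 := hd'
    have hmem : algebraMap E F (d' : E) * (u : F) ∈ B := by
      have := hB3 _ hd'u
      rwa [Submonoid.smul_def, Algebra.smul_def] at this
    apply hd'n
    apply hcontr
    have : (⟨algebraMap E F (d' : E), hB1 d' d'.2⟩ : ↥B) =
        ⟨algebraMap E F (d' : E) * (u : F), hmem⟩ * m := by
      apply Subtype.ext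
      show algebraMap E F (d' : E) = algebraMap E F (d' : E) * (u : F) * (m : F)
      rw [mul_assoc, mul_comm (u : F), huF, mul_one]
    rw [this]
    exact Ideal.mul_mem_left _ _ hm
  obtain ⟨v, hv⟩ := hunit.exists_right_inv
  have hvF : (d : F) * (v : F) = 1 := by
    have := congrArg (fun z : ↥T => (z : F)) hv
    simpa using this
  have hceq : c = (a : F) * (v : F) := by
    have : c = c * ((d : F) * (v : F)) := by rw [hvF, mul_one]
    rw [this, ← mul_assoc, h]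
  rw [hceq]
  exact (hBT _ a.2).mul v.2

end Down

section Equiv

variable [h𝔪 : 𝔪.IsPrime]

/-- `T ≃+* C` (identity on `F`) once the two subsets of `F` agree. -/
def equivLoc (h : ∀ c : F, c ∈ integralClosure ↥(locSub Bq 𝔫) F ↔ c ∈ locSub B 𝔪) :
    ↥(integralClosure ↥(locSub Bq 𝔫) F) ≃+* ↥(locSub B 𝔪) where
  toFun t := ⟨t.1, (h _).mp t.2⟩
  invFun c := ⟨c.1, (h _).mpr c.2⟩
  left_inv _ := rfl
  right_inv _ := rfl
  map_mul' _ _ := rfl
  map_add' _ _ := rfl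

@[simp] theorem coe_equivLoc (h : ∀ c : F, c ∈ integralClosure ↥(locSub Bq 𝔫) F ↔ c ∈ locSub B 𝔪)
    (t : ↥(integralClosure ↥(locSub Bq 𝔫) F)) : ((equivLoc Bq 𝔫 B 𝔪 h t : ↥(locSub B 𝔪)) : F) = t.1 :=
  rfl

/-- Transport of `𝔪 = (s, z)` along a ring isomorphism of local rings. -/
theorem maximalIdeal_eq_span_pair_of_equiv {T C : Type*} [CommRing T] [CommRing C] [IsLocalRing T]
    [IsLocalRing C] (e : T ≃+* C) (s z : T) (hmax : maximalIdeal T = Ideal.span {s, z}) :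
    maximalIdeal C = Ideal.span {e s, e z} := by
  ext x
  rw [mem_maximalIdeal, mem_nonunits_iff, Ideal.mem_span_pair]
  have hiff : IsUnit x ↔ IsUnit (e.symm x) :=
    ⟨fun h => h.map e.symm, fun h => by simpa using h.map e⟩
  have hmem : ¬ IsUnit (e.symm x) ↔ ∃ a b, a * s + b * z = e.symm x := by
    rw [← mem_nonunits_iff, ← mem_maximalIdeal, hmax, Ideal.mem_span_pair]
  rw [hiff, hmem]
  constructor
  · rintro ⟨a, b, hab⟩
    refine ⟨e a, e b, ?_⟩
    rw [← map_mul, ← map_mul, ← map_add, hab, RingEquiv.apply_symm_apply]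
  · rintro ⟨a, b, hab⟩
    refine ⟨e.symm a, e.symm b, ?_⟩
    rw [← hab, map_add, map_mul, map_mul, RingEquiv.symm_apply_apply, RingEquiv.symm_apply_apply]

/-- Transport of `𝔪_T = (s, z)` and of `Prime z` to `C = B_𝔪`. -/
theorem transport [IsLocalRing ↥(integralClosure ↥(locSub Bq 𝔫) F)]
    (h : ∀ c : F, c ∈ integralClosure ↥(locSub Bq 𝔫) F ↔ c ∈ locSub B 𝔪)
    (s z : ↥(integralClosure ↥(locSub Bq 𝔫) F))
    (hmax : maximalIdeal ↥(integralClosure ↥(locSub Bq 𝔫) F) = Ideal.span {s, z}) (hz : Prime z) :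
    maximalIdeal ↥(locSub B 𝔪) =
        Ideal.span {equivLoc Bq 𝔫 B 𝔪 h s, equivLoc Bq 𝔫 B 𝔪 h z} ∧
      Prime (equivLoc Bq 𝔫 B 𝔪 h z) :=
  ⟨maximalIdeal_eq_span_pair_of_equiv (equivLoc Bq 𝔫 B 𝔪 h) s z hmax,
    (MulEquiv.prime_iff (equivLoc Bq 𝔫 B 𝔪 h).toMulEquiv).mpr hz⟩

end Equiv

section Contract

variable [h𝔪 : 𝔪.IsPrime]

/-- **Units are reflected** (an item of `BranchLoc15.NodeBelow`), for any ring hom
`g : (Bq)_𝔫 → B_𝔪` which is `E → F` on the underlying elements. -/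
theorem isUnit_of_isUnit_map (hB1 : ∀ b ∈ Bq, algebraMap E F b ∈ B)
    (hcontr' : ∀ b : Bq, b ∈ 𝔫 → (⟨algebraMap E F b, hB1 b b.2⟩ : B) ∈ 𝔪)
    (hcontr : ∀ b : Bq, (⟨algebraMap E F b, hB1 b b.2⟩ : B) ∈ 𝔪 → b ∈ 𝔫)
    (g : ↥(locSub Bq 𝔫) →+* ↥(locSub B 𝔪))
    (hg : ∀ x : ↥(locSub Bq 𝔫), ((g x : ↥(locSub B 𝔪)) : F) = algebraMap E F (x : E))
    (x : ↥(locSub Bq 𝔫)) (hx : IsUnit (g x)) : IsUnit x := by
  by_contra hnu
  obtain ⟨a, d, hd, had⟩ := x.2
  have ha : a ∈ 𝔫 := num_mem_of_not_isUnit Bq 𝔫 hnu hd had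
  have ha' := hcontr' a ha
  have hd' : (⟨algebraMap E F d, hB1 d d.2⟩ : B) ∉ 𝔪 := fun hh => hd (hcontr d hh)
  apply not_isUnit_of_mem B 𝔪 ha'
  have heq : algebraMap ↥B ↥(locSub B 𝔪) ⟨algebraMap E F a, hB1 a a.2⟩ =
      g x * algebraMap ↥B ↥(locSub B 𝔪) ⟨algebraMap E F d, hB1 d d.2⟩ := by
    apply Subtype.ext
    show algebraMap E F (a : E) = ((g x : ↥(locSub B 𝔪)) : F) * algebraMap E F (d : E)
    rw [hg, ← map_mul, had]
  rw [heq]
  exact hx.mul ((IsLocalization.AtPrime.isUnit_to_map_iff ↥(locSub B 𝔪) 𝔪 _).mpr hd')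

/-- **`B_𝔪` is integral over `(Bq)_𝔫`** (an item of `BranchLoc15.NodeBelow`), elementwise input. -/
theorem isIntegral_map (g : ↥(locSub Bq 𝔫) →+* ↥(locSub B 𝔪))
    (hg : ∀ x : ↥(locSub Bq 𝔫), ((g x : ↥(locSub B 𝔪)) : F) = algebraMap E F (x : E))
    (hint : ∀ c ∈ locSub B 𝔪, IsIntegral ↥(locSub Bq 𝔫) c) : g.IsIntegral := by
  intro c
  obtain ⟨p, hp, hpc⟩ := hint c c.2
  refine ⟨p, hp, ?_⟩
  apply Subtype.ext
  have hcomp : ((locSub B 𝔪).val.toRingHom).comp g = algebraMap ↥(locSub Bq 𝔫) F :=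
    RingHom.ext fun x => hg x
  have := Polynomial.hom_eval₂ p g ((locSub B 𝔪).val.toRingHom) c
  rw [hcomp] at this
  show ((locSub B 𝔪).val.toRingHom) (Polynomial.eval₂ g c p) = ((0 : ↥(locSub B 𝔪)) : F)
  rw [this]
  exact hpc

end Contract

section Radical

/-- **`hzrad` from the chart**: if `z ∈ B` lies in every prime of `B` containing the image of `𝔫`, then
`z` lies in every maximal ideal of the integral closure `T` of `(Bq)_𝔫` in `F`. -/
theorem mem_maximal_of_forall_prime (hB1 : ∀ b ∈ Bq, algebraMap E F b ∈ B)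
    (hB2 : ∀ b ∈ B, IsIntegral ↥Bq b) {z : F} (hzB : z ∈ B)
    (hzP : ∀ P : Ideal B, P.IsPrime →
      (∀ a : Bq, a ∈ 𝔫 → (⟨algebraMap E F a, hB1 a a.2⟩ : B) ∈ P) → (⟨z, hzB⟩ : B) ∈ P)
    (hzint : IsIntegral ↥(locSub Bq 𝔫) z)
    (M : Ideal ↥(integralClosure ↥(locSub Bq 𝔫) F)) (hM : M.IsMaximal) :
    (⟨z, hzint⟩ : ↥(integralClosure ↥(locSub Bq 𝔫) F)) ∈ M := by
  have hBT : ∀ b ∈ B, IsIntegral ↥(locSub Bq 𝔫) b := fun b hb => (hB2 b hb).tower_top
  haveI := hM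
  haveI : M.IsPrime := hM.isPrime
  -- `B → T`
  let ι : ↥B →+* ↥(integralClosure ↥(locSub Bq 𝔫) F) :=
    { toFun := fun b => ⟨(b : F), hBT _ b.2⟩
      map_one' := rfl
      map_mul' := fun _ _ => rfl
      map_zero' := rfl
      map_add' := fun _ _ => rfl }
  haveI hPprime : (M.comap ι).IsPrime := Ideal.comap_isPrime ι M
  have hcomap : M.comap (algebraMap ↥(locSub Bq 𝔫) ↥(integralClosure ↥(locSub Bq 𝔫) F)) =
      maximalIdeal ↥(locSub Bq 𝔫) := by
    haveI : (M.comap (algebraMap ↥(locSub Bq 𝔫) ↥(integralClosure ↥(locSub Bq 𝔫) F))).IsMaximal :=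
      Ideal.isMaximal_comap_of_isIntegral_of_isMaximal M
    exact IsLocalRing.eq_maximalIdeal this
  have hz := hzP (M.comap ι) hPprime (fun a ha => by
    rw [Ideal.mem_comap]
    have h1 : algebraMap ↥Bq ↥(locSub Bq 𝔫) a ∈ maximalIdeal ↥(locSub Bq 𝔫) :=
      (mem_maximalIdeal _).mpr (not_isUnit_of_mem Bq 𝔫 ha)
    rw [← hcomap, Ideal.mem_comap] at h1
    have h2 : ι ⟨algebraMap E F a, hB1 a a.2⟩ =
        algebraMap ↥(locSub Bq 𝔫) ↥(integralClosure ↥(locSub Bq 𝔫) F)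
          (algebraMap ↥Bq ↥(locSub Bq 𝔫) a) := Subtype.ext rfl
    rw [h2]
    exact h1)
  exact hz

end Radical

end Fermat.Agent.ES.P36.IntClLoc10
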