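/-
S36 scouting brick, DESC-P(a) "UNR" (helper1).

`Qbar = AlgebraicClosure ℚ`, `P` a valuation subring of `Qbar` over the prime `q`,
`K ⊂ Qbar` a number field fixed pointwise by the inertia group `I_P`.  Then `q` is a uniformiser
of the discrete valuation ring `AK P K = P ∩ K`.

Route: `N` the normal closure of `K`, `𝔓 = m_P ∩ 𝓞 N`.  Every element of the inertia group of `𝔓`
in `Gal(N/ℚ)` lifts to `I_P` (`S13.UnramBridge.exists_inertia_lift`), hence fixes `K`, so the
inertia groups of `𝔓` in `Gal(N/ℚ)` and in `Gal(N/K)` have the same cardinality; by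
`#I = e` (Mathlib) and multiplicativity of `e` in towers, `e(𝔓 ∩ 𝓞 K | q) = 1`.
-/
import Mathlib
import Fermat.Agent.S13.UnramBridge
import Fermat.Agent.RED.DESC.NumberFieldDVR27
import Fermat.Agent.RED.PUR.GaussGen8

set_option autoImplicit false
set_option linter.style.haveILetI false

open NumberField
open scoped Pointwise

namespace Fermat.Agent.ES.P36.UnrFixed1

section LemmaA

variable (K N : Type*) [Field K] [Field N] [Algebra K N] [CharZero N]

/-- An automorphism of `N/ℚ` fixing `K` pointwise, viewed as a `K`-automorphism. -/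
def toRel (σ : Gal(N/ℚ)) (h : ∀ k : K, σ (algebraMap K N k) = algebraMap K N k) : Gal(N/K) :=
  { (σ : N ≃+* N) with commutes' := h }

theorem toRel_apply (σ : Gal(N/ℚ)) (h : ∀ k : K, σ (algebraMap K N k) = algebraMap K N k)
    (x : N) : toRel K N σ h x = σ x := rfl

variable [NumberField K] [NumberField N] [IsGalois ℚ N]

/-- If the inertia group of `𝔓` in `Gal(N/ℚ)` fixes `K` pointwise, then `𝔓 ∩ 𝓞 K` is unramified
over `ℤ`. -/
theorem ramificationIdx_under_eq_one (𝔓 : Ideal (𝓞 N)) [𝔓.IsPrime]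
    (hI : ∀ σ ∈ 𝔓.inertia Gal(N/ℚ), ∀ k : K, σ (algebraMap K N k) = algebraMap K N k) :
    (𝔓.under (𝓞 K)).ramificationIdx ℤ = 1 := by
  have hgal : IsGalois K N := IsGalois.tower_top_of_isGalois ℚ K N
  set 𝔭 : Ideal (𝓞 K) := 𝔓.under (𝓞 K) with h𝔭
  have h𝔭prime : 𝔭.IsPrime := inferInstance
  have hlies : 𝔓.LiesOver 𝔭 := inferInstance
  -- cardinalities of inertia groups
  have h1 : Nat.card (𝔓.inertia Gal(N/ℚ)) = 𝔓.ramificationIdx ℤ := by
    rw [Ideal.card_inertia_eq_ramificationIdxIn (𝔓.under ℤ) 𝔓,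
      Ideal.ramificationIdxIn_eq_ramificationIdx (𝔓.under ℤ) 𝔓 Gal(N/ℚ)]
  have h2 : Nat.card (𝔓.inertia Gal(N/K)) = 𝔓.ramificationIdx (𝓞 K) := by
    rw [Ideal.card_inertia_eq_ramificationIdxIn 𝔭 𝔓,
      Ideal.ramificationIdxIn_eq_ramificationIdx 𝔭 𝔓 Gal(N/K)]
  have h3 : 𝔓.ramificationIdx ℤ = 𝔭.ramificationIdx ℤ * 𝔓.ramificationIdx (𝓞 K) :=
    Ideal.ramificationIdx_tower 𝔭 𝔓
  -- the injection of inertia groups
  have h4 : Nat.card (𝔓.inertia Gal(N/ℚ)) ≤ Nat.card (𝔓.inertia Gal(N/K)) := by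
    let f : 𝔓.inertia Gal(N/ℚ) → 𝔓.inertia Gal(N/K) := fun σ =>
      ⟨toRel K N σ.1 (hI σ.1 σ.2), by
        intro x
        have hσ := σ.2 x
        have heq : (toRel K N σ.1 (hI σ.1 σ.2) • x : 𝓞 N) = σ.1 • x := by
          apply RingOfIntegers.coe_injective
          rw [algebraMap.smul', algebraMap.smul']
          rfl
        rw [heq]
        exact hσ⟩
    have hf : Function.Injective f := by
      intro σ τ h
      apply Subtype.ext
      ext x
      have h' := congrArg (fun g : 𝔓.inertia Gal(N/K) => (g.1 : N → N) x) h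
      simpa only [f, toRel_apply] using h'
    exact Nat.card_le_card_of_injective f hf
  have hpos : 0 < Nat.card (𝔓.inertia Gal(N/ℚ)) := Nat.card_pos
  rw [h1] at h4 hpos
  rw [h2] at h4
  rw [h3] at h4 hpos
  rcases Nat.eq_zero_or_pos (𝔭.ramificationIdx ℤ) with h0 | h0
  · rw [h0, zero_mul] at hpos; exact absurd hpos (lt_irrefl _)
  · have h5 : 0 < 𝔓.ramificationIdx (𝓞 K) := by
      rcases Nat.eq_zero_or_pos (𝔓.ramificationIdx (𝓞 K)) with h | h
      · rw [h, mul_zero] at hpos; exact absurd hpos (lt_irrefl _)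
      · exact h
    by_contra hne
    have h6 : 2 ≤ 𝔭.ramificationIdx ℤ := by omega
    nlinarith

end LemmaA

section Apply

open Fermat.Agent.RED.Interface4 Fermat.Agent.RED.DESC.NumberFieldDVR27
  Fermat.Agent.RED.PUR.GaussGen8 Fermat.Agent.S13.UnramRam Fermat.Agent.S13.UnramBridge
open IsDedekindDomain

local notation "Qbar" => AlgebraicClosure ℚ

variable (P : ValuationSubring Qbar) {q : ℕ}

/-- The inertia group of `m_P ∩ 𝓞 N` in `Gal(N/ℚ)` fixes every element of `N` fixed by `I_P`. -/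
theorem inertia_fixes (hq : q.Prime) (hP : P.LiesOverPrime q)
    (N : IntermediateField ℚ Qbar) [FiniteDimensional ℚ N]
    (σ : Gal(N/ℚ)) (hσ : σ ∈ (primeBelow N P).inertia Gal(N/ℚ)) (y : N)
    (hy : ∀ τ ∈ P.inertiaSubgroupIn ℚ, τ (y : Qbar) = y) : σ y = y := by
  have hσ' : ∀ x : N, IsIntegral ℤ x → (((σ x : N) : Qbar) - x) ∈ P.nonunits := by
    intro x hx
    set x' : 𝓞 N := IsIntegralClosure.mk' (𝓞 N) x hx with hx'
    have hxx : algebraMap (𝓞 N) N x' = x := IsIntegralClosure.algebraMap_mk' (𝓞 N) x hx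
    have h1 : σ • x' - x' ∈ primeBelow N P := hσ x'
    rw [mem_primeBelow_iff] at h1
    have h2 : ((σ • x' - x' : 𝓞 N) : N) = σ x - x := by
      change algebraMap (𝓞 N) N (σ • x' - x') = σ x - x
      rw [map_sub, algebraMap.smul', hxx]; rfl
    rw [h2] at h1
    simpa using h1
  obtain ⟨τ, hτI, hτN⟩ := exists_inertia_lift N P hq hP σ hσ'
  have h3 := hy τ hτI
  rw [hτN y] at h3
  exact Subtype.ext h3

/-- The prime of `𝓞 K` below `P` is unramified over `ℤ` when `I_P` fixes `K` pointwise. -/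
theorem ramificationIdx_primeIdeal_eq_one (hq : q.Prime) (hP : P.LiesOverPrime q)
    (K : IntermediateField ℚ Qbar) [FiniteDimensional ℚ K]
    (hK : ∀ τ ∈ P.inertiaSubgroupIn ℚ, ∀ x ∈ K, τ x = x) :
    (primeIdeal P K).ramificationIdx ℤ = 1 := by
  classical
  -- the normal closure
  set N : IntermediateField ℚ Qbar := IntermediateField.normalClosure ℚ K Qbar with hN
  have hfin : FiniteDimensional ℚ N := normalClosure.is_finiteDimensional ℚ K Qbar
  have hnorm : Normal ℚ N := normalClosure.normal ℚ K Qbar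
  have hgal : IsGalois ℚ N := ⟨⟩
  letI : Algebra K N := normalClosure.algebra ℚ K Qbar
  have halg : ∀ k : K, ((algebraMap K N k : N) : Qbar) = (k : Qbar) := fun k => rfl
  have hI : ∀ σ ∈ (primeBelow N P).inertia Gal(N/ℚ), ∀ k : K,
      σ (algebraMap K N k) = algebraMap K N k := by
    intro σ hσ k
    refine inertia_fixes P hq hP N σ hσ _ ?_
    intro τ hτ
    rw [halg]
    exact hK τ hτ _ k.2
  have h1 := ramificationIdx_under_eq_one K N (primeBelow N P) hI
  have h2 : (primeBelow N P).under (𝓞 K) = primeIdeal P K := by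
    ext x
    rw [Ideal.under_def, Ideal.mem_comap, mem_primeBelow_iff, mem_primeIdeal,
      ← ValuationSubring.mem_nonunits_iff]
    have h3 : ((algebraMap (𝓞 K) (𝓞 N) x : 𝓞 N) : N) = algebraMap K N (x : K) := by
      rfl
    rw [h3, halg]
  rw [h2] at h1
  exact h1

/-- **(UNR)** If the inertia group `I_P` fixes the number field `K` pointwise, then the residue
characteristic `q` of `P` is a uniformiser of `P ∩ K`. -/
theorem dvd_of_mem_maximalIdeal (hq : q.Prime) (hP : P.LiesOverPrime q)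
    (K : IntermediateField ℚ Qbar) [FiniteDimensional ℚ K]
    (hK : ∀ τ ∈ P.inertiaSubgroupIn ℚ, ∀ x ∈ K, τ x = x)
    (x : AK P K) (hx : x ∈ IsLocalRing.maximalIdeal (AK P K)) : (q : AK P K) ∣ x := by
  classical
  have he := ramificationIdx_primeIdeal_eq_one P hq hP K hK
  set v : HeightOneSpectrum (𝓞 K) := primeOf P K hq.ne_zero hP with hv
  have hvI : v.asIdeal = primeIdeal P K := rfl
  have hprime : (primeIdeal P K).IsPrime := primeIdeal_isPrime P K
  have hmax : (primeIdeal P K).IsMaximal := hvI ▸ v.isMaximal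
  -- `x = n / d`
  have hAKv : ∀ z : K, z ∈ AK P K → v.valuation K z ≤ 1 := by
    intro z hz
    rw [AK_eq P K hq.ne_zero hP, HeightOneSpectrum.valuationSubringAtPrime_eq_valuationSubring]
      at hz
    exact (Valuation.mem_valuationSubring_iff _ _).mp hz
  have hxv : v.valuation K (x : K) ≤ 1 := hAKv _ x.2
  obtain ⟨n, d, hnd⟩ := HeightOneSpectrum.exists_primeCompl_mul_eq_of_integer v (x : K) hxv
  have hd : P.valuation ((((d : 𝓞 K) : K) : Qbar)) = 1 := by
    have h1 : ¬ P.valuation ((((d : 𝓞 K) : K) : Qbar)) < 1 := d.2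
    exact le_antisymm (val_int_le_one P K d) (not_lt.mp h1)
  have hxP : P.valuation ((x : K) : Qbar) < 1 := by
    have h1 := (mem_maximalIdeal_iff P K x).mp hx
    rw [IsLocalRing.mem_maximalIdeal, mem_nonunits_iff] at h1
    have h2 : ((incl P K x : P) : Qbar) ∈ P.nonunits := by
      rw [ValuationSubring.mem_nonunits_iff_exists_mem_maximalIdeal]
      exact ⟨(incl P K x).2, h1⟩
    rw [coe_incl] at h2
    exact (P.mem_nonunits_iff).mp h2
  have hxd : ((x : K) : Qbar) * ((((d : 𝓞 K) : K) : Qbar)) = (((n : 𝓞 K) : K) : Qbar) := by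
    have := congrArg (fun z : K => (z : Qbar)) hnd
    simpa using this
  have hn : n ∈ primeIdeal P K := by
    rw [mem_primeIdeal, ← hxd, map_mul, hd, mul_one]
    exact hxP
  -- `q 𝓞 K = 𝔭 * J` with `J` prime to `𝔭`
  have hunder : Ideal.span {(q : ℤ)} = (primeIdeal P K).under ℤ := by
    have h1 : (Ideal.span {(q : ℤ)}).IsMaximal :=
      PrincipalIdealRing.isMaximal_of_irreducible
        (Nat.prime_iff_prime_int.mp hq).irreducible
    have h2 : Ideal.span {(q : ℤ)} ≤ (primeIdeal P K).under ℤ := by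
      rw [Ideal.span_singleton_le_iff_mem, Ideal.under_def, Ideal.mem_comap]
      have := natCast_mem_primeIdeal P K hP
      simpa using this
    have h3 : (primeIdeal P K).under ℤ ≠ ⊤ := Ideal.IsPrime.ne_top inferInstance
    exact h1.eq_of_le h3 h2
  have hlies : (primeIdeal P K).LiesOver (Ideal.span {(q : ℤ)}) := ⟨hunder⟩
  have hmap : (Ideal.span {(q : ℤ)}).map (algebraMap ℤ (𝓞 K)) = Ideal.span {(q : 𝓞 K)} := by
    rw [Ideal.map_span, Set.image_singleton]
    simp
  have hq0 : (q : 𝓞 K) ≠ 0 := Nat.cast_ne_zero.mpr hq.ne_zero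
  have hp0 : (Ideal.span {(q : ℤ)}).map (algebraMap ℤ (𝓞 K)) ≠ ⊥ := by
    rw [hmap, ne_eq, Ideal.span_singleton_eq_bot]
    exact hq0
  have hcount := Ideal.IsDedekindDomain.ramificationIdx_eq_normalizedFactors_count
    (Ideal.span {(q : ℤ)}) (primeIdeal P K) hp0
  rw [he] at hcount
  obtain ⟨J, hJ, hfac⟩ := Ideal.eq_prime_pow_mul_coprime hp0 (primeIdeal P K)
  rw [← hcount, pow_one, hmap] at hfac
  have hJnot : ¬ J ≤ primeIdeal P K := by
    intro hle
    rw [sup_of_le_left hle] at hJ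
    exact hprime.ne_top hJ
  obtain ⟨j, hjJ, hjnot⟩ := Set.not_subset.mp hJnot
  have hnj : n * j ∈ Ideal.span {(q : 𝓞 K)} := by
    rw [hfac]; exact Ideal.mul_mem_mul hn hjJ
  obtain ⟨m, hm⟩ := Ideal.mem_span_singleton'.mp hnj
  have hj : P.valuation ((((j : 𝓞 K) : K) : Qbar)) = 1 := by
    have h1 : ¬ P.valuation ((((j : 𝓞 K) : K) : Qbar)) < 1 := hjnot
    exact le_antisymm (val_int_le_one P K j) (not_lt.mp h1)
  -- the quotient `m / (d j)`
  have hdj0 : ((d : 𝓞 K) : K) * ((j : 𝓞 K) : K) ≠ 0 := by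
    intro h0
    have h1 : P.valuation (((((d : 𝓞 K) : K) * ((j : 𝓞 K) : K) : K)) : Qbar) = 0 := by
      rw [h0]; simp
    have h2 : (((((d : 𝓞 K) : K) * ((j : 𝓞 K) : K) : K)) : Qbar) =
        ((((d : 𝓞 K) : K) : Qbar)) * ((((j : 𝓞 K) : K) : Qbar)) := by push_cast; rfl
    rw [h2, map_mul, hd, hj, one_mul] at h1
    exact one_ne_zero h1
  set y : K := ((m : 𝓞 K) : K) / (((d : 𝓞 K) : K) * ((j : 𝓞 K) : K)) with hy
  have hyP : y ∈ AK P K := by
    rw [mem_AK_iff, ← P.valuation_le_one_iff]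
    have h2 : ((y : K) : Qbar) = (((m : 𝓞 K) : K) : Qbar) /
        (((((d : 𝓞 K) : K) : Qbar)) * ((((j : 𝓞 K) : K) : Qbar))) := by
      rw [hy]; push_cast; rfl
    rw [h2, map_div₀, map_mul, hd, hj, one_mul, div_one]
    exact val_int_le_one P K m
  refine ⟨⟨y, hyP⟩, ?_⟩
  apply Subtype.ext
  show (x : K) = ((q : AK P K) : K) * y
  have hqK : ((q : AK P K) : K) = (q : K) := by push_cast; rfl
  rw [hqK, hy]
  have hm' : ((m : 𝓞 K) : K) * (q : K) = ((n : 𝓞 K) : K) * ((j : 𝓞 K) : K) := by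
    have := congrArg (fun z : 𝓞 K => (z : K)) hm
    simpa using this
  have hnd' : (x : K) * ((d : 𝓞 K) : K) = ((n : 𝓞 K) : K) := hnd
  rw [eq_comm, ← mul_div_assoc, div_eq_iff hdj0]
  rw [← hnd'] at hm'
  linear_combination hm'

/-- **(UNR)**, uniformiser form. -/
theorem isUnif_natCast (hq : q.Prime) (hP : P.LiesOverPrime q)
    (K : IntermediateField ℚ Qbar) [FiniteDimensional ℚ K]
    (hK : ∀ τ ∈ P.inertiaSubgroupIn ℚ, ∀ x ∈ K, τ x = x) :
    IsUnif (AK P K) (q : AK P K) := by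
  haveI := isDiscreteValuationRing_AK P K hq.ne_zero hP
  apply isUnif_of_irreducible
  rw [IsDiscreteValuationRing.irreducible_iff_uniformizer]
  apply le_antisymm
  · intro x hx
    rw [Ideal.mem_span_singleton]
    exact dvd_of_mem_maximalIdeal P hq hP K hK x hx
  · rw [Ideal.span_singleton_le_iff_mem]
    exact natCast_mem_maximalIdeal P K hP

/-- **(UNR)**, field-free form: an element of the maximal ideal of `P` fixed by `I_P` is divisible
by `q` in `P`. -/
theorem div_natCast_mem_of_fixed (hq : q.Prime) (hP : P.LiesOverPrime q) (x : Qbar)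
    (hfix : ∀ τ ∈ P.inertiaSubgroupIn ℚ, τ x = x) (hx : x ∈ P.nonunits) :
    x / (q : Qbar) ∈ P := by
  set K : IntermediateField ℚ Qbar := IntermediateField.adjoin ℚ {x} with hKdef
  have hfin : FiniteDimensional ℚ K :=
    IntermediateField.adjoin.finiteDimensional (Algebra.IsIntegral.isIntegral x)
  have hxK : x ∈ K := IntermediateField.mem_adjoin_simple_self ℚ x
  have hle : K ≤ IntermediateField.fixedField (P.inertiaSubgroupIn ℚ) := by
    rw [hKdef, IntermediateField.adjoin_le_iff]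
    intro z hz
    rw [Set.mem_singleton_iff] at hz
    subst hz
    intro τ
    exact hfix τ.1 τ.2
  have hK : ∀ τ ∈ P.inertiaSubgroupIn ℚ, ∀ y ∈ K, τ y = y := by
    intro τ hτ y hy
    exact hle hy ⟨τ, hτ⟩
  have hxA : (⟨x, hxK⟩ : K) ∈ AK P K := by
    rw [mem_AK_iff]
    exact P.nonunits_subset hx
  have hxm : (⟨⟨x, hxK⟩, hxA⟩ : AK P K) ∈ IsLocalRing.maximalIdeal (AK P K) := by
    rw [mem_maximalIdeal_iff, IsLocalRing.mem_maximalIdeal, mem_nonunits_iff]
    intro hu
    rw [ValuationSubring.mem_nonunits_iff_exists_mem_maximalIdeal] at hx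
    obtain ⟨hxP, hx'⟩ := hx
    exact hx' hu
  obtain ⟨y, hy⟩ := dvd_of_mem_maximalIdeal P hq hP K hK _ hxm
  have h1 : x = (q : Qbar) * ((y : K) : Qbar) := by
    have := congrArg (fun z : AK P K => ((z : K) : Qbar)) hy
    simpa using this
  have hq0 : (q : Qbar) ≠ 0 := Nat.cast_ne_zero.mpr hq.ne_zero
  have h2 : x / (q : Qbar) = ((y : K) : Qbar) := by
    rw [h1, mul_div_cancel_left₀ _ hq0]
  rw [h2]
  exact (mem_AK_iff P K _).mp y.2

end Apply

end Fermat.Agent.ES.P36.UnrFixed1
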