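/-
Program P (S36), chapter MODEL-P, bricks M4 + M6 (v₂-half), INSTANCE (helper23).  PER `K`.

`MidVal23.MidHyp` is PROVED over an inertial number field `K`, and the two consumer shapes follow:

* `midHyp_of_isInertial` : `MidHyp M' q hπ` from `IsInertial A K`, `q` prime, `q ∤ M'`, `A | q`, and the two
  level-`M'` inputs `ht : tq ∈ F_{M'}`, `hjt : j ∈ K(t)` (both available per `K`: `CoeffField4.tq_mem_FK`,
  `CoeffField4.j_mem_adjoin`).  Suppliers: `UnrFixed1.isUnif_natCast` (`q` is a uniformiser of `A_K`),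
  `GenBase17.baseG_of_liesOver` (`π` a uniformiser of `O1q`, discreteness, `O1q ≠ O2q`),
  `GaussVTwoInst25.glueOut_tq` + `MidVal23.two_of_glueOut` (completeness of `{O1q, O2q}` over level `M'`).
* `exists_isMid_of_isInertial` : `∃ O, IsMid M' q hπ O`           (= `MidItemsP` of `NumCoreP13`);
* `isMid_unique_of_isInertial` : `IsMid O → IsMid O' → O = O'`;
* `midUnif_of_isInertial`      : `IsMid O → GenInst11.MidUnif A K M' q hπ O (xi K M' q)`;
* `hmid_of_isInertial`         : literally the hypothesis `hmid` of `GenFacts11.genItemsP_of_isInertial`.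
-/
import Mathlib
import Fermat.Agent.ES.P36.MidVal23
import Fermat.Agent.ES.P36.GenInst11
import Fermat.Agent.ES.P36.GenBase17
import Fermat.Agent.ES.P36.UnrFixed1
import Fermat.Agent.ES.P36.InertField27
import Fermat.Agent.ES.N34.GaussVTwoInst25

set_option autoImplicit false
set_option linter.unusedSectionVars false
set_option linter.style.haveILetI false
set_option synthInstance.maxHeartbeats 400000
set_option maxHeartbeats 2000000

noncomputable section

open HahnSeries ModularCurve Polynomial AlgebraicCurve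

namespace Fermat.Agent.ES.P36.MidInst23

open Fermat.Agent.RED.Interface4 Fermat.Agent.RED.PUR.GaussGen8 Fermat.Agent.RED.PUR.GaussBridge10
open Fermat.Agent.RED.BASE.EtaQuot12
open Fermat.Agent.ES.N34 Fermat.Agent.ES.N34.FrickeFK8
open Fermat.Agent.ES.P36.ModelDefsP9 Fermat.Agent.ES.P36.MidVal23 Fermat.Agent.ES.P36.GenInst11
open Fermat.Agent.ES.P36.OrdVal20

variable {A : ValuationSubring Qbar} {K : IntermediateField ℚ Qbar} {M' q : ℕ} [NeZero M'] [NeZero q]
  {π : ↥(AK A K)} {n e : ℕ} [NeZero n]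

/-- **`MidHyp` over an inertial number field.** -/
theorem midHyp_of_isInertial [FiniteDimensional ℚ K] (hK : InertField27.IsInertial A K)
    (hq : q.Prime) (hqM : ¬ q ∣ M') (hA : A.LiesOverPrime q)
    (ht : tq (↥K) n e ∈ FK M' K)
    (hjt : jqModC (↥K) ∈ IntermediateField.adjoin (↥K) {tq (↥K) n e})
    (hπ : IsUnif (AK A K) π) : MidHyp M' q hπ := by
  have hE : FK (M' * q) K ≤ fracField (AK A K) := FK_le_fracField A K (M' * q)
  have B := GenBase17.baseG_of_liesOver M' q hπ hE hq hA
  haveI : Fact q.Prime := ⟨hq⟩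
  haveI hdvr : IsDiscreteValuationRing ↥(AK A K) :=
    Fermat.Agent.RED.DESC.NumberFieldDVR27.isDiscreteValuationRing_AK A K hq.ne_zero hA
  haveI : CharP (Res (AK A K)) q :=
    Fermat.Agent.RED.DESC.NumberFieldDVR27.charP_residueField_AK A K hq hA
  have hirr : Irreducible π := (IsDiscreteValuationRing.irreducible_iff_uniformizer π).mpr hπ.max_eq
  have G := GaussVTwoInst25.glueOut_tq (A := A) M' q hirr hE hqM ht hjt
  refine
    { hq := hq
      hqM := hqM
      hqU := UnrFixed1.isUnif_natCast A hq hA K hK.1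
      unifW1 := B.unifW1
      discW1 := B.discW1
      two := ?_
      ne12 := B.ne }
  intro W hW
  exact two_of_glueOut (hπ := hπ) ht G.two W hW

/-- **M4 (existence)**: a middle valuation ring exists. -/
theorem exists_isMid_of_isInertial [FiniteDimensional ℚ K] (hK : InertField27.IsInertial A K)
    (hq : q.Prime) (hqM : ¬ q ∣ M') (hA : A.LiesOverPrime q)
    (ht : tq (↥K) n e ∈ FK M' K)
    (hjt : jqModC (↥K) ∈ IntermediateField.adjoin (↥K) {tq (↥K) n e})
    (hπ : IsUnif (AK A K) π) : ∃ O : ValuationSubring ↥(FK (M' * q * q) K), IsMid M' q hπ O :=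
  exists_isMid (midHyp_of_isInertial hK hq hqM hA ht hjt hπ)

/-- **M4 (uniqueness)**: the middle valuation ring is unique. -/
theorem isMid_unique_of_isInertial [FiniteDimensional ℚ K] (hK : InertField27.IsInertial A K)
    (hq : q.Prime) (hqM : ¬ q ∣ M') (hA : A.LiesOverPrime q)
    (ht : tq (↥K) n e ∈ FK M' K)
    (hjt : jqModC (↥K) ∈ IntermediateField.adjoin (↥K) {tq (↥K) n e})
    (hπ : IsUnif (AK A K) π) {O O' : ValuationSubring ↥(FK (M' * q * q) K)}
    (hO : IsMid M' q hπ O) (hO' : IsMid M' q hπ O') : O = O' :=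
  isMid_unique (midHyp_of_isInertial hK hq hqM hA ht hjt hπ) hO hO'

/-- **M6, `v₂`-half: `GenInst11.MidUnif`** with `T := ξ = j(𝐪^{q²}) − j(𝐪)`. -/
theorem midUnif_of_midHyp {hπ : IsUnif (AK A K) π} (H : MidHyp M' q hπ)
    {O : ValuationSubring ↥(FK (M' * q * q) K)} (hO : IsMid M' q hπ O) :
    MidUnif A K M' q hπ O (xi K M' q) := by
  obtain ⟨h1, h2, h3, h4, h5, h6, h7⟩ := midUnif H hO
  exact
    { pos := h1
      ne1 := h2
      hT0 := h3
      hT1 := h4
      hTπ := h5
      unif := h6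
      disc := h7 }

/-- **M6, `v₂`-half over an inertial number field.** -/
theorem midUnif_of_isInertial [FiniteDimensional ℚ K] (hK : InertField27.IsInertial A K)
    (hq : q.Prime) (hqM : ¬ q ∣ M') (hA : A.LiesOverPrime q)
    (ht : tq (↥K) n e ∈ FK M' K)
    (hjt : jqModC (↥K) ∈ IntermediateField.adjoin (↥K) {tq (↥K) n e})
    (hπ : IsUnif (AK A K) π) {O : ValuationSubring ↥(FK (M' * q * q) K)}
    (hO : IsMid M' q hπ O) : MidUnif A K M' q hπ O (xi K M' q) :=
  midUnif_of_midHyp (midHyp_of_isInertial hK hq hqM hA ht hjt hπ) hO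

/-- literally the hypothesis `hmid` of `GenFacts11.genItemsP_of_isInertial`. -/
theorem hmid_of_isInertial [FiniteDimensional ℚ K] (hK : InertField27.IsInertial A K)
    (hq : q.Prime) (hqM : ¬ q ∣ M') (hA : A.LiesOverPrime q)
    (ht : tq (↥K) n e ∈ FK M' K)
    (hjt : jqModC (↥K) ∈ IntermediateField.adjoin (↥K) {tq (↥K) n e}) :
    ∀ (π : ↥(AK A K)) (hπ : IsUnif (AK A K) π)
      (O2 : ValuationSubring ↥(FK (M' * q * q) K)), IsMid M' q hπ O2 →
      ∃ T : ↥(FK (M' * q * q) K), MidUnif A K M' q hπ O2 T :=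
  fun _ hπ _ hO => ⟨xi K M' q, midUnif_of_isInertial hK hq hqM hA ht hjt hπ hO⟩

end Fermat.Agent.ES.P36.MidInst23
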