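/-
Program P (S36), chapter MODEL-P, brick M3, third part (helper8): **the `O3`-column of the inputs of
`ModelAsmP9.multiChartModel_of`** (M7) in `ModelDefsP9` vocabulary, per `K`:

* `R_le_O3` : `algebraMap R F″ r ∈ O3`;
* `t_mem_O3`, `tinv_mem_O3` : the Hauptmodul `t = α₂(α tM)` is a UNIT of `O3` (`q ∤ M'`);
* `iota3_t`, `s1_t_O3` : `ι₃ t = V_{q·q}(ι^{M'} tM)` lies in the Gauss ring with transcendental residue;
* `pi_nonunit_O3`, `arch_O3`, `val_pi_lt_one_O3`, `unif_O3` (`𝔪_{O3} = π O3`);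
* `O1_ne_O3`.
-/
import Mathlib
import Fermat.Agent.ES.P36.V3Facts8

set_option autoImplicit false
set_option linter.unusedSectionVars false

noncomputable section

open HahnSeries ModularCurve

namespace Fermat.Agent.ES.P36.V3Model8

open Fermat.Agent.RED.Interface4 Fermat.Agent.RED.PUR.GaussGen8 Fermat.Agent.RED.PUR.GaussBridge10
open Fermat.Agent.RED.BASE Fermat.Agent.RED.BASE.EtaQuot12
open Fermat.Agent.ES.N34 Fermat.Agent.ES.N34.GaussEmb22 Fermat.Agent.ES.N34.FrickeFK8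
open Fermat.Agent.ES.N34.ModelGlue22 Fermat.Agent.ES.N34.IsoM25
open Fermat.Agent.ES.P36.ModelDefsP9 Fermat.Agent.ES.P36.V3Facts8

set_option synthInstance.maxHeartbeats 400000
set_option maxHeartbeats 400000

variable {A : ValuationSubring Qbar} {K : IntermediateField ℚ Qbar} (M' q : ℕ) [NeZero M'] [NeZero q]
  {π : ↥(AK A K)} {n e : ℕ} [NeZero n]

section DVR

variable [IsDiscreteValuationRing ↥(AK A K)]

/-- `R ⊆ O3`. -/
theorem R_le_O3 (hπ : IsUnif (AK A K) π) (r : ↥(AK A K)) :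
    algebraMap ↥(AK A K) ↥(FK (M' * q * q) K) r ∈ O3 M' q hπ := by
  show algebraMap ↥K ↥(FK (M' * q * q) K) (r : ↥K) ∈ _
  exact algebraMap_mem (isGaussPullback_O3 M' q hπ) r

/-- `π⁻¹ ∉ O3`. -/
theorem pi_nonunit_O3 (hπ : Irreducible π) :
    (algebraMap ↥(AK A K) ↥(FK (M' * q * q) K) π)⁻¹ ∉
      O3 M' q (isUnif_of_irreducible (AK A K) hπ) := by
  show (algebraMap ↥K ↥(FK (M' * q * q) K) (π : ↥K))⁻¹ ∉ _
  exact pi_inv_not_mem (isGaussPullback_O3 M' q (isUnif_of_irreducible (AK A K) hπ)) hπ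

/-- `v₃(π) < 1`. -/
theorem val_pi_lt_one_O3 (hπ : Irreducible π) :
    (O3 M' q (isUnif_of_irreducible (AK A K) hπ)).valuation
      (algebraMap ↥K ↥(FK (M' * q * q) K) (π : ↥K)) < 1 :=
  val_pi_lt_one (isGaussPullback_O3 M' q (isUnif_of_irreducible (AK A K) hπ)) hπ

/-- `arch`: `v₃` has rank one with uniformiser `π`. -/
theorem arch_O3 (hπ : Irreducible π) (x : ↥(FK (M' * q * q) K)) :
    ∃ k : ℕ, algebraMap ↥(AK A K) ↥(FK (M' * q * q) K) π ^ k * x ∈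
      O3 M' q (isUnif_of_irreducible (AK A K) hπ) := by
  show ∃ k : ℕ, algebraMap ↥K ↥(FK (M' * q * q) K) (π : ↥K) ^ k * x ∈ _
  exact arch (isGaussPullback_O3 M' q (isUnif_of_irreducible (AK A K) hπ)) hπ x

/-- `unif`: `𝔪_{O3} = π O3`. -/
theorem unif_O3 (hπ : Irreducible π) (x : ↥(FK (M' * q * q) K))
    (hx : x ∈ O3 M' q (isUnif_of_irreducible (AK A K) hπ))
    (hxinv : x⁻¹ ∉ O3 M' q (isUnif_of_irreducible (AK A K) hπ)) :
    ∃ c ∈ O3 M' q (isUnif_of_irreducible (AK A K) hπ),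
      x = algebraMap ↥(AK A K) ↥(FK (M' * q * q) K) π * c := by
  show ∃ c ∈ O3 M' q (isUnif_of_irreducible (AK A K) hπ),
      x = algebraMap ↥K ↥(FK (M' * q * q) K) (π : ↥K) * c
  exact unif (isGaussPullback_O3 M' q (isUnif_of_irreducible (AK A K) hπ)) hπ x hx hxinv

variable [hq : Fact q.Prime] [CharP (Res (AK A K)) q]

/-- `O1″ ≠ O3″`. -/
theorem O1_ne_O3 (hπ : IsUnif (AK A K) π) : O1 M' q hπ ≠ O3 M' q hπ :=
  GaussVThree8.o1_ne_o3 M' q hπ (FK_le_fracField A K (M' * q * q))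

/-- `t ∈ O3`. -/
theorem t_mem_O3 (hπ : Irreducible π) (hqM : ¬ q ∣ M') (ht : tq (↥K) n e ∈ FK M' K) :
    t q ht ∈ O3 M' q (isUnif_of_irreducible (AK A K) hπ) :=
  (alpha2_alpha_mem_O3_iff M' q hπ hqM (ModelDefs9.tM ht)).mpr
    (TBridge15.tq_mem_gaussRing (AK A K) n e)

/-- `t⁻¹ ∈ O3`. -/
theorem tinv_mem_O3 (hπ : Irreducible π) (hqM : ¬ q ∣ M') (ht : tq (↥K) n e ∈ FK M' K) :
    (t q ht)⁻¹ ∈ O3 M' q (isUnif_of_irreducible (AK A K) hπ) := by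
  have h1 : (t q ht)⁻¹ =
      alpha2 K M' q (ModelDefs9.alpha K M' q (ModelDefs9.tM ht)⁻¹) := by
    rw [map_inv₀, map_inv₀]; rfl
  rw [h1]
  refine (alpha2_alpha_mem_O3_iff M' q hπ hqM (ModelDefs9.tM ht)⁻¹).mpr ?_
  have hne : gaussRed (AK A K) (TBridge15.tG (AK A K) n e) ≠ 0 := fun h0 =>
    TBridge15.transcendental_gaussRed_tG (AK A K) n e (h0 ▸ isAlgebraic_zero)
  exact inv_mem_of_gaussRed_ne_zero (AK A K) (TBridge15.tG (AK A K) n e) hne

/-- `ι₃ t = V_{q·q} (ι^{M'} tM)`. -/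
theorem iota3_t (ht : tq (↥K) n e ∈ FK M' K) :
    iota3 K M' q (t q ht) = qExpand (↥K) (q * q) (iotaAlg M' K (ModelDefs9.tM ht)) :=
  GaussVThree8.iota3_alpha2_alpha K M' q (ModelDefs9.tM ht)

/-- (s1) for `v₃`: `ι₃ t` lies in the Gauss ring, with transcendental residue. -/
theorem s1_t_O3 (hπ : Irreducible π) (hqM : ¬ q ∣ M') (ht : tq (↥K) n e ∈ FK M' K) :
    ∃ ht₃ : iota3 K M' q (t q ht) ∈ gaussRing (AK A K),
      Transcendental (Res (AK A K)) (gaussRed (AK A K) ⟨iota3 K M' q (t q ht), ht₃⟩) := by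
  obtain ⟨ht₂M, htr₂M⟩ := GaussVTwoInst25.s1_tM (A := A) M' q hπ hqM ht
  have htN : iota3 K M' q (t q ht) ∈ gaussRing (AK A K) := by
    rw [iota3_t]; exact GaussVTwoFam25.qExpand_mem_gaussRing (q * q) ht₂M
  refine ⟨htN, ?_⟩
  have h1 : (⟨iota3 K M' q (t q ht), htN⟩ : ↥(gaussRing (AK A K))) =
      ⟨qExpand (↥K) (q * q)
        ((⟨iotaAlg M' K (ModelDefs9.tM ht), ht₂M⟩ : ↥(gaussRing (AK A K))) : LaurentSeries K),
        GaussVTwoFam25.qExpand_mem_gaussRing (q * q) ht₂M⟩ := Subtype.ext (iota3_t M' q ht)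
  rw [h1, GaussVTwoFam25.gaussRed_qExpand]
  exact GaussVTwoFam25.transcendental_qExpand (q * q) htr₂M

end DVR

end Fermat.Agent.ES.P36.V3Model8
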