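/-
Program P (S36), chapter MODEL-P, brick M3, plug for M7 (helper8): **`V3At`** — the single fact M7
(`ModelP4.modelItemsP_at`, helper4) needs from M3, per `K`, with the readiness hypotheses of record only:
`ι₃ t` lies in the Gauss ring, with transcendental residue.
-/
import Mathlib
import Fermat.Agent.ES.P36.V3Model8
import Fermat.Agent.RED.DESC.NumberFieldDVR27

set_option autoImplicit false
set_option linter.unusedSectionVars false

noncomputable section

open HahnSeries ModularCurve

namespace Fermat.Agent.ES.P36.V3At8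

open Fermat.Agent.RED.Interface4 Fermat.Agent.RED.PUR.GaussGen8 Fermat.Agent.RED.PUR.GaussBridge10
open Fermat.Agent.RED.BASE Fermat.Agent.RED.BASE.EtaQuot12
open Fermat.Agent.ES.N34 Fermat.Agent.ES.P36.ModelDefsP9

set_option synthInstance.maxHeartbeats 400000
set_option maxHeartbeats 400000

variable {A : ValuationSubring Qbar} {K : IntermediateField ℚ Qbar} (M' q : ℕ) [NeZero M'] [NeZero q]
  {n e : ℕ} [NeZero n]

/-- **`V3At`** from `A.LiesOverPrime q`: `ι₃ t` lies in the Gauss ring, with transcendental residue. -/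
theorem v3At_of_liesOver [FiniteDimensional ℚ K] (hq : q.Prime) (hqM : ¬ q ∣ M')
    (hA : A.LiesOverPrime q) (ht : tq (↥K) n e ∈ FK M' K) :
    ∃ h3 : iota3 K M' q (t q ht) ∈ gaussRing (AK A K),
      Transcendental (Res (AK A K)) (gaussRed (AK A K) ⟨iota3 K M' q (t q ht), h3⟩) := by
  have hdvr : IsDiscreteValuationRing ↥(AK A K) :=
    Fermat.Agent.RED.DESC.NumberFieldDVR27.isDiscreteValuationRing_AK A K hq.ne_zero hA
  obtain ⟨π, hπ⟩ := IsDiscreteValuationRing.exists_irreducible ↥(AK A K)
  have : Fact q.Prime := ⟨hq⟩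
  have : CharP (Res (AK A K)) q :=
    Fermat.Agent.RED.DESC.NumberFieldDVR27.charP_residueField_AK A K hq hA
  exact V3Model8.s1_t_O3 M' q hπ hqM ht

end Fermat.Agent.ES.P36.V3At8
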