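/-
Program P (S36), chapter MODEL-P, brick M7 (helper4), FINAL ASSEMBLY: **`NumCoreP13.ModelItemsP` over
an INERTIAL number field `K ∋ ζ_{M'}`** (the readiness of record `NumAsmP12.ReadyP`), from the four
per-`K` packages which are still open:

* `PtsModel9.PosItemsP q M' A K`    — positions of `v₃` (M3) and of the middle ring (M6 (d));
* `CompleteItemsP n e q M' A K`     — M6 (e): completeness of `{v₁, v₂, v₃}` over the Gauss valuation
  of `K(t)` (`ModelP4.AllAt` for every middle ring);
* `PtsModel9.OneItemsP n e q M' A K`   — R7 (+R7c) and R8: one-branch points;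
* `PtsModel9.CrossItemsP n e q M' A K` — R6: points over a crossing point of level `M' q`.

Discharged here: (K2) by `CoeffField4.j_mem_adjoin`, M3's `V3At` by `V3At8.v3At_of_liesOver`, the
level-`M' q` modular equation `ModEqItems` by `ModelInert4.items_four_inertial / items_nine_inertial`,
R9 by `PtsModel9.ptsItemsP_of`, the contract by `ModelP4.modelItemsP_of_model`.
-/
import Mathlib
import Fermat.Agent.RED.BASE.MainCusp12
import Fermat.Agent.ES.P36.CoeffField4
import Fermat.Agent.ES.P36.ModelInert4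
import Fermat.Agent.ES.P36.ModelP4
import Fermat.Agent.ES.P36.V3At8
import Fermat.Agent.ES.P36.PtsModel9

set_option autoImplicit false
set_option synthInstance.maxHeartbeats 400000

noncomputable section

open HahnSeries ModularCurve IntermediateField

namespace Fermat.Agent.ES.P36.ModelFinalP4

open Fermat.Agent.RED.Interface4 Fermat.Agent.RED.PUR.GaussGen8 Fermat.Agent.RED.BASE.EtaQuot12
  Fermat.Agent.RED.BASE.Interface12 Fermat.Agent.X0
  Fermat.Agent.ES.N34.ModelN4
  Fermat.Agent.ES.P36.ModelDefsP9 Fermat.Agent.ES.P36.ModelP4 Fermat.Agent.ES.P36.NumCoreP13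
  Fermat.Agent.ES.P36.PtsModel9 Fermat.Agent.ES.P36.InertField27 Fermat.Agent.ES.P36.CoeffField4

variable (n e q M' : ℕ) [NeZero n] [NeZero M'] [NeZero q] (A : ValuationSubring Qbar)
  (K : IntermediateField ℚ Qbar)

/-- **M6 (e) at `K`**: completeness of `{v₁, v₂, v₃}` for every middle ring (elementwise form;
`ModelP4.allAt_of_comap` converts the comap form). -/
def CompleteItemsP : Prop :=
  ∀ (ht : tq (↥K) n e ∈ FK M' K) (π : ↥(AK A K)) (hπ : IsUnif (AK A K) π)
    (O2 : ValuationSubring ↥(FK (M' * q * q) K)), IsMid M' q hπ O2 → AllAt q ht hπ O2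

variable {n e q M' A K}

/-- **The model part of M7** (`PtsModel9.MultiItemsP`) from (K2) [`TGenBase`] and M6 (e); M3 is
discharged by `V3At8`. -/
theorem multiItemsP_of_complete (hq : q.Prime) (hqM : ¬ q ∣ M') (hA : A.LiesOverPrime q)
    [FiniteDimensional ℚ K] (hgen : TGenBase n e) (hall : CompleteItemsP n e q M' A K) :
    MultiItemsP n e q M' A K :=
  multiItemsP_at q hq hA (j_mem_adjoin n e hgen K)
    (fun ht => Fermat.Agent.ES.P36.V3At8.v3At_of_liesOver M' q hq hqM hA ht) hall

/-- **`ModelItemsP` at ONE `K`** from the level-`M' q` modular equation and the four open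
packages. -/
theorem modelItemsP_of_parts (hq : q.Prime) (hqM : ¬ q ∣ M') (hA : A.LiesOverPrime q)
    [FiniteDimensional ℚ K] (hgen : TGenBase n e) (hS2 : ModEqItems n e q M' A K)
    (hpos : PosItemsP q M' A K) (hall : CompleteItemsP n e q M' A K)
    (hone : OneItemsP n e q M' A K) (hcross : CrossItemsP n e q M' A K) :
    ModelItemsP n e q M' A K := by
  have hmodel : MultiItemsP n e q M' A K := multiItemsP_of_complete hq hqM hA hgen hall
  exact modelItemsP_of_model q hq hA (j_mem_adjoin n e hgen K) hmodel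
    (ptsItemsP_of hS2 hpos hmodel hone hcross)

/-- **`ModelItemsP 4 8` over an inertial `K ∋ ζ_{M'}`** (`q` odd, `4 ∣ M'`). -/
theorem modelItemsP_four (hq : q.Prime) (hq2 : q ≠ 2) (hqM : ¬ q ∣ M') (hM : 4 ∣ M')
    (hA : A.LiesOverPrime q) [FiniteDimensional ℚ K] (hK : IsInertial A K) (hζ : zetaK M' ∈ K)
    (hpos : PosItemsP q M' A K) (hall : CompleteItemsP 4 8 q M' A K)
    (hone : OneItemsP 4 8 q M' A K) (hcross : CrossItemsP 4 8 q M' A K) :
    ModelItemsP 4 8 q M' A K :=
  modelItemsP_of_parts hq hqM hA (Fermat.Agent.RED.BASE.MainCusp12.base_four M' hM).1.genBase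
    (Fermat.Agent.ES.P36.ModelInert4.items_four_inertial hq hq2 hqM hM hA hK hζ).2.2.1
    hpos hall hone hcross

/-- **`ModelItemsP 9 3` over an inertial `K ∋ ζ_{M'}`** (`q = 2`, `9 ∣ M'`). -/
theorem modelItemsP_nine [NeZero 2] (hqM : ¬ 2 ∣ M') (hM : 9 ∣ M')
    (hA : A.LiesOverPrime 2) [FiniteDimensional ℚ K] (hK : IsInertial A K) (hζ : zetaK M' ∈ K)
    (hpos : PosItemsP 2 M' A K) (hall : CompleteItemsP 9 3 2 M' A K)
    (hone : OneItemsP 9 3 2 M' A K) (hcross : CrossItemsP 9 3 2 M' A K) :
    ModelItemsP 9 3 2 M' A K :=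
  modelItemsP_of_parts Nat.prime_two hqM hA
    (Fermat.Agent.RED.BASE.MainCusp12.base_nine M' hM).1.genBase
    (Fermat.Agent.ES.P36.ModelInert4.items_nine_inertial hqM hM hA hK hζ).2.2.1
    hpos hall hone hcross

end Fermat.Agent.ES.P36.ModelFinalP4
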