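/-
Program P (S36), brick D3(c) (helper17): **newness over `K`** — a Kummer newness relation over `ℚ̄` for `bc f_K`
descends to one over the SAME finite `K` (no roots of constants adjoined, `K` arbitrary: not normal, no readiness).

`G := N_φ f_K ∈ K·F_{M'q}` has `bc G = N_φ̄ (bc f_K) = κ • g ^ m` over `ℚ̄` (`NormBCDeg19`).  Normalise `g` by its leading
`𝐪`-coefficient: `g₁ := a⁻¹ g`, `κ₁ := κ a^m`.  For `σ ∈ Gal(ℚ̄/K)` acting coefficientwise, `σ(bc G) = bc G`, so
`σ(κ₁) (σ g₁)^m = κ₁ g₁^m`; comparing leading coefficients `σ κ₁ = κ₁`, and `r := σ g₁ / g₁` satisfies `r^m = 1`,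
hence is a constant (`ℚ̄` is algebraically closed) with leading coefficient `1`: `σ g₁ = g₁`.  So `κ₁ ∈ K` and all
`𝐪`-coefficients of `g₁` lie in `K`; the `q`-expansion principle `LaurentExt24.mem_range_bc_iff` gives `g₁ = bc g_K`, and
`G = κ₁ • g_K ^ m` by injectivity of `bc`.

* Laurent series: `order_coeffMap`, `leadingCoeff_coeffMap`, `leadingCoeff_pow'`, `eq_one_of_pow_eq_one`, `eq_of_C_mul_pow_eq`;
* `exists_descent_of_smul_pow` : the descent of `κ • g ^ m` (any level `N`);
* `newOverK` : the LITERAL body of `DescAsmP12.NewOverKStmt q M'` (helper12's consumer shape).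
-/
import Mathlib
import Fermat.Agent.J.DESC.LaurentExt24
import Fermat.Agent.ES.N34.GalRational1
import Fermat.Agent.ES.N34.ModelDefs9
import Fermat.Agent.ES.N35.DescO1
import Fermat.Agent.ES.P36.NormBCDeg19

set_option autoImplicit false
set_option linter.unusedSectionVars false
set_option linter.style.haveILetI false
set_option synthInstance.maxHeartbeats 400000

open HahnSeries AlgebraicCurve ModularCurve

noncomputable section

namespace Fermat.Agent.ES.P36.NewOverK17

open Fermat.Agent.RED.Interface4 Fermat.Agent.RED.DESC Fermat.Agent.ES.HECKE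
open Fermat.Agent.ES.HECKE.BaseChange19 (normAlong)

/-! ### Laurent series: leading coefficients and coefficientwise maps -/

section Series

variable {L : Type*} [Field L]

/-- a coefficientwise field homomorphism preserves the order. -/
theorem order_coeffMap (σ : L →+* L) (x : LaurentSeries L) : (coeffMap σ x).order = x.order := by
  by_cases hx : x = 0
  · rw [hx, map_zero]
  have hy : coeffMap σ x ≠ 0 := by
    intro h0
    apply hx
    ext n
    have := congrArg (fun s => HahnSeries.coeff s n) h0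
    simp only [coeffMap_coeff, HahnSeries.coeff_zero] at this
    exact (map_eq_zero σ).mp this
  apply le_antisymm
  · apply HahnSeries.order_le_of_coeff_ne_zero
    rw [coeffMap_coeff]
    exact (map_ne_zero σ).mpr (fun h => hx (HahnSeries.coeff_order_eq_zero.mp h))
  · apply HahnSeries.order_le_of_coeff_ne_zero
    have : (coeffMap σ x).coeff (coeffMap σ x).order ≠ 0 :=
      fun h => hy (HahnSeries.coeff_order_eq_zero.mp h)
    rw [coeffMap_coeff] at this
    exact (map_ne_zero σ).mp this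

/-- a coefficientwise field homomorphism maps the leading coefficient to the leading coefficient. -/
theorem leadingCoeff_coeffMap (σ : L →+* L) (x : LaurentSeries L) :
    (coeffMap σ x).leadingCoeff = σ x.leadingCoeff := by
  rw [HahnSeries.leadingCoeff_eq, HahnSeries.leadingCoeff_eq, order_coeffMap, coeffMap_coeff]

theorem leadingCoeff_pow' (x : LaurentSeries L) (n : ℕ) :
    (x ^ n).leadingCoeff = x.leadingCoeff ^ n := by
  induction n with
  | zero => rw [pow_zero, pow_zero, HahnSeries.leadingCoeff_one]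
  | succ n ih => rw [pow_succ, pow_succ, HahnSeries.leadingCoeff_mul, ih]

theorem leadingCoeff_C' (a : L) : (HahnSeries.C a : LaurentSeries L).leadingCoeff = a := by
  rw [HahnSeries.C_apply, HahnSeries.leadingCoeff_of_single]

/-- an `m`-th root of unity of `L((𝐪))` with leading coefficient `1` is `1` (`L` algebraically closed). -/
theorem eq_one_of_pow_eq_one [IsAlgClosed L] {r : LaurentSeries L} {m : ℕ} (hm : m ≠ 0)
    (hr : r ^ m = 1) (hlc : r.leadingCoeff = 1) : r = 1 := by
  have hint : IsIntegral L r := by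
    refine ⟨Polynomial.X ^ m - Polynomial.C 1, Polynomial.monic_X_pow_sub_C 1 hm, ?_⟩
    rw [Polynomial.eval₂_sub, Polynomial.eval₂_pow, Polynomial.eval₂_X, Polynomial.eval₂_C, hr,
      map_one, sub_self]
  have hdeg := IsAlgClosed.degree_eq_one_of_irreducible L (minpoly.irreducible hint)
  obtain ⟨ζ, hζ⟩ := minpoly.mem_range_of_degree_eq_one L r hdeg
  have hζ' : r = HahnSeries.C ζ := by
    rw [← hζ, Fermat.Agent.RED.PUR.GaussGen8.algebraMap_eq_C]
  rw [hζ', leadingCoeff_C'] at hlc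
  rw [hζ', hlc, map_one]

/-- uniqueness of the normalised Kummer form `a • x ^ m`. -/
theorem eq_of_C_mul_pow_eq [IsAlgClosed L] {x y : LaurentSeries L} {a b : L} {m : ℕ} (hm : m ≠ 0)
    (ha : a ≠ 0) (hx : x.leadingCoeff = 1) (hy : y.leadingCoeff = 1)
    (h : HahnSeries.C a * x ^ m = HahnSeries.C b * y ^ m) : a = b ∧ x = y := by
  have hab : a = b := by
    have := congrArg HahnSeries.leadingCoeff h
    rwa [HahnSeries.leadingCoeff_mul, HahnSeries.leadingCoeff_mul, leadingCoeff_C', leadingCoeff_C',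
      leadingCoeff_pow', leadingCoeff_pow', hx, hy, one_pow, mul_one, mul_one] at this
  refine ⟨hab, ?_⟩
  subst hab
  have hCa : (HahnSeries.C a : LaurentSeries L) ≠ 0 := (map_ne_zero _).mpr ha
  have hpow : x ^ m = y ^ m := mul_left_cancel₀ hCa h
  have hy0 : y ≠ 0 := by
    intro h0
    rw [h0, HahnSeries.leadingCoeff_zero] at hy
    exact zero_ne_one hy
  have hr : (x / y) ^ m = 1 := by rw [div_pow, hpow, div_self (pow_ne_zero m hy0)]
  have hlc : (x / y).leadingCoeff = 1 := by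
    have h1 : (x / y) * y = x := div_mul_cancel₀ x hy0
    have h2 := congrArg HahnSeries.leadingCoeff h1
    rw [HahnSeries.leadingCoeff_mul, hy, mul_one, hx] at h2
    exact h2
  exact (div_eq_one_iff_eq hy0).mp (eq_one_of_pow_eq_one hm hr hlc)

end Series

/-! ### The descent of `κ • g ^ m` -/

section Descent

variable (N : ℕ) [NeZero N] (K : IntermediateField ℚ Qbar)

theorem coe_smul_bar (c : Qbar) (x : Fbar N) :
    ((c • x : Fbar N) : LaurentSeries Qbar) = HahnSeries.C c * (x : LaurentSeries Qbar) := by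
  rw [Algebra.smul_def]
  show algebraMap Qbar (LaurentSeries Qbar) c * (x : LaurentSeries Qbar) = _
  rw [Fermat.Agent.RED.PUR.GaussGen8.algebraMap_eq_C]

theorem coeffMap_C' {L : Type*} [Field L] (σ : L →+* L) (c : L) :
    coeffMap σ (HahnSeries.C c : LaurentSeries L) = HahnSeries.C (σ c) := by
  rw [HahnSeries.C_apply, coeffMap_single, HahnSeries.C_apply]

/-- **Descent of a Kummer form.**  If the base change of `G ∈ K·F_N` is `κ • g ^ m` over `ℚ̄` (`m ≠ 0`), then
`G = κ_K • g_K ^ m` over `K` itself. -/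
theorem exists_descent_of_smul_pow {m : ℕ} (hm : m ≠ 0) (G : FK N K) {κ : Qbar} {g : Fbar N}
    (hκ : κ ≠ 0) (hg : g ≠ 0) (h : PlaceExtend27.baseChangeHom N K G = κ • g ^ m) :
    ∃ (κK : K) (gK : FK N K), κK ≠ 0 ∧ gK ≠ 0 ∧ G = κK • gK ^ m := by
  classical
  set a : Qbar := (g : LaurentSeries Qbar).leadingCoeff with ha
  have ha0 : a ≠ 0 := HahnSeries.leadingCoeff_ne_zero.mpr (fun h0 => hg (Subtype.ext h0))
  set g₁ : Fbar N := a⁻¹ • g with hg₁
  set κ₁ : Qbar := κ * a ^ m with hκ₁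
  have hκ₁0 : κ₁ ≠ 0 := mul_ne_zero hκ (pow_ne_zero m ha0)
  have hg₁0 : g₁ ≠ 0 := smul_ne_zero (inv_ne_zero ha0) hg
  have hrel : PlaceExtend27.baseChangeHom N K G = κ₁ • g₁ ^ m := by
    rw [h, hg₁, hκ₁, smul_pow, smul_smul, inv_pow, mul_assoc, mul_inv_cancel₀ (pow_ne_zero m ha0),
      mul_one]
  -- series form
  have hser : coeffMap (algebraMap K Qbar) (G : LaurentSeries K) =
      HahnSeries.C κ₁ * (g₁ : LaurentSeries Qbar) ^ m := by
    have h1 := congrArg (fun y : Fbar N => (y : LaurentSeries Qbar)) hrel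
    simp only [PlaceExtend27.coe_baseChangeHom, coe_smul_bar] at h1
    exact h1
  have hlc : (g₁ : LaurentSeries Qbar).leadingCoeff = 1 := by
    rw [hg₁, coe_smul_bar, HahnSeries.leadingCoeff_mul, leadingCoeff_C', ← ha, inv_mul_cancel₀ ha0]
  -- Galois invariance
  have hfix : ∀ σ : Qbar ≃ₐ[ℚ] Qbar, (∀ x ∈ K, σ x = x) →
      σ κ₁ = κ₁ ∧ coeffMap (σ : Qbar →+* Qbar) (g₁ : LaurentSeries Qbar) = g₁ := by
    intro σ hσ
    have h1 : coeffMap (σ : Qbar →+* Qbar) (coeffMap (algebraMap K Qbar) (G : LaurentSeries K)) =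
        coeffMap (algebraMap K Qbar) (G : LaurentSeries K) := by
      rw [coeffMap_coeffMap]
      exact coeffMap_congr (RingHom.ext fun x => hσ _ x.2) _
    rw [hser, map_mul, map_pow, coeffMap_C'] at h1
    have hy : (coeffMap (σ : Qbar →+* Qbar) (g₁ : LaurentSeries Qbar)).leadingCoeff = 1 := by
      rw [leadingCoeff_coeffMap, hlc, map_one]
    have hσκ : (σ : Qbar →+* Qbar) κ₁ ≠ 0 := (map_ne_zero _).mpr hκ₁0
    exact eq_of_C_mul_pow_eq hm hσκ hy hlc h1
  -- the constant and the coefficients lie in `K`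
  have hκK : κ₁ ∈ K := Fermat.Agent.ES.N34.GalRational1.mem_of_fixed K κ₁ (fun σ hσ => (hfix σ hσ).1)
  have hcoeff : ∀ n, (g₁ : LaurentSeries Qbar).coeff n ∈ Set.range (algebraMap K Qbar) := by
    intro n
    have hn : (g₁ : LaurentSeries Qbar).coeff n ∈ K := by
      refine Fermat.Agent.ES.N34.GalRational1.mem_of_fixed K _ (fun σ hσ => ?_)
      have := congrArg (fun y => HahnSeries.coeff y n) (hfix σ hσ).2
      simpa using this
    exact ⟨⟨_, hn⟩, rfl⟩
  obtain ⟨gK, hgK⟩ := (Fermat.Agent.J.DESC.LaurentExt24.mem_range_bc_iff (k := K) (K := Qbar)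
    (modularFunctionFieldFull N) g₁).mpr hcoeff
  have hbc : PlaceExtend27.baseChangeHom N K gK = g₁ := by
    apply Subtype.ext
    have := congrArg (fun y : Fbar N => (y : LaurentSeries Qbar)) hgK
    exact this
  have hgK0 : gK ≠ 0 := by
    rintro rfl
    rw [map_zero] at hbc
    exact hg₁0 hbc.symm
  refine ⟨⟨κ₁, hκK⟩, gK, fun h0 => hκ₁0 (congrArg Subtype.val h0), hgK0, ?_⟩
  apply PlaceExtend27.baseChangeHom_injective N K
  rw [Fermat.Agent.ES.N35.DescO1.baseChangeHom_smul_const, map_pow, hbc, hrel]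

end Descent

/-! ### Newness over `K` -/

section New

variable (q M' : ℕ) [NeZero M'] [NeZero q]

set_option maxHeartbeats 2000000 in
/-- newness over `K` along `α`. -/
theorem newOverK_alpha (hq : q.Prime) (K : IntermediateField ℚ Qbar) {m : ℕ} (hm : m ≠ 0)
    (fK : FK (M' * q * q) K) (_hfK : fK ≠ 0)
    (hE : ∃ (κ : Qbar) (g : Fbar (M' * q)), κ ≠ 0 ∧ g ≠ 0 ∧
      normAlong (heckeAlphaBar Qbar (M' * q) q)
        (PlaceExtend27.baseChangeHom (M' * q * q) K fK) = κ • g ^ m) :
    ∃ (κ : K) (g : FK (M' * q) K), κ ≠ 0 ∧ g ≠ 0 ∧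
      normAlong (Fermat.Agent.ES.N34.ModelDefs9.alpha K (M' * q) q) fK = κ • g ^ m := by
  obtain ⟨κ, g, hκ, hg, hN⟩ := hE
  have hdvd : q ∣ M' * q := dvd_mul_left q M'
  have hbc : PlaceExtend27.baseChangeHom (M' * q) K
      (normAlong (Fermat.Agent.ES.N34.ModelDefs9.alpha K (M' * q) q) fK) = κ • g ^ m := by
    rw [← hN]
    exact (Fermat.Agent.ES.P36.NormBCDeg19.baseChangeHom_normAlong_alpha_of_dvd K (M' * q) q hq hdvd
      fK).symm
  exact exists_descent_of_smul_pow (M' * q) K hm _ hκ hg hbc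

set_option maxHeartbeats 2000000 in
/-- newness over `K` along `β`. -/
theorem newOverK_beta (hq : q.Prime) (K : IntermediateField ℚ Qbar) {m : ℕ} (hm : m ≠ 0)
    (fK : FK (M' * q * q) K) (_hfK : fK ≠ 0)
    (hE : ∃ (κ : Qbar) (g : Fbar (M' * q)), κ ≠ 0 ∧ g ≠ 0 ∧
      normAlong (heckeBetaBar Qbar (M' * q) q)
        (PlaceExtend27.baseChangeHom (M' * q * q) K fK) = κ • g ^ m) :
    ∃ (κ : K) (g : FK (M' * q) K), κ ≠ 0 ∧ g ≠ 0 ∧
      normAlong (Fermat.Agent.ES.N34.ModelDefs9.beta K (M' * q) q) fK = κ • g ^ m := by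
  obtain ⟨κ, g, hκ, hg, hN⟩ := hE
  have hdvd : q ∣ M' * q := dvd_mul_left q M'
  have hbc : PlaceExtend27.baseChangeHom (M' * q) K
      (normAlong (Fermat.Agent.ES.N34.ModelDefs9.beta K (M' * q) q) fK) = κ • g ^ m := by
    rw [← hN]
    exact (Fermat.Agent.ES.P36.NormBCDeg19.baseChangeHom_normAlong_beta_of_dvd K (M' * q) q hq hdvd
      fK).symm
  exact exists_descent_of_smul_pow (M' * q) K hm _ hκ hg hbc

set_option maxHeartbeats 2000000 in
/-- **D3(c)**: the LITERAL body of `DescAsmP12.NewOverKStmt q M'` (consumer: helper12's DESC-P assembly). -/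
theorem newOverK (hq : q.Prime) :
    ∀ K : IntermediateField ℚ Qbar, FiniteDimensional ℚ K → ∀ m : ℕ, m ≠ 0 →
    ∀ fK : FK (M' * q * q) K, fK ≠ 0 →
    ((∃ (κ : Qbar) (g : Fbar (M' * q)), κ ≠ 0 ∧ g ≠ 0 ∧
        normAlong (heckeAlphaBar Qbar (M' * q) q)
          (PlaceExtend27.baseChangeHom (M' * q * q) K fK) = κ • g ^ m) →
      ∃ (κ : K) (g : FK (M' * q) K), κ ≠ 0 ∧ g ≠ 0 ∧
        normAlong (Fermat.Agent.ES.N34.ModelDefs9.alpha K (M' * q) q) fK = κ • g ^ m) ∧
    ((∃ (κ : Qbar) (g : Fbar (M' * q)), κ ≠ 0 ∧ g ≠ 0 ∧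
        normAlong (heckeBetaBar Qbar (M' * q) q)
          (PlaceExtend27.baseChangeHom (M' * q * q) K fK) = κ • g ^ m) →
      ∃ (κ : K) (g : FK (M' * q) K), κ ≠ 0 ∧ g ≠ 0 ∧
        normAlong (Fermat.Agent.ES.N34.ModelDefs9.beta K (M' * q) q) fK = κ • g ^ m) :=
  fun K _ _ hm fK hfK =>
    ⟨newOverK_alpha q M' hq K hm fK hfK, newOverK_beta q M' hq K hm fK hfK⟩

end New

end Fermat.Agent.ES.P36.NewOverK17
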