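/-
Program P (S36), interface chapter "K₀ ≤ fixed field of inertia", brick (F2)/(K3) (helper26).

`A` a valuation subring of `Qbar = AlgebraicClosure ℚ` over the prime `q`.  Roots of unity of order
prime to `q` are fixed by the inertia group `A.inertiaSubgroupIn ℚ`; hence the number field
`ℚ(ζ_M)` (`ζ_M = zetaK M`, `q ∤ M`) is fixed pointwise by inertia and stable under every
automorphism of `Qbar`.  This is the replacement of `CuspConcrete23.exists_zeta_field` with control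
of the field.

Everything is stated with the raw predicate
`∀ τ ∈ A.inertiaSubgroupIn ℚ, ∀ x ∈ K, τ x = x` (vocabulary independent).
-/
import Mathlib
import Fermat.Agent.ES.J.CycloChar8
import Fermat.Agent.X0.RootsK

set_option autoImplicit false

namespace Fermat.Agent.ES.P36.ZetaUnr26

open Fermat.Agent.ES.J.CycloChar8 IntermediateField

local notation "Qb" => AlgebraicClosure ℚ

variable {A : ValuationSubring Qb} {q : ℕ}

/-- **(F2)** a root of unity of order prime to `q` is fixed by the inertia group at `A | q`. -/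
theorem inertia_fixes_rootOfUnity (hq : q.Prime) (hA : A.LiesOverPrime q) {m : ℕ}
    (hm : ¬ q ∣ m) {ζ : Qb} (hζ : ζ ^ m = 1) {τ : Qb ≃ₐ[ℚ] Qb}
    (hτ : τ ∈ A.inertiaSubgroupIn ℚ) : τ ζ = ζ := by
  have hm0 : m ≠ 0 := fun h0 => hm (h0 ▸ dvd_zero q)
  have hζ0 : ζ ≠ 0 := by
    rintro rfl
    rw [zero_pow hm0] at hζ
    exact zero_ne_one hζ
  have hζA : ζ ∈ A := mem_of_pow_eq_one hm0 hζ
  have h1 := Fermat.Agent.S05.Inertia.apply_sub_mem_nonunits hτ hζA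
  have hτζ : (τ ζ) ^ m = 1 := by rw [← map_pow, hζ, map_one]
  have hη : (τ ζ * ζ⁻¹) ^ m = 1 := by
    rw [mul_pow, hτζ, inv_pow, hζ, inv_one, mul_one]
  have hvinv : A.valuation (ζ⁻¹) = 1 := by
    rw [map_inv₀, valuation_eq_one_of_pow_eq_one hm0 hζ, inv_one]
  have hη1 : τ ζ * ζ⁻¹ - 1 ∈ A.nonunits := by
    have e : τ ζ * ζ⁻¹ - 1 = (τ ζ - ζ) * ζ⁻¹ := by
      rw [sub_mul, mul_inv_cancel₀ hζ0]
    rw [e, ValuationSubring.mem_nonunits_iff, map_mul, hvinv, mul_one]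
    exact (ValuationSubring.mem_nonunits_iff (A := A)).mp h1
  have h2 := eq_one_of_sub_one_mem_nonunits hq hA hm hη hη1
  have := congrArg (· * ζ) h2
  simpa [mul_assoc, inv_mul_cancel₀ hζ0] using this

/-- The set of elements fixed by an automorphism, as an intermediate field: membership transfer
from a generator. -/
theorem fixes_adjoin_simple {τ : Qb ≃ₐ[ℚ] Qb} {ζ : Qb} (h : τ ζ = ζ) :
    ∀ x ∈ ℚ⟮ζ⟯, τ x = x := by
  intro x hx
  have hint : IsIntegral ℚ ζ := Algebra.IsIntegral.isIntegral ζ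
  have hx' : x ∈ Algebra.adjoin ℚ {ζ} := by
    rw [← IntermediateField.adjoin_simple_toSubalgebra_of_isAlgebraic hint.isAlgebraic]
    exact hx
  have hle : Algebra.adjoin ℚ {ζ} ≤ AlgHom.equalizer (τ : Qb →ₐ[ℚ] Qb) (AlgHom.id ℚ Qb) := by
    rw [Algebra.adjoin_le_iff]
    rintro y (rfl : y = ζ)
    exact h
  exact hle hx'

/-- `ℚ(ζ)` for a root of unity `ζ` of order prime to `q`: finite over `ℚ`, fixed pointwise by
inertia at `A | q`. -/
theorem adjoin_rootOfUnity_fixed (hq : q.Prime) (hA : A.LiesOverPrime q) {m : ℕ}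
    (hm : ¬ q ∣ m) {ζ : Qb} (hζ : ζ ^ m = 1) :
    FiniteDimensional ℚ ℚ⟮ζ⟯ ∧ ζ ∈ ℚ⟮ζ⟯ ∧
      ∀ τ ∈ A.inertiaSubgroupIn ℚ, ∀ x ∈ ℚ⟮ζ⟯, τ x = x := by
  refine ⟨?_, IntermediateField.mem_adjoin_simple_self ℚ ζ, fun τ hτ => ?_⟩
  · exact IntermediateField.adjoin.finiteDimensional (Algebra.IsIntegral.isIntegral ζ)
  · exact fixes_adjoin_simple (inertia_fixes_rootOfUnity hq hA hm hζ hτ)

/-- `ℚ(ζ)` is stable under every automorphism when `ζ` is a root of unity (any order `m ≠ 0`):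
`σ ζ` is a power of ... we only need `σ ζ ∈ ℚ(ζ)`, which holds because `ℚ(ζ)/ℚ` is normal
(splitting field of `X ^ m - 1`).  Stated in the form used by the inertial-field chapter. -/
theorem adjoin_rootOfUnity_stable {m : ℕ} (hm : m ≠ 0) {ζ : Qb} (hζ : IsPrimitiveRoot ζ m)
    (σ : Qb ≃ₐ[ℚ] Qb) : ∀ x ∈ ℚ⟮ζ⟯, σ x ∈ ℚ⟮ζ⟯ := by
  have hσζ : σ ζ ∈ ℚ⟮ζ⟯ := by
    have hpow : (σ ζ) ^ m = 1 := by rw [← map_pow, hζ.pow_eq_one, map_one]
    have : NeZero m := ⟨hm⟩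
    obtain ⟨i, -, hi⟩ := hζ.eq_pow_of_pow_eq_one hpow
    rw [← hi]
    exact pow_mem (IntermediateField.mem_adjoin_simple_self ℚ ζ) i
  intro x hx
  have hmap : (ℚ⟮ζ⟯).map (σ : Qb →ₐ[ℚ] Qb) ≤ ℚ⟮ζ⟯ := by
    rw [IntermediateField.adjoin_map, IntermediateField.adjoin_le_iff]
    rintro y ⟨z, (rfl : z = ζ), rfl⟩
    exact hσζ
  exact hmap ⟨x, hx, rfl⟩

/-- **(K3) with control of the field**: for `q ∤ M` the field `ℚ(ζ_M)` (`ζ_M = zetaK M`) is a
finite extension of `ℚ` containing `ζ_M`, fixed pointwise by the inertia group at `A | q`, and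
stable under every automorphism of `Qbar`. -/
theorem exists_zeta_field_unr (hq : q.Prime) (hA : A.LiesOverPrime q) (M : ℕ) [NeZero M]
    (hqM : ¬ q ∣ M) :
    ∃ K₀ : IntermediateField ℚ Qb, FiniteDimensional ℚ K₀ ∧ Fermat.Agent.X0.zetaK M ∈ K₀ ∧
      (∀ τ ∈ A.inertiaSubgroupIn ℚ, ∀ x ∈ K₀, τ x = x) ∧
      ∀ σ : Qb ≃ₐ[ℚ] Qb, ∀ x ∈ K₀, σ x ∈ K₀ := by
  have hprim := Fermat.Agent.X0.isPrimitiveRoot_zetaK M
  obtain ⟨h1, h2, h3⟩ := adjoin_rootOfUnity_fixed hq hA hqM hprim.pow_eq_one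
  exact ⟨ℚ⟮Fermat.Agent.X0.zetaK M⟯, h1, h2, h3,
    adjoin_rootOfUnity_stable (NeZero.ne M) hprim⟩

end Fermat.Agent.ES.P36.ZetaUnr26
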