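/-
Program P (S36), assembly brick A1a (helper12): **`IfaceNumP12.NumStepP` from the per-`K` supplier packages of
`NumCoreP13`** (helper13), over the READY fields of record (ruling p17).

* `ReadyP q M' A K` := `IsInertial A K ∧ zetaK M' ∈ K` (finite-dimensionality is a binder);
  `exists_readyP_ge` : ready fields are cofinal above the finite fields fixed by the inertia group of `A`
  (`ZetaUnr26.exists_zeta_field_unr` + `InertFixed.sup` + `InertField27.exists_isInertial_ge`);
* `fixNumOver_of_fixCoreP` : `NumCoreP13.FixCoreP` is `DescLiftP12.FixNumOver` for all `m` prime to `q`;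
* `fixNum_of_fixCoreP` : `FixCoreP` over all ready `K` ⇒ `FixNum` over all finite `K` fixed by inertia;
* `ItemsP n e q M' A K c₀` : the four supplier packages (M7, M4, G4, N3) at `K`;
* `fixCoreP_of_items` : `numCoreP` with its three leaves discharged (`CoeffField4.tq_mem_FK`,
  `UnrFixed1.isUnif_natCast`, `NumInst4.exists_inv_of_not_dvd`);
* `numStepP_of_items` : the chain up to `NumStepP c`, `c q = c₀ q * (q² − 1) * q²` for prime `q`.
-/
import Mathlib
import Fermat.Agent.ES.P36.DescLiftP12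
import Fermat.Agent.ES.P36.NumCoreP13
import Fermat.Agent.ES.P36.ZetaUnr26
import Fermat.Agent.ES.P36.UnrFixed1
import Fermat.Agent.ES.P36.CoeffField4
import Fermat.Agent.RED.BASE.Main12

set_option autoImplicit false
set_option synthInstance.maxHeartbeats 400000
set_option linter.unusedSectionVars false

open HahnSeries AlgebraicCurve ModularCurve

noncomputable section

namespace Fermat.Agent.ES.P36.NumAsmP12

open Fermat.Agent.RED.Interface4 Fermat.Agent.RED.DESC Fermat.Agent.ES.N34.IfaceN4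
  Fermat.Agent.ES.P36.IfaceP17 Fermat.Agent.ES.P36.IfaceNumP12 Fermat.Agent.ES.P36.DescLiftP12
  Fermat.Agent.ES.P36.NumCoreP13 Fermat.Agent.RED.BASE.EtaQuot12 Fermat.Agent.RED.BASE.Interface12
open Fermat.Agent.ES.HECKE.BaseChange19 (normAlong)
open Fermat.Agent.ES.P36.InertField27 (InertFixed IsInertial)

/-- **readiness of record** (ruling p17), without the finiteness binder. -/
def ReadyP (_q M' : ℕ) [NeZero M'] (A : ValuationSubring Qbar) (K : IntermediateField ℚ Qbar) : Prop :=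
  IsInertial A K ∧ Fermat.Agent.X0.zetaK M' ∈ K

/-- ready fields are cofinal above the finite fields fixed by inertia. -/
theorem exists_readyP_ge {q M' : ℕ} [NeZero M'] {A : ValuationSubring Qbar} (hq : q.Prime)
    (hqM : ¬ q ∣ M') (hA : A.LiesOverPrime q) (K : IntermediateField ℚ Qbar)
    (hfin : FiniteDimensional ℚ K) (hfix : InertFixed A K) :
    ∃ K' : IntermediateField ℚ Qbar, FiniteDimensional ℚ K' ∧ K ≤ K' ∧ ReadyP q M' A K' := by
  obtain ⟨K₀, hfin₀, hζ, hfix₀, -⟩ :=
    Fermat.Agent.ES.P36.ZetaUnr26.exists_zeta_field_unr hq hA M' hqM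
  obtain ⟨K', hK'fin, hle, hle₀, hK'⟩ := exists_ready_ge hfin₀ hfix₀ hfin hfix
  exact ⟨K', hK'fin, hle, hK', hle₀ hζ⟩

set_option maxHeartbeats 2000000 in
/-- `FixCoreP` is `FixNumOver` for all `m` prime to `q`. -/
theorem fixNumOver_of_fixCoreP {c q M' : ℕ} [NeZero M'] [NeZero q] {K : IntermediateField ℚ Qbar}
    (h : FixCoreP q M' K c) (m : ℕ) (hm : ¬ q ∣ m) : FixNumOver c q M' m K :=
  fun f hf hord hα hβ => h m hm f ⟨hf, hord, hα, hβ⟩

set_option maxHeartbeats 2000000 in
/-- one exponent: `FixCoreAtP` is `FixNumOver`. -/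
theorem fixNumOver_of_fixCoreAtP {c q M' m : ℕ} [NeZero M'] [NeZero q]
    {K : IntermediateField ℚ Qbar} (h : FixCoreAtP q M' K c m) : FixNumOver c q M' m K :=
  fun f hf hord hα hβ => h f ⟨hf, hord, hα, hβ⟩

set_option maxHeartbeats 2000000 in
/-- **(K_c) over all ready fields ⇒ `FixNum` over all finite fields fixed by inertia.** -/
theorem fixNum_of_fixCoreP {c q M' : ℕ} [NeZero M'] [NeZero q] {A : ValuationSubring Qbar}
    (hq : q.Prime) (hqM : ¬ q ∣ M') (hA : A.LiesOverPrime q)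
    (hcore : ∀ K : IntermediateField ℚ Qbar, FiniteDimensional ℚ K → ReadyP q M' A K →
      FixCoreP q M' K c)
    (K : IntermediateField ℚ Qbar) (hfin : FiniteDimensional ℚ K) (hfix : InertFixed A K) :
    FixNum c q M' K :=
  fixNum_of_ready hq (fun _ K' => ReadyP q M' A K')
    (fun _ _ K hfin hfix => exists_readyP_ge hq hqM hA K hfin hfix)
    (fun m hm K' hfin' hK' => fixNumOver_of_fixCoreP (hcore K' hfin' hK') m hm) K hfin hfix

/-- **the four supplier packages at `K`** (M7 MODEL-P + REG, M4 middle ring, G4 chapter (G), N3 chapter (N3); the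
last two per exponent `m` prime to `q`, `NumCoreP13` v2). -/
def ItemsP (n e q M' : ℕ) [NeZero n] [NeZero M'] [NeZero q] (A : ValuationSubring Qbar)
    (K : IntermediateField ℚ Qbar) (c₀ : ℕ) : Prop :=
  ModelItemsP n e q M' A K ∧ MidItemsP q M' A K ∧ (∀ m : ℕ, ¬ q ∣ m → GenItemsP q M' A K c₀ m) ∧
    ∀ m : ℕ, ¬ q ∣ m → BranchItemsP n e q M' A K c₀ m

set_option maxHeartbeats 2000000 in
/-- `numCoreP` with its leaves discharged. -/
theorem fixCoreP_of_items {n e q M' : ℕ} [NeZero n] [NeZero M'] [NeZero q]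
    {A : ValuationSubring Qbar} (hq : q.Prime) (hA : A.LiesOverPrime q) (hmem : TMem n e M')
    (K : IntermediateField ℚ Qbar) (hfin : FiniteDimensional ℚ K) (hK : ReadyP q M' A K) {c₀ : ℕ}
    (h : ItemsP n e q M' A K c₀) : FixCoreP q M' K (c₀ * (q ^ 2 - 1) * q ^ 2) := by
  have := hfin
  exact numCoreP (Fermat.Agent.ES.P36.CoeffField4.tq_mem_FK n e M' hmem K)
    ⟨_, Fermat.Agent.ES.P36.UnrFixed1.isUnif_natCast A hq hA K hK.1.1⟩
    (fun m hm => Fermat.Agent.RED.NumInst4.exists_inv_of_not_dvd hq hA K m hm) c₀ h.1 h.2.1 h.2.2.1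
    h.2.2.2

set_option maxHeartbeats 2000000 in
/-- **NUM-P assembled**: the four packages over all ready fields (Hauptmodul `(4, 8)` for odd `q`, `(9, 3)` for
`q = 2`) give `NumStepP c`. -/
theorem numStepP_of_items {c c₀ : ℕ → ℕ}
    (hc : ∀ q : ℕ, q.Prime → c q = c₀ q * (q ^ 2 - 1) * q ^ 2)
    (hodd : ∀ (q M' : ℕ) [NeZero M'] [NeZero q] (A : ValuationSubring Qbar), q.Prime → ¬ q ∣ M' →
      q ≠ 2 → 4 ∣ M' → A.LiesOverPrime q → ∀ K : IntermediateField ℚ Qbar, FiniteDimensional ℚ K →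
      ReadyP q M' A K → ItemsP 4 8 q M' A K (c₀ q))
    (htwo : ∀ (M' : ℕ) [NeZero M'] (A : ValuationSubring Qbar), ¬ 2 ∣ M' → 9 ∣ M' →
      A.LiesOverPrime 2 → ∀ K : IntermediateField ℚ Qbar, FiniteDimensional ℚ K →
      ReadyP 2 M' A K → ItemsP 9 3 2 M' A K (c₀ 2)) : NumStepP c := by
  intro q M' _ _ A hq hqM hdvd hA K hfin hfix
  rw [hc q hq]
  by_cases h2 : q = 2
  · subst h2
    rw [if_pos rfl] at hdvd
    exact fixNum_of_fixCoreP hq hqM hA
      (fun K' hfin' hK' => fixCoreP_of_items hq hA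
        (Fermat.Agent.RED.BASE.Main12.baseExports Fermat.Agent.RED.BASE.Hauptmodul12.baseHyp_nine M'
          hdvd).mem K' hfin' hK' (htwo M' A hqM hdvd hA K' hfin' hK')) K hfin hfix
  · rw [if_neg h2] at hdvd
    exact fixNum_of_fixCoreP hq hqM hA
      (fun K' hfin' hK' => fixCoreP_of_items hq hA
        (Fermat.Agent.RED.BASE.Main12.baseExports Fermat.Agent.RED.BASE.Hauptmodul12.baseHyp_four M'
          hdvd).mem K' hfin' hK' (hodd q M' A hq hqM h2 hdvd hA K' hfin' hK')) K hfin hfix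

end Fermat.Agent.ES.P36.NumAsmP12
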