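/-
S36 scouting (helper9), §A3 of `S36_NOTE1.md` (helper1): **Kolchin-lite**.

A group `H` acting `R`-linearly on a nonzero finitely generated torsion-free module `Λ` over a
noetherian domain `R`, such that every `g ∈ H` satisfies `(g - 1)² = 0`, has a nonzero common fixed
vector.  (No hypothesis on the rank of `Λ`, none on the characteristic.)

Proof (helper1's note): for `g = 1 + A`, `h = 1 + B` in `H` the inverses are `1 - A`, `1 - B`, and
`gh + (gh)⁻¹ = 2` expands to `AB + BA = 0` (`anticomm`).  Hence for an `H`-stable submodule `W` the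
image `A(W)` is again `H`-stable (`h (A w) = A (w - B w)`), it lies in `W ∩ ker A` (`A² = 0`), and so
has strictly smaller rank than `W` unless it vanishes (`Submodule.disjoint_ker_of_finrank_le`).
Induction on the rank of a nonzero `H`-stable submodule.

Pure algebra: Mathlib only.
-/
import Mathlib

set_option autoImplicit false

namespace Fermat.Agent.ES.P36.KolchinLite9

/-! ### The anticommutation identity (any ring) -/

section Ring

variable {E : Type*} [Ring E]

/-- If `g`, `h` and `g * h` are all unipotent of index two then `(g-1)(h-1) + (h-1)(g-1) = 0`. -/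
theorem anticomm {g h : E} (hg : (g - 1) * (g - 1) = 0) (hh : (h - 1) * (h - 1) = 0)
    (hgh : (g * h - 1) * (g * h - 1) = 0) :
    (g - 1) * (h - 1) + (h - 1) * (g - 1) = 0 := by
  -- inverses
  have hg' : g * (2 - g) = 1 := by
    have : g * (2 - g) = 1 - (g - 1) * (g - 1) := by noncomm_ring
    rw [this, hg, sub_zero]
  have hh' : h * (2 - h) = 1 := by
    have : h * (2 - h) = 1 - (h - 1) * (h - 1) := by noncomm_ring
    rw [this, hh, sub_zero]
  set x : E := g * h with hx
  set y : E := (2 - h) * (2 - g) with hy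
  have hxy : x * y = 1 := by
    rw [hx, hy]
    calc g * h * ((2 - h) * (2 - g)) = g * (h * (2 - h)) * (2 - g) := by noncomm_ring
      _ = 1 := by rw [hh', mul_one, hg']
  -- `x + y = 2`
  have h1 : x * x - 2 * x + 1 = 0 := by
    have : x * x - 2 * x + 1 = (x - 1) * (x - 1) := by noncomm_ring
    rw [this, hgh]
  have h2 : x - 2 + y = 0 := by
    have : (x * x - 2 * x + 1) * y = x - 2 + y := by
      calc (x * x - 2 * x + 1) * y = x * (x * y) - 2 * (x * y) + y := by noncomm_ring
        _ = x - 2 + y := by rw [hxy, mul_one, mul_one]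
    rw [← this, h1, zero_mul]
  have h3 : (g - 1) * (h - 1) + (h - 1) * (g - 1) = x - 2 + y := by
    rw [hx, hy, show (2 : E) = 1 + 1 from one_add_one_eq_two.symm]; noncomm_ring
  rw [h3, h2]

end Ring

/-! ### The fixed vector -/

section Fixed

variable {R Λ G : Type*} [CommRing R] [IsDomain R] [IsNoetherianRing R] [AddCommGroup Λ]
  [Module R Λ] [Module.Finite R Λ] [Module.IsTorsionFree R Λ] [Group G]

theorem exists_fixed_aux (ρ : G →* Module.End R Λ) (H : Subgroup G)
    (h : ∀ g ∈ H, (ρ g - 1) * (ρ g - 1) = 0) :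
    ∀ n : ℕ, ∀ W : Submodule R Λ, W ≠ ⊥ → (∀ g ∈ H, ∀ w ∈ W, ρ g w ∈ W) →
      Module.finrank R W ≤ n → ∃ v ∈ W, v ≠ 0 ∧ ∀ g ∈ H, ρ g v = v := by
  intro n
  induction n with
  | zero =>
    intro W hW _ hn
    exfalso
    have hnt : Nontrivial W := Submodule.nontrivial_iff_ne_bot.mpr hW
    have := Module.finrank_pos (R := R) (M := W)
    omega
  | succ n ih =>
    intro W hW hst hn
    by_cases hall : ∀ g ∈ H, ∀ w ∈ W, ρ g w = w
    · obtain ⟨w, hwW, hw0⟩ := Submodule.exists_mem_ne_zero_of_ne_bot hW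
      exact ⟨w, hwW, hw0, fun g hg => hall g hg w hwW⟩
    · obtain ⟨g₀, hg₀, w₀, hw₀W, hw₀⟩ : ∃ g₀ ∈ H, ∃ w₀ ∈ W, ρ g₀ w₀ ≠ w₀ := by
        by_contra hcon
        apply hall
        intro g hg w hw
        by_contra hne
        exact hcon ⟨g, hg, w, hw, hne⟩
      set A : Module.End R Λ := ρ g₀ - 1 with hA
      have hAA : A * A = 0 := h g₀ hg₀
      have hAapp : ∀ w, A w = ρ g₀ w - w := fun w => by
        rw [hA, LinearMap.sub_apply, Module.End.one_apply]
      have hW'W : W.map A ≤ W := by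
        rintro _ ⟨w, hw, rfl⟩
        rw [hAapp]
        exact W.sub_mem (hst g₀ hg₀ w hw) hw
      have hAw₀ : A w₀ ≠ 0 := by
        rw [hAapp]
        exact sub_ne_zero.mpr hw₀
      have hW'ne : W.map A ≠ ⊥ := by
        intro hbot
        have : A w₀ ∈ W.map A := Submodule.mem_map_of_mem hw₀W
        rw [hbot, Submodule.mem_bot] at this
        exact hAw₀ this
      have hst' : ∀ g ∈ H, ∀ w ∈ W.map A, ρ g w ∈ W.map A := by
        rintro g hg _ ⟨w, hw, rfl⟩
        have hanti := anticomm (h g₀ hg₀) (h g hg)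
          (by rw [← map_mul]; exact h _ (H.mul_mem hg₀ hg))
        -- `ρ g (A w) = A (w - (ρ g - 1) w)`
        refine ⟨w - (ρ g w - w), W.sub_mem hw (W.sub_mem (hst g hg w hw) hw), ?_⟩
        have e1 : (ρ g - 1) (A w) = - (A ((ρ g - 1) w)) := by
          have := congrArg (fun T : Module.End R Λ => T w) hanti
          simp only [LinearMap.add_apply, Module.End.mul_apply, LinearMap.zero_apply] at this
          rw [← hA] at this
          exact eq_neg_of_add_eq_zero_right this
        have e2 : ∀ u : Λ, ρ g u = u + (ρ g - 1) u := fun u => by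
          rw [LinearMap.sub_apply, Module.End.one_apply]; abel
        rw [e2 (A w), e1, map_sub, LinearMap.sub_apply, Module.End.one_apply]
        abel
      have hlt : Module.finrank R (W.map A) < Module.finrank R W := by
        by_contra hle
        have hdis := Submodule.disjoint_ker_of_finrank_le (L := W) A (not_lt.mp hle)
        have h1 : A w₀ ∈ W := hW'W (Submodule.mem_map_of_mem hw₀W)
        have h2 : A w₀ ∈ LinearMap.ker A := by
          rw [LinearMap.mem_ker]
          have := congrArg (fun T : Module.End R Λ => T w₀) hAA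
          simpa only [Module.End.mul_apply, LinearMap.zero_apply] using this
        exact hAw₀ ((Submodule.disjoint_def.mp hdis) _ h1 h2)
      obtain ⟨v, hv, hv0, hfix⟩ := ih (W.map A) hW'ne hst' (by omega)
      exact ⟨v, hW'W hv, hv0, hfix⟩

/-- **Kolchin-lite.**  A group acting on a nonzero f.g. torsion-free module over a noetherian
domain by unipotent operators of index two has a nonzero common fixed vector. -/
theorem exists_fixed_of_sq_zero [Nontrivial Λ] (ρ : G →* Module.End R Λ) (H : Subgroup G)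
    (h : ∀ g ∈ H, (ρ g - 1) * (ρ g - 1) = 0) :
    ∃ v : Λ, v ≠ 0 ∧ ∀ g ∈ H, ρ g v = v := by
  obtain ⟨v, -, hv0, hfix⟩ := exists_fixed_aux ρ H h (Module.finrank R (⊤ : Submodule R Λ)) ⊤
    top_ne_bot (fun _ _ _ _ => Submodule.mem_top) le_rfl
  exact ⟨v, hv0, hfix⟩

/-- Contrapositive form used by TOP-P: if no nonzero vector is fixed by `H`, some `g ∈ H` and some
`v` have `(ρ g - 1) ((ρ g - 1) v) ≠ 0`. -/
theorem exists_sq_ne_zero_of_no_fixed [Nontrivial Λ] (ρ : G →* Module.End R Λ) (H : Subgroup G)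
    (hno : ∀ v : Λ, (∀ g ∈ H, ρ g v = v) → v = 0) :
    ∃ g ∈ H, ∃ v : Λ, (ρ g - 1) ((ρ g - 1) v) ≠ 0 := by
  by_contra hcon
  have h : ∀ g ∈ H, (ρ g - 1) * (ρ g - 1) = 0 := by
    intro g hg
    ext v
    rw [Module.End.mul_apply, LinearMap.zero_apply]
    by_contra hne
    exact hcon ⟨g, hg, v, hne⟩
  obtain ⟨v, hv0, hfix⟩ := exists_fixed_of_sq_zero ρ H h
  exact hv0 (hno v hfix)

end Fixed

/-! ### Consumer shape: a free module of finite rank over a DVR (the eigen-lattice `Λ_χ`) -/

section DVR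

variable {𝒪 Λ G : Type*} [CommRing 𝒪] [IsDomain 𝒪] [IsDiscreteValuationRing 𝒪] [AddCommGroup Λ]
  [Module 𝒪 Λ] [Module.Free 𝒪 Λ] [Module.Finite 𝒪 Λ] [Nontrivial Λ] [Group G]

/-- Kolchin-lite for a free module of finite rank over a DVR. -/
theorem exists_fixed_of_sq_zero_dvr (ρ : G →* Module.End 𝒪 Λ) (H : Subgroup G)
    (h : ∀ g ∈ H, (ρ g - 1) * (ρ g - 1) = 0) :
    ∃ v : Λ, v ≠ 0 ∧ ∀ g ∈ H, ρ g v = v :=
  exists_fixed_of_sq_zero ρ H h

/-- TOP-P form: if `H` fixes no nonzero vector of the lattice, some `τ ∈ H` is not unipotent of index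
two on it. -/
theorem exists_sq_ne_zero_of_no_fixed_dvr (ρ : G →* Module.End 𝒪 Λ) (H : Subgroup G)
    (hno : ∀ v : Λ, (∀ g ∈ H, ρ g v = v) → v = 0) :
    ∃ τ ∈ H, ∃ v : Λ, (ρ τ - 1) ((ρ τ - 1) v) ≠ 0 :=
  exists_sq_ne_zero_of_no_fixed ρ H hno

end DVR

end Fermat.Agent.ES.P36.KolchinLite9
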