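/-
Scouting brick for S36 (Carayol at `q² ∥ M`), chapters HECKE-P / LVL-P (helper19): the LEVEL
base-change squares for the norms along the two degeneracy maps at a prime `ℓ ∣ N` (degree `ℓ`):
for `N ∣ M`, `ℓ ∣ N`,

* `norm_compat_beta_of_dvd`  : `N_{β_M} (π' f) = π (N_{β_N} f)`  (generator `j`, order `-1` at `∞`,
  `β(Fbar M) ⊂ ℚbar((𝐪^ℓ))`);
* `norm_compat_alpha_of_dvd` : `N_{α_M} (π' f) = π (N_{α_N} f)` when `M / N` is prime to `ℓ`
  (generator `j(𝐪^{N ℓ})`; at the cusp `0` of level `M ℓ` it becomes `j(𝐪^{M/N})`, of order `-M/N`,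
  while `Fbar M` lands in `ℚbar((𝐪^ℓ))`).

Twins of `LevelCompat19.norm_compat` / `NormCompatBeta17.norm_compat_beta` (`ℓ ∤ M`, degree `ℓ + 1`).
-/
import Mathlib
import Fermat.Agent.ES.P36.HeckeDeg19
import Fermat.Agent.ES.HECKE.LevelCompat19
import Fermat.Agent.ES.HECKE.NormCompat12
import Fermat.Agent.RED.LVL.FrickeExp19
import Fermat.Agent.IG.PR.RamDeg25
import Fermat.Agent.X0.RootsK

set_option autoImplicit false
set_option linter.style.haveILetI false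
set_option linter.unusedSectionVars false

open AlgebraicCurve ModularCurve IntermediateField

noncomputable section

namespace Fermat.Agent.ES.P36.LevelSqDeg19

open Fermat.Agent.X0 Fermat.Agent.ES.HECKE Fermat.Agent.RED.LVL Fermat.Agent.RED.TOP
open Fermat.Agent.ES.HECKE.InputsMain19 (Qb)
open Fermat.Agent.ES.HECKE.LevelCompat19 (levelIncl coe_levelIncl alpha_square beta_square)
open Fermat.Agent.ES.P36.HeckeDeg19

/-- a primitive-element criterion: minimal polynomial of degree at least the (finite) degree. -/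
theorem adjoin_eq_top_of_le_natDegree {F E : Type*} [Field F] [Field E] [Algebra F E]
    [FiniteDimensional F E] (x : E) (h : Module.finrank F E ≤ (minpoly F x).natDegree) :
    IntermediateField.adjoin F {x} = ⊤ := by
  rw [Field.primitive_element_iff_minpoly_natDegree_eq]
  exact le_antisymm (minpoly.natDegree_le x) h

variable (M ℓ : ℕ) [NeZero M] [NeZero ℓ]

/-! ### the `β`-square -/

/-- the degree of `j` over `β(Fbar M) = V_ℓ(Fbar M)` is at least `ℓ` (any `ℓ`). -/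
theorem le_natDegree_minpoly_j_beta (hint : letI := algebraAlong (heckeBetaBar Qb M ℓ)
      IsIntegral (FF M) (jF (M * ℓ))) :
    letI := algebraAlong (heckeBetaBar Qb M ℓ)
    ℓ ≤ (minpoly (FF M) (jF (M * ℓ))).natDegree := by
  letI := algebraAlong (heckeBetaBar Qb M ℓ)
  let T : FF (M * ℓ) →+* LaurentSeries Kbar := (modularFunctionFieldBar (M * ℓ)).val.toRingHom
  have hTinj : Function.Injective T := Subtype.val_injective
  letI : Algebra (FF M) (LaurentSeries Kbar) :=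
    (T.comp (algebraMap (FF M) (FF (M * ℓ)))).toAlgebra
  let T' : FF (M * ℓ) →ₐ[FF M] LaurentSeries Kbar := { T with commutes' := fun _ => rfl }
  have hTx : T' (jF (M * ℓ)) = jqK := Fermat.Agent.X0.coe_jF (M * ℓ)
  have hmin : minpoly (FF M) (T' (jF (M * ℓ))) = minpoly (FF M) (jF (M * ℓ)) :=
    minpoly.algHom_eq T' hTinj _
  have hord : (jqK).order = -1 := by
    have h := order_qExpand_jqK 1
    rwa [ModularCurve.qExpand_one_apply] at h
  have hy0 : T' (jF (M * ℓ)) ≠ 0 := by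
    rw [hTx]
    intro h0
    rw [h0, HahnSeries.order_zero] at hord
    omega
  have hcop : IsCoprime (T' (jF (M * ℓ))).order (ℓ : ℤ) := by
    rw [hTx, hord]
    exact (isCoprime_one_left).neg_left
  have hF : ∀ a : FF M, algebraMap (FF M) (LaurentSeries Kbar) a ∈
      Set.range (qExpand Kbar ℓ) := fun a => ⟨(a : LaurentSeries Kbar), (coe_heckeBetaBar M ℓ a).symm⟩
  have hge := Fermat.Agent.IG.PR.RamDeg25.le_natDegree_minpoly (F := FF M) (p := ℓ) hy0 hcop hF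
    ((isIntegral_algHom_iff T' hTinj).mpr hint)
  rw [hmin] at hge
  exact hge

/-- `Fbar (M ℓ) = β(Fbar M)(j)` for a prime `ℓ ∣ M`. -/
theorem adjoin_jF_beta_eq_top_of_dvd (hℓ : ℓ.Prime) (hℓM : ℓ ∣ M) :
    letI := algebraAlong (heckeBetaBar Qb M ℓ)
    IntermediateField.adjoin (FF M) {jF (M * ℓ)} = ⊤ := by
  letI := algebraAlong (heckeBetaBar Qb M ℓ)
  haveI : FiniteDimensional (FF M) (FF (M * ℓ)) := finiteAlong_beta_of_dvd Qb M ℓ hℓ hℓM
  have hfr : Module.finrank (FF M) (FF (M * ℓ)) = ℓ := finrankAlong_beta_of_dvd Qb M ℓ hℓ hℓM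
  refine adjoin_eq_top_of_le_natDegree _ ?_
  rw [hfr]
  exact le_natDegree_minpoly_j_beta M ℓ (Algebra.IsIntegral.isIntegral _)

section Level

variable (N : ℕ) [NeZero N]

theorem levelIncl_jF (hNM : N ∣ M) :
    levelIncl (N * ℓ) (M * ℓ) (Nat.mul_dvd_mul_right hNM ℓ) (jF (N * ℓ)) = jF (M * ℓ) := by
  apply Subtype.ext
  rw [coe_levelIncl, Fermat.Agent.X0.coe_jF, Fermat.Agent.X0.coe_jF]

/-- **Norm compatibility** for the `β`-square at a prime `ℓ ∣ N ∣ M`. -/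
theorem norm_compat_beta_of_dvd (hNM : N ∣ M) (hℓ : ℓ.Prime) (hℓN : ℓ ∣ N) (f : FF (N * ℓ)) :
    BaseChange19.normAlong (heckeBetaBar Qb M ℓ)
        (levelIncl (N * ℓ) (M * ℓ) (Nat.mul_dvd_mul_right hNM ℓ) f) =
      levelIncl N M hNM (BaseChange19.normAlong (heckeBetaBar Qb N ℓ) f) := by
  have hℓM : ℓ ∣ M := hℓN.trans hNM
  refine NormCompat12.normAlong_compat_of_adjoin (heckeBetaBar Qb N ℓ) (levelIncl N M hNM)
    (heckeBetaBar Qb M ℓ) (levelIncl (N * ℓ) (M * ℓ) (Nat.mul_dvd_mul_right hNM ℓ))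
    (beta_square N M ℓ hNM) (finiteAlong_beta_of_dvd Qb N ℓ hℓ hℓN)
    (finiteAlong_beta_of_dvd Qb M ℓ hℓ hℓM)
    (by rw [finrankAlong_beta_of_dvd Qb N ℓ hℓ hℓN, finrankAlong_beta_of_dvd Qb M ℓ hℓ hℓM])
    (jF (N * ℓ)) ?_ f
  rw [levelIncl_jF M ℓ N hNM]
  exact adjoin_jF_beta_eq_top_of_dvd M ℓ hℓ hℓM

end Level

/-! ### the `α`-square -/

section Alpha

open Fermat.Agent.RED.BASE.Interface12 Fermat.Agent.RED.LVL.FrickeExp19

/-- the degree of `j(𝐪^d)`, `M ℓ = d k` with `k` prime to `ℓ`, over `Fbar M` is at least `ℓ`. -/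
theorem le_natDegree_minpoly_jd_alpha (d k : ℕ) [NeZero d] [NeZero k]
    (hM : M * ℓ = d * k) (hk : Nat.Coprime k ℓ)
    (hint : letI := algebraAlong (heckeAlphaBar Qb M ℓ)
      IsIntegral (FF M) (jdF (M * ℓ) d ⟨k, hM⟩)) :
    letI := algebraAlong (heckeAlphaBar Qb M ℓ)
    ℓ ≤ (minpoly (FF M) (jdF (M * ℓ) d ⟨k, hM⟩)).natDegree := by
  letI := algebraAlong (heckeAlphaBar Qb M ℓ)
  set x : FF (M * ℓ) := jdF (M * ℓ) d ⟨k, hM⟩ with hx
  set τ : FF (M * ℓ) →+* LaurentSeries Kbar := (cuspData (M * ℓ)).T ModularGroup.S with hτ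
  letI : Algebra (FF M) (LaurentSeries Kbar) :=
    (τ.comp (algebraMap (FF M) (FF (M * ℓ)))).toAlgebra
  let φ : FF (M * ℓ) →ₐ[FF M] LaurentSeries Kbar := { τ with commutes' := fun _ => rfl }
  have hφ : Function.Injective φ := τ.injective
  have hmin : minpoly (FF M) (φ x) = minpoly (FF M) x := minpoly.algHom_eq φ hφ x
  rw [← hmin]
  have hval : φ x = qExpand Kbar k jqK := T_S_jdF (M * ℓ) d k hM
  have hord : (φ x).order = -(k : ℤ) := by rw [hval]; exact order_qExpand_jqK k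
  have hy0 : φ x ≠ 0 := by
    intro h0
    rw [h0, HahnSeries.order_zero] at hord
    have : (k : ℤ) = 0 := by omega
    exact NeZero.ne k (by exact_mod_cast this)
  have hcop : IsCoprime (φ x).order (ℓ : ℤ) := by
    rw [hord]
    exact (Nat.isCoprime_iff_coprime.mpr hk).neg_left
  have hF : ∀ a : FF M, algebraMap (FF M) (LaurentSeries Kbar) a ∈ Set.range (qExpand Kbar ℓ) :=
    fun a => T_S_mem_range M (M * ℓ) ℓ rfl a
  have hint' : IsIntegral (FF M) (φ x) := (isIntegral_algHom_iff φ hφ).mpr hint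
  exact Fermat.Agent.IG.PR.RamDeg25.le_natDegree_minpoly hy0 hcop hF hint'

/-- `Fbar (M ℓ) = Fbar M (j(𝐪^d))` for a prime `ℓ ∣ M`, `M ℓ = d k`, `k` prime to `ℓ`. -/
theorem adjoin_jd_alpha_eq_top_of_dvd (hℓ : ℓ.Prime) (hℓM : ℓ ∣ M) (d k : ℕ) [NeZero d] [NeZero k]
    (hM : M * ℓ = d * k) (hk : Nat.Coprime k ℓ) :
    letI := algebraAlong (heckeAlphaBar Qb M ℓ)
    IntermediateField.adjoin (FF M) {jdF (M * ℓ) d ⟨k, hM⟩} = ⊤ := by
  letI := algebraAlong (heckeAlphaBar Qb M ℓ)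
  haveI : FiniteDimensional (FF M) (FF (M * ℓ)) := finiteAlong_alpha_of_dvd Qb M ℓ hℓ hℓM
  have hfr : Module.finrank (FF M) (FF (M * ℓ)) = ℓ := finrankAlong_alpha_of_dvd Qb M ℓ hℓ hℓM
  refine adjoin_eq_top_of_le_natDegree _ ?_
  rw [hfr]
  exact le_natDegree_minpoly_jd_alpha M ℓ d k hM hk (Algebra.IsIntegral.isIntegral _)

variable (N : ℕ) [NeZero N]

theorem levelIncl_jdF (hNM : N ∣ M) (d : ℕ) [NeZero d] (hd : d ∣ N * ℓ) :
    levelIncl (N * ℓ) (M * ℓ) (Nat.mul_dvd_mul_right hNM ℓ) (jdF (N * ℓ) d hd) =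
      jdF (M * ℓ) d (hd.trans (Nat.mul_dvd_mul_right hNM ℓ)) := by
  apply Subtype.ext
  rw [coe_levelIncl, FracR.coe_jdF, FracR.coe_jdF]

/-- **Norm compatibility** for the `α`-square at a prime `ℓ ∣ N ∣ M`, `M / N` prime to `ℓ`. -/
theorem norm_compat_alpha_of_dvd (k : ℕ) [NeZero k] (hM : M = N * k) (hk : Nat.Coprime k ℓ)
    (hℓ : ℓ.Prime) (hℓN : ℓ ∣ N) (f : FF (N * ℓ)) :
    BaseChange19.normAlong (heckeAlphaBar Qb M ℓ)
        (levelIncl (N * ℓ) (M * ℓ) (Nat.mul_dvd_mul_right ⟨k, hM⟩ ℓ) f) =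
      levelIncl N M ⟨k, hM⟩ (BaseChange19.normAlong (heckeAlphaBar Qb N ℓ) f) := by
  have hNM : N ∣ M := ⟨k, hM⟩
  have hℓM : ℓ ∣ M := hℓN.trans hNM
  have hMk : M * ℓ = N * ℓ * k := by rw [hM]; ring
  refine NormCompat12.normAlong_compat_of_adjoin (heckeAlphaBar Qb N ℓ) (levelIncl N M hNM)
    (heckeAlphaBar Qb M ℓ) (levelIncl (N * ℓ) (M * ℓ) (Nat.mul_dvd_mul_right hNM ℓ))
    (alpha_square N M ℓ hNM) (finiteAlong_alpha_of_dvd Qb N ℓ hℓ hℓN)
    (finiteAlong_alpha_of_dvd Qb M ℓ hℓ hℓM)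
    (by rw [finrankAlong_alpha_of_dvd Qb N ℓ hℓ hℓN, finrankAlong_alpha_of_dvd Qb M ℓ hℓ hℓM])
    (jdF (N * ℓ) (N * ℓ) dvd_rfl) ?_ f
  rw [levelIncl_jdF M ℓ N hNM (N * ℓ) dvd_rfl]
  exact adjoin_jd_alpha_eq_top_of_dvd M ℓ hℓ hℓM (N * ℓ) k hMk hk

end Alpha

end Fermat.Agent.ES.P36.LevelSqDeg19
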