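/-
Scouting brick for S36 (Carayol at `q² ∥ M`), chapter LVL-P (helper17; SPARE unless S36 is GO): **the level
step for `IfaceP17.FixBar`** (twin of `ES/N35/LvlO17`).

* `fixBar_of_rootDescent` : `FixBar c q M₀ A → FixBar c q N₀ A` for `M₀ = N₀ k`, `k` prime to `q`, from root
  descent `Fbar (M₀ q²) → Fbar (N₀ q²)`.  Going up: orders (`PlaceRestrict2`), inertia-fixedness in Kummer
  form (`LvlN17.gB_inclusion`), newness (helper19's level squares `LevelSqDeg19.norm_compat_alpha_of_dvd /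
  norm_compat_beta_of_dvd` at the pair `(N₀ q, q)`, degree `q`).  Going down: `(ι f)^c = κ S'^m` and the
  `m`-th root `S'` of `ι (κ⁻¹ f^c)` descends.
* `auxLevel_mul_sq` : `auxLevel q (N₀ q q) = auxLevel q N₀ · q · q`.
* `lvlStepP` : **`FixBar c q (auxLevel q N₀) A → FixBar c q N₀ A`**.
* `fixBar_of_fixBarAll` : `FixBarAll c → ∀ q N₀ A, q prime, q ∤ N₀, A over q → FixBar (c q) q N₀ A`.
-/
import Mathlib
import Fermat.Agent.ES.N34.LvlN17
import Fermat.Agent.ES.N35.LvlO17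
import Fermat.Agent.ES.P36.LevelSqDeg19
import Fermat.Agent.ES.P36.IfaceP17
import Fermat.Agent.X0.FFDict

set_option autoImplicit false

open ModularCurve IntermediateField AlgebraicCurve HahnSeries

noncomputable section

namespace Fermat.Agent.ES.P36.LvlP17

open Fermat.Agent.RED.Interface4 Fermat.Agent.RED.BASE.Interface12 Fermat.Agent.RED.LVL
open Fermat.Agent.ES.N34.IfaceN4 Fermat.Agent.ES.N34.LvlN17
open Fermat.Agent.ES.HECKE.LevelCompat19
open Fermat.Agent.ES.HECKE.BaseChange19 (normAlong)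
open Fermat.Agent.ES.P36.IfaceP17 Fermat.Agent.ES.P36.LevelSqDeg19

/-- **LVL-P, general form.** -/
theorem fixBar_of_rootDescent {c q N₀ M₀ : ℕ} [NeZero N₀] [NeZero M₀] [NeZero q]
    (A : ValuationSubring Qbar) (k : ℕ) [NeZero k] (hM : M₀ = N₀ * k) (hk : Nat.Coprime k q)
    (hq : q.Prime)
    (hrd : LevelStepAbs2.RootDescent (N₀ * q * q) (M₀ * q * q)
      (fbar_mono (Nat.mul_dvd_mul_right (Nat.mul_dvd_mul_right ⟨k, hM⟩ q) q))) :
    FixBar c q M₀ A → FixBar c q N₀ A := by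
  intro hU m hm f hf hdiv hfix hα hβ
  have hm0 : 0 < m := Nat.pos_of_ne_zero (fun h => hm (h ▸ dvd_zero q))
  have hNM : N₀ ∣ M₀ := ⟨k, hM⟩
  have hd1 : N₀ * q ∣ M₀ * q := Nat.mul_dvd_mul_right hNM q
  have hd : N₀ * q * q ∣ M₀ * q * q := Nat.mul_dvd_mul_right hd1 q
  have hM1 : M₀ * q = N₀ * q * k := by rw [hM]; ring
  have hqN : q ∣ N₀ * q := Dvd.intro_left N₀ rfl
  have hle : Fbar (N₀ * q * q) ≤ Fbar (M₀ * q * q) := fbar_mono hd
  have halg : ∀ x : Fbar (M₀ * q * q), IsAlgebraic (Fbar (N₀ * q * q)) (x : LaurentSeries Qbar) :=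
    LevelDegree17.isAlgebraic_of_mem hd
  set ι := IntermediateField.inclusion hle with hι
  have hιinj : Function.Injective ι := (IntermediateField.inclusion hle).injective
  have hιalg : ∀ κ : Qbar, ι (algebraMap Qbar (Fbar (N₀ * q * q)) κ) =
      algebraMap Qbar (Fbar (M₀ * q * q)) κ := fun κ => (IntermediateField.inclusion hle).commutes κ
  have hf' : ι f ≠ 0 := (map_ne_zero_iff _ hιinj).mpr hf
  -- divisibility of the orders at the upper level
  have hdivM : ∀ v : Place Qbar (Fbar (M₀ * q * q)), (m : ℤ) ∣ v.ord (ι f) := by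
    intro v
    obtain ⟨w, e, -, hord, -⟩ := PlaceRestrict2.exists_restrict_le hle halg v
    rw [hord f]
    exact Dvd.dvd.mul_left (hdiv w) _
  -- inertia-fixedness at the upper level
  have hfixM : ∀ τ ∈ A.inertiaSubgroupIn ℚ, ∃ (κ : Qbar) (h : Fbar (M₀ * q * q)), κ ≠ 0 ∧ h ≠ 0 ∧
      gB (M₀ * q * q) τ (ι f) = κ • (ι f * h ^ m) := by
    intro τ hτ
    obtain ⟨κ, h, hκ, hh, e⟩ := hfix τ hτ
    refine ⟨κ, ι h, hκ, (map_ne_zero_iff _ hιinj).mpr hh, ?_⟩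
    rw [hι, gB_inclusion hle τ f, e, Algebra.smul_def, Algebra.smul_def, map_mul, map_mul, map_pow]
    rw [← hι, hιalg]
  -- newness at the upper level
  have hαM : ∃ (κ : Qbar) (g : Fbar (M₀ * q)), κ ≠ 0 ∧ g ≠ 0 ∧
      normAlong (heckeAlphaBar Qbar (M₀ * q) q) (ι f) = κ • g ^ m := by
    obtain ⟨κ, g, hκ, hg, hN⟩ := hα
    refine ⟨κ, levelIncl (N₀ * q) (M₀ * q) hd1 g, hκ,
      (map_ne_zero_iff _ (levelIncl (N₀ * q) (M₀ * q) hd1).injective).mpr hg, ?_⟩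
    have h := norm_compat_alpha_of_dvd (M₀ * q) q (N₀ * q) k hM1 hk hq hqN f
    rw [hN, Algebra.smul_def, map_mul, AlgHom.commutes, map_pow, ← Algebra.smul_def] at h
    exact h
  have hβM : ∃ (κ : Qbar) (g : Fbar (M₀ * q)), κ ≠ 0 ∧ g ≠ 0 ∧
      normAlong (heckeBetaBar Qbar (M₀ * q) q) (ι f) = κ • g ^ m := by
    obtain ⟨κ, g, hκ, hg, hN⟩ := hβ
    refine ⟨κ, levelIncl (N₀ * q) (M₀ * q) hd1 g, hκ,
      (map_ne_zero_iff _ (levelIncl (N₀ * q) (M₀ * q) hd1).injective).mpr hg, ?_⟩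
    have h := norm_compat_beta_of_dvd (M₀ * q) q (N₀ * q) hd1 hq hqN f
    rw [hN, Algebra.smul_def, map_mul, AlgHom.commutes, map_pow, ← Algebra.smul_def] at h
    exact h
  obtain ⟨κ, S', hκ, hS'0, hS'⟩ := hU m hm (ι f) hf' hdivM hfixM hαM hβM
  -- descend the root
  have hκ' : algebraMap Qbar (Fbar (N₀ * q * q)) κ ≠ 0 := (map_ne_zero _).mpr hκ
  have hκM : algebraMap Qbar (Fbar (M₀ * q * q)) κ ≠ 0 := (map_ne_zero _).mpr hκ
  set h : Fbar (N₀ * q * q) := (algebraMap Qbar (Fbar (N₀ * q * q)) κ)⁻¹ * f ^ c with hh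
  have hsm : S' ^ m = ι h := by
    rw [hh, map_mul, map_inv₀, hιalg, map_pow, hS', Algebra.smul_def, ← mul_assoc,
      inv_mul_cancel₀ hκM, one_mul]
  have hordh : ∀ w : Place Qbar (Fbar (N₀ * q * q)), (m : ℤ) ∣ w.ord h := by
    intro w
    rw [hh, w.ord_mul (inv_ne_zero hκ') (pow_ne_zero c hf), w.ord_inv,
      Fermat.Agent.X0.FF.ord_algebraMap, Fermat.Agent.X0.FF.ord_pow, neg_zero, zero_add]
    exact Dvd.dvd.mul_left (hdiv w) _
  obtain ⟨S, hS⟩ := hrd m hm0 h S' hsm hordh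
  refine ⟨κ, S, hκ, ?_, ?_⟩
  · intro h0
    apply hS'0
    rw [← hS, h0, map_zero]
  · apply hιinj
    rw [map_pow, Algebra.smul_def, map_mul, map_pow, hιalg]
    show ι f ^ c = _ * ι S ^ m
    rw [hS, hS', Algebra.smul_def]

/-! ### the auxiliary level -/

/-- `auxLevel q (N₀ q q) = auxLevel q N₀ · q · q`. -/
theorem auxLevel_mul_sq {q : ℕ} (hq : q.Prime) (N₀ : ℕ) :
    auxLevel q (N₀ * q * q) = auxLevel q N₀ * q * q := by
  rw [Fermat.Agent.ES.N35.LvlO17.auxLevel_mul hq (N₀ * q), Fermat.Agent.ES.N35.LvlO17.auxLevel_mul hq N₀]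

/-- **LVL-P**: `FixBar c q (auxLevel q N₀) A → FixBar c q N₀ A`. -/
theorem lvlStepP (c q N₀ : ℕ) [NeZero N₀] [NeZero q] (hq : q.Prime) (hqN : ¬ q ∣ N₀)
    (A : ValuationSubring Qbar) :
    haveI := LevelDegree17.neZero_auxLevel q N₀
    FixBar c q (auxLevel q N₀) A → FixBar c q N₀ A := by
  have := LevelDegree17.neZero_auxLevel q N₀
  have hNM : N₀ ∣ auxLevel q N₀ := dvd_auxLevel q N₀
  have hqM' : ¬ q ∣ auxLevel q N₀ := not_dvd_auxLevel hq hqN
  have : NeZero (N₀ * q * q) :=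
    ⟨Nat.mul_ne_zero (Nat.mul_ne_zero (NeZero.ne N₀) (NeZero.ne q)) (NeZero.ne q)⟩
  have : NeZero (auxLevel q N₀ * q * q) :=
    ⟨Nat.mul_ne_zero (Nat.mul_ne_zero (NeZero.ne _) (NeZero.ne q)) (NeZero.ne q)⟩
  obtain ⟨e, he⟩ := hNM
  have : NeZero e := ⟨fun h0 => NeZero.ne (auxLevel q N₀) (by rw [he, h0, mul_zero])⟩
  have hek : Nat.Coprime e q := by
    rw [Nat.coprime_comm, Nat.Prime.coprime_iff_not_dvd hq]
    intro hqe
    exact hqM' (he ▸ Dvd.dvd.mul_left hqe N₀)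
  have hM : auxLevel q N₀ * q * q = N₀ * q * q * e := by rw [he]; ring
  have hdeg : relfinrank (Fbar (N₀ * q * q)) (Fbar (auxLevel q N₀ * q * q)) < 2 * e := by
    have := LevelDegree17.neZero_auxLevel q (N₀ * q * q)
    have h := LevelDegree17.relfinrank_auxLevel_lt q (N₀ * q * q)
    have hdiv : auxLevel q (N₀ * q * q) / (N₀ * q * q) = e := by
      rw [auxLevel_mul_sq hq, hM]
      exact Nat.mul_div_cancel_left e (Nat.pos_of_ne_zero (NeZero.ne (N₀ * q * q)))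
    rw [hdiv, auxLevel_mul_sq hq] at h
    exact h
  exact fixBar_of_rootDescent A e he hek hq
    (LevelStepMain19.rootDescent (N₀ * q * q) (auxLevel q N₀ * q * q) e hM hdeg)

/-- **The input of TOP-P**: (K_c) over `ℚ̄` at every level `N₀ q²`, `q ∤ N₀`, from (K_c) at the auxiliary
levels. -/
theorem fixBar_of_fixBarAll {c : ℕ → ℕ} (h : FixBarAll c) :
    ∀ (q N₀ : ℕ) [NeZero N₀] [NeZero q] (A : ValuationSubring Qbar), q.Prime → ¬ q ∣ N₀ →
      A.LiesOverPrime q → FixBar (c q) q N₀ A := by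
  intro q N₀ _ _ A hq hqN hA
  have := LevelDegree17.neZero_auxLevel q N₀
  exact lvlStepP (c q) q N₀ hq hqN A
    (h q (auxLevel q N₀) A hq (not_dvd_auxLevel hq hqN)
      (Fermat.Agent.ES.N35.LvlO17.auxLevel_base q N₀) hA)

end Fermat.Agent.ES.P36.LvlP17

end
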