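/-
Program P (S36), TOP-P (integration), helper12: **the frozen S36 conclusion from (K_c) at the auxiliary
levels in Kummer form** (`IfaceP17.FixBarAll c`, the output of NUM-P + DESC-P).

Chain:  `FixBarAll c` ⇒ (`LvlP17.fixBar_of_fixBarAll`) `FixBar (c q) q N₀ A` at all levels `N₀ q²`
⇒ (`FixBridge12.fixTors_of_fixBar`) `FixTors` ⇒ (`S36Top12.s36_of_fixTors` with
`KolchinLite9.exists_fixed_of_sq_zero_dvr`, `FixBridge12.heckePStmt`, `SepPoly2.exists_sep`) S36.
-/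
import Mathlib
import Fermat.Agent.ES.P36.FixBridge12
import Fermat.Agent.ES.P36.KolchinLite9
import Fermat.Agent.ES.P36.LvlP17
import Fermat.Agent.ES.N35.SepPoly2

set_option autoImplicit false
set_option synthInstance.maxHeartbeats 400000

noncomputable section

open Polynomial

namespace Fermat.Agent.ES.P36.S36Chain12

open Fermat.Agent.ES.P36.S36Top12 Fermat.Agent.ES.P36.EigenInertOf12
  Fermat.Agent.ES.P36.FixBridge12 Fermat.Agent.ES.P36.IfaceP17

/-- Kolchin-lite in the consumer shape. -/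
theorem kolchinStmt : KolchinStmt :=
  fun ρ H h => Fermat.Agent.ES.P36.KolchinLite9.exists_fixed_of_sq_zero_dvr ρ H h

/-- **The frozen S36 conclusion from `FixBarAll c`, `c q ≠ 0`.** -/
theorem s36_of_fixBarAll {c : ℕ → ℕ} (hc : ∀ q, c q ≠ 0) (hF : FixBarAll c)
    {M : ℕ} [NeZero M] {g : CuspForm (CongruenceSubgroup.Gamma0 M) 2} (hg : g.IsNewform)
    (lam : ℕ) [Fact lam.Prime]
    (S : Finset ℕ)
    (O' : Type) [CommRing O'] [IsDomain O'] [IsDiscreteValuationRing O']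
    [IsAdicComplete (IsLocalRing.maximalIdeal O') O'] [Finite (IsLocalRing.ResidueField O')]
    [CharZero O'] (hlamO' : (lam : O') ∈ IsLocalRing.maximalIdeal O')
    (chig : CuspForm.heckeAlgebra M 2 (↑S : Set ℕ) →+* ℂ)
    (hchig : ∀ (ℓ : ℕ) (hℓ : ℓ.Prime) (hℓM : ¬ ℓ ∣ M) (hℓS : ℓ ∉ (↑S : Set ℕ)),
      chig (CuspForm.heckeAlgebra.T hℓ hℓM hℓS) = ModularFormClass.qCoeff g ℓ)
    (iota : chig.range →+* O')
    (hlamS : lam ∈ S) (hMS : ∀ q : ℕ, q.Prime → q ∣ M → q ∈ S)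
    :
    ∃ (O'' : Type) (_ : CommRing O'') (_ : IsDomain O'') (_ : IsDiscreteValuationRing O'')
      (_ : IsAdicComplete (IsLocalRing.maximalIdeal O'') O'') (_ : Finite (IsLocalRing.ResidueField O''))
      (_ : CharZero O'') (_ : Algebra O' O'') (_ : Module.Finite O' O'') (_ : IsLocalHom (algebraMap O' O'')),
      Function.Injective (algebraMap O' O'') ∧
      ∃ ρ : GaloisRepAdic O'',
        (∀ (ℓ : ℕ) (hℓ : ℓ.Prime) (hℓM : ¬ ℓ ∣ M) (hℓS : ℓ ∉ (↑S : Set ℕ)),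
          ∀ A : ValuationSubring (AlgebraicClosure ℚ), A.LiesOverPrime ℓ →
            ∀ σ : AlgebraicClosure ℚ ≃ₐ[ℚ] AlgebraicClosure ℚ, A.IsFrobeniusAt σ ℓ →
              LinearMap.charpoly (ρ.ρ σ) =
                X ^ 2 - C (algebraMap O' O'' ((iota.comp chig.rangeRestrict) (CuspForm.heckeAlgebra.T hℓ hℓM hℓS))) * X
                  + C ((ℓ : O''))) ∧
        (∀ q : ℕ, q.Prime → q ≠ lam → M.factorization q = 2 → ¬ ρ.IsUnipotentOnInertiaAt q) :=
  s36_of_fixTors kolchinStmt heckePStmt (c := fun q _ => c q) (fun q _ => hc q)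
    (fixTors_of_fixBar (Fermat.Agent.ES.P36.LvlP17.fixBar_of_fixBarAll hF))
    (@fun _ _ _ _ hdvd hne _ hg S hMS => Fermat.Agent.ES.N35.SepPoly2.exists_sep hdvd hne hg S hMS)
    hg lam S O' hlamO' chig hchig iota hlamS hMS

end Fermat.Agent.ES.P36.S36Chain12
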