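/-
Program P (S36), assembly brick A1b (helper12): **the frozen S36 conclusion from the open supplier packages.**

    S36  ⇐  `IfaceP17.FixBarAll c`                                   (`S36Chain12.s36_of_fixBarAll`, on main)
         ⇐  DESC-P (`DescAsmP12.InertDescStmt`, `DescAsmP12.NewOverKStmt`)  +  `IfaceNumP12.NumStepP c`
         ⇐  … + the four per-`K` packages `NumAsmP12.ItemsP` over the ready fields.

`cP c₀ q := c₀ q * (q² − 1) * q²` for prime `q` (and `1` otherwise, so that it never vanishes).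
-/
import Mathlib
import Fermat.Agent.ES.P36.S36Chain12
import Fermat.Agent.ES.P36.DescAsmP12
import Fermat.Agent.ES.P36.NumAsmP12
import Fermat.Agent.ES.P36.DescInert1
import Fermat.Agent.ES.P36.NewOverK17

set_option autoImplicit false
set_option synthInstance.maxHeartbeats 400000

open HahnSeries AlgebraicCurve ModularCurve

noncomputable section

namespace Fermat.Agent.ES.P36.S36AsmP12

open Fermat.Agent.RED.Interface4 Fermat.Agent.ES.P36.IfaceP17 Fermat.Agent.ES.P36.IfaceNumP12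
  Fermat.Agent.ES.P36.DescAsmP12 Fermat.Agent.ES.P36.NumAsmP12

/-- the constant of (K_c). -/
def cP (c₀ : ℕ → ℕ) (q : ℕ) : ℕ := if q.Prime then c₀ q * (q ^ 2 - 1) * q ^ 2 else 1

theorem cP_ne_zero {c₀ : ℕ → ℕ} (hc₀ : ∀ q : ℕ, q.Prime → c₀ q ≠ 0) (q : ℕ) : cP c₀ q ≠ 0 := by
  unfold cP
  split_ifs with hq
  · have h2 : 2 ≤ q := hq.two_le
    have h4 : 4 ≤ q ^ 2 := by nlinarith
    refine mul_ne_zero (mul_ne_zero (hc₀ q hq) ?_) (pow_ne_zero 2 hq.ne_zero)
    omega
  · exact one_ne_zero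

theorem cP_prime (c₀ : ℕ → ℕ) {q : ℕ} (hq : q.Prime) : cP c₀ q = c₀ q * (q ^ 2 - 1) * q ^ 2 :=
  if_pos hq

/-- **(K_c) at all auxiliary levels from DESC-P and the four NUM-P packages.** -/
theorem fixBarAll_of_parts {c₀ : ℕ → ℕ}
    (hb : ∀ (q M' : ℕ) [NeZero M'] [NeZero q] (A : ValuationSubring Qbar), q.Prime → ¬ q ∣ M' →
      (if q = 2 then 9 ∣ M' else 4 ∣ M') → A.LiesOverPrime q → InertDescStmt (M' * q * q) A)
    (hcK : ∀ (q M' : ℕ) [NeZero M'] [NeZero q], q.Prime → ¬ q ∣ M' → NewOverKStmt q M')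
    (hodd : ∀ (q M' : ℕ) [NeZero M'] [NeZero q] (A : ValuationSubring Qbar), q.Prime → ¬ q ∣ M' →
      q ≠ 2 → 4 ∣ M' → A.LiesOverPrime q → ∀ K : IntermediateField ℚ Qbar, FiniteDimensional ℚ K →
      ReadyP q M' A K → ItemsP 4 8 q M' A K (c₀ q))
    (htwo : ∀ (M' : ℕ) [NeZero M'] (A : ValuationSubring Qbar), ¬ 2 ∣ M' → 9 ∣ M' →
      A.LiesOverPrime 2 → ∀ K : IntermediateField ℚ Qbar, FiniteDimensional ℚ K →
      ReadyP 2 M' A K → ItemsP 9 3 2 M' A K (c₀ 2)) : FixBarAll (cP c₀) :=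
  fixBarAll_of_fixNum
    (fun q M' _ _ A hq hqM hc hA =>
      descInertStmt_of_parts hq (hb q M' A hq hqM hc hA) (hcK q M' hq hqM))
    (numStepP_of_items (fun _ hq => cP_prime c₀ hq) hodd htwo)

/-- **DESC-P is closed**: `DescInert1.exists_inert_descent` (helper1) and `NewOverK17.newOverK` (helper17). -/
theorem descInertStmt (q M' : ℕ) [NeZero M'] [NeZero q] (A : ValuationSubring Qbar) (hq : q.Prime) :
    DescInertStmt q M' A :=
  descInertStmt_of_parts hq
    (fun m _ f hf hτ => Fermat.Agent.ES.P36.DescInert1.exists_inert_descent (M' * q * q) A m f hf hτ)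
    (Fermat.Agent.ES.P36.NewOverK17.newOverK q M' hq)

/-- **(K_c) at all auxiliary levels from the four NUM-P packages over the ready fields** (DESC-P closed). -/
theorem fixBarAll_of_items {c₀ : ℕ → ℕ}
    (hodd : ∀ (q M' : ℕ) [NeZero M'] [NeZero q] (A : ValuationSubring Qbar), q.Prime → ¬ q ∣ M' →
      q ≠ 2 → 4 ∣ M' → A.LiesOverPrime q → ∀ K : IntermediateField ℚ Qbar, FiniteDimensional ℚ K →
      ReadyP q M' A K → ItemsP 4 8 q M' A K (c₀ q))
    (htwo : ∀ (M' : ℕ) [NeZero M'] (A : ValuationSubring Qbar), ¬ 2 ∣ M' → 9 ∣ M' →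
      A.LiesOverPrime 2 → ∀ K : IntermediateField ℚ Qbar, FiniteDimensional ℚ K →
      ReadyP 2 M' A K → ItemsP 9 3 2 M' A K (c₀ 2)) : FixBarAll (cP c₀) :=
  fixBarAll_of_fixNum (fun q M' _ _ A hq _ _ _ => descInertStmt q M' A hq)
    (numStepP_of_items (fun _ hq => cP_prime c₀ hq) hodd htwo)

end Fermat.Agent.ES.P36.S36AsmP12
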