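/-
Program P (S36), chapters (G)/(N3) of NUM-P, brick G4-T (helper11): **the table (G2) for every middle valuation ring, at
`K`** — the per-`K` input package `BranchModel15.TableItemsP q M' A K` of S5b (helper15), from the SAME supplier bundle
`GenItems20.GenFactsP A K M' q` that feeds chapter (G) (`GenItems20.genItemsP_of`).

`tableItems_of hq G` is stated with the body of `TableItemsP` spelled out (so that this file does not import the S5b
chain); it closes a goal `BranchModel15.TableItemsP q M' A K` by `exact` (unfolding of the definition).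
-/
import Mathlib
import Fermat.Agent.ES.P36.GenItems20

set_option autoImplicit false
set_option linter.unusedSectionVars false
set_option synthInstance.maxHeartbeats 400000
set_option maxHeartbeats 4000000

noncomputable section

open HahnSeries ModularCurve AlgebraicCurve

namespace Fermat.Agent.ES.P36.TableItems11

open Fermat.Agent.RED.Interface4 Fermat.Agent.RED.PUR.GaussGen8 Fermat.Agent.RED.PUR.GaussBridge10
  Fermat.Agent.ES.N34 Fermat.Agent.ES.P36.ModelDefsP9
  Fermat.Agent.ES.P36.GenTable11 Fermat.Agent.ES.P36.GenInst11 Fermat.Agent.ES.P36.GenItems20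

variable {A : ValuationSubring Qbar} {K : IntermediateField ℚ Qbar} {M' q : ℕ} [NeZero M'] [NeZero q]

/-- **`TableItemsP` from the suppliers of chapter (G)**: for every uniformiser `π` of `A_K` and every middle valuation
ring `O2` there is `T` with the table (G2) at `(O1q, O2q; O1, O2, O3; T)`. -/
theorem tableItems_of (hq : q.Prime) (G : GenFactsP A K M' q) :
    ∀ (π : ↥(AK A K)) (hπ : IsUnif (AK A K) π) (O2 : ValuationSubring ↥(FK (M' * q * q) K)),
      IsMid M' q hπ O2 → ∃ T : ↥(FK (M' * q * q) K),
        TableG2 (AK A K) ((π : ↥(AK A K)) : ↥K) q (alpha2 K M' q) (beta2 K M' q) (O1q M' q hπ)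
          (O2q M' q hπ) (O1 M' q hπ) O2 (O3 M' q hπ) T := by
  intro π hπ O2 hO2
  obtain ⟨T, Mid⟩ := G.mid π hπ O2 hO2
  exact ⟨T, tableG2_model hq (G.base π hπ) (G.v1 π hπ) (G.v3 π hπ) (G.kron π hπ) Mid⟩

end Fermat.Agent.ES.P36.TableItems11
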