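/-
Program P (S36), chapter MODEL-P, brick M2, second file (helper25): **the facts at `V₁ = O1`** (Gauss
valuation of the expansion at `∞`, level `M' q²`) in the LITERAL shapes of their consumers, per `K`
(no `∃ K₀`, no `[Normal ℚ K]`):

* `v1Facts : GenInst11.V1Facts A K M' q hπ` (`unif`, `disc` from `GenBase17`'s Gauss pull-back lemmas;
  `fam` with `b i := j ^ i`: `∑ β₂(a_i) j^i` has residue `∑ V_q(ā_i) j̄^i`, which vanishes only if all
  `ā_i = 0` — orders mod `q`, `GaussVTwoFam25.eq_zero_of_sum_qExpand_mul_pow`);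
* the inputs of `ModelAsmP9.multiChartModel_of` at `O1`: `R_le_O1`, `t_mem_O1`, `tinv_mem_O1`,
  `pi_nonunit_O1`, `arch_O1`;
* Gauss data of `t` at `O1`: `isGaussPullback_O1`, `t_mem_gaussRing`, `t_eq_tG`, `transcendental_t`
  (the `RegIGauss16` inputs at `(φ, Oj) = (α₂ ∘ α, O1)` are in the companion file `V1Reg25`).
-/
import Mathlib
import Fermat.Agent.ES.P36.GaussVOneSq25
import Fermat.Agent.ES.P36.GenInst11
import Fermat.Agent.ES.P36.GenBase17

set_option autoImplicit false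
set_option linter.unusedSectionVars false
set_option synthInstance.maxHeartbeats 400000
set_option maxHeartbeats 1000000

noncomputable section

open HahnSeries ModularCurve

namespace Fermat.Agent.ES.P36.V1Facts25

open Fermat.Agent.RED.Interface4 Fermat.Agent.RED.PUR.GaussGen8 Fermat.Agent.RED.PUR.GaussBridge10
  Fermat.Agent.ES.N34 Fermat.Agent.ES.N34.GaussEmb22 Fermat.Agent.ES.N34.IsoM25
  Fermat.Agent.ES.P36.ModelDefsP9 Fermat.Agent.ES.P36.OrdVal20 Fermat.Agent.ES.P36.GenInst11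
  Fermat.Agent.RED.BASE Fermat.Agent.RED.BASE.EtaQuot12

variable {A : ValuationSubring Qbar} {K : IntermediateField ℚ Qbar} (M' q : ℕ) [NeZero M'] [NeZero q]
  {π : ↥(AK A K)}

/-! ### bridges between `ModelDefsP9` and `ModelDefs9` at `(M' * q, q)` -/

theorem alpha2_eq : alpha2 K M' q = ModelDefs9.alpha K (M' * q) q := rfl

theorem beta2_eq : beta2 K M' q = ModelDefs9.beta K (M' * q) q := rfl

theorem O1_eq (hπ : IsUnif (AK A K) π) (hE : FK (M' * q * q) K ≤ fracField (AK A K)) :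
    O1 M' q hπ = ModelDefs9.O1 (M' * q) q hπ hE := rfl

/-- `O1` is the Gauss pull-back along the `q`-expansion at `∞`. -/
theorem isGaussPullback_O1 (hπ : IsUnif (AK A K) π) :
    IsGaussPullback (AK A K) (FK (M' * q * q) K).val (O1 M' q hπ) :=
  fun _ => Iff.rfl

/-- `O1q` is the Gauss pull-back along the `q`-expansion at `∞`. -/
theorem isGaussPullback_O1q (hπ : IsUnif (AK A K) π) :
    IsGaussPullback (AK A K) (FK (M' * q) K).val (O1q M' q hπ) :=
  fun _ => Iff.rfl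

/-! ### `unif`, `disc` -/

theorem unif_O1 (hπ : IsUnif (AK A K) π) (x : ↥(FK (M' * q * q) K))
    (hx : (O1 M' q hπ).valuation x < 1) :
    (O1 M' q hπ).valuation x ≤ (O1 M' q hπ).valuation (pi2 A K M' q π) :=
  GenBase17.val_le_val_unif_of_pullback (isGaussPullback_O1 M' q hπ) hπ x hx

theorem disc_O1 (hπ : IsUnif (AK A K) π) (f : ↥(FK (M' * q * q) K)) (hf : f ≠ 0) :
    ∃ n : ℤ, HasOrd (O1 M' q hπ) (pi2 A K M' q π) f n :=
  GenBase17.exists_hasOrd_of_pullback (isGaussPullback_O1 M' q hπ) hπ f hf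

/-! ### `fam`: the relative family `1, j, …, j^(q-1)` along `β₂` -/

/-- `redOf` in terms of `gaussRed` (no DVR instance needed). -/
theorem redOf_mk' {K₀ : Type*} [Field K₀] {O : ValuationSubring K₀} {F : Type*} [Field F]
    [Algebra K₀ F] {ι : F →ₐ[K₀] LaurentSeries K₀} {V : ValuationSubring F}
    (hV : IsGaussPullback O ι V) {x : F} (hx : x ∈ V) (hx' : ι x ∈ gaussRing O) :
    redOf hV ⟨x, hx⟩ = gaussRed O ⟨ι x, hx'⟩ := rfl

/-- `j` at level `M' q²`. -/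
theorem jN_mem_O1 (hπ : IsUnif (AK A K) π) : jN K (M' * q * q) ∈ O1 M' q hπ :=
  (isGaussPullback_O1 M' q hπ _).mpr (jqd_mem_gaussRing (AK A K) 1)

theorem beta2_mem_O1 (hπ : IsUnif (AK A K) π) {x : ↥(FK (M' * q) K)} (hx : x ∈ O1q M' q hπ) :
    beta2 K M' q x ∈ O1 M' q hπ :=
  (GaussVOneSq25.beta2_mem_O1_iff M' q hπ (FK_le_fracField A K (M' * q))
    (FK_le_fracField A K (M' * q * q)) x).mpr hx

/-- the residue of `β₂ x` at `O1` is `V_q` of the residue of `x` at `O1q`. -/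
theorem redOf_beta2 (hπ : IsUnif (AK A K) π) {x : ↥(FK (M' * q) K)} (hx : x ∈ O1q M' q hπ) :
    redOf (isGaussPullback_O1 M' q hπ) ⟨beta2 K M' q x, beta2_mem_O1 M' q hπ hx⟩ =
      qExpand (Res (AK A K)) q (redOf (isGaussPullback_O1q M' q hπ) ⟨x, hx⟩) := by
  have hx1 : (FK (M' * q * q) K).val (beta2 K M' q x) ∈ gaussRing (AK A K) :=
    (isGaussPullback_O1 M' q hπ _).mp (beta2_mem_O1 M' q hπ hx)
  have hx2 : (FK (M' * q) K).val x ∈ gaussRing (AK A K) := hx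
  rw [redOf_mk' (isGaussPullback_O1 M' q hπ) (beta2_mem_O1 M' q hπ hx) hx1,
    redOf_mk' (isGaussPullback_O1q M' q hπ) hx hx2]
  exact GaussVOneSq25.gaussRed_beta2 M' q x hx1 hx2

/-- the residue of `j` at `O1`. -/
theorem redOf_jN (hπ : IsUnif (AK A K) π) :
    redOf (isGaussPullback_O1 M' q hπ) ⟨jN K (M' * q * q), jN_mem_O1 M' q hπ⟩ =
      gaussRed (AK A K) ⟨qExpand K 1 (jqModC K), jqd_mem_gaussRing (AK A K) 1⟩ := rfl

/-- **`fam`**: `1, j, …, j^(q-1)` are residually independent over `β₂(O1q)` at `O1`. -/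
theorem fam_O1 (hπ : IsUnif (AK A K) π) :
    ∃ b : Fin q → ↥(FK (M' * q * q) K), (∀ i, b i ∈ O1 M' q hπ) ∧
      ∀ a : Fin q → ↥(FK (M' * q) K), (∀ i, (O1q M' q hπ).valuation (a i) ≤ 1) →
        (O1 M' q hπ).valuation (∑ i, beta2 K M' q (a i) * b i) < 1 →
        ∀ i, (O1q M' q hπ).valuation (a i) < 1 := by
  classical
  have hV := isGaussPullback_O1 (A := A) (K := K) M' q hπ
  have hVq := isGaussPullback_O1q (A := A) (K := K) M' q hπ
  have hw := jN_mem_O1 (A := A) (K := K) M' q hπ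
  refine ⟨fun i => jN K (M' * q * q) ^ (i : ℕ), fun i => pow_mem hw _, fun a ha hS i => ?_⟩
  have haO : ∀ i, a i ∈ O1q M' q hπ := fun i => ((O1q M' q hπ).valuation_le_one_iff _).mp (ha i)
  -- the sum, as an element of `O1`
  set S' : ↥(O1 M' q hπ) := ∑ i : Fin q,
    (⟨beta2 K M' q (a i), beta2_mem_O1 M' q hπ (haO i)⟩ : ↥(O1 M' q hπ)) *
      (⟨jN K (M' * q * q), hw⟩ : ↥(O1 M' q hπ)) ^ (i : ℕ) with hS'
  have hcoe : ((S' : ↥(O1 M' q hπ)) : ↥(FK (M' * q * q) K)) =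
      ∑ i, beta2 K M' q (a i) * jN K (M' * q * q) ^ (i : ℕ) := by
    rw [hS']
    push_cast
    rfl
  have hred : redOf hV S' = 0 := by
    rw [redOf_eq_zero_iff, hcoe]
    exact hS
  rw [hS', map_sum] at hred
  have hred' : ∑ i : Fin q, qExpand (Res (AK A K)) q (redOf hVq ⟨a i, haO i⟩) *
      gaussRed (AK A K) ⟨qExpand K 1 (jqModC K), jqd_mem_gaussRing (AK A K) 1⟩ ^ (i : ℕ) = 0 := by
    rw [← hred]
    refine Finset.sum_congr rfl fun i _ => ?_
    rw [map_mul, map_pow, redOf_beta2 M' q hπ (haO i), redOf_jN M' q hπ]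
  have hJ0 := gaussRed_jqd_ne_zero (AK A K) 1
  have hJ : IsCoprime
      (gaussRed (AK A K) ⟨qExpand K 1 (jqModC K), jqd_mem_gaussRing (AK A K) 1⟩).order (q : ℤ) := by
    rw [order_gaussRed_jqd]
    simp only [Nat.cast_one]
    exact (isCoprime_one_left (x := (q : ℤ))).neg_left
  have hz := GaussVTwoFam25.eq_zero_of_sum_qExpand_mul_pow (q := q) hJ0 hJ
    (fun i => redOf hVq ⟨a i, haO i⟩) hred' i
  exact (redOf_eq_zero_iff hVq ⟨a i, haO i⟩).mp hz

/-- **`GenInst11.V1Facts`** at the `ModelDefsP9` data, per `K`. -/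
theorem v1Facts (hπ : IsUnif (AK A K) π) : V1Facts A K M' q hπ where
  unif := unif_O1 M' q hπ
  disc := disc_O1 M' q hπ
  fam := fam_O1 M' q hπ

/-! ### the inputs of `ModelAsmP9.multiChartModel_of` at `O1` -/

section Asm

variable {n e : ℕ} [NeZero n]

/-- `R_le_O`. -/
theorem R_le_O1 (hπ : IsUnif (AK A K) π) (r : ↥(AK A K)) :
    algebraMap ↥(AK A K) ↥(FK (M' * q * q) K) r ∈ O1 M' q hπ := by
  rw [mem_O1_iff, Fermat.Agent.RED.NumInst4.coe_algebraMap_OE]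
  exact C_mem (AK A K) r

theorem t_mem_gaussRing (ht : tq (↥K) n e ∈ FK M' K) :
    ((t q ht : FK (M' * q * q) K) : LaurentSeries K) ∈ gaussRing (AK A K) := by
  rw [coe_t]
  exact TBridge15.tq_mem_gaussRing (AK A K) n e

theorem t_eq_tG (ht : tq (↥K) n e ∈ FK M' K)
    (h : ((t q ht : FK (M' * q * q) K) : LaurentSeries K) ∈ gaussRing (AK A K)) :
    (⟨((t q ht : FK (M' * q * q) K) : LaurentSeries K), h⟩ : ↥(gaussRing (AK A K))) =
      TBridge15.tG (AK A K) n e :=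
  Subtype.mk_eq_mk.mpr (coe_t q ht)

theorem transcendental_t (ht : tq (↥K) n e ∈ FK M' K)
    (h : ((t q ht : FK (M' * q * q) K) : LaurentSeries K) ∈ gaussRing (AK A K)) :
    Transcendental (Res (AK A K))
      (gaussRed (AK A K) ⟨((t q ht : FK (M' * q * q) K) : LaurentSeries K), h⟩) := by
  rw [t_eq_tG M' q ht h]
  exact TBridge15.transcendental_gaussRed_tG (AK A K) n e

/-- `t_mem_O`. -/
theorem t_mem_O1 (hπ : IsUnif (AK A K) π) (ht : tq (↥K) n e ∈ FK M' K) :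
    t q ht ∈ O1 M' q hπ :=
  (mem_O1_iff M' q hπ _).mpr (t_mem_gaussRing M' q ht)

/-- `tinv_mem_O`. -/
theorem tinv_mem_O1 (hπ : IsUnif (AK A K) π) (ht : tq (↥K) n e ∈ FK M' K) :
    (t q ht)⁻¹ ∈ O1 M' q hπ := by
  have h := t_mem_gaussRing (A := A) M' q ht
  have hne : gaussRed (AK A K) ⟨((t q ht : FK (M' * q * q) K) : LaurentSeries K), h⟩ ≠ 0 :=
    fun h0 => transcendental_t M' q ht h (h0 ▸ isAlgebraic_zero)
  have := inv_mem_of_gaussRed_ne_zero (AK A K) ⟨_, h⟩ hne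
  rw [mem_O1_iff]
  exact this

/-- `π ≠ 0` in `F″`. -/
theorem pi2_ne_zero (hπ : IsUnif (AK A K) π) : pi2 A K M' q π ≠ 0 := fun h0 =>
  hπ.ne_zero (Subtype.ext ((map_eq_zero_iff _ (algebraMap ↥K ↥(FK (M' * q * q) K)).injective).mp h0))

theorem algebraMap_AK_eq_pi2 :
    algebraMap ↥(AK A K) ↥(FK (M' * q * q) K) π = pi2 A K M' q π :=
  Subtype.ext ((Fermat.Agent.RED.NumInst4.coe_algebraMap_OE (AK A K) (FK (M' * q * q) K) π).trans
    (algebraMap_eq_C _).symm)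

/-- `pi_nonunit`. -/
theorem pi_nonunit_O1 (hπ : IsUnif (AK A K) π) :
    (algebraMap ↥(AK A K) ↥(FK (M' * q * q) K) π)⁻¹ ∉ O1 M' q hπ := by
  rw [algebraMap_AK_eq_pi2]
  intro h
  have h1 := GenBase17.val_unif_lt_one_of_pullback (isGaussPullback_O1 M' q hπ) hπ
  have h2 : (O1 M' q hπ).valuation (pi2 A K M' q π)⁻¹ ≤ 1 :=
    ((O1 M' q hπ).valuation_le_one_iff _).mpr h
  rw [map_inv₀] at h2
  have hpos : 0 < (O1 M' q hπ).valuation (pi2 A K M' q π) :=
    zero_lt_iff.mpr ((Valuation.ne_zero_iff _).mpr (pi2_ne_zero M' q hπ))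
  exact absurd h1 (not_lt.mpr ((inv_le_one₀ hpos).mp h2))

/-- `arch`. -/
theorem arch_O1 (hπ : IsUnif (AK A K) π) (x : ↥(FK (M' * q * q) K)) :
    ∃ k : ℕ, algebraMap ↥(AK A K) ↥(FK (M' * q * q) K) π ^ k * x ∈ O1 M' q hπ := by
  by_cases hx0 : x = 0
  · exact ⟨0, by rw [hx0, mul_zero]; exact (O1 M' q hπ).zero_mem⟩
  have hfrac : ((x : FK (M' * q * q) K) : LaurentSeries K) ∈ fracField (AK A K) :=
    FK_le_fracField A K (M' * q * q) x.2
  have hx0' : ((x : FK (M' * q * q) K) : LaurentSeries K) ≠ 0 := fun h => hx0 (Subtype.ext h)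
  obtain ⟨i, j, u, -, hrel⟩ := exists_unit_rep hπ hfrac hx0'
  refine ⟨j, ?_⟩
  rw [mem_O1_iff]
  have hc : ((algebraMap ↥(AK A K) ↥(FK (M' * q * q) K) π ^ j * x : FK (M' * q * q) K) :
      LaurentSeries K) = piK π ^ j * (x : LaurentSeries K) := by
    push_cast
    rw [Fermat.Agent.RED.NumInst4.coe_algebraMap_OE]
  rw [hc, mul_comm, hrel]
  exact mul_mem (pow_mem (piK_mem π) i) u.2

end Asm

end Fermat.Agent.ES.P36.V1Facts25
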