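/-
Program P (S36), assembly brick A1, last mile (helper13): **the four per-`K` packages `NumAsmP12.ItemsP`
over a READY number field `K` from their suppliers**, compiled before the last suppliers land.

    `NumAsmP12.ItemsP n e q M' A K c₀`  =  `ModelItemsP` (M7)  ∧  `MidItemsP` (M4)
                                           ∧  `∀ m, ¬ q ∣ m → GenItemsP … c₀ m` (G4)
                                           ∧  `∀ m, ¬ q ∣ m → BranchItemsP … c₀ m` (N3),
    `c₀ = q (q − 1) (q + 1)²`.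

Plugged in (theorems of record):
* leaves `ht` := `CoeffField4.tq_mem_FK`, `hJ` := `CoeffField4.j_mem_adjoin`, `hc` := `CombA26.hcombAt_of`;
* M3 := `V3At8.v3At_of_liesOver` (inside `ModelFinalP4`), `V3Facts8.v3Facts`;  M2 := `V1Facts25.v1Facts`;
* M4 := `MidInst23.exists_isMid_of_isInertial` (`MidItemsP`), `MidInst23.hmid_of_isInertial` (`MidUnif`), helper23;
* M6 := `HallModel11.hall_elem_of_mid` (`ModelFinalP4.CompleteItemsP`), helper11;
* M7 + R9 := `ModelFinalP4.modelItemsP_of_parts` (helper4; `PtsModel9.ptsItemsP_of` inside), `PosItemsP` from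
  `V3Facts.cα` and `MidUnif.pos`;
* S2 (`ModEqItems`) := `ModelInert4.items_four_inertial / items_nine_inertial` (helper4);
* G4 := `GenFacts11.genFactsP_of_isInertial` + `GenItems20.genItemsP_of` (helper11, helper20);
* N3 := `TableItems11.tableItems_of` + `BranchItemsOf18.branchItemsP_of` (helper11, helper18, helper15).

STILL OPEN, as the fields of the per-`K` structure `OpenItemsP` in their owners' literal `Prop`s:
* `one`     — R7 + R7c + R8 (`PtsModel9.OneItemsP`);
* `cross`   — R6 (`PtsModel9.CrossItemsP`);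
* `node`    — R3/R6 (`BranchModel15.NodeItemsP`).

* `itemsP_of`  : generic in the Hauptmodul `(n, e)`;
* `itemsP_four`, `itemsP_nine` : the literal `hodd`, `htwo` bodies of `S36AsmP12.fixBarAll_of_items`;
* `fixBarAll_of_open` : `IfaceP17.FixBarAll (cP c0)` from `OpenItemsP` over all ready fields, and
  `cP_c0_ne_zero` (so that `S36Chain12.s36_of_fixBarAll` applies).
-/
import Mathlib
import Fermat.Agent.ES.P36.S36AsmP12
import Fermat.Agent.ES.P36.ModelFinalP4
import Fermat.Agent.ES.P36.HallModel11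
import Fermat.Agent.ES.P36.MidInst23
import Fermat.Agent.ES.P36.GenFacts11
import Fermat.Agent.ES.P36.V1Facts25
import Fermat.Agent.ES.P36.TableItems11
import Fermat.Agent.ES.P36.BranchItemsOf18

set_option autoImplicit false
set_option synthInstance.maxHeartbeats 400000
set_option maxHeartbeats 4000000
set_option linter.unusedSectionVars false

open HahnSeries AlgebraicCurve ModularCurve

noncomputable section

namespace Fermat.Agent.ES.P36.ItemsOf13

open Fermat.Agent.RED.Interface4 Fermat.Agent.RED.PUR.GaussGen8 Fermat.Agent.RED.BASE.EtaQuot12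
  Fermat.Agent.RED.BASE.Interface12
  Fermat.Agent.ES.N34 Fermat.Agent.ES.P36.ModelDefsP9 Fermat.Agent.ES.P36.NumCoreP13
  Fermat.Agent.ES.P36.NumAsmP12 Fermat.Agent.ES.P36.GenInst11

/-- the constant of chapter (G): `c₀ = q (q − 1) (q + 1)²`. -/
def c0 (q : ℕ) : ℕ := q * (q - 1) * (q + 1) ^ 2

theorem c0_ne_zero {q : ℕ} (hq : q.Prime) : c0 q ≠ 0 := by
  have h2 : 2 ≤ q := hq.two_le
  unfold c0
  refine mul_ne_zero (mul_ne_zero hq.ne_zero ?_) (pow_ne_zero 2 ?_) <;> omega

variable (n e q M' : ℕ) [NeZero n] [NeZero M'] [NeZero q] (A : ValuationSubring Qbar)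
  (K : IntermediateField ℚ Qbar)

/-- **The still-open suppliers at `K`**, each in its owner's literal `Prop`. -/
structure OpenItemsP : Prop where
  /-- R7 + R7c + R8: exactly one component ⇒ `OneBranch`. -/
  one : Fermat.Agent.ES.P36.PtsModel9.OneItemsP n e q M' A K
  /-- R6: over a crossing point of level `M' q` ⇒ regular triple point. -/
  cross : Fermat.Agent.ES.P36.PtsModel9.CrossItemsP n e q M' A K
  /-- R3/R6: the level-`q` nodes below the regular triple points. -/
  node : Fermat.Agent.ES.P36.BranchModel15.NodeItemsP n e q M' A K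

variable {n e q M' A K}

/-- `PosItemsP` from M3 (`V3Facts.cα`) and the position of the middle rings (`MidUnif.pos`). -/
theorem posItemsP_of
    (hmid : ∀ (π : ↥(AK A K)) (hπ : IsUnif (AK A K) π)
      (O2 : ValuationSubring ↥(FK (M' * q * q) K)), IsMid M' q hπ O2 →
      ∃ T : ↥(FK (M' * q * q) K), MidUnif A K M' q hπ O2 T) :
    Fermat.Agent.ES.P36.PtsModel9.PosItemsP q M' A K := fun π hπ =>
  ⟨(Fermat.Agent.ES.P36.V3Facts8.v3Facts M' q hπ).cα, fun O2 hO2 => by
    obtain ⟨T, hT⟩ := hmid π hπ O2 hO2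
    exact hT.pos⟩

/-- **A1, last mile, generic in the Hauptmodul**: the four packages at a ready `K`. -/
theorem itemsP_of [FiniteDimensional ℚ K] (hq : q.Prime) (hqM : ¬ q ∣ M')
    (hA : A.LiesOverPrime q) (hK : ReadyP q M' A K) (hmem : TMem n e M') (hgen : TGenBase n e)
    (hS2 : Fermat.Agent.ES.N34.ModelN4.ModEqItems n e q M' A K)
    (H : OpenItemsP n e q M' A K) : ItemsP n e q M' A K (c0 q) := by
  have ht : tq (↥K) n e ∈ FK M' K := Fermat.Agent.ES.P36.CoeffField4.tq_mem_FK n e M' hmem K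
  have hJ : jqModC ↥K ∈ IntermediateField.adjoin (↥K) {tq (↥K) n e} :=
    Fermat.Agent.ES.P36.CoeffField4.j_mem_adjoin n e hgen K
  have hc : CombA26.HcombAt n e q M' A K := CombA26.hcombAt_of hq hqM hA K hJ
  -- M4 / M6
  have hmid := Fermat.Agent.ES.P36.MidInst23.hmid_of_isInertial hK.1 hq hqM hA ht hJ
  have hall : Fermat.Agent.ES.P36.ModelFinalP4.CompleteItemsP n e q M' A K :=
    Fermat.Agent.ES.P36.HallModel11.hall_elem_of_mid hq hqM hA hJ hmid
  have hmidEx : MidItemsP q M' A K := fun _ hπ =>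
    Fermat.Agent.ES.P36.MidInst23.exists_isMid_of_isInertial hK.1 hq hqM hA ht hJ hπ
  -- M7 + R9
  have hmodel : ModelItemsP n e q M' A K :=
    Fermat.Agent.ES.P36.ModelFinalP4.modelItemsP_of_parts hq hqM hA hgen hS2 (posItemsP_of hmid) hall
      H.one H.cross
  -- (G)
  have G : Fermat.Agent.ES.P36.GenItems20.GenFactsP A K M' q :=
    Fermat.Agent.ES.P36.GenFacts11.genFactsP_of_isInertial hK.1 hq hqM hA ht hc
      (fun _ hπ => Fermat.Agent.ES.P36.V1Facts25.v1Facts M' q hπ) hmid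
  exact ⟨hmodel, hmidEx,
    fun m hm => Fermat.Agent.ES.P36.GenItems20.genItemsP_of hq hA G hm,
    fun m hm => Fermat.Agent.ES.P36.BranchItemsOf18.branchItemsP_of hq hA hmodel
      (Fermat.Agent.ES.P36.TableItems11.tableItems_of hq G) H.node (c0 q) hm⟩

/-- **`hodd` of `S36AsmP12.fixBarAll_of_items`**: `q` odd, `4 ∣ M'`, Hauptmodul `(4, 8)`. -/
theorem itemsP_four [FiniteDimensional ℚ K] (hq : q.Prime) (hqM : ¬ q ∣ M') (hq2 : q ≠ 2)
    (hM : 4 ∣ M') (hA : A.LiesOverPrime q) (hK : ReadyP q M' A K)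
    (H : OpenItemsP 4 8 q M' A K) : ItemsP 4 8 q M' A K (c0 q) :=
  have hB := Fermat.Agent.RED.BASE.Main12.baseExports Fermat.Agent.RED.BASE.Hauptmodul12.baseHyp_four
    M' hM
  itemsP_of hq hqM hA hK hB.mem hB.genBase
    (Fermat.Agent.ES.P36.ModelInert4.items_four_inertial hq hq2 hqM hM hA hK.1 hK.2).2.2.1 H

/-- **`htwo` of `S36AsmP12.fixBarAll_of_items`**: `q = 2`, `9 ∣ M'`, Hauptmodul `(9, 3)`. -/
theorem itemsP_nine {M' : ℕ} [NeZero M'] {A : ValuationSubring Qbar} {K : IntermediateField ℚ Qbar}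
    [FiniteDimensional ℚ K] (hqM : ¬ 2 ∣ M') (hM : 9 ∣ M')
    (hA : A.LiesOverPrime 2) (hK : ReadyP 2 M' A K)
    (H : OpenItemsP 9 3 2 M' A K) : ItemsP 9 3 2 M' A K (c0 2) :=
  have hB := Fermat.Agent.RED.BASE.Main12.baseExports Fermat.Agent.RED.BASE.Hauptmodul12.baseHyp_nine
    M' hM
  itemsP_of Nat.prime_two hqM hA hK hB.mem hB.genBase
    (Fermat.Agent.ES.P36.ModelInert4.items_nine_inertial hqM hM hA hK.1 hK.2).2.2.1 H

/-- the constant of (K_c) of record never vanishes. -/
theorem cP_c0_ne_zero (q : ℕ) : Fermat.Agent.ES.P36.S36AsmP12.cP c0 q ≠ 0 :=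
  Fermat.Agent.ES.P36.S36AsmP12.cP_ne_zero (fun _ hq => c0_ne_zero hq) q

/-- **(K_c) at all auxiliary levels from the still-open suppliers over the ready fields.** -/
theorem fixBarAll_of_open
    (hodd : ∀ (q M' : ℕ) [NeZero M'] [NeZero q] (A : ValuationSubring Qbar), q.Prime → ¬ q ∣ M' →
      q ≠ 2 → 4 ∣ M' → A.LiesOverPrime q → ∀ K : IntermediateField ℚ Qbar, FiniteDimensional ℚ K →
      ReadyP q M' A K → OpenItemsP 4 8 q M' A K)
    (htwo : ∀ (M' : ℕ) [NeZero M'] (A : ValuationSubring Qbar), ¬ 2 ∣ M' → 9 ∣ M' →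
      A.LiesOverPrime 2 → ∀ K : IntermediateField ℚ Qbar, FiniteDimensional ℚ K →
      ReadyP 2 M' A K → OpenItemsP 9 3 2 M' A K) :
    Fermat.Agent.ES.P36.IfaceP17.FixBarAll (Fermat.Agent.ES.P36.S36AsmP12.cP c0) :=
  Fermat.Agent.ES.P36.S36AsmP12.fixBarAll_of_items
    (fun q M' _ _ A hq hqM hq2 hM hA K hfin hK =>
      haveI := hfin
      itemsP_four hq hqM hq2 hM hA hK (hodd q M' A hq hqM hq2 hM hA K hfin hK))
    (fun M' _ A hqM hM hA K hfin hK =>
      haveI := hfin
      itemsP_nine hqM hM hA hK (htwo M' A hqM hM hA K hfin hK))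

end Fermat.Agent.ES.P36.ItemsOf13
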