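/-
Program P (S36), chapter REG, brick RegExp (helper12, p43a): **the exponent bound `hexp` of
`RegChart21.exists_two_generators` at level `M' q`** — the bridge between helper5's abstract
discriminant bound `DiscBound5.le_of_norm_derivative_eq` and helper2's model facts
(`DiffNorm2.natDegree_minpoly_betaJ`, `DiffNorm2.valuation_normAlong_diffElt`).
-/
import Mathlib
import Fermat.Agent.ES.P36.RegChart21
import Fermat.Agent.ES.P36.DiscBound5
import Fermat.Agent.ES.P36.DiffNorm2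

set_option autoImplicit false
set_option linter.style.haveILetI false
set_option linter.unusedSectionVars false

noncomputable section

namespace Fermat.Agent.ES.P36.RegExp12

open IsLocalRing Module Polynomial Fermat.Agent.RED.PUR.LocalFree26
  Fermat.Agent.RED.PUR.PurityMain26

/-! ### The ring layer -/

section Ring

variable {B0 B1 : Type*} [CommRing B0] [IsDomain B0] [CommRing B1] [IsDomain B1]
  [Algebra B0 B1] [FaithfulSMul B0 B1]
  (F0 F : Type*) [Field F0] [Field F] [Algebra B0 F0] [IsFractionRing B0 F0]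
  [Algebra B1 F] [IsFractionRing B1 F]
  (x0 : Ideal B0) [x0.IsPrime]

theorem isUnit_algebraMap_primeCompl (y : x0.primeCompl) : IsUnit (algebraMap B0 F0 (y : B0)) := by
  have h0 : (y : B0) ≠ 0 := fun h => y.2 (h ▸ x0.zero_mem)
  exact IsUnit.mk0 _ (fun e => h0 ((IsFractionRing.injective B0 F0) (by rw [e, map_zero])))

/-- The `R0`-algebra structure on the fraction field `F0` of `B0` (`R0 := RP x0`). -/
@[reducible] def algebraRPF : Algebra (RP x0) F0 :=
  (IsLocalization.lift (M := x0.primeCompl) (g := algebraMap B0 F0)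
    (isUnit_algebraMap_primeCompl F0 x0)).toAlgebra

theorem isScalarTower_RPF :
    letI := algebraRPF F0 x0
    IsScalarTower B0 (RP x0) F0 := by
  letI := algebraRPF F0 x0
  refine IsScalarTower.of_algebraMap_eq fun b => ?_
  change _ = (IsLocalization.lift (M := x0.primeCompl) (g := algebraMap B0 F0)
    (isUnit_algebraMap_primeCompl F0 x0)) (algebraMap B0 (RP x0) b)
  rw [IsLocalization.lift_eq]

theorem isFractionRing_RPF :
    letI := algebraRPF F0 x0
    IsFractionRing (RP x0) F0 := by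
  letI := algebraRPF F0 x0
  haveI := isScalarTower_RPF F0 x0
  exact IsFractionRing.isFractionRing_of_isDomain_of_isLocalization x0.primeCompl (RP x0) F0

/-- "regular at `x0`" in element form is membership in the image of `RP x0`. -/
theorem regular_iff_mem_range (x : F0) :
    letI := algebraRPF F0 x0
    (∃ a d : B0, d ∉ x0 ∧ x * algebraMap B0 F0 d = algebraMap B0 F0 a) ↔
      x ∈ (algebraMap (RP x0) F0).range := by
  letI := algebraRPF F0 x0
  haveI := isScalarTower_RPF F0 x0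
  constructor
  · rintro ⟨a, d, hd, had⟩
    refine ⟨IsLocalization.mk' (RP x0) a (⟨d, hd⟩ : x0.primeCompl), ?_⟩
    have hd0 : algebraMap B0 F0 d ≠ 0 :=
      (isUnit_algebraMap_primeCompl F0 x0 (⟨d, hd⟩ : x0.primeCompl)).ne_zero
    apply mul_right_cancel₀ hd0
    rw [had, IsScalarTower.algebraMap_apply B0 (RP x0) F0 d, ← map_mul]
    have := IsLocalization.mk'_spec (RP x0) a (⟨d, hd⟩ : x0.primeCompl)
    simp only at this
    rw [this, ← IsScalarTower.algebraMap_apply]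
  · rintro ⟨r, rfl⟩
    obtain ⟨a, d, rfl⟩ := IsLocalization.exists_mk'_eq x0.primeCompl r
    refine ⟨a, (d : B0), d.2, ?_⟩
    rw [IsScalarTower.algebraMap_apply B0 (RP x0) F0 (d : B0), ← map_mul,
      IsLocalization.mk'_spec, ← IsScalarTower.algebraMap_apply]

/-- an integer polynomial in an element regular at `x0` is regular at `x0`. -/
theorem regular_eval₂_int (j : F0)
    (hj : ∃ a d : B0, d ∉ x0 ∧ j * algebraMap B0 F0 d = algebraMap B0 F0 a) (p : ℤ[X]) :
    ∃ a d : B0, d ∉ x0 ∧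
      p.eval₂ (Int.castRingHom F0) j * algebraMap B0 F0 d = algebraMap B0 F0 a := by
  letI := algebraRPF F0 x0
  rw [regular_iff_mem_range] at hj ⊢
  rw [Polynomial.eval₂_eq_sum_range]
  refine Subring.sum_mem _ fun i _ => Subring.mul_mem _ ?_ (Subring.pow_mem _ hj i)
  rw [eq_intCast]
  exact intCast_mem _ _

end Ring

section RingMain

variable {B0 B1 : Type*} [CommRing B0] [IsDomain B0] [CommRing B1] [IsDomain B1]
  [Algebra B0 B1] [FaithfulSMul B0 B1]
  (F0 F : Type*) [Field F0] [Field F] [Algebra B0 F0] [IsFractionRing B0 F0]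
  [Algebra B1 F] [IsFractionRing B1 F] [Algebra F0 F] [Algebra B0 F] [IsScalarTower B0 F0 F]
  [IsScalarTower B0 B1 F]
  (x0 : Ideal B0) [x0.IsPrime]

/-- `F` as an algebra over `R0 = RP x0`, through `F0`. -/
@[reducible] def algebraRPFF : Algebra (RP x0) F :=
  letI := algebraRPF F0 x0
  ((algebraMap F0 F).comp (algebraMap (RP x0) F0)).toAlgebra

theorem isScalarTower_RP_F0_F :
    letI := algebraRPF F0 x0
    letI := algebraRPFF F0 F x0
    IsScalarTower (RP x0) F0 F :=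
  letI := algebraRPF F0 x0
  letI := algebraRPFF F0 F x0
  IsScalarTower.of_algebraMap_eq fun _ => rfl

theorem isScalarTower_RP_SP_F :
    letI := algebraRPF F0 x0
    letI := algebraRPFF F0 F x0
    letI := algebraSPF B1 x0 F
    IsScalarTower (RP x0) (SP B1 x0) F := by
  letI := algebraRPF F0 x0
  letI := algebraRPFF F0 F x0
  letI := algebraSPF B1 x0 F
  haveI := isScalarTower_SPF B1 x0 F
  haveI := isScalarTower_RPF F0 x0
  refine IsScalarTower.of_algebraMap_eq' ?_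
  refine IsLocalization.ringHom_ext x0.primeCompl ?_
  ext r
  simp only [RingHom.comp_apply]
  have h1 : algebraMap (RP x0) F (algebraMap B0 (RP x0) r) = algebraMap B0 F r := by
    show algebraMap F0 F (algebraMap (RP x0) F0 (algebraMap B0 (RP x0) r)) = _
    rw [← IsScalarTower.algebraMap_apply B0 (RP x0) F0, ← IsScalarTower.algebraMap_apply B0 F0 F]
  have h2 : algebraMap (SP B1 x0) F (algebraMap (RP x0) (SP B1 x0) (algebraMap B0 (RP x0) r)) =
      algebraMap B0 F r := by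
    rw [Fermat.Agent.ES.P36.ChartLocal3.algebraMap_comm,
      ← IsScalarTower.algebraMap_apply B1 (SP B1 x0) F, ← IsScalarTower.algebraMap_apply B0 B1 F]
  rw [h1, h2]

/-- **The exponent bound, ring layer.**  `B0 ⊆ B1` domains (`B1` integrally closed) with fraction
fields `F0 ⊆ F` (characteristic zero), `x0` a prime of `B0`, `V0` a valuation ring of `F0` containing
`(B0)_{x0}`, `v0(π) < 1`; `zF ∈ F` a primitive element, root of a monic `G` with coefficients in
`(B0)_{x0}`, with `v0 (N (minpoly zF)'(zF)) = v0(π) ^ m`.  Then every basis of `S = SP B1 x0` over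
`R0 = RP x0` has `[F : F0]` elements, and if its discriminant is `π ^ a * unit` then `a ≤ m`. -/
theorem le_and_eq_finrank [IsIntegrallyClosed B1] [CharZero F0]
    (V0 : ValuationSubring F0) (leV0 : ∀ b : B0, algebraMap B0 F0 b ∈ V0)
    (hV0x : ∀ d : B0, d ∉ x0 → (algebraMap B0 F0 d)⁻¹ ∈ V0)
    (π : B0) (hπ0 : π ≠ 0) (hπ1 : V0.valuation (algebraMap B0 F0 π) < 1)
    (zF : F) (G : F0[X]) (hG : G.Monic) (hGz : aeval zF G = 0)
    (hGc : ∀ i, ∃ a d : B0, d ∉ x0 ∧ G.coeff i * algebraMap B0 F0 d = algebraMap B0 F0 a)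
    (hprim : (minpoly F0 zF).natDegree = finrank F0 F) (m : ℕ)
    (hN : V0.valuation (Algebra.norm F0 (aeval zF (derivative (minpoly F0 zF)))) =
      V0.valuation (algebraMap B0 F0 π) ^ m)
    {n : ℕ} (b : Basis (Fin n) (RP x0) (SP B1 x0)) (a : ℕ) (u : RP x0) (hu : IsUnit u)
    (hdisc : Algebra.discr (RP x0) b = algebraMap B0 (RP x0) π ^ a * u) :
    a ≤ m ∧ n = finrank F0 F := by
  classical
  letI := algebraRPF F0 x0
  haveI := isScalarTower_RPF F0 x0
  haveI := isFractionRing_RPF F0 x0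
  letI := algebraRPFF F0 F x0
  haveI := isScalarTower_RP_F0_F F0 F x0
  letI := algebraSPF B1 x0 F
  haveI := isScalarTower_SPF B1 x0 F
  haveI := isFractionRing_SPF B1 x0 F
  haveI := isScalarTower_RP_SP_F (B1 := B1) F0 F x0
  haveI hdomS : IsDomain (SP B1 x0) :=
    IsLocalization.isDomain_of_le_nonZeroDivisors (SP B1 x0)
      (algebraMapSubmonoid_le_nonZeroDivisors B1 x0)
  -- the basis of `F` over `F0`
  have hfin : Module.Finite (RP x0) (SP B1 x0) := Module.Finite.of_basis b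
  have halg : Algebra.IsAlgebraic (RP x0) (SP B1 x0) :=
    have : Algebra.IsIntegral (RP x0) (SP B1 x0) := Algebra.IsIntegral.of_finite _ _
    inferInstance
  have hloc : IsLocalization (Algebra.algebraMapSubmonoid (SP B1 x0) (nonZeroDivisors (RP x0))) F :=
    inferInstance
  set bF : Basis (Fin n) F0 F := b.localizationLocalization F0 (nonZeroDivisors (RP x0)) F with hbF
  haveI hfd : FiniteDimensional F0 F := Module.Finite.of_basis bF
  have hn : n = finrank F0 F := by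
    rw [finrank_eq_card_basis bF, Fintype.card_fin]
  haveI hsep : Algebra.IsSeparable F0 F := inferInstance
  refine ⟨?_, hn⟩
  -- `R0 ⊆ V0`
  have hV0 : ∀ r : RP x0, algebraMap (RP x0) F0 r ∈ V0 := by
    intro r
    obtain ⟨c, d, rfl⟩ := IsLocalization.exists_mk'_eq x0.primeCompl r
    have h1 : algebraMap (RP x0) F0 (IsLocalization.mk' (RP x0) c d) =
        algebraMap B0 F0 c * (algebraMap B0 F0 (d : B0))⁻¹ := by
      have hd0 : algebraMap B0 F0 (d : B0) ≠ 0 := (isUnit_algebraMap_primeCompl F0 x0 d).ne_zero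
      rw [eq_mul_inv_iff_mul_eq₀ hd0, IsScalarTower.algebraMap_apply B0 (RP x0) F0 (d : B0),
        ← map_mul, IsLocalization.mk'_spec, ← IsScalarTower.algebraMap_apply]
    rw [h1]
    exact V0.mul_mem _ _ (leV0 c) (hV0x d d.2)
  have hπcomm : algebraMap (RP x0) F0 (algebraMap B0 (RP x0) π) = algebraMap B0 F0 π :=
    (IsScalarTower.algebraMap_apply B0 (RP x0) F0 π).symm
  have hπ0' : algebraMap B0 (RP x0) π ≠ 0 := pi_ne_zero x0 π hπ0
  -- `zF` comes from `S`
  have hlift : G ∈ Polynomial.lifts (algebraMap (RP x0) F0) := by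
    rw [Polynomial.lifts_iff_coeff_lifts]
    intro i
    obtain ⟨c, d, hd, hcd⟩ := hGc i
    refine ⟨IsLocalization.mk' (RP x0) c (⟨d, hd⟩ : x0.primeCompl), ?_⟩
    have hd0 : algebraMap B0 F0 d ≠ 0 :=
      (isUnit_algebraMap_primeCompl F0 x0 (⟨d, hd⟩ : x0.primeCompl)).ne_zero
    apply mul_right_cancel₀ hd0
    rw [hcd, IsScalarTower.algebraMap_apply B0 (RP x0) F0 d, ← map_mul]
    have := IsLocalization.mk'_spec (RP x0) c (⟨d, hd⟩ : x0.primeCompl)
    simp only at this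
    rw [this, ← IsScalarTower.algebraMap_apply]
  obtain ⟨G0, hG0map, -, hG0monic⟩ := Polynomial.lifts_and_natDegree_eq_and_monic hlift hG
  have hzint : IsIntegral (RP x0) zF := by
    refine ⟨G0, hG0monic, ?_⟩
    have : Polynomial.eval₂ (algebraMap (RP x0) F) zF G0 =
        Polynomial.eval₂ (algebraMap F0 F) zF (G0.map (algebraMap (RP x0) F0)) := by
      rw [Polynomial.eval₂_map]
      rfl
    rw [this, hG0map]
    exact hGz
  have hzintS : IsIntegral (SP B1 x0) zF := hzint.tower_top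
  obtain ⟨z, hz⟩ := IsIntegrallyClosed.algebraMap_eq_of_integral hzintS
  refine DiscBound5.le_of_norm_derivative_eq F0 F b V0 hV0 (algebraMap B0 (RP x0) π) u a hu hdisc
    hπ0' (by rw [hπcomm]; exact hπ1) z (by rw [hz]; exact hprim) m ?_
  rw [hz, hπcomm]
  exact hN

end RingMain

/-! ### The chart layer (vocabulary of `RegChart21`) -/

section Chart

open Fermat.Agent.ES.P36.RegChart21

variable {R FM F : Type*} [CommRing R] [Field FM] [Field F] [Algebra R FM] [Algebra R F]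
  (π : R) (φ : FM →+* F) (BM : Subalgebra R FM) (B : Subalgebra R F)
  (hφB : ∀ b : BM, φ (b : FM) ∈ B)

/-- **The exponent bound `hexp` of `RegChart21.exists_two_generators`, chart form.**  `V0` a
valuation ring of `FM` containing the chart `BM` in which the elements of `BM` off `x0 = x1 ∩ BM` are
units, `v0(π) < 1`; `zF ∈ F` a primitive element of `F / φ(FM)`, root of a monic `G` with coefficients
regular at `x0`, with `v0 (N (minpoly zF)'(zF)) = v0(π) ^ m` and `m < [F : φ FM]`. -/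
theorem hexp_chart [CharZero FM]
    (fracBM : ∀ x : FM, ∃ a ∈ BM, ∃ b ∈ BM, b ≠ 0 ∧ x * b = a)
    (intclB : ∀ x : F, IsIntegral B x → x ∈ B)
    (fracB : ∀ x : F, ∃ a ∈ B, ∃ b ∈ B, b ≠ 0 ∧ x * b = a)
    (x1 : Ideal B) [hx1 : x1.IsPrime]
    (V0 : ValuationSubring FM) (leV0 : ∀ b ∈ BM, b ∈ V0)
    (hV0x : ∀ d : BM, (⟨φ (d : FM), hφB d⟩ : B) ∉ x1 → ((d : FM))⁻¹ ∈ V0)
    (pi_ne : algebraMap R FM π ≠ 0) (hπ1 : V0.valuation (algebraMap R FM π) < 1)
    (zF : F) (G : FM[X]) (hG : G.Monic) (hGz : G.eval₂ φ zF = 0)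
    (hGc : ∀ i, ∃ a d : BM, (⟨φ (d : FM), hφB d⟩ : B) ∉ x1 ∧ G.coeff i * (d : FM) = (a : FM))
    (m : ℕ)
    (hprim : letI := φ.toAlgebra; (minpoly FM zF).natDegree = Module.finrank FM F)
    (hN : letI := φ.toAlgebra
      V0.valuation (Algebra.norm FM (aeval zF (derivative (minpoly FM zF)))) =
        V0.valuation (algebraMap R FM π) ^ m)
    (hm : letI := φ.toAlgebra; m < Module.finrank FM F) :
    letI := chartAlgebra φ BM B hφB
    ∀ (n : ℕ) (b : Basis (Fin n) (RP (x1.comap (algebraMap ↥BM ↥B)))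
        (SP ↥B (x1.comap (algebraMap ↥BM ↥B)))) (a : ℕ)
      (u : RP (x1.comap (algebraMap ↥BM ↥B))), IsUnit u →
      Algebra.discr (RP (x1.comap (algebraMap ↥BM ↥B))) b =
        algebraMap ↥BM (RP (x1.comap (algebraMap ↥BM ↥B))) (algebraMap R ↥BM π) ^ a * u →
      a < n := by
  letI := chartAlgebra φ BM B hφB
  letI : Algebra FM F := φ.toAlgebra
  haveI := faithfulSMul_chart φ BM B hφB
  haveI := isFractionRing_of B fracB
  haveI := isIntegrallyClosed_of B intclB fracB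
  haveI := isFractionRing_of BM fracBM
  haveI : IsScalarTower ↥BM FM F := IsScalarTower.of_algebraMap_eq (fun _ => rfl)
  haveI : IsScalarTower ↥BM ↥B F := IsScalarTower.of_algebraMap_eq (fun _ => rfl)
  intro n b a u hu hdisc
  have hπ0 : algebraMap R ↥BM π ≠ 0 := fun h => pi_ne (by
    have := congrArg (fun z : ↥BM => (z : FM)) h
    simpa using this)
  obtain ⟨h1, h2⟩ := le_and_eq_finrank FM F (x1.comap (algebraMap ↥BM ↥B)) V0
    (fun b => leV0 _ b.2) (fun d hd => hV0x d hd) (algebraMap R ↥BM π) hπ0 hπ1 zF G hG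
    (by rw [Polynomial.aeval_def]; exact hGz) (fun i => by
      obtain ⟨a, d, hd, had⟩ := hGc i
      exact ⟨a, d, hd, had⟩) hprim m hN b a u hu hdisc
  omega

/-- the elements of the chart `BM` off `x0 = x1 ∩ BM` are units of `V0`, as soon as `x1` lies on the
component `O1 ⊇ φ(V0)` and `π` is a uniformiser of `V0`. -/
theorem inv_mem_of_notMem (V0 : ValuationSubring FM) (O1 : ValuationSubring F)
    (hφR : ∀ r : R, φ (algebraMap R FM r) = algebraMap R F r)
    (hφV : ∀ c ∈ V0, φ c ∈ O1)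
    (hunif : ∀ x ∈ V0, x⁻¹ ∉ V0 → ∃ c ∈ V0, x = algebraMap R FM π * c)
    (leV0 : ∀ b ∈ BM, b ∈ V0) (x1 : Ideal B)
    (hon1 : ∀ b : B, (∃ c ∈ O1, (b : F) = algebraMap R F π * c) → b ∈ x1)
    (d : BM) (hd : (⟨φ (d : FM), hφB d⟩ : B) ∉ x1) : ((d : FM))⁻¹ ∈ V0 := by
  by_contra hinv
  obtain ⟨c, hc, hdc⟩ := hunif (d : FM) (leV0 _ d.2) hinv
  apply hd
  refine hon1 _ ⟨φ c, hφV c hc, ?_⟩
  show φ (d : FM) = _
  rw [hdc, map_mul, hφR]

/-- an integer polynomial in an element of `FM` regular at `x0 = x1 ∩ BM` is regular at `x0`. -/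
theorem regular_eval₂_int_chart
    (fracBM : ∀ x : FM, ∃ a ∈ BM, ∃ b ∈ BM, b ≠ 0 ∧ x * b = a)
    (x1 : Ideal B) [hx1 : x1.IsPrime] (j : FM)
    (hj : ∃ a d : BM, (⟨φ (d : FM), hφB d⟩ : B) ∉ x1 ∧ j * (d : FM) = (a : FM)) (p : ℤ[X]) :
    ∃ a d : BM, (⟨φ (d : FM), hφB d⟩ : B) ∉ x1 ∧
      p.eval₂ (Int.castRingHom FM) j * (d : FM) = (a : FM) := by
  letI := chartAlgebra φ BM B hφB
  haveI := isFractionRing_of BM fracBM
  obtain ⟨a, d, hd, had⟩ := hj
  obtain ⟨a', d', hd', had'⟩ := regular_eval₂_int FM (x1.comap (algebraMap ↥BM ↥B)) j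
    ⟨a, d, hd, had⟩ p
  exact ⟨a', d', hd', had'⟩

/-- **`hexp`, chart form, for a modular-polynomial generator**: `zF` is a root of `Φ(X, j)` with
`Φ ∈ ℤ[Y][X]` monic and `j ∈ FM` regular at `x0`; `x1` lies on the component `O1 ⊇ φ(V0)`. -/
theorem hexp_chart_modular [CharZero FM]
    (fracBM : ∀ x : FM, ∃ a ∈ BM, ∃ b ∈ BM, b ≠ 0 ∧ x * b = a)
    (intclB : ∀ x : F, IsIntegral B x → x ∈ B)
    (fracB : ∀ x : F, ∃ a ∈ B, ∃ b ∈ B, b ≠ 0 ∧ x * b = a)
    (x1 : Ideal B) [hx1 : x1.IsPrime]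
    (V0 : ValuationSubring FM) (O1 : ValuationSubring F)
    (hφR : ∀ r : R, φ (algebraMap R FM r) = algebraMap R F r)
    (hφV : ∀ c ∈ V0, φ c ∈ O1)
    (hunif : ∀ x ∈ V0, x⁻¹ ∉ V0 → ∃ c ∈ V0, x = algebraMap R FM π * c)
    (leV0 : ∀ b ∈ BM, b ∈ V0)
    (hon1 : ∀ b : B, (∃ c ∈ O1, (b : F) = algebraMap R F π * c) → b ∈ x1)
    (pi_ne : algebraMap R FM π ≠ 0) (hπ1 : V0.valuation (algebraMap R FM π) < 1)
    (zF : F) (j : FM)
    (hj : ∃ a d : BM, (⟨φ (d : FM), hφB d⟩ : B) ∉ x1 ∧ j * (d : FM) = (a : FM))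
    (Φ : ℤ[X][X]) (hΦ : Φ.Monic)
    (hΦz : (Φ.map (Polynomial.eval₂RingHom (Int.castRingHom FM) j)).eval₂ φ zF = 0)
    (m : ℕ)
    (hprim : letI := φ.toAlgebra; (minpoly FM zF).natDegree = Module.finrank FM F)
    (hN : letI := φ.toAlgebra
      V0.valuation (Algebra.norm FM (aeval zF (derivative (minpoly FM zF)))) =
        V0.valuation (algebraMap R FM π) ^ m)
    (hm : letI := φ.toAlgebra; m < Module.finrank FM F) :
    letI := chartAlgebra φ BM B hφB
    ∀ (n : ℕ) (b : Basis (Fin n) (RP (x1.comap (algebraMap ↥BM ↥B)))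
        (SP ↥B (x1.comap (algebraMap ↥BM ↥B)))) (a : ℕ)
      (u : RP (x1.comap (algebraMap ↥BM ↥B))), IsUnit u →
      Algebra.discr (RP (x1.comap (algebraMap ↥BM ↥B))) b =
        algebraMap ↥BM (RP (x1.comap (algebraMap ↥BM ↥B))) (algebraMap R ↥BM π) ^ a * u →
      a < n :=
  hexp_chart π φ BM B hφB fracBM intclB fracB x1 V0 leV0
    (inv_mem_of_notMem π φ BM B hφB V0 O1 hφR hφV hunif leV0 x1 hon1) pi_ne hπ1 zF
    (Φ.map (Polynomial.eval₂RingHom (Int.castRingHom FM) j)) (hΦ.map _) hΦz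
    (fun i => by
      rw [Polynomial.coeff_map]
      exact regular_eval₂_int_chart φ BM B hφB fracBM x1 j hj (Φ.coeff i))
    m hprim hN hm

end Chart

/-! ### The model layer (level `M' q`, data of `ModelDefs9`) -/

section Model

open HahnSeries ModularCurve AlgebraicCurve
open Fermat.Agent.RED.PUR.GaussGen8 Fermat.Agent.RED.Interface4 Fermat.Agent.ES.N34.ModelDefs9
  Fermat.Agent.ES.N34.ModelGlue22 Fermat.Agent.ES.N34.GaussEmb22 Fermat.Agent.ES.N35.NormInst11
  Fermat.Agent.ES.N34.FrickeFK8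
  Fermat.Agent.IG.PR.Interface20 Fermat.Agent.ES.P36.DiffExp2 Fermat.Agent.ES.P36.DiffNorm2
  Fermat.Agent.ES.P36.RegChart21

set_option synthInstance.maxHeartbeats 400000
set_option maxHeartbeats 1000000

/-- a modular polynomial of prime level `q` (`IG.AN.ModPoly3.p0`). -/
def modPoly (q : ℕ) [NeZero q] (hq : q.Prime) : ℤ[X][X] :=
  (Fermat.Agent.IG.AN.ModPoly3.p0 q hq).choose

theorem modPoly_spec (q : ℕ) [NeZero q] (hq : q.Prime) :
    (modPoly q hq).Monic ∧ (modPoly q hq).natDegree = q + 1 ∧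
    (modPoly q hq).eval₂ (evalAt ℤ (jqModC ℤ)) (qExpand ℤ q (jqModC ℤ)) = 0 ∧
    (modPoly q hq).eval₂ (evalAt ℤ (qExpand ℤ q (jqModC ℤ))) (jqModC ℤ) = 0 :=
  (Fermat.Agent.IG.AN.ModPoly3.p0 q hq).choose_spec

variable (A : ValuationSubring Qbar) (K : IntermediateField ℚ Qbar) (M' q : ℕ) [NeZero M'] [NeZero q]
  [hq : Fact q.Prime] [IsDiscreteValuationRing ↥(AK A K)] [CharP (Res (AK A K)) q]
  {π : ↥(AK A K)}

theorem alpha_mem_O1 (hu : IsUnif (AK A K) π)
    (hE : FK (M' * q) K ≤ fracField (AK A K)) (hE₀ : FK M' K ≤ fracField (AK A K))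
    (c : ↥(FK M' K)) (hc : c ∈ gaussVS hu (FK M' K) hE₀) :
    (alpha K M' q : ↥(FK M' K) →+* ↥(FK (M' * q) K)) c ∈ O1 M' q hu hE := by
  show ((alpha K M' q c : ↥(FK (M' * q) K)) : LaurentSeries K) ∈ gaussRing (AK A K)
  rw [coe_alpha]
  exact hc

theorem algebraMap_pi_ne_zero (hπ : Irreducible π) :
    algebraMap ↥(AK A K) ↥(FK M' K) π ≠ 0 := by
  intro h0
  have h1 : algebraMap K (FK M' K) (π : K) = 0 := h0
  exact hπ.ne_zero (Subtype.ext ((map_eq_zero_iff _ (algebraMap K (FK M' K)).injective).mp h1))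

theorem valuation_pi_lt_one (hπ : Irreducible π) (hu : IsUnif (AK A K) π)
    (hE₀ : FK M' K ≤ fracField (AK A K)) :
    (gaussVS hu (FK M' K) hE₀).valuation (algebraMap ↥(AK A K) ↥(FK M' K) π) < 1 :=
  val_pi_lt_one (isGaussPullback_Ov_val A K M' hu hE₀) hπ

theorem unif_gaussVS (hπ : Irreducible π) (hu : IsUnif (AK A K) π)
    (hE₀ : FK M' K ≤ fracField (AK A K)) :
    ∀ x ∈ gaussVS hu (FK M' K) hE₀, x⁻¹ ∉ gaussVS hu (FK M' K) hE₀ →
      ∃ c ∈ gaussVS hu (FK M' K) hE₀, x = algebraMap ↥(AK A K) ↥(FK M' K) π * c := by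
  intro x hx hxi
  obtain ⟨c, hc, h⟩ := unif (isGaussPullback_Ov_val A K M' hu hE₀) hπ x hx hxi
  exact ⟨c, hc, h⟩

theorem alpha_algebraMap (r : ↥(AK A K)) :
    (alpha K M' q : ↥(FK M' K) →+* ↥(FK (M' * q) K)) (algebraMap ↥(AK A K) ↥(FK M' K) r) =
      algebraMap ↥(AK A K) ↥(FK (M' * q) K) r :=
  (alpha K M' q).commutes (r : K)

/-- `βj` is a root of `Φ(X, j)`. -/
theorem modPoly_root :
    ((modPoly q hq.out).map (Polynomial.eval₂RingHom (Int.castRingHom ↥(FK M' K))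
      (xdL M' K 1 (one_dvd _)))).eval₂
        (alpha K M' q : ↥(FK M' K) →+* ↥(FK (M' * q) K)) (betaJ K M' q) = 0 := by
  obtain ⟨-, -, h1, -⟩ := modPoly_spec q hq.out
  rw [Polynomial.eval₂_map]
  have hcomp : (alpha K M' q : ↥(FK M' K) →+* ↥(FK (M' * q) K)).comp
      (Polynomial.eval₂RingHom (Int.castRingHom ↥(FK M' K)) (xdL M' K 1 (one_dvd _))) =
        evF K M' q := by
    rw [evF_eq]; rfl
  rw [hcomp]
  exact eval₂_evF_eq_zero K M' q (modPoly q hq.out) h1

/-- the three facts about `βj` under `algebraAlong α` (helper2's `DiffNorm2`). -/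
theorem betaJ_facts (hπ : Irreducible π) (hu : IsUnif (AK A K) π) (hqM : ¬ q ∣ M')
    (hE : FK (M' * q) K ≤ fracField (AK A K)) (hE₀ : FK M' K ≤ fracField (AK A K))
    (hqπ : ∃ u : (↥(AK A K))ˣ, ((q : ℕ) : ↥(AK A K)) = π * u) :
    letI := (alpha K M' q : ↥(FK M' K) →+* ↥(FK (M' * q) K)).toAlgebra
    (minpoly (FK M' K) (betaJ K M' q)).natDegree = Module.finrank (FK M' K) (FK (M' * q) K) ∧
    (gaussVS hu (FK M' K) hE₀).valuation (Algebra.norm (FK M' K)
        (aeval (betaJ K M' q) (derivative (minpoly (FK M' K) (betaJ K M' q))))) =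
      (gaussVS hu (FK M' K) hE₀).valuation (algebraMap ↥(AK A K) ↥(FK M' K) π) ^ q ∧
    q < Module.finrank (FK M' K) (FK (M' * q) K) := by
  obtain ⟨hmonic, hdeg, h1, h2⟩ := modPoly_spec q hq.out
  have key : letI := algebraAlong (alpha K M' q)
      (minpoly (FK M' K) (betaJ K M' q)).natDegree = Module.finrank (FK M' K) (FK (M' * q) K) ∧
      (gaussVS hu (FK M' K) hE₀).valuation (Algebra.norm (FK M' K)
          (aeval (betaJ K M' q) (derivative (minpoly (FK M' K) (betaJ K M' q))))) =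
        (gaussVS hu (FK M' K) hE₀).valuation (algebraMap K (FK M' K) (π : K)) ^ q ∧
      q < Module.finrank (FK M' K) (FK (M' * q) K) := by
    letI := algebraAlong (alpha K M' q)
    have hfr : Module.finrank (FK M' K) (FK (M' * q) K) = q + 1 :=
      Fermat.Agent.ES.HECKE.AlongDegree25.finrankAlong_alpha (↥K) M' q hq.out hqM
    refine ⟨natDegree_minpoly_betaJ A K M' q hπ hu hqM hE hE₀ _ hmonic hdeg h1, ?_, ?_⟩
    · rw [aeval_derivative_minpoly_betaJ A K M' q hπ hu hqM hE hE₀ _ hmonic hdeg h1]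
      exact valuation_normAlong_diffElt A K M' q hπ hu hqM hE hE₀ hqπ _ hmonic hdeg h1 h2
    · rw [hfr]
      exact Nat.lt_succ_self q
  exact key

set_option maxHeartbeats 4000000 in
/-- **`hexp` at level `M' q`** (the exponent bound of `RegChart21.exists_two_generators`, R2): for a
pair of charts `BM ⊆ F_{M'}`, `B ⊆ F_{M' q}` with `α(BM) ⊆ B` and a prime `x1` of `B` lying on the
component `O1`, at which `j` is regular (`hj`, the R4 input "`x1` is not a cusp"): the discriminant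
exponent of `SP B x0` over `RP x0` is `< n` (`n = q + 1`, the bound is `a ≤ q`). -/
theorem hexp_model (hπ : Irreducible π) (hu : IsUnif (AK A K) π) (hqM : ¬ q ∣ M')
    (hE : FK (M' * q) K ≤ fracField (AK A K)) (hE₀ : FK M' K ≤ fracField (AK A K))
    (hqπ : ∃ u : (↥(AK A K))ˣ, ((q : ℕ) : ↥(AK A K)) = π * u)
    (BM : Subalgebra ↥(AK A K) ↥(FK M' K)) (B : Subalgebra ↥(AK A K) ↥(FK (M' * q) K))
    (hφB : ∀ b : BM, (alpha K M' q : ↥(FK M' K) →+* ↥(FK (M' * q) K)) (b : ↥(FK M' K)) ∈ B)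
    (fracBM : ∀ x : ↥(FK M' K), ∃ a ∈ BM, ∃ b ∈ BM, b ≠ 0 ∧ x * b = a)
    (intclB : ∀ x : ↥(FK (M' * q) K), IsIntegral B x → x ∈ B)
    (fracB : ∀ x : ↥(FK (M' * q) K), ∃ a ∈ B, ∃ b ∈ B, b ≠ 0 ∧ x * b = a)
    (leV0 : ∀ b ∈ BM, b ∈ gaussVS hu (FK M' K) hE₀)
    (x1 : Ideal B) [hx1 : x1.IsPrime]
    (hon1 : ∀ b : B, (∃ c ∈ O1 M' q hu hE,
      (b : ↥(FK (M' * q) K)) = algebraMap ↥(AK A K) ↥(FK (M' * q) K) π * c) → b ∈ x1)
    (hj : ∃ a d : BM,
      (⟨(alpha K M' q : ↥(FK M' K) →+* ↥(FK (M' * q) K)) (d : ↥(FK M' K)), hφB d⟩ : B) ∉ x1 ∧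
        (xdL M' K 1 (one_dvd _) : ↥(FK M' K)) * (d : ↥(FK M' K)) = (a : ↥(FK M' K))) :
    letI := chartAlgebra (alpha K M' q : ↥(FK M' K) →+* ↥(FK (M' * q) K)) BM B hφB
    ∀ (n : ℕ) (b : Basis (Fin n) (RP (x1.comap (algebraMap ↥BM ↥B)))
        (SP ↥B (x1.comap (algebraMap ↥BM ↥B)))) (a : ℕ)
      (u : RP (x1.comap (algebraMap ↥BM ↥B))), IsUnit u →
      Algebra.discr (RP (x1.comap (algebraMap ↥BM ↥B))) b =
        algebraMap ↥BM (RP (x1.comap (algebraMap ↥BM ↥B)))
          (algebraMap ↥(AK A K) ↥BM π) ^ a * u →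
      a < n :=
  haveI : CharZero ↥(FK M' K) :=
    charZero_of_injective_algebraMap (algebraMap ℚ ↥(FK M' K)).injective
  hexp_chart_modular π (alpha K M' q : ↥(FK M' K) →+* ↥(FK (M' * q) K)) BM B hφB fracBM intclB
    fracB x1 (gaussVS hu (FK M' K) hE₀) (O1 M' q hu hE) (alpha_algebraMap A K M' q)
    (alpha_mem_O1 A K M' q hu hE hE₀) (unif_gaussVS A K M' hπ hu hE₀) leV0 hon1
    (algebraMap_pi_ne_zero A K M' hπ) (valuation_pi_lt_one A K M' hπ hu hE₀)
    (betaJ K M' q) (xdL M' K 1 (one_dvd _)) hj (modPoly q hq.out) (modPoly_spec q hq.out).1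
    (modPoly_root K M' q) q
    (betaJ_facts A K M' q hπ hu hqM hE hE₀ hqπ).1
    (betaJ_facts A K M' q hπ hu hqM hE hE₀ hqπ).2.1
    (betaJ_facts A K M' q hπ hu hqM hE hE₀ hqπ).2.2

end Model

end Fermat.Agent.ES.P36.RegExp12
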