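/-
Program P (S36), chapter REG, brick RegInst (helper21): **`RegInst21.ExpItems` from R2**
(helper12's `RegExp12.hexp_model`), per `K`, both charts.

The chart inputs of `hexp_model` (`fracBM`, `intclB`, `fracB`, `leV0`) are discharged from Program N's
packages (`LevelItems` at level `M'`, the Gauss data of `tN` at level `M' q`); `hon1` is `OnBranch`
literally.  What stays open is the ONE named input
* `JRegItems` (R4 + (J)): `j` is regular at the closed points lying on both components, in the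
  form `∃ a d : BM, α d ∉ x1 ∧ j * d = a` (`JReg21`),
and the arithmetic fact `hqπ : q = π · unit` (inertial `K`).
-/
import Mathlib
import Fermat.Agent.ES.P36.RegExp12
import Fermat.Agent.ES.P36.RegInst21

set_option autoImplicit false
set_option synthInstance.maxHeartbeats 400000
set_option linter.style.haveILetI false
set_option linter.unusedSectionVars false

noncomputable section

open HahnSeries ModularCurve IntermediateField

namespace Fermat.Agent.ES.P36.RegExpAsm21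

open Fermat.Agent.RED.Interface4 Fermat.Agent.RED.PUR.GaussGen8 Fermat.Agent.RED.PUR.KtGauss8
  Fermat.Agent.RED.PUR.G1Package8 Fermat.Agent.RED.BASE.EtaQuot12
  Fermat.Agent.RED.PUR.ChartGeneric22
  Fermat.Agent.ES.N34.ModelDefs9 Fermat.Agent.ES.N34.ModelN4
  Fermat.Agent.ES.N34.LevelM20 Fermat.Agent.ES.N34.PrinItems12
  Fermat.Agent.ES.N34.FrickeFK8 Fermat.Agent.ES.N34.ChartN26
  Fermat.Agent.ES.P36.RegInst21

variable (n e q M' : ℕ) [NeZero n] [NeZero M'] [NeZero q] (A : ValuationSubring Qbar)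
  (K : IntermediateField ℚ Qbar)

/-- **R4 + (J) at `K`**: `j` is regular at the closed points of `B0`, `B1` lying on both vertical
components, seen from the level-`M'` charts: `j = a / d` with `a d ∈ BM` and `α d ∉ x1`. -/
def JRegItems : Prop :=
  ∀ (ht : tq (↥K) n e ∈ FK M' K) (hE : FK (M' * q) K ≤ fracField (AK A K))
    (π : ↥(AK A K)) (hπ : IsUnif (AK A K) π),
    (∀ (x1 : Ideal ↥(B0 A q ht)), x1.IsMaximal →
      OnBranch π (B0 A q ht) (O1 M' q hπ hE) x1 → OnBranch π (B0 A q ht) (O2 M' q hπ hE) x1 →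
      ∃ a d : ↥(B0M A ht),
        (⟨(alpha K M' q : ↥(FK M' K) →+* ↥(FK (M' * q) K)) (d : ↥(FK M' K)),
          alpha_mem_B0 q M' A K ht d⟩ : ↥(B0 A q ht)) ∉ x1 ∧
        (xdL M' K 1 (one_dvd _) : ↥(FK M' K)) * (d : ↥(FK M' K)) = (a : ↥(FK M' K))) ∧
    (∀ (x1 : Ideal ↥(B1 A q ht)), x1.IsMaximal →
      OnBranch π (B1 A q ht) (O1 M' q hπ hE) x1 → OnBranch π (B1 A q ht) (O2 M' q hπ hE) x1 →
      ∃ a d : ↥(B1M A ht),
        (⟨(alpha K M' q : ↥(FK M' K) →+* ↥(FK (M' * q) K)) (d : ↥(FK M' K)),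
          alpha_mem_B1 q M' A K ht d⟩ : ↥(B1 A q ht)) ∉ x1 ∧
        (xdL M' K 1 (one_dvd _) : ↥(FK M' K)) * (d : ↥(FK M' K)) = (a : ↥(FK M' K)))

variable {n e q M' A K}

set_option maxHeartbeats 4000000 in
/-- **`ExpItems` at one number field `K`** (R2 = `RegExp12.hexp_model`, both charts). -/
theorem expItems_at (hq : q.Prime) (hqM : ¬ q ∣ M') (hA : A.LiesOverPrime q)
    [FiniteDimensional ℚ K] (hL : LevelItems n e M' A K)
    (hqπ : ∀ π : ↥(AK A K), IsUnif (AK A K) π →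
      ∃ u : (↥(AK A K))ˣ, ((q : ℕ) : ↥(AK A K)) = π * u)
    (hj : JRegItems n e q M' A K) : ExpItems n e q M' A K := by
  intro ht hE π hπ
  have hdvr : IsDiscreteValuationRing ↥(AK A K) :=
    Fermat.Agent.RED.DESC.NumberFieldDVR27.isDiscreteValuationRing_AK A K hq.ne_zero hA
  have hirr : Irreducible π := (IsDiscreteValuationRing.irreducible_iff_uniformizer π).mpr hπ.max_eq
  haveI : Fact q.Prime := ⟨hq⟩
  haveI : CharP (Res (AK A K)) q :=
    Fermat.Agent.RED.DESC.NumberFieldDVR27.charP_residueField_AK A K hq hA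
  haveI : NeZero (M' * q) := ⟨Nat.mul_ne_zero (NeZero.ne M') (NeZero.ne q)⟩
  obtain ⟨_, hjt, hLM⟩ := hL
  obtain ⟨L0, L1⟩ := hLM π hirr
  have L0' : LevelM (AK A K) (FK M' K) π (tM ht) := L0
  have L1' : LevelM (AK A K) (FK M' K) π (tM ht)⁻¹ := L1
  have hE₀ : FK M' K ≤ fracField (AK A K) := L0'.hEM
  obtain ⟨hj0, hj1⟩ := hj ht hE π hπ
  -- Gauss data of `tN`
  have htG : ((tN q ht : FK (M' * q) K) : LaurentSeries ↥K) ∈ gaussRing (AK A K) :=
    Fermat.Agent.ES.N34.ModelGlue22.tN_mem_gaussRing (A := A) M' q ht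
  have heq := Fermat.Agent.ES.N34.ModelGlue22.tN_eq_tG (A := A) M' q ht htG
  have htrG : Transcendental (Res (AK A K))
      (gaussRed (AK A K) ⟨((tN q ht : FK (M' * q) K) : LaurentSeries ↥K), htG⟩) := by
    rw [heq]; exact Fermat.Agent.RED.BASE.TBridge15.transcendental_gaussRed_tG (AK A K) n e
  have hjt' : jqModC ↥K ∈ Kt (AK A K)
      ⟨((tN q ht : FK (M' * q) K) : LaurentSeries ↥K), htG⟩ := by
    rw [heq]; exact hjt
  have hnG : relfinrank (Kt (AK A K) ⟨((tN q ht : FK (M' * q) K) : LaurentSeries ↥K), htG⟩)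
      (FK (M' * q) K) ≠ 0 :=
    Fermat.Agent.RED.ModelMain4.relfinrank_ne_zero (AK A K) (M' * q) _ (tN q ht).2 hjt'
  have htG1 := tinv_mem_gaussRing (tN q ht) htG htrG
  have htrG1 := transcendental_inv (tN q ht) htG htrG
  have hnG1 : relfinrank (Kt (AK A K)
      ⟨(((tN q ht)⁻¹ : FK (M' * q) K) : LaurentSeries ↥K), htG1⟩) (FK (M' * q) K) ≠ 0 := by
    rw [Kt_inv (tN q ht) htG htrG]; exact hnG
  -- chart facts
  have ciM0 := (chartInputs_gauss hirr (tM ht) L0'.htM L0'.htrM L0'.hn').out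
  have ciM1 := (chartInputs_gauss hirr (tM ht)⁻¹ L1'.htM L1'.htrM L1'.hn').out
  have ci0 := (chartInputs_gauss hirr (tN q ht) htG htrG hnG).out
  have ci1 := (chartInputs_gauss hirr (tN q ht)⁻¹ htG1 htrG1 hnG1).out
  refine ⟨?_, ?_⟩
  · intro x1 hx1 hon1 hon2
    exact Fermat.Agent.ES.P36.RegExp12.hexp_model A K M' q hirr hπ hqM hE hE₀ (hqπ π hπ)
      (B0M A ht) (B0 A q ht) (alpha_mem_B0 q M' A K ht) ciM0.frac0 (chart_intcl (tN q ht))
      ci0.frac0
      (fun b hb => (mem_gaussVS_iff hπ (FK M' K) hE₀ b).mpr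
        (Fermat.Agent.ES.N34.KronItems15.le_B0M hirr ht b hb))
      x1 hon1 (hj0 x1 hx1 hon1 hon2)
  · intro x1 hx1 hon1 hon2
    exact Fermat.Agent.ES.P36.RegExp12.hexp_model A K M' q hirr hπ hqM hE hE₀ (hqπ π hπ)
      (B1M A ht) (B1 A q ht) (alpha_mem_B1 q M' A K ht) ciM1.frac0 (chart_intcl (tN q ht)⁻¹)
      ci1.frac0
      (fun b hb => (mem_gaussVS_iff hπ (FK M' K) hE₀ b).mpr
        (Fermat.Agent.ES.N34.KronItems15.le_B1M hirr ht b hb))
      x1 hon1 (hj1 x1 hx1 hon1 hon2)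

end Fermat.Agent.ES.P36.RegExpAsm21
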