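/-
Program P (S36), chapter REG, brick RegInst (helper21): **`RegExpAsm21.JRegItems`** — the R4 + (J)
input `hj` of `RegExp12.hexp_model`: at a closed point `x1` of the chart `B0` (resp. `B1`) of level
`M' q` lying on both vertical components, `j = a / d` with `a, d` in the level-`M'` chart `B0M`
(resp. `B1M`) and `α d ∉ x1`.

With `j = N(t) / D0(t)` (`JFracInst16.exists_jFrac`, `D0 ∈ ℤ[X]` primitive):
* chart `0`: `d := D0(tM)`, `α d = D0(tN) ∉ x1` (`CuspThirdK16.ival_tN_notMem_of_on_both`);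
* chart `1`: `d := Dr(tM⁻¹) · (tM⁻¹) ^ deg N`, `Dr = D0.reverse`; `Dr(tN⁻¹) ∉ x1`
  (`ival_tN_inv_notMem_of_on_both`) and `tN⁻¹ ∉ x1` (`CuspIntK16.tN_inv_notMem_of_on_both`);
* `a := j · d` lies in the chart: it is a polynomial in `tM` (resp. `tM⁻¹`) over `ℚbar`, hence
  integral over `K[tM]` (`ModEq23.descend`), it is Gauss-integral, and the chart is `π`-saturated in
  the Gauss valuation ring (`SatIntegral18.mem_of_isIntegral_field` + `CompGauss16.levelM_sat`).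
-/
import Mathlib
import Fermat.Agent.ES.P36.CuspOffAsm21
import Fermat.Agent.ES.P36.RegExpAsm21

set_option autoImplicit false
set_option synthInstance.maxHeartbeats 400000
set_option linter.style.haveILetI false
set_option linter.unusedSectionVars false

noncomputable section

open HahnSeries ModularCurve IntermediateField Polynomial
open scoped MatrixGroups

namespace Fermat.Agent.ES.P36.JReg21

/-! ### Generic: Gauss-integral + integral on the generic fibre ⇒ in the chart -/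

section Generic

open Fermat.Agent.RED.PUR.GaussGen8 Fermat.Agent.RED.PUR.KtGauss8 Fermat.Agent.RED.PUR.G1Package8
  Fermat.Agent.RED.PUR.ChartGeneric22 Fermat.Agent.ES.N34.LevelM20 Fermat.Agent.ES.N34.ChartN26
  Fermat.Agent.ES.N34.CompGauss16 Fermat.Agent.ES.N34.SatIntegral18

variable {K : Type*} [Field K] [CharZero K] {O : ValuationSubring K} [IsDiscreteValuationRing ↥O]
  {π : ↥O} {EM : IntermediateField K (LaurentSeries K)}

/-- an element of `EM` which is integral over `K[s]` and Gauss-integral lies in the chart of `s`. -/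
theorem mem_chart_of_isIntegral_gauss (s : ↥EM) (Ls : LevelM O EM π s) {x : ↥EM}
    (hx : IsIntegral (Algebra.adjoin K {s}) x) (hxG : (x : LaurentSeries K) ∈ gaussRing O) :
    x ∈ chart ↥O s := by
  haveI : IsScalarTower ↥O K ↥EM := Fermat.Agent.RED.NumInst4.isScalarTower_OE O EM
  obtain ⟨n', hd, hi⟩ := Ls.deg_irr
  have ci := (chartInputs_gauss Ls.irr s Ls.htM Ls.htrM Ls.hn').out
  have hπO : algebraMap ↥O ↥EM π ∈ OvE O Ls.irr EM Ls.hEM :=
    levelM_le Ls.irr Ls.hEM s Ls.htM _ ((chart ↥O s).algebraMap_mem π)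
  have hxO : x ∈ OvE O Ls.irr EM Ls.hEM := (mem_OvE_iff O Ls.irr EM Ls.hEM x).mpr hxG
  exact mem_of_isIntegral_field (R := ↥O) (K := K) π ci.dvrR s (chart ↥O s)
    (fun y hy => hy) (OvE O Ls.irr EM Ls.hEM) (OvE O Ls.irr EM Ls.hEM) hπO hπO
    (fun b hb c hc _ hbc => levelM_sat Ls.irr Ls.hEM s Ls.htM Ls.htrM hd hi b hb c hc hbc)
    hx hxO hxO

end Generic

/-! ### Generic: `P(t) · t⁻ᵐ` is a polynomial in `t⁻¹` for `m ≥ deg P` -/

section Poly

variable {k L : Type*} [Field k] [Field L] [Algebra k L]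

theorem aeval_mul_inv_pow_mem {t : L} (ht : t ≠ 0) (P : k[X]) (m : ℕ) (hm : P.natDegree ≤ m) :
    aeval t P * (t⁻¹) ^ m ∈ Algebra.adjoin k {t⁻¹} := by
  rw [aeval_eq_sum_range, Finset.sum_mul]
  refine Subalgebra.sum_mem _ fun i hi => ?_
  have hi' : i ≤ m := le_trans (Nat.lt_succ_iff.mp (Finset.mem_range.mp hi)) hm
  have h0 : t ^ i * (t⁻¹) ^ m = (t⁻¹) ^ (m - i) := by
    have h2 : (t⁻¹) ^ m = (t⁻¹) ^ (m - i) * (t⁻¹) ^ i := (pow_sub_mul_pow _ hi').symm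
    rw [h2, mul_comm, mul_assoc, ← mul_pow, inv_mul_cancel₀ ht, one_pow, mul_one]
  have h1 : (P.coeff i • t ^ i) * (t⁻¹) ^ m = P.coeff i • (t⁻¹) ^ (m - i) := by
    rw [smul_mul_assoc, h0]
  rw [h1]
  have hmem : t⁻¹ ∈ Algebra.adjoin k {t⁻¹} := Algebra.subset_adjoin (Set.mem_singleton _)
  exact Subalgebra.smul_mem _ (Subalgebra.pow_mem _ hmem _) _

end Poly

/-! ### The `q`-expansion of `j · D0(t) = N(t)` and integrality over `K[t]`, `K[t⁻¹]` -/

section Series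

open Fermat.Agent.X0 Fermat.Agent.RED.Interface4
open Fermat.Agent.RED.BASE.Interface12 Fermat.Agent.RED.BASE.Hauptmodul12
open Fermat.Agent.RED.BASE.EtaQuot12 Fermat.Agent.RED.BASE
open Fermat.Agent.ES.N34.ModEqBar23 Fermat.Agent.ES.N34.ModEq23
open Fermat.Agent.ES.P36.CuspPoly16 Fermat.Agent.ES.P36.CuspThirdK16

variable (K : IntermediateField ℚ Qbar) {n e : ℕ} [NeZero n]

/-- the `q`-expansion of the relation `j · D0(t) = N(t)`. -/
theorem jFrac_series (hb : BaseHyp n e) (N : Kbar[X]) (D0 : ℤ[X]) (hND : JFrac n e hb N D0) :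
    jqModC Kbar * ival D0 (tK n e) = aeval (tK n e) N := by
  obtain ⟨-, -, hj⟩ := hND
  have hcoe : ∀ p : Polynomial Kbar,
      ((Polynomial.aeval (tF n (tMem hb)) p : FF n) : LaurentSeries Kbar) =
        Polynomial.aeval (tK n e) p :=
    fun p => (Polynomial.aeval_algHom_apply (modularFunctionFieldBar n).val
      (tF n (tMem hb)) p).symm
  have hcoeI : ((ival D0 (tF n (tMem hb)) : FF n) : LaurentSeries Kbar) = ival D0 (tK n e) :=
    map_ival (modularFunctionFieldBar n).val.toRingHom (tF n (tMem hb)) D0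
  have hmul : ((jF n * ival D0 (tF n (tMem hb)) : FF n) : LaurentSeries Kbar) =
      ((jF n : FF n) : LaurentSeries Kbar) *
        ((ival D0 (tF n (tMem hb)) : FF n) : LaurentSeries Kbar) := rfl
  rw [← Fermat.Agent.RED.BASE.JInKt25.coe_jF_eq n, ← hcoeI, ← hmul, hj, hcoe]

/-- `j · D0(t)` is integral over `K[t]` (it is a polynomial in `t` over `ℚbar`). -/
theorem isIntegral_j_mul (hb : BaseHyp n e) (N : Kbar[X]) (D0 : ℤ[X])
    (hND : JFrac n e hb N D0) :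
    IsIntegral (Algebra.adjoin K {tq K n e}) (jqModC K * ival D0 (tq K n e)) := by
  apply descend
  rw [map_mul, map_ival, coeffMap_jqModC, coeffMap_tq]
  have h := jFrac_series hb N D0 hND
  have hmem : aeval (tK n e) N ∈ Algebra.adjoin Kbar {tK n e} :=
    aeval_mem_adjoin_singleton _ _
  rw [← h] at hmem
  exact isIntegral_algebraMap
    (x := (⟨_, hmem⟩ : Algebra.adjoin Kbar {tK n e}))

/-- `j · Dr(t⁻¹) · t⁻ᵐ` is integral over `K[t⁻¹]` for `deg N ≤ deg D0 + m`. -/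
theorem isIntegral_j_mul_inv (hb : BaseHyp n e) (N : Kbar[X]) (D0 : ℤ[X])
    (hND : JFrac n e hb N D0) (m : ℕ) (hm : N.natDegree ≤ D0.natDegree + m) :
    IsIntegral (Algebra.adjoin K {(tq K n e)⁻¹})
      (jqModC K * (ival D0.reverse (tq K n e)⁻¹ * ((tq K n e)⁻¹) ^ m)) := by
  apply descend
  have e1 : coeffMap (algebraMap K Qbar) (tq K n e)⁻¹ = (tK n e)⁻¹ := by
    rw [map_inv₀, coeffMap_tq]
  rw [e1]
  simp only [map_mul, map_pow, map_ival]
  rw [e1, coeffMap_jqModC]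
  have ht0 : tK n e ≠ 0 := TGen19.tK_ne_zero n e
  have h := jFrac_series hb N D0 hND
  have hmem := aeval_mul_inv_pow_mem (k := Kbar) ht0 N (D0.natDegree + m) hm
  have heq : jqModC Kbar * (ival D0.reverse (tK n e)⁻¹ * ((tK n e)⁻¹) ^ m) =
      aeval (tK n e) N * ((tK n e)⁻¹) ^ (D0.natDegree + m) := by
    rw [ival_reverse_inv ht0, ← h, _root_.pow_add]
    ring
  rw [← heq] at hmem
  exact isIntegral_algebraMap
    (x := (⟨_, hmem⟩ : Algebra.adjoin Kbar {(tK n e)⁻¹}))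

end Series

/-! ### The model -/

section Model

open Fermat.Agent.X0 Fermat.Agent.RED.Interface4 Fermat.Agent.RED.PUR.GaussGen8
  Fermat.Agent.RED.BASE.Interface12 Fermat.Agent.RED.BASE.Hauptmodul12
  Fermat.Agent.RED.BASE.EtaQuot12 Fermat.Agent.RED.ModelTargets4
  Fermat.Agent.RED.PUR.ChartGeneric22 Fermat.Agent.RED.PUR.G1Package8
  Fermat.Agent.ES.N34.ModelDefs9 Fermat.Agent.ES.N34.ModelN4 Fermat.Agent.ES.N34.NodalCore13
  Fermat.Agent.ES.N34.NumData13 Fermat.Agent.ES.N34.LevelM20 Fermat.Agent.ES.N34.PrinItems12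
  Fermat.Agent.ES.N34.FrickeFK8 Fermat.Agent.ES.N34.KronChart15 Fermat.Agent.ES.N34.ModEq23
  Fermat.Agent.ES.P36.ModelQAt4 Fermat.Agent.ES.P36.RegInst21 Fermat.Agent.ES.P36.RegExpAsm21
  Fermat.Agent.ES.P36.CuspPoly16 Fermat.Agent.ES.P36.CuspThirdK16
  Fermat.Agent.ES.P36.JFracInst16 Fermat.Agent.ES.P36.CuspUnit16 Fermat.Agent.ES.P36.CuspFinal16
  Fermat.Agent.ES.P36.CuspOffAsm21

variable {n e q M' : ℕ} [NeZero n] [NeZero M'] [NeZero q] {A : ValuationSubring Qbar}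
  {K : IntermediateField ℚ Qbar}

/-- `j · D0(tM) ∈ B0M`. -/
theorem j_mul_mem_B0M (hb : BaseHyp n e) (ht : tq (↥K) n e ∈ FK M' K) {π : ↥(AK A K)}
    [IsDiscreteValuationRing ↥(AK A K)]
    (L0 : LevelM (AK A K) (FK M' K) π (tM ht)) (N : Kbar[X]) (D0 : ℤ[X])
    (hND : JFrac n e hb N D0) :
    (xdL M' K 1 (one_dvd _) : ↥(FK M' K)) * ival D0 (tM ht) ∈ B0M A ht := by
  refine mem_chart_of_isIntegral_gauss (tM ht) L0 ?_ ?_
  · refine isIntegral_of_coe_eq K _ (coe_tM ht) ?_ (isIntegral_j_mul K hb N D0 hND)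
    rw [IntermediateField.coe_mul, coe_ival, coe_xdL, qExpand_one_apply, coe_tM]
  · refine (mem_OvE_iff (AK A K) L0.irr (FK M' K) L0.hEM _).mp ?_
    refine (OvE (AK A K) L0.irr (FK M' K) L0.hEM).mul_mem _ _ ?_ ?_
    · exact (mem_OvE_iff (AK A K) L0.irr (FK M' K) L0.hEM _).mpr
        (Fermat.Agent.RED.PUR.GaussBridge10.jqd_mem_gaussRing (AK A K) 1)
    · exact ival_mem_valuationSubring _
        ((mem_OvE_iff (AK A K) L0.irr (FK M' K) L0.hEM _).mpr L0.htM) D0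

/-- `j · Dr(tM⁻¹) · (tM⁻¹)ᵐ ∈ B1M` for `deg N ≤ deg D0 + m`. -/
theorem j_mul_mem_B1M (hb : BaseHyp n e) (ht : tq (↥K) n e ∈ FK M' K) {π : ↥(AK A K)}
    [IsDiscreteValuationRing ↥(AK A K)]
    (L1 : LevelM (AK A K) (FK M' K) π (tM ht)⁻¹) (N : Kbar[X]) (D0 : ℤ[X])
    (hND : JFrac n e hb N D0) (m : ℕ) (hm : N.natDegree ≤ D0.natDegree + m) :
    (xdL M' K 1 (one_dvd _) : ↥(FK M' K)) * (ival D0.reverse (tM ht)⁻¹ * ((tM ht)⁻¹) ^ m) ∈
      B1M A ht := by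
  refine mem_chart_of_isIntegral_gauss (tM ht)⁻¹ L1 ?_ ?_
  · refine isIntegral_of_coe_eq K _ ?_ ?_ (isIntegral_j_mul_inv K hb N D0 hND m hm)
    · rw [IntermediateField.coe_inv, coe_tM]
    · rw [IntermediateField.coe_mul, IntermediateField.coe_mul, IntermediateField.coe_pow,
        coe_ival, IntermediateField.coe_inv, coe_xdL, qExpand_one_apply, coe_tM]
  · refine (mem_OvE_iff (AK A K) L1.irr (FK M' K) L1.hEM _).mp ?_
    have htO : (tM ht)⁻¹ ∈ OvE (AK A K) L1.irr (FK M' K) L1.hEM :=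
      (mem_OvE_iff (AK A K) L1.irr (FK M' K) L1.hEM _).mpr L1.htM
    refine (OvE (AK A K) L1.irr (FK M' K) L1.hEM).mul_mem _ _ ?_
      ((OvE (AK A K) L1.irr (FK M' K) L1.hEM).mul_mem _ _ ?_ (pow_mem htO m))
    · exact (mem_OvE_iff (AK A K) L1.irr (FK M' K) L1.hEM _).mpr
        (Fermat.Agent.RED.PUR.GaussBridge10.jqd_mem_gaussRing (AK A K) 1)
    · exact ival_mem_valuationSubring _ htO D0.reverse

set_option maxHeartbeats 4000000 in
/-- **`JRegItems` at one number field `K`.** -/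
theorem jRegItems_at (hb : BaseHyp n e) (hq : q.Prime) (hqn : ¬ q ∣ n) (hqM : ¬ q ∣ M')
    (hA : A.LiesOverPrime q) [FiniteDimensional ℚ K] (hF : FrobInvAt A K q)
    (hL : LevelItems n e M' A K) (hS2 : ModEqItems n e q M' A K)
    (hD : ∃ (ht : tq (↥K) n e ∈ FK M' K) (hE : FK (M' * q) K ≤ fracField (AK A K)),
      ∀ (π : ↥(AK A K)) (hπ : IsUnif (AK A K) π),
        NodalNumData ↥(AK A K) ↥K ↥(FK (M' * q) K) π (tN q ht) (B0 A q ht) (B1 A q ht)
          (O1 M' q hπ hE) (O2 M' q hπ hE)) :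
    JRegItems n e q M' A K := by
  obtain ⟨ht₀, hE₀, hD⟩ := hD
  intro ht hE π hπ
  have D : NodalNumData ↥(AK A K) ↥K ↥(FK (M' * q) K) π (tN q ht) (B0 A q ht) (B1 A q ht)
      (O1 M' q hπ hE) (O2 M' q hπ hE) := hD π hπ
  haveI hdvr : IsDiscreteValuationRing ↥(AK A K) :=
    Fermat.Agent.RED.DESC.NumberFieldDVR27.isDiscreteValuationRing_AK A K hq.ne_zero hA
  have hirr : Irreducible π := (IsDiscreteValuationRing.irreducible_iff_uniformizer π).mpr hπ.max_eq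
  haveI : Fact q.Prime := ⟨hq⟩
  haveI : CharP (Res (AK A K)) q :=
    Fermat.Agent.RED.DESC.NumberFieldDVR27.charP_residueField_AK A K hq hA
  obtain ⟨_, -, hLM⟩ := hL
  obtain ⟨L0, L1⟩ := hLM π hirr
  have L0' : LevelM (AK A K) (FK M' K) π (tM ht) := L0
  have L1' : LevelM (AK A K) (FK M' K) π (tM ht)⁻¹ := L1
  obtain ⟨hy0, hy1⟩ := hS2 ht
  obtain ⟨ψ, hψO, hψ⟩ := hF
  have hiso : ∀ x : FK M' K, (x : LaurentSeries ↥K) ∈ gaussRing (AK A K) →
      ((frickeFK M' K x : FK M' K) : LaurentSeries ↥K) ∈ gaussRing (AK A K) :=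
    fun x hx => (Fermat.Agent.ES.N34.IsoM25.isoM A K M' q hirr hqM x).mp hx
  have hinvα : alpha K M' q (tM ht)⁻¹ = (tN q ht)⁻¹ := map_inv₀ (alpha K M' q) (tM ht)
  have hinvβ : beta K M' q (tM ht)⁻¹ = (yN q ht)⁻¹ := map_inv₀ (beta K M' q) (tM ht)
  have hs2 : iotaTwo M' K (tM ht) ∈ gaussRing (AK A K) := hiso _ L0'.htM
  have hs2' : iotaTwo M' K (tM ht)⁻¹ ∈ gaussRing (AK A K) := hiso _ L1'.htM
  have hgs : arithmeticRingAut (modularFunctionFieldFull M') ψ (tM ht) = tM ht :=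
    gpsi_tM M' ψ ht
  have hgs' : arithmeticRingAut (modularFunctionFieldFull M') ψ (tM ht)⁻¹ = (tM ht)⁻¹ := by
    rw [map_inv₀, gpsi_tM]
  -- Kronecker, chart `0`
  have hK1 : ∃ o ∈ O1 M' q hπ hE, yN q ht - (tN q ht) ^ q =
      algebraMap ↥(AK A K) ↥(FK (M' * q) K) π * o := by
    obtain ⟨o, ho, h⟩ := kron_one M' q hπ hE ψ hψO hψ (tM ht) L0'.htM
    rw [hgs] at h
    exact ⟨o, ho, h⟩
  have hK2 : ∃ o ∈ O2 M' q hπ hE, tN q ht - (yN q ht) ^ q =
      algebraMap ↥(AK A K) ↥(FK (M' * q) K) π * o := by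
    obtain ⟨o, ho, h⟩ := kron_two' M' q hπ hE ψ hψO hψ (tM ht) hs2
    rw [hgs] at h
    exact ⟨o, ho, h⟩
  -- Kronecker, chart `1`
  have hK1' : ∃ o ∈ O1 M' q hπ hE, (yN q ht)⁻¹ - ((tN q ht)⁻¹) ^ q =
      algebraMap ↥(AK A K) ↥(FK (M' * q) K) π * o := by
    obtain ⟨o, ho, h⟩ := kron_one M' q hπ hE ψ hψO hψ (tM ht)⁻¹ L1'.htM
    rw [hgs', hinvα, hinvβ] at h
    exact ⟨o, ho, h⟩
  have hK2' : ∃ o ∈ O2 M' q hπ hE, (tN q ht)⁻¹ - ((yN q ht)⁻¹) ^ q =
      algebraMap ↥(AK A K) ↥(FK (M' * q) K) π * o := by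
    obtain ⟨o, ho, h⟩ := kron_two' M' q hπ hE ψ hψO hψ (tM ht)⁻¹ hs2'
    rw [hgs', hinvα, hinvβ] at h
    exact ⟨o, ho, h⟩
  -- the fraction `j = N(t) / D0(t)` and the unit facts
  obtain ⟨N, D0, hprim, hND⟩ := exists_jFrac n e hb
  have hqπ : π ∣ (q : ↥(AK A K)) := pi_dvd_q A q hA hirr
  have hDt1 := ival_tN_inv_mem_O1 M' q hπ hE hq ht hprim
  have hD2 := ival_yN_inv_mem_O2 M' q hπ hE hq
    (fun x => Fermat.Agent.ES.N34.IsoM25.isoM A K M' q hirr hqM x) ht hprim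
  have model := D.model
  have htN0 := Fermat.Agent.ES.P36.CuspIntK16.tN_ne_zero q ht
  have hyN0 := Fermat.Agent.ES.P36.CuspIntK16.yN_ne_zero q ht
  refine ⟨?_, ?_⟩
  · -- chart `0`
    intro x1 hx1 hon1 hon2
    have hR1 : ∀ r : ↥(AK A K), algebraMap ↥(AK A K) ↥(FK (M' * q) K) r ∈ O1 M' q hπ hE :=
      fun r => model.le_O1_0 _ ((B0 A q ht).algebraMap_mem r)
    have hD1 : (ival D0 (yN q ht))⁻¹ ∈ O1 M' q hπ hE :=
      ival_inv_mem_of_kron π q hq hqπ (O1 M' q hπ hE) hR1 model.pi_nonunit1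
        (model.le_O1_0 _ hy0) (model.le_O1_0 _ model.t_mem) hK1 D0 hDt1
        (ival_tN_ne_zero q ht D0 hND.2.1)
    have hx := ival_tN_notMem_of_on_both A q hb hq hqn ht π D.dvrR hqπ (O1 M' q hπ hE)
      (O2 M' q hπ hE) model.le_O1_0 model.le_O2_0 model.sat0 hy0 N D0 hND (jDict n hq hqn) hD1 hD2
      hK1 hK2 x1 hx1.ne_top (not_off_of_on π _ _ x1 hon1) (not_off_of_on π _ _ x1 hon2)
    refine ⟨⟨_, j_mul_mem_B0M hb ht L0' N D0 hND⟩,
      ⟨ival D0 (tM ht), ival_mem_subalgebra (B0M A ht) (self_mem_chart (tM ht)) D0⟩, ?_, rfl⟩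
    have heq : (⟨(alpha K M' q : ↥(FK M' K) →+* ↥(FK (M' * q) K)) (ival D0 (tM ht)),
        alpha_mem_B0 q M' A K ht
          ⟨ival D0 (tM ht), ival_mem_subalgebra (B0M A ht) (self_mem_chart (tM ht)) D0⟩⟩ :
        ↥(B0 A q ht)) =
        ⟨ival D0 (tN q ht), ival_mem_subalgebra (B0 A q ht) (self_mem_chart (tN q ht)) D0⟩ :=
      Subtype.ext (map_ival (alpha K M' q).toRingHom (tM ht) D0)
    rw [heq]
    exact hx
  · -- chart `1`
    intro x1 hx1 hon1 hon2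
    have hR1 : ∀ r : ↥(AK A K), algebraMap ↥(AK A K) ↥(FK (M' * q) K) r ∈ O1 M' q hπ hE :=
      fun r => model.le_O1_1 _ ((B1 A q ht).algebraMap_mem r)
    have hDrt1 : (ival D0.reverse (tN q ht)⁻¹)⁻¹ ∈ O1 M' q hπ hE :=
      ival_reverse_inv_inv_mem (O1 M' q hπ hE) htN0 (model.le_O1_0 _ model.t_mem) D0 hDt1
    have hDrt0 : ival D0.reverse (tN q ht)⁻¹ ≠ 0 := by
      rw [ival_reverse_inv htN0]
      exact mul_ne_zero (ival_tN_ne_zero q ht D0 hND.2.1) (pow_ne_zero _ (inv_ne_zero htN0))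
    have hD1' : (ival D0.reverse (yN q ht)⁻¹)⁻¹ ∈ O1 M' q hπ hE :=
      ival_inv_mem_of_kron π q hq hqπ (O1 M' q hπ hE) hR1 model.pi_nonunit1
        (model.le_O1_1 _ hy1) (model.le_O1_1 _ model.tinv_mem) hK1' D0.reverse hDrt1 hDrt0
    have hD2' : (ival D0.reverse (yN q ht)⁻¹)⁻¹ ∈ O2 M' q hπ hE :=
      ival_reverse_inv_inv_mem (O2 M' q hπ hE) hyN0 (model.le_O2_0 _ hy0) D0 hD2
    have hx := ival_tN_inv_notMem_of_on_both A q hb hq hqn ht π D.dvrR hqπ (O1 M' q hπ hE)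
      (O2 M' q hπ hE) model.le_O1_1 model.le_O2_1 model.sat1 hy1 N D0 hND (jDict n hq hqn)
      hD1' hD2' hK1' hK2' x1 hx1.ne_top (not_off_of_on π _ _ x1 hon1)
      (not_off_of_on π _ _ x1 hon2)
    have hinf := Fermat.Agent.ES.P36.CuspIntK16.tN_inv_notMem_of_on_both A q hb hq hqn ht π
      D.dvrR (O1 M' q hπ hE) (O2 M' q hπ hE) model.le_O1_1 model.le_O2_1 model.sat1 hy1
      (model.le_O1_0 _ hy0) (model.le_O2_0 _ hy0) hK1' hK2' x1 hx1.ne_top
      (not_off_of_on π _ _ x1 hon1) (not_off_of_on π _ _ x1 hon2)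
    have htB1M : (tM ht)⁻¹ ∈ B1M A ht := self_mem_chart (tM ht)⁻¹
    have hdmem : ival D0.reverse (tM ht)⁻¹ * ((tM ht)⁻¹) ^ N.natDegree ∈ B1M A ht :=
      (B1M A ht).mul_mem (ival_mem_subalgebra (B1M A ht) htB1M D0.reverse)
        ((B1M A ht).pow_mem htB1M _)
    refine ⟨⟨_, j_mul_mem_B1M hb ht L1' N D0 hND N.natDegree (Nat.le_add_left _ _)⟩,
      ⟨_, hdmem⟩, ?_, rfl⟩
    have hprime : x1.IsPrime := hx1.isPrime
    have heq : (⟨(alpha K M' q : ↥(FK M' K) →+* ↥(FK (M' * q) K))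
          (ival D0.reverse (tM ht)⁻¹ * ((tM ht)⁻¹) ^ N.natDegree),
        alpha_mem_B1 q M' A K ht ⟨_, hdmem⟩⟩ : ↥(B1 A q ht)) =
        (⟨ival D0.reverse (tN q ht)⁻¹,
          ival_mem_subalgebra (B1 A q ht) (self_mem_chart (tN q ht)⁻¹) D0.reverse⟩ :
          ↥(B1 A q ht)) *
        (⟨(tN q ht)⁻¹, self_mem_chart (tN q ht)⁻¹⟩ : ↥(B1 A q ht)) ^ N.natDegree := by
      apply Subtype.ext
      show (alpha K M' q) (ival D0.reverse (tM ht)⁻¹ * ((tM ht)⁻¹) ^ N.natDegree) =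
        ival D0.reverse (tN q ht)⁻¹ * ((tN q ht)⁻¹) ^ N.natDegree
      rw [map_mul, map_pow, hinvα]
      congr 1
      have := map_ival (alpha K M' q).toRingHom (tM ht)⁻¹ D0.reverse
      rw [← hinvα]
      exact this
    rw [heq]
    intro hmem
    rcases hprime.mem_or_mem hmem with h | h
    · exact hx h
    · exact hinf (hprime.mem_of_pow_mem _ h)

end Model

end Fermat.Agent.ES.P36.JReg21
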