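/-
Program P (S36), chapter INERT-P (helper27): the Kronecker items of Program N over an INERTIAL
number field (`InertField27.IsInertial`), twin of `KronItems15.kronItems_at` without normality.
-/
import Mathlib
import Fermat.Agent.ES.P36.InertField27
import Fermat.Agent.ES.N34.KronItems15

set_option autoImplicit false
set_option linter.unusedSectionVars false
set_option synthInstance.maxHeartbeats 400000

noncomputable section

open HahnSeries ModularCurve

namespace Fermat.Agent.ES.P36.KronInert27

open Fermat.Agent.RED.Interface4 Fermat.Agent.RED.PUR.GaussGen8 Fermat.Agent.RED.PUR.G1Package8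
  Fermat.Agent.RED.DESC
  Fermat.Agent.ES.N34.FrickeFK8 Fermat.Agent.ES.N34.ModelDefs9 Fermat.Agent.ES.N34.ModelN4
  Fermat.Agent.ES.N34.KronChart15 Fermat.Agent.ES.N34.KronN14 Fermat.Agent.ES.N34.KronItems15
  Fermat.Agent.ES.P36.InertField27

variable {A : ValuationSubring Qbar}

/-- **S5-B at one INERTIAL number field `K`** (`ModelN4.KronItems`, literal): twin of
`KronItems15.kronItems_at` without normality. -/
theorem kronItems_at_of_isInertial {K : IntermediateField ℚ Qbar} {M' n e q : ℕ} [NeZero M']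
    [NeZero n] [NeZero q] [FiniteDimensional ℚ K] (hK : IsInertial A K) (hq : q.Prime)
    (hqM : ¬ q ∣ M') (hA : A.LiesOverPrime q) : KronItems n e q M' A K := by
  intro ht hE π hπ
  have hdvr : IsDiscreteValuationRing ↥(AK A K) :=
    Fermat.Agent.RED.DESC.NumberFieldDVR27.isDiscreteValuationRing_AK A K hq.ne_zero hA
  have hirr : Irreducible π := (IsDiscreteValuationRing.irreducible_iff_uniformizer π).mpr hπ.max_eq
  have : Fact q.Prime := ⟨hq⟩
  have : CharP (Res (AK A K)) q := NumberFieldDVR27.charP_residueField_AK A K hq hA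
  obtain ⟨ψ, hψO, hψ⟩ := exists_frobInv_of_isInertial hK q hq hA
  have hiso : ∀ x : FK M' K, (x : LaurentSeries K) ∈ gaussRing (AK A K) →
      ((frickeFK M' K x : FK M' K) : LaurentSeries K) ∈ gaussRing (AK A K) :=
    fun x hx => (Fermat.Agent.ES.N34.IsoM25.isoM A K M' q hirr hqM x).mp hx
  exact ⟨hKalpha_B0M M' q hπ hE ψ hψO hψ ht (le_B0M hirr ht) hiso,
    hKbeta_B0M M' q hπ hE ψ hψO hψ ht (le_B0M hirr ht),
    hKalpha_B1M M' q hπ hE ψ hψO hψ ht (le_B1M hirr ht) hiso,
    hKbeta_B1M M' q hπ hE ψ hψO hψ ht (le_B1M hirr ht)⟩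

end Fermat.Agent.ES.P36.KronInert27
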