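/-
Program P (S36), chapter (G) of NUM-P, supplier for helper11's `GenInst11.KronFacts.kron`
(helper19; literal target text of helper11 #13174): **the level-`M' q` Kronecker congruences in valuation
form over an INERTIAL number field, at the `ModelDefsP9` data** (`O1q`, `O2q`, `FK_le_fracField`).

`kron_val_of_isInertial` is `KronMCInert19.exists_frob_package` re-stated with the `ModelDefsP9`
abbreviations: `s₀` is the coefficientwise action of a Frobenius lift `σ|K`, `s₀'` the action of `σ⁻¹|K`;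
ADDITIVE form, ALL `z` of the Gauss ring.
-/
import Mathlib
import Fermat.Agent.ES.P36.KronMCInert19
import Fermat.Agent.ES.P36.ModelDefsP9

set_option autoImplicit false
set_option linter.unusedSectionVars false
set_option synthInstance.maxHeartbeats 400000

noncomputable section

open HahnSeries ModularCurve

namespace Fermat.Agent.ES.P36.KronValInert19

open Fermat.Agent.RED.Interface4 Fermat.Agent.RED.PUR.GaussGen8 Fermat.Agent.RED.PUR.GaussBridge10
  Fermat.Agent.ES.N34 Fermat.Agent.ES.P36.ModelDefsP9 Fermat.Agent.ES.P36.InertField27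

variable {A : ValuationSubring Qbar} {M' q : ℕ} [NeZero M'] [NeZero q]

/-- **`GenInst11.KronFacts.kron`, literal** (helper11 #13174). -/
theorem kron_val_of_isInertial (hq : q.Prime) (hqM : ¬ q ∣ M') (hA : A.LiesOverPrime q)
    (K : IntermediateField ℚ Qbar) [FiniteDimensional ℚ K] (hK : IsInertial A K)
    {π : ↥(AK A K)} (hπ : IsUnif (AK A K) π) :
    ∃ s₀ s₀' : ↥(FK M' K) → ↥(FK M' K),
      (∀ z ∈ gaussVS hπ (FK M' K) (FK_le_fracField A K M'),
        s₀ z ∈ gaussVS hπ (FK M' K) (FK_le_fracField A K M')) ∧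
      (∀ z ∈ gaussVS hπ (FK M' K) (FK_le_fracField A K M'),
        s₀' z ∈ gaussVS hπ (FK M' K) (FK_le_fracField A K M')) ∧
      (∀ z, s₀ (s₀' z) = z) ∧
      (∀ z ∈ gaussVS hπ (FK M' K) (FK_le_fracField A K M'),
        (O1q M' q hπ).valuation
          (ModelDefs9.beta K M' q (s₀ z) - ModelDefs9.alpha K M' q z ^ q) < 1) ∧
      (∀ z ∈ gaussVS hπ (FK M' K) (FK_le_fracField A K M'),
        (O2q M' q hπ).valuation
          (ModelDefs9.alpha K M' q (s₀ z) - ModelDefs9.beta K M' q z ^ q) < 1) := by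
  obtain ⟨s₀, s₀', h1, h2, h3, -, k1, k2⟩ :=
    KronMCInert19.exists_frob_package hK M' q hq hqM hA hπ (FK_le_fracField A K (M' * q))
      (FK_le_fracField A K M')
  exact ⟨s₀, s₀', h1, h2, h3, k1, k2⟩

/-- the same with the fourth conjunct `s₀' (s₀ z) = z` kept (bijectivity of `s₀` in both directions). -/
theorem kron_val_of_isInertial' (hq : q.Prime) (hqM : ¬ q ∣ M') (hA : A.LiesOverPrime q)
    (K : IntermediateField ℚ Qbar) [FiniteDimensional ℚ K] (hK : IsInertial A K)
    {π : ↥(AK A K)} (hπ : IsUnif (AK A K) π) :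
    ∃ s₀ s₀' : ↥(FK M' K) → ↥(FK M' K),
      (∀ z ∈ gaussVS hπ (FK M' K) (FK_le_fracField A K M'),
        s₀ z ∈ gaussVS hπ (FK M' K) (FK_le_fracField A K M')) ∧
      (∀ z ∈ gaussVS hπ (FK M' K) (FK_le_fracField A K M'),
        s₀' z ∈ gaussVS hπ (FK M' K) (FK_le_fracField A K M')) ∧
      (∀ z, s₀ (s₀' z) = z) ∧ (∀ z, s₀' (s₀ z) = z) ∧
      (∀ z ∈ gaussVS hπ (FK M' K) (FK_le_fracField A K M'),
        (O1q M' q hπ).valuation
          (ModelDefs9.beta K M' q (s₀ z) - ModelDefs9.alpha K M' q z ^ q) < 1) ∧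
      (∀ z ∈ gaussVS hπ (FK M' K) (FK_le_fracField A K M'),
        (O2q M' q hπ).valuation
          (ModelDefs9.alpha K M' q (s₀ z) - ModelDefs9.beta K M' q z ^ q) < 1) :=
  KronMCInert19.exists_frob_package hK M' q hq hqM hA hπ (FK_le_fracField A K (M' * q))
    (FK_le_fracField A K M')

end Fermat.Agent.ES.P36.KronValInert19
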