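/-
Program P (S36), MODEL-P brick M1 (helper23), series part: **the modular equations at level `q²`**.

`K ⊂ ℚbar`, `(n, e) = (4, 8)` or `(9, 3)`, `ℓ` a prime not dividing `n`, `t = tq K n e`,
`t₁ = t(q^ℓ) = qExpand K ℓ t`, `t₂ = t(q^{ℓ²}) = qExpand K ℓ t₁ = qExpand K (ℓ * ℓ) t` in `K((q))`:

* `isIntegral_adjoin_trans` : integrality over `K[x]` is transitive (`y` over `K[x]`, `z` over `K[y]`);
* (J1) `isIntegral_t2_t1`, (J2) `isIntegral_t1_t2`, (J3), (J4) inverse forms : the pair `(t₁, t₂)`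
  (apply `q ↦ q^ℓ` to (I1)–(I4) of `ModEq23`);
* (K1) `isIntegral_t2_t`, (K2) `isIntegral_t_t2`, (K3), (K4) inverse forms : the pair `(t, t₂)`
  (transitivity).
-/
import Mathlib
import Fermat.Agent.ES.N34.ModEq23

set_option autoImplicit false
set_option linter.unusedSectionVars false

open ModularCurve

noncomputable section

namespace Fermat.Agent.ES.P36.ModEqSq23

open Fermat.Agent.X0 Fermat.Agent.RED.Interface4
open Fermat.Agent.RED.BASE.Interface12 Fermat.Agent.RED.BASE.Hauptmodul12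
open Fermat.Agent.RED.BASE.EtaQuot12
open Fermat.Agent.ES.N34.ModEqBar23 Fermat.Agent.ES.N34.ModEq23

section Trans

variable {K L : Type*} [Field K] [CommRing L] [Algebra K L]

/-- integrality over `K[x]` is transitive. -/
theorem isIntegral_adjoin_trans {x y z : L} (hy : IsIntegral (Algebra.adjoin K {x}) y)
    (hz : IsIntegral (Algebra.adjoin K {y}) z) : IsIntegral (Algebra.adjoin K {x}) z := by
  set R := Algebra.adjoin K {x} with hR
  set C := integralClosure R L with hC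
  have hyC : y ∈ C.restrictScalars K := hy
  have hle : Algebra.adjoin K {y} ≤ C.restrictScalars K :=
    Algebra.adjoin_le (Set.singleton_subset_iff.mpr hyC)
  let φ : Algebra.adjoin K {y} →+* C :=
    ((Algebra.adjoin K {y}).val.toRingHom).codRestrict C.toSubring (fun r => hle r.2)
  have h1 : IsIntegral C ((RingHom.id L) z) :=
    IsIntegral.map_of_comp_eq φ (RingHom.id L) (by ext r; rfl) hz
  exact isIntegral_trans (R := R) (A := C) z h1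

end Trans

section Series

variable (K : IntermediateField ℚ Qbar) {n e : ℕ} (ℓ : ℕ) [NeZero n] [NeZero ℓ]

/-- **(J1)** `t₂` is integral over `K[t₁]`. -/
theorem isIntegral_t2_t1 (hb : BaseHyp n e) (hℓ : ℓ.Prime) (hℓn : ¬ ℓ ∣ n) :
    IsIntegral (Algebra.adjoin K {qExpand K ℓ (tq K n e)})
      (qExpand K ℓ (qExpand K ℓ (tq K n e))) :=
  isIntegral_adjoin_map (qExpandAlgHomC K ℓ) (isIntegral_qExpand_tq K ℓ hb hℓ hℓn)

/-- **(J2)** `t₁` is integral over `K[t₂]`. -/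
theorem isIntegral_t1_t2 (hb : BaseHyp n e) (hℓ : ℓ.Prime) (hℓn : ¬ ℓ ∣ n) :
    IsIntegral (Algebra.adjoin K {qExpand K ℓ (qExpand K ℓ (tq K n e))})
      (qExpand K ℓ (tq K n e)) :=
  isIntegral_adjoin_map (qExpandAlgHomC K ℓ) (isIntegral_tq K ℓ hb hℓ hℓn)

/-- **(J3)** `t₂⁻¹` is integral over `K[t₁⁻¹]`. -/
theorem isIntegral_inv_t2_t1 (hb : BaseHyp n e) (hℓ : ℓ.Prime) (hℓn : ¬ ℓ ∣ n) :
    IsIntegral (Algebra.adjoin K {(qExpand K ℓ (tq K n e))⁻¹})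
      (qExpand K ℓ (qExpand K ℓ (tq K n e)))⁻¹ := by
  have h := isIntegral_adjoin_map (qExpandAlgHomC K ℓ) (isIntegral_inv_qExpand_tq K ℓ hb hℓ hℓn)
  rwa [qExpandAlgHomC_apply, qExpandAlgHomC_apply, map_inv₀, map_inv₀] at h

/-- **(J4)** `t₁⁻¹` is integral over `K[t₂⁻¹]`. -/
theorem isIntegral_inv_t1_t2 (hb : BaseHyp n e) (hℓ : ℓ.Prime) (hℓn : ¬ ℓ ∣ n) :
    IsIntegral (Algebra.adjoin K {(qExpand K ℓ (qExpand K ℓ (tq K n e)))⁻¹})
      (qExpand K ℓ (tq K n e))⁻¹ := by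
  have h := isIntegral_adjoin_map (qExpandAlgHomC K ℓ) (isIntegral_inv_tq K ℓ hb hℓ hℓn)
  rwa [qExpandAlgHomC_apply, qExpandAlgHomC_apply, map_inv₀, map_inv₀] at h

/-- **(K1)** `t₂` is integral over `K[t]`. -/
theorem isIntegral_t2_t (hb : BaseHyp n e) (hℓ : ℓ.Prime) (hℓn : ¬ ℓ ∣ n) :
    IsIntegral (Algebra.adjoin K {tq K n e}) (qExpand K ℓ (qExpand K ℓ (tq K n e))) :=
  isIntegral_adjoin_trans (isIntegral_qExpand_tq K ℓ hb hℓ hℓn) (isIntegral_t2_t1 K ℓ hb hℓ hℓn)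

/-- **(K2)** `t` is integral over `K[t₂]`. -/
theorem isIntegral_t_t2 (hb : BaseHyp n e) (hℓ : ℓ.Prime) (hℓn : ¬ ℓ ∣ n) :
    IsIntegral (Algebra.adjoin K {qExpand K ℓ (qExpand K ℓ (tq K n e))}) (tq K n e) :=
  isIntegral_adjoin_trans (isIntegral_t1_t2 K ℓ hb hℓ hℓn) (isIntegral_tq K ℓ hb hℓ hℓn)

/-- **(K3)** `t₂⁻¹` is integral over `K[t⁻¹]`. -/
theorem isIntegral_inv_t2_t (hb : BaseHyp n e) (hℓ : ℓ.Prime) (hℓn : ¬ ℓ ∣ n) :
    IsIntegral (Algebra.adjoin K {(tq K n e)⁻¹}) (qExpand K ℓ (qExpand K ℓ (tq K n e)))⁻¹ :=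
  isIntegral_adjoin_trans (isIntegral_inv_qExpand_tq K ℓ hb hℓ hℓn)
    (isIntegral_inv_t2_t1 K ℓ hb hℓ hℓn)

/-- **(K4)** `t⁻¹` is integral over `K[t₂⁻¹]`. -/
theorem isIntegral_inv_t_t2 (hb : BaseHyp n e) (hℓ : ℓ.Prime) (hℓn : ¬ ℓ ∣ n) :
    IsIntegral (Algebra.adjoin K {(qExpand K ℓ (qExpand K ℓ (tq K n e)))⁻¹}) (tq K n e)⁻¹ :=
  isIntegral_adjoin_trans (isIntegral_inv_t1_t2 K ℓ hb hℓ hℓn) (isIntegral_inv_tq K ℓ hb hℓ hℓn)

/-- `t₂ = t(q^{ℓ²})`. -/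
theorem t2_eq : qExpand K ℓ (qExpand K ℓ (tq K n e)) = qExpand K (ℓ * ℓ) (tq K n e) :=
  qExpand_qExpand ℓ ℓ _

end Series

end Fermat.Agent.ES.P36.ModEqSq23
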