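/-
Program P (S36), chapter REG, brick R3/R6α → S5b adapter (helper10): **helper15's contract
`BranchLoc15.NodeBelow` from the outputs of R3 (`NodeRegChart10.nodeReg_chart`) and R6α
(`TripleNode10.tripleNode_chart` / `TripleKron10.tripleNode_of_kron`)** — literal.

`E ⊂ F` (`Algebra E F` = the degeneracy map of the side), `Bq ⊂ E` the chart of level `q`, `𝔫` the node
below the triple point `𝔪` of `B ⊂ F`, `W1 W2` the two vertical valuation rings of `E`,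
`C' := locSub Bq 𝔫`, `C := locSub B 𝔪`.  With `p₁ := y` (the generator of the centre of `W1`) and
`p₂ := x` (the generator of the centre of `W2`):

* `nodeBelow_level` : the level-`q` half (UFD, fraction ring, integrally closed, `p₁ p₂` prime, the
  quotients `C' ⧸ (p_j)` integrally closed, `W_j = C'_(p_j)` in the `(hC, hinv, hnu)` form);
* `nodeBelow_of_node` : `BranchLoc15.NodeBelow W1 W2 B 𝔪`, adding `hmap`, unit reflection and integrality
  of `locMap` from `IntClLoc10` and the integrality output of R6α.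
-/
import Mathlib
import Fermat.Agent.ES.P36.BranchLoc15
import Fermat.Agent.ES.P36.NodeParam10
import Fermat.Agent.ES.P36.IntClLoc10

set_option autoImplicit false
set_option linter.unusedSectionVars false
set_option linter.style.haveILetI false

namespace Fermat.Agent.ES.P36.NodeBelowFeed10

open IsLocalRing Fermat.Agent.ES.N34.NodalCore13 Fermat.Agent.ES.N34.NodalSmooth13
  Fermat.Agent.ES.P36.IntClLoc10 Fermat.Agent.ES.P36.BranchLoc15

section Level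

variable {R E : Type*} [CommRing R] [Field E] [Algebra R E]
variable (π : R) (Bq : Subalgebra R E) (𝔫 : Ideal Bq) [h𝔫 : 𝔫.IsPrime]

/-- `Frac (Bq)_𝔫 = E`. -/
theorem isFractionRing_locSub (frac : ∀ x : E, ∃ a ∈ Bq, ∃ b ∈ Bq, b ≠ 0 ∧ x * b = a) :
    IsFractionRing ↥(locSub Bq 𝔫) E := by
  refine IsFractionRing.of_field ↥(locSub Bq 𝔫) E fun z => ?_
  obtain ⟨a, ha, b, hb, hb0, hab⟩ := frac z
  refine ⟨⟨a, le_locSub Bq 𝔫 ha⟩, ⟨b, le_locSub Bq 𝔫 hb⟩, ?_⟩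
  show z = a / b
  rw [eq_div_iff hb0, hab]

/-- the quotient of the regular node ring by one of its two parameters is integrally closed. -/
theorem isIntegrallyClosed_quot {S : Type*} [CommRing S] [IsLocalRing S] [IsNoetherianRing S]
    [IsDomain S] {x y : S} (hx : Prime x) (hmax : maximalIdeal S = Ideal.span {x, y}) :
    IsIntegrallyClosed (S ⧸ Ideal.span {x}) := by
  haveI := NodeParam10.isPrincipalIdealRing_quot hx hmax
  haveI hprime : (Ideal.span {x}).IsPrime := (Ideal.span_singleton_prime hx.ne_zero).mpr hx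
  haveI : IsDomain (S ⧸ Ideal.span {x}) := (Ideal.Quotient.isDomain_iff_prime _).mpr hprime
  infer_instance

/-- the `(hC, hinv, hnu)` triple of one branch. -/
theorem branch_triple (W : ValuationSubring E) (pi_nonunit : (algebraMap R E π)⁻¹ ∉ W)
    (unif : ∀ x ∈ W, x⁻¹ ∉ W → ∃ c ∈ W, x = algebraMap R E π * c)
    (hSW : ∀ c ∈ locSub Bq 𝔫, c ∈ W) {p : ↥(locSub Bq 𝔫)} (hp : Prime p)
    (hO : ∀ c : ↥(locSub Bq 𝔫), (∃ o ∈ W, (c : E) = algebraMap R E π * o) ↔ p ∣ c) :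
    (∀ c : ↥(locSub Bq 𝔫), (c : E) ∈ W) ∧
      (∀ c : ↥(locSub Bq 𝔫), ¬ p ∣ c → ((c : E))⁻¹ ∈ W) ∧ ((p : E))⁻¹ ∉ W := by
  refine ⟨fun c => hSW _ c.2, fun c hc => ?_, fun hinv => ?_⟩
  · by_contra hcon
    exact hc ((hO c).mp (unif _ (hSW _ c.2) hcon))
  · obtain ⟨o, ho, hpo⟩ := (hO p).mpr dvd_rfl
    have hp0 : (p : E) ≠ 0 := fun h0 => hp.ne_zero (Subtype.ext h0)
    apply pi_nonunit
    have hπ0 : algebraMap R E π ≠ 0 := by
      intro h0
      rw [h0, zero_mul] at hpo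
      exact hp0 hpo
    have ho0 : o ≠ 0 := by
      intro h0
      rw [h0, mul_zero] at hpo
      exact hp0 hpo
    have : (algebraMap R E π)⁻¹ = o * ((p : E))⁻¹ := by
      rw [hpo]; field_simp
    rw [this]
    exact W.mul_mem _ _ ho hinv

end Level

section Main

variable {R E F : Type*} [CommRing R] [Field E] [Field F] [Algebra R E] [Algebra R F] [Algebra E F]
  [IsScalarTower R E F]
variable (π : R) (Bq : Subalgebra R E) (𝔫 : Ideal Bq) [h𝔫 : 𝔫.IsPrime] (B : Subalgebra R F)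
  (𝔪 : Ideal B) [h𝔪 : 𝔪.IsPrime]

/-- **`BranchLoc15.NodeBelow W1 W2 B 𝔪` from R3 at the node `𝔫` and the integrality output of R6α.** -/
theorem nodeBelow_of_node (noethBq : IsNoetherianRing Bq)
    (frac : ∀ x : E, ∃ a ∈ Bq, ∃ b ∈ Bq, b ≠ 0 ∧ x * b = a)
    (hB1 : ∀ b ∈ Bq, algebraMap E F b ∈ B)
    (hcontr' : ∀ b : Bq, b ∈ 𝔫 → (⟨algebraMap E F b, hB1 b b.2⟩ : B) ∈ 𝔪)
    (hcontr : ∀ b : Bq, (⟨algebraMap E F b, hB1 b b.2⟩ : B) ∈ 𝔪 → b ∈ 𝔫)
    (W1 W2 : ValuationSubring E)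
    (pi_nonunit1 : (algebraMap R E π)⁻¹ ∉ W1) (pi_nonunit2 : (algebraMap R E π)⁻¹ ∉ W2)
    (unif1 : ∀ x ∈ W1, x⁻¹ ∉ W1 → ∃ c ∈ W1, x = algebraMap R E π * c)
    (unif2 : ∀ x ∈ W2, x⁻¹ ∉ W2 → ∃ c ∈ W2, x = algebraMap R E π * c)
    (hSW1 : ∀ c ∈ locSub Bq 𝔫, c ∈ W1) (hSW2 : ∀ c ∈ locSub Bq 𝔫, c ∈ W2)
    {x y : ↥(locSub Bq 𝔫)} (hx : Prime x) (hy : Prime y)
    (hmax : maximalIdeal ↥(locSub Bq 𝔫) = Ideal.span {x, y})
    (hO2 : ∀ c : ↥(locSub Bq 𝔫), (∃ o ∈ W2, (c : E) = algebraMap R E π * o) ↔ x ∣ c)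
    (hO1 : ∀ c : ↥(locSub Bq 𝔫), (∃ o ∈ W1, (c : E) = algebraMap R E π * o) ↔ y ∣ c)
    (hint : ∀ w ∈ locSub B 𝔪, IsIntegral ↥(locSub Bq 𝔫) w) :
    NodeBelow W1 W2 B 𝔪 := by
  haveI : IsNoetherianRing ↥(locSub Bq 𝔫) :=
    IsLocalization.isNoetherianRing 𝔫.primeCompl _ noethBq
  have hufd : UniqueFactorizationMonoid ↥(locSub Bq 𝔫) := NodeParam10.ufd hx hmax
  have hmax' : maximalIdeal ↥(locSub Bq 𝔫) = Ideal.span {y, x} := by rw [hmax, Set.pair_comm]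
  have hmap := hmap_locSub Bq 𝔫 B 𝔪 hB1 hcontr
  refine ⟨Bq, 𝔫, h𝔫, y, x, hufd, isFractionRing_locSub Bq 𝔫 frac, ?_, hy, hx,
    isIntegrallyClosed_quot hy hmax', isIntegrallyClosed_quot hx hmax,
    branch_triple π Bq 𝔫 W1 pi_nonunit1 unif1 hSW1 hy hO1,
    branch_triple π Bq 𝔫 W2 pi_nonunit2 unif2 hSW2 hx hO2, hmap, ?_, ?_⟩
  · haveI := hufd
    infer_instance
  · exact fun c hc => isUnit_of_isUnit_map Bq 𝔫 B 𝔪 hB1 hcontr' hcontr (locMap Bq 𝔫 B 𝔪 hmap)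
      (fun z => coe_locMap Bq 𝔫 B 𝔪 hmap z) c hc
  · exact isIntegral_map Bq 𝔫 B 𝔪 (locMap Bq 𝔫 B 𝔪 hmap) (fun z => coe_locMap Bq 𝔫 B 𝔪 hmap z) hint

end Main

end Fermat.Agent.ES.P36.NodeBelowFeed10
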