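/-
Program P (S36), brick S5b/R6 interface (helper15): **`nodeItemsP_of_eis` — the input (N)
`BranchModel15.NodeItemsP` of the package (N3) from the shared R6 contract `EisItems29.EisItemsP`**
(rulings p42/p55).

One `EisItems29.EisData` at a closed point `𝔪` contains everything `NodeBelowFeed10.nodeBelow_of_node`
needs at the node `𝔫 := PtsAsm9.contract φ B' B hφB 𝔪` (`noeth frac unif_j pi_nonunit_j hSW_j`, R3's
`hx hy hmax hO2 hO1`, and the integrality `hint` of `B_𝔪` over `(B')_𝔫` along `φ`); at a regular triple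
point both contractions are crossing points (`PtsAsm9.not_offBranch_of_tripleReg` +
`PtsAsm9.offBranch_of_contract`).

* `nodeBelow_of_eisAt` : one side, generic (`PtsAsm9` vocabulary, `letI := φ.toAlgebra`);
* `nodesBelow_of_eis` : both sides ⊢ `BranchChart15.NodesBelow` on one chart;
* `nodeItemsP_of_eis` : `ModelN4.ModEqItems → EisItemsP → BranchModel15.NodeItemsP` at the model.
-/
import Mathlib
import Fermat.Agent.ES.P36.EisItems29
import Fermat.Agent.ES.P36.NodeBelowFeed10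
import Fermat.Agent.ES.P36.BranchModel15
import Fermat.Agent.ES.P36.V3Facts8
import Fermat.Agent.ES.P36.ChartMaps9

set_option autoImplicit false
set_option linter.unusedSectionVars false
set_option linter.style.haveILetI false
set_option synthInstance.maxHeartbeats 400000
set_option maxHeartbeats 4000000

open HahnSeries AlgebraicCurve ModularCurve

noncomputable section

namespace Fermat.Agent.ES.P36.NodeEis15

open IsLocalRing Fermat.Agent.ES.N34.NodalCore13 Fermat.Agent.ES.N34.NodalSmooth13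
  Fermat.Agent.ES.P36.TripleReg13 Fermat.Agent.ES.P36.PtsAsm9 Fermat.Agent.ES.P36.EisItems29
  Fermat.Agent.ES.P36.BranchLoc15 Fermat.Agent.ES.P36.BranchChart15

section Generic

variable {R F' F : Type*} [CommRing R] [Field F'] [Field F] [Algebra R F'] [Algebra R F]

/-- **one side**: `NodeBelow W1 W2 B 𝔪` (along `φ`) at a closed point of `B` through which components
`V1` (over `W1`) and `V2` (over `W2`) pass. -/
theorem nodeBelow_of_eisAt {q : ℕ} {π : R} {φ ψ : F' →+* F}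
    (hφR : ∀ r : R, φ (algebraMap R F' r) = algebraMap R F r)
    {B' : Subalgebra R F'} {B : Subalgebra R F} {W1 W2 : ValuationSubring F'}
    {Vfar : ValuationSubring F} (hE : EisAt q π φ ψ B' B W1 W2 Vfar)
    (hφB : ∀ b ∈ B', φ b ∈ B) (hψB : ∀ b ∈ B', ψ b ∈ B)
    {V1 V2 : ValuationSubring F} (hV1 : V1.comap φ = W1) (hV2 : V2.comap φ = W2)
    (𝔪 : Ideal B) (h𝔪 : 𝔪.IsMaximal) (hπ𝔪 : algebraMap R B π ∈ 𝔪)
    (hon1 : ¬ OffBranch π B V1 𝔪) (hon2 : ¬ OffBranch π B V2 𝔪) :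
    (haveI := h𝔪.isPrime
     letI := φ.toAlgebra
     NodeBelow W1 W2 B 𝔪) := by
  haveI := h𝔪.isPrime
  have hc1 : ¬ OffBranch π B' W1 (contract φ B' B hφB 𝔪) :=
    fun h => hon1 (offBranch_of_contract φ hφR B' B hφB 𝔪 π hV1 h)
  have hc2 : ¬ OffBranch π B' W2 (contract φ B' B hφB 𝔪) :=
    fun h => hon2 (offBranch_of_contract φ hφR B' B hφB 𝔪 π hV2 h)
  obtain ⟨x, y, s, s', c, c', z, D⟩ := hE hφB hψB 𝔪 h𝔪 hπ𝔪 hc1 hc2
  letI := φ.toAlgebra
  haveI : IsScalarTower R F' F := IsScalarTower.of_algebraMap_eq (fun r => (hφR r).symm)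
  exact Fermat.Agent.ES.P36.NodeBelowFeed10.nodeBelow_of_node π B' (contract φ B' B hφB 𝔪) B 𝔪
    D.noeth D.frac hφB (fun b hb => hb) (fun b hb => hb) W1 W2 D.pi_nonunit1 D.pi_nonunit2
    D.unif1 D.unif2 D.hSW1 D.hSW2 D.hx D.hy D.hmax D.hO2 D.hO1 D.hint

end Generic

section Chart

variable {K F' F'' : Type*} [Field K] [Field F'] [Field F''] [Algebra K F'] [Algebra K F'']

/-- **both sides**: `NodesBelow` on the chart `B` from the two `EisAt` contracts. -/
theorem nodesBelow_of_eis {R : ValuationSubring K} {π : ↥R} {q : ℕ} {α β : F' →ₐ[K] F''}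
    {W1 W2 : ValuationSubring F'} {ι : Type*} {O : ι → ValuationSubring F''} {j₁ j₂ j₃ : ι}
    {B' : Subalgebra ↥R F'} {B : Subalgebra ↥R F''}
    (hα : EisAt q π α.toRingHom β.toRingHom B' B W1 W2 (O j₃))
    (hβ : EisAt q π β.toRingHom α.toRingHom B' B W2 W1 (O j₁))
    (hαB : ∀ x ∈ B', α.toRingHom x ∈ B) (hβB : ∀ x ∈ B', β.toRingHom x ∈ B)
    (cα1 : (O j₁).comap α.toRingHom = W1) (cα3 : (O j₃).comap α.toRingHom = W2)
    (cβ1 : (O j₁).comap β.toRingHom = W1) (cβ3 : (O j₃).comap β.toRingHom = W2) :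
    NodesBelow R π q α β W1 W2 O j₁ j₂ j₃ B := by
  intro 𝔪 h𝔪 hπ𝔪 x₁ x₂ x₃ hreg
  haveI := h𝔪.isPrime
  obtain ⟨h1, -, h3⟩ := not_offBranch_of_tripleReg B O 𝔪 j₁ j₂ j₃ x₁ x₂ x₃ hreg
  have hαR : ∀ r : ↥R, α.toRingHom (algebraMap ↥R F' r) = algebraMap ↥R F'' r :=
    fun r => α.commutes (r : K)
  have hβR : ∀ r : ↥R, β.toRingHom (algebraMap ↥R F' r) = algebraMap ↥R F'' r :=
    fun r => β.commutes (r : K)
  exact ⟨nodeBelow_of_eisAt hαR hα hαB hβB cα1 cα3 𝔪 h𝔪 hπ𝔪 h1 h3,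
    nodeBelow_of_eisAt hβR hβ hβB hαB cβ3 cβ1 𝔪 h𝔪 hπ𝔪 h3 h1⟩

end Chart

section Model

open Fermat.Agent.RED.Interface4 Fermat.Agent.RED.PUR.GaussGen8 Fermat.Agent.RED.BASE.EtaQuot12
  Fermat.Agent.ES.N34 Fermat.Agent.ES.P36.ModelDefsP9 Fermat.Agent.ES.P36.BranchModel15

variable {n e q M' : ℕ} [NeZero n] [NeZero M'] [NeZero q] {A : ValuationSubring Qbar}
  {K : IntermediateField ℚ Qbar}

/-- **(N) at `K` from the shared R6 contract**: the level-`q` nodes below the regular triple points of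
both charts `B0″`, `B1″`. -/
theorem nodeItemsP_of_eis (hS2 : ModelN4.ModEqItems n e q M' A K)
    (heis : EisItemsP n e q M' A K) : NodeItemsP n e q M' A K := by
  intro ht π hπ O2 hO2
  obtain ⟨hy0, hy1⟩ := hS2 ht
  obtain ⟨hα0, hβ0, hα1, hβ1⟩ := heis ht π hπ O2 hO2
  have cα1 := O1_comap_alpha2 (K := K) (A := A) M' q hπ
  have cβ1 := O1_comap_beta2 (K := K) (A := A) M' q hπ
  have cα3 := V3Facts8.O3_comap_alpha2 (K := K) (A := A) M' q hπ
  have cβ3 := V3Facts8.O3_comap_beta2 (K := K) (A := A) M' q hπ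
  exact ⟨nodesBelow_of_eis (O := Ofam M' q hπ O2) (j₁ := 0) (j₂ := 1) (j₃ := 2) hα0 hβ0
      (fun x hx => ChartMaps9.alpha2_mem_B0 ht hx) (fun x hx => ChartMaps9.beta2_mem_B0 ht hy0 hx)
      cα1 cα3 cβ1 cβ3,
    nodesBelow_of_eis (O := Ofam M' q hπ O2) (j₁ := 0) (j₂ := 1) (j₃ := 2) hα1 hβ1
      (fun x hx => ChartMaps9.alpha2_mem_B1 ht hx) (fun x hx => ChartMaps9.beta2_mem_B1 ht hy1 hx)
      cα1 cα3 cβ1 cβ3⟩

end Model

end Fermat.Agent.ES.P36.NodeEis15
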