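/-
Program P (S36), chapter NUM-P, brick `NumFinalRel18` (helper18): `NumFinalP13.numFinal` fed by
`BranchEqAsm18.exists_multiplier_branchEq` — **NUM-P from the model contract, (G) and S5 only**:

* `I : NumInputP …` (MODEL-P + REG), `∀ i, i = j₁ ∨ i = j₂ ∨ i = j₃`;
* `f ≠ 0`, `m ∣ ord_v f` at all places, `q ∤ m`, `m` invertible in `R`;
* (G): `κ ≠ 0`, `h ≠ 0` with (U1) for `u := f ^ c₀ * κ * h ^ m`;
* S5: `Θα Θβ : R` with `Θ ^ m ≡ 1 mod π` and the two branch relations for `u` on both charts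
  (`BranchEqAsm18.BranchRelAt`);

⊢ `f ^ (c₀ * (q ^ 2 - 1) * q ^ 2) = κ' * S ^ m`.
-/
import Mathlib
import Fermat.Agent.ES.P36.BranchEqAsm18
import Fermat.Agent.ES.P36.NumFinalP13

set_option autoImplicit false

namespace Fermat.Agent.ES.P36.NumFinalRel18

open AlgebraicCurve Fermat.Agent.ES.P36.MultiCore13 Fermat.Agent.ES.P36.NumInputP13
  Fermat.Agent.ES.P36.NumFinalP13 Fermat.Agent.ES.P36.BranchEqAsm18

variable {R K F : Type*} [CommRing R] [Field K] [Field F] [Algebra R K] [Algebra K F]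
  [Algebra R F] [IsScalarTower R K F]

/-- **NUM-P from the model contract, (G) and the branch relations.** -/
theorem numFinal_of_rel {ι : Type*} [Finite ι] (q : ℕ) (π : R) (t : F) (B0 B1 : Subalgebra R F)
    (O : ι → ValuationSubring F) (j₁ j₂ j₃ : ι) (I : NumInputP R K F q π t B0 B1 O j₁ j₂ j₃)
    (hcov : ∀ i, i = j₁ ∨ i = j₂ ∨ i = j₃)
    (m : ℕ) (hqm : ¬ q ∣ m) (minv : R) (hminv : (m : R) * minv = 1)
    (f : F) (hf : f ≠ 0) (hord : ∀ v : Place K F, (m : ℤ) ∣ v.ord f)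
    (c₀ : ℕ) (κ : K) (h : F) (hκ : κ ≠ 0) (hh : h ≠ 0)
    (hu1 : PiOM π O (f ^ c₀ * algebraMap K F κ * h ^ m - 1))
    {Θα Θβ : R} (hΘα : ∃ c : R, Θα ^ m - 1 = π * c) (hΘβ : ∃ c : R, Θβ ^ m - 1 = π * c)
    (hrel0 : BranchRelAt q π B0 O j₁ j₂ j₃ m (f ^ c₀ * algebraMap K F κ * h ^ m) Θα Θβ)
    (hrel1 : BranchRelAt q π B1 O j₁ j₂ j₃ m (f ^ c₀ * algebraMap K F κ * h ^ m) Θα Θβ) :
    ∃ (κ' : K) (S : F), κ' ≠ 0 ∧ S ≠ 0 ∧
      f ^ (c₀ * (q ^ 2 - 1) * q ^ 2) = algebraMap K F κ' * S ^ m := by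
  have hm0 : m ≠ 0 := fun h0 => hqm (h0 ▸ dvd_zero q)
  have hu2 : ∀ v : Place K F, (m : ℤ) ∣ v.ord (f ^ c₀ * algebraMap K F κ * h ^ m) :=
    fun v => dvd_ord_mul_const_mul_pow v m c₀ hf hh hκ (hord v)
  obtain ⟨s, hs0, hs1, hN0, hN1⟩ := exists_multiplier_branchEq (K := K) q π t B0 B1 O j₁ j₂ j₃ I
    hcov m hqm _ hu1 hu2 hΘα hΘβ hrel0 hrel1
  exact numFinal (K := K) q π t B0 B1 O j₁ j₂ j₃ I m (Nat.pos_of_ne_zero hm0) minv hminv f hf hord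
    c₀ κ h hκ hh hu1 s hs0 hs1 hN0 hN1

end Fermat.Agent.ES.P36.NumFinalRel18
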