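/-
Program P (S36), chapter REG (R7 model call), brick (helper27): **"`𝔪` off every component over `W2`
⇒ the contraction of `𝔪` is off `W2`"** — the HARD direction of the off-branch dictionary between a
chart `B` of level `M' q²` and the chart `BM` of level `M' q` below it (the easy direction is
`PtsAsm9.offBranch_of_contract`).

It is GOING-DOWN for the integral extension `BM ⊂ B` of the integrally closed domain `BM`
(Mathlib: `Algebra.HasGoingDown`, `Ideal.exists_ideal_le_liesOver_of_le`) plus saturation: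
if the vertical prime `BM ∩ π W2` were contained in `x1 := 𝔪 ∩ BM`, there would be a prime `Q ⊆ 𝔪` of
`B` over it; `Q ∋ π` contains one of the vertical ideals `B ∩ π O_i` (saturation: their product lies in
`π B`), and that `O_i` lies over `W2` (separation `hsep`), so `𝔪` is on a component over `W2`.

* `vertI π B O leO` : the vertical ideal `B ∩ π O` (own copy, no import of `RegChart21`);
* `vertI_isPrime` : it is prime when `π` is a uniformiser of `O`;
* `exists_vertI_le` : a prime of `B` containing `π` contains some `B ∩ π O_i` (`sat`);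
* `offBranch_contract` : the statement above, in the literal `NodalCore13.OffBranch` vocabulary.
-/
import Mathlib
import Fermat.Agent.ES.N34.NodalCore13

set_option autoImplicit false
set_option linter.style.haveILetI false
set_option linter.unusedSectionVars false

namespace Fermat.Agent.ES.P36.OffContract27

open Fermat.Agent.ES.N34.NodalCore13

variable {R F : Type*} [CommRing R] [Field F] [Algebra R F]

/-- The vertical ideal `B ∩ π O` of a chart `B ⊆ O`. -/
def vertI (π : R) (B : Subalgebra R F) (O : ValuationSubring F) (leO : ∀ x ∈ B, x ∈ O) :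
    Ideal ↥B where
  carrier := {b | ∃ c ∈ O, (b : F) = algebraMap R F π * c}
  zero_mem' := ⟨0, O.zero_mem, by simp⟩
  add_mem' := by
    rintro a b ⟨o, ho, hao⟩ ⟨o', ho', hbo⟩
    exact ⟨o + o', O.add_mem _ _ ho ho', by push_cast; rw [hao, hbo]; ring⟩
  smul_mem' := by
    rintro a b ⟨o, ho, hbo⟩
    exact ⟨(a : F) * o, O.mul_mem _ _ (leO _ a.2) ho, by
      show ((a * b : ↥B) : F) = _
      push_cast; rw [hbo]; ring⟩

theorem mem_vertI {π : R} {B : Subalgebra R F} {O : ValuationSubring F}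
    {leO : ∀ x ∈ B, x ∈ O} {b : ↥B} :
    b ∈ vertI π B O leO ↔ ∃ c ∈ O, (b : F) = algebraMap R F π * c := Iff.rfl

/-- `OffBranch` in terms of `vertI`. -/
theorem offBranch_iff {π : R} {B : Subalgebra R F} {O : ValuationSubring F}
    (leO : ∀ x ∈ B, x ∈ O) (𝔪 : Ideal ↥B) :
    OffBranch π B O 𝔪 ↔ ¬ vertI π B O leO ≤ 𝔪 := by
  constructor
  · rintro ⟨e, he, hc⟩ hle
    exact he (hle hc)
  · intro h
    obtain ⟨e, hev, he⟩ := SetLike.not_le_iff_exists.mp h
    exact ⟨e, he, hev⟩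

/-- `B ∩ π O` is a prime ideal when `π` is a uniformiser of `O`. -/
theorem vertI_isPrime (π : R) (B : Subalgebra R F) (O : ValuationSubring F)
    (leO : ∀ x ∈ B, x ∈ O)
    (unif : ∀ x ∈ O, x⁻¹ ∉ O → ∃ c ∈ O, x = algebraMap R F π * c)
    (pi_nonunit : (algebraMap R F π)⁻¹ ∉ O) : (vertI π B O leO).IsPrime := by
  refine ⟨?_, ?_⟩
  · intro htop
    have h1 : (1 : ↥B) ∈ vertI π B O leO := by rw [htop]; trivial
    obtain ⟨c, hc, h⟩ := h1
    apply pi_nonunit
    have h2 : algebraMap R F π * c = 1 := by rw [← h]; rfl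
    have h3 : (algebraMap R F π)⁻¹ = c := (eq_inv_of_mul_eq_one_right h2).symm
    rw [h3]
    exact hc
  · intro a b hab
    by_contra hcon
    rw [not_or] at hcon
    obtain ⟨ha, hb⟩ := hcon
    have key : ∀ x : ↥B, x ∉ vertI π B O leO → (x : F) ≠ 0 ∧ (x : F)⁻¹ ∈ O := by
      intro x hx
      have hx0 : (x : F) ≠ 0 := by
        intro h0
        apply hx
        have : x = 0 := Subtype.ext h0
        rw [this]
        exact Ideal.zero_mem _
      refine ⟨hx0, ?_⟩
      by_contra hinv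
      obtain ⟨c, hc, h⟩ := unif (x : F) (leO _ x.2) hinv
      exact hx ⟨c, hc, h⟩
    obtain ⟨ha0, hai⟩ := key a ha
    obtain ⟨hb0, hbi⟩ := key b hb
    obtain ⟨c, hc, h⟩ := hab
    have h' : (a : F) * (b : F) = algebraMap R F π * c := by rw [← h]; rfl
    apply pi_nonunit
    have hab0 : (a : F) * (b : F) ≠ 0 := mul_ne_zero ha0 hb0
    have hπ0 : algebraMap R F π ≠ 0 := by
      intro h0; rw [h0, zero_mul] at h'; exact hab0 h'
    have : (algebraMap R F π)⁻¹ = c * ((a : F)⁻¹ * (b : F)⁻¹) := by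
      field_simp
      rw [← h']
    rw [this]
    exact O.mul_mem _ _ hc (O.mul_mem _ _ hai hbi)

section Family

variable {ι : Type*} [Finite ι] (π : R) (B : Subalgebra R F) (O : ι → ValuationSubring F)
  (leO : ∀ i, ∀ x ∈ B, x ∈ O i)

/-- **Saturation ⇒ every prime of `B` containing `π` contains one of the vertical ideals.** -/
theorem exists_vertI_le (pi_ne : algebraMap R F π ≠ 0)
    (sat : ∀ b ∈ B, ∀ c : F, (∀ i, c ∈ O i) → b = algebraMap R F π * c → c ∈ B)
    (Q : Ideal ↥B) [hQ : Q.IsPrime] (hπQ : algebraMap R ↥B π ∈ Q) :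
    ∃ i, vertI π B (O i) (leO i) ≤ Q := by
  classical
  cases nonempty_fintype ι
  by_contra hcon
  simp only [not_exists] at hcon
  have hx : ∀ i, ∃ x : ↥B, x ∈ vertI π B (O i) (leO i) ∧ x ∉ Q := fun i =>
    SetLike.not_le_iff_exists.mp (hcon i)
  choose x hxv hxQ using hx
  set y : ↥B := ∏ i, x i with hy
  have hzO : ∀ j, (algebraMap R F π)⁻¹ * (y : F) ∈ O j := by
    intro j
    obtain ⟨c, hc, hxc⟩ := hxv j
    have h1 : (y : F) = (x j : F) * ∏ i ∈ Finset.univ.erase j, (x i : F) := by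
      rw [hy, ← Finset.mul_prod_erase Finset.univ _ (Finset.mem_univ j)]
      push_cast
      rfl
    have h2 : (algebraMap R F π)⁻¹ * (y : F) = c * ∏ i ∈ Finset.univ.erase j, (x i : F) := by
      rw [h1, hxc]
      field_simp
    rw [h2]
    refine (O j).mul_mem _ _ hc ?_
    exact Subring.prod_mem (O j).toSubring fun i _ => leO j _ (x i).2
  have hzB : (algebraMap R F π)⁻¹ * (y : F) ∈ B :=
    sat (y : F) y.2 _ hzO (by field_simp)
  have hyQ : y ∈ Q := by
    have : y = algebraMap R ↥B π * ⟨_, hzB⟩ := by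
      apply Subtype.ext
      show (y : F) = algebraMap R F π * ((algebraMap R F π)⁻¹ * (y : F))
      field_simp
    rw [this]
    exact Ideal.mul_mem_right _ _ hπQ
  rw [hy, hQ.prod_mem_iff] at hyQ
  obtain ⟨i, -, hi⟩ := hyQ
  exact hxQ i hi

end Family

section Main

variable {FM : Type*} [Field FM] [Algebra R FM]

/-- **`𝔪` off every component of `B` lying over `W2` ⇒ the contraction of `𝔪` to `BM` is off `W2`.** -/
theorem offBranch_contract (π : R) (φ : FM →+* F)
    (hφR : ∀ r : R, φ (algebraMap R FM r) = algebraMap R F r)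
    (BM : Subalgebra R FM) (B : Subalgebra R F) [Algebra ↥BM ↥B]
    (hcoe : ∀ b : ↥BM, ((algebraMap ↥BM ↥B b : ↥B) : F) = φ (b : FM))
    [IsIntegrallyClosed ↥BM] [Algebra.IsIntegral ↥BM ↥B]
    (W1 W2 : ValuationSubring FM) (leW2 : ∀ x ∈ BM, x ∈ W2)
    (unifW2 : ∀ x ∈ W2, x⁻¹ ∉ W2 → ∃ c ∈ W2, x = algebraMap R FM π * c)
    (pi_nonunitW2 : (algebraMap R FM π)⁻¹ ∉ W2)
    {ι : Type*} [Finite ι] (O : ι → ValuationSubring F) (leO : ∀ i, ∀ x ∈ B, x ∈ O i)
    (pi_ne : algebraMap R F π ≠ 0)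
    (sat : ∀ b ∈ B, ∀ c : F, (∀ i, c ∈ O i) → b = algebraMap R F π * c → c ∈ B)
    (pos : ∀ i, (O i).comap φ = W1 ∨ (O i).comap φ = W2)
    (hsep : ∃ d ∈ BM, (∃ c ∈ W1, d = algebraMap R FM π * c) ∧
      ¬ ∃ c ∈ W2, d = algebraMap R FM π * c)
    (𝔪 : Ideal ↥B) [h𝔪 : 𝔪.IsPrime]
    (hoff : ∀ i, (O i).comap φ = W2 → OffBranch π B (O i) 𝔪) :
    OffBranch π BM W2 (𝔪.comap (algebraMap ↥BM ↥B)) := by
  classical
  rw [offBranch_iff leW2]
  intro hle
  haveI hp : (vertI π BM W2 leW2).IsPrime := vertI_isPrime π BM W2 leW2 unifW2 pi_nonunitW2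
  haveI : FaithfulSMul ↥BM ↥B := by
    rw [faithfulSMul_iff_algebraMap_injective]
    intro a b hab
    have h1 : φ (a : FM) = φ (b : FM) := by
      rw [← hcoe, ← hcoe, hab]
    exact Subtype.ext (φ.injective h1)
  -- going down
  have hle' : vertI π BM W2 leW2 ≤ 𝔪.under ↥BM := hle
  obtain ⟨Q, hQ𝔪, hQp, hQover⟩ :=
    Ideal.exists_ideal_le_liesOver_of_le (p := vertI π BM W2 leW2) (q := 𝔪.under ↥BM) 𝔪 hle'
  haveI := hQp
  have hQu : vertI π BM W2 leW2 = Q.under ↥BM := hQover.over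
  -- `π ∈ Q`
  have hπp : algebraMap R ↥BM π ∈ vertI π BM W2 leW2 :=
    ⟨1, W2.one_mem, by rw [mul_one]; rfl⟩
  have hπQ : algebraMap R ↥B π ∈ Q := by
    have h1 : algebraMap ↥BM ↥B (algebraMap R ↥BM π) ∈ Q := by
      rw [hQu] at hπp
      exact hπp
    have h2 : algebraMap ↥BM ↥B (algebraMap R ↥BM π) = algebraMap R ↥B π := by
      apply Subtype.ext
      rw [hcoe]
      exact hφR π
    rwa [h2] at h1
  obtain ⟨i, hi⟩ := exists_vertI_le π B O leO pi_ne sat Q hπQ
  -- `O i` lies over `W1`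
  have hi𝔪 : vertI π B (O i) (leO i) ≤ 𝔪 := hi.trans hQ𝔪
  have hW1 : (O i).comap φ = W1 := by
    rcases pos i with h | h
    · exact h
    · exact absurd hi𝔪 ((offBranch_iff (leO i) 𝔪).mp (hoff i h))
  -- separation
  obtain ⟨d, hdB, ⟨c, hcW1, hdc⟩, hd2⟩ := hsep
  apply hd2
  have hdQ : algebraMap ↥BM ↥B ⟨d, hdB⟩ ∈ Q := by
    apply hi
    refine ⟨φ c, ?_, ?_⟩
    · rw [← hW1] at hcW1
      exact hcW1
    · rw [hcoe]
      show φ d = _
      rw [hdc, map_mul, hφR]
  have hdp : (⟨d, hdB⟩ : ↥BM) ∈ vertI π BM W2 leW2 := by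
    rw [hQu]
    exact hdQ
  exact hdp

end Main

end Fermat.Agent.ES.P36.OffContract27
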