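/-
Program P (S36), chapter REG, brick R9 (helper9), LAST LINE of `OneItemsP`: **the target
`PtsModel9.OneAt` split by the component `i ∈ {0, 1, 2}`**, so that the three suppliers have a literal
target each:

* `i = 0` (only `C₁ = O1''` passes): R8, `C₁`-side (`C1Side1.oneAt_zero_B0/_B1`);
* `i = 1` (only the non-reduced middle component passes, type II): R7 + R7c (`TypeTwoModel20`);
* `i = 2` (only `C₃ = O3''` passes): R8, `C₃`-side (`C3Side5`).

* `OneAtI O E q π B Of i` : the `i`-clause of `PtsModel9.OneAt` (generic Gauss layer);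
* `oneAt_of_cases` : `OneAtI 0 → OneAtI 1 → OneAtI 2 → OneAt`;
* `OneItemsPI n e q M' A K i` : the `i`-clause of `PtsModel9.OneItemsP` (per `K`, both charts);
* `oneItemsP_of_cases` : `OneItemsPI 0 → OneItemsPI 1 → OneItemsPI 2 → OneItemsP`.
-/
import Mathlib
import Fermat.Agent.ES.P36.PtsModel9

set_option autoImplicit false
set_option linter.unusedSectionVars false
set_option synthInstance.maxHeartbeats 400000

open HahnSeries ModularCurve

noncomputable section

namespace Fermat.Agent.ES.P36.OneCases9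

open Fermat.Agent.ES.N34.NodalCore13 Fermat.Agent.ES.P36.NumAbsP13 Fermat.Agent.ES.P36.PtsModel9

section Generic

variable {Kt : Type*} [Field Kt] (O : ValuationSubring Kt)
  (E : IntermediateField Kt (LaurentSeries Kt))

/-- **The `i`-clause of `PtsModel9.OneAt`**: a closed point of the special fibre through which only
the component `Of i` passes is a `OneBranch` point. -/
def OneAtI (q : ℕ) (π : ↥O) (B : Subalgebra ↥O ↥E) (Of : Fin 3 → ValuationSubring ↥E)
    (i : Fin 3) : Prop :=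
  ∀ (𝔪 : Ideal ↥B) (h𝔪 : 𝔪.IsMaximal), algebraMap ↥O ↥B π ∈ 𝔪 →
    (∀ j, j ≠ i → OffBranch π B (Of j) 𝔪) →
    @OneBranch ↥O ↥E _ _ _ q π B (Fin 3) Of 𝔪 h𝔪.isPrime

variable {O E}

theorem oneAt_iff {q : ℕ} {π : ↥O} {B : Subalgebra ↥O ↥E} {Of : Fin 3 → ValuationSubring ↥E} :
    OneAt O E q π B Of ↔ ∀ i, OneAtI O E q π B Of i := Iff.rfl

/-- **`OneAt` from its three cases.** -/
theorem oneAt_of_cases {q : ℕ} {π : ↥O} {B : Subalgebra ↥O ↥E} {Of : Fin 3 → ValuationSubring ↥E}
    (h0 : OneAtI O E q π B Of 0) (h1 : OneAtI O E q π B Of 1) (h2 : OneAtI O E q π B Of 2) :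
    OneAt O E q π B Of := by
  intro i
  fin_cases i
  · exact h0
  · exact h1
  · exact h2

end Generic

section Model

open Fermat.Agent.RED.Interface4 Fermat.Agent.RED.PUR.GaussGen8 Fermat.Agent.RED.BASE.EtaQuot12
  Fermat.Agent.ES.N34 Fermat.Agent.ES.P36.ModelDefsP9

variable (n e q M' : ℕ) [NeZero n] [NeZero M'] [NeZero q] (A : ValuationSubring Qbar)
  (K : IntermediateField ℚ Qbar)

/-- **The `i`-clause of `PtsModel9.OneItemsP`** (per `K`, both charts, every middle ring). -/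
def OneItemsPI (i : Fin 3) : Prop :=
  ∀ (ht : tq (↥K) n e ∈ FK M' K) (π : ↥(AK A K)) (hπ : IsUnif (AK A K) π)
    (O2 : ValuationSubring ↥(FK (M' * q * q) K)), IsMid M' q hπ O2 →
    OneAtI (AK A K) (FK (M' * q * q) K) q π (B0 A q ht) (Ofam M' q hπ O2) i ∧
    OneAtI (AK A K) (FK (M' * q * q) K) q π (B1 A q ht) (Ofam M' q hπ O2) i

variable {n e q M' A K}

/-- **`OneItemsP` = R8 (`i = 0, 2`) + R7/R7c (`i = 1`).** -/
theorem oneItemsP_of_cases (h0 : OneItemsPI n e q M' A K 0) (h1 : OneItemsPI n e q M' A K 1)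
    (h2 : OneItemsPI n e q M' A K 2) : OneItemsP n e q M' A K := by
  intro ht π hπ O2 hO2
  obtain ⟨h00, h01⟩ := h0 ht π hπ O2 hO2
  obtain ⟨h10, h11⟩ := h1 ht π hπ O2 hO2
  obtain ⟨h20, h21⟩ := h2 ht π hπ O2 hO2
  exact ⟨oneAt_of_cases h00 h10 h20, oneAt_of_cases h01 h11 h21⟩

end Model

end Fermat.Agent.ES.P36.OneCases9
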