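/-
Program P (S36), chapter REG, brick R9 (helper9), THE LAST LINE of `PtsModel9.OneItemsP`:

    `OneItemsP n e q M' A K`  =  `OneItemsPI 0` (R8, `C₁`-side)  ∧  `OneItemsPI 1` (R7 + R7c)
                                  ∧  `OneItemsPI 2` (R8, `C₃`-side),

over ONE number field `K` (finite over `ℚ`), with BOTH sides of R8 PLUGGED IN:

* `hcombC1_of` : helper1's named input `C1Side1.HcombC1` (= `hcomb1` of `C3Side5`) from helper25's
  `HcombSq25.hcomb_O1` (`OvE`-membership ↔ `gaussRing`-membership);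
* `oneItemsPI_zero` : `OneItemsPI … 0` from `C1Side1.oneAt_zero_B0 / _B1`;
* `oneItemsPI_two`  : `OneItemsPI … 2` from `C3Side5.hone_C3_zero / hone_C3_one`;
  inputs of both: the level-`M'` package `PrinItems12.LevelItems` (`LevelMAt4.levelItems_at`), the
  multi-component model `MultiItemsP` (M7), the supplier bundle `GenItems20.GenFactsP` (for `hcomb`),
  and for `i = 2` the level-`M' q` items `ModEqItems`, `KronItems` (`ModelInert4.items_*_inertial`);
* `oneItemsP_of` : the last line, with `OneItemsPI … 1` (`TypeTwoModel20`) as the only hypothesis left;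
* `oneItemsP_four`, `oneItemsP_nine` : the two Hauptmodul cases of record at an inertial `K ∋ ζ_{M'}`.
-/
import Mathlib
import Fermat.Agent.ES.P36.OneCases9
import Fermat.Agent.ES.P36.C1Side1
import Fermat.Agent.ES.P36.C3Side5
import Fermat.Agent.ES.P36.HcombSq25
import Fermat.Agent.ES.P36.LevelMAt4
import Fermat.Agent.ES.P36.GenItems20
import Fermat.Agent.ES.P36.ModelInert4

set_option autoImplicit false
set_option linter.unusedSectionVars false
set_option synthInstance.maxHeartbeats 400000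

open HahnSeries ModularCurve
open scoped MatrixGroups

noncomputable section

namespace Fermat.Agent.ES.P36.OneItems9

open Fermat.Agent.X0 Fermat.Agent.RED.Interface4 Fermat.Agent.RED.PUR.GaussGen8
  Fermat.Agent.RED.PUR.G1Package8 Fermat.Agent.RED.PUR.GaussBridge10
  Fermat.Agent.RED.BASE.EtaQuot12 Fermat.Agent.RED.BASE.Interface12
  Fermat.Agent.RED.DESC.NumberFieldDVR27
  Fermat.Agent.ES.N34 Fermat.Agent.ES.P36.ModelDefsP9 Fermat.Agent.ES.P36.GenInst11
  Fermat.Agent.ES.P36.GenItems20 Fermat.Agent.ES.P36.PtsModel9 Fermat.Agent.ES.P36.OneCases9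
  Fermat.Agent.ES.P36.InertField27

variable {n e q M' : ℕ} [NeZero n] [NeZero M'] [NeZero q] {A : ValuationSubring Qbar}
  {K : IntermediateField ℚ Qbar}

set_option maxHeartbeats 2000000 in
/-- **`C1Side1.HcombC1` from `HcombSq25.hcomb_O1`.** -/
theorem hcombC1_of [IsDiscreteValuationRing ↥(AK A K)] (hq : q.Prime) {π : ↥(AK A K)}
    (hπ : IsUnif (AK A K) π) (B : BaseFacts A K M' q hπ) (X1 : V1Facts A K M' q hπ)
    (X3 : V3Facts A K M' q hπ) (Kr : KronFacts A K M' q hπ)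
    {O : ValuationSubring ↥(FK (M' * q * q) K)} {T : ↥(FK (M' * q * q) K)}
    (Mid : MidUnif A K M' q hπ O T) : C1Side1.HcombC1 M' q hπ := by
  intro x hx
  have hirr : Irreducible π := (IsDiscreteValuationRing.irreducible_iff_uniformizer π).mpr hπ.max_eq
  obtain ⟨z, hz, c, hc, hxz⟩ := HcombSq25.hcomb_O1 hq hirr B X1 X3 Kr Mid x hx
  exact ⟨z, (mem_OvE_iff (AK A K) hirr (FK M' K) (FK_le_fracField A K M') z).mp hz, c, hc, hxz⟩

set_option maxHeartbeats 2000000 in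
/-- **R8, `C₁`-side, per `K`**: the case `i = 0` of `OneItemsP`. -/
theorem oneItemsPI_zero [FiniteDimensional ℚ K] (hq : q.Prime) (hA : A.LiesOverPrime q)
    (hL : PrinItems12.LevelItems n e M' A K)
    (hmulti : MultiItemsP n e q M' A K) (G : GenFactsP A K M' q) :
    OneItemsPI n e q M' A K 0 := by
  intro ht π hπ O2 hO2
  have hdvr : IsDiscreteValuationRing ↥(AK A K) := isDiscreteValuationRing_AK A K hq.ne_zero hA
  obtain ⟨ht', -, hLM⟩ := hL
  obtain ⟨L0, L1⟩ := hLM π ((IsDiscreteValuationRing.irreducible_iff_uniformizer π).mpr hπ.max_eq)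
  obtain ⟨T, Mid⟩ := G.mid π hπ O2 hO2
  have hcomb := hcombC1_of hq hπ (G.base π hπ) (G.v1 π hπ) (G.v3 π hπ) (G.kron π hπ) Mid
  have model := hmulti ht π hπ O2 hO2
  exact ⟨fun 𝔪 h𝔪 hπ𝔪 hoff =>
      C1Side1.oneAt_zero_B0 q hq.one_le ht hπ O2 L0 model hcomb 𝔪 h𝔪 hπ𝔪 hoff,
    fun 𝔪 h𝔪 hπ𝔪 hoff =>
      C1Side1.oneAt_zero_B1 q hq.one_le ht hπ O2 L1 model hcomb 𝔪 h𝔪 hπ𝔪 hoff⟩

set_option maxHeartbeats 2000000 in
/-- **R8, `C₃`-side, per `K`**: the case `i = 2` of `OneItemsP`. -/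
theorem oneItemsPI_two [FiniteDimensional ℚ K] (hq : q.Prime) (hqM : ¬ q ∣ M')
    (hA : A.LiesOverPrime q) (hL : PrinItems12.LevelItems n e M' A K)
    (hS2 : ModelN4.ModEqItems n e q M' A K) (hKr : ModelN4.KronItems n e q M' A K)
    (hmulti : MultiItemsP n e q M' A K) (G : GenFactsP A K M' q) :
    OneItemsPI n e q M' A K 2 := by
  intro ht π hπ O2 hO2
  have hdvr : IsDiscreteValuationRing ↥(AK A K) := isDiscreteValuationRing_AK A K hq.ne_zero hA
  obtain ⟨T, Mid⟩ := G.mid π hπ O2 hO2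
  have hcomb := hcombC1_of hq hπ (G.base π hπ) (G.v1 π hπ) (G.v3 π hπ) (G.kron π hπ) Mid
  have model := hmulti ht π hπ O2 hO2
  exact ⟨fun 𝔪 h𝔪 hπ𝔪 hoff =>
      C3Side5.hone_C3_zero M' q hπ hq hqM hA hL hS2 hKr ht O2 model hcomb 𝔪 h𝔪 hπ𝔪 hoff,
    fun 𝔪 h𝔪 hπ𝔪 hoff =>
      C3Side5.hone_C3_one M' q hπ hq hqM hA hL hS2 hKr ht O2 model hcomb 𝔪 h𝔪 hπ𝔪 hoff⟩

/-- **The last line of `OneItemsP`**: R8 (both sides) plugged in; R7 + R7c (`i = 1`) as hypothesis. -/
theorem oneItemsP_of [FiniteDimensional ℚ K] (hq : q.Prime) (hqM : ¬ q ∣ M')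
    (hA : A.LiesOverPrime q) (hL : PrinItems12.LevelItems n e M' A K)
    (hS2 : ModelN4.ModEqItems n e q M' A K) (hKr : ModelN4.KronItems n e q M' A K)
    (hmulti : MultiItemsP n e q M' A K) (G : GenFactsP A K M' q)
    (h1 : OneItemsPI n e q M' A K 1) : OneItemsP n e q M' A K :=
  oneItemsP_of_cases (oneItemsPI_zero hq hA hL hmulti G) h1
    (oneItemsPI_two hq hqM hA hL hS2 hKr hmulti G)

/-- `q` odd, `4 ∣ M'`, Hauptmodul `(4, 8)`, inertial `K ∋ ζ_{M'}`. -/
theorem oneItemsP_four [FiniteDimensional ℚ K] (hq : q.Prime) (hq2 : q ≠ 2) (hqM : ¬ q ∣ M')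
    (hM : 4 ∣ M') (hA : A.LiesOverPrime q) (hK : IsInertial A K) (hζ : zetaK M' ∈ K)
    (hmulti : MultiItemsP 4 8 q M' A K) (G : GenFactsP A K M' q)
    (h1 : OneItemsPI 4 8 q M' A K 1) : OneItemsP 4 8 q M' A K :=
  have hI := ModelInert4.items_four_inertial hq hq2 hqM hM hA hK hζ
  oneItemsP_of hq hqM hA (LevelMAt4.levelItems_four_at hq hqM hM hA hζ) hI.2.2.1 hI.2.2.2.1
    hmulti G h1

/-- `q = 2`, `9 ∣ M'`, Hauptmodul `(9, 3)`, inertial `K ∋ ζ_{M'}`. -/
theorem oneItemsP_nine {M' : ℕ} [NeZero M'] {A : ValuationSubring Qbar}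
    {K : IntermediateField ℚ Qbar} [FiniteDimensional ℚ K] (hqM : ¬ 2 ∣ M') (hM : 9 ∣ M')
    (hA : A.LiesOverPrime 2) (hK : IsInertial A K) (hζ : zetaK M' ∈ K)
    (hmulti : MultiItemsP 9 3 2 M' A K) (G : GenFactsP A K M' 2)
    (h1 : OneItemsPI 9 3 2 M' A K 1) : OneItemsP 9 3 2 M' A K :=
  have hI := ModelInert4.items_nine_inertial hqM hM hA hK hζ
  oneItemsP_of Nat.prime_two hqM hA (LevelMAt4.levelItems_nine_at Nat.prime_two hqM hM hA hζ)
    hI.2.2.1 hI.2.2.2.1 hmulti G h1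

end Fermat.Agent.ES.P36.OneItems9
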