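/-
Program P (S36), assembly brick A1, last mile, third layer (helper13): **`OpenOf13.OpenItemsE` (`one1`, `cross`,
`eis`) from R7 (`one1`) and the two-generator input of R1/R2 (`twoGen`)**, compiled before the suppliers land.

* `eis   := EisFinal4.eisItemsP_four / _nine` (helper4: the shared contract of R6 over an inertial `K ∋ ζ_{M'}`, both
  sides, both charts) from `TableItemsP` (`TableItems11.tableItems_of`, chapter (G)), `MultiItemsP`
  (`OpenOf13.multiItemsP_ready`) and `hT : NodeRegAt10.TwoGenItems` (OPEN: `RegInst21` + `RegNode21`);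
* `cross := CrossModel29.crossItemsP_of_eis` (helper29) from `hJ`, `ModEqItems`, `MultiItemsP`, `TableItemsP`, `eis`;
* `one1` stays (R7 + R7c: helper20 `TypeTwoFinal20`; it consumes `cross`, so it is taken as a FUNCTION of
  `CrossItemsP`).

STILL OPEN after this layer = the fields of `OpenItemsF`:
`one1 : CrossItemsP → OneCases9.OneItemsPI … 1`, `twoGen : NodeRegAt10.TwoGenItems`.

* `openItemsE_four`, `openItemsE_nine`, `fixBarAll_of_openF`.
-/
import Mathlib
import Fermat.Agent.ES.P36.OpenOf13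
import Fermat.Agent.ES.P36.CrossModel29
import Fermat.Agent.ES.P36.EisFinal4

set_option autoImplicit false
set_option synthInstance.maxHeartbeats 400000
set_option maxHeartbeats 4000000
set_option linter.unusedSectionVars false

open HahnSeries AlgebraicCurve ModularCurve

noncomputable section

namespace Fermat.Agent.ES.P36.OpenTop13

open Fermat.Agent.RED.Interface4 Fermat.Agent.RED.PUR.GaussGen8 Fermat.Agent.RED.BASE.EtaQuot12
  Fermat.Agent.ES.N34
  Fermat.Agent.ES.P36.NumAsmP12 Fermat.Agent.ES.P36.ItemsOf13 Fermat.Agent.ES.P36.OpenOf13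

variable (n e q M' : ℕ) [NeZero n] [NeZero M'] [NeZero q] (A : ValuationSubring Qbar)
  (K : IntermediateField ℚ Qbar)

/-- **The still-open suppliers at `K`, layer F.** -/
structure OpenItemsF : Prop where
  /-- R7 + R7c (consumes R6's `CrossItemsP`): only the middle component passes ⇒ `OneBranch`. -/
  one1 : Fermat.Agent.ES.P36.PtsModel9.CrossItemsP n e q M' A K →
    Fermat.Agent.ES.P36.OneCases9.OneItemsPI n e q M' A K 1
  /-- R1/R2: two local generators and non-centredness at the two-branch points of level `M' q`. -/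
  twoGen : Fermat.Agent.ES.P36.NodeRegAt10.TwoGenItems n e q M' A K

variable {n e q M' A K}

/-- `q` odd, `4 ∣ M'`, Hauptmodul `(4, 8)`. -/
theorem openItemsE_four [FiniteDimensional ℚ K] (hq : q.Prime) (hqM : ¬ q ∣ M') (hq2 : q ≠ 2)
    (hM : 4 ∣ M') (hA : A.LiesOverPrime q) (hK : ReadyP q M' A K)
    (H : OpenItemsF 4 8 q M' A K) : OpenItemsE 4 8 q M' A K := by
  have hB := Fermat.Agent.RED.BASE.Main12.baseExports
    Fermat.Agent.RED.BASE.Hauptmodul12.baseHyp_four M' hM
  have hmulti := multiItemsP_ready hq hqM hA hK hB.mem hB.genBase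
  have G := genFactsP_ready hq hqM hA hK hB.mem hB.genBase
  have htab : Fermat.Agent.ES.P36.BranchModel15.TableItemsP q M' A K :=
    Fermat.Agent.ES.P36.TableItems11.tableItems_of hq G
  have heis := Fermat.Agent.ES.P36.EisFinal4.eisItemsP_four hq hq2 hqM hM hA hK.1 hK.2 htab hmulti
    H.twoGen
  have hcross := Fermat.Agent.ES.P36.CrossModel29.crossItemsP_of_eis hq hA
    (Fermat.Agent.ES.P36.CoeffField4.j_mem_adjoin 4 8 hB.genBase K)
    (Fermat.Agent.ES.P36.ModelInert4.items_four_inertial hq hq2 hqM hM hA hK.1 hK.2).2.2.1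
    hmulti htab heis
  exact ⟨H.one1 hcross, hcross, heis⟩

/-- `q = 2`, `9 ∣ M'`, Hauptmodul `(9, 3)`. -/
theorem openItemsE_nine {M' : ℕ} [NeZero M'] {A : ValuationSubring Qbar}
    {K : IntermediateField ℚ Qbar} [FiniteDimensional ℚ K] (hqM : ¬ 2 ∣ M') (hM : 9 ∣ M')
    (hA : A.LiesOverPrime 2) (hK : ReadyP 2 M' A K)
    (H : OpenItemsF 9 3 2 M' A K) : OpenItemsE 9 3 2 M' A K := by
  have hB := Fermat.Agent.RED.BASE.Main12.baseExports
    Fermat.Agent.RED.BASE.Hauptmodul12.baseHyp_nine M' hM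
  have hmulti := multiItemsP_ready Nat.prime_two hqM hA hK hB.mem hB.genBase
  have G := genFactsP_ready Nat.prime_two hqM hA hK hB.mem hB.genBase
  have htab : Fermat.Agent.ES.P36.BranchModel15.TableItemsP 2 M' A K :=
    Fermat.Agent.ES.P36.TableItems11.tableItems_of Nat.prime_two G
  have heis := Fermat.Agent.ES.P36.EisFinal4.eisItemsP_nine hqM hM hA hK.1 hK.2 htab hmulti H.twoGen
  have hcross := Fermat.Agent.ES.P36.CrossModel29.crossItemsP_of_eis Nat.prime_two hA
    (Fermat.Agent.ES.P36.CoeffField4.j_mem_adjoin 9 3 hB.genBase K)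
    (Fermat.Agent.ES.P36.ModelInert4.items_nine_inertial hqM hM hA hK.1 hK.2).2.2.1
    hmulti htab heis
  exact ⟨H.one1 hcross, hcross, heis⟩

/-- **(K_c) at all auxiliary levels from layer F of the open suppliers over the ready fields.** -/
theorem fixBarAll_of_openF
    (hodd : ∀ (q M' : ℕ) [NeZero M'] [NeZero q] (A : ValuationSubring Qbar), q.Prime → ¬ q ∣ M' →
      q ≠ 2 → 4 ∣ M' → A.LiesOverPrime q → ∀ K : IntermediateField ℚ Qbar, FiniteDimensional ℚ K →
      ReadyP q M' A K → OpenItemsF 4 8 q M' A K)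
    (htwo : ∀ (M' : ℕ) [NeZero M'] (A : ValuationSubring Qbar), ¬ 2 ∣ M' → 9 ∣ M' →
      A.LiesOverPrime 2 → ∀ K : IntermediateField ℚ Qbar, FiniteDimensional ℚ K →
      ReadyP 2 M' A K → OpenItemsF 9 3 2 M' A K) :
    Fermat.Agent.ES.P36.IfaceP17.FixBarAll (Fermat.Agent.ES.P36.S36AsmP12.cP c0) :=
  fixBarAll_of_openE
    (fun q M' _ _ A hq hqM hq2 hM hA K hfin hK =>
      haveI := hfin
      openItemsE_four hq hqM hq2 hM hA hK (hodd q M' A hq hqM hq2 hM hA K hfin hK))
    (fun M' _ A hqM hM hA K hfin hK =>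
      haveI := hfin
      openItemsE_nine hqM hM hA hK (htwo M' A hqM hM hA K hfin hK))

end Fermat.Agent.ES.P36.OpenTop13
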