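/-
Program P (S36), chapter REG, brick RegInst (helper21), the two Hauptmodul instances
`(n, e) = (4, 8)` (`q` odd) and `(9, 3)` (`q = 2`): `RegInst21.TwoGenItems` at ONE number field `K`
with `ζ_{M'} ∈ K` and a Frobenius inverse (the finite cusp values of every level then lie in `K`:
`cuspValue_four_mem/_nine_mem`), from the
two named inputs `CuspOffItems` (R4) and `ExpItems` (R2).  Pure substitution of helper4's per-`K`
items (`LevelMAt4`, `ModelQAt4`, `ModelOAt4`) and `HunrLevel3.hunrOff_four/_nine` into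
`RegInst21.twoGenItems_at`.
-/
import Mathlib
import Fermat.Agent.RED.BASE.CuspExpLevel11
import Fermat.Agent.ES.P36.HunrLevel3
import Fermat.Agent.ES.P36.RegInst21

set_option autoImplicit false
set_option synthInstance.maxHeartbeats 400000
set_option linter.unusedSectionVars false

noncomputable section

open HahnSeries ModularCurve IntermediateField
open scoped MatrixGroups

namespace Fermat.Agent.ES.P36.RegFinal21

open Fermat.Agent.RED.Interface4 Fermat.Agent.RED.PUR.GaussGen8 Fermat.Agent.RED.BASE.EtaQuot12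
  Fermat.Agent.RED.ModelTargets4 Fermat.Agent.RED.BASE
  Fermat.Agent.ES.N34.ModelDefs9 Fermat.Agent.ES.N34.ModelN4
  Fermat.Agent.ES.P36.ModelQAt4 Fermat.Agent.ES.P36.RegInst21 Fermat.Agent.X0

variable {M' : ℕ} [NeZero M'] {q : ℕ} [NeZero q] {A : ValuationSubring Qbar}
  {K : IntermediateField ℚ Qbar}

/-- the finite cusp values of `tq · 4 8` at ANY level `M` (`4 ∣ M`) lie in `K` as soon as
`ζ_{M'} ∈ K` for ONE level `M'` divisible by `4` (the cusp values do not depend on the level: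
`CuspExpLevel11.cvT_eq_base`). -/
theorem cuspValue_four_mem (hM : 4 ∣ M') (hζ : zetaK M' ∈ K) (M : ℕ) [NeZero M] (hM4 : 4 ∣ M) :
    ∀ (γ : SL(2, ℤ)) (c : Kbar), CuspExpMain11.cvT 4 8 M γ = some c → c ∈ K := by
  intro γ c hγ
  have hmem := Hauptmodul12.tMem Hauptmodul12.baseHyp_four
  rw [CuspExpLevel11.cvT_eq_base 4 8 M hM4 hmem,
    ← CuspExpLevel11.cvT_eq_base 4 8 M' hM hmem] at hγ
  exact Fermat.Agent.ES.P36.LevelMAt4.cuspValue_mem (CuspExpMain11.cvT 4 8 M')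
    (MainCusp12.cuspExports_four M' hM).cuspExp hζ γ c hγ

/-- the same for `tq · 9 3`. -/
theorem cuspValue_nine_mem (hM : 9 ∣ M') (hζ : zetaK M' ∈ K) (M : ℕ) [NeZero M] (hM9 : 9 ∣ M) :
    ∀ (γ : SL(2, ℤ)) (c : Kbar), CuspExpMain11.cvT 9 3 M γ = some c → c ∈ K := by
  intro γ c hγ
  have hmem := Hauptmodul12.tMem Hauptmodul12.baseHyp_nine
  rw [CuspExpLevel11.cvT_eq_base 9 3 M hM9 hmem,
    ← CuspExpLevel11.cvT_eq_base 9 3 M' hM hmem] at hγ
  exact Fermat.Agent.ES.P36.LevelMAt4.cuspValue_mem (CuspExpMain11.cvT 9 3 M')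
    (MainCusp12.cuspExports_nine M' hM).cuspExp hζ γ c hγ

/-- `q` odd, `4 ∣ M'`, Hauptmodul `tq · 4 8`. -/
theorem twoGenItems_four_at (hq : q.Prime) (hq2 : q ≠ 2) (hqM : ¬ q ∣ M') (hM : 4 ∣ M')
    (hA : A.LiesOverPrime q) [FiniteDimensional ℚ K] (hζ : zetaK M' ∈ K)
    (hF : FrobInvAt A K q)
    (hcusp : CuspOffItems 4 8 q M' A K (cuspSet A K (CuspExpMain11.cvT 4 8 (M' * q))))
    (hexp : ExpItems 4 8 q M' A K) : TwoGenItems 4 8 q M' A K := by
  have : NeZero (M' * q) := ⟨Nat.mul_ne_zero (NeZero.ne M') (NeZero.ne q)⟩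
  obtain ⟨-, hG, hS2, -, -⟩ := items_four_at (K := K) hq hq2 hqM hM hA hζ hF
  obtain ⟨-, hComp, -, -, -, -⟩ :=
    Fermat.Agent.ES.P36.ModelOAt4.levelO_four_at (K := K) hq hq2 hqM hM hA hζ hF
  have hL := Fermat.Agent.ES.P36.LevelMAt4.levelItems_four_at (K := K) hq hqM hM hA hζ
  refine twoGenItems_at hq hqM hA hF hL hG hS2 hComp _ (fun ht ϖ hϖ => ?_) hcusp hexp
  exact Fermat.Agent.ES.P36.HunrLevel3.hunrOff_four (Dvd.dvd.mul_right hM q) hq hq2 hA K
    (cuspValue_four_mem hM hζ (M' * q) (Dvd.dvd.mul_right hM q)) ϖ hϖ (tN q ht) (coe_tN q ht)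

/-- `q = 2`, `9 ∣ M'`, Hauptmodul `tq · 9 3`. -/
theorem twoGenItems_nine_at [NeZero 2] (hqM : ¬ 2 ∣ M') (hM : 9 ∣ M')
    (hA : A.LiesOverPrime 2) [FiniteDimensional ℚ K] (hζ : zetaK M' ∈ K)
    (hF : FrobInvAt A K 2)
    (hcusp : CuspOffItems 9 3 2 M' A K (cuspSet A K (CuspExpMain11.cvT 9 3 (M' * 2))))
    (hexp : ExpItems 9 3 2 M' A K) : TwoGenItems 9 3 2 M' A K := by
  have : NeZero (M' * 2) := ⟨Nat.mul_ne_zero (NeZero.ne M') two_ne_zero⟩
  obtain ⟨-, hG, hS2, -, -⟩ := items_nine_at (K := K) hqM hM hA hζ hF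
  obtain ⟨-, hComp, -, -, -, -⟩ :=
    Fermat.Agent.ES.P36.ModelOAt4.levelO_nine_at (K := K) hqM hM hA hζ hF
  have hL := Fermat.Agent.ES.P36.LevelMAt4.levelItems_nine_at (K := K) Nat.prime_two hqM hM hA hζ
  refine twoGenItems_at Nat.prime_two hqM hA hF hL hG hS2 hComp _ (fun ht ϖ hϖ => ?_) hcusp hexp
  exact Fermat.Agent.ES.P36.HunrLevel3.hunrOff_nine (Dvd.dvd.mul_right hM 2) hA K
    (cuspValue_nine_mem hM hζ (M' * 2) (Dvd.dvd.mul_right hM 2)) ϖ hϖ (tN 2 ht) (coe_tN 2 ht)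

end Fermat.Agent.ES.P36.RegFinal21
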