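/-
Program P (S36), chapter REG, brick RegInst (helper21): `RegInst21.TwoGenItems` at the two Hauptmodul
instances with R4 DISCHARGED (`CuspOffAsm21.cuspOffItems_at` ⇐ helper16's `CuspFinal16`): the only
remaining input is the exponent bound `ExpItems` (R2).  Readiness at `K`: `ζ_{M'} ∈ K` and a Frobenius
inverse.
-/
import Mathlib
import Fermat.Agent.ES.P36.CuspOffAsm21
import Fermat.Agent.ES.P36.RegFinal21

set_option autoImplicit false
set_option synthInstance.maxHeartbeats 400000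
set_option linter.unusedSectionVars false

noncomputable section

open HahnSeries ModularCurve IntermediateField
open scoped MatrixGroups

namespace Fermat.Agent.ES.P36.RegClosed21

open Fermat.Agent.RED.Interface4 Fermat.Agent.RED.PUR.GaussGen8 Fermat.Agent.RED.BASE.EtaQuot12
  Fermat.Agent.RED.ModelTargets4 Fermat.Agent.RED.BASE
  Fermat.Agent.ES.N34.ModelDefs9 Fermat.Agent.ES.N34.ModelN4
  Fermat.Agent.ES.P36.ModelQAt4 Fermat.Agent.ES.P36.RegInst21 Fermat.Agent.X0

variable {M' : ℕ} [NeZero M'] {q : ℕ} [NeZero q] {A : ValuationSubring Qbar}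
  {K : IntermediateField ℚ Qbar}

/-- `q` odd, `4 ∣ M'`, Hauptmodul `tq · 4 8`: R4 discharged. -/
theorem twoGenItems_four_of_exp (hq : q.Prime) (hq2 : q ≠ 2) (hqM : ¬ q ∣ M') (hM : 4 ∣ M')
    (hA : A.LiesOverPrime q) [FiniteDimensional ℚ K] (hζ : zetaK M' ∈ K)
    (hF : FrobInvAt A K q) (hexp : ExpItems 4 8 q M' A K) : TwoGenItems 4 8 q M' A K := by
  have : NeZero (M' * q) := ⟨Nat.mul_ne_zero (NeZero.ne M') (NeZero.ne q)⟩
  have hqn : ¬ q ∣ 4 := by
    intro h
    have h' : q ∣ 2 := hq.dvd_of_dvd_pow (show q ∣ 2 ^ 2 by simpa using h)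
    exact hq2 ((Nat.prime_dvd_prime_iff_eq hq Nat.prime_two).1 h')
  obtain ⟨-, -, hS2, -, -⟩ := items_four_at (K := K) hq hq2 hqM hM hA hζ hF
  have hL := Fermat.Agent.ES.P36.LevelMAt4.levelItems_four_at (K := K) hq hqM hM hA hζ
  have hD := nodalNumData_four_at (K := K) hq hq2 hqM hM hA hζ hF
  exact RegFinal21.twoGenItems_four_at hq hq2 hqM hM hA hζ hF
    (CuspOffAsm21.cuspOffItems_at Hauptmodul12.baseHyp_four hq hqn hqM hA hF hL hS2 hD
      (Dvd.dvd.mul_right hM q) _ (MainCusp12.cuspExports_four (M' * q)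
        (Dvd.dvd.mul_right hM q)).cuspExp) hexp

/-- `q = 2`, `9 ∣ M'`, Hauptmodul `tq · 9 3`: R4 discharged. -/
theorem twoGenItems_nine_of_exp [NeZero 2] (hqM : ¬ 2 ∣ M') (hM : 9 ∣ M')
    (hA : A.LiesOverPrime 2) [FiniteDimensional ℚ K] (hζ : zetaK M' ∈ K)
    (hF : FrobInvAt A K 2) (hexp : ExpItems 9 3 2 M' A K) : TwoGenItems 9 3 2 M' A K := by
  have : NeZero (M' * 2) := ⟨Nat.mul_ne_zero (NeZero.ne M') two_ne_zero⟩
  obtain ⟨-, -, hS2, -, -⟩ := items_nine_at (K := K) hqM hM hA hζ hF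
  have hL := Fermat.Agent.ES.P36.LevelMAt4.levelItems_nine_at (K := K) Nat.prime_two hqM hM hA hζ
  have hD := nodalNumData_nine_at (K := K) hqM hM hA hζ hF
  exact RegFinal21.twoGenItems_nine_at hqM hM hA hζ hF
    (CuspOffAsm21.cuspOffItems_at Hauptmodul12.baseHyp_nine Nat.prime_two (by decide) hqM hA hF
      hL hS2 hD (Dvd.dvd.mul_right hM 2) _ (MainCusp12.cuspExports_nine (M' * 2)
        (Dvd.dvd.mul_right hM 2)).cuspExp) hexp

end Fermat.Agent.ES.P36.RegClosed21
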