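/-
Program P (S36), chapter REG, brick RegInst (helper21), CLOSED: `RegInst21.TwoGenItems` at the two
Hauptmodul instances `(4, 8)` (`q` odd) and `(9, 3)` (`q = 2`) with NO open input — R4
(`CuspOffAsm21`), R2 (`RegExp12.hexp_model` via `RegExpAsm21.expItems_at`) and R4 + (J)
(`JReg21.jRegItems_at`) are all discharged.  Readiness at `K`: `ζ_{M'} ∈ K`, a Frobenius inverse, and
`K` fixed by the inertia group of `A` (so that `q` is a uniformiser of `A_K`).
-/
import Mathlib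
import Fermat.Agent.ES.P36.UnrFixed1
import Fermat.Agent.ES.P36.JReg21
import Fermat.Agent.ES.P36.RegClosed21

set_option autoImplicit false
set_option synthInstance.maxHeartbeats 400000
set_option linter.unusedSectionVars false

noncomputable section

open HahnSeries ModularCurve IntermediateField
open scoped MatrixGroups

namespace Fermat.Agent.ES.P36.RegDone21

open Fermat.Agent.RED.Interface4 Fermat.Agent.RED.PUR.GaussGen8 Fermat.Agent.RED.BASE.EtaQuot12
  Fermat.Agent.RED.ModelTargets4 Fermat.Agent.RED.BASE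
  Fermat.Agent.ES.N34.ModelDefs9 Fermat.Agent.ES.N34.ModelN4
  Fermat.Agent.ES.P36.ModelQAt4 Fermat.Agent.ES.P36.RegInst21 Fermat.Agent.X0

variable {M' : ℕ} [NeZero M'] {q : ℕ} [NeZero q] {A : ValuationSubring Qbar}
  {K : IntermediateField ℚ Qbar}

/-- `q = π · unit` in `A_K` for every uniformiser `π`, when `K` is fixed by the inertia group. -/
theorem natCast_eq_unif_mul (hq : q.Prime) (hA : A.LiesOverPrime q) [FiniteDimensional ℚ K]
    (hK : ∀ τ ∈ A.inertiaSubgroupIn ℚ, ∀ x ∈ K, τ x = x) :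
    ∀ π : ↥(AK A K), IsUnif (AK A K) π →
      ∃ u : (↥(AK A K))ˣ, ((q : ℕ) : ↥(AK A K)) = π * u := by
  intro π hπ
  haveI hdvr : IsDiscreteValuationRing ↥(AK A K) :=
    Fermat.Agent.RED.DESC.NumberFieldDVR27.isDiscreteValuationRing_AK A K hq.ne_zero hA
  have hirr : Irreducible π := (IsDiscreteValuationRing.irreducible_iff_uniformizer π).mpr hπ.max_eq
  have hqu : IsUnif (AK A K) ((q : ℕ) : ↥(AK A K)) :=
    Fermat.Agent.ES.P36.UnrFixed1.isUnif_natCast A hq hA K hK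
  have hqirr : Irreducible ((q : ℕ) : ↥(AK A K)) :=
    (IsDiscreteValuationRing.irreducible_iff_uniformizer _).mpr hqu.max_eq
  obtain ⟨u, hu⟩ := IsDiscreteValuationRing.associated_of_irreducible _ hirr hqirr
  exact ⟨u, hu.symm⟩

/-- R2 at `(4, 8)`: the exponent bound, no open input. -/
theorem expItems_four (hq : q.Prime) (hq2 : q ≠ 2) (hqM : ¬ q ∣ M') (hM : 4 ∣ M')
    (hA : A.LiesOverPrime q) [FiniteDimensional ℚ K] (hζ : zetaK M' ∈ K)
    (hF : FrobInvAt A K q) (hK : ∀ τ ∈ A.inertiaSubgroupIn ℚ, ∀ x ∈ K, τ x = x) :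
    ExpItems 4 8 q M' A K := by
  have : NeZero (M' * q) := ⟨Nat.mul_ne_zero (NeZero.ne M') (NeZero.ne q)⟩
  have hqn : ¬ q ∣ 4 := by
    intro h
    have h' : q ∣ 2 := hq.dvd_of_dvd_pow (show q ∣ 2 ^ 2 by simpa using h)
    exact hq2 ((Nat.prime_dvd_prime_iff_eq hq Nat.prime_two).1 h')
  obtain ⟨-, -, hS2, -, -⟩ := items_four_at (K := K) hq hq2 hqM hM hA hζ hF
  have hL := Fermat.Agent.ES.P36.LevelMAt4.levelItems_four_at (K := K) hq hqM hM hA hζ
  have hD := nodalNumData_four_at (K := K) hq hq2 hqM hM hA hζ hF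
  exact RegExpAsm21.expItems_at hq hqM hA hL (natCast_eq_unif_mul hq hA hK)
    (JReg21.jRegItems_at Hauptmodul12.baseHyp_four hq hqn hqM hA hF hL hS2 hD)

/-- R2 at `(9, 3)`, `q = 2`: the exponent bound, no open input. -/
theorem expItems_nine [NeZero 2] (hqM : ¬ 2 ∣ M') (hM : 9 ∣ M')
    (hA : A.LiesOverPrime 2) [FiniteDimensional ℚ K] (hζ : zetaK M' ∈ K)
    (hF : FrobInvAt A K 2) (hK : ∀ τ ∈ A.inertiaSubgroupIn ℚ, ∀ x ∈ K, τ x = x) :
    ExpItems 9 3 2 M' A K := by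
  have : NeZero (M' * 2) := ⟨Nat.mul_ne_zero (NeZero.ne M') two_ne_zero⟩
  obtain ⟨-, -, hS2, -, -⟩ := items_nine_at (K := K) hqM hM hA hζ hF
  have hL := Fermat.Agent.ES.P36.LevelMAt4.levelItems_nine_at (K := K) Nat.prime_two hqM hM hA hζ
  have hD := nodalNumData_nine_at (K := K) hqM hM hA hζ hF
  exact RegExpAsm21.expItems_at Nat.prime_two hqM hA hL (natCast_eq_unif_mul Nat.prime_two hA hK)
    (JReg21.jRegItems_at Hauptmodul12.baseHyp_nine Nat.prime_two (by decide) hqM hA hF hL hS2 hD)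

/-- **RegInst, `(4, 8)`, closed.** -/
theorem twoGenItems_four (hq : q.Prime) (hq2 : q ≠ 2) (hqM : ¬ q ∣ M') (hM : 4 ∣ M')
    (hA : A.LiesOverPrime q) [FiniteDimensional ℚ K] (hζ : zetaK M' ∈ K)
    (hF : FrobInvAt A K q) (hK : ∀ τ ∈ A.inertiaSubgroupIn ℚ, ∀ x ∈ K, τ x = x) :
    TwoGenItems 4 8 q M' A K :=
  RegClosed21.twoGenItems_four_of_exp hq hq2 hqM hM hA hζ hF
    (expItems_four hq hq2 hqM hM hA hζ hF hK)

/-- **RegInst, `(9, 3)`, `q = 2`, closed.** -/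
theorem twoGenItems_nine [NeZero 2] (hqM : ¬ 2 ∣ M') (hM : 9 ∣ M')
    (hA : A.LiesOverPrime 2) [FiniteDimensional ℚ K] (hζ : zetaK M' ∈ K)
    (hF : FrobInvAt A K 2) (hK : ∀ τ ∈ A.inertiaSubgroupIn ℚ, ∀ x ∈ K, τ x = x) :
    TwoGenItems 9 3 2 M' A K :=
  RegClosed21.twoGenItems_nine_of_exp hqM hM hA hζ hF (expItems_nine hqM hM hA hζ hF hK)

end Fermat.Agent.ES.P36.RegDone21
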