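/-
Program P (S36), chapter REG, brick RegInst (helper21): ADAPTER to helper10's R3 model form —
`RegInst21.TwoGenItems n e q M' A K ⟹ NodeRegAt10.TwoGenItems n e q M' A K` (same content; order
`htwo ∧ hne1 ∧ hne2`, `¬ OffBranch` instead of `OnBranch`, the redundant `π ∈ 𝔪` dropped), hence
`NodeRegAt10.NodeRegItems` (R3 at `K`) from `RegInst21.twoGenItems_at`.
-/
import Mathlib
import Fermat.Agent.ES.P36.NodeRegAt10
import Fermat.Agent.ES.P36.RegInst21

set_option autoImplicit false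
set_option linter.unusedSectionVars false

noncomputable section

open HahnSeries ModularCurve

namespace Fermat.Agent.ES.P36.RegNode21

open Fermat.Agent.RED.Interface4 Fermat.Agent.RED.PUR.GaussGen8 Fermat.Agent.RED.BASE.EtaQuot12
  Fermat.Agent.RED.ModelTargets4 Fermat.Agent.ES.N34.ModelDefs9 Fermat.Agent.ES.N34.ModelTop4
  Fermat.Agent.ES.N34.NodalCore13 Fermat.Agent.ES.N34.NumData13 Fermat.Agent.ES.N35.NodeStrong4

section Generic

variable {R F : Type*} [CommRing R] [Field F] [Algebra R F]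

theorem not_offBranch_of_onBranch (π : R) (B : Subalgebra R F) (Oj : ValuationSubring F)
    (x1 : Ideal ↥B) (h : RegInst21.OnBranch π B Oj x1) : ¬ OffBranch π B Oj x1 := by
  rintro ⟨e, he, hc⟩
  exact he (h e hc)

/-- the adapter on one chart. -/
theorem twoGenAt10_of (π : R) (B : Subalgebra R F) (O1 O2 : ValuationSubring F)
    (h : RegInst21.TwoGenAt π B O1 O2) : NodeRegAt10.TwoGenAt π B O1 O2 := by
  intro 𝔪 h𝔪 _ h1 h2
  obtain ⟨hne1, hne2, htwo⟩ := h 𝔪 h𝔪 (RegInst21.onBranch_of_not_offBranch π B O1 𝔪 h1)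
    (RegInst21.onBranch_of_not_offBranch π B O2 𝔪 h2)
  exact ⟨htwo, hne1, hne2⟩

end Generic

variable {n e q M' : ℕ} [NeZero n] [NeZero M'] [NeZero q] {A : ValuationSubring Qbar}
  {K : IntermediateField ℚ Qbar}

/-- **`RegInst21.TwoGenItems` is helper10's `NodeRegAt10.TwoGenItems`.** -/
theorem twoGenItems10_of (h : RegInst21.TwoGenItems n e q M' A K) :
    NodeRegAt10.TwoGenItems n e q M' A K := fun ht hE π hπ =>
  ⟨twoGenAt10_of π _ _ _ (h ht hE π hπ).1, twoGenAt10_of π _ _ _ (h ht hE π hπ).2⟩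

/-- **R3 at `K`** (`NodeRegAt10.NodeRegItems`) from `RegInst21.TwoGenItems`. -/
theorem nodeRegItems_of
    (hD : ∃ (ht : tq (↥K) n e ∈ FK M' K) (hE : FK (M' * q) K ≤ fracField (AK A K)),
      ∀ (π : ↥(AK A K)) (hπ : IsUnif (AK A K) π),
        NodalNumData ↥(AK A K) ↥K ↥(FK (M' * q) K) π (tN q ht) (B0 A q ht) (B1 A q ht)
          (O1 M' q hπ hE) (O2 M' q hπ hE))
    (hS : StrongItems n e q M' A K) (hT : RegInst21.TwoGenItems n e q M' A K) :
    NodeRegAt10.NodeRegItems n e q M' A K :=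
  NodeRegAt10.nodeRegItems_of hD hS (twoGenItems10_of hT)

end Fermat.Agent.ES.P36.RegNode21
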