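/-
Program P (S36), chapter REG, brick R7 (helper26): **the scaled generator is integral** — abstract, generic
in the chart.

`R` a domain in which every nonzero element is `π ^ k * unit`, `F ⊇ R` a field, `t ∈ F`, `B ⊆ F` an
integrally closed subalgebra containing `R[t]` (a chart), `O : ι → ValuationSubring F` vertical valuation rings
containing `B` and `π`-SATURATED for `B` (`MultiCore13.MultiChartModel.sat0 / sat1`).

* `exists_primitive_factor` : a nonzero `p ∈ R[X]` is `C (π ^ k) * p₀` with `p₀` PRIMITIVE (some coefficient of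
  `p₀` is a unit);
* `mem_of_pi_pow_mul_mem` : `π ^ k * c ∈ B`, `c ∈ ⋂ᵢ Oᵢ` ⟹ `c ∈ B` (saturation, `k` times);
* **`exists_primitive_mul_mem`** : for every `y ∈ ⋂ᵢ Oᵢ` algebraic over `R[t]` there is a primitive `p₀ ∈ R[X]` with
  `p₀(t) * y ∈ B`;
* `exists_primitive_mul_mem_chart0 / _chart1` : the same for the two charts of a `MultiChartModel`;
  `isAlgebraic_of_frac` : the supplier of the algebraicity hypothesis from `F = Frac B`, `B` integral over `R[s]`.

USE (R7 at cusp points, `DiscBound5.le_of_norm_derivative_scaled`): `ζ := j(𝐪^{q²})` generates `F″ / α₂ F′` but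
has poles at the cusp points; with `g := p₀(tN) ∈ F′` one has `z := α₂ g * ζ ∈ B″ ⊆ S` and
`V0.valuation g = 1` for the Gauss valuation ring `V0 = O1q` of `F′` (`valuation_aeval_eq_one`: a primitive
polynomial in `t` is a Gauss unit, from "`t` has transcendental residue" in the form `hgauss`).  Nothing else is
needed from `g`: NOT `g ∈ (B1)_{x1}ˣ`, no cusp analysis, no place of characteristic `0`.
-/
import Mathlib
import Fermat.Agent.ES.P36.MultiCore13

set_option autoImplicit false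
set_option linter.unusedSectionVars false

namespace Fermat.Agent.ES.P36.ScaledGen26

open Polynomial Fermat.Agent.ES.P36.MultiCore13

section Primitive

variable {R : Type*} [CommRing R] [IsDomain R] {π : R}

/-- A polynomial with a coefficient `π ^ n * unit` is `C (π ^ k) * p₀` with `p₀` primitive. -/
theorem exists_primitive_factor_aux
    (dvrR : ∀ r : R, r ≠ 0 → ∃ (k : ℕ) (v : Rˣ), r = π ^ k * v) (hπ0 : π ≠ 0) :
    ∀ (n : ℕ) (p : R[X]), (∃ (i : ℕ) (u : Rˣ), p.coeff i = π ^ n * u) →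
      ∃ (k : ℕ) (p₀ : R[X]), p = C (π ^ k) * p₀ ∧ ∃ i, IsUnit (p₀.coeff i) := by
  intro n
  induction n with
  | zero =>
    rintro p ⟨i, u, hu⟩
    exact ⟨0, p, by simp, i, by rw [hu, pow_zero, one_mul]; exact u.isUnit⟩
  | succ n ih =>
    rintro p ⟨i, u, hu⟩
    by_cases hex : ∃ j, IsUnit (p.coeff j)
    · exact ⟨0, p, by simp, hex⟩
    · have hdvd : ∀ j, π ∣ p.coeff j := by
        intro j
        by_cases h0 : p.coeff j = 0
        · rw [h0]; exact dvd_zero π
        · obtain ⟨k, v, hkv⟩ := dvrR _ h0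
          rcases Nat.eq_zero_or_pos k with rfl | hk
          · exact absurd ⟨j, by rw [hkv, pow_zero, one_mul]; exact v.isUnit⟩ hex
          · rw [hkv]
            exact Dvd.dvd.mul_right (dvd_pow_self π hk.ne') _
      obtain ⟨p', hp'⟩ := (Polynomial.C_dvd_iff_dvd_coeff π p).mpr hdvd
      have hc : p'.coeff i = π ^ n * u := by
        have h1 : p.coeff i = π * p'.coeff i := by rw [hp', coeff_C_mul]
        rw [hu, pow_succ] at h1
        have h2 : π * (π ^ n * u) = π * p'.coeff i := by rw [← h1]; ring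
        exact (mul_left_cancel₀ hπ0 h2).symm
      obtain ⟨k, p₀, hk, hprim⟩ := ih p' ⟨i, u, hc⟩
      refine ⟨k + 1, p₀, ?_, hprim⟩
      rw [hp', hk, pow_succ, C_mul]
      ring

/-- **Primitive part**: a nonzero `p ∈ R[X]` is `C (π ^ k) * p₀`, some coefficient of `p₀` a unit. -/
theorem exists_primitive_factor
    (dvrR : ∀ r : R, r ≠ 0 → ∃ (k : ℕ) (v : Rˣ), r = π ^ k * v) (hπ0 : π ≠ 0)
    {p : R[X]} (hp : p ≠ 0) :
    ∃ (k : ℕ) (p₀ : R[X]), p = C (π ^ k) * p₀ ∧ ∃ i, IsUnit (p₀.coeff i) := by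
  obtain ⟨i, hi⟩ : ∃ i, p.coeff i ≠ 0 := by
    by_contra h
    push_neg at h
    exact hp (Polynomial.ext fun i => by rw [h i, coeff_zero])
  obtain ⟨n, u, hu⟩ := dvrR _ hi
  exact exists_primitive_factor_aux dvrR hπ0 n p ⟨i, u, hu⟩

end Primitive

section Sat

variable {R F : Type*} [CommRing R] [Field F] [Algebra R F] {π : R} {ι : Type*}
  {O : ι → ValuationSubring F} {B : Subalgebra R F}

/-- Saturation, `k` times: `π ^ k * c ∈ B`, `c ∈ ⋂ᵢ Oᵢ` ⟹ `c ∈ B`. -/
theorem mem_of_pi_pow_mul_mem (hπO : ∀ i, algebraMap R F π ∈ O i)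
    (sat : ∀ b ∈ B, ∀ c : F, (∀ i, c ∈ O i) → b = algebraMap R F π * c → c ∈ B) :
    ∀ (k : ℕ) (c : F), (∀ i, c ∈ O i) → algebraMap R F π ^ k * c ∈ B → c ∈ B := by
  intro k
  induction k with
  | zero =>
    intro c _ h
    simpa using h
  | succ k ih =>
    intro c hc h
    apply ih c hc
    refine sat _ h _ (fun i => (O i).mul_mem _ _ ((O i).pow_mem (hπO i) k) (hc i)) ?_
    rw [pow_succ]
    ring

end Sat

section Main

variable {R F : Type*} [CommRing R] [IsDomain R] [Field F] [Algebra R F] {π : R} {ι : Type*}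
  {O : ι → ValuationSubring F} {B : Subalgebra R F}

/-- **The scaled element is in the chart.**  `B ⊇ R[s]` integrally closed in `F` and `π`-saturated in `⋂ᵢ Oᵢ`;
`y ∈ ⋂ᵢ Oᵢ` algebraic over `R[s]`: there is a PRIMITIVE `p₀ ∈ R[X]` with `p₀(s) * y ∈ B`. -/
theorem exists_primitive_mul_mem
    (dvrR : ∀ r : R, r ≠ 0 → ∃ (k : ℕ) (v : Rˣ), r = π ^ k * v) (hπ0 : π ≠ 0)
    (s : F) (hsB : s ∈ B) (intcl : ∀ x : F, IsIntegral B x → x ∈ B)
    (leO : ∀ i, ∀ x ∈ B, x ∈ O i)
    (sat : ∀ b ∈ B, ∀ c : F, (∀ i, c ∈ O i) → b = algebraMap R F π * c → c ∈ B)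
    (y : F) (hy : ∀ i, y ∈ O i) (halg : IsAlgebraic (Algebra.adjoin R {s}) y) :
    ∃ p₀ : R[X], (∃ i, IsUnit (p₀.coeff i)) ∧ aeval s p₀ * y ∈ B := by
  have hle : Algebra.adjoin R {s} ≤ B := Algebra.adjoin_le (by simpa using hsB)
  obtain ⟨b, hb0, hbint⟩ := halg.exists_integral_multiple
  -- `b • y` is integral over `B`, hence in `B`
  have hby : (b : F) * y ∈ B := by
    apply intcl
    have h1 : IsIntegral (Algebra.adjoin R {s}) ((b : F) * y) := by
      have : b • y = (b : F) * y := by rw [Algebra.smul_def]; rfl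
      rwa [this] at hbint
    obtain ⟨P, hP, hPy⟩ := h1
    refine ⟨P.map (Subalgebra.inclusion hle).toRingHom, hP.map _, ?_⟩
    rw [eval₂_map]
    exact hPy
  -- `b = p(s)`
  obtain ⟨p, hp⟩ : ∃ p : R[X], aeval s p = (b : F) := by
    have hall : ∀ x ∈ Algebra.adjoin R {s}, ∃ p : R[X], aeval s p = x := by
      intro x hx
      rw [Algebra.adjoin_singleton_eq_range_aeval] at hx
      exact hx
    exact hall _ b.2
  have hp0 : p ≠ 0 := by
    rintro rfl
    apply hb0
    apply Subtype.ext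
    rw [← hp]
    simp
  obtain ⟨k, p₀, hk, hprim⟩ := exists_primitive_factor dvrR hπ0 hp0
  refine ⟨p₀, hprim, ?_⟩
  have hπO : ∀ i, algebraMap R F π ∈ O i := fun i => leO i _ (B.algebraMap_mem π)
  have hp₀B : aeval s p₀ ∈ B := by
    apply hle
    rw [Algebra.adjoin_singleton_eq_range_aeval]
    exact ⟨p₀, rfl⟩
  refine mem_of_pi_pow_mul_mem hπO sat k _
    (fun i => (O i).mul_mem _ _ (leO i _ hp₀B) (hy i)) ?_
  have : algebraMap R F π ^ k * (aeval s p₀ * y) = (b : F) * y := by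
    rw [← hp, hk, map_mul, aeval_C, map_pow]
    ring
  rw [this]
  exact hby

/-- Every element of `F = Frac B` is algebraic over `R[s]` when `B` is integral over `R[s]`
(supplier of `halg`; `frac` = `ChartGeneric22.exists_chart_fraction`, `int` = `MultiChartModel.int0/int1`). -/
theorem isAlgebraic_of_frac (s : F) (int : ∀ x ∈ B, IsIntegral (Algebra.adjoin R {s}) x)
    (frac : ∀ x : F, ∃ a ∈ B, ∃ b ∈ B, b ≠ 0 ∧ x * b = a) (y : F) :
    IsAlgebraic (Algebra.adjoin R {s}) y := by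
  obtain ⟨a, ha, b, hb, hb0, hab⟩ := frac y
  have hy : y = a * b⁻¹ := by rw [← hab, mul_assoc, mul_inv_cancel₀ hb0, mul_one]
  rw [hy]
  exact ((int a ha).isAlgebraic).mul ((int b hb).isAlgebraic).inv

variable {t : F} {B0 B1 : Subalgebra R F}

/-- chart `0` of a `MultiChartModel`. -/
theorem exists_primitive_mul_mem_chart0 (h : MultiChartModel R F π t B0 B1 O)
    (dvrR : ∀ r : R, r ≠ 0 → ∃ (k : ℕ) (v : Rˣ), r = π ^ k * v)
    (y : F) (hy : ∀ i, y ∈ O i) (halg : IsAlgebraic (Algebra.adjoin R {t}) y) :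
    ∃ p₀ : R[X], (∃ i, IsUnit (p₀.coeff i)) ∧ aeval t p₀ * y ∈ B0 :=
  exists_primitive_mul_mem dvrR (fun h0 => h.pi_ne (by rw [h0, map_zero])) t h.t_mem h.intcl0
    h.le_O_0 h.sat0 y hy halg

/-- chart `1` of a `MultiChartModel`. -/
theorem exists_primitive_mul_mem_chart1 (h : MultiChartModel R F π t B0 B1 O)
    (dvrR : ∀ r : R, r ≠ 0 → ∃ (k : ℕ) (v : Rˣ), r = π ^ k * v)
    (y : F) (hy : ∀ i, y ∈ O i) (halg : IsAlgebraic (Algebra.adjoin R {t⁻¹}) y) :
    ∃ p₁ : R[X], (∃ i, IsUnit (p₁.coeff i)) ∧ aeval t⁻¹ p₁ * y ∈ B1 :=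
  exists_primitive_mul_mem dvrR (fun h0 => h.pi_ne (by rw [h0, map_zero])) t⁻¹ h.tinv_mem h.intcl1
    h.le_O_1 h.sat1 y hy halg

end Main

section Gauss

variable {R F : Type*} [CommRing R] [Field F] [Algebra R F] {π : R}

/-- **A primitive polynomial in `s` is a Gauss unit**: `V0 ⊇ R[s]` a valuation ring of `F` with the Gauss
property `p(s) ∈ 𝔪_{V0} → π ∣ all coefficients of p` (the residue of `s` is transcendental over `R / π`), `π` a
non-unit of `R`: `V0.valuation (p₀(s)) = 1` for primitive `p₀`. -/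
theorem valuation_aeval_eq_one (V0 : ValuationSubring F) (s : F) (hs : s ∈ V0)
    (hR : ∀ r : R, algebraMap R F r ∈ V0) (hπ : ¬ IsUnit π)
    (hgauss : ∀ p : R[X], V0.valuation (aeval s p) < 1 → ∀ i, π ∣ p.coeff i)
    (p₀ : R[X]) (hprim : ∃ i, IsUnit (p₀.coeff i)) : V0.valuation (aeval s p₀) = 1 := by
  have hmem : aeval s p₀ ∈ V0 := by
    rw [aeval_def, eval₂_eq_sum_range]
    refine V0.toSubring.sum_mem fun i _ => ?_
    exact V0.mul_mem _ _ (hR _) (V0.pow_mem hs i)
  have hle : V0.valuation (aeval s p₀) ≤ 1 := (V0.valuation_le_one_iff _).mpr hmem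
  rcases lt_or_eq_of_le hle with hlt | heq
  · exfalso
    obtain ⟨i, hi⟩ := hprim
    exact hπ (isUnit_of_dvd_unit (hgauss p₀ hlt i) hi)
  · exact heq

end Gauss

end Fermat.Agent.ES.P36.ScaledGen26
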