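/-
Program P (S36), chapter REG, brick R7 chart facts (helper20), ABSTRACT layer: **the semi-local twin of
`RegAbs21.regData`** — "RegInst one level up".

`B0 ⊆ B1` integrally closed noetherian domains, `B1` finite over `B0` (at the model: `B0` the level-`M′q`
chart, `B1` the level-`M′q²` chart through `α₂`), `x0` a prime of `B0` (a one-branch closed point of the
level-`M′q` chart), `R0 := RP x0 = (B0)_{x0}`, `S := SP B1 x0 = (B0 ∖ x0)⁻¹ B1` (`LocalFree26`).
Differences with `RegAbs21`: `S` is only SEMI-local (two points over `x0`), and `π` is a prime element of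
`R0` only (not of `B0`: the special fibre of `B0` has two components).

* `prime_pi_of_local_principal`, `not_pi_dvd_T_of_local` : `π` is prime in `R0` and `π ∤ T` from a
  vertical prime `𝔭 ⊆ x0` of `B0` which is `π`-principal locally at `x0`, `𝔭 ≠ x0`;
* `regDataSemi` : **the hypotheses `(π T h𝔪 hπ hT b a u hu hdisc)` of
  `DiscLift5.exists_local_span_pair`** for `(R0, S)`: `𝔪_{R0} = (π, T)`, `S` free and finite over `R0`,
  `discr = π ^ a * unit` for every basis;
* `finrank_eq` : the rank of `S` over `R0` is `[Frac B1 : Frac B0]`;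
* `algebraRPF`, `isScalarTower_RPF`, `isFractionRing_RPF`, `algebraRPF'`, towers : the instance bundle
  `R0 → F0 → F`, `R0 → S → F` (`F0 = Frac B0`, `F = Frac B1`);
* `exp_le_of_norm_derivative`, `exp_le_of_norm_derivative_scaled` : the exponent bound `a ≤ m` from
  `DiscBound5` at ONE primitive element `z ∈ B1` (resp. scaled generator), all instances internal.
-/
import Mathlib
import Fermat.Agent.RED.PUR.LocalFree26
import Fermat.Agent.RED.PUR.PurityMain26
import Fermat.Agent.ES.P36.RegLocal3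

set_option autoImplicit false
set_option linter.style.haveILetI false
set_option linter.unusedSectionVars false

namespace Fermat.Agent.ES.P36.RegSemi20

open IsLocalRing Module Fermat.Agent.RED.PUR.LocalFree26 Fermat.Agent.RED.PUR.PurityMain26

/-! ### Local primality of `π` -/

section Prime

variable {B0 : Type*} [CommRing B0] [IsDomain B0] (x0 : Ideal B0) [x0.IsPrime]

/-- the extension of a prime `𝔭 ⊆ x0` to `R0 = (B0)_{x0}` is `(π)` when `𝔭` is `π`-principal locally
at `x0`. -/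
theorem map_eq_span_of_local_principal (𝔭 : Ideal B0) (π : B0) (hπ𝔭 : π ∈ 𝔭)
    (hloc : ∀ b ∈ 𝔭, ∃ d, d ∉ x0 ∧ π ∣ d * b) :
    𝔭.map (algebraMap B0 (RP x0)) = Ideal.span {algebraMap B0 (RP x0) π} := by
  apply le_antisymm
  · rw [Ideal.map_le_iff_le_comap]
    intro b hb
    obtain ⟨d, hd, c, hc⟩ := hloc b hb
    rw [Ideal.mem_comap, Ideal.mem_span_singleton]
    have hu : IsUnit (algebraMap B0 (RP x0) d) :=
      IsLocalization.map_units (RP x0) (⟨d, hd⟩ : x0.primeCompl)
    have h1 : algebraMap B0 (RP x0) d * algebraMap B0 (RP x0) b =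
        algebraMap B0 (RP x0) π * algebraMap B0 (RP x0) c := by
      rw [← map_mul, hc, map_mul]
    obtain ⟨v, hv⟩ := hu
    refine ⟨↑v⁻¹ * algebraMap B0 (RP x0) c, ?_⟩
    have h2 : algebraMap B0 (RP x0) b = ↑v⁻¹ * (algebraMap B0 (RP x0) d * algebraMap B0 (RP x0) b) := by
      rw [← hv, ← mul_assoc, Units.inv_mul, one_mul]
    rw [h2, h1]; ring
  · rw [Ideal.span_le, Set.singleton_subset_iff]
    exact Ideal.mem_map_of_mem _ hπ𝔭

/-- **`π` is a prime element of `R0`** when the vertical prime `𝔭 ∋ π`, `𝔭 ⊆ x0`, is `π`-principal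
locally at `x0`. -/
theorem prime_pi_of_local_principal (𝔭 : Ideal B0) [h𝔭 : 𝔭.IsPrime] (h𝔭x : 𝔭 ≤ x0) (π : B0)
    (hπ0 : π ≠ 0) (hπ𝔭 : π ∈ 𝔭) (hloc : ∀ b ∈ 𝔭, ∃ d, d ∉ x0 ∧ π ∣ d * b) :
    Prime (algebraMap B0 (RP x0) π) := by
  have hdisj : Disjoint (x0.primeCompl : Set B0) (𝔭 : Set B0) := by
    rw [Set.disjoint_left]
    intro a ha ha'
    exact ha (h𝔭x ha')
  have hprime := IsLocalization.isPrime_of_isPrime_disjoint x0.primeCompl (RP x0) 𝔭 h𝔭 hdisj
  rw [map_eq_span_of_local_principal x0 𝔭 π hπ𝔭 hloc] at hprime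
  exact (Ideal.span_singleton_prime (pi_ne_zero x0 π hπ0)).mp hprime

/-- **`π ∤ T` in `R0`** when `𝔪_{R0} = (π, T)` and `x0 ≠ 𝔭`. -/
theorem not_pi_dvd_T_of_local (𝔭 : Ideal B0) [h𝔭 : 𝔭.IsPrime] (h𝔭x : 𝔭 ≤ x0) (π T : B0)
    (hπ𝔭 : π ∈ 𝔭) (hloc : ∀ b ∈ 𝔭, ∃ d, d ∉ x0 ∧ π ∣ d * b)
    (hmax : maximalIdeal (RP x0) = Ideal.span {algebraMap B0 (RP x0) π, algebraMap B0 (RP x0) T})
    (hne : ∃ y ∈ x0, y ∉ 𝔭) :
    ¬ algebraMap B0 (RP x0) π ∣ algebraMap B0 (RP x0) T := by
  intro hdvd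
  obtain ⟨y, hy, hy𝔭⟩ := hne
  have hmax' : maximalIdeal (RP x0) = Ideal.span {algebraMap B0 (RP x0) π} := by
    rw [hmax]
    apply le_antisymm
    · rw [Ideal.span_le]
      rintro w (rfl | rfl)
      · exact Ideal.mem_span_singleton_self _
      · exact Ideal.mem_span_singleton.mpr hdvd
    · exact Ideal.span_mono (by simp)
  have hym : algebraMap B0 (RP x0) y ∈ maximalIdeal (RP x0) := by
    rw [← Localization.AtPrime.map_eq_maximalIdeal]
    exact Ideal.mem_map_of_mem _ hy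
  rw [hmax', ← map_eq_span_of_local_principal x0 𝔭 π hπ𝔭 hloc] at hym
  have hdisj : Disjoint (x0.primeCompl : Set B0) (𝔭 : Set B0) := by
    rw [Set.disjoint_left]
    intro a ha ha'
    exact ha (h𝔭x ha')
  have hcomap := IsLocalization.under_map_of_isPrime_disjoint x0.primeCompl (RP x0) h𝔭 hdisj
  apply hy𝔭
  rw [← hcomap, Ideal.under_def, Ideal.mem_comap]
  exact hym

end Prime

/-! ### The semi-local regularity data -/

section Main

variable {B0 B1 : Type*} [CommRing B0] [IsDomain B0] [IsNoetherianRing B0] [IsIntegrallyClosed B0]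
  [CommRing B1] [IsDomain B1] [IsIntegrallyClosed B1] [Algebra B0 B1] [Module.Finite B0 B1]
  [FaithfulSMul B0 B1] (F : Type*) [Field F] [Algebra B1 F] [IsFractionRing B1 F]
  (x0 : Ideal B0) [x0.IsPrime]

/-- the chart form of `hUNR` gives the `(R0, S)` form (no primality of `π` in `B0` involved). -/
theorem hUNR_of_chart_semi (π : B0)
    (hUNR : ∀ O : ValuationSubring F, (∀ s : B1, algebraMap B1 F s ∈ O) →
      (∀ d : B0, d ∉ x0 → (algebraMap B1 F (algebraMap B0 B1 d))⁻¹ ∈ O) →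
      IsDiscreteValuationRing O →
      (algebraMap B1 F (algebraMap B0 B1 π))⁻¹ ∈ O →
      ∃ g : B0, (algebraMap B1 F (algebraMap B0 B1 g))⁻¹ ∉ O ∧
        ∀ y ∈ O, y⁻¹ ∉ O → y / algebraMap B1 F (algebraMap B0 B1 g) ∈ O) :
    letI := algebraSPF B1 x0 F
    ∀ O : ValuationSubring F, (∀ s : SP B1 x0, algebraMap (SP B1 x0) F s ∈ O) →
      IsDiscreteValuationRing O →
      (algebraMap (SP B1 x0) F
        (algebraMap (RP x0) (SP B1 x0) (algebraMap B0 (RP x0) π)))⁻¹ ∈ O →
      ∃ g0 : RP x0, (algebraMap (SP B1 x0) F (algebraMap (RP x0) (SP B1 x0) g0))⁻¹ ∉ O ∧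
        ∀ y ∈ O, y⁻¹ ∉ O →
          y / algebraMap (SP B1 x0) F (algebraMap (RP x0) (SP B1 x0) g0) ∈ O := by
  letI := algebraSPF B1 x0 F
  haveI := isScalarTower_SPF B1 x0 F
  have hcomm0 : ∀ r : B0, algebraMap (RP x0) (SP B1 x0) (algebraMap B0 (RP x0) r) =
      algebraMap B1 (SP B1 x0) (algebraMap B0 B1 r) := by
    intro r
    rw [← IsScalarTower.algebraMap_apply B0 (RP x0) (SP B1 x0),
      ← IsScalarTower.algebraMap_apply B0 B1 (SP B1 x0)]
  have hcomm : ∀ r : B0, algebraMap (SP B1 x0) F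
      (algebraMap (RP x0) (SP B1 x0) (algebraMap B0 (RP x0) r)) =
        algebraMap B1 F (algebraMap B0 B1 r) := by
    intro r
    rw [hcomm0, ← IsScalarTower.algebraMap_apply]
  intro O hS hdvr hπ
  have hB1 : ∀ s : B1, algebraMap B1 F s ∈ O := fun s => by
    rw [IsScalarTower.algebraMap_apply B1 (SP B1 x0) F]
    exact hS _
  have hd : ∀ d : B0, d ∉ x0 → (algebraMap B1 F (algebraMap B0 B1 d))⁻¹ ∈ O := by
    intro d hd
    have hmem : algebraMap B0 B1 d ∈ Algebra.algebraMapSubmonoid B1 x0.primeCompl :=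
      ⟨d, hd, rfl⟩
    obtain ⟨u, hu⟩ := IsLocalization.map_units (SP B1 x0)
      (⟨algebraMap B0 B1 d, hmem⟩ : Algebra.algebraMapSubmonoid B1 x0.primeCompl)
    have h1 : algebraMap (SP B1 x0) F (↑u⁻¹ : SP B1 x0) =
        (algebraMap B1 F (algebraMap B0 B1 d))⁻¹ := by
      have h2 : algebraMap (SP B1 x0) F (↑u⁻¹ : SP B1 x0) *
          algebraMap B1 F (algebraMap B0 B1 d) = 1 := by
        rw [IsScalarTower.algebraMap_apply B1 (SP B1 x0) F]
        have : algebraMap B1 (SP B1 x0) (algebraMap B0 B1 d) = (u : SP B1 x0) := hu.symm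
        rw [this, ← map_mul, Units.inv_mul, map_one]
      exact eq_inv_of_mul_eq_one_left h2
    rw [← h1]
    exact hS _
  obtain ⟨g, hg1, hg2⟩ := hUNR O hB1 hd hdvr (by rw [← hcomm]; exact hπ)
  refine ⟨algebraMap B0 (RP x0) g, ?_, ?_⟩
  · rw [hcomm]; exact hg1
  · intro y hy hy'
    rw [hcomm]
    exact hg2 y hy hy'

/-- **R7 chart facts, abstract form: the hypotheses `(π T h𝔪 hπ hT b a u hu hdisc)` of
`DiscLift5.exists_local_span_pair` for `(R0, S) = (RP x0, SP B1 x0)`**, `S` semi-local. -/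
theorem regDataSemi (π T : B0) (hπx : π ∈ x0) (hTx : T ∈ x0)
    (hsm : ∀ y ∈ x0, ∃ d, d ∉ x0 ∧ d * y ∈ Ideal.span {π, T})
    (hπloc : Prime (algebraMap B0 (RP x0) π))
    (hTloc : ¬ algebraMap B0 (RP x0) π ∣ algebraMap B0 (RP x0) T)
    (hchar : ∀ n : ℕ, n ≠ 0 → ∃ k : ℕ, (n : B0) ∣ π ^ k)
    (hUNR : ∀ O : ValuationSubring F, (∀ s : B1, algebraMap B1 F s ∈ O) →
      (∀ d : B0, d ∉ x0 → (algebraMap B1 F (algebraMap B0 B1 d))⁻¹ ∈ O) →
      IsDiscreteValuationRing O →
      (algebraMap B1 F (algebraMap B0 B1 π))⁻¹ ∈ O →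
      ∃ g : B0, (algebraMap B1 F (algebraMap B0 B1 g))⁻¹ ∉ O ∧
        ∀ y ∈ O, y⁻¹ ∉ O → y / algebraMap B1 F (algebraMap B0 B1 g) ∈ O) :
    maximalIdeal (RP x0) =
        Ideal.span {algebraMap B0 (RP x0) π, algebraMap B0 (RP x0) T} ∧
      Module.Free (RP x0) (SP B1 x0) ∧ Module.Finite (RP x0) (SP B1 x0) ∧
      ∀ (n : ℕ) (b : Basis (Fin n) (RP x0) (SP B1 x0)),
        ∃ (a : ℕ) (u : RP x0), IsUnit u ∧
          Algebra.discr (RP x0) b = algebraMap B0 (RP x0) π ^ a * u := by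
  classical
  have hmax : maximalIdeal (RP x0) =
      Ideal.span {algebraMap B0 (RP x0) π, algebraMap B0 (RP x0) T} :=
    RegLocal3.maximalIdeal_atPrime_eq_span_pair x0 π T hπx hTx hsm
  haveI : IsNoetherianRing (RP x0) :=
    IsLocalization.isNoetherianRing x0.primeCompl (RP x0) inferInstance
  haveI hpid : IsPrincipalIdealRing (RP x0 ⧸ Ideal.span {algebraMap B0 (RP x0) π}) :=
    RegLocal3.isPrincipalIdealRing_quotient_of_span_pair _ _ hπloc hmax
  haveI hdomS : IsDomain (SP B1 x0) :=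
    IsLocalization.isDomain_of_le_nonZeroDivisors (SP B1 x0)
      (algebraMapSubmonoid_le_nonZeroDivisors B1 x0)
  haveI hfinS : Module.Finite (RP x0) (SP B1 x0) := inferInstance
  have hπm : algebraMap B0 (RP x0) π ∈ maximalIdeal (RP x0) := pi_mem_maximalIdeal x0 π hπx
  have hfree : Module.Free (RP x0) (SP B1 x0) :=
    RegLocal3.free_local (algebraMap B0 (RP x0) π) hπloc hπm
  refine ⟨hmax, hfree, hfinS, fun n b => ?_⟩
  letI := algebraSPF B1 x0 F
  haveI := isFractionRing_SPF B1 x0 F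
  have hchar' : ∀ n : ℕ, n ≠ 0 → ∃ k : ℕ, (n : RP x0) ∣ algebraMap B0 (RP x0) π ^ k := by
    intro n hn
    obtain ⟨k, hk⟩ := hchar n hn
    refine ⟨k, ?_⟩
    have := map_dvd (algebraMap B0 (RP x0)) hk
    rwa [map_natCast, map_pow] at this
  have hTu : ¬ IsUnit (algebraMap B0 (RP x0) T) := by
    have : algebraMap B0 (RP x0) T ∈ maximalIdeal (RP x0) := by
      rw [hmax]; exact Ideal.subset_span (by simp)
    exact (mem_maximalIdeal _).mp this
  exact (RegLocal3.discr_eq_pi_pow_mul_unit F (algebraMap B0 (RP x0) π) hπloc hchar'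
    (hUNR_of_chart_semi F x0 π hUNR) (algebraMap B0 (RP x0) T) hTu hTloc b).2

end Main

/-! ### The instance bundle `R0 → F0 → F`, `R0 → S → F` -/

section Tower

variable {B0 : Type*} [CommRing B0] [IsDomain B0] (x0 : Ideal B0) [x0.IsPrime]
  (F0 : Type*) [Field F0] [Algebra B0 F0] [IsFractionRing B0 F0]

theorem isUnit_algebraMap_base (m : x0.primeCompl) : IsUnit (algebraMap B0 F0 (m : B0)) := by
  refine IsUnit.mk0 _ fun e => m.2 ?_
  have : (m : B0) = 0 := (IsFractionRing.injective B0 F0) (by rw [e, map_zero])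
  rw [this]; exact x0.zero_mem

/-- The `R0`-algebra structure on the fraction field `F0` of `B0`. -/
@[reducible] noncomputable def algebraRPF : Algebra (RP x0) F0 :=
  (IsLocalization.lift (M := x0.primeCompl) (g := algebraMap B0 F0)
    (isUnit_algebraMap_base x0 F0)).toAlgebra

theorem isScalarTower_RPF :
    letI := algebraRPF x0 F0
    IsScalarTower B0 (RP x0) F0 := by
  letI := algebraRPF x0 F0
  refine IsScalarTower.of_algebraMap_eq fun b => ?_
  change _ = (IsLocalization.lift (M := x0.primeCompl) (g := algebraMap B0 F0)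
    (isUnit_algebraMap_base x0 F0)) (algebraMap B0 (RP x0) b)
  rw [IsLocalization.lift_eq]

theorem isFractionRing_RPF :
    letI := algebraRPF x0 F0
    IsFractionRing (RP x0) F0 := by
  letI := algebraRPF x0 F0
  haveI := isScalarTower_RPF x0 F0
  exact IsFractionRing.isFractionRing_of_isDomain_of_isLocalization x0.primeCompl (RP x0) F0

/-- `R0 ⊆ V0` for a valuation ring `V0 ⊇ B0` of `F0` in which `B0 ∖ x0` is invertible. -/
theorem algebraMap_RP_mem (V0 : ValuationSubring F0) (hV0B : ∀ r : B0, algebraMap B0 F0 r ∈ V0)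
    (hV0d : ∀ d : B0, d ∉ x0 → (algebraMap B0 F0 d)⁻¹ ∈ V0) :
    letI := algebraRPF x0 F0
    ∀ r : RP x0, algebraMap (RP x0) F0 r ∈ V0 := by
  letI := algebraRPF x0 F0
  haveI := isScalarTower_RPF x0 F0
  intro r
  obtain ⟨a, m, rfl⟩ := IsLocalization.exists_mk'_eq x0.primeCompl r
  have h1 : algebraMap (RP x0) F0 (IsLocalization.mk' (RP x0) a m) *
      algebraMap B0 F0 (m : B0) = algebraMap B0 F0 a := by
    rw [IsScalarTower.algebraMap_apply B0 (RP x0) F0, IsScalarTower.algebraMap_apply B0 (RP x0) F0,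
      ← map_mul, IsLocalization.mk'_spec]
  have hm0 : algebraMap B0 F0 (m : B0) ≠ 0 := (isUnit_algebraMap_base x0 F0 m).ne_zero
  have h2 : algebraMap (RP x0) F0 (IsLocalization.mk' (RP x0) a m) =
      algebraMap B0 F0 a * (algebraMap B0 F0 (m : B0))⁻¹ := by
    rw [← h1, mul_assoc, mul_inv_cancel₀ hm0, mul_one]
  rw [h2]
  exact V0.mul_mem _ _ (hV0B a) (hV0d _ m.2)

variable {B1 : Type*} [CommRing B1] [IsDomain B1] [Algebra B0 B1] [FaithfulSMul B0 B1]
  (F : Type*) [Field F] [Algebra B1 F] [IsFractionRing B1 F]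
  [Algebra F0 F] [Algebra B0 F] [IsScalarTower B0 F0 F] [IsScalarTower B0 B1 F]

/-- The `R0`-algebra structure on `F = Frac B1`, through `F0`. -/
@[reducible] noncomputable def algebraRPF' : Algebra (RP x0) F :=
  letI := algebraRPF x0 F0
  ((algebraMap F0 F).comp (algebraMap (RP x0) F0)).toAlgebra

theorem isScalarTower_RPF' :
    letI := algebraRPF x0 F0
    letI := algebraRPF' x0 F0 F
    IsScalarTower (RP x0) F0 F := by
  letI := algebraRPF x0 F0
  letI := algebraRPF' x0 F0 F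
  exact IsScalarTower.of_algebraMap_eq fun _ => rfl

theorem isScalarTower_RP_SP :
    letI := algebraRPF x0 F0
    letI := algebraRPF' x0 F0 F
    letI := algebraSPF B1 x0 F
    IsScalarTower (RP x0) (SP B1 x0) F := by
  letI := algebraRPF x0 F0
  letI := algebraRPF' x0 F0 F
  letI := algebraSPF B1 x0 F
  haveI := isScalarTower_RPF x0 F0
  haveI := isScalarTower_SPF B1 x0 F
  refine IsScalarTower.of_algebraMap_eq' ?_
  refine IsLocalization.ringHom_ext x0.primeCompl ?_
  ext b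
  simp only [RingHom.comp_apply]
  have h1 : algebraMap (RP x0) F (algebraMap B0 (RP x0) b) = algebraMap B0 F b := by
    change algebraMap F0 F (algebraMap (RP x0) F0 (algebraMap B0 (RP x0) b)) = _
    rw [← IsScalarTower.algebraMap_apply B0 (RP x0) F0, ← IsScalarTower.algebraMap_apply B0 F0 F]
  have h2 : algebraMap (SP B1 x0) F (algebraMap (RP x0) (SP B1 x0) (algebraMap B0 (RP x0) b)) =
      algebraMap B0 F b := by
    rw [← IsScalarTower.algebraMap_apply B0 (RP x0) (SP B1 x0),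
      IsScalarTower.algebraMap_apply B0 B1 (SP B1 x0), ← IsScalarTower.algebraMap_apply B1 (SP B1 x0) F,
      ← IsScalarTower.algebraMap_apply B0 B1 F]
  rw [h1, h2]

end Tower

/-! ### The rank -/

section Rank

variable {B0 B1 : Type*} [CommRing B0] [IsDomain B0] [IsNoetherianRing B0] [IsIntegrallyClosed B0]
  [CommRing B1] [IsDomain B1] [IsIntegrallyClosed B1] [Algebra B0 B1] [Module.Finite B0 B1]
  [FaithfulSMul B0 B1] (x0 : Ideal B0) [x0.IsPrime]
  (F0 F : Type*) [Field F0] [Algebra B0 F0] [IsFractionRing B0 F0]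
  [Field F] [Algebra B1 F] [IsFractionRing B1 F]
  [Algebra F0 F] [Algebra B0 F] [IsScalarTower B0 F0 F] [IsScalarTower B0 B1 F]

/-- **the rank of `S` over `R0` is `[F : F0]`.** -/
theorem finrank_eq [Module.Free (RP x0) (SP B1 x0)] :
    Module.finrank (RP x0) (SP B1 x0) = Module.finrank F0 F := by
  letI := algebraRPF x0 F0
  letI := algebraRPF' x0 F0 F
  letI := algebraSPF B1 x0 F
  haveI := isFractionRing_RPF x0 F0
  haveI := isFractionRing_SPF B1 x0 F
  haveI := isScalarTower_RPF' x0 F0 F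
  haveI := isScalarTower_RP_SP x0 F0 F (B1 := B1)
  haveI : IsNoetherianRing (RP x0) :=
    IsLocalization.isNoetherianRing x0.primeCompl (RP x0) inferInstance
  haveI : IsDomain (SP B1 x0) :=
    IsLocalization.isDomain_of_le_nonZeroDivisors (SP B1 x0)
      (algebraMapSubmonoid_le_nonZeroDivisors B1 x0)
  exact RegLocal3.finrank_eq_finrank_fraction F0 F

end Rank

end Fermat.Agent.ES.P36.RegSemi20
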