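/-
Program P (S36), chapter REG, brick R7 chart facts (helper20), part 2: **the exponent bound of
`DiscBound5` at `(R0, S) = (RP x0, SP B1 x0)`, all localisation instances internal.**

`B0 ⊆ B1` domains (charts), `x0` a prime of `B0`, `F0 = Frac B0`, `F = Frac B1` finite separable over
`F0`, `V0 ⊇ B0` a valuation ring of `F0` in which `B0 ∖ x0` is invertible and `v(π) < 1`.  For a
primitive element `z ∈ B1` (resp. a generator `ζ ∈ F` which becomes integral after scaling by a
`V0`-unit `g ∈ F0`): if `v(π)^m ≤ v(N_{F/F0} G'(z))`, then every decomposition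
`discr (RP x0) b = π ^ a * unit` has `a ≤ m`.

* `exp_le_of_norm_derivative`, `exp_le_of_norm_derivative_scaled`.
-/
import Mathlib
import Fermat.Agent.ES.P36.RegSemi20
import Fermat.Agent.ES.P36.DiscBound5

set_option autoImplicit false
set_option linter.style.haveILetI false
set_option linter.unusedSectionVars false

namespace Fermat.Agent.ES.P36.RegSemiExp20

open IsLocalRing Module Polynomial Fermat.Agent.RED.PUR.LocalFree26
  Fermat.Agent.RED.PUR.PurityMain26 Fermat.Agent.ES.P36.RegSemi20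

variable {B0 B1 : Type*} [CommRing B0] [IsDomain B0] [CommRing B1] [IsDomain B1] [Algebra B0 B1]
  [FaithfulSMul B0 B1] (x0 : Ideal B0) [x0.IsPrime]
  (F0 F : Type*) [Field F0] [Algebra B0 F0] [IsFractionRing B0 F0]
  [Field F] [Algebra B1 F] [IsFractionRing B1 F]
  [Algebra F0 F] [Algebra B0 F] [IsScalarTower B0 F0 F] [IsScalarTower B0 B1 F]

/-- **the exponent bound at a primitive element `z ∈ B1`.** -/
theorem exp_le_of_norm_derivative [FiniteDimensional F0 F] [Algebra.IsSeparable F0 F]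
    (V0 : ValuationSubring F0) (hV0B : ∀ r : B0, algebraMap B0 F0 r ∈ V0)
    (hV0d : ∀ d : B0, d ∉ x0 → (algebraMap B0 F0 d)⁻¹ ∈ V0)
    (π : B0) (hπ0 : π ≠ 0) (hπ1 : V0.valuation (algebraMap B0 F0 π) < 1)
    (z : B1) (hprim : (minpoly F0 (algebraMap B1 F z)).natDegree = finrank F0 F) (m : ℕ)
    (hN : V0.valuation (algebraMap B0 F0 π) ^ m ≤
      V0.valuation (Algebra.norm F0 (aeval (algebraMap B1 F z)
        (derivative (minpoly F0 (algebraMap B1 F z))))))
    {ι : Type*} [Fintype ι] [DecidableEq ι] (b : Basis ι (RP x0) (SP B1 x0)) (a : ℕ) (u : RP x0)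
    (hu : IsUnit u) (hdisc : Algebra.discr (RP x0) b = algebraMap B0 (RP x0) π ^ a * u) :
    a ≤ m := by
  letI := algebraRPF x0 F0
  letI := algebraRPF' x0 F0 F
  letI := algebraSPF B1 x0 F
  haveI := isScalarTower_RPF x0 F0
  haveI := isFractionRing_RPF x0 F0
  haveI := isScalarTower_SPF B1 x0 F
  haveI := isFractionRing_SPF B1 x0 F
  haveI := isScalarTower_RPF' x0 F0 F
  haveI := isScalarTower_RP_SP x0 F0 F (B1 := B1)
  haveI : IsDomain (SP B1 x0) :=
    IsLocalization.isDomain_of_le_nonZeroDivisors (SP B1 x0)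
      (algebraMapSubmonoid_le_nonZeroDivisors B1 x0)
  have hπF : algebraMap (RP x0) F0 (algebraMap B0 (RP x0) π) = algebraMap B0 F0 π := by
    rw [← IsScalarTower.algebraMap_apply B0 (RP x0) F0]
  have hzF : algebraMap (SP B1 x0) F (algebraMap B1 (SP B1 x0) z) = algebraMap B1 F z := by
    rw [← IsScalarTower.algebraMap_apply B1 (SP B1 x0) F]
  refine DiscBound5.le_of_norm_derivative F0 F b V0 (algebraMap_RP_mem x0 F0 V0 hV0B hV0d)
    (algebraMap B0 (RP x0) π) u a hu hdisc (pi_ne_zero x0 π hπ0) (by rw [hπF]; exact hπ1)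
    (algebraMap B1 (SP B1 x0) z) (by rw [hzF]; exact hprim) m ?_
  rw [hπF, hzF]
  exact hN

/-- **the exponent bound at a scaled generator** (`ζ ∈ F` primitive, `g ∈ F0` a `V0`-unit with
`g ζ = z ∈ B1`; cusp points). -/
theorem exp_le_of_norm_derivative_scaled [FiniteDimensional F0 F] [Algebra.IsSeparable F0 F]
    (V0 : ValuationSubring F0) (hV0B : ∀ r : B0, algebraMap B0 F0 r ∈ V0)
    (hV0d : ∀ d : B0, d ∉ x0 → (algebraMap B0 F0 d)⁻¹ ∈ V0)
    (π : B0) (hπ0 : π ≠ 0) (hπ1 : V0.valuation (algebraMap B0 F0 π) < 1)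
    (ζ : F) (hprim : (minpoly F0 ζ).natDegree = finrank F0 F)
    (g : F0) (hg : V0.valuation g = 1) (z : B1) (hz : algebraMap B1 F z = algebraMap F0 F g * ζ)
    (m : ℕ)
    (hN : V0.valuation (algebraMap B0 F0 π) ^ m ≤
      V0.valuation (Algebra.norm F0 (aeval ζ (derivative (minpoly F0 ζ)))))
    {ι : Type*} [Fintype ι] [DecidableEq ι] (b : Basis ι (RP x0) (SP B1 x0)) (a : ℕ) (u : RP x0)
    (hu : IsUnit u) (hdisc : Algebra.discr (RP x0) b = algebraMap B0 (RP x0) π ^ a * u) :
    a ≤ m := by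
  letI := algebraRPF x0 F0
  letI := algebraRPF' x0 F0 F
  letI := algebraSPF B1 x0 F
  haveI := isScalarTower_RPF x0 F0
  haveI := isFractionRing_RPF x0 F0
  haveI := isScalarTower_SPF B1 x0 F
  haveI := isFractionRing_SPF B1 x0 F
  haveI := isScalarTower_RPF' x0 F0 F
  haveI := isScalarTower_RP_SP x0 F0 F (B1 := B1)
  haveI : IsDomain (SP B1 x0) :=
    IsLocalization.isDomain_of_le_nonZeroDivisors (SP B1 x0)
      (algebraMapSubmonoid_le_nonZeroDivisors B1 x0)
  have hπF : algebraMap (RP x0) F0 (algebraMap B0 (RP x0) π) = algebraMap B0 F0 π := by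
    rw [← IsScalarTower.algebraMap_apply B0 (RP x0) F0]
  have hzF : algebraMap (SP B1 x0) F (algebraMap B1 (SP B1 x0) z) = algebraMap B1 F z := by
    rw [← IsScalarTower.algebraMap_apply B1 (SP B1 x0) F]
  refine DiscBound5.le_of_norm_derivative_scaled F0 F b V0
    (algebraMap_RP_mem x0 F0 V0 hV0B hV0d) (algebraMap B0 (RP x0) π) u a hu hdisc
    (pi_ne_zero x0 π hπ0) (by rw [hπF]; exact hπ1) ζ hprim g hg (algebraMap B1 (SP B1 x0) z)
    (by rw [hzF]; exact hz) m ?_
  rw [hπF]
  exact hN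

end Fermat.Agent.ES.P36.RegSemiExp20
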