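/-
Program P (S36), chapter REG, brick R7 chart facts (helper20), CHART layer (Program N vocabulary,
twin of `RegChart21.regData_chart` one level up): `BM : Subalgebra R FM` the level-`M′q` chart,
`B : Subalgebra R F` the level-`M′q²` chart, `φ = α₂ : FM →+* F` with `φ (BM) ⊆ B`,
`W1 W2 : ValuationSubring FM` the two vertical valuation rings of level `M′q`, `x1 : Ideal BM` a closed
point lying on the component `W1` only (a ONE-BRANCH point: `OffBranch π BM W2 x1`).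

* `vert_isPrime`   : the vertical prime `BM ∩ π W1` is prime (`π` a uniformiser of `W1`);
* `vert_local_principal` : it is `π`-principal locally at `x1` (saturation + `OffBranch`);
* `regDataSemi_chart` : **the hypotheses `(π T h𝔪 hπ hT b a u hu hdisc)` of
  `DiscLift5.exists_local_span_pair`** for `R0 := RP x1`, `S := SP B x1` (through `chartAlgebra φ`), i.e.
  `𝔪_{R0} = (π, T)`, `π` prime in `R0`, `π ∤ T`, `S` free and finite over `R0`, every discriminant is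
  `π ^ a * unit`.
-/
import Mathlib
import Fermat.Agent.ES.N34.NodalCore13
import Fermat.Agent.ES.P36.RegSemi20
import Fermat.Agent.ES.P36.RegChart21
import Fermat.Agent.ES.P36.RegSemiExp20

set_option autoImplicit false
set_option linter.style.haveILetI false
set_option linter.unusedSectionVars false

namespace Fermat.Agent.ES.P36.RegSemiChart20

open IsLocalRing Module Fermat.Agent.RED.PUR.LocalFree26 Fermat.Agent.ES.N34.NodalCore13
  Fermat.Agent.ES.P36.RegChart21 Fermat.Agent.ES.P36.RegSemi20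

variable {R FM F : Type*} [CommRing R] [Field FM] [Field F] [Algebra R FM] [Algebra R F]

section Vert

variable (π : R) (BM : Subalgebra R FM) (W1 : ValuationSubring FM) (leW1 : ∀ x ∈ BM, x ∈ W1)

/-- `x ∈ π W1 ↔ v(x) < 1` when `π` is a uniformiser of `W1`. -/
theorem mem_pi_iff (pi_ne : algebraMap R FM π ≠ 0) (hπ1 : W1.valuation (algebraMap R FM π) < 1)
    (hunif : ∀ x : FM, W1.valuation x < 1 → W1.valuation x ≤ W1.valuation (algebraMap R FM π))
    (x : FM) : (∃ c ∈ W1, x = algebraMap R FM π * c) ↔ W1.valuation x < 1 := by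
  constructor
  · rintro ⟨c, hc, rfl⟩
    rw [map_mul]
    exact (mul_le_of_le_one_right' ((W1.valuation_le_one_iff c).mpr hc)).trans_lt hπ1
  · intro hx
    refine ⟨x / algebraMap R FM π, ?_, by field_simp⟩
    rw [← W1.valuation_le_one_iff, map_div₀]
    have hpos : 0 < W1.valuation (algebraMap R FM π) :=
      zero_lt_iff.mpr ((Valuation.ne_zero_iff _).mpr pi_ne)
    exact (div_le_one₀ hpos).mpr (hunif x hx)

/-- **the vertical prime is prime.** -/
theorem vert_isPrime (pi_ne : algebraMap R FM π ≠ 0)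
    (hπ1 : W1.valuation (algebraMap R FM π) < 1)
    (hunif : ∀ x : FM, W1.valuation x < 1 → W1.valuation x ≤ W1.valuation (algebraMap R FM π)) :
    (vert BM π W1 leW1).IsPrime := by
  have hmem : ∀ b : BM, b ∈ vert BM π W1 leW1 ↔ W1.valuation (b : FM) < 1 := fun b =>
    (mem_vert BM).trans (mem_pi_iff π W1 pi_ne hπ1 hunif _)
  refine ⟨?_, ?_⟩
  · intro htop
    have h1 : (1 : BM) ∈ vert BM π W1 leW1 := by rw [htop]; exact Submodule.mem_top
    rw [hmem] at h1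
    have : W1.valuation ((1 : BM) : FM) = 1 := by
      rw [OneMemClass.coe_one, map_one]
    rw [this] at h1
    exact lt_irrefl _ h1
  · intro a b hab
    rw [hmem] at hab ⊢
    rw [hmem]
    have hcoe : ((a * b : BM) : FM) = (a : FM) * (b : FM) := rfl
    rw [hcoe, map_mul] at hab
    by_contra hcon
    rw [not_or, not_lt, not_lt] at hcon
    have ha : W1.valuation (a : FM) = 1 :=
      le_antisymm ((W1.valuation_le_one_iff _).mpr (leW1 _ a.2)) hcon.1
    have hb : W1.valuation (b : FM) = 1 :=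
      le_antisymm ((W1.valuation_le_one_iff _).mpr (leW1 _ b.2)) hcon.2
    rw [ha, hb, one_mul] at hab
    exact lt_irrefl _ hab

/-- **the vertical prime is `π`-principal locally at a point off the other component.** -/
theorem vert_local_principal (W2 : ValuationSubring FM) (leW2 : ∀ x ∈ BM, x ∈ W2)
    (sat : ∀ b ∈ BM, ∀ c : FM, c ∈ W1 → c ∈ W2 → b = algebraMap R FM π * c → c ∈ BM)
    (x1 : Ideal BM) (hoff : OffBranch π BM W2 x1) :
    ∀ b ∈ vert BM π W1 leW1, ∃ d, d ∉ x1 ∧ algebraMap R BM π ∣ d * b := by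
  intro b hb
  obtain ⟨c₁, hc₁, hbc⟩ := (mem_vert BM).mp hb
  obtain ⟨d, hd, c₂, hc₂, hdc⟩ := hoff
  refine ⟨d, hd, ?_⟩
  -- `d * b = π * (c₁ * d)`, `c₁ * d = b * c₂`
  have hc : c₁ * (d : FM) ∈ BM := by
    refine sat ((d : FM) * (b : FM)) (BM.mul_mem d.2 b.2) _ (W1.mul_mem _ _ hc₁ (leW1 _ d.2)) ?_
      (by rw [hbc]; ring)
    have : c₁ * (d : FM) = (b : FM) * c₂ := by rw [hdc, hbc]; ring
    rw [this]
    exact W2.mul_mem _ _ (leW2 _ b.2) hc₂
  refine ⟨⟨_, hc⟩, Subtype.ext ?_⟩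
  show (d : FM) * (b : FM) = algebraMap R FM π * (c₁ * (d : FM))
  rw [hbc]; ring

end Vert

section Main

variable (π : R) (φ : FM →+* F) (BM : Subalgebra R FM) (B : Subalgebra R F)
  (hφB : ∀ b : BM, φ (b : FM) ∈ B)

/-- **R7 chart facts, chart form: the hypotheses `(π T h𝔪 hπ hT b a u hu hdisc)` of
`DiscLift5.exists_local_span_pair`** for `R0 := RP x1`, `S := SP B x1`, at a one-branch closed point
`x1` of the level-`M′q` chart `BM` (on `W1`, off `W2`). -/
theorem regDataSemi_chart (hφR : ∀ r : R, φ (algebraMap R FM r) = algebraMap R F r)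
    (noethBM : IsNoetherianRing BM)
    (intclBM : ∀ x : FM, IsIntegral BM x → x ∈ BM)
    (fracBM : ∀ x : FM, ∃ a ∈ BM, ∃ b ∈ BM, b ≠ 0 ∧ x * b = a)
    (intclB : ∀ x : F, IsIntegral B x → x ∈ B)
    (fracB : ∀ x : F, ∃ a ∈ B, ∃ b ∈ B, b ≠ 0 ∧ x * b = a)
    (hfin : ∃ (r : ℕ) (e : Fin r → F), (∀ i, e i ∈ B) ∧
      ∀ x ∈ B, ∃ c : Fin r → BM, x = ∑ i, φ (c i : FM) * e i)
    (W1 W2 : ValuationSubring FM) (leW1 : ∀ x ∈ BM, x ∈ W1) (leW2 : ∀ x ∈ BM, x ∈ W2)
    (pi_ne : algebraMap R FM π ≠ 0)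
    (hπ1 : W1.valuation (algebraMap R FM π) < 1)
    (hunif : ∀ x : FM, W1.valuation x < 1 → W1.valuation x ≤ W1.valuation (algebraMap R FM π))
    (sat : ∀ b ∈ BM, ∀ c : FM, c ∈ W1 → c ∈ W2 → b = algebraMap R FM π * c → c ∈ BM)
    (x1 : Ideal BM) [hx1 : x1.IsPrime]
    (hon1 : ∀ b : BM, (∃ c ∈ W1, (b : FM) = algebraMap R FM π * c) → b ∈ x1)
    (hoff2 : OffBranch π BM W2 x1)
    (hne1 : ∃ f ∈ x1, ¬ ∃ c ∈ W1, (f : FM) = algebraMap R FM π * c)
    (T : BM) (hTx : T ∈ x1)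
    (hsm : ∀ y ∈ x1, ∃ d : BM, d ∉ x1 ∧ d * y ∈ Ideal.span {algebraMap R BM π, T})
    (hchar : ∀ n : ℕ, n ≠ 0 → ∃ k : ℕ, (n : R) ∣ π ^ k)
    (hUNR : ∀ O : ValuationSubring F, (∀ s ∈ B, s ∈ O) →
      (∀ d : BM, d ∉ x1 → (φ (d : FM))⁻¹ ∈ O) →
      IsDiscreteValuationRing O → (algebraMap R F π)⁻¹ ∈ O →
      ∃ g : BM, (φ (g : FM))⁻¹ ∉ O ∧ ∀ y ∈ O, y⁻¹ ∉ O → y / φ (g : FM) ∈ O) :
    letI := chartAlgebra φ BM B hφB
    maximalIdeal (RP x1) =
        Ideal.span {algebraMap ↥BM (RP x1) (algebraMap R ↥BM π), algebraMap ↥BM (RP x1) T} ∧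
      Prime (algebraMap ↥BM (RP x1) (algebraMap R ↥BM π)) ∧
      ¬ algebraMap ↥BM (RP x1) (algebraMap R ↥BM π) ∣ algebraMap ↥BM (RP x1) T ∧
      Module.Free (RP x1) (SP ↥B x1) ∧ Module.Finite (RP x1) (SP ↥B x1) ∧
      ∀ (n : ℕ) (b : Basis (Fin n) (RP x1) (SP ↥B x1)),
        ∃ (a : ℕ) (u : RP x1), IsUnit u ∧
          Algebra.discr (RP x1) b =
            algebraMap ↥BM (RP x1) (algebraMap R ↥BM π) ^ a * u := by
  letI := chartAlgebra φ BM B hφB
  haveI := noethBM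
  haveI := finite_of_generators φ BM B hφB hfin
  haveI := faithfulSMul_chart φ BM B hφB
  haveI := isFractionRing_of B fracB
  haveI := isIntegrallyClosed_of B intclB fracB
  haveI := isIntegrallyClosed_of BM intclBM fracBM
  -- the vertical prime
  haveI hvp : (vert BM π W1 leW1).IsPrime := vert_isPrime π BM W1 leW1 pi_ne hπ1 hunif
  have hvx : vert BM π W1 leW1 ≤ x1 := fun b hb => hon1 b ((mem_vert BM).mp hb)
  have hπv : algebraMap R ↥BM π ∈ vert BM π W1 leW1 :=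
    (mem_vert BM).mpr ⟨1, W1.one_mem, by rw [mul_one]; rfl⟩
  have hπx : algebraMap R ↥BM π ∈ x1 := hvx hπv
  have hloc := vert_local_principal π BM W1 leW1 W2 leW2 sat x1 hoff2
  have hπ0 : algebraMap R ↥BM π ≠ 0 := by
    intro h0
    apply pi_ne
    have := congrArg (fun z : ↥BM => (z : FM)) h0
    simpa using this
  have hπloc : Prime (algebraMap ↥BM (RP x1) (algebraMap R ↥BM π)) :=
    prime_pi_of_local_principal x1 (vert BM π W1 leW1) hvx _ hπ0 hπv hloc
  have hmax : maximalIdeal (RP x1) =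
      Ideal.span {algebraMap ↥BM (RP x1) (algebraMap R ↥BM π), algebraMap ↥BM (RP x1) T} :=
    RegLocal3.maximalIdeal_atPrime_eq_span_pair x1 _ T hπx hTx hsm
  have hTloc : ¬ algebraMap ↥BM (RP x1) (algebraMap R ↥BM π) ∣ algebraMap ↥BM (RP x1) T := by
    refine not_pi_dvd_T_of_local x1 (vert BM π W1 leW1) hvx _ T hπv hloc hmax ?_
    obtain ⟨f, hf, hfn⟩ := hne1
    exact ⟨f, hf, fun hfv => hfn ((mem_vert BM).mp hfv)⟩
  have hchar' : ∀ n : ℕ, n ≠ 0 → ∃ k : ℕ, (n : ↥BM) ∣ algebraMap R ↥BM π ^ k := by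
    intro n hn
    obtain ⟨k, hk⟩ := hchar n hn
    refine ⟨k, ?_⟩
    have := map_dvd (algebraMap R ↥BM) hk
    rwa [map_natCast, map_pow] at this
  obtain ⟨-, hfree, hfinS, hdisc⟩ := regDataSemi (B1 := ↥B) F x1 (algebraMap R ↥BM π) T hπx hTx hsm hπloc
    hTloc hchar' (by
      intro O hB hd hdvr hπO
      exact hUNR O (fun s hs => hB ⟨s, hs⟩) (fun d hdx => hd d hdx) hdvr
        (by
          have : (algebraMap ↥B F (algebraMap ↥BM ↥B (algebraMap R ↥BM π))) = algebraMap R F π :=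
            hφR π
          rw [← this]; exact hπO))
  exact ⟨hmax, hπloc, hTloc, hfree, hfinS, hdisc⟩

/-- the submonoid `M = φ (BM ∖ x1)` of `B` (at which `SP ↥B x1` is the localisation: instance
`Localization.isLocalization`) avoids every prime `𝔪` of `B` whose contraction along `φ` is `x1`: the
hypothesis `hM` of `TypeTwoAsm1.oneBranch_of_discr`. -/
theorem algebraMapSubmonoid_le_primeCompl (x1 : Ideal BM) [x1.IsPrime] (𝔪 : Ideal B) [𝔪.IsPrime]
    (hx1 : ∀ a : BM, a ∈ x1 ↔ (⟨φ (a : FM), hφB a⟩ : B) ∈ 𝔪) :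
    letI := chartAlgebra φ BM B hφB
    Algebra.algebraMapSubmonoid ↥B x1.primeCompl ≤ 𝔪.primeCompl := by
  letI := chartAlgebra φ BM B hφB
  rintro _ ⟨d, hd, rfl⟩
  exact fun h => hd ((hx1 d).mpr h)

end Main

/-! ### The exponent bound and the rank, chart form -/

section Exp

open Polynomial

variable (π : R) (φ : FM →+* F) (BM : Subalgebra R FM) (B : Subalgebra R F)
  (hφB : ∀ b : BM, φ (b : FM) ∈ B)

/-- `IsScalarTower ↥BM ↥B F` for the chart algebra and `Algebra FM F := φ.toAlgebra`. -/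
theorem isScalarTower_chart :
    letI := chartAlgebra φ BM B hφB
    letI := φ.toAlgebra
    IsScalarTower ↥BM ↥B F := by
  letI := chartAlgebra φ BM B hφB
  letI := φ.toAlgebra
  exact IsScalarTower.of_algebraMap_eq fun _ => rfl

/-- `d ∉ x1 ⇒ d⁻¹ ∈ W1` for a point `x1` on the component `W1`. -/
theorem inv_mem_of_notMem (W1 : ValuationSubring FM) (leW1 : ∀ x ∈ BM, x ∈ W1)
    (pi_ne : algebraMap R FM π ≠ 0)
    (hπ1 : W1.valuation (algebraMap R FM π) < 1)
    (hunif : ∀ x : FM, W1.valuation x < 1 → W1.valuation x ≤ W1.valuation (algebraMap R FM π))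
    (x1 : Ideal BM)
    (hon1 : ∀ b : BM, (∃ c ∈ W1, (b : FM) = algebraMap R FM π * c) → b ∈ x1)
    (d : BM) (hd : d ∉ x1) : ((d : FM))⁻¹ ∈ W1 := by
  have h1 : ¬ W1.valuation (d : FM) < 1 := fun h =>
    hd (hon1 d ((mem_pi_iff π W1 pi_ne hπ1 hunif _).mpr h))
  have h2 : W1.valuation (d : FM) = 1 :=
    le_antisymm ((W1.valuation_le_one_iff _).mpr (leW1 _ d.2)) (not_lt.mp h1)
  rw [← W1.valuation_le_one_iff, map_inv₀, h2, inv_one]

/-- **the exponent bound, chart form** (`V0 := W1`, the component through `x1`): for a primitive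
element `ζ ∈ F` of `F / φ FM` with `φ g * ζ = z ∈ B` for a `W1`-unit `g ∈ FM`, if
`|π|^m ≤ |N (G_ζ'(ζ))|_{W1}` then every decomposition `discr (RP x1) b = π ^ a * unit` has `a ≤ m`. -/
theorem exp_le_chart
    (fracBM : ∀ x : FM, ∃ a ∈ BM, ∃ b ∈ BM, b ≠ 0 ∧ x * b = a)
    (fracB : ∀ x : F, ∃ a ∈ B, ∃ b ∈ B, b ≠ 0 ∧ x * b = a)
    (hfd : letI := φ.toAlgebra; FiniteDimensional FM F)
    (hsep : letI := φ.toAlgebra; Algebra.IsSeparable FM F)
    (W1 : ValuationSubring FM) (leW1 : ∀ x ∈ BM, x ∈ W1)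
    (pi_ne : algebraMap R FM π ≠ 0)
    (hπ1 : W1.valuation (algebraMap R FM π) < 1)
    (hunif : ∀ x : FM, W1.valuation x < 1 → W1.valuation x ≤ W1.valuation (algebraMap R FM π))
    (x1 : Ideal BM) [hx1 : x1.IsPrime]
    (hon1 : ∀ b : BM, (∃ c ∈ W1, (b : FM) = algebraMap R FM π * c) → b ∈ x1)
    (ζ : F) (hprim : letI := φ.toAlgebra; (minpoly FM ζ).natDegree = Module.finrank FM F)
    (g : FM) (hg : W1.valuation g = 1) (z : B) (hz : (z : F) = φ g * ζ) (m : ℕ)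
    (hN : letI := φ.toAlgebra
      W1.valuation (algebraMap R FM π) ^ m ≤
        W1.valuation (Algebra.norm FM (aeval ζ (derivative (minpoly FM ζ))))) :
    letI := chartAlgebra φ BM B hφB
    ∀ (n : ℕ) (b : Basis (Fin n) (RP x1) (SP ↥B x1)) (a : ℕ) (u : RP x1), IsUnit u →
      Algebra.discr (RP x1) b = algebraMap ↥BM (RP x1) (algebraMap R ↥BM π) ^ a * u → a ≤ m := by
  letI := chartAlgebra φ BM B hφB
  letI := φ.toAlgebra
  haveI := hfd
  haveI := hsep
  haveI := faithfulSMul_chart φ BM B hφB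
  haveI := isFractionRing_of B fracB
  haveI := isFractionRing_of BM fracBM
  haveI := isScalarTower_chart φ BM B hφB
  intro n b a u hu hdisc
  have hπ0 : algebraMap R ↥BM π ≠ 0 := by
    intro h0
    apply pi_ne
    have := congrArg (fun z : ↥BM => (z : FM)) h0
    simpa using this
  exact RegSemiExp20.exp_le_of_norm_derivative_scaled x1 FM F W1 (fun r => leW1 _ r.2)
    (fun d hd => inv_mem_of_notMem π BM W1 leW1 pi_ne hπ1 hunif x1 hon1 d hd)
    (algebraMap R ↥BM π) hπ0 hπ1 ζ hprim g hg z hz m hN b a u hu hdisc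

/-- **R7 chart facts, consumer form: the discriminant data `(π₀ T₀ h𝔪0 hπ₀ hT₀ b a u hu hdisc ha)` of
`TypeTwoAsm1.oneBranch_of_discr`** (`ι' := Fin q`) for `R0 := RP x1`, `Bt := SP ↥B x1`, at a
one-branch closed point `x1` of the level-`M′q` chart `BM`, from the chart facts of
`regDataSemi_chart`, the rank `[F : φ FM] = q` and the norm bound `|π|^m ≤ |N (G_ζ'(ζ))|_{W1}` with
`m + 2 ≤ q` (`DiffTwo2.pow_le_norm_deriv_val`, `m = q - 2`). -/
theorem discData_chart (hφR : ∀ r : R, φ (algebraMap R FM r) = algebraMap R F r)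
    (noethBM : IsNoetherianRing BM)
    (intclBM : ∀ x : FM, IsIntegral BM x → x ∈ BM)
    (fracBM : ∀ x : FM, ∃ a ∈ BM, ∃ b ∈ BM, b ≠ 0 ∧ x * b = a)
    (intclB : ∀ x : F, IsIntegral B x → x ∈ B)
    (fracB : ∀ x : F, ∃ a ∈ B, ∃ b ∈ B, b ≠ 0 ∧ x * b = a)
    (hfin : ∃ (r : ℕ) (e : Fin r → F), (∀ i, e i ∈ B) ∧
      ∀ x ∈ B, ∃ c : Fin r → BM, x = ∑ i, φ (c i : FM) * e i)
    (W1 W2 : ValuationSubring FM) (leW1 : ∀ x ∈ BM, x ∈ W1) (leW2 : ∀ x ∈ BM, x ∈ W2)
    (pi_ne : algebraMap R FM π ≠ 0)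
    (hπ1 : W1.valuation (algebraMap R FM π) < 1)
    (hunif : ∀ x : FM, W1.valuation x < 1 → W1.valuation x ≤ W1.valuation (algebraMap R FM π))
    (sat : ∀ b ∈ BM, ∀ c : FM, c ∈ W1 → c ∈ W2 → b = algebraMap R FM π * c → c ∈ BM)
    (x1 : Ideal BM) [hx1 : x1.IsPrime]
    (hon1 : ∀ b : BM, (∃ c ∈ W1, (b : FM) = algebraMap R FM π * c) → b ∈ x1)
    (hoff2 : OffBranch π BM W2 x1)
    (hne1 : ∃ f ∈ x1, ¬ ∃ c ∈ W1, (f : FM) = algebraMap R FM π * c)
    (T : BM) (hTx : T ∈ x1)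
    (hsm : ∀ y ∈ x1, ∃ d : BM, d ∉ x1 ∧ d * y ∈ Ideal.span {algebraMap R BM π, T})
    (hchar : ∀ n : ℕ, n ≠ 0 → ∃ k : ℕ, (n : R) ∣ π ^ k)
    (hUNR : ∀ O : ValuationSubring F, (∀ s ∈ B, s ∈ O) →
      (∀ d : BM, d ∉ x1 → (φ (d : FM))⁻¹ ∈ O) →
      IsDiscreteValuationRing O → (algebraMap R F π)⁻¹ ∈ O →
      ∃ g : BM, (φ (g : FM))⁻¹ ∉ O ∧ ∀ y ∈ O, y⁻¹ ∉ O → y / φ (g : FM) ∈ O)
    (hfd : letI := φ.toAlgebra; FiniteDimensional FM F)
    (hsep : letI := φ.toAlgebra; Algebra.IsSeparable FM F)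
    (q : ℕ) (hrank : letI := φ.toAlgebra; Module.finrank FM F = q)
    (ζ : F) (hprim : letI := φ.toAlgebra; (minpoly FM ζ).natDegree = Module.finrank FM F)
    (g : FM) (hg : W1.valuation g = 1) (z : B) (hz : (z : F) = φ g * ζ) (m : ℕ) (hm : m + 2 ≤ q)
    (hN : letI := φ.toAlgebra
      W1.valuation (algebraMap R FM π) ^ m ≤
        W1.valuation (Algebra.norm FM (aeval ζ (derivative (minpoly FM ζ))))) :
    letI := chartAlgebra φ BM B hφB
    maximalIdeal (RP x1) =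
        Ideal.span {algebraMap ↥BM (RP x1) (algebraMap R ↥BM π), algebraMap ↥BM (RP x1) T} ∧
      Prime (algebraMap ↥BM (RP x1) (algebraMap R ↥BM π)) ∧
      ¬ algebraMap ↥BM (RP x1) (algebraMap R ↥BM π) ∣ algebraMap ↥BM (RP x1) T ∧
      ∃ (b : Basis (Fin q) (RP x1) (SP ↥B x1)) (a : ℕ) (u : RP x1), IsUnit u ∧
        Algebra.discr (RP x1) b = algebraMap ↥BM (RP x1) (algebraMap R ↥BM π) ^ a * u ∧
        a + 2 ≤ Fintype.card (Fin q) := by
  letI := chartAlgebra φ BM B hφB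
  obtain ⟨hmax, hπloc, hTloc, hfree, hfinS, hdisc⟩ := regDataSemi_chart π φ BM B hφB hφR noethBM
    intclBM fracBM intclB fracB hfin W1 W2 leW1 leW2 pi_ne hπ1 hunif sat x1 hon1 hoff2 hne1 T hTx
    hsm hchar hUNR
  refine ⟨hmax, hπloc, hTloc, ?_⟩
  have hrk : Module.finrank (RP x1) (SP ↥B x1) = q := by
    letI := φ.toAlgebra
    haveI := noethBM
    haveI := finite_of_generators φ BM B hφB hfin
    haveI := faithfulSMul_chart φ BM B hφB
    haveI := isFractionRing_of B fracB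
    haveI := isFractionRing_of BM fracBM
    haveI := isIntegrallyClosed_of B intclB fracB
    haveI := isIntegrallyClosed_of BM intclBM fracBM
    haveI := isScalarTower_chart φ BM B hφB
    exact (RegSemi20.finrank_eq x1 FM F).trans hrank
  set b : Basis (Fin q) (RP x1) (SP ↥B x1) := Module.finBasisOfFinrankEq (RP x1) (SP ↥B x1) hrk
  obtain ⟨a, u, hu, hd⟩ := hdisc q b
  refine ⟨b, a, u, hu, hd, ?_⟩
  have ha : a ≤ m := exp_le_chart π φ BM B hφB fracBM fracB hfd hsep W1 leW1 pi_ne hπ1 hunif x1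
    hon1 ζ hprim g hg z hz m hN q b a u hu hd
  rw [Fintype.card_fin]
  omega

end Exp

end Fermat.Agent.ES.P36.RegSemiChart20
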