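/-
Program P (S36), chapter REG, brick R7 (type II points), (D2.1) at `(R0, Bt)` — ABSTRACT layer
(helper9): **the two vertical primes of `Bt = SP B1 x0` over a one-branch point `x0` of `B0`, as
CENTRES of valuation rings, and the point-hypotheses `h12 hsurj₁ hsurj₂` of
`TypeTwoAsm1.oneBranch_of_discr` / `SemiPts27`**.

`B0 ⊆ B1` chart rings (`RegAbs21` vocabulary), `F = Frac B1`, `x0` a prime of `B0`,
`R0 := RP x0`, `Bt := SP B1 x0` (`F` is a `Bt`-algebra by `PurityMain26.algebraSPF`).  For a valuation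
ring `V ⊇ B1` of `F` in which the elements of `B0 ∖ x0` are units (`hunit`: `V` lies over a component
through `x0`):

* `algebraMap_SP_mem` : `Bt ⊆ V`;
* `centreSP V` : the centre `{y ∈ Bt | v(y) < 1}` of `V` on `Bt` (an ideal, prime);
* `hsurj_of_chart` / `chart_of_hsurj` : `R0 → Bt ⧸ centreSP V` is onto  ⟺  the chart form
  `∀ b : B1, ∃ a d : B0, d ∉ x0 ∧ v (d b - a) < 1` (for `b ∈ 𝔪` this is `hS2` of
  `TypeTwoAsm1.oneBranch_of_ufd`);
* `le_or_le_centreSP` : if `a b ^ k ∈ π Bt` for all `a ∈ centreSP V₁`, `b ∈ centreSP V₂`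
  (chart form `helem`), every maximal ideal of `Bt` contains `centreSP V₁` or `centreSP V₂`;
* `map_isMaximal_and_comap` : the maximal ideal `𝔪 Bt` of `Bt` with contraction `𝔪`, for a prime
  `𝔪` of `B1` over `x0` (`ChartLocal3`);
* `hval_of_span_pair` : `R0 ⧸ (π)` is a valuation ring (element form) for a noetherian local domain
  `R0` with `𝔪 = (π, T)`, `π` prime;
* `exists_sub_mem_of_valuationRing` : RESIDUE DEGREE ONE, ring form: `Bt` integral over the local ring
  `R0`, `𝔭` prime with `𝔭 ∩ R0 = (π)`, `R0 ⧸ (π)` a valuation ring, every `y : Bt` a fraction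
  `b y ≡ a mod 𝔭` with `a b : R0`, `π ∤ b` ⇒ `R0 → Bt ⧸ 𝔭` is onto;
* `exists_unit_denominator` : a discrete valuation ring `W ⊇ B0` (uniformiser `π`, `arch`) whose centre
  is `π`-principal locally at `x0` (`hloc`) is the localisation of `B0` at its centre: every `x ∈ W` is
  `a / b` with `a b : B0`, `v(b) = 1`;
* `hsurj_of_residue_one` : the three together at `(RP x0, SP B1 x0)`: `V` over `W = V ∩ E` along
  `φ : E → F` with residue degree one ⇒ `hsurj` for `centreSP V`.
-/
import Mathlib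
import Fermat.Agent.RED.PUR.LocalFree26
import Fermat.Agent.RED.PUR.PurityMain26
import Fermat.Agent.ES.P36.ChartLocal3
import Fermat.Agent.ES.P36.GenAbs20

set_option autoImplicit false
set_option linter.style.haveILetI false
set_option linter.unusedSectionVars false

namespace Fermat.Agent.ES.P36.SemiPtsAbs9

open IsLocalRing Fermat.Agent.RED.PUR.LocalFree26 Fermat.Agent.RED.PUR.PurityMain26

variable {B0 B1 : Type*} [CommRing B0] [IsDomain B0] [CommRing B1] [IsDomain B1] [Algebra B0 B1]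
  [FaithfulSMul B0 B1] (F : Type*) [Field F] [Algebra B1 F] [IsFractionRing B1 F]
  (x0 : Ideal B0) [x0.IsPrime]

section Centre

variable (V : ValuationSubring F) (hBV : ∀ s : B1, algebraMap B1 F s ∈ V)
  (hunit : ∀ d : B0, d ∉ x0 → (algebraMap B1 F (algebraMap B0 B1 d))⁻¹ ∈ V)

include hBV hunit in
/-- `Bt ⊆ V`. -/
theorem algebraMap_SP_mem (y : SP B1 x0) :
    letI := algebraSPF B1 x0 F
    algebraMap (SP B1 x0) F y ∈ V := by
  letI := algebraSPF B1 x0 F
  haveI := isScalarTower_SPF B1 x0 F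
  obtain ⟨b, d, hd, hbd⟩ := ChartLocal3.exists_mul_eq x0 y
  have h1 := congrArg (algebraMap (SP B1 x0) F) hbd
  rw [map_mul, ← IsScalarTower.algebraMap_apply B1 (SP B1 x0) F,
    ← IsScalarTower.algebraMap_apply B1 (SP B1 x0) F] at h1
  have hd0 : algebraMap B1 F (algebraMap B0 B1 d) ≠ 0 := by
    intro h0
    have h2 : algebraMap B0 B1 d = 0 := IsFractionRing.injective B1 F (by rw [h0, map_zero])
    have h3 : d = 0 := FaithfulSMul.algebraMap_injective B0 B1 (by rw [h2, map_zero])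
    exact hd (h3 ▸ x0.zero_mem)
  have h2 : algebraMap (SP B1 x0) F y =
      algebraMap B1 F b * (algebraMap B1 F (algebraMap B0 B1 d))⁻¹ := by
    rw [← h1, mul_assoc, mul_inv_cancel₀ hd0, mul_one]
  rw [h2]
  exact V.mul_mem _ _ (hBV b) (hunit d hd)

include hBV hunit in
/-- the valuation of the image of `d ∉ x0` is `1`. -/
theorem val_base_eq_one {d : B0} (hd : d ∉ x0) :
    V.valuation (algebraMap B1 F (algebraMap B0 B1 d)) = 1 := by
  have h1 : V.valuation (algebraMap B1 F (algebraMap B0 B1 d)) ≤ 1 :=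
    (V.valuation_le_one_iff _).mpr (hBV _)
  have h2 : V.valuation (algebraMap B1 F (algebraMap B0 B1 d))⁻¹ ≤ 1 :=
    (V.valuation_le_one_iff _).mpr (hunit d hd)
  have hd0 : algebraMap B1 F (algebraMap B0 B1 d) ≠ 0 := by
    intro h0
    have h2 : algebraMap B0 B1 d = 0 := IsFractionRing.injective B1 F (by rw [h0, map_zero])
    have h3 : d = 0 := FaithfulSMul.algebraMap_injective B0 B1 (by rw [h2, map_zero])
    exact hd (h3 ▸ x0.zero_mem)
  rw [map_inv₀] at h2
  have hpos : 0 < V.valuation (algebraMap B1 F (algebraMap B0 B1 d)) := by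
    rw [zero_lt_iff, Valuation.ne_zero_iff]; exact hd0
  have h3 : 1 ≤ V.valuation (algebraMap B1 F (algebraMap B0 B1 d)) := by
    rwa [inv_le_one₀ hpos] at h2
  exact le_antisymm h1 h3

/-- **The centre of `V` on `Bt = SP B1 x0`.** -/
def centreSP : Ideal (SP B1 x0) :=
  letI := algebraSPF B1 x0 F
  { carrier := {y | V.valuation (algebraMap (SP B1 x0) F y) < 1}
    zero_mem' := by
      show V.valuation (algebraMap (SP B1 x0) F 0) < 1
      rw [map_zero, map_zero]; exact zero_lt_one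
    add_mem' := by
      intro a b ha hb
      show V.valuation (algebraMap (SP B1 x0) F (a + b)) < 1
      rw [map_add]
      exact lt_of_le_of_lt (Valuation.map_add _ _ _) (max_lt ha hb)
    smul_mem' := by
      intro c y hy
      show V.valuation (algebraMap (SP B1 x0) F (c • y)) < 1
      rw [smul_eq_mul, map_mul, map_mul]
      have hc : V.valuation (algebraMap (SP B1 x0) F c) ≤ 1 :=
        (V.valuation_le_one_iff _).mpr (algebraMap_SP_mem F x0 V hBV hunit c)
      calc V.valuation (algebraMap (SP B1 x0) F c) * V.valuation (algebraMap (SP B1 x0) F y)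
          ≤ 1 * V.valuation (algebraMap (SP B1 x0) F y) := mul_le_mul_left hc _
        _ = V.valuation (algebraMap (SP B1 x0) F y) := one_mul _
        _ < 1 := hy }

theorem mem_centreSP (y : SP B1 x0) :
    letI := algebraSPF B1 x0 F
    y ∈ centreSP F x0 V hBV hunit ↔ V.valuation (algebraMap (SP B1 x0) F y) < 1 := Iff.rfl

include hBV hunit in
/-- the image of `r = a / d ∈ R0` in `F`, up to the unit `d`. -/
theorem val_sub_algebraMap_mk' (y : SP B1 x0) (a : B0) (d : x0.primeCompl) :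
    letI := algebraSPF B1 x0 F
    V.valuation (algebraMap (SP B1 x0) F
        (y - algebraMap (RP x0) (SP B1 x0) (IsLocalization.mk' (RP x0) a d))) =
      V.valuation (algebraMap B1 F (algebraMap B0 B1 (d : B0)) * algebraMap (SP B1 x0) F y -
        algebraMap B1 F (algebraMap B0 B1 a)) := by
  letI := algebraSPF B1 x0 F
  haveI := isScalarTower_SPF B1 x0 F
  have hd1 := val_base_eq_one F x0 V hBV hunit d.2
  have h1 : algebraMap (SP B1 x0) F (algebraMap (RP x0) (SP B1 x0)
      (IsLocalization.mk' (RP x0) a d)) * algebraMap B1 F (algebraMap B0 B1 (d : B0)) =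
      algebraMap B1 F (algebraMap B0 B1 a) := by
    rw [IsScalarTower.algebraMap_apply B1 (SP B1 x0) F, IsScalarTower.algebraMap_apply B1 (SP B1 x0) F,
      ← ChartLocal3.algebraMap_comm, ← ChartLocal3.algebraMap_comm, ← map_mul, ← map_mul,
      IsLocalization.mk'_spec]
  have h2 : algebraMap B1 F (algebraMap B0 B1 (d : B0)) * algebraMap (SP B1 x0) F y -
      algebraMap B1 F (algebraMap B0 B1 a) =
      algebraMap (SP B1 x0) F (y - algebraMap (RP x0) (SP B1 x0) (IsLocalization.mk' (RP x0) a d)) *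
        algebraMap B1 F (algebraMap B0 B1 (d : B0)) := by
    rw [map_sub, sub_mul, h1]; ring
  rw [h2, map_mul, hd1, mul_one]

include hBV hunit in
/-- **`R0 → Bt ⧸ centre` is onto, from the chart form.** -/
theorem hsurj_of_chart
    (hS : ∀ b : B1, ∃ a d : B0, d ∉ x0 ∧
      V.valuation (algebraMap B1 F (algebraMap B0 B1 d) * algebraMap B1 F b -
        algebraMap B1 F (algebraMap B0 B1 a)) < 1) (y : SP B1 x0) :
    ∃ r : RP x0, y - algebraMap (RP x0) (SP B1 x0) r ∈ centreSP F x0 V hBV hunit := by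
  letI := algebraSPF B1 x0 F
  haveI := isScalarTower_SPF B1 x0 F
  obtain ⟨b, d₀, hd₀, hbd⟩ := ChartLocal3.exists_mul_eq x0 y
  obtain ⟨a, d, hd, hval⟩ := hS b
  have hdd : d * d₀ ∉ x0 := fun h => (Ideal.IsPrime.mem_or_mem ‹x0.IsPrime› h).elim hd hd₀
  refine ⟨IsLocalization.mk' (RP x0) a (⟨d * d₀, hdd⟩ : x0.primeCompl), ?_⟩
  rw [mem_centreSP, val_sub_algebraMap_mk' F x0 V hBV hunit]
  have h1 := congrArg (algebraMap (SP B1 x0) F) hbd
  rw [map_mul, ← IsScalarTower.algebraMap_apply B1 (SP B1 x0) F,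
    ← IsScalarTower.algebraMap_apply B1 (SP B1 x0) F] at h1
  have h2 : algebraMap B1 F (algebraMap B0 B1 ((⟨d * d₀, hdd⟩ : x0.primeCompl) : B0)) *
      algebraMap (SP B1 x0) F y - algebraMap B1 F (algebraMap B0 B1 a) =
      algebraMap B1 F (algebraMap B0 B1 d) * algebraMap B1 F b -
        algebraMap B1 F (algebraMap B0 B1 a) := by
    show algebraMap B1 F (algebraMap B0 B1 (d * d₀)) * _ - _ = _
    rw [map_mul, map_mul, ← h1]; ring
  rw [h2]
  exact hval

include hBV hunit in
/-- **The chart form of `R0 → Bt ⧸ centre` onto** (for `b ∈ 𝔪`: `hS2` of `TypeTwoAsm1`). -/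
theorem chart_of_hsurj
    (hs : ∀ y : SP B1 x0, ∃ r : RP x0,
      y - algebraMap (RP x0) (SP B1 x0) r ∈ centreSP F x0 V hBV hunit) (b : B1) :
    ∃ a d : B0, d ∉ x0 ∧
      V.valuation (algebraMap B1 F (algebraMap B0 B1 d) * algebraMap B1 F b -
        algebraMap B1 F (algebraMap B0 B1 a)) < 1 := by
  letI := algebraSPF B1 x0 F
  haveI := isScalarTower_SPF B1 x0 F
  obtain ⟨r, hr⟩ := hs (algebraMap B1 (SP B1 x0) b)
  obtain ⟨a, d, rfl⟩ := IsLocalization.exists_mk'_eq x0.primeCompl r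
  refine ⟨a, d, d.2, ?_⟩
  rw [mem_centreSP, val_sub_algebraMap_mk' F x0 V hBV hunit,
    ← IsScalarTower.algebraMap_apply B1 (SP B1 x0) F] at hr
  exact hr

end Centre


section Two

variable [Module.Finite B0 B1]
  (V1 V2 : ValuationSubring F)
  (hBV1 : ∀ s : B1, algebraMap B1 F s ∈ V1)
  (hunit1 : ∀ d : B0, d ∉ x0 → (algebraMap B1 F (algebraMap B0 B1 d))⁻¹ ∈ V1)
  (hBV2 : ∀ s : B1, algebraMap B1 F s ∈ V2)
  (hunit2 : ∀ d : B0, d ∉ x0 → (algebraMap B1 F (algebraMap B0 B1 d))⁻¹ ∈ V2)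

/-- the image of `π ∈ x0` lies in every maximal ideal of `Bt`. -/
theorem algebraMap_pi_mem (π : B0) (hπx : π ∈ x0) (P : Ideal (SP B1 x0)) (hP : P.IsMaximal) :
    algebraMap B1 (SP B1 x0) (algebraMap B0 B1 π) ∈ P := by
  haveI : Algebra.IsIntegral (RP x0) (SP B1 x0) := Algebra.IsIntegral.of_finite _ _
  haveI := hP
  rw [← ChartLocal3.algebraMap_comm]
  exact RegLocal3.algebraMap_mem_of_mem_maximalIdeal P (pi_mem_maximalIdeal x0 π hπx)

/-- **Every maximal ideal of `Bt` contains one of the two centres**, from the chart form `helem` of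
"`a b ^ k ∈ π Bt` for `a` in the first and `b` in the second centre". -/
theorem le_or_le_centreSP (π : B0) (hπx : π ∈ x0) (k : ℕ)
    (helem : ∀ a b : B1, V1.valuation (algebraMap B1 F a) < 1 →
      V2.valuation (algebraMap B1 F b) < 1 →
      ∃ e : B0, e ∉ x0 ∧ algebraMap B0 B1 π ∣ algebraMap B0 B1 e * (a * b ^ k))
    (P : Ideal (SP B1 x0)) (hP : P.IsMaximal) :
    centreSP F x0 V1 hBV1 hunit1 ≤ P ∨ centreSP F x0 V2 hBV2 hunit2 ≤ P := by
  letI := algebraSPF B1 x0 F
  haveI := isScalarTower_SPF B1 x0 F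
  by_contra hcon
  rw [not_or] at hcon
  obtain ⟨h1, h2⟩ := hcon
  obtain ⟨a', ha', ha'P⟩ := Set.not_subset.mp h1
  obtain ⟨b', hb', hb'P⟩ := Set.not_subset.mp h2
  obtain ⟨a, d₁, hd₁, had⟩ := ChartLocal3.exists_mul_eq x0 a'
  obtain ⟨b, d₂, hd₂, hbd⟩ := ChartLocal3.exists_mul_eq x0 b'
  -- numerators lie in the centres
  have haV : V1.valuation (algebraMap B1 F a) < 1 := by
    have : algebraMap B1 (SP B1 x0) a ∈ centreSP F x0 V1 hBV1 hunit1 := by
      rw [← had]; exact Ideal.mul_mem_right _ _ ha'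
    rw [mem_centreSP, ← IsScalarTower.algebraMap_apply B1 (SP B1 x0) F] at this
    exact this
  have hbV : V2.valuation (algebraMap B1 F b) < 1 := by
    have : algebraMap B1 (SP B1 x0) b ∈ centreSP F x0 V2 hBV2 hunit2 := by
      rw [← hbd]; exact Ideal.mul_mem_right _ _ hb'
    rw [mem_centreSP, ← IsScalarTower.algebraMap_apply B1 (SP B1 x0) F] at this
    exact this
  obtain ⟨e, he, c, hc⟩ := helem a b haV hbV
  -- `e a b ^ k ∈ π Bt ⊆ P`
  have hmem : algebraMap B1 (SP B1 x0) (algebraMap B0 B1 e * (a * b ^ k)) ∈ P := by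
    rw [hc, map_mul]
    exact Ideal.mul_mem_right _ _ (algebraMap_pi_mem x0 π hπx P hP)
  have hunitP : ∀ d : B0, d ∉ x0 → algebraMap B1 (SP B1 x0) (algebraMap B0 B1 d) ∉ P := by
    intro d hd hmemd
    exact hP.ne_top (Ideal.eq_top_of_isUnit_mem _ hmemd
      (ChartLocal3.isUnit_algebraMap_of_notMem_base (B1 := B1) x0 hd))
  rw [map_mul, map_mul, map_pow] at hmem
  rcases hP.isPrime.mem_or_mem hmem with h | h
  · exact hunitP e he h
  rcases hP.isPrime.mem_or_mem h with h | h
  · -- `a ∈ P` hence `a' ∈ P`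
    rw [← had] at h
    rcases hP.isPrime.mem_or_mem h with h' | h'
    · exact ha'P h'
    · exact hunitP d₁ hd₁ h'
  · have hb := hP.isPrime.mem_of_pow_mem k h
    rw [← hbd] at hb
    rcases hP.isPrime.mem_or_mem hb with h' | h'
    · exact hb'P h'
    · exact hunitP d₂ hd₂ h'

end Two

section Point

variable [Module.Finite B0 B1]

/-- a maximal ideal `𝔪` of `B1` over `x0` extends to a maximal ideal of `Bt` with contraction `𝔪`. -/
theorem map_isMaximal_and_comap (𝔪 : Ideal B1) [h𝔪 : 𝔪.IsPrime]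
    (h : 𝔪.comap (algebraMap B0 B1) = x0) :
    (𝔪.map (algebraMap B1 (SP B1 x0))).IsMaximal ∧
      (𝔪.map (algebraMap B1 (SP B1 x0))).comap (algebraMap B1 (SP B1 x0)) = 𝔪 :=
  ⟨ChartLocal3.map_isMaximal x0 𝔪 h, ChartLocal3.under_map_eq x0 𝔪 h.le⟩

end Point


/-! ### Residue degree one: `R0 → Bt ⧸ 𝔭` is onto -/

section ValRing

/-- **`R0 ⧸ (π)` is a valuation ring** (element form) when `R0` is a noetherian local domain with
`𝔪 = (π, T)` and `π` prime. -/
theorem hval_of_span_pair {R0 : Type*} [CommRing R0] [IsDomain R0] [IsNoetherianRing R0]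
    [IsLocalRing R0] (π T : R0) (hπ : Prime π) (h𝔪 : maximalIdeal R0 = Ideal.span {π, T})
    (a b : R0) : ∃ c e : R0, a = b * c + π * e ∨ b = a * c + π * e := by
  haveI hprime : (Ideal.span {π}).IsPrime := (Ideal.span_singleton_prime hπ.ne_zero).mpr hπ
  haveI : IsDomain (R0 ⧸ Ideal.span {π}) := Ideal.Quotient.isDomain _
  have hsurj : Function.Surjective (Ideal.Quotient.mk (Ideal.span {π})) :=
    Ideal.Quotient.mk_surjective
  haveI : IsLocalRing (R0 ⧸ Ideal.span {π}) :=
    IsLocalRing.of_surjective' (Ideal.Quotient.mk (Ideal.span {π})) hsurj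
  haveI : IsPrincipalIdealRing (R0 ⧸ Ideal.span {π}) :=
    RegLocal3.isPrincipalIdealRing_quotient_of_span_pair π T hπ h𝔪
  haveI : ValuationRing (R0 ⧸ Ideal.span {π}) :=
    ValuationRing.iff_local_bezout_domain.mpr ⟨inferInstance, inferInstance⟩
  obtain ⟨cq, hc⟩ := ValuationRing.cond (Ideal.Quotient.mk (Ideal.span {π}) a)
    (Ideal.Quotient.mk (Ideal.span {π}) b)
  obtain ⟨c, rfl⟩ := hsurj cq
  rcases hc with hc | hc
  · -- `b ≡ a c`
    rw [← map_mul, Ideal.Quotient.eq, Ideal.mem_span_singleton] at hc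
    obtain ⟨e, he⟩ := hc
    exact ⟨c, -e, Or.inr (by linear_combination -he)⟩
  · rw [← map_mul, Ideal.Quotient.eq, Ideal.mem_span_singleton] at hc
    obtain ⟨e, he⟩ := hc
    exact ⟨c, -e, Or.inl (by linear_combination -he)⟩

variable {R0 : Type*} [CommRing R0] [IsLocalRing R0] {Bt : Type*} [CommRing Bt] [Algebra R0 Bt]
  [Algebra.IsIntegral R0 Bt]

/-- **Residue degree one, ring form.**  `Bt` integral over the local ring `R0`, `𝔭` a prime of `Bt`
with `𝔭 ∩ R0 = (π)`, `R0 ⧸ (π)` a valuation ring (`hval`), and every element of `Bt ⧸ 𝔭` a fraction of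
elements of `R0 ⧸ (π)` (`hfrac`): then `R0 → Bt ⧸ 𝔭` is onto. -/
theorem exists_sub_mem_of_valuationRing (𝔭 : Ideal Bt) [h𝔭 : 𝔭.IsPrime] (π : R0)
    (hπ𝔭 : ∀ r : R0, algebraMap R0 Bt r ∈ 𝔭 ↔ π ∣ r)
    (hval : ∀ a b : R0, ∃ c e : R0, a = b * c + π * e ∨ b = a * c + π * e)
    (hfrac : ∀ y : Bt, ∃ a b : R0, ¬ π ∣ b ∧
      algebraMap R0 Bt b * y - algebraMap R0 Bt a ∈ 𝔭) (y : Bt) :
    ∃ r : R0, y - algebraMap R0 Bt r ∈ 𝔭 := by
  obtain ⟨a, b, hb, hab⟩ := hfrac y
  have hb𝔭 : algebraMap R0 Bt b ∉ 𝔭 := fun h => hb ((hπ𝔭 b).mp h)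
  have hπmem : algebraMap R0 Bt π ∈ 𝔭 := (hπ𝔭 π).mpr dvd_rfl
  obtain ⟨c, e, h | h⟩ := hval a b
  · -- `a = b c + π e`
    refine ⟨c, ?_⟩
    have h1 : algebraMap R0 Bt b * (y - algebraMap R0 Bt c) ∈ 𝔭 := by
      have : algebraMap R0 Bt b * (y - algebraMap R0 Bt c) =
          (algebraMap R0 Bt b * y - algebraMap R0 Bt a) + algebraMap R0 Bt π * algebraMap R0 Bt e := by
        rw [h, map_add, map_mul, map_mul]; ring
      rw [this]
      exact 𝔭.add_mem hab (𝔭.mul_mem_right _ hπmem)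
    exact (h𝔭.mem_or_mem h1).resolve_left hb𝔭
  · -- `b = a c + π e`
    have ha : ¬ π ∣ a := fun hda => hb (by rw [h]; exact dvd_add (hda.mul_right c) (dvd_mul_right π e))
    have ha𝔭 : algebraMap R0 Bt a ∉ 𝔭 := fun h' => ha ((hπ𝔭 a).mp h')
    have h1 : algebraMap R0 Bt a * (algebraMap R0 Bt c * y - 1) ∈ 𝔭 := by
      have : algebraMap R0 Bt a * (algebraMap R0 Bt c * y - 1) =
          (algebraMap R0 Bt b * y - algebraMap R0 Bt a) -
            algebraMap R0 Bt π * (algebraMap R0 Bt e * y) := by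
        rw [h, map_add, map_mul, map_mul]; ring
      rw [this]
      exact 𝔭.sub_mem hab (𝔭.mul_mem_right _ hπmem)
    have h2 : algebraMap R0 Bt c * y - 1 ∈ 𝔭 := (h𝔭.mem_or_mem h1).resolve_left ha𝔭
    by_cases hc : IsUnit c
    · obtain ⟨u, rfl⟩ := hc
      refine ⟨((u⁻¹ : R0ˣ) : R0), ?_⟩
      have : y - algebraMap R0 Bt ((u⁻¹ : R0ˣ) : R0) =
          algebraMap R0 Bt ((u⁻¹ : R0ˣ) : R0) * (algebraMap R0 Bt (u : R0) * y - 1) := by
        have h3 : algebraMap R0 Bt ((u⁻¹ : R0ˣ) : R0) * algebraMap R0 Bt (u : R0) = 1 := by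
          rw [← map_mul, Units.inv_mul, map_one]
        linear_combination (-y) * h3
      rw [this]
      exact 𝔭.mul_mem_left _ h2
    · exfalso
      obtain ⟨P, hP, h𝔭P⟩ := Ideal.exists_le_maximal 𝔭 h𝔭.ne_top
      haveI := hP
      have hcP : algebraMap R0 Bt c ∈ P :=
        RegLocal3.algebraMap_mem_of_mem_maximalIdeal P ((mem_maximalIdeal c).mpr hc)
      have h1P : (1 : Bt) ∈ P := by
        have : (1 : Bt) = algebraMap R0 Bt c * y - (algebraMap R0 Bt c * y - 1) := by ring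
        rw [this]
        exact P.sub_mem (P.mul_mem_right _ hcP) (h𝔭P h2)
      exact hP.ne_top ((Ideal.eq_top_iff_one P).mpr h1P)

end ValRing

/-! ### The valuation ring `W` is a localisation of `B0` -/

section Denominator

variable {B0 : Type*} [CommRing B0] [IsDomain B0] {E : Type*} [Field E] [Algebra B0 E]
  [IsFractionRing B0 E] (W : ValuationSubring E) (x0 : Ideal B0) [hx0 : x0.IsPrime] (π : B0)
  (hBW : ∀ b : B0, algebraMap B0 E b ∈ W)
  (hdW : ∀ d : B0, d ∉ x0 → W.valuation (algebraMap B0 E d) = 1)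
  (hloc : ∀ b : B0, W.valuation (algebraMap B0 E b) < 1 → ∃ d, d ∉ x0 ∧ π ∣ d * b)
  (hπW : W.valuation (algebraMap B0 E π) < 1)

include hdW hloc hπW in
/-- `v(c) ≤ v(π) ^ n` ⇒ `π ^ n ∣ d c` for some `d ∉ x0`. -/
theorem exists_pow_dvd (hπ0 : algebraMap B0 E π ≠ 0) (n : ℕ) :
    ∀ c : B0, W.valuation (algebraMap B0 E c) ≤ W.valuation (algebraMap B0 E π) ^ n →
      ∃ d c' : B0, d ∉ x0 ∧ d * c = π ^ n * c' := by
  have hπpos : 0 < W.valuation (algebraMap B0 E π) :=
    zero_lt_iff.mpr ((Valuation.ne_zero_iff _).mpr hπ0)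
  induction n with
  | zero =>
    intro c _
    exact ⟨1, c, fun h => hx0.ne_top ((Ideal.eq_top_iff_one x0).mpr h), by ring⟩
  | succ n ih =>
    intro c hc
    have hc1 : W.valuation (algebraMap B0 E c) < 1 :=
      lt_of_le_of_lt hc (pow_lt_one₀ zero_le hπW (Nat.succ_ne_zero n))
    obtain ⟨d₁, hd₁, c₁, hc₁⟩ := hloc c hc1
    have hv : W.valuation (algebraMap B0 E c) =
        W.valuation (algebraMap B0 E π) * W.valuation (algebraMap B0 E c₁) := by
      have := congrArg (fun z : B0 => W.valuation (algebraMap B0 E z)) hc₁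
      simp only [map_mul, hdW d₁ hd₁, one_mul] at this
      exact this
    have hc₁v : W.valuation (algebraMap B0 E c₁) ≤ W.valuation (algebraMap B0 E π) ^ n := by
      rw [hv, pow_succ'] at hc
      exact le_of_mul_le_mul_left hc hπpos
    obtain ⟨d₂, c₂, hd₂, hc₂⟩ := ih c₁ hc₁v
    refine ⟨d₂ * d₁, c₂, fun h => (hx0.mem_or_mem h).elim hd₂ hd₁, ?_⟩
    rw [mul_assoc, hc₁, pow_succ]
    linear_combination π * hc₂

include hBW hdW hloc in
/-- a nonzero `b` is `π ^ n b'` up to `d ∉ x0`, with `v(b') = 1`. -/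
theorem exists_unit_part (hπ0 : algebraMap B0 E π ≠ 0) (k : ℕ) :
    ∀ b : B0, W.valuation (algebraMap B0 E π) ^ k ≤ W.valuation (algebraMap B0 E b) →
      ∃ (n : ℕ) (d b' : B0), d ∉ x0 ∧ d * b = π ^ n * b' ∧
        W.valuation (algebraMap B0 E b') = 1 := by
  have hπpos : 0 < W.valuation (algebraMap B0 E π) :=
    zero_lt_iff.mpr ((Valuation.ne_zero_iff _).mpr hπ0)
  have hone : (1 : B0) ∉ x0 := fun h => hx0.ne_top ((Ideal.eq_top_iff_one x0).mpr h)
  induction k with
  | zero =>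
    intro b hb
    rw [pow_zero] at hb
    exact ⟨0, 1, b, hone, by ring,
      le_antisymm ((W.valuation_le_one_iff _).mpr (hBW b)) hb⟩
  | succ k ih =>
    intro b hb
    by_cases hb1 : W.valuation (algebraMap B0 E b) < 1
    · obtain ⟨d₁, hd₁, b₁, hb₁⟩ := hloc b hb1
      have hv : W.valuation (algebraMap B0 E b) =
          W.valuation (algebraMap B0 E π) * W.valuation (algebraMap B0 E b₁) := by
        have := congrArg (fun z : B0 => W.valuation (algebraMap B0 E z)) hb₁
        simp only [map_mul, hdW d₁ hd₁, one_mul] at this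
        exact this
      have hb₁v : W.valuation (algebraMap B0 E π) ^ k ≤ W.valuation (algebraMap B0 E b₁) := by
        rw [hv, pow_succ'] at hb
        exact le_of_mul_le_mul_left hb hπpos
      obtain ⟨n, d₂, b', hd₂, hb', hb'v⟩ := ih b₁ hb₁v
      refine ⟨n + 1, d₂ * d₁, b', fun h => (hx0.mem_or_mem h).elim hd₂ hd₁, ?_, hb'v⟩
      rw [mul_assoc, hb₁, pow_succ]
      linear_combination π * hb'
    · exact ⟨0, 1, b, hone, by ring,
        le_antisymm ((W.valuation_le_one_iff _).mpr (hBW b)) (not_lt.mp hb1)⟩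

include hBW hdW hloc hπW in
/-- **`W` is the localisation of `B0` at its centre**: every `x ∈ W` is a fraction `a / b` with
`a b : B0`, `v(b) = 1` (`W` discrete with uniformiser `π`: `arch`). -/
theorem exists_unit_denominator (hπ0 : algebraMap B0 E π ≠ 0)
    (arch : ∀ x : E, ∃ k : ℕ, algebraMap B0 E π ^ k * x ∈ W) (x : E) (hx : x ∈ W) :
    ∃ a b : B0, W.valuation (algebraMap B0 E b) = 1 ∧
      x * algebraMap B0 E b = algebraMap B0 E a := by
  have hπpos : 0 < W.valuation (algebraMap B0 E π) :=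
    zero_lt_iff.mpr ((Valuation.ne_zero_iff _).mpr hπ0)
  obtain ⟨a₀, b₀, hb₀, rfl⟩ := IsFractionRing.div_surjective (A := B0) x
  have hb₀E : algebraMap B0 E b₀ ≠ 0 :=
    IsFractionRing.to_map_ne_zero_of_mem_nonZeroDivisors hb₀
  obtain ⟨k, hk⟩ := arch (algebraMap B0 E b₀)⁻¹
  have hk' : W.valuation (algebraMap B0 E π) ^ k ≤ W.valuation (algebraMap B0 E b₀) := by
    have h1 := (W.valuation_le_one_iff _).mpr hk
    rw [map_mul, map_pow, map_inv₀, ← div_eq_mul_inv,
      div_le_one₀ (zero_lt_iff.mpr ((Valuation.ne_zero_iff _).mpr hb₀E))] at h1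
    exact h1
  obtain ⟨n, d, b', hd, hdb, hb'v⟩ := exists_unit_part W x0 π hBW hdW hloc hπ0 k b₀ hk'
  -- `d a₀ = x π ^ n b'`
  have hdbE : algebraMap B0 E d * algebraMap B0 E b₀ =
      algebraMap B0 E π ^ n * algebraMap B0 E b' := by
    rw [← map_mul, hdb, map_mul, map_pow]
  have hda : algebraMap B0 E (d * a₀) =
      algebraMap B0 E a₀ / algebraMap B0 E b₀ * (algebraMap B0 E π ^ n * algebraMap B0 E b') := by
    rw [← hdbE, map_mul]
    field_simp
  have hdav : W.valuation (algebraMap B0 E (d * a₀)) ≤ W.valuation (algebraMap B0 E π) ^ n := by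
    rw [hda, map_mul, map_mul, map_pow, hb'v, mul_one]
    exact mul_le_of_le_one_left' ((W.valuation_le_one_iff _).mpr hx)
  obtain ⟨d₂, c', hd₂, hc'⟩ := exists_pow_dvd W x0 π hdW hloc hπW hπ0 n (d * a₀) hdav
  refine ⟨c', b' * d₂, by rw [map_mul, map_mul, hb'v, hdW d₂ hd₂, one_mul], ?_⟩
  have hπn : algebraMap B0 E π ^ n ≠ 0 := pow_ne_zero n hπ0
  have h1 : algebraMap B0 E d₂ * algebraMap B0 E (d * a₀) =
      algebraMap B0 E π ^ n * algebraMap B0 E c' := by
    rw [← map_mul, hc', map_mul, map_pow]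
  apply mul_left_cancel₀ hπn
  rw [← h1, hda, map_mul]
  ring

end Denominator


/-! ### Residue degree one at `(RP x0, SP B1 x0)` -/

section ResOne

variable {B0 B1 : Type*} [CommRing B0] [IsDomain B0] [CommRing B1] [IsDomain B1] [Algebra B0 B1]
  [FaithfulSMul B0 B1] [Module.Finite B0 B1] (F : Type*) [Field F] [Algebra B1 F]
  [IsFractionRing B1 F] (x0 : Ideal B0) [x0.IsPrime]
  {E : Type*} [Field E] [Algebra B0 E] (φ : E →+* F)
  (hφ : ∀ a : B0, φ (algebraMap B0 E a) = algebraMap B1 F (algebraMap B0 B1 a))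
  (W : ValuationSubring E) (V : ValuationSubring F) (hVW : V.comap φ = W)
  (hBV : ∀ s : B1, algebraMap B1 F s ∈ V)
  (hunit : ∀ d : B0, d ∉ x0 → (algebraMap B1 F (algebraMap B0 B1 d))⁻¹ ∈ V)

omit [Module.Finite B0 B1] in
/-- divisibility by the image of `π` in `R0 = (B0)_{x0}`, in element form. -/
theorem algebraMap_dvd_iff' (π a : B0) :
    algebraMap B0 (RP x0) π ∣ algebraMap B0 (RP x0) a ↔ ∃ d, d ∉ x0 ∧ π ∣ d * a := by
  constructor
  · rintro ⟨z, hz⟩
    obtain ⟨c, u, rfl⟩ := IsLocalization.exists_mk'_eq x0.primeCompl z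
    have h1 : algebraMap B0 (RP x0) (a * u) = algebraMap B0 (RP x0) (π * c) := by
      rw [map_mul, map_mul, hz, mul_assoc, IsLocalization.mk'_spec]
    have hinj : Function.Injective (algebraMap B0 (RP x0)) :=
      IsLocalization.injective (RP x0) x0.primeCompl_le_nonZeroDivisors
    exact ⟨u, u.2, ⟨c, by rw [mul_comm, hinj h1]⟩⟩
  · rintro ⟨d, hd, c, hc⟩
    have hu : IsUnit (algebraMap B0 (RP x0) d) :=
      IsLocalization.map_units (RP x0) (⟨d, hd⟩ : x0.primeCompl)
    have h1 : algebraMap B0 (RP x0) π ∣ algebraMap B0 (RP x0) d * algebraMap B0 (RP x0) a :=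
      ⟨algebraMap B0 (RP x0) c, by rw [← map_mul, ← map_mul, hc]⟩
    exact (hu.dvd_mul_left).mp h1

omit [Module.Finite B0 B1] in
/-- the centre is a prime ideal. -/
theorem centreSP_isPrime : (centreSP F x0 V hBV hunit).IsPrime := by
  letI := algebraSPF B1 x0 F
  refine ⟨?_, ?_⟩
  · intro htop
    have h1 : (1 : SP B1 x0) ∈ centreSP F x0 V hBV hunit := by rw [htop]; exact Submodule.mem_top
    rw [mem_centreSP, map_one, map_one] at h1
    exact lt_irrefl _ h1
  · intro a b hab
    rw [mem_centreSP, map_mul, map_mul] at hab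
    rw [mem_centreSP, mem_centreSP]
    by_contra hcon
    rw [not_or, not_lt, not_lt] at hcon
    have ha : V.valuation (algebraMap (SP B1 x0) F a) = 1 :=
      le_antisymm ((V.valuation_le_one_iff _).mpr (algebraMap_SP_mem F x0 V hBV hunit a)) hcon.1
    have hb : V.valuation (algebraMap (SP B1 x0) F b) = 1 :=
      le_antisymm ((V.valuation_le_one_iff _).mpr (algebraMap_SP_mem F x0 V hBV hunit b)) hcon.2
    rw [ha, hb, one_mul] at hab
    exact lt_irrefl _ hab

omit [Module.Finite B0 B1] in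
/-- the image in `F` of an element of `B0`, through `R0` and `Bt`. -/
theorem algebraMap_base_SP (a : B0) :
    letI := algebraSPF B1 x0 F
    algebraMap (SP B1 x0) F (algebraMap (RP x0) (SP B1 x0) (algebraMap B0 (RP x0) a)) =
      algebraMap B1 F (algebraMap B0 B1 a) := by
  letI := algebraSPF B1 x0 F
  haveI := isScalarTower_SPF B1 x0 F
  rw [ChartLocal3.algebraMap_comm, ← IsScalarTower.algebraMap_apply B1 (SP B1 x0) F]

include hφ hVW hBV hunit in
omit [Module.Finite B0 B1] in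
/-- elements of `B0 ∖ x0` are units of `W`. -/
theorem val_base_eq_one_W {d : B0} (hd : d ∉ x0) : W.valuation (algebraMap B0 E d) = 1 := by
  have h1 := val_base_eq_one F x0 V hBV hunit hd
  rw [← hφ] at h1
  refine le_antisymm ?_ ?_
  · rw [ValuationSubring.valuation_le_one_iff, ← hVW, ValuationSubring.mem_comap,
      ← ValuationSubring.valuation_le_one_iff, h1]
  · by_contra hcon
    rw [not_le] at hcon
    have := GenAbs20.val_map_lt_one hVW hcon
    rw [h1] at this
    exact lt_irrefl _ this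

include hφ hVW in
/-- **`R0 → Bt ⧸ centre(V)` is onto** when `V` has residue degree one over `W = V ∩ E`, `W` is the
localisation of `B0` at its centre (`hloc`, `hfracW`) and `R0 ⧸ (π)` is a valuation ring (`hval`). -/
theorem hsurj_of_residue_one (π : B0)
    (hloc : ∀ b : B0, W.valuation (algebraMap B0 E b) < 1 → ∃ d, d ∉ x0 ∧ π ∣ d * b)
    (hπW : W.valuation (algebraMap B0 E π) < 1)
    (hfracW : ∀ x ∈ W, ∃ a b : B0, W.valuation (algebraMap B0 E b) = 1 ∧
      x * algebraMap B0 E b = algebraMap B0 E a)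
    (hval : ∀ a b : RP x0, ∃ c e : RP x0, a = b * c + algebraMap B0 (RP x0) π * e ∨
      b = a * c + algebraMap B0 (RP x0) π * e)
    (res : ∀ h ∈ V, ∃ x ∈ W, V.valuation (h - φ x) < 1) (y : SP B1 x0) :
    ∃ r : RP x0, y - algebraMap (RP x0) (SP B1 x0) r ∈ centreSP F x0 V hBV hunit := by
  letI := algebraSPF B1 x0 F
  haveI := isScalarTower_SPF B1 x0 F
  haveI : Algebra.IsIntegral (RP x0) (SP B1 x0) := Algebra.IsIntegral.of_finite _ _
  haveI := centreSP_isPrime F x0 V hBV hunit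
  have hπV : V.valuation (algebraMap B1 F (algebraMap B0 B1 π)) < 1 := by
    rw [← hφ]; exact GenAbs20.val_map_lt_one hVW hπW
  refine exists_sub_mem_of_valuationRing (centreSP F x0 V hBV hunit) (algebraMap B0 (RP x0) π)
    ?_ hval ?_ y
  · -- `𝔭 ∩ R0 = (π)`
    intro r
    obtain ⟨a, d, rfl⟩ := IsLocalization.exists_mk'_eq x0.primeCompl r
    have hd : IsUnit (algebraMap B0 (RP x0) (d : B0)) := IsLocalization.map_units (RP x0) d
    have hspec : IsLocalization.mk' (RP x0) a d * algebraMap B0 (RP x0) (d : B0) =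
        algebraMap B0 (RP x0) a := IsLocalization.mk'_spec _ _ _
    constructor
    · intro hmem
      rw [mem_centreSP] at hmem
      have h1 := val_sub_algebraMap_mk' F x0 V hBV hunit 0 a d
      rw [zero_sub, map_neg, Valuation.map_neg, map_zero, mul_zero, zero_sub, Valuation.map_neg]
        at h1
      rw [h1, ← hφ] at hmem
      have h2 : W.valuation (algebraMap B0 E a) < 1 := GenAbs20.val_lt_one_of_map hVW hmem
      have h3 : algebraMap B0 (RP x0) π ∣ algebraMap B0 (RP x0) a :=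
        (algebraMap_dvd_iff' x0 π a).mpr (hloc a h2)
      rw [← hspec] at h3
      exact (hd.dvd_mul_right).mp h3
    · rintro ⟨s, hs⟩
      rw [hs, map_mul]
      refine Ideal.mul_mem_right _ _ ?_
      rw [mem_centreSP, algebraMap_base_SP]
      exact hπV
  · -- fractions
    intro y
    have hyV := algebraMap_SP_mem F x0 V hBV hunit y
    obtain ⟨x, hxW, hx⟩ := res _ hyV
    obtain ⟨a₀, b₀, hb₀, hab⟩ := hfracW x hxW
    refine ⟨algebraMap B0 (RP x0) a₀, algebraMap B0 (RP x0) b₀, ?_, ?_⟩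
    · intro hdvd
      obtain ⟨d, hd, c, hc⟩ := (algebraMap_dvd_iff' x0 π b₀).mp hdvd
      have h1 := congrArg (fun z : B0 => W.valuation (algebraMap B0 E z)) hc
      simp only [map_mul, val_base_eq_one_W F x0 φ hφ W V hVW hBV hunit hd, hb₀, one_mul] at h1
      have h2 : W.valuation (algebraMap B0 E π) * W.valuation (algebraMap B0 E c) < 1 := by
        have hcW : W.valuation (algebraMap B0 E c) ≤ 1 := by
          rw [ValuationSubring.valuation_le_one_iff, ← hVW, ValuationSubring.mem_comap, hφ]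
          exact hBV _
        exact (mul_le_of_le_one_right' hcW).trans_lt hπW
      rw [← h1] at h2
      exact lt_irrefl _ h2
    · rw [mem_centreSP, map_sub, map_mul, algebraMap_base_SP, algebraMap_base_SP, ← hφ, ← hφ,
        ← hab, map_mul]
      have : φ (algebraMap B0 E b₀) * algebraMap (SP B1 x0) F y - φ x * φ (algebraMap B0 E b₀) =
          φ (algebraMap B0 E b₀) * (algebraMap (SP B1 x0) F y - φ x) := by ring
      rw [this, map_mul]
      have hb₀V : V.valuation (φ (algebraMap B0 E b₀)) ≤ 1 := by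
        rw [hφ]; exact (V.valuation_le_one_iff _).mpr (hBV _)
      exact (mul_le_of_le_one_left' hb₀V).trans_lt hx

end ResOne

end Fermat.Agent.ES.P36.SemiPtsAbs9
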