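/-
Program P (S36), chapter REG, brick R7 (type II points), (D2.1) at `(R0, Bt)` — CHART layer (helper9):
**the points block `𝔭₁ 𝔭₂ h12 hsurj₁ hsurj₂ 𝔫₀ h𝔫₀ hj₀` and the residue surjectivity `hS2` of
`TypeTwoChart20.oneBranch_chart` / `TypeTwoAsm1.oneBranch_of_discr`.**

Vocabulary of `RegChart21` / `RegSemiChart20`: `BM : Subalgebra R FM` the level-`M′q` chart (vertical
valuation rings `W1 W2`), `B : Subalgebra R F` the level-`M′q²` chart (vertical valuation rings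
`V1 V2 V3`, `V2` the non-reduced middle component), `φ = α₂ : FM →+* F` with `φ (BM) ⊆ B`,
`V1 ∩ FM = V2 ∩ FM = W1`, `V3 ∩ FM = W2`; `x1` a prime of `BM` on `W1` and off `W2` (a one-branch
point), `R0 := RP x1`, `Bt := SP ↥B x1` under `letI := chartAlgebra φ BM B hφB`.

* `helem_chart` : `e · a · b ^ (q - 1) ∈ π B` for `a ∈ B ∩ 𝔪_{V1}`, `b ∈ B ∩ 𝔪_{V2}`, `e ∉ x1` the
  off-branch witness of `W2` (saturation of `B` in `V1 ∩ V2 ∩ V3`);
* `semiPts_chart` : the two vertical primes `𝔭₁ 𝔭₂` of `Bt` (centres of `V1`, `V2`), every maximal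
  ideal of `Bt` contains one of them, `R0 → Bt ⧸ 𝔭_i` is onto (residue degree one `res1 res2`,
  `R0 ⧸ π` a discrete valuation ring by smoothness of `BM` at `x1`), the maximal ideal `𝔫₀ = 𝔪 Bt` over
  a prime `𝔪` of `B` with contraction `x1`, and `hS2` for every `b : B`.
-/
import Mathlib
import Fermat.Agent.ES.N34.NodalCL13
import Fermat.Agent.ES.P36.RegSemiChart20
import Fermat.Agent.ES.P36.SemiPtsAbs9

set_option autoImplicit false
set_option linter.style.haveILetI false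
set_option linter.unusedSectionVars false

namespace Fermat.Agent.ES.P36.SemiPtsChart9

open IsLocalRing Fermat.Agent.RED.PUR.LocalFree26 Fermat.Agent.ES.N34.NodalCore13
  Fermat.Agent.ES.N34.NodalCL13 Fermat.Agent.ES.P36.RegChart21 Fermat.Agent.ES.P36.RegSemi20
  Fermat.Agent.ES.P36.RegSemiChart20 Fermat.Agent.ES.P36.SemiPtsAbs9

variable {R FM F : Type*} [CommRing R] [Field FM] [Field F] [Algebra R FM] [Algebra R F]

variable (π : R) (φ : FM →+* F) (BM : Subalgebra R FM) (B : Subalgebra R F)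
  (hφB : ∀ b : BM, φ (b : FM) ∈ B)

/-- **`e a b ^ (q - 1) ∈ π B`**: `a ∈ B ∩ 𝔪_{V1}` (`V1` reduced), `b ∈ B ∩ 𝔪_{V2}`
(`|π| = |T| ^ (q - 1)` on `V2`), `e ∈ BM ∩ π W2` (the component `V3` over `W2`). -/
theorem helem_chart (q : ℕ)
    (hφR : ∀ r : R, φ (algebraMap R FM r) = algebraMap R F r)
    (W2 : ValuationSubring FM) (pi_ne : algebraMap R FM π ≠ 0)
    (V1 V2 V3 : ValuationSubring F)
    (leV1 : ∀ x ∈ B, x ∈ V1) (leV2 : ∀ x ∈ B, x ∈ V2) (leV3 : ∀ x ∈ B, x ∈ V3)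
    (satB : ∀ b ∈ B, ∀ c : F, c ∈ V1 → c ∈ V2 → c ∈ V3 → b = algebraMap R F π * c → c ∈ B)
    (c3 : V3.comap φ = W2)
    (unifV1 : ∀ x : F, V1.valuation x < 1 → V1.valuation x ≤ V1.valuation (algebraMap R F π))
    (T : F) (valπ : V2.valuation (algebraMap R F π) = V2.valuation T ^ (q - 1))
    (unifT : ∀ x : F, V2.valuation x < 1 → V2.valuation x ≤ V2.valuation T)
    (e : BM) (c : FM) (hc : c ∈ W2) (hec : (e : FM) = algebraMap R FM π * c)
    (a b : B) (ha : V1.valuation (a : F) < 1) (hb : V2.valuation (b : F) < 1) :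
    ∃ z : B, (⟨φ (e : FM), hφB e⟩ : B) * (a * b ^ (q - 1)) = algebraMap R B π * z := by
  have hπF : algebraMap R F π ≠ 0 := by
    rw [← hφR]
    exact (map_ne_zero φ).mpr pi_ne
  have hφe : φ (e : FM) = algebraMap R F π * φ c := by rw [hec, map_mul, hφR]
  have hφc3 : φ c ∈ V3 := by
    rw [← c3] at hc
    exact hc
  have hφe1 : φ (e : FM) ∈ V1 := leV1 _ (hφB e)
  have hφe2 : φ (e : FM) ∈ V2 := leV2 _ (hφB e)
  -- the quotient
  set z : F := φ c * ((a : F) * (b : F) ^ (q - 1)) with hz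
  have hzπ : φ (e : FM) * ((a : F) * (b : F) ^ (q - 1)) = algebraMap R F π * z := by
    rw [hz, hφe]; ring
  have hz3 : z ∈ V3 :=
    V3.mul_mem _ _ hφc3 (V3.mul_mem _ _ (leV3 _ a.2) (pow_mem (leV3 _ b.2) _))
  have hz1 : z ∈ V1 := by
    have h1 : (a : F) / algebraMap R F π ∈ V1 := by
      rw [← ValuationSubring.valuation_le_one_iff, map_div₀,
        div_le_one₀ (zero_lt_iff.mpr ((Valuation.ne_zero_iff _).mpr hπF))]
      exact unifV1 _ ha
    have h2 : z = (a : F) / algebraMap R F π * (φ (e : FM) * (b : F) ^ (q - 1)) := by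
      rw [hz, hφe]; field_simp
    rw [h2]
    exact V1.mul_mem _ _ h1 (V1.mul_mem _ _ hφe1 (pow_mem (leV1 _ b.2) _))
  have hz2 : z ∈ V2 := by
    have h1 : (b : F) ^ (q - 1) / algebraMap R F π ∈ V2 := by
      rw [← ValuationSubring.valuation_le_one_iff, map_div₀,
        div_le_one₀ (zero_lt_iff.mpr ((Valuation.ne_zero_iff _).mpr hπF)), map_pow, valπ]
      exact pow_le_pow_left₀ zero_le (unifT _ hb) _
    have h2 : z = (b : F) ^ (q - 1) / algebraMap R F π * (φ (e : FM) * (a : F)) := by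
      rw [hz, hφe]; field_simp
    rw [h2]
    exact V2.mul_mem _ _ h1 (V2.mul_mem _ _ hφe2 (leV2 _ a.2))
  have hzB : z ∈ B :=
    satB _ (B.mul_mem (hφB e) (B.mul_mem a.2 (pow_mem b.2 _))) z hz1 hz2 hz3 hzπ
  exact ⟨⟨z, hzB⟩, Subtype.ext hzπ⟩

/-- **The points of `Bt = SP ↥B x1` over a one-branch point `x1` of `BM`, and `hS2`.** -/
theorem semiPts_chart (q : ℕ)
    (hφR : ∀ r : R, φ (algebraMap R FM r) = algebraMap R F r)
    (noethBM : IsNoetherianRing BM)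
    (fracBM : ∀ x : FM, ∃ a ∈ BM, ∃ b ∈ BM, b ≠ 0 ∧ x * b = a)
    (fracB : ∀ x : F, ∃ a ∈ B, ∃ b ∈ B, b ≠ 0 ∧ x * b = a)
    (hfin : ∃ (r : ℕ) (e : Fin r → F), (∀ i, e i ∈ B) ∧
      ∀ x ∈ B, ∃ c : Fin r → BM, x = ∑ i, φ (c i : FM) * e i)
    (W1 W2 : ValuationSubring FM) (leW1 : ∀ x ∈ BM, x ∈ W1) (leW2 : ∀ x ∈ BM, x ∈ W2)
    (pi_ne : algebraMap R FM π ≠ 0)
    (hπ1 : W1.valuation (algebraMap R FM π) < 1)
    (hunif : ∀ x : FM, W1.valuation x < 1 → W1.valuation x ≤ W1.valuation (algebraMap R FM π))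
    (arch1 : ∀ x : FM, ∃ k : ℕ, algebraMap R FM π ^ k * x ∈ W1)
    (sat : ∀ b ∈ BM, ∀ c : FM, c ∈ W1 → c ∈ W2 → b = algebraMap R FM π * c → c ∈ BM)
    (x1 : Ideal BM) [hx1p : x1.IsPrime]
    (hon1 : ∀ b : BM, (∃ c ∈ W1, (b : FM) = algebraMap R FM π * c) → b ∈ x1)
    (hoff2 : OffBranch π BM W2 x1)
    (hsm : SmoothAt π BM x1)
    (V1 V2 V3 : ValuationSubring F)
    (leV1 : ∀ x ∈ B, x ∈ V1) (leV2 : ∀ x ∈ B, x ∈ V2) (leV3 : ∀ x ∈ B, x ∈ V3)
    (satB : ∀ b ∈ B, ∀ c : F, c ∈ V1 → c ∈ V2 → c ∈ V3 → b = algebraMap R F π * c → c ∈ B)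
    (c1 : V1.comap φ = W1) (c2 : V2.comap φ = W1) (c3 : V3.comap φ = W2)
    (unifV1 : ∀ x : F, V1.valuation x < 1 → V1.valuation x ≤ V1.valuation (algebraMap R F π))
    (T : F) (valπ : V2.valuation (algebraMap R F π) = V2.valuation T ^ (q - 1))
    (unifT : ∀ x : F, V2.valuation x < 1 → V2.valuation x ≤ V2.valuation T)
    (res1 : ∀ h ∈ V1, ∃ x ∈ W1, V1.valuation (h - φ x) < 1)
    (res2 : ∀ h ∈ V2, ∃ x ∈ W1, V2.valuation (h - φ x) < 1)
    (𝔪 : Ideal B) [h𝔪 : 𝔪.IsPrime]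
    (hx1 : ∀ a : BM, a ∈ x1 ↔ (⟨φ (a : FM), hφB a⟩ : B) ∈ 𝔪) :
    letI := chartAlgebra φ BM B hφB
    (∃ 𝔭₁ 𝔭₂ : Ideal (SP ↥B x1),
      (∀ P : Ideal (SP ↥B x1), P.IsMaximal → 𝔭₁ ≤ P ∨ 𝔭₂ ≤ P) ∧
      (∀ x : SP ↥B x1, ∃ r : RP x1, x - algebraMap (RP x1) (SP ↥B x1) r ∈ 𝔭₁) ∧
      (∀ x : SP ↥B x1, ∃ r : RP x1, x - algebraMap (RP x1) (SP ↥B x1) r ∈ 𝔭₂) ∧
      ∃ 𝔫₀ : Ideal (SP ↥B x1), 𝔫₀.IsMaximal ∧ 𝔫₀.comap (algebraMap ↥B (SP ↥B x1)) = 𝔪) ∧
    ∀ b : B, ∃ a d : BM, d ∉ x1 ∧ V2.valuation (φ (d : FM) * (b : F) - φ (a : FM)) < 1 := by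
  classical
  letI := chartAlgebra φ BM B hφB
  haveI := noethBM
  haveI := finite_of_generators φ BM B hφB hfin
  haveI := faithfulSMul_chart φ BM B hφB
  haveI := isFractionRing_of B fracB
  haveI := isFractionRing_of BM fracBM
  haveI : IsNoetherianRing (RP x1) :=
    IsLocalization.isNoetherianRing x1.primeCompl (RP x1) inferInstance
  -- the vertical prime of `BM`
  have hmemW : ∀ x : FM, (∃ c ∈ W1, x = algebraMap R FM π * c) ↔ W1.valuation x < 1 :=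
    mem_pi_iff π W1 pi_ne hπ1 hunif
  haveI hvp : (vert BM π W1 leW1).IsPrime := vert_isPrime π BM W1 leW1 pi_ne hπ1 hunif
  have hvx : vert BM π W1 leW1 ≤ x1 := fun b hb => hon1 b ((mem_vert BM).mp hb)
  have hπv : algebraMap R ↥BM π ∈ vert BM π W1 leW1 :=
    (mem_vert BM).mpr ⟨1, W1.one_mem, by rw [mul_one]; rfl⟩
  have hπx : algebraMap R ↥BM π ∈ x1 := hvx hπv
  have hlocv := vert_local_principal π BM W1 leW1 W2 leW2 sat x1 hoff2
  have hloc : ∀ b : ↥BM, W1.valuation (algebraMap ↥BM FM b) < 1 →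
      ∃ d, d ∉ x1 ∧ algebraMap R ↥BM π ∣ d * b := fun b hb =>
    hlocv b ((mem_vert BM).mpr ((hmemW _).mpr hb))
  have hπ0 : algebraMap R ↥BM π ≠ 0 := by
    intro h0
    apply pi_ne
    have := congrArg (fun z : ↥BM => (z : FM)) h0
    simpa using this
  have hπloc : Prime (algebraMap ↥BM (RP x1) (algebraMap R ↥BM π)) :=
    prime_pi_of_local_principal x1 (vert BM π W1 leW1) hvx _ hπ0 hπv hlocv
  obtain ⟨T₀, hTx, hsm0⟩ := id hsm
  have hmax : maximalIdeal (RP x1) =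
      Ideal.span {algebraMap ↥BM (RP x1) (algebraMap R ↥BM π), algebraMap ↥BM (RP x1) T₀} :=
    RegLocal3.maximalIdeal_atPrime_eq_span_pair x1 _ T₀ hπx hTx hsm0
  have hval := hval_of_span_pair _ _ hπloc hmax
  -- `W1` is the localisation of `BM` at the vertical prime
  have hdW : ∀ d : ↥BM, d ∉ x1 → W1.valuation (algebraMap ↥BM FM d) = 1 := by
    intro d hd
    refine le_antisymm ((W1.valuation_le_one_iff _).mpr (leW1 _ d.2)) ?_
    by_contra hcon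
    rw [not_le] at hcon
    exact hd (hon1 d ((hmemW _).mpr hcon))
  have hfracW : ∀ x ∈ W1, ∃ a b : ↥BM, W1.valuation (algebraMap ↥BM FM b) = 1 ∧
      x * algebraMap ↥BM FM b = algebraMap ↥BM FM a :=
    exists_unit_denominator W1 x1 (algebraMap R ↥BM π) (fun b => leW1 _ b.2) hdW hloc hπ1 pi_ne
      arch1
  -- the two valuation rings over `W1`
  have hφ : ∀ a : ↥BM, φ (algebraMap ↥BM FM a) = algebraMap ↥B F (algebraMap ↥BM ↥B a) :=
    fun _ => rfl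
  have hBV1 : ∀ s : ↥B, algebraMap ↥B F s ∈ V1 := fun s => leV1 _ s.2
  have hBV2 : ∀ s : ↥B, algebraMap ↥B F s ∈ V2 := fun s => leV2 _ s.2
  have hunit1 : ∀ d : ↥BM, d ∉ x1 → (algebraMap ↥B F (algebraMap ↥BM ↥B d))⁻¹ ∈ V1 := by
    intro d hd
    have h1 : V1.valuation (φ (d : FM)) = 1 := GenAbs20.val_map_eq_one c1 (hdW d hd)
    rw [← ValuationSubring.valuation_le_one_iff, map_inv₀]
    show (V1.valuation (φ (d : FM)))⁻¹ ≤ 1
    rw [h1, inv_one]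
  have hunit2 : ∀ d : ↥BM, d ∉ x1 → (algebraMap ↥B F (algebraMap ↥BM ↥B d))⁻¹ ∈ V2 := by
    intro d hd
    have h1 : V2.valuation (φ (d : FM)) = 1 := GenAbs20.val_map_eq_one c2 (hdW d hd)
    rw [← ValuationSubring.valuation_le_one_iff, map_inv₀]
    show (V2.valuation (φ (d : FM)))⁻¹ ≤ 1
    rw [h1, inv_one]
  have hs1 := hsurj_of_residue_one F x1 φ hφ W1 V1 c1 hBV1 hunit1 (algebraMap R ↥BM π) hloc hπ1
    hfracW hval res1
  have hs2 := hsurj_of_residue_one F x1 φ hφ W1 V2 c2 hBV2 hunit2 (algebraMap R ↥BM π) hloc hπ1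
    hfracW hval res2
  refine ⟨⟨centreSP F x1 V1 hBV1 hunit1, centreSP F x1 V2 hBV2 hunit2, ?_, hs1, hs2, ?_⟩, ?_⟩
  · -- every maximal ideal contains one of the two centres
    obtain ⟨e, he, c, hc, hec⟩ := hoff2
    refine le_or_le_centreSP F x1 V1 V2 hBV1 hunit1 hBV2 hunit2 (algebraMap R ↥BM π) hπx (q - 1) ?_
    intro a b ha hb
    obtain ⟨z, hz⟩ := helem_chart π φ BM B hφB q hφR W2 pi_ne V1 V2 V3 leV1 leV2 leV3 satB c3 unifV1
      T valπ unifT e c hc hec a b ha hb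
    refine ⟨e, he, z, ?_⟩
    rw [algebraMap_chart_algebraMap φ BM B hφB hφR]
    exact hz
  · -- the point over `𝔪`
    have hcomap : 𝔪.comap (algebraMap ↥BM ↥B) = x1 := by
      ext a
      rw [Ideal.mem_comap]
      exact (hx1 a).symm
    obtain ⟨hmaxn, hcn⟩ := map_isMaximal_and_comap x1 𝔪 hcomap
    exact ⟨_, hmaxn, hcn⟩
  · intro b
    exact chart_of_hsurj F x1 V2 hBV2 hunit2 hs2 b

end Fermat.Agent.ES.P36.SemiPtsChart9
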