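/-
Program P (S36), chapter REG, brick R7-asm (helper1): **the ABSTRACT assembly of a point of type II
(a closed point through which only the non-reduced middle component `C₂` passes) into
`NumAbsP13.OneBranch`** (`i` = the middle component, `e = q - 1`).  Generic in `(R, F, π, B, O)` like
`NumAbsP13`; commutative algebra only.

Setting (`S36_REG2.md` (D2), `S36_SS27.md` §1 type II): `B ⊂ F` a chart of level `M' q²`, `𝔪 ∋ π` a
maximal ideal through which only the component `O i` passes (`hoff`), `T` a uniformiser of `O i` with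
`|π| = |T| ^ (q - 1)` (`MidVal23.midUnif`), `C := B_𝔪 = locSub B 𝔪`.

* `ufd_of_quotient_dvr` : a noetherian local domain `C` with `C ⧸ (s)` a domain and a principal ideal
  ring is a UFD (`LocalUFD15.ufd`; `s = 0` allowed).
* `isLocalization_atPrime_of_le` : `C = B_𝔪` is also the localisation of `Bt = M⁻¹ B` (`M ∩ 𝔪 = ∅`) at
  any prime `𝔫` of `Bt` with contraction `𝔪`.
* `ufd_locSub_of_discr` : **regularity from the discriminant**: the literal hypotheses of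
  `DiscLift5.localization_quotient_dvr` for `(R0, Bt, 𝔫, j₀)` with `Bt = M⁻¹ B`, `𝔫 j₀ ∩ B = 𝔪` give
  `UniqueFactorizationMonoid ↥(locSub B 𝔪)`.
* `MidPt` : the chart data at the point; `MidPt.exists_prime` : in the UFD `C` the vertical prime
  `C ∩ 𝔪_{O i}` is `(p)`, `|p| = |T|` and `π = w p ^ (q - 1)` with `w ∈ Cˣ`.
* **`oneBranch_of_ufd`** : the literal `OneBranch q π B O 𝔪` from `UFD C`, `MidPt`, the smoothness of
  the level-`M' q` chart `B'` at the contraction `x1` of `𝔪` along `φ` and the residue surjectivity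
  `(S₂)`: every `b ∈ 𝔪` is congruent modulo `𝔪_{O i}` to a fraction of `φ B'` with denominator outside
  `x1`.
* **`oneBranch_of_discr`** : the same with `UFD C` replaced by the discriminant data.
-/
import Mathlib
import Fermat.Agent.RED.CORE.LocalUFD15
import Fermat.Agent.ES.P36.NumAbsP13
import Fermat.Agent.ES.P36.RegI16
import Fermat.Agent.ES.P36.DiscLift5

set_option autoImplicit false
set_option linter.style.haveILetI false

namespace Fermat.Agent.ES.P36.TypeTwoAsm1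

open Fermat.Agent.RED.CORE Fermat.Agent.ES.N34.NodalCore13 Fermat.Agent.ES.N34.NodalSmooth13
  Fermat.Agent.ES.N34.NodalCL13 Fermat.Agent.ES.P36.MultiCore13 Fermat.Agent.ES.P36.NumAbsP13
  IsLocalRing

/-! ### Regularity ⇒ UFD -/

section UFD

variable {C : Type*} [CommRing C] [IsDomain C] [IsNoetherianRing C] [IsLocalRing C]

/-- A noetherian local domain `C` such that `C ⧸ (s)` is a domain and a principal ideal ring (e.g. a
discrete valuation ring) is a UFD. -/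
theorem ufd_of_quotient_dvr (s : C) (hdom : IsDomain (C ⧸ Ideal.span {s}))
    (hpid : IsPrincipalIdealRing (C ⧸ Ideal.span {s})) : UniqueFactorizationMonoid C := by
  by_cases hs0 : s = 0
  · have hbot : Ideal.span {s} = ⊥ := by rw [hs0]; exact Ideal.span_singleton_eq_bot.mpr rfl
    let e : C ⧸ Ideal.span {s} ≃+* C :=
      (Ideal.quotEquivOfEq hbot).trans (RingEquiv.quotientBot C)
    have : IsPrincipalIdealRing C :=
      IsPrincipalIdealRing.of_surjective e.toRingHom e.surjective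
    infer_instance
  · have hprime : Prime s :=
      (Ideal.span_singleton_prime hs0).mp ((Ideal.Quotient.isDomain_iff_prime _).mp hdom)
    exact LocalUFD15.ufd s hprime

end UFD

/-! ### The localisation bridge -/

section Bridge

/-- If `Bt = M⁻¹ B` with `M ∩ 𝔪 = ∅` and `C = B_𝔪`, then `C` is the localisation of `Bt` at every
prime `𝔫` of `Bt` with contraction `𝔪`. -/
theorem isLocalization_atPrime_of_le {B : Type*} [CommRing B] (M : Submonoid B)
    (Bt : Type*) [CommRing Bt] [Algebra B Bt] [IsLocalization M Bt]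
    (𝔪 : Ideal B) [𝔪.IsPrime] (hM : M ≤ 𝔪.primeCompl)
    (C : Type*) [CommRing C] [Algebra B C] [IsLocalization.AtPrime C 𝔪]
    [Algebra Bt C] [IsScalarTower B Bt C]
    (𝔫 : Ideal Bt) [h𝔫p : 𝔫.IsPrime] (h𝔫 : 𝔫.comap (algebraMap B Bt) = 𝔪) :
    IsLocalization.AtPrime C 𝔫 := by
  have h1 : IsLocalization (𝔪.primeCompl.map (algebraMap B Bt)) C :=
    IsLocalization.isLocalization_of_submonoid_le Bt C M 𝔪.primeCompl hM
  have hmem : ∀ b : B, algebraMap B Bt b ∈ 𝔫 ↔ b ∈ 𝔪 := fun b => by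
    rw [← h𝔫, Ideal.mem_comap]
  refine IsLocalization.isLocalization_of_is_exists_mul_mem C
    (𝔪.primeCompl.map (algebraMap B Bt)) 𝔫.primeCompl ?_ ?_
  · rintro _ ⟨b, hb, rfl⟩
    exact fun h => hb ((hmem b).mp h)
  · rintro ⟨x, hx⟩
    obtain ⟨⟨b, m⟩, hbm⟩ := IsLocalization.surj M x
    simp only at hbm
    refine ⟨algebraMap B Bt m, b, ?_, ?_⟩
    · intro hb
      have h2 : x * algebraMap B Bt m ∈ 𝔫 := by rw [hbm]; exact (hmem b).mpr hb
      rcases h𝔫p.mem_or_mem h2 with h3 | h3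
      · exact hx h3
      · exact hM m.2 ((hmem _).mp h3)
    · rw [← hbm]; ring

end Bridge

/-! ### (D2.1): at most two points over a non-crossing point -/

section TwoPoints

variable {R0 : Type*} [CommRing R0] [IsLocalRing R0]
  {Bt : Type*} [CommRing Bt] [Algebra R0 Bt] [Module.Finite R0 Bt]

/-- If `R0 → Bt ⧸ 𝔭` is onto (`R0` local, `Bt` finite over `R0`), at most one maximal ideal of `Bt`
contains `𝔭`. -/
theorem maximal_eq_of_le (𝔭 : Ideal Bt)
    (hsurj : ∀ x : Bt, ∃ r : R0, x - algebraMap R0 Bt r ∈ 𝔭)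
    {P P' : Ideal Bt} (hP : P.IsMaximal) (hP' : P'.IsMaximal) (h : 𝔭 ≤ P) (h' : 𝔭 ≤ P') :
    P = P' := by
  refine hP.eq_of_le hP'.ne_top fun x hx => ?_
  obtain ⟨r, hr⟩ := hsurj x
  have hrP : algebraMap R0 Bt r ∈ P := by
    have : algebraMap R0 Bt r = x - (x - algebraMap R0 Bt r) := by ring
    rw [this]
    exact P.sub_mem hx (h hr)
  have hrm : r ∈ maximalIdeal R0 := by
    rw [mem_maximalIdeal, mem_nonunits_iff]
    intro hu
    exact hP.ne_top (Ideal.eq_top_of_isUnit_mem _ hrP (hu.map _))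
  have : x = (x - algebraMap R0 Bt r) + algebraMap R0 Bt r := by ring
  rw [this]
  exact P'.add_mem (h' hr) (DiscLift5.algebraMap_mem_of_isMaximal hP' hrm)

/-- **(D2.1), abstract form.**  If every maximal ideal of `Bt` contains one of the two ideals `𝔭₁`,
`𝔭₂` (the two vertical primes over the point) and `R0 → Bt ⧸ 𝔭_j` is onto for both (residue degree
one), then `Bt` has at most two maximal ideals, all with the residue field of `R0`: the point data
`(κ, 𝔫, hmax, hall, hinj, hres)` of `DiscLift5.exists_local_span_pair` with `card κ ≤ 2`. -/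
theorem exists_points_two (𝔭₁ 𝔭₂ : Ideal Bt)
    (h12 : ∀ P : Ideal Bt, P.IsMaximal → 𝔭₁ ≤ P ∨ 𝔭₂ ≤ P)
    (hsurj₁ : ∀ x : Bt, ∃ r : R0, x - algebraMap R0 Bt r ∈ 𝔭₁)
    (hsurj₂ : ∀ x : Bt, ∃ r : R0, x - algebraMap R0 Bt r ∈ 𝔭₂) :
    ∃ (_ : Fintype {P : Ideal Bt // P.IsMaximal}),
      Fintype.card {P : Ideal Bt // P.IsMaximal} ≤ 2 ∧
      ∀ (P : {P : Ideal Bt // P.IsMaximal}) (x : Bt), ∃ r : R0, x - algebraMap R0 Bt r ∈ P.1 := by
  classical
  let f : {P : Ideal Bt // P.IsMaximal} → Bool := fun P => decide (𝔭₁ ≤ P.1)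
  have hf : Function.Injective f := by
    rintro ⟨P, hP⟩ ⟨P', hP'⟩ hPP'
    apply Subtype.ext
    simp only [f, decide_eq_decide] at hPP'
    by_cases h1 : 𝔭₁ ≤ P
    · exact maximal_eq_of_le 𝔭₁ hsurj₁ hP hP' h1 (hPP'.mp h1)
    · have h1' : ¬ 𝔭₁ ≤ P' := fun h => h1 (hPP'.mpr h)
      exact maximal_eq_of_le 𝔭₂ hsurj₂ hP hP' ((h12 P hP).resolve_left h1)
        ((h12 P' hP').resolve_left h1')
  have hfin : Finite {P : Ideal Bt // P.IsMaximal} := Finite.of_injective f hf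
  let _ : Fintype {P : Ideal Bt // P.IsMaximal} := Fintype.ofFinite _
  refine ⟨inferInstance, ?_, ?_⟩
  · calc Fintype.card {P : Ideal Bt // P.IsMaximal} ≤ Fintype.card Bool :=
          Fintype.card_le_of_injective f hf
      _ = 2 := Fintype.card_bool
  · rintro ⟨P, hP⟩ x
    rcases h12 P hP with h | h
    · obtain ⟨r, hr⟩ := hsurj₁ x
      exact ⟨r, h hr⟩
    · obtain ⟨r, hr⟩ := hsurj₂ x
      exact ⟨r, h hr⟩

end TwoPoints

/-! ### Regularity from the discriminant -/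

section Discr

variable {R F : Type*} [CommRing R] [Field F] [Algebra R F]

/-- **Regularity from the discriminant.**  `Bt = M⁻¹ B` (`M ∩ 𝔪 = ∅`) with the literal hypotheses of
`DiscLift5.localization_quotient_dvr` over a two-dimensional regular base `R0` (`𝔪_{R0} = (π₀, T)`),
and `𝔫 j₀` the maximal ideal of `Bt` over `𝔪`: the local ring `B_𝔪` is a UFD. -/
theorem ufd_locSub_of_discr (B : Subalgebra R F) (𝔪 : Ideal B) [h𝔪 : 𝔪.IsPrime]
    (noethB : IsNoetherianRing B)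
    {R0 : Type*} [CommRing R0] [IsDomain R0] [IsLocalRing R0] [IsNoetherianRing R0]
    {Bt : Type*} [CommRing Bt] [Algebra R0 Bt] [Algebra ↥B Bt]
    (M : Submonoid ↥B) [IsLocalization M Bt] (hM : M ≤ 𝔪.primeCompl)
    {ι : Type*} [Fintype ι] [DecidableEq ι] {κ : Type*} [Fintype κ]
    (π₀ T : R0) (h𝔪0 : maximalIdeal R0 = Ideal.span {π₀, T})
    (hπ₀ : Prime π₀) (hT : ¬ π₀ ∣ T) (𝔫 : κ → Ideal Bt)
    (hmax : ∀ j, (𝔫 j).IsMaximal)
    (hall : ∀ P : Ideal Bt, P.IsMaximal → ∃ j, P = 𝔫 j) (hinj : Function.Injective 𝔫)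
    (hres : ∀ j (x : Bt), ∃ r : R0, x - algebraMap R0 Bt r ∈ 𝔫 j)
    (b : Module.Basis ι R0 Bt) (a : ℕ) (u : R0) (hu : IsUnit u)
    (hdisc : Algebra.discr R0 b = π₀ ^ a * u) (ha : a + Fintype.card κ ≤ Fintype.card ι)
    (j₀ : κ) (hj₀ : (𝔫 j₀).comap (algebraMap ↥B Bt) = 𝔪) :
    UniqueFactorizationMonoid ↥(locSub B 𝔪) := by
  classical
  letI algBtC : Algebra Bt ↥(locSub B 𝔪) :=
    (IsLocalization.lift (M := M) (g := algebraMap ↥B ↥(locSub B 𝔪))
      (fun y => IsLocalization.map_units ↥(locSub B 𝔪) (⟨y, hM y.2⟩ : 𝔪.primeCompl))).toAlgebra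
  haveI : IsScalarTower ↥B Bt ↥(locSub B 𝔪) :=
    IsScalarTower.of_algebraMap_eq' (IsLocalization.lift_comp _).symm
  haveI : (𝔫 j₀).IsPrime := (hmax j₀).isPrime
  haveI : IsLocalization.AtPrime ↥(locSub B 𝔪) (𝔫 j₀) :=
    isLocalization_atPrime_of_le M Bt 𝔪 hM ↥(locSub B 𝔪) (𝔫 j₀) hj₀
  haveI : IsNoetherianRing ↥(locSub B 𝔪) :=
    IsLocalization.isNoetherianRing 𝔪.primeCompl ↥(locSub B 𝔪) noethB
  obtain ⟨z, -, -, hdom, hdvr⟩ := DiscLift5.localization_quotient_dvr π₀ T h𝔪0 hπ₀ hT 𝔫 hmax hall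
    hinj hres b a u hu hdisc ha j₀ ↥(locSub B 𝔪)
  exact ufd_of_quotient_dvr _ hdom inferInstance

/-- **Regularity from the discriminant, two-point form** (`S36_REG2.md` (D2.1)–(D2.4)): `Bt = M⁻¹ B`
free over the two-dimensional regular base `R0`, every maximal ideal of `Bt` contains one of the two
vertical primes `𝔭₁`, `𝔭₂`, residue degree one at both, `discr = π₀ ^ a * unit` with
`a + 2 ≤ rank`: the local ring `B_𝔪` at the point `𝔪 = 𝔫₀ ∩ B` is a UFD. -/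
theorem ufd_locSub_of_discr_two (B : Subalgebra R F) (𝔪 : Ideal B) [h𝔪 : 𝔪.IsPrime]
    (noethB : IsNoetherianRing B)
    {R0 : Type*} [CommRing R0] [IsDomain R0] [IsLocalRing R0] [IsNoetherianRing R0]
    {Bt : Type*} [CommRing Bt] [Algebra R0 Bt] [Algebra ↥B Bt]
    (M : Submonoid ↥B) [IsLocalization M Bt] (hM : M ≤ 𝔪.primeCompl)
    {ι : Type*} [Fintype ι] [DecidableEq ι]
    (π₀ T : R0) (h𝔪0 : maximalIdeal R0 = Ideal.span {π₀, T})
    (hπ₀ : Prime π₀) (hT : ¬ π₀ ∣ T) (𝔭₁ 𝔭₂ : Ideal Bt)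
    (h12 : ∀ P : Ideal Bt, P.IsMaximal → 𝔭₁ ≤ P ∨ 𝔭₂ ≤ P)
    (hsurj₁ : ∀ x : Bt, ∃ r : R0, x - algebraMap R0 Bt r ∈ 𝔭₁)
    (hsurj₂ : ∀ x : Bt, ∃ r : R0, x - algebraMap R0 Bt r ∈ 𝔭₂)
    (b : Module.Basis ι R0 Bt) (a : ℕ) (u : R0) (hu : IsUnit u)
    (hdisc : Algebra.discr R0 b = π₀ ^ a * u) (ha : a + 2 ≤ Fintype.card ι)
    (𝔫₀ : Ideal Bt) (h𝔫₀ : 𝔫₀.IsMaximal) (hj₀ : 𝔫₀.comap (algebraMap ↥B Bt) = 𝔪) :
    UniqueFactorizationMonoid ↥(locSub B 𝔪) := by
  classical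
  have hfin : Module.Finite R0 Bt := Module.Finite.of_basis b
  obtain ⟨hfint, hcard, hres⟩ := exists_points_two 𝔭₁ 𝔭₂ h12 hsurj₁ hsurj₂
  exact ufd_locSub_of_discr B 𝔪 noethB M hM π₀ T h𝔪0 hπ₀ hT
    (fun P : {P : Ideal Bt // P.IsMaximal} => P.1) (fun P => P.2)
    (fun P hP => ⟨⟨P, hP⟩, rfl⟩) Subtype.val_injective hres b a u hu hdisc (by omega)
    ⟨𝔫₀, h𝔫₀⟩ hj₀

end Discr

/-- adapter: the `ℤ`-exponent form of `MidVal23.midUnif` gives the field `valπ` of `MidPt`. -/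
theorem valπ_of_zpow {F : Type*} [Field F] (V : ValuationSubring F) {ϖ T : F} {q : ℕ} (hq : 1 ≤ q)
    (h : V.valuation ϖ = V.valuation T ^ ((q : ℤ) - 1)) :
    V.valuation ϖ = V.valuation T ^ (q - 1) := by
  rw [h, ← Nat.cast_one, ← Nat.cast_sub hq, zpow_natCast]

/-! ### The chart data at a point of the middle component -/

section Mid

variable {R F : Type*} [CommRing R] [Field F] [Algebra R F]

/-- **Chart data at a closed point `𝔪 ∋ π` through which only the component `O i` passes**, with `T`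
a uniformiser of `O i` and `|π| = |T| ^ (q - 1)` (`MidVal23.midUnif`). -/
structure MidPt (q : ℕ) (π : R) (B : Subalgebra R F) {ι : Type*} (O : ι → ValuationSubring F)
    (i : ι) (𝔪 : Ideal B) (T : F) : Prop where
  leO : ∀ j, ∀ x ∈ B, x ∈ O j
  sat : ∀ b ∈ B, ∀ c : F, (∀ j, c ∈ O j) → b = algebraMap R F π * c → c ∈ B
  pi_ne : algebraMap R F π ≠ 0
  pi_mem : algebraMap R B π ∈ 𝔪
  hoff : ∀ j, j ≠ i → OffBranch π B (O j) 𝔪
  frac : ∀ y : F, ∃ a ∈ B, ∃ b ∈ B, b ≠ 0 ∧ y * b = a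
  valT : (O i).valuation T < 1
  valπ : (O i).valuation (algebraMap R F π) = (O i).valuation T ^ (q - 1)
  unifT : ∀ x : F, (O i).valuation x < 1 → (O i).valuation x ≤ (O i).valuation T

namespace MidPt

variable {q : ℕ} {π : R} {B : Subalgebra R F} {ι : Type*} [Finite ι] {O : ι → ValuationSubring F}
  {i : ι} {𝔪 : Ideal B} [h𝔪 : 𝔪.IsPrime] {T : F}

/-- the component `O i` does pass through `𝔪`: an element of `B` of value `< 1` lies in `𝔪`. -/
theorem mem_of_val_lt_one (h : MidPt q π B O i 𝔪 T) (b : B)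
    (hb : (O i).valuation (b : F) < 1) : b ∈ 𝔪 := by
  have hon := RegI16.hon_of_hoff π B O i h.leO h.sat h.pi_ne 𝔪 h.pi_mem h.hoff
  have h0 : (O i).valuation (algebraMap R F π) ≠ 0 := (Valuation.ne_zero_iff _).mpr h.pi_ne
  refine h𝔪.mem_of_pow_mem (q - 1)
    (hon (b ^ (q - 1)) ⟨(b : F) ^ (q - 1) / algebraMap R F π, ?_, ?_⟩)
  · rw [← ValuationSubring.valuation_le_one_iff, map_div₀, map_pow,
      div_le_one₀ (zero_lt_iff.mpr h0), h.valπ]
    exact pow_le_pow_left₀ zero_le (h.unifT _ hb) _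
  · push_cast
    field_simp [h.pi_ne]

/-- elements of `B ∖ 𝔪` are units of `O i`. -/
theorem val_eq_one (h : MidPt q π B O i 𝔪 T) {d : B} (hd : d ∉ 𝔪) :
    (O i).valuation (d : F) = 1 :=
  le_antisymm ((ValuationSubring.valuation_le_one_iff _ _).mpr (h.leO i _ d.2))
    (not_lt.mp fun hlt => hd (h.mem_of_val_lt_one d hlt))

/-- `B_𝔪 ⊆ O i`. -/
theorem val_locSub_le_one (h : MidPt q π B O i 𝔪 T) {c : F} (hc : c ∈ locSub B 𝔪) :
    (O i).valuation c ≤ 1 := by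
  obtain ⟨a, d, hd, had⟩ := hc
  have h1 : (O i).valuation c * (O i).valuation (d : F) = (O i).valuation (a : F) := by
    rw [← map_mul, had]
  rw [h.val_eq_one hd, mul_one] at h1
  rw [h1]
  exact (ValuationSubring.valuation_le_one_iff _ _).mpr (h.leO i _ a.2)

/-- **Local saturation**: `B_𝔪 ∩ π O i = π B_𝔪`. -/
theorem locSat (h : MidPt q π B O i 𝔪 T) {c : F} (hc : c ∈ locSub B 𝔪)
    (hcv : (O i).valuation c ≤ (O i).valuation (algebraMap R F π)) :
    ∃ c' ∈ locSub B 𝔪, c = algebraMap R F π * c' := by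
  classical
  have := Fintype.ofFinite ι
  obtain ⟨a, d, hd, had⟩ := hc
  have hp0 : algebraMap R F π ≠ 0 := h.pi_ne
  have hd0 : (d : F) ≠ 0 := coe_ne_zero_of_notMem B 𝔪 hd
  have hcp : c / algebraMap R F π ∈ O i := by
    rw [← ValuationSubring.valuation_le_one_iff, map_div₀,
      div_le_one₀ (zero_lt_iff.mpr ((Valuation.ne_zero_iff _).mpr hp0))]
    exact hcv
  have hmul : ∀ j, ∃ E : B, E ∉ 𝔪 ∧ (E : F) * ((a : F) / algebraMap R F π) ∈ O j := by
    intro j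
    by_cases hj : j = i
    · subst hj
      refine ⟨1, fun h1 => h𝔪.ne_top ((Ideal.eq_top_iff_one 𝔪).mpr h1), ?_⟩
      have : ((1 : B) : F) * ((a : F) / algebraMap R F π) = c / algebraMap R F π * (d : F) := by
        rw [← had]; push_cast; ring
      rw [this]
      exact (O j).mul_mem _ _ hcp (h.leO j _ d.2)
    · obtain ⟨e, he, o, ho, heo⟩ := h.hoff j hj
      refine ⟨e, he, ?_⟩
      have : (e : F) * ((a : F) / algebraMap R F π) = o * (a : F) := by
        rw [heo]; field_simp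
      rw [this]
      exact (O j).mul_mem _ _ ho (h.leO j _ a.2)
  choose E hE hEO using hmul
  set P : B := ∏ j, E j with hP
  have hPnot : P ∉ 𝔪 := by
    intro hh
    obtain ⟨j, -, hj⟩ := (h𝔪.prod_mem_iff).mp hh
    exact hE j hj
  have hmem : (P : F) * ((a : F) / algebraMap R F π) ∈ B := by
    refine h.sat ((P : F) * (a : F)) (B.mul_mem P.2 a.2) _ (fun j => ?_) (by field_simp)
    have hPj : P = E j * ∏ l ∈ Finset.univ.erase j, E l := by
      rw [hP, Finset.mul_prod_erase _ _ (Finset.mem_univ j)]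
    have : (P : F) * ((a : F) / algebraMap R F π)
        = ((∏ l ∈ Finset.univ.erase j, E l : B) : F) *
          ((E j : F) * ((a : F) / algebraMap R F π)) := by
      rw [hPj]; push_cast; ring
    rw [this]
    exact (O j).mul_mem _ _ (h.leO j _ (Subtype.coe_prop _)) (hEO j)
  refine ⟨c / algebraMap R F π,
    ⟨⟨_, hmem⟩, d * P, fun hh => (h𝔪.mem_or_mem hh).elim hd hPnot, ?_⟩, by field_simp⟩
  push_cast
  rw [← had]
  field_simp

/-- **The vertical prime is principal** (in the UFD `C = B_𝔪`): there is a prime element `p` of `C`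
with `C ∩ 𝔪_{O i} = (p)`, `|p| = |T|` (so `p` is a uniformiser of `O i`) and `π = w p ^ (q - 1)`,
`w ∈ Cˣ` (no other vertical prime passes through the point). -/
theorem exists_prime (h : MidPt q π B O i 𝔪 T) (hq : 2 ≤ q)
    [UniqueFactorizationMonoid ↥(locSub B 𝔪)] :
    ∃ p : ↥(locSub B 𝔪), Prime p ∧
      (∀ c : ↥(locSub B 𝔪), (O i).valuation (c : F) < 1 ↔ p ∣ c) ∧
      (O i).valuation (p : F) = (O i).valuation T ∧
      ∃ w : (↥(locSub B 𝔪))ˣ, algebraMap R ↥(locSub B 𝔪) π = w * p ^ (q - 1) := by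
  classical
  have hCO : ∀ c : ↥(locSub B 𝔪), (c : F) ∈ O i := fun c =>
    (ValuationSubring.valuation_le_one_iff _ _).mp (h.val_locSub_le_one c.2)
  let ρ : ↥(locSub B 𝔪) →+* ↥(O i) :=
    { toFun := fun c => ⟨c, hCO c⟩
      map_one' := rfl
      map_mul' := fun _ _ => rfl
      map_zero' := rfl
      map_add' := fun _ _ => rfl }
  set 𝔭 : Ideal ↥(locSub B 𝔪) := (maximalIdeal ↥(O i)).comap ρ with h𝔭
  have hmem𝔭 : ∀ c : ↥(locSub B 𝔪), c ∈ 𝔭 ↔ (O i).valuation (c : F) < 1 := fun c => by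
    rw [h𝔭, Ideal.mem_comap, ValuationSubring.valuation_lt_one_iff]
    exact Iff.rfl
  have hπv : (O i).valuation (algebraMap R F π) < 1 := by
    rw [h.valπ]
    exact pow_lt_one₀ zero_le h.valT (by omega)
  have hπCcoe : ((algebraMap R ↥(locSub B 𝔪) π : ↥(locSub B 𝔪)) : F) = algebraMap R F π := rfl
  have h𝔭ne : 𝔭 ≠ ⊥ := by
    intro h0
    have h1 : algebraMap R ↥(locSub B 𝔪) π ∈ 𝔭 := (hmem𝔭 _).mpr (by rw [hπCcoe]; exact hπv)
    rw [h0, Ideal.mem_bot] at h1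
    apply h.pi_ne
    rw [← hπCcoe, h1]
    rfl
  obtain ⟨p, hp𝔭, hp⟩ :=
    Ideal.IsPrime.exists_mem_prime_of_ne_bot (inferInstance : 𝔭.IsPrime) h𝔭ne
  have hpv : (O i).valuation (p : F) < 1 := (hmem𝔭 p).mp hp𝔭
  -- `π ∣ c ^ (q - 1)` for `c` in the vertical prime
  have hdiv : ∀ c : ↥(locSub B 𝔪), (O i).valuation (c : F) < 1 →
      algebraMap R ↥(locSub B 𝔪) π ∣ c ^ (q - 1) := by
    intro c hc
    obtain ⟨c', hc', hcc'⟩ := h.locSat (c := ((c ^ (q - 1) : ↥(locSub B 𝔪)) : F))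
      (c ^ (q - 1)).2 (by
        push_cast
        rw [map_pow, h.valπ]
        exact pow_le_pow_left₀ zero_le (h.unifT _ hc) _)
    exact ⟨⟨c', hc'⟩, Subtype.ext (by rw [hcc']; rfl)⟩
  -- `π` is associated to a power of `p`
  obtain ⟨j, -, u, hu⟩ := (dvd_prime_pow hp (q - 1)).mp (hdiv p hpv)
  -- units have value one
  have hunit : ∀ u : (↥(locSub B 𝔪))ˣ, (O i).valuation ((u : ↥(locSub B 𝔪)) : F) = 1 := by
    intro u
    have h1 : (O i).valuation ((u : ↥(locSub B 𝔪)) : F) ≤ 1 :=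
      h.val_locSub_le_one (u : ↥(locSub B 𝔪)).2
    have h2 : (O i).valuation (((u⁻¹ : (↥(locSub B 𝔪))ˣ) : ↥(locSub B 𝔪)) : F) ≤ 1 :=
      h.val_locSub_le_one ((u⁻¹ : (↥(locSub B 𝔪))ˣ) : ↥(locSub B 𝔪)).2
    have h3 : ((u : ↥(locSub B 𝔪)) : F) *
        (((u⁻¹ : (↥(locSub B 𝔪))ˣ) : ↥(locSub B 𝔪)) : F) = 1 :=
      congrArg (fun z : ↥(locSub B 𝔪) => (z : F)) (Units.mul_inv u)
    have h4 : (O i).valuation ((u : ↥(locSub B 𝔪)) : F) *
        (O i).valuation (((u⁻¹ : (↥(locSub B 𝔪))ˣ) : ↥(locSub B 𝔪)) : F) = 1 := by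
      rw [← map_mul, h3, map_one]
    by_contra hne
    have hlt : (O i).valuation ((u : ↥(locSub B 𝔪)) : F) < 1 := lt_of_le_of_ne h1 hne
    have h5 : (O i).valuation ((u : ↥(locSub B 𝔪)) : F) *
        (O i).valuation (((u⁻¹ : (↥(locSub B 𝔪))ˣ) : ↥(locSub B 𝔪)) : F) < 1 :=
      lt_of_le_of_lt (mul_le_of_le_one_right zero_le h2) hlt
    rw [h4] at h5
    exact lt_irrefl _ h5
  -- values: `|π| = |p| ^ j`
  have hvj : (O i).valuation (algebraMap R F π) = (O i).valuation (p : F) ^ j := by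
    have := congrArg (fun z : ↥(locSub B 𝔪) => (O i).valuation (z : F)) hu
    simp only [Subalgebra.coe_mul, Subalgebra.coe_pow, map_mul, map_pow, hunit, mul_one,
      hπCcoe] at this
    exact this
  have hj0 : j ≠ 0 := by
    rintro rfl
    rw [pow_zero] at hvj
    rw [hvj] at hπv
    exact lt_irrefl _ hπv
  have hpπ : p ∣ algebraMap R ↥(locSub B 𝔪) π := by
    have h1 : p ∣ algebraMap R ↥(locSub B 𝔪) π * (u : ↥(locSub B 𝔪)) := by
      rw [hu]; exact dvd_pow_self p hj0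
    rcases hp.dvd_or_dvd h1 with h2 | h2
    · exact h2
    · exact absurd (isUnit_of_dvd_unit h2 u.isUnit) hp.not_isUnit
  have hdvd : ∀ c : ↥(locSub B 𝔪), (O i).valuation (c : F) < 1 → p ∣ c := fun c hc =>
    hp.dvd_of_dvd_pow (hpπ.trans (hdiv c hc))
  have hval_of_not_dvd : ∀ c : ↥(locSub B 𝔪), ¬ p ∣ c → (O i).valuation (c : F) = 1 := fun c hc =>
    le_antisymm (h.val_locSub_le_one c.2) (not_lt.mp fun hlt => hc (hdvd c hlt))
  -- `T ≠ 0`
  have hT0 : T ≠ 0 := by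
    rintro rfl
    have h1 := h.valπ
    rw [map_zero, zero_pow (by omega)] at h1
    exact h.pi_ne ((Valuation.zero_iff _).mp h1)
  -- `|p| = |T|`
  have hpT : (O i).valuation (p : F) = (O i).valuation T := by
    refine le_antisymm (h.unifT _ hpv) ?_
    obtain ⟨a, ha, b, hb, hb0, hab⟩ := h.frac T
    have ha0 : a ≠ 0 := by
      rw [← hab]; exact mul_ne_zero hT0 hb0
    set aC : ↥(locSub B 𝔪) := ⟨a, le_locSub B 𝔪 ha⟩ with haC
    set bC : ↥(locSub B 𝔪) := ⟨b, le_locSub B 𝔪 hb⟩ with hbC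
    have haC0 : aC ≠ 0 := fun h0 => ha0 (congrArg (fun z : ↥(locSub B 𝔪) => (z : F)) h0)
    have hbC0 : bC ≠ 0 := fun h0 => hb0 (congrArg (fun z : ↥(locSub B 𝔪) => (z : F)) h0)
    obtain ⟨k, a', ha', hka⟩ := WfDvdMonoid.max_power_factor haC0 hp.irreducible
    obtain ⟨l, b', hb', hlb⟩ := WfDvdMonoid.max_power_factor hbC0 hp.irreducible
    have hva : (O i).valuation a = (O i).valuation (p : F) ^ k := by
      have := congrArg (fun z : ↥(locSub B 𝔪) => (O i).valuation (z : F)) hka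
      simp only [Subalgebra.coe_mul, Subalgebra.coe_pow, map_mul, map_pow,
        hval_of_not_dvd a' ha', mul_one] at this
      exact this
    have hvb : (O i).valuation b = (O i).valuation (p : F) ^ l := by
      have := congrArg (fun z : ↥(locSub B 𝔪) => (O i).valuation (z : F)) hlb
      simp only [Subalgebra.coe_mul, Subalgebra.coe_pow, map_mul, map_pow,
        hval_of_not_dvd b' hb', mul_one] at this
      exact this
    have hrel : (O i).valuation T * (O i).valuation (p : F) ^ l = (O i).valuation (p : F) ^ k := by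
      rw [← hvb, ← hva, ← map_mul, hab]
    have hp0 : (O i).valuation (p : F) ≠ 0 := by
      rw [Valuation.ne_zero_iff]
      intro h0
      exact hp.ne_zero (Subtype.ext h0)
    rcases Nat.lt_or_ge l k with hlk | hkl
    · -- `|T| = |p| ^ (k - l) ≤ |p|`
      have h1 : (O i).valuation T = (O i).valuation (p : F) ^ (k - l) := by
        have h2 : (O i).valuation (p : F) ^ k =
            (O i).valuation (p : F) ^ (k - l) * (O i).valuation (p : F) ^ l := by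
          rw [← pow_add, Nat.sub_add_cancel hlk.le]
        rw [h2] at hrel
        exact mul_right_cancel₀ (pow_ne_zero _ hp0) hrel
      rw [h1]
      exact pow_le_of_le_one zero_le hpv.le (by omega)
    · -- impossible: `|T| |p| ^ (l - k) = 1`
      exfalso
      have h2 : (O i).valuation (p : F) ^ l =
          (O i).valuation (p : F) ^ (l - k) * (O i).valuation (p : F) ^ k := by
        rw [← pow_add, Nat.sub_add_cancel hkl]
      rw [h2, ← mul_assoc] at hrel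
      have h3 : (O i).valuation T * (O i).valuation (p : F) ^ (l - k) = 1 :=
        mul_right_cancel₀ (pow_ne_zero k hp0) (by rw [hrel, one_mul])
      have h4 : (O i).valuation T * (O i).valuation (p : F) ^ (l - k) < 1 :=
        lt_of_le_of_lt (mul_le_of_le_one_right zero_le (pow_le_one₀ zero_le hpv.le)) h.valT
      rw [h3] at h4
      exact lt_irrefl _ h4
  -- `j = q - 1`
  have hjq : j = q - 1 := by
    have hp0 : 0 < (O i).valuation (p : F) := by
      rw [zero_lt_iff, Valuation.ne_zero_iff]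
      intro h0
      exact hp.ne_zero (Subtype.ext h0)
    have h1 : (O i).valuation (p : F) ^ j = (O i).valuation (p : F) ^ (q - 1) := by
      rw [← hvj, h.valπ, hpT]
    exact (pow_right_strictAnti₀ hp0 hpv).injective h1
  refine ⟨p, hp, fun c => ⟨hdvd c, ?_⟩, hpT, u⁻¹, ?_⟩
  · rintro ⟨c', rfl⟩
    have : (O i).valuation ((p * c' : ↥(locSub B 𝔪)) : F) =
        (O i).valuation (p : F) * (O i).valuation (c' : F) := by
      push_cast; rw [map_mul]
    rw [this]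
    exact lt_of_le_of_lt (mul_le_of_le_one_right zero_le (h.val_locSub_le_one c'.2)) hpv
  · rw [← hjq, ← hu, mul_comm, mul_assoc, Units.mul_inv, mul_one]

end MidPt

end Mid

/-! ### The assembly -/

section Main

variable {R F' F : Type*} [CommRing R] [Field F'] [Field F] [Algebra R F'] [Algebra R F]

/-- **R7-asm: a point of type II is a `OneBranch` point with `e = q - 1`.**
`B ⊂ F` a chart of level `M' q²`, `𝔪` a maximal ideal with the chart data `MidPt` (only the component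
`O i` passes, `T` a uniformiser of `O i`, `|π| = |T| ^ (q - 1)`), `B_𝔪` a UFD (regularity: from the
discriminant lemma, `ufd_locSub_of_discr`); `B' ⊂ F'` the chart of level `M' q`, `φ : F' → F` the
degeneracy map (`α₂`), `x1` the contraction of `𝔪`, at which `B'` is smooth (`𝔪_{x1} = (π, s')`), and
`(S₂)`: every `b ∈ 𝔪` is congruent modulo `𝔪_{O i}` to `φ a / φ d` with `a, d ∈ B'`, `d ∉ x1`
(residue degree one of `O i` over its restriction, `B` integral over `φ B'`, `B' / π` integrally closed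
at `x1`: `BranchInputs15.surj_of_residue_one`).  Then `OneBranch q π B O 𝔪` holds with the component
`i`, `x` a numerator of the generator of the vertical prime, `s = φ s'` and `e = q - 1`. -/
theorem oneBranch_of_ufd {ι : Type*} [Finite ι] (q : ℕ) (hq : 2 ≤ q) (π : R)
    (B' : Subalgebra R F') (B : Subalgebra R F) (φ : F' →+* F)
    (hφR : ∀ r : R, φ (algebraMap R F' r) = algebraMap R F r)
    (hφB : ∀ b ∈ B', φ b ∈ B)
    (O : ι → ValuationSubring F) (i : ι) (𝔪 : Ideal B) (h𝔪 : 𝔪.IsMaximal) (T : F)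
    (hpt : MidPt q π B O i 𝔪 T)
    (hufd : UniqueFactorizationMonoid ↥(@locSub R F _ _ _ B 𝔪 h𝔪.isPrime))
    (x1 : Ideal B') (hx1 : ∀ a : B', a ∈ x1 ↔ (⟨φ a, hφB a a.2⟩ : B) ∈ 𝔪)
    (hsm : SmoothAt π B' x1)
    (hS2 : ∀ b ∈ 𝔪, ∃ a d : B', d ∉ x1 ∧ (O i).valuation (φ d * (b : F) - φ a) < 1) :
    @OneBranch R F _ _ _ q π B ι O 𝔪 h𝔪.isPrime := by
  classical
  haveI h𝔪p : 𝔪.IsPrime := h𝔪.isPrime
  obtain ⟨p, hp, hpdvd, hpT, w, hw⟩ := hpt.exists_prime hq
  obtain ⟨s', hs'x1, hgen'⟩ := hsm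
  -- a numerator `x` of `p`
  obtain ⟨x, d, hd, hpd⟩ := p.2
  have hd0 : (d : F) ≠ 0 := coe_ne_zero_of_notMem B 𝔪 hd
  have hvd := hpt.val_eq_one hd
  have hvx : (O i).valuation (x : F) = (O i).valuation T := by
    rw [← hpd, map_mul, hvd, mul_one, hpT]
  have hxv : (O i).valuation (x : F) < 1 := by rw [hvx]; exact hpt.valT
  have hx𝔪 : x ∈ 𝔪 := hpt.mem_of_val_lt_one x hxv
  have hp0 : (p : F) ≠ 0 := fun h0 => hp.ne_zero (Subtype.ext h0)
  have hx0 : (x : F) ≠ 0 := by rw [← hpd]; exact mul_ne_zero hp0 hd0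
  have hvx0 : 0 < (O i).valuation (x : F) := by
    rw [zero_lt_iff, Valuation.ne_zero_iff]; exact hx0
  -- the horizontal parameter
  have hs𝔪 : (⟨φ s', hφB _ s'.2⟩ : B) ∈ 𝔪 := (hx1 s').mp hs'x1
  -- `π = w p ^ (q - 1)` in `F`
  have hwF : algebraMap R F π = ((w : ↥(locSub B 𝔪)) : F) * (p : F) ^ (q - 1) :=
    congrArg (fun z : ↥(locSub B 𝔪) => (z : F)) hw
  have hq1 : q - 1 = (q - 2) + 1 := by omega
  refine ⟨i, hpt.hoff, x, ⟨φ s', hφB _ s'.2⟩, hx𝔪, hs𝔪, ?_, ?_, ?_, ?_, q - 1, by omega, by omega,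
    ((w : ↥(locSub B 𝔪)) : F) * ((d : F)⁻¹) ^ (q - 1),
    (((w⁻¹ : (↥(locSub B 𝔪))ˣ) : ↥(locSub B 𝔪)) : F) * (d : F) ^ (q - 1),
    (locSub B 𝔪).mul_mem (w : ↥(locSub B 𝔪)).2 (pow_mem (inv_mem_locSub B 𝔪 hd) _),
    (locSub B 𝔪).mul_mem ((w⁻¹ : (↥(locSub B 𝔪))ˣ) : ↥(locSub B 𝔪)).2
      (pow_mem (le_locSub B 𝔪 d.2) _), ?_, ?_⟩
  · -- `hgen`
    intro y hy
    obtain ⟨a, d₁, hd₁, hval⟩ := hS2 y hy
    set y₁ : B := ⟨φ d₁, hφB _ d₁.2⟩ * y - ⟨φ a, hφB _ a.2⟩ with hy₁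
    have hy₁coe : (y₁ : F) = φ d₁ * (y : F) - φ a := rfl
    have hy₁𝔪 : y₁ ∈ 𝔪 := hpt.mem_of_val_lt_one y₁ (by rw [hy₁coe]; exact hval)
    obtain ⟨c₁, hc₁⟩ := (hpdvd ⟨y₁, le_locSub B 𝔪 y₁.2⟩).mp hval
    obtain ⟨a₂, d₂, hd₂, hc₁d⟩ := c₁.2
    have hc₁F : (y₁ : F) = (p : F) * (c₁ : F) :=
      congrArg (fun z : ↥(locSub B 𝔪) => (z : F)) hc₁
    have ha : a ∈ x1 := by
      rw [hx1]
      have : (⟨φ a, hφB _ a.2⟩ : B) = ⟨φ d₁, hφB _ d₁.2⟩ * y - y₁ := by rw [hy₁]; ring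
      rw [this]
      exact 𝔪.sub_mem (𝔪.mul_mem_left _ hy) hy₁𝔪
    obtain ⟨d₃, hd₃, hspan⟩ := hgen' a ha
    obtain ⟨r₁, r₂, hr⟩ := Ideal.mem_span_pair.mp hspan
    have hrF : φ r₁ * algebraMap R F π + φ r₂ * φ s' = φ d₃ * φ a := by
      have := congrArg (fun z : B' => φ (z : F')) hr
      simp only [Subalgebra.coe_add, Subalgebra.coe_mul, map_add, map_mul,
        Subalgebra.coe_algebraMap, hφR] at this
      exact this
    obtain ⟨a₄, d₄, hd₄, hwd⟩ := (w : ↥(locSub B 𝔪)).2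
    have hφd₃ : (⟨φ d₃, hφB _ d₃.2⟩ : B) ∉ 𝔪 := fun hh => hd₃ ((hx1 d₃).mpr hh)
    have hφd₁ : (⟨φ d₁, hφB _ d₁.2⟩ : B) ∉ 𝔪 := fun hh => hd₁ ((hx1 d₁).mpr hh)
    refine ⟨⟨φ d₃, hφB _ d₃.2⟩ * d * d₂ * d₄ * d ^ (q - 1) * ⟨φ d₁, hφB _ d₁.2⟩, ?_, ?_⟩
    · intro hh
      rcases h𝔪p.mem_or_mem hh with h1 | h1
      · rcases h𝔪p.mem_or_mem h1 with h2 | h2
        · rcases h𝔪p.mem_or_mem h2 with h3 | h3
          · rcases h𝔪p.mem_or_mem h3 with h4 | h4
            · rcases h𝔪p.mem_or_mem h4 with h5 | h5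
              · exact hφd₃ h5
              · exact hd h5
            · exact hd₂ h4
          · exact hd₄ h3
        · exact hd (h𝔪p.mem_of_pow_mem _ h2)
      · exact hφd₁ h1
    · rw [Ideal.mem_span_pair]
      refine ⟨⟨φ d₃, hφB _ d₃.2⟩ * d₄ * d ^ (q - 1) * a₂ +
          d * d₂ * ⟨φ r₁, hφB _ r₁.2⟩ * a₄ * x ^ (q - 2),
        d * d₂ * d₄ * d ^ (q - 1) * ⟨φ r₂, hφB _ r₂.2⟩, ?_⟩
      apply Subtype.ext
      push_cast
      have hy' : φ d₁ * (y : F) = (p : F) * (c₁ : F) + φ a := by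
        rw [← hc₁F, hy₁coe]; ring
      rw [hq1] at hwF ⊢
      rw [← hpd, ← hc₁d, ← hwd]
      linear_combination (-(φ d₃ * (d : F) * (d₂ : F) * (d₄ : F) * (d : F) ^ (q - 2 + 1))) * hy' +
        ((d : F) * (d₂ : F) * (d₄ : F) * (d : F) ^ (q - 2 + 1)) * hrF -
        ((d : F) * (d₂ : F) * (d₄ : F) * (d : F) ^ (q - 2 + 1) * φ r₁) * hwF
  · -- `unif`
    intro y hy hyinv
    have hyv : (O i).valuation y < 1 := by
      by_contra hnot
      have h1 : (O i).valuation y = 1 :=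
        le_antisymm ((ValuationSubring.valuation_le_one_iff _ _).mpr hy) (not_lt.mp hnot)
      apply hyinv
      rw [← ValuationSubring.valuation_le_one_iff, map_inv₀, h1, inv_one]
    refine ⟨y / (x : F), ?_, by field_simp⟩
    rw [← ValuationSubring.valuation_le_one_iff, map_div₀, div_le_one₀ hvx0, hvx]
    exact hpt.unifT y hyv
  · -- `x⁻¹ ∉ O i`
    intro hmem
    have h1 : (O i).valuation ((x : F))⁻¹ ≤ 1 := (ValuationSubring.valuation_le_one_iff _ _).mpr hmem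
    have h2 : (O i).valuation (x : F) * (O i).valuation ((x : F))⁻¹ = 1 := by
      rw [← map_mul, mul_inv_cancel₀ hx0, map_one]
    have h3 : (O i).valuation (x : F) * (O i).valuation ((x : F))⁻¹ < 1 :=
      lt_of_le_of_lt (mul_le_of_le_one_right zero_le h1) hxv
    rw [h2] at h3
    exact lt_irrefl _ h3
  · -- `hon`
    rintro b ⟨c, hc, hbc⟩
    refine hpt.mem_of_val_lt_one b ?_
    rw [hbc, map_mul]
    exact lt_of_le_of_lt
      (mul_le_of_le_one_right zero_le ((ValuationSubring.valuation_le_one_iff _ _).mpr hc)) hxv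
  · -- `w w' = 1`
    have h1 : ((w : ↥(locSub B 𝔪)) : F) *
        (((w⁻¹ : (↥(locSub B 𝔪))ˣ) : ↥(locSub B 𝔪)) : F) = 1 :=
      congrArg (fun z : ↥(locSub B 𝔪) => (z : F)) (Units.mul_inv w)
    calc ((w : ↥(locSub B 𝔪)) : F) * ((d : F)⁻¹) ^ (q - 1) *
          ((((w⁻¹ : (↥(locSub B 𝔪))ˣ) : ↥(locSub B 𝔪)) : F) * (d : F) ^ (q - 1))
        = (((w : ↥(locSub B 𝔪)) : F) * (((w⁻¹ : (↥(locSub B 𝔪))ˣ) : ↥(locSub B 𝔪)) : F)) *
          (((d : F)⁻¹) * (d : F)) ^ (q - 1) := by ring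
      _ = 1 := by rw [h1, inv_mul_cancel₀ hd0, one_pow, one_mul]
  · -- `π = w x ^ (q - 1)`
    rw [hwF, ← hpd, mul_pow]
    have : ((d : F)⁻¹) ^ (q - 1) * (d : F) ^ (q - 1) = 1 := by
      rw [← mul_pow, inv_mul_cancel₀ hd0, one_pow]
    calc ((w : ↥(locSub B 𝔪)) : F) * (p : F) ^ (q - 1)
        = ((w : ↥(locSub B 𝔪)) : F) * (p : F) ^ (q - 1) *
          (((d : F)⁻¹) ^ (q - 1) * (d : F) ^ (q - 1)) := by rw [this, mul_one]
      _ = _ := by ring

/-- **R7-asm, discriminant form**: `oneBranch_of_ufd` with the regularity hypothesis replaced by the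
discriminant data of `ufd_locSub_of_discr_two`. -/
theorem oneBranch_of_discr {ι : Type*} [Finite ι] (q : ℕ) (hq : 2 ≤ q) (π : R)
    (B' : Subalgebra R F') (B : Subalgebra R F) (φ : F' →+* F)
    (hφR : ∀ r : R, φ (algebraMap R F' r) = algebraMap R F r)
    (hφB : ∀ b ∈ B', φ b ∈ B)
    (O : ι → ValuationSubring F) (i : ι) (𝔪 : Ideal B) (h𝔪 : 𝔪.IsMaximal) (T : F)
    (hpt : MidPt q π B O i 𝔪 T)
    (noethB : IsNoetherianRing B)
    {R0 : Type*} [CommRing R0] [IsDomain R0] [IsLocalRing R0] [IsNoetherianRing R0]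
    {Bt : Type*} [CommRing Bt] [Algebra R0 Bt] [Algebra ↥B Bt]
    (M : Submonoid ↥B) [IsLocalization M Bt] (hM : M ≤ 𝔪.primeCompl)
    {ι' : Type*} [Fintype ι'] [DecidableEq ι']
    (π₀ T₀ : R0) (h𝔪0 : maximalIdeal R0 = Ideal.span {π₀, T₀})
    (hπ₀ : Prime π₀) (hT₀ : ¬ π₀ ∣ T₀) (𝔭₁ 𝔭₂ : Ideal Bt)
    (h12 : ∀ P : Ideal Bt, P.IsMaximal → 𝔭₁ ≤ P ∨ 𝔭₂ ≤ P)
    (hsurj₁ : ∀ x : Bt, ∃ r : R0, x - algebraMap R0 Bt r ∈ 𝔭₁)
    (hsurj₂ : ∀ x : Bt, ∃ r : R0, x - algebraMap R0 Bt r ∈ 𝔭₂)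
    (b : Module.Basis ι' R0 Bt) (a : ℕ) (u : R0) (hu : IsUnit u)
    (hdisc : Algebra.discr R0 b = π₀ ^ a * u) (ha : a + 2 ≤ Fintype.card ι')
    (𝔫₀ : Ideal Bt) (h𝔫₀ : 𝔫₀.IsMaximal) (hj₀ : 𝔫₀.comap (algebraMap ↥B Bt) = 𝔪)
    (x1 : Ideal B') (hx1 : ∀ a : B', a ∈ x1 ↔ (⟨φ a, hφB a a.2⟩ : B) ∈ 𝔪)
    (hsm : SmoothAt π B' x1)
    (hS2 : ∀ b ∈ 𝔪, ∃ a d : B', d ∉ x1 ∧ (O i).valuation (φ d * (b : F) - φ a) < 1) :
    @OneBranch R F _ _ _ q π B ι O 𝔪 h𝔪.isPrime :=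
  haveI := h𝔪.isPrime
  oneBranch_of_ufd q hq π B' B φ hφR hφB O i 𝔪 h𝔪 T hpt
    (ufd_locSub_of_discr_two B 𝔪 noethB M hM π₀ T₀ h𝔪0 hπ₀ hT₀ 𝔭₁ 𝔭₂ h12 hsurj₁ hsurj₂ b a u hu
      hdisc ha 𝔫₀ h𝔫₀ hj₀) x1 hx1 hsm hS2

end Main

end Fermat.Agent.ES.P36.TypeTwoAsm1
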