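/-
Program P (S36), chapter REG, brick R7 (non-cusp points of type II), CHART-LEVEL COMPOSITION (helper20):
**`TypeTwoAsm1.oneBranch_of_discr` fed by the chart facts `RegSemiChart20.discData_chart`.**

`BM ⊂ FM` the level-`M′q` chart, `B ⊂ F` the level-`M′q²` chart, `φ = α₂ : FM →+* F`, `x1` a
one-branch closed point of `BM` (on `W1`, off `W2`), `𝔪` a maximal ideal of `B` over `x1` through which
only the (non-reduced) component `O i` passes (`MidPt`).  The localisation types appear only in the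
"points" hypotheses `𝔭₁ 𝔭₂ h12 hsurj₁ hsurj₂ 𝔫₀ hj₀` (helper9 `SemiPtsModel9`, from
`SemiPts27.exists_family`'s inputs) for `R0 := RP x1`, `Bt := SP ↥B x1` under
`letI := RegChart21.chartAlgebra φ BM B hφB`; everything else is chart vocabulary:

* R7 chart facts (`regDataSemi_chart`): `hφR noethBM intclBM fracBM intclB fracB hfin W1 W2 leW1 leW2
  pi_ne hπ1 hunif sat hon1 hoff2 hne1 hsm hchar hUNR`;
* rank and exponent (`exp_le_chart`, helper2 (D2.3)): `hfd hsep hrank ζ hprim g hg z hz m hm hN` with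
  `Algebra FM F := φ.toAlgebra` (`= algebraAlong α₂` at the model), `m = q - 2`;
* the point (`TypeTwoAsm1`): `hpt : MidPt q π B O i 𝔪 T`, `hx1`, `hsm`, `hS2`.

* `oneBranch_chart` : `NumAbsP13.OneBranch q π B O 𝔪`.
-/
import Mathlib
import Fermat.Agent.ES.P36.RegSemiChart20
import Fermat.Agent.ES.P36.TypeTwoAsm1

set_option autoImplicit false
set_option linter.style.haveILetI false
set_option linter.unusedSectionVars false

namespace Fermat.Agent.ES.P36.TypeTwoChart20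

open IsLocalRing Module Polynomial Fermat.Agent.RED.PUR.LocalFree26 Fermat.Agent.ES.N34.NodalCore13
  Fermat.Agent.ES.N34.NodalCL13 Fermat.Agent.ES.P36.NumAbsP13
  Fermat.Agent.ES.P36.RegChart21 Fermat.Agent.ES.P36.RegSemi20 Fermat.Agent.ES.P36.RegSemiChart20
  Fermat.Agent.ES.P36.TypeTwoAsm1

variable {R FM F : Type*} [CommRing R] [Field FM] [Field F] [Algebra R FM] [Algebra R F]

variable (π : R) (φ : FM →+* F) (BM : Subalgebra R FM) (B : Subalgebra R F)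
  (hφB : ∀ b : BM, φ (b : FM) ∈ B)

/-- **R7, non-cusp points of type II, chart form**: a maximal ideal `𝔪` of the level-`M′q²` chart `B`
over a one-branch point `x1` of the level-`M′q` chart `BM`, through which only the component `O i`
passes, is a `OneBranch` point (`e = q - 1`). -/
theorem oneBranch_chart {ι : Type*} [Finite ι] (q : ℕ) (hq : 2 ≤ q)
    (hφR : ∀ r : R, φ (algebraMap R FM r) = algebraMap R F r)
    (noethBM : IsNoetherianRing BM)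
    (intclBM : ∀ x : FM, IsIntegral BM x → x ∈ BM)
    (fracBM : ∀ x : FM, ∃ a ∈ BM, ∃ b ∈ BM, b ≠ 0 ∧ x * b = a)
    (noethB : IsNoetherianRing B)
    (intclB : ∀ x : F, IsIntegral B x → x ∈ B)
    (fracB : ∀ x : F, ∃ a ∈ B, ∃ b ∈ B, b ≠ 0 ∧ x * b = a)
    (hfin : ∃ (r : ℕ) (e : Fin r → F), (∀ i, e i ∈ B) ∧
      ∀ x ∈ B, ∃ c : Fin r → BM, x = ∑ i, φ (c i : FM) * e i)
    (W1 W2 : ValuationSubring FM) (leW1 : ∀ x ∈ BM, x ∈ W1) (leW2 : ∀ x ∈ BM, x ∈ W2)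
    (pi_ne : algebraMap R FM π ≠ 0)
    (hπ1 : W1.valuation (algebraMap R FM π) < 1)
    (hunif : ∀ x : FM, W1.valuation x < 1 → W1.valuation x ≤ W1.valuation (algebraMap R FM π))
    (sat : ∀ b ∈ BM, ∀ c : FM, c ∈ W1 → c ∈ W2 → b = algebraMap R FM π * c → c ∈ BM)
    (x1 : Ideal BM) [hx1p : x1.IsPrime]
    (hon1 : ∀ b : BM, (∃ c ∈ W1, (b : FM) = algebraMap R FM π * c) → b ∈ x1)
    (hoff2 : OffBranch π BM W2 x1)
    (hne1 : ∃ f ∈ x1, ¬ ∃ c ∈ W1, (f : FM) = algebraMap R FM π * c)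
    (hsm : SmoothAt π BM x1)
    (hchar : ∀ n : ℕ, n ≠ 0 → ∃ k : ℕ, (n : R) ∣ π ^ k)
    (hUNR : ∀ O : ValuationSubring F, (∀ s ∈ B, s ∈ O) →
      (∀ d : BM, d ∉ x1 → (φ (d : FM))⁻¹ ∈ O) →
      IsDiscreteValuationRing O → (algebraMap R F π)⁻¹ ∈ O →
      ∃ g : BM, (φ (g : FM))⁻¹ ∉ O ∧ ∀ y ∈ O, y⁻¹ ∉ O → y / φ (g : FM) ∈ O)
    -- rank and exponent (helper2 (D2.3), `m = q - 2`)
    (hfd : letI := φ.toAlgebra; FiniteDimensional FM F)
    (hsep : letI := φ.toAlgebra; Algebra.IsSeparable FM F)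
    (hrank : letI := φ.toAlgebra; Module.finrank FM F = q)
    (ζ : F) (hprim : letI := φ.toAlgebra; (minpoly FM ζ).natDegree = Module.finrank FM F)
    (g : FM) (hg : W1.valuation g = 1) (z : B) (hz : (z : F) = φ g * ζ) (m : ℕ) (hm : m + 2 ≤ q)
    (hN : letI := φ.toAlgebra
      W1.valuation (algebraMap R FM π) ^ m ≤
        W1.valuation (Algebra.norm FM (aeval ζ (derivative (minpoly FM ζ)))))
    -- the point of `B` and its chart data
    (O : ι → ValuationSubring F) (i : ι) (𝔪 : Ideal B) (h𝔪 : 𝔪.IsMaximal) (T : F)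
    (hpt : MidPt q π B O i 𝔪 T)
    (hx1 : ∀ a : BM, a ∈ x1 ↔ (⟨φ (a : FM), hφB a⟩ : B) ∈ 𝔪)
    (hS2 : ∀ b ∈ 𝔪, ∃ a d : BM, d ∉ x1 ∧ (O i).valuation (φ d * (b : F) - φ a) < 1)
    -- the points of the semi-local ring `SP ↥B x1` over `RP x1`
    (𝔭₁ 𝔭₂ : letI := chartAlgebra φ BM B hφB; Ideal (SP ↥B x1))
    (h12 : letI := chartAlgebra φ BM B hφB
      ∀ P : Ideal (SP ↥B x1), P.IsMaximal → 𝔭₁ ≤ P ∨ 𝔭₂ ≤ P)
    (hsurj₁ : letI := chartAlgebra φ BM B hφB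
      ∀ x : SP ↥B x1, ∃ r : RP x1, x - algebraMap (RP x1) (SP ↥B x1) r ∈ 𝔭₁)
    (hsurj₂ : letI := chartAlgebra φ BM B hφB
      ∀ x : SP ↥B x1, ∃ r : RP x1, x - algebraMap (RP x1) (SP ↥B x1) r ∈ 𝔭₂)
    (𝔫₀ : letI := chartAlgebra φ BM B hφB; Ideal (SP ↥B x1))
    (h𝔫₀ : 𝔫₀.IsMaximal)
    (hj₀ : letI := chartAlgebra φ BM B hφB
      𝔫₀.comap (algebraMap ↥B (SP ↥B x1)) = 𝔪) :
    @OneBranch R F _ _ _ q π B ι O 𝔪 h𝔪.isPrime := by
  classical
  letI := chartAlgebra φ BM B hφB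
  haveI := h𝔪.isPrime
  haveI := noethBM
  haveI : IsNoetherianRing (RP x1) :=
    IsLocalization.isNoetherianRing x1.primeCompl (RP x1) inferInstance
  obtain ⟨T₀, hTx, hsm0⟩ := id hsm
  obtain ⟨hmax, hπloc, hTloc, b, a, u, hu, hdisc, ha⟩ := discData_chart π φ BM B hφB hφR noethBM
    intclBM fracBM intclB fracB hfin W1 W2 leW1 leW2 pi_ne hπ1 hunif sat x1 hon1 hoff2 hne1 T₀ hTx
    hsm0 hchar hUNR hfd hsep q hrank ζ hprim g hg z hz m hm hN
  exact oneBranch_of_discr q hq π BM B φ hφR (fun b hb => hφB ⟨b, hb⟩) O i 𝔪 h𝔪 T hpt noethB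
    (R0 := RP x1) (Bt := SP ↥B x1) (Algebra.algebraMapSubmonoid ↥B x1.primeCompl)
    (algebraMapSubmonoid_le_primeCompl φ BM B hφB x1 𝔪 hx1)
    (algebraMap ↥BM (RP x1) (algebraMap R ↥BM π)) (algebraMap ↥BM (RP x1) T₀) hmax hπloc hTloc
    𝔭₁ 𝔭₂ h12 hsurj₁ hsurj₂ b a u hu hdisc ha 𝔫₀ h𝔫₀ hj₀ x1 hx1 hsm hS2

end Fermat.Agent.ES.P36.TypeTwoChart20
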