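/-
Program P (S36), chapter REG, brick R7 (points of type II), ABSTRACT POINT LAYER (helper20):
**the `i = 1` clause of `PtsModel9.OneAt` for one chart, from chart facts of the two levels.**

`BM ⊂ FM` the level-`M′q` chart (integral closure of `R[s']`), `B ⊂ F` the level-`M′q²` chart (integral
closure of `R[φ s']`), `φ = α₂`, `W1 W2` the two components of level `M′q`, `O : Fin 3 → …` the three
components of level `M′q²` with positions `O 0 ↦ W1`, `O 1 ↦ W1`, `O 2 ↦ W2` along `φ`.  For a maximal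
ideal `𝔪 ∋ π` of `B` through which only the middle component `O 1` passes:

* the contraction `x1` of `𝔪` is a maximal ideal of `BM`, on `W1` (`hon1`) and off `W2` (`hoff2`, through
  the R6 target `hcross` and `PtsAsm9.not_crossing_of_only`), not contained in the vertical prime of `W1`
  (`exists_unit_mem_of_gauss`: the residue of `s'` at `W1` is transcendental, `BM` is integral over
  `R[s']`), smooth (`smoothM`);
* the scaled generator `(g, z)` is `ScaledGen26`'s: `g = p₀(s')`, `p₀` primitive, `z = p₀(φ s') ζ ∈ B`;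
* then `TypeTwoChart20.oneBranch_chart`.

* `hS2` and the points block of the semi-local ring over `x1` are `SemiPtsChart9.semiPts_chart`'s (inputs
  `arch1 c0 c2 unifV1 res1 res2`: the positions and residue degrees of the generic-point table (G2)).

Per-point input which stays a hypothesis: `hUNR` (horizontal unramifiedness at `x1`, supplier `HunrSq26`).

* `exists_unit_mem_of_gauss`, `oneAt_mid_chart`.
-/
import Mathlib
import Fermat.Agent.ES.P36.TypeTwoChart20
import Fermat.Agent.ES.P36.PtsAsm9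
import Fermat.Agent.ES.P36.ScaledGen26
import Fermat.Agent.ES.P36.SemiPtsChart9

set_option autoImplicit false
set_option linter.style.haveILetI false
set_option linter.unusedSectionVars false

namespace Fermat.Agent.ES.P36.TypeTwoPts20

open IsLocalRing Module Polynomial Fermat.Agent.RED.PUR.LocalFree26 Fermat.Agent.ES.N34.NodalCore13
  Fermat.Agent.ES.N34.NodalSmooth13 Fermat.Agent.ES.N34.NodalCL13 Fermat.Agent.ES.P36.NumAbsP13
  Fermat.Agent.ES.P36.TripleReg13 Fermat.Agent.ES.P36.PtsAsm9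
  Fermat.Agent.ES.P36.RegChart21 Fermat.Agent.ES.P36.RegSemi20 Fermat.Agent.ES.P36.RegSemiChart20
  Fermat.Agent.ES.P36.TypeTwoAsm1 Fermat.Agent.ES.P36.TypeTwoChart20

variable {R FM F : Type*} [CommRing R] [Field FM] [Field F] [Algebra R FM] [Algebra R F]

/-! ### A closed point is not the generic point of a vertical component -/

section Unit

variable (π : R) (BM : Subalgebra R FM)

/-- `v (1 - w ^ i) < 1` when `v (1 - w) < 1`, `w ∈ W`. -/
theorem val_one_sub_pow_lt (W : ValuationSubring FM) {w : FM} (hw : w ∈ W)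
    (h : W.valuation (1 - w) < 1) (i : ℕ) : W.valuation (1 - w ^ i) < 1 := by
  have h1 : 1 - w ^ i = (1 - w) * ∑ j ∈ Finset.range i, w ^ j := by
    have := mul_neg_geom_sum w i
    rw [← this]
  rw [h1, map_mul]
  have h2 : W.valuation (∑ j ∈ Finset.range i, w ^ j) ≤ 1 :=
    (W.valuation_le_one_iff _).mpr (W.toSubring.sum_mem fun j _ => W.pow_mem hw j)
  exact lt_of_le_of_lt (mul_le_of_le_one_right' h2) h

/-- **A maximal ideal of the chart `BM` (integral over `R[s']`) contains an element which is a unit at the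
Gauss component `W1`** (the residue of `s'` at `W1` is transcendental: `hgauss`). -/
theorem exists_unit_mem_of_gauss (s' : FM) (hs' : s' ∈ BM)
    (intM : ∀ x ∈ BM, IsIntegral (Algebra.adjoin R {s'}) x)
    (W1 : ValuationSubring FM) (leW1 : ∀ x ∈ BM, x ∈ W1) (hπnu : ¬ IsUnit π)
    (hgauss : ∀ p : R[X], W1.valuation (aeval s' p) < 1 → ∀ i, π ∣ p.coeff i)
    (x1 : Ideal BM) (hx1 : x1.IsMaximal) :
    ∃ f ∈ x1, ¬ W1.valuation (f : FM) < 1 := by
  classical
  by_contra hcon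
  push Not at hcon
  by_cases hsx : (⟨s', hs'⟩ : BM) ∈ x1
  · -- `v (s') < 1`: impossible
    have h1 := hcon _ hsx
    have h2 := hgauss X (by rw [aeval_X]; exact h1) 1
    rw [coeff_X_one] at h2
    exact hπnu (isUnit_of_dvd_one h2)
  · obtain ⟨b, i, hi, hbi⟩ := hx1.exists_inv hsx
    -- `b * s' + i = 1`, `i ∈ x1`
    have hiv : W1.valuation ((i : BM) : FM) < 1 := hcon i hi
    have hbiF : (b : FM) * s' + (i : FM) = 1 := congrArg (fun z : BM => (z : FM)) hbi
    set w : FM := s' * (b : FM) with hw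
    have hwW : w ∈ W1 := W1.mul_mem _ _ (leW1 _ hs') (leW1 _ b.2)
    have h1w : W1.valuation (1 - w) < 1 := by
      have : 1 - w = (i : FM) := by rw [hw, ← hbiF]; ring
      rw [this]; exact hiv
    -- integrality of `b`
    obtain ⟨P, hPm, hPb⟩ := intM _ b.2
    set n := P.natDegree with hn
    have hcoef : ∀ j, ∃ p : R[X], aeval s' p = ((P.coeff j : Algebra.adjoin R {s'}) : FM) := by
      intro j
      have h1 : ((P.coeff j : Algebra.adjoin R {s'}) : FM) ∈ (aeval (R := R) s').range := by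
        rw [← Algebra.adjoin_singleton_eq_range_aeval]
        exact (P.coeff j).2
      exact h1
    choose p hp using hcoef
    -- the relation
    have hrel : (b : FM) ^ n + ∑ j ∈ Finset.range n, aeval s' (p j) * (b : FM) ^ j = 0 := by
      have h1 : eval₂ (algebraMap (Algebra.adjoin R {s'}) FM) (b : FM) P = 0 := hPb
      rw [eval₂_eq_sum_range, Finset.sum_range_succ, ← hn] at h1
      have h2 : P.coeff n = 1 := hPm.coeff_natDegree
      rw [h2, map_one, one_mul, add_comm] at h1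
      rw [← h1]
      congr 1
      refine Finset.sum_congr rfl fun j _ => ?_
      rw [hp j]; rfl
    set Q : R[X] := 1 + ∑ j ∈ Finset.range n, p j * X ^ (n - j) with hQ
    have hQ0 : Q.coeff 0 = 1 := by
      rw [hQ, coeff_add, coeff_one_zero, finsetSum_coeff]
      rw [Finset.sum_eq_zero, add_zero]
      intro j hj
      have hj' : n - j ≠ 0 := by
        have := Finset.mem_range.mp hj; omega
      rw [mul_coeff_zero, coeff_X_pow, if_neg (fun h => hj' h.symm), mul_zero]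
    have hQv : W1.valuation (aeval s' Q) < 1 := by
      have hexp : aeval s' Q = (1 - w ^ n) +
          ∑ j ∈ Finset.range n, aeval s' (p j) * s' ^ (n - j) * (1 - w ^ j) := by
        have h3 : s' ^ n * ((b : FM) ^ n +
            ∑ j ∈ Finset.range n, aeval s' (p j) * (b : FM) ^ j) = 0 := by rw [hrel, mul_zero]
        have h4 : s' ^ n * ((b : FM) ^ n +
            ∑ j ∈ Finset.range n, aeval s' (p j) * (b : FM) ^ j) =
            w ^ n + ∑ j ∈ Finset.range n, aeval s' (p j) * s' ^ (n - j) * w ^ j := by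
          rw [mul_add, hw, mul_pow, Finset.mul_sum]
          congr 1
          refine Finset.sum_congr rfl fun j hj => ?_
          have hjn : j ≤ n := (Finset.mem_range.mp hj).le
          have : s' ^ n = s' ^ (n - j) * s' ^ j := by rw [← pow_add, Nat.sub_add_cancel hjn]
          rw [this, mul_pow]; ring
        rw [h4] at h3
        rw [hQ, map_add, map_one, map_sum]
        have h5 : ∑ j ∈ Finset.range n, aeval s' (p j * X ^ (n - j)) =
            ∑ j ∈ Finset.range n, aeval s' (p j) * s' ^ (n - j) := by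
          refine Finset.sum_congr rfl fun j _ => ?_
          rw [map_mul, map_pow, aeval_X]
        rw [h5]
        have h6 : ∑ j ∈ Finset.range n, aeval s' (p j) * s' ^ (n - j) * (1 - w ^ j) =
            ∑ j ∈ Finset.range n, aeval s' (p j) * s' ^ (n - j) -
              ∑ j ∈ Finset.range n, aeval s' (p j) * s' ^ (n - j) * w ^ j := by
          rw [← Finset.sum_sub_distrib]
          refine Finset.sum_congr rfl fun j _ => ?_
          ring
        rw [h6]
        linear_combination h3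
      rw [hexp]
      refine lt_of_le_of_lt (Valuation.map_add _ _ _) (max_lt (val_one_sub_pow_lt W1 hwW h1w n) ?_)
      refine Valuation.map_sum_lt _ (by norm_num) fun j _ => ?_
      rw [map_mul]
      have h7 : W1.valuation (aeval s' (p j) * s' ^ (n - j)) ≤ 1 := by
        rw [W1.valuation_le_one_iff]
        refine W1.mul_mem _ _ ?_ (W1.pow_mem (leW1 _ hs') _)
        rw [hp j]
        exact leW1 _ (Algebra.adjoin_le (by simpa using hs') (P.coeff j).2)
      exact lt_of_le_of_lt (mul_le_of_le_one_left' h7) (val_one_sub_pow_lt W1 hwW h1w j)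
    have h8 := hgauss Q hQv 0
    rw [hQ0] at h8
    exact hπnu (isUnit_of_dvd_one h8)

end Unit

/-! ### The `i = 1` clause of `OneAt` for one chart -/

section Main

variable (π : R) (φ : FM →+* F) (BM : Subalgebra R FM) (B : Subalgebra R F)
  (hφB : ∀ b : BM, φ (b : FM) ∈ B)

/-- `φ (p(s')) = p(φ s')`. -/
theorem map_aeval (hφR : ∀ r : R, φ (algebraMap R FM r) = algebraMap R F r) (s' : FM) (p : R[X]) :
    φ (aeval s' p) = aeval (φ s') p := by
  rw [aeval_def, aeval_def, hom_eval₂]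
  congr 1
  exact RingHom.ext hφR

/-- **R7 for one chart, abstract point form**: the `i = 1` clause of `PtsModel9.OneAt`. -/
theorem oneAt_mid_chart [IsDomain R] (q : ℕ) (hq : 2 ≤ q)
    (hφR : ∀ r : R, φ (algebraMap R FM r) = algebraMap R F r)
    (dvrR : ∀ r : R, r ≠ 0 → ∃ (k : ℕ) (v : Rˣ), r = π ^ k * v)
    (hchar : ∀ n : ℕ, n ≠ 0 → ∃ k : ℕ, (n : R) ∣ π ^ k)
    -- the chart of level `M′q`
    (s' : FM) (hs' : s' ∈ BM)
    (intM : ∀ x ∈ BM, IsIntegral (Algebra.adjoin R {s'}) x)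
    (noethBM : IsNoetherianRing BM)
    (intclBM : ∀ x : FM, IsIntegral BM x → x ∈ BM)
    (fracBM : ∀ x : FM, ∃ a ∈ BM, ∃ b ∈ BM, b ≠ 0 ∧ x * b = a)
    (W1 W2 : ValuationSubring FM) (leW1 : ∀ x ∈ BM, x ∈ W1) (leW2 : ∀ x ∈ BM, x ∈ W2)
    (pi_ne : algebraMap R FM π ≠ 0)
    (pi_nonunit1 : (algebraMap R FM π)⁻¹ ∉ W1)
    (unif1 : ∀ x ∈ W1, x⁻¹ ∉ W1 → ∃ c ∈ W1, x = algebraMap R FM π * c)
    (arch1 : ∀ x : FM, ∃ k : ℕ, algebraMap R FM π ^ k * x ∈ W1)
    (satM : ∀ b ∈ BM, ∀ c : FM, c ∈ W1 → c ∈ W2 → b = algebraMap R FM π * c → c ∈ BM)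
    (hgauss : ∀ p : R[X], W1.valuation (aeval s' p) < 1 → ∀ i, π ∣ p.coeff i)
    (smoothM : ∀ x : Ideal BM, x.IsMaximal → algebraMap R BM π ∈ x →
      OffBranch π BM W1 x ∨ OffBranch π BM W2 x → SmoothAt π BM x)
    -- the chart of level `M′q²`
    (noethB : IsNoetherianRing B)
    (intclB : ∀ x : F, IsIntegral B x → x ∈ B)
    (fracB : ∀ x : F, ∃ a ∈ B, ∃ b ∈ B, b ≠ 0 ∧ x * b = a)
    (intB : ∀ x ∈ B, IsIntegral (Algebra.adjoin R {φ s'}) x)
    (gen : ∃ (r : ℕ) (e : Fin r → F), (∀ i, e i ∈ B) ∧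
      ∀ x ∈ B, ∃ P : Fin r → R[X], x = ∑ i, aeval (φ s') (P i) * e i)
    (O : Fin 3 → ValuationSubring F) (leO : ∀ j, ∀ x ∈ B, x ∈ O j)
    (satB : ∀ b ∈ B, ∀ c : F, (∀ j, c ∈ O j) → b = algebraMap R F π * c → c ∈ B)
    (c0 : (O 0).comap φ = W1) (c1 : (O 1).comap φ = W1) (c2 : (O 2).comap φ = W2)
    (unifV1 : ∀ x : F, (O 0).valuation x < 1 →
      (O 0).valuation x ≤ (O 0).valuation (algebraMap R F π))
    (res1 : ∀ h ∈ O 0, ∃ x ∈ W1, (O 0).valuation (h - φ x) < 1)
    (res2 : ∀ h ∈ O 1, ∃ x ∈ W1, (O 1).valuation (h - φ x) < 1)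
    (hcross : ∀ (𝔪 : Ideal B) (h𝔪 : 𝔪.IsMaximal), algebraMap R B π ∈ 𝔪 →
      ¬ OffBranch π BM W1 (contract φ BM B (fun b hb => hφB ⟨b, hb⟩) 𝔪) →
      ¬ OffBranch π BM W2 (contract φ BM B (fun b hb => hφB ⟨b, hb⟩) 𝔪) →
      ∃ (x₁ x₂ x₃ : ↥(@locSub R F _ _ _ B 𝔪 h𝔪.isPrime)),
        @TripleReg R F _ _ _ q π B (Fin 3) O 𝔪 h𝔪.isPrime 0 1 2 x₁ x₂ x₃)
    -- the uniformiser of the middle component
    (T : F) (valT : (O 1).valuation T < 1)
    (valπ : (O 1).valuation (algebraMap R F π) = (O 1).valuation T ^ (q - 1))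
    (unifT : ∀ x : F, (O 1).valuation x < 1 → (O 1).valuation x ≤ (O 1).valuation T)
    -- rank and exponent (`Algebra FM F := φ.toAlgebra`)
    (hfd : letI := φ.toAlgebra; FiniteDimensional FM F)
    (hsep : letI := φ.toAlgebra; Algebra.IsSeparable FM F)
    (hrank : letI := φ.toAlgebra; Module.finrank FM F = q)
    (ζ : F) (hζO : ∀ j, ζ ∈ O j)
    (hprim : letI := φ.toAlgebra; (minpoly FM ζ).natDegree = Module.finrank FM F)
    (m : ℕ) (hm : m + 2 ≤ q)
    (hN : letI := φ.toAlgebra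
      W1.valuation (algebraMap R FM π) ^ m ≤
        W1.valuation (Algebra.norm FM (aeval ζ (derivative (minpoly FM ζ)))))
    -- per point: horizontal unramifiedness at the one-branch points of level `M′q`
    (hUNR : ∀ x1 : Ideal BM, x1.IsMaximal → algebraMap R BM π ∈ x1 →
      (∀ b : BM, (∃ c ∈ W1, (b : FM) = algebraMap R FM π * c) → b ∈ x1) →
      OffBranch π BM W2 x1 →
      ∀ O' : ValuationSubring F, (∀ s ∈ B, s ∈ O') →
        (∀ d : BM, d ∉ x1 → (φ (d : FM))⁻¹ ∈ O') →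
        IsDiscreteValuationRing O' → (algebraMap R F π)⁻¹ ∈ O' →
        ∃ g : BM, (φ (g : FM))⁻¹ ∉ O' ∧ ∀ y ∈ O', y⁻¹ ∉ O' → y / φ (g : FM) ∈ O') :
    ∀ (𝔪 : Ideal B) (h𝔪 : 𝔪.IsMaximal), algebraMap R B π ∈ 𝔪 →
      (∀ j, j ≠ 1 → OffBranch π B (O j) 𝔪) →
      @OneBranch R F _ _ _ q π B (Fin 3) O 𝔪 h𝔪.isPrime := by
  classical
  intro 𝔪 h𝔪 hπ𝔪 hoff
  haveI h𝔪p : 𝔪.IsPrime := h𝔪.isPrime
  have hφB' : ∀ b ∈ BM, φ b ∈ B := fun b hb => hφB ⟨b, hb⟩
  -- elementary facts on `π`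
  have hπF : algebraMap R F π ≠ 0 := by
    rw [← hφR]; exact (map_ne_zero φ).mpr pi_ne
  have hπW1 : algebraMap R FM π ∈ W1 := leW1 _ (algebraMap R BM π).2
  have hπ1 : W1.valuation (algebraMap R FM π) < 1 := by
    refine lt_of_le_of_ne ((W1.valuation_le_one_iff _).mpr hπW1) fun h => pi_nonunit1 ?_
    rw [← W1.valuation_le_one_iff, map_inv₀, h, inv_one]
  have hunif : ∀ x : FM, W1.valuation x < 1 →
      W1.valuation x ≤ W1.valuation (algebraMap R FM π) := by
    intro x hx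
    by_cases hx0 : x = 0
    · rw [hx0, map_zero]; exact zero_le
    have hxW : x ∈ W1 := (W1.valuation_le_one_iff _).mp hx.le
    have hxinv : x⁻¹ ∉ W1 := by
      intro h
      have h1 : W1.valuation x⁻¹ ≤ 1 := (W1.valuation_le_one_iff _).mpr h
      have h2 : W1.valuation x * W1.valuation x⁻¹ = 1 := by
        rw [← map_mul, mul_inv_cancel₀ hx0, map_one]
      have h3 : W1.valuation x * W1.valuation x⁻¹ < 1 :=
        lt_of_le_of_lt (mul_le_of_le_one_right' h1) hx
      rw [h2] at h3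
      exact lt_irrefl _ h3
    obtain ⟨c, hc, hxc⟩ := unif1 x hxW hxinv
    rw [hxc, map_mul]
    exact mul_le_of_le_one_right' ((W1.valuation_le_one_iff _).mpr hc)
  have hπnu : ¬ IsUnit π := by
    rintro ⟨u, hu⟩
    apply pi_nonunit1
    have h1 : (algebraMap R FM π)⁻¹ = algebraMap R FM (↑u⁻¹ : R) := by
      symm
      apply eq_inv_of_mul_eq_one_left
      rw [← hu, ← map_mul, Units.inv_mul, map_one]
    rw [h1]
    exact leW1 _ (algebraMap R BM _).2
  -- the chart data at the point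
  have hpt : MidPt q π B O 1 𝔪 T := ⟨leO, satB, hπF, hπ𝔪, hoff, fracB, valT, valπ, unifT⟩
  -- the contraction
  set x1 : Ideal BM := contract φ BM B hφB' 𝔪 with hx1def
  haveI hx1p : x1.IsPrime := contract_isPrime φ BM B hφB' 𝔪
  have hx1 : ∀ a : BM, a ∈ x1 ↔ (⟨φ (a : FM), hφB a⟩ : B) ∈ 𝔪 := fun a => Iff.rfl
  have hπO1 : (O 1).valuation (algebraMap R F π) < 1 := by
    rw [valπ]
    obtain ⟨k, hk⟩ : ∃ k, q - 1 = k + 1 := ⟨q - 2, by omega⟩
    rw [hk, pow_succ]
    exact lt_of_le_of_lt (mul_le_of_le_one_left' (pow_le_one' valT.le k)) valT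
  have hon1 : ∀ b : BM, (∃ c ∈ W1, (b : FM) = algebraMap R FM π * c) → b ∈ x1 := by
    rintro b ⟨c, hc, hbc⟩
    rw [hx1]
    apply hpt.mem_of_val_lt_one
    show (O 1).valuation (φ (b : FM)) < 1
    rw [hbc, map_mul, hφR, map_mul]
    have hc' : φ c ∈ O 1 := by
      have : c ∈ (O 1).comap φ := by rw [c1]; exact hc
      exact this
    exact lt_of_le_of_lt (mul_le_of_le_one_right' (((O 1).valuation_le_one_iff _).mpr hc')) hπO1
  have hoff2 : OffBranch π BM W2 x1 := by
    rcases not_crossing_of_only BM B φ hφB' W1 W2 O 𝔪 h𝔪 (hcross 𝔪 h𝔪 hπ𝔪)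
      (hoff 0 (by decide)) with h | h
    · exfalso
      have h1 : OffBranch π B (O 1) 𝔪 := offBranch_of_contract φ hφR BM B hφB' 𝔪 π c1 h
      refine Fermat.Agent.ES.P36.RegI16.not_offBranch_all π B O leO satB hπF 𝔪 hπ𝔪 fun j => ?_
      by_cases hj : j = 1
      · rw [hj]; exact h1
      · exact hoff j hj
    · exact h
  -- finiteness, maximality of the contraction
  letI := chartAlgebra φ BM B hφB
  have hfin : ∃ (r : ℕ) (e : Fin r → F), (∀ i, e i ∈ B) ∧
      ∀ x ∈ B, ∃ c : Fin r → BM, x = ∑ i, φ (c i : FM) * e i := by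
    obtain ⟨r, e, he, hgen⟩ := gen
    refine ⟨r, e, he, fun x hx => ?_⟩
    obtain ⟨P, hP⟩ := hgen x hx
    have hmem : ∀ i, aeval s' (P i) ∈ BM := fun i =>
      Algebra.adjoin_le (by simpa using hs') (aeval_mem_adjoin_singleton R s')
    refine ⟨fun i => ⟨aeval s' (P i), hmem i⟩, ?_⟩
    rw [hP]
    refine Finset.sum_congr rfl fun i _ => ?_
    rw [map_aeval φ hφR]
  haveI := finite_of_generators φ BM B hφB hfin
  have hx1max : x1.IsMaximal := by
    haveI : Algebra.IsIntegral ↥BM ↥B := Algebra.IsIntegral.of_finite ↥BM ↥B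
    exact Ideal.isMaximal_comap_of_isIntegral_of_isMaximal (R := ↥BM) 𝔪
  have hπx1 : algebraMap R BM π ∈ x1 := pi_mem_contract φ hφR BM B hφB' 𝔪 hπ𝔪
  have hsm : SmoothAt π BM x1 := smoothM x1 hx1max hπx1 (Or.inr hoff2)
  -- `x1` is not the generic point of `W1`
  obtain ⟨f, hfx, hfv⟩ := exists_unit_mem_of_gauss π BM s' hs' intM W1 leW1 hπnu hgauss x1 hx1max
  have hne1 : ∃ f ∈ x1, ¬ ∃ c ∈ W1, (f : FM) = algebraMap R FM π * c :=
    ⟨f, hfx, fun h => hfv ((mem_pi_iff π W1 pi_ne hπ1 hunif _).mp h)⟩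
  -- the scaled generator
  have hsB : φ s' ∈ B := hφB ⟨s', hs'⟩
  have halg : IsAlgebraic (Algebra.adjoin R {φ s'}) ζ :=
    ScaledGen26.isAlgebraic_of_frac (φ s') intB fracB ζ
  obtain ⟨p₀, hp₀, hz⟩ := ScaledGen26.exists_primitive_mul_mem dvrR
    (fun h0 => pi_ne (by rw [h0, map_zero])) (φ s') hsB intclB leO satB ζ hζO halg
  have hg : W1.valuation (aeval s' p₀) = 1 :=
    ScaledGen26.valuation_aeval_eq_one W1 s' (leW1 _ hs') (fun r => leW1 _ (algebraMap R BM r).2)
      hπnu hgauss p₀ hp₀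
  -- residue degree one and the points of the semi-local ring over `x1`
  have satB3 : ∀ b ∈ B, ∀ c : F, c ∈ O 0 → c ∈ O 1 → c ∈ O 2 → b = algebraMap R F π * c →
      c ∈ B := by
    intro b hb c h0 h1 h2 hbc
    refine satB b hb c (fun j => ?_) hbc
    fin_cases j
    · exact h0
    · exact h1
    · exact h2
  obtain ⟨⟨𝔭₁, 𝔭₂, h12, hs₁, hs₂, 𝔫₀, h𝔫₀, hj₀⟩, hS2all⟩ :=
    Fermat.Agent.ES.P36.SemiPtsChart9.semiPts_chart π φ BM B hφB q hφR noethBM fracBM fracB hfin
      W1 W2 leW1 leW2 pi_ne hπ1 hunif arch1 satM x1 hon1 hoff2 hsm (O 0) (O 1) (O 2) (leO 0) (leO 1)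
      (leO 2) satB3 c0 c1 c2 unifV1 T valπ unifT res1 res2 𝔪 hx1
  have hS2 : ∀ b ∈ 𝔪, ∃ a d : BM, d ∉ x1 ∧ (O 1).valuation (φ d * (b : F) - φ a) < 1 :=
    fun b _ => hS2all b
  exact oneBranch_chart π φ BM B hφB q hq hφR noethBM intclBM fracBM noethB intclB fracB hfin
    W1 W2 leW1 leW2 pi_ne hπ1 hunif satM x1 hon1 hoff2 hne1 hsm hchar
    (hUNR x1 hx1max hπx1 hon1 hoff2) hfd hsep hrank ζ hprim (aeval s' p₀) hg
    ⟨aeval (φ s') p₀ * ζ, hz⟩ (by rw [map_aeval φ hφR]) m hm hN O 1 𝔪 h𝔪 T hpt hx1 hS2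
    𝔭₁ 𝔭₂ h12 hs₁ hs₂ 𝔫₀ h𝔫₀ hj₀

end Main

end Fermat.Agent.ES.P36.TypeTwoPts20
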