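/-
Program P (S36), chapter REG, brick R7 (points of type II), MODEL-LEVEL CALL (helper20):
**the `i = 1` clause of `PtsModel9.OneAt` on both charts `B0″`, `B1″` at the `ModelDefsP9` data, over ONE
number field `K`**, from `TypeTwoPts20.oneAt_mid_chart` (`φ := α₂`, `BM := ModelDefs9.B0/B1`,
`B := ModelDefsP9.B0/B1`, `W1 W2 := O1q O2q`, `O := Ofam hπ O2`, `i := 1`, `m := q - 2`).

* `OneMidAt` : the `i = 1` clause of `PtsModel9.OneAt` (Gauss-layer spelling); `oneAt_of_clauses`;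
* `oneMidAt_of` : Gauss-layer wrapper of `oneAt_mid_chart` for charts `chart O s'`, `chart O s`, `a s' = s`;
* `oneMid_model` : both charts at the model data.  Named inputs, in their suppliers' shapes:
  - `D`      : `NumData13.NodalNumData` of level `M′q` (`ModelQAt4.nodalNumData_at` / `ModelInert4`);
  - `model`  : `PtsModel9.MultiAt` (M7), `noeth0 noeth1 frac0 frac1` (M1, `ChartInputsM`), `gen1`;
  - `hgauss0`, `hgauss1` : the Gauss property of `tN^{±1}` at `O1q`;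
  - `hcross0`, `hcross1` : `PtsModel9.CrossAt` along `α₂` (R6);
  - `Mid`    : `GenInst11.MidUnif` (M4/M6, `MidVal23.midUnif`);
  - `ζ hζO hprim hN` : (D2.3) (`DiffMid2.hprim_hN_mid`, `ζ := ξ`);
  - `Htab`   : the generic-point table `GenTable11.TableG2` (positions, residue degrees; `tableG2_model`);
  - `hUNR0 hUNR1` : horizontal unramifiedness (`HunrSq26`).
-/
import Mathlib
import Fermat.Agent.ES.N34.NumData13
import Fermat.Agent.ES.P36.GenInst11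
import Fermat.Agent.ES.P36.HeckeDeg19
import Fermat.Agent.ES.P36.PtsModel9
import Fermat.Agent.ES.P36.TypeTwoPts20

set_option autoImplicit false
set_option linter.unusedSectionVars false
set_option linter.style.haveILetI false
set_option synthInstance.maxHeartbeats 400000

open HahnSeries ModularCurve AlgebraicCurve

noncomputable section

namespace Fermat.Agent.ES.P36.TypeTwoModel20

open Polynomial Fermat.Agent.RED.PUR.ChartGeneric22 Fermat.Agent.RED.PUR.LocalFree26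
  Fermat.Agent.ES.N34.NodalCore13 Fermat.Agent.ES.N34.NodalSmooth13 Fermat.Agent.ES.N34.NodalCL13
  Fermat.Agent.ES.P36.MultiCore13 Fermat.Agent.ES.P36.NumAbsP13 Fermat.Agent.ES.P36.TripleReg13
  Fermat.Agent.ES.P36.PtsAsm9 Fermat.Agent.ES.P36.PtsModel9 Fermat.Agent.ES.P36.TypeTwoPts20

/-! ### Gauss layer -/

section Generic

variable {Kt : Type*} [Field Kt] (O : ValuationSubring Kt)
  (E' E : IntermediateField Kt (LaurentSeries Kt))

/-- **the `i = 1` clause of `PtsModel9.OneAt`**: a closed point through which only the middle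
component passes is a `OneBranch` point. -/
def OneMidAt (q : ℕ) (π : ↥O) (B : Subalgebra ↥O ↥E) (Of : Fin 3 → ValuationSubring ↥E) : Prop :=
  ∀ (𝔪 : Ideal ↥B) (h𝔪 : 𝔪.IsMaximal), algebraMap ↥O ↥B π ∈ 𝔪 →
    (∀ j, j ≠ 1 → OffBranch π B (Of j) 𝔪) →
    @OneBranch ↥O ↥E _ _ _ q π B (Fin 3) Of 𝔪 h𝔪.isPrime

variable {O E}

/-- `OneAt` from its three clauses (`i = 0, 2`: R8; `i = 1`: R7). -/
theorem oneAt_of_clauses {q : ℕ} {π : ↥O} {B : Subalgebra ↥O ↥E}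
    {Of : Fin 3 → ValuationSubring ↥E}
    (h0 : ∀ (𝔪 : Ideal ↥B) (h𝔪 : 𝔪.IsMaximal), algebraMap ↥O ↥B π ∈ 𝔪 →
      (∀ j, j ≠ 0 → OffBranch π B (Of j) 𝔪) →
      @OneBranch ↥O ↥E _ _ _ q π B (Fin 3) Of 𝔪 h𝔪.isPrime)
    (h1 : OneMidAt O E q π B Of)
    (h2 : ∀ (𝔪 : Ideal ↥B) (h𝔪 : 𝔪.IsMaximal), algebraMap ↥O ↥B π ∈ 𝔪 →
      (∀ j, j ≠ 2 → OffBranch π B (Of j) 𝔪) →
      @OneBranch ↥O ↥E _ _ _ q π B (Fin 3) Of 𝔪 h𝔪.isPrime) :
    OneAt O E q π B Of := by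
  intro i
  fin_cases i
  · exact h0
  · exact h1
  · exact h2

theorem OneAt.oneMidAt {q : ℕ} {π : ↥O} {B : Subalgebra ↥O ↥E}
    {Of : Fin 3 → ValuationSubring ↥E} (h : OneAt O E q π B Of) : OneMidAt O E q π B Of :=
  h 1

variable (O E)

/-- **Horizontal unramifiedness of `E / a E'` at the one-branch points (on `W1`, off `W2`) of the chart
`B'`** — the `hUNR` of `RegSemiChart20.regDataSemi_chart` at every such point (supplier: `HunrSq26`). -/
def HunrAt (π : ↥O) (a : ↥E' →ₐ[Kt] ↥E) (B' : Subalgebra ↥O ↥E') (B : Subalgebra ↥O ↥E)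
    (W1 W2 : ValuationSubring ↥E') : Prop :=
  ∀ x1 : Ideal ↥B', x1.IsMaximal → algebraMap ↥O ↥B' π ∈ x1 →
    (∀ b : ↥B', (∃ c ∈ W1, (b : ↥E') = algebraMap ↥O ↥E' π * c) → b ∈ x1) →
    OffBranch π B' W2 x1 →
    ∀ O' : ValuationSubring ↥E, (∀ y ∈ B, y ∈ O') →
      (∀ d : ↥B', d ∉ x1 → (a (d : ↥E'))⁻¹ ∈ O') →
      IsDiscreteValuationRing O' → (algebraMap ↥O ↥E π)⁻¹ ∈ O' →
      ∃ g : ↥B', (a (g : ↥E'))⁻¹ ∉ O' ∧ ∀ y ∈ O', y⁻¹ ∉ O' → y / a (g : ↥E') ∈ O'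

variable {O E' E}

set_option maxHeartbeats 4000000 in
/-- **R7 for one chart, Gauss-layer form**: charts `chart O s' ⊂ E'`, `chart O s ⊂ E`, `a s' = s`. -/
theorem oneMidAt_of {q : ℕ} (hq : 2 ≤ q) {π : ↥O} (a : ↥E' →ₐ[Kt] ↥E) {s' : ↥E'} {s : ↥E}
    (hs : a s' = s)
    (dvrR : ∀ r : ↥O, r ≠ 0 → ∃ (k : ℕ) (v : (↥O)ˣ), r = π ^ k * v)
    (hchar : ∀ n : ℕ, n ≠ 0 → ∃ k : ℕ, (n : ↥O) ∣ π ^ k)
    -- the chart of level `M′q`
    (noethBM : IsNoetherianRing ↥(chart ↥O s'))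
    (fracBM : ∀ x : ↥E', ∃ a ∈ chart ↥O s', ∃ b ∈ chart ↥O s', b ≠ 0 ∧ x * b = a)
    (W1 W2 : ValuationSubring ↥E') (leW1 : ∀ x ∈ chart ↥O s', x ∈ W1)
    (leW2 : ∀ x ∈ chart ↥O s', x ∈ W2)
    (pi_ne : algebraMap ↥O ↥E' π ≠ 0)
    (pi_nonunit1 : (algebraMap ↥O ↥E' π)⁻¹ ∉ W1)
    (unif1 : ∀ x ∈ W1, x⁻¹ ∉ W1 → ∃ c ∈ W1, x = algebraMap ↥O ↥E' π * c)
    (arch1 : ∀ x : ↥E', ∃ k : ℕ, algebraMap ↥O ↥E' π ^ k * x ∈ W1)
    (satM : ∀ b ∈ chart ↥O s', ∀ c : ↥E', c ∈ W1 → c ∈ W2 → b = algebraMap ↥O ↥E' π * c →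
      c ∈ chart ↥O s')
    (hgauss : ∀ p : (↥O)[X], W1.valuation (aeval s' p) < 1 → ∀ i, π ∣ p.coeff i)
    (smoothM : ∀ x : Ideal ↥(chart ↥O s'), x.IsMaximal → algebraMap ↥O ↥(chart ↥O s') π ∈ x →
      OffBranch π (chart ↥O s') W1 x ∨ OffBranch π (chart ↥O s') W2 x →
      SmoothAt π (chart ↥O s') x)
    -- the chart of level `M′q²`
    (noethB : IsNoetherianRing ↥(chart ↥O s))
    (fracB : ∀ x : ↥E, ∃ a ∈ chart ↥O s, ∃ b ∈ chart ↥O s, b ≠ 0 ∧ x * b = a)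
    (gen : ∃ (r : ℕ) (e : Fin r → ↥E), (∀ i, e i ∈ chart ↥O s) ∧
      ∀ x ∈ chart ↥O s, ∃ P : Fin r → (↥O)[X], x = ∑ i, aeval s (P i) * e i)
    (Of : Fin 3 → ValuationSubring ↥E) (leO : ∀ j, ∀ x ∈ chart ↥O s, x ∈ Of j)
    (satB : ∀ b ∈ chart ↥O s, ∀ c : ↥E, (∀ j, c ∈ Of j) → b = algebraMap ↥O ↥E π * c →
      c ∈ chart ↥O s)
    (c0 : (Of 0).comap (a : ↥E' →+* ↥E) = W1) (c1 : (Of 1).comap (a : ↥E' →+* ↥E) = W1)
    (c2 : (Of 2).comap (a : ↥E' →+* ↥E) = W2)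
    (unifV1 : ∀ x : ↥E, (Of 0).valuation x < 1 →
      (Of 0).valuation x ≤ (Of 0).valuation (algebraMap ↥O ↥E π))
    (res1 : ∀ h ∈ Of 0, ∃ x ∈ W1, (Of 0).valuation (h - a x) < 1)
    (res2 : ∀ h ∈ Of 1, ∃ x ∈ W1, (Of 1).valuation (h - a x) < 1)
    (hcross : CrossAt O E' E q π a (chart ↥O s') (chart ↥O s) W1 W2 Of)
    -- the uniformiser of the middle component
    (T : ↥E) (valT : (Of 1).valuation T < 1)
    (valπ : (Of 1).valuation (algebraMap ↥O ↥E π) = (Of 1).valuation T ^ (q - 1))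
    (unifT : ∀ x : ↥E, (Of 1).valuation x < 1 → (Of 1).valuation x ≤ (Of 1).valuation T)
    -- rank and exponent
    (hfd : letI := algebraAlong a; FiniteDimensional ↥E' ↥E)
    (hsep : letI := algebraAlong a; Algebra.IsSeparable ↥E' ↥E)
    (hrank : letI := algebraAlong a; Module.finrank ↥E' ↥E = q)
    (ζ : ↥E) (hζO : ∀ j, ζ ∈ Of j)
    (hprim : letI := algebraAlong a; (minpoly ↥E' ζ).natDegree = Module.finrank ↥E' ↥E)
    (m : ℕ) (hm : m + 2 ≤ q)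
    (hN : letI := algebraAlong a
      W1.valuation (algebraMap ↥O ↥E' π) ^ m ≤
        W1.valuation (Algebra.norm ↥E' (aeval ζ (derivative (minpoly ↥E' ζ)))))
    -- per point
    (hUNR : HunrAt O E' E π a (chart ↥O s') (chart ↥O s) W1 W2) :
    OneMidAt O E q π (chart ↥O s) Of := by
  subst hs
  have hφB : ∀ b : ↥(chart ↥O s'), (a : ↥E' →+* ↥E) (b : ↥E') ∈ chart ↥O (a s') := fun b =>
    ChartMaps9.algHom_mem_chart a (self_mem_chart _) b.2
  exact oneAt_mid_chart π (a : ↥E' →+* ↥E) (chart ↥O s') (chart ↥O (a s')) hφB q hq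
    (Fermat.Agent.ES.N34.ModelN4.algHom_algebraMap_O O E' E a) dvrR hchar s' (self_mem_chart s')
    (fun x hx => hx) noethBM (chart_intcl s') fracBM W1 W2 leW1 leW2 pi_ne pi_nonunit1 unif1 arch1
    satM hgauss smoothM noethB (chart_intcl (a s')) fracB (fun x hx => hx) gen Of leO satB c0 c1 c2
    unifV1 res1 res2 (hcross fun b hb => hφB ⟨b, hb⟩) T valT valπ unifT hfd hsep hrank ζ hζO hprim
    m hm hN hUNR

end Generic

/-! ### Model layer: the `ModelDefsP9` data over one number field `K` -/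

section Model

open Fermat.Agent.RED.Interface4 Fermat.Agent.RED.PUR.GaussGen8 Fermat.Agent.RED.BASE.EtaQuot12
  Fermat.Agent.ES.N34 Fermat.Agent.ES.P36.ModelDefsP9 Fermat.Agent.ES.P36.GenInst11

variable {n e q M' : ℕ} [NeZero n] [NeZero M'] [NeZero q] {A : ValuationSubring Qbar}
  {K : IntermediateField ℚ Qbar}

/-- `[F″ : α₂ F′] = q`. -/
theorem finrank_alpha2 (hq : q.Prime) :
    letI := algebraAlong (alpha2 K M' q)
    Module.finrank (FK (M' * q) K) (FK (M' * q * q) K) = q :=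
  HeckeDeg19.finrankAlong_alpha_of_dvd (↥K) (M' * q) q hq (dvd_mul_left q M')

/-- `F″` is finite over `α₂ F′`. -/
theorem finite_alpha2 (hq : q.Prime) :
    letI := algebraAlong (alpha2 K M' q)
    Module.Finite (FK (M' * q) K) (FK (M' * q * q) K) :=
  HeckeDeg19.finiteAlong_alpha_of_dvd (↥K) (M' * q) q hq (dvd_mul_left q M')

/-- `F″` is separable over `α₂ F′` (characteristic zero). -/
theorem isSeparable_alpha2 (hq : q.Prime) :
    letI := algebraAlong (alpha2 K M' q)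
    Algebra.IsSeparable (FK (M' * q) K) (FK (M' * q * q) K) := by
  letI := algebraAlong (alpha2 K M' q)
  haveI : Module.Finite (FK (M' * q) K) (FK (M' * q * q) K) := finite_alpha2 (K := K) (M' := M') hq
  haveI : CharZero (FK (M' * q) K) :=
    charZero_of_injective_algebraMap (algebraMap ↥K ↥(FK (M' * q) K)).injective
  infer_instance

set_option maxHeartbeats 4000000 in
/-- **R7 at the model data, for fixed `(ht, π, O2)`**: the `i = 1` clause of `PtsModel9.OneAt` on both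
charts. -/
theorem oneMid_model (hq : q.Prime) (ht : tq (↥K) n e ∈ FK M' K) {π : ↥(AK A K)}
    (hπ : IsUnif (AK A K) π) (O2 : ValuationSubring ↥(FK (M' * q * q) K))
    (hO2 : IsMid M' q hπ O2)
    -- level `M′q` (`ModelQAt4.nodalNumData_at` / `ModelInert4`)
    (D : NumData13.NodalNumData ↥(AK A K) ↥K ↥(FK (M' * q) K) π (ModelDefs9.tN q ht)
      (ModelDefs9.B0 A q ht) (ModelDefs9.B1 A q ht) (O1q M' q hπ) (O2q M' q hπ))
    (hgauss0 : ∀ p : (↥(AK A K))[X],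
      (O1q M' q hπ).valuation (aeval (ModelDefs9.tN q ht) p) < 1 → ∀ i, π ∣ p.coeff i)
    (hgauss1 : ∀ p : (↥(AK A K))[X],
      (O1q M' q hπ).valuation (aeval (ModelDefs9.tN q ht)⁻¹ p) < 1 → ∀ i, π ∣ p.coeff i)
    -- level `M′q²` (M7 + M1)
    (model : MultiAt (AK A K) (FK (M' * q * q) K) π (t q ht) (B0 A q ht) (B1 A q ht)
      (Ofam M' q hπ O2))
    (noeth0 : IsNoetherianRing ↥(B0 A q ht)) (noeth1 : IsNoetherianRing ↥(B1 A q ht))
    (frac0 : ∀ y : ↥(FK (M' * q * q) K), ∃ a ∈ B0 A q ht, ∃ b ∈ B0 A q ht, b ≠ 0 ∧ y * b = a)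
    (frac1 : ∀ y : ↥(FK (M' * q * q) K), ∃ a ∈ B1 A q ht, ∃ b ∈ B1 A q ht, b ≠ 0 ∧ y * b = a)
    (gen1 : ∃ (r : ℕ) (e : Fin r → ↥(FK (M' * q * q) K)), (∀ i, e i ∈ B1 A q ht) ∧
      ∀ x ∈ B1 A q ht, ∃ P : Fin r → (↥(AK A K))[X], x = ∑ i, aeval (t q ht)⁻¹ (P i) * e i)
    -- R6 along `α₂`
    (hcross0 : CrossAt (AK A K) (FK (M' * q) K) (FK (M' * q * q) K) q π (alpha2 K M' q)
      (ModelDefs9.B0 A q ht) (B0 A q ht) (O1q M' q hπ) (O2q M' q hπ) (Ofam M' q hπ O2))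
    (hcross1 : CrossAt (AK A K) (FK (M' * q) K) (FK (M' * q * q) K) q π (alpha2 K M' q)
      (ModelDefs9.B1 A q ht) (B1 A q ht) (O1q M' q hπ) (O2q M' q hπ) (Ofam M' q hπ O2))
    -- the middle valuation (M4/M6) and the generic-point table (G2)
    (T : ↥(FK (M' * q * q) K)) (Mid : MidUnif A K M' q hπ O2 T)
    (Htab : GenTable11.TableG2 (AK A K) ((π : ↥(AK A K)) : ↥K) q (alpha2 K M' q) (beta2 K M' q)
      (O1q M' q hπ) (O2q M' q hπ) (O1 M' q hπ) O2 (O3 M' q hπ) T)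
    -- (D2.3): primitive element and the norm of its different
    (ζ : ↥(FK (M' * q * q) K)) (hζO : ∀ j, ζ ∈ Ofam M' q hπ O2 j)
    (hprim : letI := algebraAlong (alpha2 K M' q)
      (minpoly ↥(FK (M' * q) K) ζ).natDegree =
        Module.finrank ↥(FK (M' * q) K) ↥(FK (M' * q * q) K))
    (hN : letI := algebraAlong (alpha2 K M' q)
      (O1q M' q hπ).valuation (algebraMap ↥(AK A K) ↥(FK (M' * q) K) π) ^ (q - 2) ≤
        (O1q M' q hπ).valuation (Algebra.norm ↥(FK (M' * q) K)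
          (aeval ζ (derivative (minpoly ↥(FK (M' * q) K) ζ)))))
    -- per point
    (hUNR0 : HunrAt (AK A K) (FK (M' * q) K) (FK (M' * q * q) K) π (alpha2 K M' q)
      (ModelDefs9.B0 A q ht) (B0 A q ht) (O1q M' q hπ) (O2q M' q hπ))
    (hUNR1 : HunrAt (AK A K) (FK (M' * q) K) (FK (M' * q * q) K) π (alpha2 K M' q)
      (ModelDefs9.B1 A q ht) (B1 A q ht) (O1q M' q hπ) (O2q M' q hπ)) :
    OneMidAt (AK A K) (FK (M' * q * q) K) q π (B0 A q ht) (Ofam M' q hπ O2) ∧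
      OneMidAt (AK A K) (FK (M' * q * q) K) q π (B1 A q ht) (Ofam M' q hπ O2) := by
  have model' : MultiChartModel ↥(AK A K) ↥(FK (M' * q * q) K) π (t q ht) (B0 A q ht)
      (B1 A q ht) (Ofam M' q hπ O2) := model
  have hfd := finite_alpha2 (K := K) (M' := M') hq
  have hsep := isSeparable_alpha2 (K := K) (M' := M') hq
  have hrank := finrank_alpha2 (K := K) (M' := M') hq
  have hq2 : q - 2 + 2 ≤ q := by have := hq.two_le; omega
  have hchar : ∀ k : ℕ, k ≠ 0 → ∃ j : ℕ, (k : ↥(AK A K)) ∣ π ^ j := by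
    intro k hk
    have hk0 : (k : ↥(AK A K)) ≠ 0 := by
      intro h0
      have h1 : ((k : ↥(AK A K)) : ↥K) = 0 := by rw [h0]; rfl
      rw [show ((k : ↥(AK A K)) : ↥K) = (k : ↥K) from by push_cast; rfl] at h1
      exact hk (Nat.cast_eq_zero.mp h1)
    obtain ⟨j, v, hv⟩ := D.dvrR _ hk0
    exact ⟨j, ↑v⁻¹, by rw [hv, mul_assoc, Units.mul_inv, mul_one]⟩
  have valπ : (Ofam M' q hπ O2 1).valuation
      (algebraMap ↥(AK A K) ↥(FK (M' * q * q) K) π) =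
      (Ofam M' q hπ O2 1).valuation T ^ (q - 1) :=
    Fermat.Agent.ES.P36.TypeTwoAsm1.valπ_of_zpow O2 hq.one_le Mid.hTπ
  refine ⟨?_, ?_⟩
  · exact oneMidAt_of (O := AK A K) (E' := FK (M' * q) K) (E := FK (M' * q * q) K) hq.two_le
      (alpha2 K M' q) (s' := ModelDefs9.tN q ht) (s := t q ht) rfl D.dvrR hchar D.noeth0 D.frac0
      (O1q M' q hπ) (O2q M' q hπ) D.model.le_O1_0 D.model.le_O2_0 D.model.pi_ne
      D.model.pi_nonunit1 D.model.unif1 D.model.arch1 D.model.sat0 hgauss0 D.smooth0 noeth0 frac0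
      model'.fin0 (Ofam M' q hπ O2) model'.le_O_0 model'.sat0 Htab.cα1 hO2.1 Htab.cα3
      Htab.unifV1 Htab.genModel.resα1 Htab.genModel.resα2 hcross0 T Mid.hT1 valπ Mid.unif
      hfd hsep hrank ζ hζO hprim (q - 2) hq2 hN hUNR0
  · exact oneMidAt_of (O := AK A K) (E' := FK (M' * q) K) (E := FK (M' * q * q) K) hq.two_le
      (alpha2 K M' q) (s' := (ModelDefs9.tN q ht)⁻¹) (s := (t q ht)⁻¹) (map_inv₀ _ _) D.dvrR
      hchar D.noeth1 D.frac1
      (O1q M' q hπ) (O2q M' q hπ) D.model.le_O1_1 D.model.le_O2_1 D.model.pi_ne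
      D.model.pi_nonunit1 D.model.unif1 D.model.arch1 D.model.sat1 hgauss1 D.smooth1 noeth1 frac1
      gen1 (Ofam M' q hπ O2) model'.le_O_1 model'.sat1 Htab.cα1 hO2.1 Htab.cα3
      Htab.unifV1 Htab.genModel.resα1 Htab.genModel.resα2 hcross1 T Mid.hT1 valπ Mid.unif
      hfd hsep hrank ζ hζO hprim (q - 2) hq2 hN hUNR1

end Model

end Fermat.Agent.ES.P36.TypeTwoModel20
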