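/-
Program P (S36), chapter REG, brick R7 (points of type II), PER-`K` FORM (helper20):
**`OneCases9.OneItemsPI n e q M' A K 1`** — the `i = 1` clause of `PtsModel9.OneItemsP` (only the non-reduced
middle component passes ⇒ `OneBranch`), both charts, every uniformiser, every middle ring — from
`TypeTwoModel20.oneMid_model` and the per-`K` packages of its suppliers.

* `oneItemsPI_one_of` : generic in the Hauptmodul `(n, e)`.  Inputs, in their owners' literal shapes: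
  - `hD`     : `NumData13.NodalNumData` of level `M′q` (`ModelQAt4.nodalNumData_at` / `ModelInert4`);
  - `hmulti` : `PtsModel9.MultiItemsP` (M7), `hchart` : `ChartP14.ChartInputsMAt` (M1, `ChartInstP14`);
  - `hcross` : `PtsModel9.CrossItemsP` (R6; only the two `α₂` clauses are used);
  - `G`      : `GenItems20.GenFactsP` (chapter (G): the table (G2) through `GenInst11.tableG2_model`);
  - `hH`     : `MidVal23.MidHyp` (M4/M6 and (D2.3): `MidInst23.midUnif_of_midHyp`, `DiffXi2.hprim_hN_xi`,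
               `T = ζ = ξ = j(𝐪^{q²}) − j(𝐪)`);
  - leaves `hgauss0 hgauss1 gen1 hζO` (`TypeTwoLeaves13`);
  - `hUNR0 hUNR1` : `TypeTwoModel20.HunrAt` (R7c, `HunrSqInv26.hUNRM_sq_chart0/1`).
-/
import Mathlib
import Fermat.Agent.ES.P36.TypeTwoModel20
import Fermat.Agent.ES.P36.OneCases9
import Fermat.Agent.ES.P36.DiffXi2
import Fermat.Agent.ES.P36.MidInst23
import Fermat.Agent.ES.P36.GenItems20
import Fermat.Agent.ES.P36.ChartP14

set_option autoImplicit false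
set_option linter.unusedSectionVars false
set_option linter.style.haveILetI false
set_option synthInstance.maxHeartbeats 400000

open HahnSeries ModularCurve AlgebraicCurve

noncomputable section

namespace Fermat.Agent.ES.P36.TypeTwoFinal20

open Polynomial Fermat.Agent.RED.PUR.ChartGeneric22
  Fermat.Agent.RED.Interface4 Fermat.Agent.RED.PUR.GaussGen8 Fermat.Agent.RED.BASE.EtaQuot12
  Fermat.Agent.ES.N34 Fermat.Agent.ES.N34.NodalCore13 Fermat.Agent.ES.P36.ModelDefsP9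
  Fermat.Agent.ES.P36.GenInst11 Fermat.Agent.ES.P36.PtsModel9 Fermat.Agent.ES.P36.OneCases9
  Fermat.Agent.ES.P36.TypeTwoModel20 Fermat.Agent.ES.P36.MidVal23

variable {n e q M' : ℕ} [NeZero n] [NeZero M'] [NeZero q] {A : ValuationSubring Qbar}
  {K : IntermediateField ℚ Qbar}

set_option maxHeartbeats 4000000 in
/-- **R7 + R7c per `K`, generic in the Hauptmodul**: the `i = 1` clause of `OneItemsP`. -/
theorem oneItemsPI_one_of (hq : q.Prime)
    -- level `M′q`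
    (hD : ∀ (ht : tq (↥K) n e ∈ FK M' K) (π : ↥(AK A K)) (hπ : IsUnif (AK A K) π),
      NumData13.NodalNumData ↥(AK A K) ↥K ↥(FK (M' * q) K) π (ModelDefs9.tN q ht)
        (ModelDefs9.B0 A q ht) (ModelDefs9.B1 A q ht) (O1q M' q hπ) (O2q M' q hπ))
    -- level `M′q²`: M7, M1, R6
    (hmulti : MultiItemsP n e q M' A K)
    (hchart : ∀ (ht : tq (↥K) n e ∈ FK M' K) (π : ↥(AK A K)), IsUnif (AK A K) π →
      ChartP14.ChartInputsMAt (AK A K) (FK (M' * q * q) K) π (t q ht))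
    (hcross : CrossItemsP n e q M' A K)
    -- chapter (G), M4/M6, (D2.3)
    (G : GenItems20.GenFactsP A K M' q)
    (hH : ∀ (π : ↥(AK A K)) (hπ : IsUnif (AK A K) π), MidHyp M' q hπ)
    -- leaves
    (hgauss0 : ∀ (ht : tq (↥K) n e ∈ FK M' K) (π : ↥(AK A K)) (hπ : IsUnif (AK A K) π)
      (p : (↥(AK A K))[X]),
      (O1q M' q hπ).valuation (aeval (ModelDefs9.tN q ht) p) < 1 → ∀ i, π ∣ p.coeff i)
    (hgauss1 : ∀ (ht : tq (↥K) n e ∈ FK M' K) (π : ↥(AK A K)) (hπ : IsUnif (AK A K) π)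
      (p : (↥(AK A K))[X]),
      (O1q M' q hπ).valuation (aeval (ModelDefs9.tN q ht)⁻¹ p) < 1 → ∀ i, π ∣ p.coeff i)
    (gen1 : ∀ ht : tq (↥K) n e ∈ FK M' K,
      ∃ (r : ℕ) (e : Fin r → ↥(FK (M' * q * q) K)), (∀ i, e i ∈ B1 A q ht) ∧
        ∀ x ∈ B1 A q ht, ∃ P : Fin r → (↥(AK A K))[X], x = ∑ i, aeval (t q ht)⁻¹ (P i) * e i)
    (hζO : ∀ (π : ↥(AK A K)) (hπ : IsUnif (AK A K) π)
      (O2 : ValuationSubring ↥(FK (M' * q * q) K)), IsMid M' q hπ O2 →
      ∀ j, xi K M' q ∈ Ofam M' q hπ O2 j)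
    -- R7c
    (hUNR0 : ∀ (ht : tq (↥K) n e ∈ FK M' K) (π : ↥(AK A K)) (hπ : IsUnif (AK A K) π),
      HunrAt (AK A K) (FK (M' * q) K) (FK (M' * q * q) K) π (alpha2 K M' q)
        (ModelDefs9.B0 A q ht) (B0 A q ht) (O1q M' q hπ) (O2q M' q hπ))
    (hUNR1 : ∀ (ht : tq (↥K) n e ∈ FK M' K) (π : ↥(AK A K)) (hπ : IsUnif (AK A K) π),
      HunrAt (AK A K) (FK (M' * q) K) (FK (M' * q * q) K) π (alpha2 K M' q)
        (ModelDefs9.B1 A q ht) (B1 A q ht) (O1q M' q hπ) (O2q M' q hπ)) :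
    OneItemsPI n e q M' A K 1 := by
  intro ht π hπ O2 hO2
  have Mid : MidUnif A K M' q hπ O2 (xi K M' q) :=
    Fermat.Agent.ES.P36.MidInst23.midUnif_of_midHyp (hH π hπ) hO2
  have Htab := tableG2_model hq (G.base π hπ) (G.v1 π hπ) (G.v3 π hπ) (G.kron π hπ) Mid
  obtain ⟨hprim, hN⟩ := Fermat.Agent.ES.P36.DiffXi2.hprim_hN_xi (hH π hπ) hO2
  have chart := (hchart ht π hπ).out
  obtain ⟨hc0, -, hc1, -⟩ := hcross ht π hπ O2 hO2
  exact oneMid_model hq ht hπ O2 hO2 (hD ht π hπ) (hgauss0 ht π hπ) (hgauss1 ht π hπ)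
    (hmulti ht π hπ O2 hO2) chart.noeth0 chart.noeth1 chart.frac0 chart.frac1 (gen1 ht) hc0 hc1
    (xi K M' q) Mid Htab (xi K M' q) (hζO π hπ O2 hO2) hprim hN.ge (hUNR0 ht π hπ) (hUNR1 ht π hπ)

end Fermat.Agent.ES.P36.TypeTwoFinal20
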