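/-
Program P (S36), chapter REG, brick R7, the three small LEAVES of `TypeTwoModel20.oneMid_model`
(helper13), in its literal shapes:

* `hgauss0`, `hgauss1` — **the Gauss property of `tN^{±1}` at `O1q`**: a polynomial `p ∈ A_K[X]` with
  `|p(tN^{±1})|_{O1q} < 1` has all its coefficients divisible by `π` (generic: `dvd_coeff_of_val_lt_one`, from
  the transcendence of the residue; `gauss_inv` transports the Gauss facts to the inverse);
* `gen1` — **finite generation of the chart `B1″ = chart A_K t⁻¹` over `A_K[t⁻¹]`** (generic: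
  `chart_generators_inv`, `ChartGeneric22.chart_facts` at `t⁻¹`; Gauss form `chart_generators_inv_gauss`);
* `hζO` — **`ξ = j(𝐪^{q²}) − j(𝐪)` lies in all three vertical valuation rings** `O1`, `O2` (middle), `O3`.

Model forms (`ModelDefsP9` names, one number field `K`): `hgauss_tN`, `hgauss_tN_inv`, `gen1_t`, `xi_mem_Ofam`.
-/
import Mathlib
import Fermat.Agent.RED.DESC.NumberFieldDVR27
import Fermat.Agent.ES.N34.GaussEmb22
import Fermat.Agent.ES.N34.ChartN26
import Fermat.Agent.ES.P36.ChartAt26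
import Fermat.Agent.ES.P36.ModelDefsP9
import Fermat.Agent.ES.P36.V3Facts8
import Fermat.Agent.ES.P36.MidVal23

set_option autoImplicit false
set_option linter.unusedSectionVars false
set_option linter.style.haveILetI false
set_option synthInstance.maxHeartbeats 400000
set_option maxHeartbeats 1000000

open Polynomial

noncomputable section

namespace Fermat.Agent.ES.P36.TypeTwoLeaves13

/-! ### Generic: the Gauss property -/

section Gauss

open HahnSeries
open Fermat.Agent.RED.PUR.GaussGen8 Fermat.Agent.RED.PUR.KtGauss8 Fermat.Agent.ES.N34.GaussEmb22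

variable {K : Type*} [Field K] {O : ValuationSubring K} [IsDiscreteValuationRing ↥O]
  {F : Type*} [Field F] [Algebra K F] {ι : F →ₐ[K] LaurentSeries K} {V : ValuationSubring F}
  [Algebra ↥O F] [IsScalarTower ↥O K F] {π : ↥O}

/-- **The Gauss property**: `V` a Gauss pull-back, the residue of `s` transcendental over the residue field:
`|p(s)|_V < 1` forces `π ∣` every coefficient of `p ∈ O[X]`. -/
theorem dvd_coeff_of_val_lt_one (hV : IsGaussPullback O ι V) (hπ : Irreducible π) {s : F}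
    (hs : ι s ∈ gaussRing O) (htr : Transcendental (Res O) (gaussRed O ⟨ι s, hs⟩))
    (p : (↥O)[X]) (hp : V.valuation (aeval s p) < 1) : ∀ i, π ∣ p.coeff i := by
  have hpV : (aeval s p : F) ∈ V := by
    rw [← V.valuation_le_one_iff]; exact hp.le
  have h1 : redOf hV ⟨_, hpV⟩ = 0 := (redOf_eq_zero_iff hV _).mpr hp
  have h2 : toGauss hV ⟨_, hpV⟩ = polyG O ⟨ι s, hs⟩ p := by
    apply Subtype.ext
    rw [coe_toGauss, coe_polyG]
    show ι (aeval s p) = _
    rw [aeval_O_eq, map_aeval]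
  rw [redOf_apply, h2, gaussRed_polyG] at h1
  have h3 : p.map (res0 O) = 0 := (transcendental_iff.mp htr) _ h1
  exact (Polynomial.C_dvd_iff_dvd_coeff π p).mp ((map_res0_eq_zero_iff hπ p).mp h3)

omit [IsDiscreteValuationRing ↥O] [Algebra ↥O F] [IsScalarTower ↥O K F] in
/-- The Gauss facts of `s` pass to `s⁻¹`. -/
theorem gauss_inv {s : F} (hs : ι s ∈ gaussRing O)
    (htr : Transcendental (Res O) (gaussRed O ⟨ι s, hs⟩)) :
    ∃ hs' : ι s⁻¹ ∈ gaussRing O, Transcendental (Res O) (gaussRed O ⟨ι s⁻¹, hs'⟩) := by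
  have hne : gaussRed O ⟨ι s, hs⟩ ≠ 0 := fun h0 => htr (h0 ▸ isAlgebraic_zero)
  have hinv := inv_mem_of_gaussRed_ne_zero O ⟨ι s, hs⟩ hne
  have hs' : ι s⁻¹ ∈ gaussRing O := by rw [map_inv₀]; exact hinv
  refine ⟨hs', ?_⟩
  have he : (⟨ι s⁻¹, hs'⟩ : ↥(gaussRing O)) = ⟨(ι s)⁻¹, hinv⟩ := Subtype.ext (map_inv₀ ι s)
  rw [he, gaussRed_inv O ⟨ι s, hs⟩ hne]
  exact fun h => htr (IsAlgebraic.inv_iff.1 h)

end Gauss

/-! ### Generic: generators of the chart at `t⁻¹` -/

section Gen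

open Fermat.Agent.RED.PUR.ChartGeneric22

variable {R K F : Type*} [CommRing R] [IsDomain R] [Field K] [Field F] [Algebra R K] [Algebra K F]
  [Algebra R F] [IsScalarTower R K F] [IsFractionRing R K] [IsNoetherianRing R]
  [IsIntegrallyClosed R] [CharZero K]

/-- the chart `chart R t⁻¹` is finitely generated over `R[t⁻¹]` (`chart_facts` at `t⁻¹`). -/
theorem chart_generators_inv {t : F} [FiniteDimensional (IntermediateField.adjoin K {t}) F]
    (htr : Transcendental K t) :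
    ∃ (r : ℕ) (e : Fin r → F), (∀ i, e i ∈ chart R t⁻¹) ∧
      ∀ x ∈ chart R t⁻¹, ∃ P : Fin r → R[X], x = ∑ i, aeval t⁻¹ (P i) * e i := by
  have hmem : t ∈ IntermediateField.adjoin K {t} := IntermediateField.mem_adjoin_simple_self K t
  have hinv_mem : t⁻¹ ∈ IntermediateField.adjoin K {t} := inv_mem hmem
  have hE' : IntermediateField.adjoin K {t} ≤ IntermediateField.adjoin K {t⁻¹} := by
    rw [IntermediateField.adjoin_le_iff, Set.singleton_subset_iff]
    have h1 : t⁻¹ ∈ IntermediateField.adjoin K {t⁻¹} :=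
      IntermediateField.mem_adjoin_simple_self K t⁻¹
    have h2 := inv_mem h1
    rwa [inv_inv] at h2
  have htr' : Transcendental K t⁻¹ := fun h => htr (IsAlgebraic.inv_iff.1 h)
  exact (chart_facts (R := R) (IntermediateField.adjoin K {t}) hinv_mem hE' htr').2.2

end Gen

section GenGauss

open HahnSeries IntermediateField
open Fermat.Agent.RED.PUR.GaussGen8 Fermat.Agent.RED.PUR.KtGauss8
  Fermat.Agent.RED.PUR.G1Package8 Fermat.Agent.RED.NumInst4 Fermat.Agent.RED.ModelAsm4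
  Fermat.Agent.RED.PUR.ChartGeneric22

variable {K : Type*} [Field K] {O : ValuationSubring K} [IsDiscreteValuationRing ↥O]
  {E : IntermediateField K (LaurentSeries K)}

/-- Gauss form of `chart_generators_inv` (hypotheses of `ChartN26.chartInputs_gauss`). -/
theorem chart_generators_inv_gauss [CharZero K] {π : ↥O} (hπ : Irreducible π) (t : ↥E)
    (ht : (t : LaurentSeries K) ∈ gaussRing O)
    (htr : Transcendental (Res O) (gaussRed O ⟨(t : LaurentSeries K), ht⟩))
    (hn : relfinrank (Kt O ⟨(t : LaurentSeries K), ht⟩) E ≠ 0) :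
    ∃ (r : ℕ) (e : Fin r → ↥E), (∀ i, e i ∈ chart ↥O t⁻¹) ∧
      ∀ x ∈ chart ↥O t⁻¹, ∃ P : Fin r → (↥O)[X], x = ∑ i, aeval t⁻¹ (P i) * e i := by
  have : IsScalarTower ↥O K ↥E := isScalarTower_OE O E
  have : FiniteDimensional ↥(IntermediateField.adjoin K {t}) ↥E := finiteDimensional_adjoin t hn
  have htrK : Transcendental K t :=
    transcendental_of_coe t (transcendental_t (tG := ⟨(t : LaurentSeries K), ht⟩) hπ htr)
  exact chart_generators_inv (R := ↥O) (K := K) htrK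

end GenGauss

/-! ### The model forms -/

section Model

open HahnSeries ModularCurve IntermediateField
open Fermat.Agent.RED.Interface4 Fermat.Agent.RED.PUR.GaussGen8 Fermat.Agent.RED.PUR.KtGauss8
  Fermat.Agent.RED.PUR.GaussBridge10 Fermat.Agent.RED.BASE.EtaQuot12
  Fermat.Agent.RED.DESC.NumberFieldDVR27 Fermat.Agent.RED.ModelMain4 Fermat.Agent.RED.ModelTargets4
  Fermat.Agent.ES.N34 Fermat.Agent.ES.N34.GaussEmb22 Fermat.Agent.ES.N34.FrickeFK8
  Fermat.Agent.ES.P36.ModelDefsP9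
  Fermat.Agent.ES.P36.MidVal23

variable {n e M' : ℕ} [NeZero n] [NeZero M'] (q : ℕ) [NeZero q] {A : ValuationSubring Qbar}
  {K : IntermediateField ℚ Qbar}

/-- the Gauss facts of `tN` (level `M' q`) at one `K`. -/
theorem gaussFacts_tN (ht : tq (↥K) n e ∈ FK M' K) :
    ∃ htG : ((ModelDefs9.tN q ht : ↥(FK (M' * q) K)) : LaurentSeries K) ∈ gaussRing (AK A K),
      Transcendental (Res (AK A K))
        (gaussRed (AK A K) ⟨((ModelDefs9.tN q ht : ↥(FK (M' * q) K)) : LaurentSeries K), htG⟩) := by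
  have htq : ((ModelDefs9.tN q ht : ↥(FK (M' * q) K)) : LaurentSeries K) = tq (↥K) n e :=
    ModelDefs9.coe_tN q ht
  have htG : ((ModelDefs9.tN q ht : ↥(FK (M' * q) K)) : LaurentSeries K) ∈ gaussRing (AK A K) := by
    rw [htq]; exact tq_mem_gaussRing (AK A K) n e
  have h1 : (⟨((ModelDefs9.tN q ht : ↥(FK (M' * q) K)) : LaurentSeries K), htG⟩ :
      ↥(gaussRing (AK A K))) = ⟨tq (↥K) n e, tq_mem_gaussRing (AK A K) n e⟩ := Subtype.ext htq
  refine ⟨htG, ?_⟩
  rw [h1]
  exact transcendental_gaussRed_tq (AK A K) n e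

/-- **`hgauss0` of `TypeTwoModel20.oneMid_model`.** -/
theorem hgauss_tN {ℓ : ℕ} (hℓ : ℓ.Prime) (hA : A.LiesOverPrime ℓ) [FiniteDimensional ℚ K]
    (ht : tq (↥K) n e ∈ FK M' K) {π : ↥(AK A K)} (hπ : IsUnif (AK A K) π) :
    ∀ p : (↥(AK A K))[X],
      (O1q M' q hπ).valuation (aeval (ModelDefs9.tN q ht) p) < 1 → ∀ i, π ∣ p.coeff i := by
  haveI hdvr : IsDiscreteValuationRing ↥(AK A K) := isDiscreteValuationRing_AK A K hℓ.ne_zero hA
  have hirr : Irreducible π := (IsDiscreteValuationRing.irreducible_iff_uniformizer π).mpr hπ.max_eq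
  obtain ⟨htG, htr⟩ := gaussFacts_tN (A := A) q ht
  have hV : IsGaussPullback (AK A K) (FK (M' * q) K).val (O1q M' q hπ) := fun _ => Iff.rfl
  exact dvd_coeff_of_val_lt_one hV hirr (s := ModelDefs9.tN q ht) htG htr

/-- **`hgauss1` of `TypeTwoModel20.oneMid_model`.** -/
theorem hgauss_tN_inv {ℓ : ℕ} (hℓ : ℓ.Prime) (hA : A.LiesOverPrime ℓ) [FiniteDimensional ℚ K]
    (ht : tq (↥K) n e ∈ FK M' K) {π : ↥(AK A K)} (hπ : IsUnif (AK A K) π) :
    ∀ p : (↥(AK A K))[X],
      (O1q M' q hπ).valuation (aeval (ModelDefs9.tN q ht)⁻¹ p) < 1 → ∀ i, π ∣ p.coeff i := by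
  haveI hdvr : IsDiscreteValuationRing ↥(AK A K) := isDiscreteValuationRing_AK A K hℓ.ne_zero hA
  have hirr : Irreducible π := (IsDiscreteValuationRing.irreducible_iff_uniformizer π).mpr hπ.max_eq
  obtain ⟨htG, htr⟩ := gaussFacts_tN (A := A) q ht
  have hV : IsGaussPullback (AK A K) (FK (M' * q) K).val (O1q M' q hπ) := fun _ => Iff.rfl
  obtain ⟨htG', htr'⟩ := gauss_inv (ι := (FK (M' * q) K).val) (s := ModelDefs9.tN q ht) htG htr
  exact dvd_coeff_of_val_lt_one hV hirr (s := (ModelDefs9.tN q ht)⁻¹) htG' htr'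

/-- **`gen1` of `TypeTwoModel20.oneMid_model`**: `B1″` is finitely generated over `A_K[t⁻¹]`. -/
theorem gen1_t {ℓ : ℕ} (hℓ : ℓ.Prime) (hA : A.LiesOverPrime ℓ) [FiniteDimensional ℚ K]
    (ht : tq (↥K) n e ∈ FK M' K)
    (hJ : jqModC K ∈ IntermediateField.adjoin K {tq (↥K) n e}) :
    ∃ (r : ℕ) (e : Fin r → ↥(FK (M' * q * q) K)), (∀ i, e i ∈ B1 A q ht) ∧
      ∀ x ∈ B1 A q ht, ∃ P : Fin r → (↥(AK A K))[X], x = ∑ i, aeval (t q ht)⁻¹ (P i) * e i := by
  haveI hdvr : IsDiscreteValuationRing ↥(AK A K) := isDiscreteValuationRing_AK A K hℓ.ne_zero hA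
  obtain ⟨ϖ, hϖ⟩ := IsDiscreteValuationRing.exists_irreducible ↥(AK A K)
  have htq : ((t q ht : ↥(FK (M' * q * q) K)) : LaurentSeries K) = tq (↥K) n e := coe_t q ht
  have htG : ((t q ht : ↥(FK (M' * q * q) K)) : LaurentSeries K) ∈ gaussRing (AK A K) := by
    rw [htq]; exact tq_mem_gaussRing (AK A K) n e
  have h1 : (⟨((t q ht : ↥(FK (M' * q * q) K)) : LaurentSeries K), htG⟩ :
      ↥(gaussRing (AK A K))) = ⟨tq (↥K) n e, tq_mem_gaussRing (AK A K) n e⟩ := Subtype.ext htq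
  have htr : Transcendental (Res (AK A K))
      (gaussRed (AK A K) ⟨((t q ht : ↥(FK (M' * q * q) K)) : LaurentSeries K), htG⟩) := by
    rw [h1]
    exact transcendental_gaussRed_tq (AK A K) n e
  have hjt : jqModC K ∈
      Kt (AK A K) ⟨((t q ht : ↥(FK (M' * q * q) K)) : LaurentSeries K), htG⟩ := by
    rw [h1]
    exact hJ
  have hNZ : NeZero (M' * q * q) :=
    ⟨Nat.mul_ne_zero (Nat.mul_ne_zero (NeZero.ne M') (NeZero.ne q)) (NeZero.ne q)⟩
  have hn := relfinrank_ne_zero (AK A K) (M' * q * q) _ (t q ht).2 hjt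
  exact chart_generators_inv_gauss hϖ (t q ht) htG htr hn

/-- **`hζO` of `TypeTwoModel20.oneMid_model` for `ζ := ξ`**: `ξ = j(𝐪^{q²}) − j(𝐪)` lies in `O1`, in every
middle ring and in `O3`. -/
theorem xi_mem_Ofam (hq : q.Prime) (hqM : ¬ q ∣ M') (hA : A.LiesOverPrime q) [FiniteDimensional ℚ K]
    {π : ↥(AK A K)} (hπ : IsUnif (AK A K) π) (H : MidHyp M' q hπ)
    {O2 : ValuationSubring ↥(FK (M' * q * q) K)} (hO2 : IsMid M' q hπ O2) :
    ∀ j, xi K M' q ∈ Ofam M' q hπ O2 j := by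
  haveI hdvr : IsDiscreteValuationRing ↥(AK A K) := isDiscreteValuationRing_AK A K hq.ne_zero hA
  haveI : Fact q.Prime := ⟨hq⟩
  haveI : CharP (Res (AK A K)) q := charP_residueField_AK A K hq hA
  have hirr : Irreducible π := (IsDiscreteValuationRing.irreducible_iff_uniformizer π).mpr hπ.max_eq
  -- `O1`
  have h1 : xi K M' q ∈ O1 M' q hπ :=
    ((O1 M' q hπ).valuation_le_one_iff _).mp (val_O1_xi M' q hπ).le
  -- the middle ring
  have h2 : xi K M' q ∈ O2 :=
    (O2.valuation_le_one_iff _).mp (midUnif H hO2).2.2.2.1.le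
  -- `O3`
  have hjM : ((jM K M' : FK M' K) : LaurentSeries K) ∈ gaussRing (AK A K) := by
    have : ((jM K M' : FK M' K) : LaurentSeries K) = qExpand (↥K) 1 (jqModC ↥K) := by
      rw [jM, coe_xdL]
    rw [this]
    exact jqd_mem_gaussRing (AK A K) 1
  have h30 : j0 K M' q ∈ O3 M' q hπ := by
    rw [← alpha2_ja, ← alpha_jM]
    exact (Fermat.Agent.ES.P36.V3Facts8.alpha2_alpha_mem_O3_iff M' q hirr hqM (jM K M')).mpr hjM
  have h32 : j2 K M' q ∈ O3 M' q hπ := by
    rw [← beta2_jb, ← beta_jM]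
    exact (Fermat.Agent.ES.P36.V3Facts8.beta2_beta_mem_O3_iff M' q hirr hqM (jM K M')).mpr hjM
  have h3 : xi K M' q ∈ O3 M' q hπ := sub_mem h32 h30
  intro j
  fin_cases j
  · exact h1
  · exact h2
  · exact h3

end Model

end Fermat.Agent.ES.P36.TypeTwoLeaves13
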