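/-
Program P (S36), chapter REG, brick R7 + R7c, READY-`K` FORM (helper20):
**`OneCases9.OneItemsPI n e q M' A K 1` over an inertial number field `K ∋ ζ_{M'}`**, with every supplier of
`TypeTwoFinal20.oneItemsPI_one_of` plugged in except the three per-`K` packages which its consumer
(`OpenOf13`) already holds: `hmulti : PtsModel9.MultiItemsP` (M7), `G : GenItems20.GenFactsP` (chapter (G)),
`hcross : PtsModel9.CrossItemsP` (R6).

Plugged in (theorems of record):
* `hD`      := `ModelQAt4.nodalNumData_at` (level `M′q`; Frobenius inverse from `ModelInert4`);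
* `hchart`  := `ChartInstP14.chartInputsM_t_at` (M1);
* `hH`      := `MidInst23.midHyp_of_isInertial` (M4/M6, (D2.3) through `DiffXi2`);
* leaves    := `TypeTwoLeaves13.hgauss_tN / hgauss_tN_inv / gen1_t / xi_mem_Ofam` (helper13);
* `hUNR0/1` := `HunrSqAt3.hUNRM_chart0_at / hUNRM_chart1_at` (R7c: helper3, helper26, helper8, helper17);
* leaves `ht`, `hJ` := `CoeffField4.tq_mem_FK`, `CoeffField4.j_mem_adjoin`; the cusp values at level `M′q²` are
  those of level `M′` (`CuspValLevel3.cuspExports_level`).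

* `oneItemsPI_one_at` : generic in the Hauptmodul `(n, e)`;
* `oneItemsPI_one_four`, `oneItemsPI_one_nine` : the two cases of record (`q` odd, `4 ∣ M'`; `q = 2`, `9 ∣ M'`).
-/
import Mathlib
import Fermat.Agent.ES.P36.TypeTwoFinal20
import Fermat.Agent.ES.P36.TypeTwoLeaves13
import Fermat.Agent.ES.P36.HunrSqAt3
import Fermat.Agent.ES.P36.ModelInert4
import Fermat.Agent.ES.P36.ChartInstP14

set_option autoImplicit false
set_option linter.unusedSectionVars false
set_option linter.style.haveILetI false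
set_option synthInstance.maxHeartbeats 400000

open HahnSeries ModularCurve AlgebraicCurve
open scoped MatrixGroups

noncomputable section

namespace Fermat.Agent.ES.P36.TypeTwoReady20

open Polynomial Fermat.Agent.X0
  Fermat.Agent.RED.Interface4 Fermat.Agent.RED.PUR.GaussGen8 Fermat.Agent.RED.BASE.EtaQuot12
  Fermat.Agent.RED.BASE Fermat.Agent.RED.BASE.Interface12 Fermat.Agent.RED.BASE.Hauptmodul12
  Fermat.Agent.ES.N34 Fermat.Agent.ES.P36.ModelDefsP9
  Fermat.Agent.ES.P36.PtsModel9 Fermat.Agent.ES.P36.OneCases9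
open Fermat.Agent.ES.P36.InertField27 (IsInertial)

variable {n e q M' : ℕ} [NeZero n] [NeZero M'] [NeZero q] {A : ValuationSubring Qbar}
  {K : IntermediateField ℚ Qbar}

set_option maxHeartbeats 4000000 in
/-- **R7 + R7c over an inertial `K ∋ ζ_{M'}`, generic in the Hauptmodul.** -/
theorem oneItemsPI_one_at (hb : BaseHyp n e) (hnM : n ∣ M') (hq : q.Prime) (hqM : ¬ q ∣ M')
    (hA : A.LiesOverPrime q) [FiniteDimensional ℚ K] (hK : IsInertial A K) (hζ : zetaK M' ∈ K)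
    (cv : SL(2, ℤ) → Option Kbar) (hcv : MainCusp12.CuspExports n e M' cv)
    (hmulti : MultiItemsP n e q M' A K) (G : GenItems20.GenFactsP A K M' q)
    (hcross : CrossItemsP n e q M' A K) :
    OneItemsPI n e q M' A K 1 := by
  have hqn : ¬ q ∣ n := fun h => hqM (h.trans hnM)
  have hF := Fermat.Agent.ES.P36.ModelInert4.frobInvAt_of_isInertial hK hq hA
  have hB := Main12.baseExports hb M' hnM
  have hJ : jqModC ↥K ∈ IntermediateField.adjoin (↥K) {tq (↥K) n e} :=
    Fermat.Agent.ES.P36.CoeffField4.j_mem_adjoin n e hB.genBase K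
  obtain ⟨-, hG, -, -, hP⟩ :=
    Fermat.Agent.ES.P36.ModelQAt4.items_at hb hnM hq hqn hqM hA cv hcv hζ hF
  obtain ⟨ht0, hE, hD⟩ :=
    Fermat.Agent.ES.P36.ModelQAt4.nodalNumData_at hb hnM hq hqn hqM hA cv hcv hζ hF
  haveI : NeZero (M' * q * q) :=
    ⟨Nat.mul_ne_zero (Nat.mul_ne_zero (NeZero.ne M') (NeZero.ne q)) (NeZero.ne q)⟩
  have hcv2 : MainCusp12.CuspExports n e (M' * q * q) cv :=
    Fermat.Agent.ES.P36.CuspValLevel3.cuspExports_level hb hnM ((hnM.mul_right q).mul_right q) hcv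
  haveI hdvr : IsDiscreteValuationRing ↥(AK A K) :=
    Fermat.Agent.RED.DESC.NumberFieldDVR27.isDiscreteValuationRing_AK A K hq.ne_zero hA
  have hirr : ∀ π : ↥(AK A K), IsUnif (AK A K) π → Irreducible π := fun π hπ =>
    (IsDiscreteValuationRing.irreducible_iff_uniformizer π).mpr hπ.max_eq
  have hH : ∀ (π : ↥(AK A K)) (hπ : IsUnif (AK A K) π), MidVal23.MidHyp M' q hπ := fun π hπ =>
    Fermat.Agent.ES.P36.MidInst23.midHyp_of_isInertial hK hq hqM hA ht0 hJ hπ
  refine Fermat.Agent.ES.P36.TypeTwoFinal20.oneItemsPI_one_of hq (fun _ π hπ => hD π hπ) hmulti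
    (fun ht π hπ =>
      (Fermat.Agent.ES.P36.ChartInstP14.chartInputsM_t_at q hq hA K ht hJ).2 π (hirr π hπ))
    hcross G hH
    (fun ht π hπ => Fermat.Agent.ES.P36.TypeTwoLeaves13.hgauss_tN q hq hA ht hπ)
    (fun ht π hπ => Fermat.Agent.ES.P36.TypeTwoLeaves13.hgauss_tN_inv q hq hA ht hπ)
    (fun ht => Fermat.Agent.ES.P36.TypeTwoLeaves13.gen1_t q hq hA ht hJ)
    (fun π hπ O2 hO2 =>
      Fermat.Agent.ES.P36.TypeTwoLeaves13.xi_mem_Ofam q hq hqM hA hπ (hH π hπ) hO2)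
    ?_ ?_
  · intro ht π hπ x1 hx1 hπx _ hoff2
    exact Fermat.Agent.ES.P36.HunrSqAt3.hUNRM_chart0_at hb hnM hq hqM hA cv hcv2 hζ hP hG ht hE hπ
      (hD π hπ).noeth0 (hD π hπ).frac0 x1 hx1 hπx hoff2
  · intro ht π hπ x1 hx1 hπx _ hoff2
    exact Fermat.Agent.ES.P36.HunrSqAt3.hUNRM_chart1_at hb hnM hq hqM hA cv hcv2 hζ hP hG ht hE hπ
      (hD π hπ).noeth0 (hD π hπ).frac0 (hD π hπ).noeth1 (hD π hπ).frac1 x1 hx1 hπx hoff2

/-- **`q` odd, `4 ∣ M'`, Hauptmodul `(4, 8)`.** -/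
theorem oneItemsPI_one_four [FiniteDimensional ℚ K] (hq : q.Prime) (hqM : ¬ q ∣ M')
    (hM : 4 ∣ M') (hA : A.LiesOverPrime q) (hK : IsInertial A K) (hζ : zetaK M' ∈ K)
    (hmulti : MultiItemsP 4 8 q M' A K) (G : GenItems20.GenFactsP A K M' q)
    (hcross : CrossItemsP 4 8 q M' A K) :
    OneItemsPI 4 8 q M' A K 1 :=
  oneItemsPI_one_at baseHyp_four hM hq hqM hA hK hζ _ (MainCusp12.base_four M' hM).2 hmulti G hcross

/-- **`q = 2`, `9 ∣ M'`, Hauptmodul `(9, 3)`.** -/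
theorem oneItemsPI_one_nine {M' : ℕ} [NeZero M'] {A : ValuationSubring Qbar}
    {K : IntermediateField ℚ Qbar} [FiniteDimensional ℚ K] (hqM : ¬ 2 ∣ M') (hM : 9 ∣ M')
    (hA : A.LiesOverPrime 2) (hK : IsInertial A K) (hζ : zetaK M' ∈ K)
    (hmulti : MultiItemsP 9 3 2 M' A K) (G : GenItems20.GenFactsP A K M' 2)
    (hcross : CrossItemsP 9 3 2 M' A K) :
    OneItemsPI 9 3 2 M' A K 1 :=
  oneItemsPI_one_at baseHyp_nine hM Nat.prime_two hqM hA hK hζ _ (MainCusp12.base_nine M' hM).2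
    hmulti G hcross

end Fermat.Agent.ES.P36.TypeTwoReady20
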