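/-
Program P (S36), assembly brick A1, last mile, fourth and LAST layer (helper13): **`OpenTop13.OpenItemsF` (`one1`,
`twoGen`) over every ready field with NO open input — hence `(K_c)` at all auxiliary levels, `FixBarAll (cP c0)`,
unconditionally.**

* `one1   := TypeTwoReady20.oneItemsPI_one_four / _nine` (helper20: R7 + R7c over an inertial `K ∋ ζ_{M'}`), fed with
  `OpenOf13.multiItemsP_ready`, `OpenOf13.genFactsP_ready` and the `CrossItemsP` produced inside `OpenTop13`;
* `twoGen := RegNode21.twoGenItems10_of (RegDone21.twoGenItems_four / _nine)` (helper21: R1/R2/R4 + (J), closed;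
  readiness `ζ_{M'} ∈ K`, a Frobenius inverse `ModelInert4.frobInvAt_of_isInertial`, `K` fixed by the inertia group).

* `openItemsF_four`, `openItemsF_nine`, `fixBarAll_c0`.
-/
import Mathlib
import Fermat.Agent.ES.P36.OpenTop13
import Fermat.Agent.ES.P36.TypeTwoReady20
import Fermat.Agent.ES.P36.RegNode21
import Fermat.Agent.ES.P36.RegDone21

set_option autoImplicit false
set_option synthInstance.maxHeartbeats 400000
set_option maxHeartbeats 4000000
set_option linter.unusedSectionVars false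

open HahnSeries AlgebraicCurve ModularCurve

noncomputable section

namespace Fermat.Agent.ES.P36.OpenFin13

open Fermat.Agent.RED.Interface4 Fermat.Agent.RED.PUR.GaussGen8 Fermat.Agent.RED.BASE.EtaQuot12
  Fermat.Agent.ES.N34
  Fermat.Agent.ES.P36.NumAsmP12 Fermat.Agent.ES.P36.ItemsOf13 Fermat.Agent.ES.P36.OpenOf13
  Fermat.Agent.ES.P36.OpenTop13

variable {q M' : ℕ} [NeZero M'] [NeZero q] {A : ValuationSubring Qbar}
  {K : IntermediateField ℚ Qbar}

/-- `q` odd, `4 ∣ M'`, Hauptmodul `(4, 8)`: layer F over a ready field, no open input. -/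
theorem openItemsF_four [FiniteDimensional ℚ K] (hq : q.Prime) (hqM : ¬ q ∣ M') (hq2 : q ≠ 2)
    (hM : 4 ∣ M') (hA : A.LiesOverPrime q) (hK : ReadyP q M' A K) :
    OpenItemsF 4 8 q M' A K := by
  have hB := Fermat.Agent.RED.BASE.Main12.baseExports
    Fermat.Agent.RED.BASE.Hauptmodul12.baseHyp_four M' hM
  have hmulti := multiItemsP_ready hq hqM hA hK hB.mem hB.genBase
  have G := genFactsP_ready hq hqM hA hK hB.mem hB.genBase
  have hF := Fermat.Agent.ES.P36.ModelInert4.frobInvAt_of_isInertial hK.1 hq hA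
  exact ⟨fun hcross => Fermat.Agent.ES.P36.TypeTwoReady20.oneItemsPI_one_four hq hqM hM hA hK.1 hK.2
      hmulti G hcross,
    Fermat.Agent.ES.P36.RegNode21.twoGenItems10_of
      (Fermat.Agent.ES.P36.RegDone21.twoGenItems_four hq hq2 hqM hM hA hK.2 hF hK.1.1)⟩

/-- `q = 2`, `9 ∣ M'`, Hauptmodul `(9, 3)`: layer F over a ready field, no open input. -/
theorem openItemsF_nine {M' : ℕ} [NeZero M'] {A : ValuationSubring Qbar}
    {K : IntermediateField ℚ Qbar} [FiniteDimensional ℚ K] (hqM : ¬ 2 ∣ M') (hM : 9 ∣ M')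
    (hA : A.LiesOverPrime 2) (hK : ReadyP 2 M' A K) :
    OpenItemsF 9 3 2 M' A K := by
  have hB := Fermat.Agent.RED.BASE.Main12.baseExports
    Fermat.Agent.RED.BASE.Hauptmodul12.baseHyp_nine M' hM
  have hmulti := multiItemsP_ready Nat.prime_two hqM hA hK hB.mem hB.genBase
  have G := genFactsP_ready Nat.prime_two hqM hA hK hB.mem hB.genBase
  have hF := Fermat.Agent.ES.P36.ModelInert4.frobInvAt_of_isInertial hK.1 Nat.prime_two hA
  exact ⟨fun hcross => Fermat.Agent.ES.P36.TypeTwoReady20.oneItemsPI_one_nine hqM hM hA hK.1 hK.2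
      hmulti G hcross,
    Fermat.Agent.ES.P36.RegNode21.twoGenItems10_of
      (Fermat.Agent.ES.P36.RegDone21.twoGenItems_nine hqM hM hA hK.2 hF hK.1.1)⟩

/-- **(K_c) at all auxiliary levels, `c₀ = q (q − 1) (q + 1)²`: `FixBarAll (cP c0)`, unconditionally.** -/
theorem fixBarAll_c0 :
    Fermat.Agent.ES.P36.IfaceP17.FixBarAll (Fermat.Agent.ES.P36.S36AsmP12.cP c0) :=
  fixBarAll_of_openF
    (fun q M' _ _ A hq hqM hq2 hM hA K hfin hK =>
      haveI := hfin
      openItemsF_four hq hqM hq2 hM hA hK)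
    (fun M' _ A hqM hM hA K hfin hK =>
      haveI := hfin
      openItemsF_nine hqM hM hA hK)

end Fermat.Agent.ES.P36.OpenFin13
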