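/-
Program P (S36), assembly brick A1, last mile, second layer (helper13): **`ItemsOf13.OpenItemsP` from the
next layers of suppliers**, compiled before they land.

`ItemsOf13.OpenItemsP n e q M' A K` = `one` (R7 + R7c + R8) ∧ `cross` (R6) ∧ `node` (R3/R6).

LAYER Q (`OpenItemsQ` = `one`, `cross`, `eis`): the field `node : BranchModel15.NodeItemsP` is discharged on
the ROUTE OF RECORD (rulings p42/p55/p60) by helper15's `NodeEis15.nodeItemsP_of_eis` from `hS2 :
ModelN4.ModEqItems` (`ModelInert4.items_four/nine_inertial`) and the shared contract of R6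
`heis : EisItems29.EisItemsP` (helper29 states it; helper10 `EisModel10` + helper4 `EisModel4` prove it).

LAYER E (`OpenItemsE` = `one1`, `cross`, `eis`; rulings p62, board #4): the field `one : PtsModel9.OneItemsP` is
discharged by helper9's `OneItems9.oneItemsP_four / _nine` (v2: BOTH R8 sides plugged in there, `C1Side1` and
`C3Side5`) from `one1 : OneCases9.OneItemsPI … 1` (R7 + R7c, helper20 `TypeTwoFinal20`), with the two READY facts
`multiItemsP_ready : PtsModel9.MultiItemsP` (M7) and `genFactsP_ready : GenItems20.GenFactsP` (chapter (G)) — the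
same terms as inside `ItemsOf13.itemsP_of`.
(`cross` will be derived from `eis` by helper29's `CrossModel29.crossItemsP_of_eis`.)

* `openItemsP_of`, `openItemsP_four`, `openItemsP_nine`, `fixBarAll_of_openQ` (layer Q);
* `multiItemsP_ready`, `genFactsP_ready`, `openItemsQ_four`, `openItemsQ_nine`, `fixBarAll_of_openE` (layer E).
-/
import Mathlib
import Fermat.Agent.ES.P36.ItemsOf13
import Fermat.Agent.ES.P36.NodeEis15
import Fermat.Agent.ES.P36.OneItems9

set_option autoImplicit false
set_option synthInstance.maxHeartbeats 400000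
set_option maxHeartbeats 4000000
set_option linter.unusedSectionVars false

open HahnSeries AlgebraicCurve ModularCurve

noncomputable section

namespace Fermat.Agent.ES.P36.OpenOf13

open Fermat.Agent.RED.Interface4 Fermat.Agent.RED.PUR.GaussGen8 Fermat.Agent.RED.BASE.EtaQuot12
  Fermat.Agent.ES.N34 Fermat.Agent.ES.N34.NumData13
  Fermat.Agent.ES.P36.NumAsmP12 Fermat.Agent.ES.P36.ItemsOf13

variable (n e q M' : ℕ) [NeZero n] [NeZero M'] [NeZero q] (A : ValuationSubring Qbar)
  (K : IntermediateField ℚ Qbar)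

/-- **The still-open suppliers at `K`, second layer**, each in its owner's literal `Prop`. -/
structure OpenItemsQ : Prop where
  /-- R7 + R7c + R8: exactly one component ⇒ `OneBranch`. -/
  one : Fermat.Agent.ES.P36.PtsModel9.OneItemsP n e q M' A K
  /-- R6: over a crossing point of level `M' q` ⇒ regular triple point. -/
  cross : Fermat.Agent.ES.P36.PtsModel9.CrossItemsP n e q M' A K
  /-- R6, the shared contract: the Eisenstein data at every closed point over a crossing point. -/
  eis : Fermat.Agent.ES.P36.EisItems29.EisItemsP n e q M' A K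

variable {n e q M' A K}

/-- **`OpenItemsP` from the second layer**, generic in the Hauptmodul. -/
theorem openItemsP_of (hS2 : ModelN4.ModEqItems n e q M' A K)
    (H : OpenItemsQ n e q M' A K) : OpenItemsP n e q M' A K where
  one := H.one
  cross := H.cross
  node := Fermat.Agent.ES.P36.NodeEis15.nodeItemsP_of_eis hS2 H.eis

/-- `q` odd, `4 ∣ M'`, Hauptmodul `(4, 8)`. -/
theorem openItemsP_four [FiniteDimensional ℚ K] (hq : q.Prime) (hqM : ¬ q ∣ M') (hq2 : q ≠ 2)
    (hM : 4 ∣ M') (hA : A.LiesOverPrime q) (hK : ReadyP q M' A K)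
    (H : OpenItemsQ 4 8 q M' A K) : OpenItemsP 4 8 q M' A K :=
  openItemsP_of
    (Fermat.Agent.ES.P36.ModelInert4.items_four_inertial hq hq2 hqM hM hA hK.1 hK.2).2.2.1 H

/-- `q = 2`, `9 ∣ M'`, Hauptmodul `(9, 3)`. -/
theorem openItemsP_nine {M' : ℕ} [NeZero M'] {A : ValuationSubring Qbar}
    {K : IntermediateField ℚ Qbar} [FiniteDimensional ℚ K] (hqM : ¬ 2 ∣ M') (hM : 9 ∣ M')
    (hA : A.LiesOverPrime 2) (hK : ReadyP 2 M' A K)
    (H : OpenItemsQ 9 3 2 M' A K) : OpenItemsP 9 3 2 M' A K :=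
  openItemsP_of
    (Fermat.Agent.ES.P36.ModelInert4.items_nine_inertial hqM hM hA hK.1 hK.2).2.2.1 H

/-- **(K_c) at all auxiliary levels from the second layer of open suppliers over the ready fields.** -/
theorem fixBarAll_of_openQ
    (hodd : ∀ (q M' : ℕ) [NeZero M'] [NeZero q] (A : ValuationSubring Qbar), q.Prime → ¬ q ∣ M' →
      q ≠ 2 → 4 ∣ M' → A.LiesOverPrime q → ∀ K : IntermediateField ℚ Qbar, FiniteDimensional ℚ K →
      ReadyP q M' A K → OpenItemsQ 4 8 q M' A K)
    (htwo : ∀ (M' : ℕ) [NeZero M'] (A : ValuationSubring Qbar), ¬ 2 ∣ M' → 9 ∣ M' →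
      A.LiesOverPrime 2 → ∀ K : IntermediateField ℚ Qbar, FiniteDimensional ℚ K →
      ReadyP 2 M' A K → OpenItemsQ 9 3 2 M' A K) :
    Fermat.Agent.ES.P36.IfaceP17.FixBarAll (Fermat.Agent.ES.P36.S36AsmP12.cP c0) :=
  fixBarAll_of_open
    (fun q M' _ _ A hq hqM hq2 hM hA K hfin hK =>
      haveI := hfin
      openItemsP_four hq hqM hq2 hM hA hK (hodd q M' A hq hqM hq2 hM hA K hfin hK))
    (fun M' _ A hqM hM hA K hfin hK =>
      haveI := hfin
      openItemsP_nine hqM hM hA hK (htwo M' A hqM hM hA K hfin hK))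

/-! ### Layer E: `one` from `one1` -/

open Fermat.Agent.RED.BASE.Interface12 in
/-- **M7, model part, at a ready `K`** (no open input). -/
theorem multiItemsP_ready [FiniteDimensional ℚ K] (hq : q.Prime) (hqM : ¬ q ∣ M')
    (hA : A.LiesOverPrime q) (hK : ReadyP q M' A K) (hmem : TMem n e M') (hgen : TGenBase n e) :
    Fermat.Agent.ES.P36.PtsModel9.MultiItemsP n e q M' A K :=
  have ht := Fermat.Agent.ES.P36.CoeffField4.tq_mem_FK n e M' hmem K
  have hJ := Fermat.Agent.ES.P36.CoeffField4.j_mem_adjoin n e hgen K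
  Fermat.Agent.ES.P36.ModelFinalP4.multiItemsP_of_complete hq hqM hA hgen
    (Fermat.Agent.ES.P36.HallModel11.hall_elem_of_mid hq hqM hA hJ
      (Fermat.Agent.ES.P36.MidInst23.hmid_of_isInertial hK.1 hq hqM hA ht hJ))

open Fermat.Agent.RED.BASE.Interface12 in
/-- **The suppliers of chapter (G) at a ready `K`** (no open input). -/
theorem genFactsP_ready [FiniteDimensional ℚ K] (hq : q.Prime) (hqM : ¬ q ∣ M')
    (hA : A.LiesOverPrime q) (hK : ReadyP q M' A K) (hmem : TMem n e M') (hgen : TGenBase n e) :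
    Fermat.Agent.ES.P36.GenItems20.GenFactsP A K M' q :=
  have ht := Fermat.Agent.ES.P36.CoeffField4.tq_mem_FK n e M' hmem K
  have hJ := Fermat.Agent.ES.P36.CoeffField4.j_mem_adjoin n e hgen K
  Fermat.Agent.ES.P36.GenFacts11.genFactsP_of_isInertial hK.1 hq hqM hA ht
    (CombA26.hcombAt_of hq hqM hA K hJ)
    (fun _ hπ => Fermat.Agent.ES.P36.V1Facts25.v1Facts M' q hπ)
    (Fermat.Agent.ES.P36.MidInst23.hmid_of_isInertial hK.1 hq hqM hA ht hJ)

variable (n e q M' A K) in
/-- **The still-open suppliers at `K`, layer E** (ruling p62). -/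
structure OpenItemsE : Prop where
  /-- R7 + R7c: only the middle component passes ⇒ `OneBranch`. -/
  one1 : Fermat.Agent.ES.P36.OneCases9.OneItemsPI n e q M' A K 1
  /-- R6: over a crossing point of level `M' q` ⇒ regular triple point. -/
  cross : Fermat.Agent.ES.P36.PtsModel9.CrossItemsP n e q M' A K
  /-- R6, the shared contract: the Eisenstein data at every closed point over a crossing point. -/
  eis : Fermat.Agent.ES.P36.EisItems29.EisItemsP n e q M' A K

/-- `q` odd, `4 ∣ M'`, Hauptmodul `(4, 8)`. -/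
theorem openItemsQ_four [FiniteDimensional ℚ K] (hq : q.Prime) (hqM : ¬ q ∣ M') (hq2 : q ≠ 2)
    (hM : 4 ∣ M') (hA : A.LiesOverPrime q) (hK : ReadyP q M' A K)
    (H : OpenItemsE 4 8 q M' A K) : OpenItemsQ 4 8 q M' A K :=
  have hB := Fermat.Agent.RED.BASE.Main12.baseExports Fermat.Agent.RED.BASE.Hauptmodul12.baseHyp_four
    M' hM
  { one := Fermat.Agent.ES.P36.OneItems9.oneItemsP_four hq hq2 hqM hM hA hK.1 hK.2
      (multiItemsP_ready hq hqM hA hK hB.mem hB.genBase)
      (genFactsP_ready hq hqM hA hK hB.mem hB.genBase) H.one1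
    cross := H.cross
    eis := H.eis }

/-- `q = 2`, `9 ∣ M'`, Hauptmodul `(9, 3)`. -/
theorem openItemsQ_nine {M' : ℕ} [NeZero M'] {A : ValuationSubring Qbar}
    {K : IntermediateField ℚ Qbar} [FiniteDimensional ℚ K] (hqM : ¬ 2 ∣ M') (hM : 9 ∣ M')
    (hA : A.LiesOverPrime 2) (hK : ReadyP 2 M' A K)
    (H : OpenItemsE 9 3 2 M' A K) : OpenItemsQ 9 3 2 M' A K :=
  have hB := Fermat.Agent.RED.BASE.Main12.baseExports Fermat.Agent.RED.BASE.Hauptmodul12.baseHyp_nine
    M' hM
  { one := Fermat.Agent.ES.P36.OneItems9.oneItemsP_nine hqM hM hA hK.1 hK.2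
      (multiItemsP_ready Nat.prime_two hqM hA hK hB.mem hB.genBase)
      (genFactsP_ready Nat.prime_two hqM hA hK hB.mem hB.genBase) H.one1
    cross := H.cross
    eis := H.eis }

/-- **(K_c) at all auxiliary levels from layer E of the open suppliers over the ready fields.** -/
theorem fixBarAll_of_openE
    (hodd : ∀ (q M' : ℕ) [NeZero M'] [NeZero q] (A : ValuationSubring Qbar), q.Prime → ¬ q ∣ M' →
      q ≠ 2 → 4 ∣ M' → A.LiesOverPrime q → ∀ K : IntermediateField ℚ Qbar, FiniteDimensional ℚ K →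
      ReadyP q M' A K → OpenItemsE 4 8 q M' A K)
    (htwo : ∀ (M' : ℕ) [NeZero M'] (A : ValuationSubring Qbar), ¬ 2 ∣ M' → 9 ∣ M' →
      A.LiesOverPrime 2 → ∀ K : IntermediateField ℚ Qbar, FiniteDimensional ℚ K →
      ReadyP 2 M' A K → OpenItemsE 9 3 2 M' A K) :
    Fermat.Agent.ES.P36.IfaceP17.FixBarAll (Fermat.Agent.ES.P36.S36AsmP12.cP c0) :=
  fixBarAll_of_openQ
    (fun q M' _ _ A hq hqM hq2 hM hA K hfin hK =>
      haveI := hfin
      openItemsQ_four hq hqM hq2 hM hA hK (hodd q M' A hq hqM hq2 hM hA K hfin hK))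
    (fun M' _ A hqM hM hA K hfin hK =>
      haveI := hfin
      openItemsQ_nine hqM hM hA hK (htwo M' A hqM hM hA K hfin hK))

end Fermat.Agent.ES.P36.OpenOf13
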