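/-
Program P (S36), chapter REG, brick R2 — EXPORT (helper2): the two model-level inputs of the discriminant
bound (D1.3)–(D1.4) "`a ≤ q`" at level `M' q`, with the modular polynomial eliminated
(`IG.AN.ModPoly3.p0`), in the literal shape consumed by `DiscBound5.le_of_norm_derivative_eq` and
helper21's `RegInst21`:  for `z := βj = j(𝐪^q) = betaJ K M' q`, w.r.t. `algebraAlong (alpha K M' q)`,

* `hprim : (minpoly F₀ z).natDegree = finrank F₀ F₁`           (`= q + 1`),
* `hN    : v₀ (N_{F₁/F₀} (G'(z))) = v₀ (π) ^ q`,  `G = minpoly F₀ z`, `v₀` the Gauss valuation of level `M'`.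
-/
import Mathlib
import Fermat.Agent.ES.P36.DiffNorm2

set_option autoImplicit false

noncomputable section

open HahnSeries ModularCurve AlgebraicCurve

namespace Fermat.Agent.ES.P36.R2Export2

open Polynomial
open Fermat.Agent.RED.PUR.GaussGen8 Fermat.Agent.RED.PUR.UniqueExt20
open Fermat.Agent.RED.Interface4 Fermat.Agent.ES.N34.FrickeFK8 Fermat.Agent.ES.N34.ModelDefs9
  Fermat.Agent.ES.N34.IsoM25 Fermat.Agent.ES.N34.ModelGlue22 Fermat.Agent.ES.N35.NormInst11
  Fermat.Agent.IG.PR.Interface20 Fermat.Agent.ES.P36.DiffExp2 Fermat.Agent.ES.P36.DiffNorm2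

set_option synthInstance.maxHeartbeats 400000
set_option maxHeartbeats 1000000

variable (A : ValuationSubring Qbar) (K : IntermediateField ℚ Qbar) (M' q : ℕ) [NeZero M'] [NeZero q]
  [hq : Fact q.Prime] [IsDiscreteValuationRing ↥(AK A K)] [CharP (Res (AK A K)) q]
  {π : ↥(AK A K)}

/-- **R2, export form**: `βj` is primitive for `F_{M'q} / α(F_{M'})` and the Gauss valuation of the norm of
its different is `v(π) ^ q` (when `q = π · unit` in `A_K`). -/
theorem hprim_hN (hπ : Irreducible π) (hu : IsUnif (AK A K) π) (hqM : ¬ q ∣ M')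
    (hE : FK (M' * q) K ≤ fracField (AK A K)) (hE₀ : FK M' K ≤ fracField (AK A K))
    (hqπ : ∃ u : (↥(AK A K))ˣ, ((q : ℕ) : ↥(AK A K)) = π * u) :
    letI := algebraAlong (alpha K M' q)
    (minpoly (FK M' K) (betaJ K M' q)).natDegree = Module.finrank (FK M' K) (FK (M' * q) K) ∧
    (gaussVS hu (FK M' K) hE₀).valuation (Algebra.norm (FK M' K)
        (aeval (betaJ K M' q) (derivative (minpoly (FK M' K) (betaJ K M' q))))) =
      (gaussVS hu (FK M' K) hE₀).valuation (algebraMap K (FK M' K) (π : K)) ^ q := by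
  obtain ⟨Φ, hmonic, hdeg, h1, h2⟩ := Fermat.Agent.IG.AN.ModPoly3.p0 q hq.out
  letI := algebraAlong (alpha K M' q)
  refine ⟨natDegree_minpoly_betaJ A K M' q hπ hu hqM hE hE₀ Φ hmonic hdeg h1, ?_⟩
  rw [aeval_derivative_minpoly_betaJ A K M' q hπ hu hqM hE hE₀ Φ hmonic hdeg h1]
  exact valuation_normAlong_diffElt A K M' q hπ hu hqM hE hE₀ hqπ Φ hmonic hdeg h1 h2

end Fermat.Agent.ES.P36.R2Export2
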