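/-
Program P (S36), chapter REG, brick (D2.1) abstract, part 2 (helper27): **the reduction of a regular
local ring `R̃` (`𝔪 = (π, T)`) along its vertical valuation ring `W = R̃_(π)` is a valuation ring of
`κ(W)`** — the `vr`/`ic` input of `SemiPts27.exists_res_of_integral`.

* `exists_pow_mul_unit_add` : `R̃` noetherian local, `𝔪 = (π, T)`, `π ∤ a` ⇒ `a = T ^ i * u + π * c` with `u`
  a unit (Krull's intersection theorem in `R̃ ⧸ (π)`, whose maximal ideal is `(T̄)`);
* `vr_of_regular` : for `x ∈ W` either `x ≡ r` or `x * r ≡ 1` modulo `𝔪_W` with `r ∈ R̃`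
  (`W` dominates the localisation at `(π)`: `hsat`);
* `ic_of_regular` : the element form `ic` of `SemiPts27.exists_res_of_integral` for `Rt := range (R̃ → E)`;
* `exists_res_of_integral_regular` : `V` over `W` along `φ` with residue degree one (`res`), `y ∈ V`
  integral over `φ(R̃)` ⇒ `y ≡ φ r` modulo `𝔪_V` with `r ∈ R̃` (the model uses it with `R̃ := (B')_{x1}`,
  `W := O1q`, `V := O1''` or a middle ring `O2`, `φ := α₂`: this is `hs₁`, `hs₂`, `hS2`).
-/
import Mathlib
import Fermat.Agent.ES.P36.SemiPts27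

set_option autoImplicit false
set_option linter.style.haveILetI false

namespace Fermat.Agent.ES.P36.ResVR27

open Polynomial IsLocalRing

section Krull

variable {R0 : Type*} [CommRing R0] [IsLocalRing R0] [IsNoetherianRing R0]

/-- In a noetherian local ring with `𝔪 = (π, T)`: an element not divisible by `π` is
`T ^ i * unit + π * c`. -/
theorem exists_pow_mul_unit_add (π T : R0) (h𝔪 : maximalIdeal R0 = Ideal.span {π, T}) (a : R0)
    (ha : ¬ π ∣ a) : ∃ (i : ℕ) (u c : R0), IsUnit u ∧ a = T ^ i * u + π * c := by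
  classical
  set I : Ideal R0 := Ideal.span {π} with hI
  have hπ𝔪 : π ∈ maximalIdeal R0 := by
    rw [h𝔪]; exact Ideal.subset_span (by simp)
  have hIne : I ≠ ⊤ := by
    intro h
    have h1 : (1 : R0) ∈ I := by rw [h]; trivial
    rw [hI, Ideal.mem_span_singleton] at h1
    exact (mem_maximalIdeal _).mp hπ𝔪 (isUnit_of_dvd_one h1)
  let Q := R0 ⧸ I
  let mk : R0 →+* Q := Ideal.Quotient.mk I
  have hmk_surj : Function.Surjective mk := Ideal.Quotient.mk_surjective
  haveI : Nontrivial Q := Ideal.Quotient.nontrivial_iff.mpr hIne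
  haveI : IsLocalRing Q := IsLocalRing.of_surjective' mk hmk_surj
  -- the maximal ideal of `Q`
  have hmaxQ : maximalIdeal Q = Ideal.span {mk T} := by
    have h1 : (maximalIdeal R0).map mk = maximalIdeal Q := by
      rcases Ideal.map_eq_top_or_isMaximal_of_surjective mk hmk_surj
        (maximalIdeal.isMaximal R0) with h | h
      · exfalso
        have h2 : (1 : Q) ∈ (maximalIdeal R0).map mk := by rw [h]; trivial
        rw [Ideal.mem_map_iff_of_surjective mk hmk_surj] at h2
        obtain ⟨x, hx, hx1⟩ := h2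
        have h3 : x - 1 ∈ I := by
          rw [← Ideal.Quotient.eq_zero_iff_mem, map_sub, map_one]
          exact sub_eq_zero.mpr hx1
        have h4 : x - 1 ∈ maximalIdeal R0 := by
          rw [hI, Ideal.mem_span_singleton] at h3
          obtain ⟨c, hc⟩ := h3
          rw [hc]
          exact Ideal.mul_mem_right _ _ hπ𝔪
        have h5 : (1 : R0) ∈ maximalIdeal R0 := by
          have : (1 : R0) = x - (x - 1) := by ring
          rw [this]
          exact Ideal.sub_mem _ hx h4
        exact (mem_maximalIdeal _).mp h5 isUnit_one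
      · exact IsLocalRing.eq_maximalIdeal h
    rw [← h1, h𝔪, Ideal.map_span, Set.image_pair]
    have h0 : mk π = 0 := by
      rw [Ideal.Quotient.eq_zero_iff_mem, hI]
      exact Ideal.mem_span_singleton_self π
    rw [h0]
    apply le_antisymm
    · rw [Ideal.span_le]
      rintro x (rfl | rfl)
      · exact Ideal.zero_mem _
      · exact Ideal.mem_span_singleton_self _
    · rw [Ideal.span_le]
      rintro x rfl
      exact Ideal.subset_span (by simp)
  have hne : mk a ≠ 0 := by
    intro h
    rw [Ideal.Quotient.eq_zero_iff_mem, hI, Ideal.mem_span_singleton] at h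
    exact ha h
  have hk := Ideal.iInf_pow_eq_bot_of_isLocalRing (maximalIdeal Q)
    (Ideal.IsPrime.ne_top inferInstance)
  have hex : ∃ i : ℕ, mk a ∉ maximalIdeal Q ^ i := by
    by_contra h
    simp only [not_exists, not_not] at h
    have h1 : mk a ∈ ⨅ i : ℕ, maximalIdeal Q ^ i := Ideal.mem_iInf.mpr h
    rw [hk] at h1
    exact hne h1
  set n := Nat.find hex with hn
  have hn_spec : mk a ∉ maximalIdeal Q ^ n := Nat.find_spec hex
  have hn0 : n ≠ 0 := by
    intro h0
    rw [h0, pow_zero, Ideal.one_eq_top] at hn_spec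
    exact hn_spec trivial
  obtain ⟨i, hi⟩ := Nat.exists_eq_succ_of_ne_zero hn0
  have hmem : mk a ∈ maximalIdeal Q ^ i := by
    have := Nat.find_min hex (m := i) (by omega)
    exact not_not.mp this
  rw [hmaxQ, Ideal.span_singleton_pow, Ideal.mem_span_singleton] at hmem
  obtain ⟨ubar, hubar⟩ := hmem
  obtain ⟨u, rfl⟩ := hmk_surj ubar
  have hdiff : a - T ^ i * u ∈ I := by
    rw [← Ideal.Quotient.eq_zero_iff_mem, map_sub, map_mul, map_pow]
    exact sub_eq_zero.mpr hubar
  rw [hI, Ideal.mem_span_singleton] at hdiff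
  obtain ⟨c, hc⟩ := hdiff
  refine ⟨i, u, c, ?_, by rw [← hc]; ring⟩
  by_contra hu
  apply hn_spec
  have hu𝔪 : u ∈ maximalIdeal R0 := (mem_maximalIdeal _).mpr hu
  have humQ : mk u ∈ maximalIdeal Q := by
    have h1 : (maximalIdeal R0).map mk ≤ maximalIdeal Q := by
      rw [Ideal.map_le_iff_le_comap]
      intro x hx
      rw [Ideal.mem_comap, mem_maximalIdeal, mem_nonunits_iff]
      intro hxu
      have : IsUnit x := by
        -- `mk` is a local homomorphism
        obtain ⟨y, hy⟩ := hmk_surj (↑hxu.unit⁻¹ : Q)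
        have h2 : mk (x * y - 1) = 0 := by
          rw [map_sub, map_mul, map_one, hy]
          simp
        rw [Ideal.Quotient.eq_zero_iff_mem, hI, Ideal.mem_span_singleton] at h2
        obtain ⟨c', hc'⟩ := h2
        have h3 : IsUnit (x * y) := by
          have h4 : x * y = 1 + π * c' := by rw [← hc']; ring
          rw [h4]
          have h5 : π * c' ∈ maximalIdeal R0 := Ideal.mul_mem_right _ _ hπ𝔪
          by_contra h6
          have h7 : 1 + π * c' ∈ maximalIdeal R0 := (mem_maximalIdeal _).mpr h6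
          have h8 : (1 : R0) ∈ maximalIdeal R0 := by
            have : (1 : R0) = (1 + π * c') - π * c' := by ring
            rw [this]
            exact Ideal.sub_mem _ h7 h5
          exact (mem_maximalIdeal _).mp h8 isUnit_one
        exact isUnit_of_mul_isUnit_left h3
      exact (mem_maximalIdeal _).mp hx this
    exact h1 (Ideal.mem_map_of_mem _ hu𝔪)
  rw [hn, ← hn, hi, pow_succ, hubar, hmaxQ, Ideal.span_singleton_pow]
  rw [hmaxQ] at humQ
  exact Ideal.mul_mem_mul (Ideal.mem_span_singleton_self _) humQ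

end Krull

section VR

variable {R0 E : Type*} [CommRing R0] [IsDomain R0] [IsLocalRing R0] [IsNoetherianRing R0]
  [Field E] [Algebra R0 E]

/-- **The reduction of a regular local ring along its vertical valuation ring is a valuation ring.** -/
theorem vr_of_regular (hinj : Function.Injective (algebraMap R0 E))
    (hfrac : ∀ x : E, ∃ a b : R0, b ≠ 0 ∧ x * algebraMap R0 E b = algebraMap R0 E a)
    (W : ValuationSubring E) (π T : R0) (hπ0 : π ≠ 0)
    (h𝔪 : maximalIdeal R0 = Ideal.span {π, T})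
    (hRW : ∀ r : R0, algebraMap R0 E r ∈ W)
    (hπW : W.valuation (algebraMap R0 E π) < 1)
    (hsat : ∀ r : R0, W.valuation (algebraMap R0 E r) < 1 → π ∣ r) :
    ∀ x ∈ W, (∃ r : R0, W.valuation (x - algebraMap R0 E r) < 1) ∨
      ∃ r : R0, W.valuation (x * algebraMap R0 E r - 1) < 1 := by
  intro x hxW
  by_cases hx0 : x = 0
  · left
    refine ⟨0, ?_⟩
    rw [hx0, map_zero, sub_zero, map_zero]
    exact zero_lt_one
  have hπ𝔪 : π ∈ maximalIdeal R0 := by
    rw [h𝔪]; exact Ideal.subset_span (by simp)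
  have hπnu : ¬ IsUnit π := (mem_maximalIdeal _).mp hπ𝔪
  obtain ⟨a, b, hb0, hab⟩ := hfrac x
  have ha0 : a ≠ 0 := by
    rintro rfl
    rw [map_zero] at hab
    rcases mul_eq_zero.mp hab with h | h
    · exact hx0 h
    · exact hb0 (hinj (by rw [h, map_zero]))
  obtain ⟨k, a', ha', rfl⟩ := WfDvdMonoid.max_power_factor' ha0 hπnu
  obtain ⟨l, b', hb', rfl⟩ := WfDvdMonoid.max_power_factor' hb0 hπnu
  have hval1 : ∀ r : R0, ¬ π ∣ r → W.valuation (algebraMap R0 E r) = 1 := by
    intro r hr
    rcases lt_or_eq_of_le ((W.valuation_le_one_iff _).mpr (hRW r)) with h | h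
    · exact absurd (hsat r h) hr
    · exact h
  have hva : W.valuation (algebraMap R0 E a') = 1 := hval1 a' ha'
  have hvb : W.valuation (algebraMap R0 E b') = 1 := hval1 b' hb'
  have hιπ0 : algebraMap R0 E π ≠ 0 := fun h => hπ0 (hinj (by rw [h, map_zero]))
  have hvπ0 : W.valuation (algebraMap R0 E π) ≠ 0 := (Valuation.ne_zero_iff _).mpr hιπ0
  have hb'0 : algebraMap R0 E b' ≠ 0 := by
    intro h
    rw [h, map_zero] at hvb
    exact zero_ne_one hvb
  -- `l ≤ k`
  have hvx : W.valuation x * W.valuation (algebraMap R0 E π) ^ l =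
      W.valuation (algebraMap R0 E π) ^ k := by
    have := congrArg W.valuation hab
    rw [map_mul, map_mul, map_mul, map_pow, map_pow, map_mul, map_mul, hva, hvb, mul_one, mul_one,
      map_pow, map_pow] at this
    exact this
  have hlk : l ≤ k := by
    by_contra hcon
    rw [not_le] at hcon
    have h1 : W.valuation (algebraMap R0 E π) ^ l < W.valuation (algebraMap R0 E π) ^ k := by
      have hx1 : W.valuation x ≤ 1 := (W.valuation_le_one_iff _).mpr hxW
      have hpos : 0 < W.valuation (algebraMap R0 E π) ^ k := pow_pos (zero_lt_iff.mpr hvπ0) k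
      by_contra hnot
      rw [not_lt] at hnot
      -- `v π ^ k ≤ v π ^ l < v π ^ k` is impossible once `k < l`
      have h2 : W.valuation (algebraMap R0 E π) ^ l < W.valuation (algebraMap R0 E π) ^ k :=
        pow_lt_pow_right_of_lt_one₀ (zero_lt_iff.mpr hvπ0) hπW hcon
      exact absurd h2 (not_lt.mpr hnot)
    have h3 : W.valuation (algebraMap R0 E π) ^ k ≤ W.valuation (algebraMap R0 E π) ^ l := by
      rw [← hvx]
      exact mul_le_of_le_one_left' ((W.valuation_le_one_iff _).mpr hxW)
    exact absurd h1 (not_lt.mpr h3)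
  obtain ⟨d, rfl⟩ := Nat.exists_eq_add_of_le hlk
  -- cancel `π ^ l`
  have hab' : x * algebraMap R0 E b' = algebraMap R0 E (π ^ d * a') := by
    have hpl : algebraMap R0 E π ^ l ≠ 0 := pow_ne_zero _ hιπ0
    apply mul_left_cancel₀ hpl
    have e1 : algebraMap R0 E π ^ l * (x * algebraMap R0 E b') =
        x * algebraMap R0 E (π ^ l * b') := by rw [map_mul, map_pow]; ring
    have e2 : algebraMap R0 E π ^ l * algebraMap R0 E (π ^ d * a') =
        algebraMap R0 E (π ^ (l + d) * a') := by
      rw [map_mul, map_mul, map_pow, map_pow, pow_add]; ring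
    rw [e1, e2, hab]
  rcases Nat.eq_zero_or_pos d with hd | hd
  · subst hd
    rw [pow_zero, one_mul] at hab'
    obtain ⟨i, u, c, hu, hau⟩ := exists_pow_mul_unit_add π T h𝔪 a' ha'
    obtain ⟨j, w, e, hw, hbw⟩ := exists_pow_mul_unit_add π T h𝔪 b' hb'
    obtain ⟨u', rfl⟩ := hu
    obtain ⟨w', rfl⟩ := hw
    have key : ∀ z : E, W.valuation (z * algebraMap R0 E b') < 1 → W.valuation z < 1 := by
      intro z hz
      rwa [map_mul, hvb, mul_one] at hz
    have hπc : ∀ r : R0, W.valuation (algebraMap R0 E (π * r)) < 1 := by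
      intro r
      rw [map_mul, map_mul]
      exact lt_of_le_of_lt (mul_le_of_le_one_right' ((W.valuation_le_one_iff _).mpr (hRW r))) hπW
    rcases le_total j i with hji | hij
    · left
      obtain ⟨n, rfl⟩ := Nat.exists_eq_add_of_le hji
      refine ⟨T ^ n * ↑u' * ↑w'⁻¹, key _ ?_⟩
      have : (x - algebraMap R0 E (T ^ n * ↑u' * ↑w'⁻¹)) * algebraMap R0 E b' =
          algebraMap R0 E (π * (c - T ^ n * ↑u' * ↑w'⁻¹ * e)) := by
        rw [sub_mul, hab', ← map_mul, ← map_sub]
        congr 1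
        have hww : (↑w' : R0) * ↑w'⁻¹ = 1 := Units.mul_inv w'
        rw [hau]
        conv_lhs => rw [hbw]
        linear_combination (-(T ^ (j + n) * ↑u')) * hww
      rw [this]
      exact hπc _
    · right
      obtain ⟨n, rfl⟩ := Nat.exists_eq_add_of_le hij
      refine ⟨T ^ n * ↑w' * ↑u'⁻¹, key _ ?_⟩
      have : (x * algebraMap R0 E (T ^ n * ↑w' * ↑u'⁻¹) - 1) * algebraMap R0 E b' =
          algebraMap R0 E (π * (c * (T ^ n * ↑w' * ↑u'⁻¹) - e)) := by
        have e1 : (x * algebraMap R0 E (T ^ n * ↑w' * ↑u'⁻¹) - 1) * algebraMap R0 E b' =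
            (x * algebraMap R0 E b') * algebraMap R0 E (T ^ n * ↑w' * ↑u'⁻¹) -
              algebraMap R0 E b' := by ring
        rw [e1, hab', ← map_mul, ← map_sub]
        congr 1
        have huu : (↑u' : R0) * ↑u'⁻¹ = 1 := Units.mul_inv u'
        rw [hau]
        conv_lhs => rw [hbw]
        linear_combination (T ^ (i + n) * ↑w') * huu
      rw [this]
      exact hπc _
  · left
    refine ⟨0, ?_⟩
    rw [map_zero, sub_zero]
    have h1 : W.valuation (x * algebraMap R0 E b') < 1 := by
      rw [hab', map_mul, map_mul, hva, mul_one, map_pow, map_pow]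
      exact pow_lt_one₀ zero_le hπW (by omega)
    rwa [map_mul, hvb, mul_one] at h1

/-- The element form `ic` of `SemiPts27.exists_res_of_integral` for `Rt := range (R̃ → E)`. -/
theorem ic_of_regular (hinj : Function.Injective (algebraMap R0 E))
    (hfrac : ∀ x : E, ∃ a b : R0, b ≠ 0 ∧ x * algebraMap R0 E b = algebraMap R0 E a)
    (W : ValuationSubring E) (π T : R0) (hπ0 : π ≠ 0)
    (h𝔪 : maximalIdeal R0 = Ideal.span {π, T})
    (hRW : ∀ r : R0, algebraMap R0 E r ∈ W)
    (hπW : W.valuation (algebraMap R0 E π) < 1)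
    (hsat : ∀ r : R0, W.valuation (algebraMap R0 E r) < 1 → π ∣ r)
    (x : E) (hxW : x ∈ W)
    (hp : ∃ p : E[X], p.Monic ∧ (∀ i, p.coeff i ∈ (algebraMap R0 E).range) ∧
      W.valuation (p.eval x) < 1) :
    ∃ r ∈ (algebraMap R0 E).range, W.valuation (x - r) < 1 := by
  refine SemiPts27.ic_of_vr (algebraMap R0 E).range ?_ ?_ x hxW hp
  · rintro r ⟨r0, rfl⟩
    exact hRW r0
  · intro z hz
    rcases vr_of_regular hinj hfrac W π T hπ0 h𝔪 hRW hπW hsat z hz with ⟨r, hr⟩ | ⟨r, hr⟩
    · exact Or.inl ⟨algebraMap R0 E r, ⟨r, rfl⟩, hr⟩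
    · exact Or.inr ⟨algebraMap R0 E r, ⟨r, rfl⟩, hr⟩

/-- **Residue degree one over a regular local base**: `V` over `W` along `φ` with residue degree one,
`y ∈ V` integral over `φ(R̃)` ⇒ `y ≡ φ r` modulo `𝔪_V` for some `r ∈ R̃`. -/
theorem exists_res_of_integral_regular (hinj : Function.Injective (algebraMap R0 E))
    (hfrac : ∀ x : E, ∃ a b : R0, b ≠ 0 ∧ x * algebraMap R0 E b = algebraMap R0 E a)
    (W : ValuationSubring E) (π T : R0) (hπ0 : π ≠ 0)
    (h𝔪 : maximalIdeal R0 = Ideal.span {π, T})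
    (hRW : ∀ r : R0, algebraMap R0 E r ∈ W)
    (hπW : W.valuation (algebraMap R0 E π) < 1)
    (hsat : ∀ r : R0, W.valuation (algebraMap R0 E r) < 1 → π ∣ r)
    {F : Type*} [Field F] (φ : E →+* F) (V : ValuationSubring F) (hVW : V.comap φ = W)
    (res : ∀ h ∈ V, ∃ x ∈ W, V.valuation (h - φ x) < 1)
    {y : F} (hyV : y ∈ V)
    (hy : ∃ p : R0[X], p.Monic ∧ (p.map (φ.comp (algebraMap R0 E))).eval y = 0) :
    ∃ r : R0, V.valuation (y - φ (algebraMap R0 E r)) < 1 := by
  obtain ⟨p, hpm, hpy⟩ := hy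
  obtain ⟨r, ⟨r0, rfl⟩, hr⟩ := SemiPts27.exists_res_of_integral (φ := φ) (W := W) (V := V) hVW res
    (algebraMap R0 E).range (by rintro r ⟨r0, rfl⟩; exact hRW r0)
    (ic_of_regular hinj hfrac W π T hπ0 h𝔪 hRW hπW hsat) hyV
    ⟨p.map (algebraMap R0 E), hpm.map _, fun i => ⟨p.coeff i, by rw [Polynomial.coeff_map]⟩, by
      rw [Polynomial.map_map]; exact hpy⟩
  exact ⟨r0, hr⟩

/-- The same with the denominator cleared: if `r = a / d` in `E` then `φ d * y ≡ φ a`. -/
theorem val_mul_sub_lt_one {F : Type*} [Field F] (φ : E →+* F) (V : ValuationSubring F)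
    {y : F} {r d a : E} (hd : V.valuation (φ d) ≤ 1) (hr : V.valuation (y - φ r) < 1)
    (hrd : r * d = a) : V.valuation (φ d * y - φ a) < 1 := by
  have : φ d * y - φ a = φ d * (y - φ r) := by
    rw [← hrd, map_mul]; ring
  rw [this, map_mul]
  exact lt_of_le_of_lt (mul_le_of_le_one_left' hd) hr

end VR

end Fermat.Agent.ES.P36.ResVR27
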