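/-
Program P (S36), chapter REG, brick (D2.1) abstract (helper27): **the closed points of the semilocal
ring `B̃` over a one-branch point of level `M'q`**.

`S36_REG2` (D2.1): `R̃ = (B1q)_{x1}` (regular local, `x1` a one-branch point of level `M'q`),
`B̃ = B'' ⊗ R̃`; the maximal ideals of `B̃` are the `C₁`-point and the `C₂`-point, each with residue field
`k(x1)`.  This file gives the point-hypotheses `hmax hall hinj hres` (and `card ≤ 2`) of
`DiscLift5.exists_local_span_pair` / `DiscRegSemi5` from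

* (A) `exists_res_of_integral` : RESIDUE DEGREE ONE + "the reduction of `R̃` is integrally closed in
  `κ(W)`" ⇒ every element of `V` integral over `φ(R̃)` is congruent mod `𝔪_V` to an element of `φ(R̃)`
  (valuation-subring vocabulary of `GenAbs20`/`GenTable11`: `V.comap φ = W`,
  `∀ h ∈ V, ∃ x ∈ W, V.valuation (h - φ x) < 1`);
* (B) `maximal_eq_sup`, `eq_of_le_of_le`, `hres_of_le`, `finite_maximal`, `card_maximal_le_two`:
  `B̃` integral over the LOCAL ring `R̃`, ideals `P₁ P₂` with `P₁ * P₂ ^ k ≤ (π)` and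
  `∀ y, ∃ r : R̃, y - r ∈ P_i` ⇒ every maximal ideal of `B̃` is `P₁ ⊔ 𝔪_{R̃}B̃` or `P₂ ⊔ 𝔪_{R̃}B̃`, has
  residue field `R̃/𝔪`, and there are at most two of them.
-/
import Mathlib
import Fermat.Agent.ES.P36.GenAbs20

set_option autoImplicit false
set_option linter.style.haveILetI false

namespace Fermat.Agent.ES.P36.SemiPts27

open Polynomial IsLocalRing

/-! ### (A) residue degree one -/

section ResDegOne

variable {E F : Type*} [Field E] [Field F] (φ : E →+* F) (W : ValuationSubring E)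
  (V : ValuationSubring F)

/-- For a polynomial `p` with coefficients of valuation `≤ 1` and `a b` of valuation `≤ 1`:
`v (p(a) - p(b)) ≤ v (a - b)`. -/
theorem val_eval_sub_eval_le (p : F[X]) (hp : ∀ i, V.valuation (p.coeff i) ≤ 1) {a b : F}
    (ha : V.valuation a ≤ 1) (hb : V.valuation b ≤ 1) :
    V.valuation (p.eval a - p.eval b) ≤ V.valuation (a - b) := by
  have hcoef : (↑p.coeffs : Set F) ⊆ ↑V.toSubring := by
    intro c hc
    rw [Finset.mem_coe, Polynomial.mem_coeffs_iff] at hc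
    obtain ⟨n, -, rfl⟩ := hc
    exact (V.valuation_le_one_iff _).mp (hp n)
  set p' : (↥V.toSubring)[X] := p.toSubring V.toSubring hcoef with hp'
  have hmap : p'.map V.toSubring.subtype = p := Polynomial.map_toSubring p V.toSubring hcoef
  set a' : ↥V.toSubring := ⟨a, (V.valuation_le_one_iff _).mp ha⟩ with ha'
  set b' : ↥V.toSubring := ⟨b, (V.valuation_le_one_iff _).mp hb⟩ with hb'
  obtain ⟨c, hc⟩ := Polynomial.sub_dvd_eval_sub a' b' p'
  have h1 : p.eval a - p.eval b = (a - b) * (c : F) := by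
    have e1 : p.eval a = ((p'.eval a' : ↥V.toSubring) : F) := by
      rw [← hmap]
      show Polynomial.eval (V.toSubring.subtype a') (p'.map V.toSubring.subtype) = _
      rw [Polynomial.eval_map_apply]
      rfl
    have e2 : p.eval b = ((p'.eval b' : ↥V.toSubring) : F) := by
      rw [← hmap]
      show Polynomial.eval (V.toSubring.subtype b') (p'.map V.toSubring.subtype) = _
      rw [Polynomial.eval_map_apply]
      rfl
    rw [e1, e2]
    have := congrArg (fun z : ↥V.toSubring => (z : F)) hc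
    simpa using this
  rw [h1, map_mul]
  exact mul_le_of_le_one_right' ((V.valuation_le_one_iff _).mpr c.2)

variable {φ W V}

/-- **(A) residue degree one.**  `V` over `W` along `φ` with residue degree one, `Rt ⊂ W` a subring
whose reduction is integrally closed in `κ(W)` (element form `ic`).  Every `y ∈ V` which is a root of
a monic polynomial with coefficients in `φ(Rt)` is congruent modulo `𝔪_V` to an element of `φ(Rt)`. -/
theorem exists_res_of_integral (hVW : V.comap φ = W)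
    (res : ∀ h ∈ V, ∃ x ∈ W, V.valuation (h - φ x) < 1)
    (Rt : Subring E) (hRW : ∀ r ∈ Rt, r ∈ W)
    (ic : ∀ x ∈ W, (∃ p : E[X], p.Monic ∧ (∀ i, p.coeff i ∈ Rt) ∧ W.valuation (p.eval x) < 1) →
      ∃ r ∈ Rt, W.valuation (x - r) < 1)
    {y : F} (hyV : y ∈ V)
    (hy : ∃ p : E[X], p.Monic ∧ (∀ i, p.coeff i ∈ Rt) ∧ (p.map φ).eval y = 0) :
    ∃ r ∈ Rt, V.valuation (y - φ r) < 1 := by
  obtain ⟨x, hxW, hx⟩ := res y hyV
  obtain ⟨p, hpm, hpR, hpy⟩ := hy
  have hφx : V.valuation (φ x) ≤ 1 :=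
    GenAbs20.val_map_le_one hVW ((W.valuation_le_one_iff _).mpr hxW)
  have hyV' : V.valuation y ≤ 1 := (V.valuation_le_one_iff _).mpr hyV
  have hcoef : ∀ i, V.valuation ((p.map φ).coeff i) ≤ 1 := by
    intro i
    rw [Polynomial.coeff_map]
    exact GenAbs20.val_map_le_one hVW ((W.valuation_le_one_iff _).mpr (hRW _ (hpR i)))
  have h1 := val_eval_sub_eval_le V (p.map φ) hcoef hφx hyV'
  rw [hpy, sub_zero, Polynomial.eval_map, Polynomial.eval₂_hom] at h1
  have h2 : V.valuation (φ (p.eval x)) < 1 := by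
    refine h1.trans_lt ?_
    rw [← neg_sub, Valuation.map_neg]
    exact hx
  have h3 : W.valuation (p.eval x) < 1 := GenAbs20.val_lt_one_of_map hVW h2
  obtain ⟨r, hrR, hr⟩ := ic x hxW ⟨p, hpm, hpR, h3⟩
  refine ⟨r, hrR, ?_⟩
  have h4 : V.valuation (φ x - φ r) < 1 := by
    rw [← map_sub]
    exact GenAbs20.val_map_lt_one hVW hr
  have : y - φ r = (y - φ x) + (φ x - φ r) := by ring
  rw [this]
  exact lt_of_le_of_lt (Valuation.map_add _ _ _) (max_lt hx h4)

/-- **(ic) from "the reduction of `Rt` is a valuation ring of `κ(W)`"**: if every `x ∈ W` is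
congruent to an element of `Rt` or has an inverse congruent to an element of `Rt`, then the reduction
of `Rt` is integrally closed in `κ(W)` (element form `ic` of `exists_res_of_integral`).
(`x` integral over `D` and `x⁻¹ ∈ D` ⇒ `x ∈ D[x⁻¹] = D`.) -/
theorem ic_of_vr {W : ValuationSubring E} (Rt : Subring E) (hRW : ∀ r ∈ Rt, r ∈ W)
    (vr : ∀ x ∈ W, (∃ r ∈ Rt, W.valuation (x - r) < 1) ∨ ∃ r ∈ Rt, W.valuation (x * r - 1) < 1)
    (x : E) (hxW : x ∈ W)
    (hp : ∃ p : E[X], p.Monic ∧ (∀ i, p.coeff i ∈ Rt) ∧ W.valuation (p.eval x) < 1) :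
    ∃ r ∈ Rt, W.valuation (x - r) < 1 := by
  rcases vr x hxW with h | ⟨r, hrR, hr⟩
  · exact h
  obtain ⟨p, hpm, hpR, hpx⟩ := hp
  have hx1 : W.valuation x ≤ 1 := (W.valuation_le_one_iff _).mpr hxW
  have hr1 : W.valuation r ≤ 1 := (W.valuation_le_one_iff _).mpr (hRW r hrR)
  have hc1 : ∀ i, W.valuation (p.coeff i) ≤ 1 := fun i =>
    (W.valuation_le_one_iff _).mpr (hRW _ (hpR i))
  set N := p.natDegree with hN
  have hN0 : N ≠ 0 := by
    intro h0
    have : p = 1 := by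
      have := Polynomial.eq_C_of_natDegree_eq_zero (hN ▸ h0)
      rw [this]
      have hlc : p.coeff 0 = 1 := by
        have := hpm.coeff_natDegree
        rwa [← hN, h0] at this
      rw [hlc, Polynomial.C_1]
    rw [this, Polynomial.eval_one, map_one] at hpx
    exact lt_irrefl _ hpx
  -- `(x r)^i ≡ 1`
  have hxr : ∀ i : ℕ, W.valuation ((x * r) ^ i - 1) < 1 := by
    intro i
    have h1 : W.valuation (x * r) ≤ 1 := by
      rw [map_mul]; exact mul_le_one' hx1 hr1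
    have := GenAbs20.cong_pow (V := W) h1 (le_of_eq (map_one _)) hr i
    rwa [one_pow] at this
  -- the candidate
  set r' : E := - ∑ i ∈ Finset.range N, p.coeff i * r ^ (N - 1 - i) with hr'
  have hr'R : r' ∈ Rt := by
    rw [hr']
    exact Rt.neg_mem (Rt.sum_mem fun i _ => Rt.mul_mem (hpR i) (Rt.pow_mem hrR _))
  refine ⟨r', hr'R, ?_⟩
  -- `p(x) r^(N-1) - (x - r') ∈ 𝔪_W`
  have hsum : p.eval x = x ^ N + ∑ i ∈ Finset.range N, p.coeff i * x ^ i := by
    conv_lhs => rw [hpm.as_sum, Polynomial.eval_add, Polynomial.eval_pow, Polynomial.eval_X,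
      Polynomial.eval_finsetSum]
    congr 1
    refine Finset.sum_congr rfl fun i _ => ?_
    rw [Polynomial.eval_mul, Polynomial.eval_C, Polynomial.eval_pow, Polynomial.eval_X]
  have hkey : x - r' = p.eval x * r ^ (N - 1) - (x * ((x * r) ^ (N - 1) - 1) +
      ∑ i ∈ Finset.range N, p.coeff i * r ^ (N - 1 - i) * ((x * r) ^ i - 1)) := by
    rw [hsum, hr', add_mul, Finset.sum_mul]
    have e1 : x ^ N * r ^ (N - 1) = x * (x * r) ^ (N - 1) := by
      obtain ⟨M, hM⟩ : ∃ M, N = M + 1 := ⟨N - 1, by omega⟩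
      rw [hM, Nat.add_sub_cancel, mul_pow, pow_succ]; ring
    have e2 : ∀ i ∈ Finset.range N, p.coeff i * x ^ i * r ^ (N - 1) =
        p.coeff i * r ^ (N - 1 - i) * (x * r) ^ i := by
      intro i hi
      have hi' : i ≤ N - 1 := by
        have := Finset.mem_range.mp hi; omega
      have : r ^ (N - 1) = r ^ (N - 1 - i) * r ^ i := by
        rw [← pow_add, Nat.sub_add_cancel hi']
      rw [this, mul_pow]; ring
    rw [e1, Finset.sum_congr rfl e2]
    simp only [mul_sub, mul_one, Finset.sum_sub_distrib]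
    ring
  rw [hkey]
  have hA : W.valuation (p.eval x * r ^ (N - 1)) < 1 := by
    rw [map_mul]
    exact (mul_le_of_le_one_right' (by rw [map_pow]; exact pow_le_one₀ zero_le hr1)).trans_lt hpx
  have hB : W.valuation (x * ((x * r) ^ (N - 1) - 1)) < 1 := by
    rw [map_mul]
    exact (mul_le_of_le_one_left' hx1).trans_lt (hxr _)
  have hC : W.valuation (∑ i ∈ Finset.range N,
      p.coeff i * r ^ (N - 1 - i) * ((x * r) ^ i - 1)) < 1 := by
    refine Valuation.map_sum_lt _ one_ne_zero fun i _ => ?_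
    rw [map_mul]
    refine (mul_le_of_le_one_left' ?_).trans_lt (hxr i)
    rw [map_mul, map_pow]
    exact mul_le_one' (hc1 i) (pow_le_one₀ zero_le hr1)
  refine lt_of_le_of_lt (Valuation.map_sub _ _ _) (max_lt hA ?_)
  exact lt_of_le_of_lt (Valuation.map_add _ _ _) (max_lt hB hC)

end ResDegOne

/-! ### (B) the maximal ideals of `B̃` -/

section Points

universe u v

variable {R0 : Type u} {Bt : Type v} [CommRing R0] [IsLocalRing R0] [CommRing Bt] [Algebra R0 Bt]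
  [Algebra.IsIntegral R0 Bt]

/-- The contraction of a maximal ideal of `B̃` is the maximal ideal of `R̃`. -/
theorem comap_eq_maximalIdeal (𝔫 : Ideal Bt) [h𝔫 : 𝔫.IsMaximal] :
    𝔫.comap (algebraMap R0 Bt) = maximalIdeal R0 := by
  have : (𝔫.comap (algebraMap R0 Bt)).IsMaximal :=
    Ideal.isMaximal_comap_of_isIntegral_of_isMaximal 𝔫
  exact IsLocalRing.eq_maximalIdeal this

theorem algebraMap_mem_of_mem_maximalIdeal (𝔫 : Ideal Bt) [𝔫.IsMaximal] {r : R0}
    (hr : r ∈ maximalIdeal R0) : algebraMap R0 Bt r ∈ 𝔫 := by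
  rw [← comap_eq_maximalIdeal 𝔫] at hr
  exact hr

theorem mem_maximalIdeal_of_algebraMap_mem (𝔫 : Ideal Bt) [𝔫.IsMaximal] {r : R0}
    (hr : algebraMap R0 Bt r ∈ 𝔫) : r ∈ maximalIdeal R0 := by
  rw [← comap_eq_maximalIdeal 𝔫]
  exact hr

/-- A maximal ideal containing `P` is `P ⊔ 𝔪 B̃` when `B̃ = R̃ + P`. -/
theorem maximal_eq_sup (P : Ideal Bt)
    (hsurj : ∀ y : Bt, ∃ r : R0, y - algebraMap R0 Bt r ∈ P)
    (𝔫 : Ideal Bt) [𝔫.IsMaximal] (hP : P ≤ 𝔫) :
    𝔫 = P ⊔ (maximalIdeal R0).map (algebraMap R0 Bt) := by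
  apply le_antisymm
  · intro y hy
    obtain ⟨r, hr⟩ := hsurj y
    have hr𝔫 : algebraMap R0 Bt r ∈ 𝔫 := by
      have : algebraMap R0 Bt r = y - (y - algebraMap R0 Bt r) := by ring
      rw [this]
      exact 𝔫.sub_mem hy (hP hr)
    have hrm := mem_maximalIdeal_of_algebraMap_mem 𝔫 hr𝔫
    have : y = (y - algebraMap R0 Bt r) + algebraMap R0 Bt r := by ring
    rw [this]
    exact Ideal.add_mem _ (Ideal.mem_sup_left hr) (Ideal.mem_sup_right (Ideal.mem_map_of_mem _ hrm))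
  · refine sup_le hP ?_
    rw [Ideal.map_le_iff_le_comap, comap_eq_maximalIdeal 𝔫]

/-- Two maximal ideals containing the same `P` (with `B̃ = R̃ + P`) are equal. -/
theorem eq_of_le_of_le (P : Ideal Bt)
    (hsurj : ∀ y : Bt, ∃ r : R0, y - algebraMap R0 Bt r ∈ P)
    (𝔫 𝔫' : Ideal Bt) [𝔫.IsMaximal] [𝔫'.IsMaximal] (h : P ≤ 𝔫) (h' : P ≤ 𝔫') : 𝔫 = 𝔫' := by
  rw [maximal_eq_sup P hsurj 𝔫 h, maximal_eq_sup P hsurj 𝔫' h']

omit [IsLocalRing R0] [Algebra.IsIntegral R0 Bt] in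
/-- `hres` of `DiscRegSemi5`/`DiscLift5`. -/
theorem hres_of_le (P : Ideal Bt)
    (hsurj : ∀ y : Bt, ∃ r : R0, y - algebraMap R0 Bt r ∈ P)
    (𝔫 : Ideal Bt) (hP : P ≤ 𝔫) (y : Bt) : ∃ r : R0, y - algebraMap R0 Bt r ∈ 𝔫 := by
  obtain ⟨r, hr⟩ := hsurj y
  exact ⟨r, hP hr⟩

variable (π : R0) (hπ : π ∈ maximalIdeal R0) (P₁ P₂ : Ideal Bt) (k : ℕ)
  (h12 : P₁ * P₂ ^ k ≤ Ideal.span {algebraMap R0 Bt π})

include hπ h12 in
/-- Every maximal ideal of `B̃` contains `P₁` or `P₂`. -/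
theorem le_or_le (𝔫 : Ideal Bt) [h𝔫 : 𝔫.IsMaximal] : P₁ ≤ 𝔫 ∨ P₂ ≤ 𝔫 := by
  have hπ𝔫 : Ideal.span {algebraMap R0 Bt π} ≤ 𝔫 := by
    rw [Ideal.span_le, Set.singleton_subset_iff]
    exact algebraMap_mem_of_mem_maximalIdeal 𝔫 hπ
  have h := h12.trans hπ𝔫
  rcases (h𝔫.isPrime.mul_le).mp h with h1 | h2
  · exact Or.inl h1
  · exact Or.inr (h𝔫.isPrime.le_of_pow_le h2)

variable (hs₁ : ∀ y : Bt, ∃ r : R0, y - algebraMap R0 Bt r ∈ P₁)
  (hs₂ : ∀ y : Bt, ∃ r : R0, y - algebraMap R0 Bt r ∈ P₂)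

include hπ h12 hs₁ hs₂ in
/-- **(D2.1) `hres`**: every maximal ideal of `B̃` has residue field `R̃/𝔪`. -/
theorem hres_maximal (𝔫 : Ideal Bt) [𝔫.IsMaximal] (y : Bt) :
    ∃ r : R0, y - algebraMap R0 Bt r ∈ 𝔫 := by
  rcases le_or_le π hπ P₁ P₂ k h12 𝔫 with h | h
  · exact hres_of_le P₁ hs₁ 𝔫 h y
  · exact hres_of_le P₂ hs₂ 𝔫 h y

include hπ h12 hs₁ hs₂ in
/-- Among three maximal ideals of `B̃` two coincide. -/
theorem eq_of_three (𝔫 𝔫' 𝔫'' : Ideal Bt) [𝔫.IsMaximal] [𝔫'.IsMaximal] [𝔫''.IsMaximal] :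
    𝔫 = 𝔫' ∨ 𝔫 = 𝔫'' ∨ 𝔫' = 𝔫'' := by
  rcases le_or_le π hπ P₁ P₂ k h12 𝔫 with h | h <;>
  rcases le_or_le π hπ P₁ P₂ k h12 𝔫' with h' | h' <;>
  rcases le_or_le π hπ P₁ P₂ k h12 𝔫'' with h'' | h''
  · exact Or.inl (eq_of_le_of_le P₁ hs₁ _ _ h h')
  · exact Or.inl (eq_of_le_of_le P₁ hs₁ _ _ h h')
  · exact Or.inr (Or.inl (eq_of_le_of_le P₁ hs₁ _ _ h h''))
  · exact Or.inr (Or.inr (eq_of_le_of_le P₂ hs₂ _ _ h' h''))
  · exact Or.inr (Or.inr (eq_of_le_of_le P₁ hs₁ _ _ h' h''))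
  · exact Or.inr (Or.inl (eq_of_le_of_le P₂ hs₂ _ _ h h''))
  · exact Or.inl (eq_of_le_of_le P₂ hs₂ _ _ h h')
  · exact Or.inl (eq_of_le_of_le P₂ hs₂ _ _ h h')

include hπ h12 hs₁ hs₂ in
/-- **(D2.1)**: `B̃` has finitely many maximal ideals … -/
theorem finite_maximal : {𝔫 : Ideal Bt | 𝔫.IsMaximal}.Finite := by
  classical
  by_contra hinf
  have hinf' : {𝔫 : Ideal Bt | 𝔫.IsMaximal}.Infinite := hinf
  obtain ⟨s, hs, hcard⟩ := hinf'.exists_subset_card_eq 3
  obtain ⟨a, b, c, hab, hac, hbc, rfl⟩ := Finset.card_eq_three.mp hcard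
  have ha : a.IsMaximal := hs (by simp)
  have hb : b.IsMaximal := hs (by simp)
  have hc : c.IsMaximal := hs (by simp)
  rcases eq_of_three π hπ P₁ P₂ k h12 hs₁ hs₂ a b c with h | h | h
  · exact hab h
  · exact hac h
  · exact hbc h

include hπ h12 hs₁ hs₂ in
/-- … and at most two. -/
theorem card_maximal_le_two [Fintype {𝔫 : Ideal Bt // 𝔫.IsMaximal}] :
    Fintype.card {𝔫 : Ideal Bt // 𝔫.IsMaximal} ≤ 2 := by
  classical
  by_contra hcon
  rw [not_le] at hcon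
  have h3 : 2 < Fintype.card {𝔫 : Ideal Bt // 𝔫.IsMaximal} := hcon
  obtain ⟨a, b, c, hab, hac, hbc⟩ := Fintype.two_lt_card_iff.mp h3
  haveI := a.2
  haveI := b.2
  haveI := c.2
  rcases eq_of_three π hπ P₁ P₂ k h12 hs₁ hs₂ a.1 b.1 c.1 with h | h | h
  · exact hab (Subtype.ext h)
  · exact hac (Subtype.ext h)
  · exact hbc (Subtype.ext h)

include hπ h12 hs₁ hs₂ in
/-- **(D2.1), packaged for `DiscLift5.exists_local_span_pair`**: the family of ALL maximal ideals of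
`B̃`, indexed by a `Fintype` of cardinality `≤ 2`, with `hmax hall hinj hres`. -/
theorem exists_family :
    ∃ (κ : Type v) (_ : Fintype κ) (𝔫 : κ → Ideal Bt), Fintype.card κ ≤ 2 ∧
      (∀ j, (𝔫 j).IsMaximal) ∧ (∀ P : Ideal Bt, P.IsMaximal → ∃ j, P = 𝔫 j) ∧
      Function.Injective 𝔫 ∧ ∀ j (x : Bt), ∃ r : R0, x - algebraMap R0 Bt r ∈ 𝔫 j := by
  classical
  have hfin := finite_maximal π hπ P₁ P₂ k h12 hs₁ hs₂
  haveI : Fintype {𝔫 : Ideal Bt // 𝔫.IsMaximal} := hfin.fintype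
  refine ⟨{𝔫 : Ideal Bt // 𝔫.IsMaximal}, inferInstance, Subtype.val,
    card_maximal_le_two π hπ P₁ P₂ k h12 hs₁ hs₂, fun j => j.2,
    fun P hP => ⟨⟨P, hP⟩, rfl⟩, Subtype.val_injective, fun j x => ?_⟩
  haveI := j.2
  exact hres_maximal π hπ P₁ P₂ k h12 hs₁ hs₂ j.1 x

end Points

end Fermat.Agent.ES.P36.SemiPts27
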