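/-
Program P (S36), chapter (SS), brick S6, part 2 (helper18): **Teichmüller lifts without Hensel**
and the global multiplier for constants given modulo `π`.

`R` a domain containing a primitive `m`-th root of unity, `P` a prime ideal (`P = (π)`).

* `exists_root_of_unity_congr` : `γ ^ m ≡ 1 mod P` ⟹ `γ ≡ θ mod P` for some `θ` with `θ ^ m = 1`
  (`X ^ m − 1 = ∏ (X − θ)` over the `m`-th roots of unity of `R`, and `P` is prime).
* `root_of_unity_congr_unique` : two `m`-th roots of unity congruent mod `P` are equal if `m ∉ P`.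
* `exists_multiplier_lift` : `GlobMult18.exists_multiplier` for two constants `ρα ρβ ∈ R` which are
  `m`-th roots of unity only MODULO `P` (`ρα = γ_{O1}/γ_{O2}` along `α`, `ρβ` along `β`).
* `exists_lambda_of_units` : the shape of helper15's `BranchComb15.branch_comb` (`hl₁`, `hl₃`):
  from units `γ₁ γ₂ δ₁ δ₂` of `R` with `γ₁ ^ m ≡ γ₂ ^ m`, `δ₁ ^ m ≡ δ₂ ^ m mod P`, roots of unity
  `θα θβ` with `θα γ₂ ≡ γ₁`, `θβ δ₂ ≡ δ₁`, hence `l₁ := θα θβ^q`, `l₃ := θβ θα^q` satisfy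
  `l₁ (γ₂ δ₂^q) ≡ γ₁ δ₁^q`, `l₃ (δ₂ γ₂^q) ≡ δ₁ γ₁^q mod P`.
-/
import Mathlib
import Fermat.Agent.ES.P36.GlobMult18

set_option autoImplicit false

namespace Fermat.Agent.ES.P36.TeichLift18

open Polynomial Fermat.Agent.ES.P36.Approx3v9 Fermat.Agent.ES.P36.GlobMult18

section Teich

variable {R : Type*} [CommRing R] [IsDomain R]

/-- **Teichmüller lift without Hensel**: if `R` contains a primitive `m`-th root of unity and `P`
is prime, every `γ` with `γ ^ m ≡ 1 mod P` is congruent mod `P` to an `m`-th root of unity. -/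
theorem exists_root_of_unity_congr (P : Ideal R) [P.IsPrime] {m : ℕ} (hm : 0 < m) {ζ : R}
    (hζ : IsPrimitiveRoot ζ m) {γ : R} (hγ : γ ^ m - 1 ∈ P) :
    ∃ θ : R, θ ^ m = 1 ∧ γ - θ ∈ P := by
  have h := congrArg (Polynomial.eval γ) (X_pow_sub_one_eq_prod hm hζ)
  simp only [eval_sub, eval_pow, eval_X, eval_one, eval_prod, eval_C] at h
  rw [h, Ideal.IsPrime.prod_mem_iff] at hγ
  obtain ⟨θ, hθ, hθP⟩ := hγ
  exact ⟨θ, (mem_nthRootsFinset hm 1).mp hθ, hθP⟩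

/-- Uniqueness of the lift when `m ∉ P`. -/
theorem root_of_unity_congr_unique (P : Ideal R) [P.IsPrime] {m : ℕ} (hm : 0 < m)
    (hmP : (m : R) ∉ P) {θ θ' : R} (hθ : θ ^ m = 1) (hθ' : θ' ^ m = 1) (h : θ - θ' ∈ P) :
    θ = θ' := by
  by_contra hne
  -- in `R ⧸ P`, `X ^ m − 1` is separable-ish: `m θ^(m-1) (θ − θ') ≡ …`; direct argument:
  -- `0 = θ^m − θ'^m = (θ − θ') · ∑ θ^i θ'^(m-1-i)` and `∑ ≡ m θ^(m-1) mod P`
  have hsum : (θ - θ') * ∑ i ∈ Finset.range m, θ ^ i * θ' ^ (m - 1 - i) = 0 := by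
    have := (Commute.all θ θ').mul_geom_sum₂ m
    rw [this, hθ, hθ', sub_self]
  have hd : θ - θ' ≠ 0 := sub_ne_zero.mpr hne
  have hs0 : ∑ i ∈ Finset.range m, θ ^ i * θ' ^ (m - 1 - i) = 0 :=
    (mul_eq_zero.mp hsum).resolve_left hd
  -- modulo `P`: the sum is `m θ^(m-1)`
  have hcong : ∑ i ∈ Finset.range m, θ ^ i * θ' ^ (m - 1 - i) - (m : R) * θ ^ (m - 1) ∈ P := by
    have : (m : R) * θ ^ (m - 1) = ∑ i ∈ Finset.range m, θ ^ i * θ ^ (m - 1 - i) := by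
      rw [Finset.sum_congr rfl (fun i hi => by
        rw [← pow_add, Nat.add_sub_of_le (by have := Finset.mem_range.mp hi; omega)] :
        ∀ i ∈ Finset.range m, θ ^ i * θ ^ (m - 1 - i) = θ ^ (m - 1))]
      simp
    rw [this, ← Finset.sum_sub_distrib]
    refine Ideal.sum_mem _ fun i _ => ?_
    rw [← mul_sub]
    refine Ideal.mul_mem_left _ _ ?_
    obtain ⟨c, hc⟩ := sub_dvd_pow_sub_pow θ' θ (m - 1 - i)
    rw [hc]
    refine Ideal.mul_mem_right _ _ ?_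
    have : θ' - θ = -(θ - θ') := by ring
    rw [this]; exact Ideal.neg_mem_iff _ |>.mpr h
  rw [hs0, zero_sub, neg_mem_iff] at hcong
  rcases (Ideal.IsPrime.mem_or_mem inferInstance hcong) with h1 | h1
  · exact hmP h1
  · have hunit : θ ^ (m - 1) * θ = 1 := by rw [← pow_succ, Nat.sub_add_cancel hm, hθ]
    have : (1 : R) ∈ P := by rw [← hunit]; exact Ideal.mul_mem_right _ _ h1
    exact (Ideal.ne_top_iff_one P).mp (Ideal.IsPrime.ne_top inferInstance) this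

/-- helper15's `branch_comb` shape for the constants. -/
theorem exists_lambda_of_units (P : Ideal R) [P.IsPrime] {m : ℕ} (hm : 0 < m) {ζ : R}
    (hζ : IsPrimitiveRoot ζ m) (q : ℕ) {γ₁ γ₂ δ₁ δ₂ : R} (hγ₂ : IsUnit γ₂) (hδ₂ : IsUnit δ₂)
    (hγ : γ₁ ^ m - γ₂ ^ m ∈ P) (hδ : δ₁ ^ m - δ₂ ^ m ∈ P) :
    ∃ θα θβ : R, θα ^ m = 1 ∧ θβ ^ m = 1 ∧ θα * γ₂ - γ₁ ∈ P ∧ θβ * δ₂ - δ₁ ∈ P ∧
      (θα * θβ ^ q) * (γ₂ * δ₂ ^ q) - γ₁ * δ₁ ^ q ∈ P ∧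
      (θβ * θα ^ q) * (δ₂ * γ₂ ^ q) - δ₁ * γ₁ ^ q ∈ P := by
  obtain ⟨g, rfl⟩ := hγ₂
  obtain ⟨d, rfl⟩ := hδ₂
  have h1 : (γ₁ * (g⁻¹ : Rˣ)) ^ m - 1 ∈ P := by
    have : (γ₁ * (g⁻¹ : Rˣ)) ^ m - 1 = ((g⁻¹ : Rˣ) : R) ^ m * (γ₁ ^ m - (g : R) ^ m) := by
      have hgm : ((g⁻¹ : Rˣ) : R) ^ m * (g : R) ^ m = 1 := by
        rw [← mul_pow, Units.inv_mul, one_pow]
      rw [mul_pow]
      linear_combination hgm
    rw [this]; exact Ideal.mul_mem_left _ _ hγ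
  have h2 : (δ₁ * (d⁻¹ : Rˣ)) ^ m - 1 ∈ P := by
    have : (δ₁ * (d⁻¹ : Rˣ)) ^ m - 1 = ((d⁻¹ : Rˣ) : R) ^ m * (δ₁ ^ m - (d : R) ^ m) := by
      have hdm : ((d⁻¹ : Rˣ) : R) ^ m * (d : R) ^ m = 1 := by
        rw [← mul_pow, Units.inv_mul, one_pow]
      rw [mul_pow]
      linear_combination hdm
    rw [this]; exact Ideal.mul_mem_left _ _ hδ
  obtain ⟨θα, hθα, hα⟩ := exists_root_of_unity_congr P hm hζ h1
  obtain ⟨θβ, hθβ, hβ⟩ := exists_root_of_unity_congr P hm hζ h2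
  have hα' : θα * g - γ₁ ∈ P := by
    have : θα * g - γ₁ = -((g : R) * (γ₁ * (g⁻¹ : Rˣ) - θα)) := by
      have hg : (g : R) * ((g⁻¹ : Rˣ) : R) = 1 := Units.mul_inv g
      linear_combination γ₁ * hg
    rw [this]; exact P.neg_mem (Ideal.mul_mem_left _ _ hα)
  have hβ' : θβ * d - δ₁ ∈ P := by
    have : θβ * d - δ₁ = -((d : R) * (δ₁ * (d⁻¹ : Rˣ) - θβ)) := by
      have hd : (d : R) * ((d⁻¹ : Rˣ) : R) = 1 := Units.mul_inv d
      linear_combination δ₁ * hd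
    rw [this]; exact P.neg_mem (Ideal.mul_mem_left _ _ hβ)
  -- pass to the quotient
  refine ⟨θα, θβ, hθα, hθβ, hα', hβ', ?_, ?_⟩
  · rw [← Ideal.Quotient.eq_zero_iff_mem] at hα' hβ' ⊢
    simp only [map_sub, map_mul, map_pow, sub_eq_zero] at hα' hβ' ⊢
    rw [← hα', ← hβ']; ring
  · rw [← Ideal.Quotient.eq_zero_iff_mem] at hα' hβ' ⊢
    simp only [map_sub, map_mul, map_pow, sub_eq_zero] at hα' hβ' ⊢
    rw [← hα', ← hβ']; ring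

end Teich

section Lift

variable {R F : Type*} [CommRing R] [IsDomain R] [Field F] [Algebra R F]
  {O₁ O₂ O₃ : ValuationSubring F}

/-- **The global multiplier for constants given modulo `π`**: `ρα ρβ ∈ R` with
`ρα ^ m ≡ ρβ ^ m ≡ 1 mod π₀`; `θα θβ` their Teichmüller lifts. -/
theorem exists_multiplier_lift (hinc : Incomp3 O₁ O₂ O₃) {q m : ℕ} (hq : q.Prime)
    (hqm : ¬ q ∣ m) (π₀ : R) [hP : (Ideal.span {π₀}).IsPrime]
    (hπ : algebraMap R F π₀ ≠ 0)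
    (hqπ₁ : O₁.valuation (q : F) ≤ O₁.valuation (algebraMap R F π₀))
    (hxq₁ : ∀ x : F, O₁.valuation x < 1 → O₁.valuation x ^ q ≤ O₁.valuation (algebraMap R F π₀))
    (hqπ₂ : O₂.valuation (q : F) ≤ O₂.valuation (algebraMap R F π₀))
    (hxq₂ : ∀ x : F, O₂.valuation x < 1 → O₂.valuation x ^ q ≤ O₂.valuation (algebraMap R F π₀))
    (hqπ₃ : O₃.valuation (q : F) ≤ O₃.valuation (algebraMap R F π₀))
    (hxq₃ : ∀ x : F, O₃.valuation x < 1 → O₃.valuation x ^ q ≤ O₃.valuation (algebraMap R F π₀))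
    {ζ : R} (hζ : IsPrimitiveRoot ζ m) {ρα ρβ : R}
    (hρα : ρα ^ m - 1 ∈ Ideal.span {π₀}) (hρβ : ρβ ^ m - 1 ∈ Ideal.span {π₀}) :
    ∃ θα θβ : R, θα ^ m = 1 ∧ θβ ^ m = 1 ∧ ρα - θα ∈ Ideal.span {π₀} ∧
      ρβ - θβ ∈ Ideal.span {π₀} ∧
      ∃ s : F, s ≠ 0 ∧ (s⁻¹ ∈ O₁ ∧ s⁻¹ ∈ O₂ ∧ s⁻¹ ∈ O₃) ∧
        (∃ c ∈ O₁, s - algebraMap R F (θα * θβ ^ q) = algebraMap R F π₀ * c) ∧
        (∃ c ∈ O₂, s - 1 = algebraMap R F π₀ * c) ∧
        (∃ c ∈ O₃, s - algebraMap R F (θβ * θα ^ q) = algebraMap R F π₀ * c) ∧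
        ∃ c : F, c ∈ O₁ ∧ c ∈ O₂ ∧ c ∈ O₃ ∧ s ^ m - 1 = algebraMap R F π₀ * c := by
  have hm : 0 < m := Nat.pos_of_ne_zero fun h => hqm (h ▸ dvd_zero q)
  obtain ⟨θα, hθα, hα⟩ := exists_root_of_unity_congr _ hm hζ hρα
  obtain ⟨θβ, hθβ, hβ⟩ := exists_root_of_unity_congr _ hm hζ hρβ
  refine ⟨θα, θβ, hθα, hθβ, hα, hβ, ?_⟩
  have h1 : (algebraMap R F θα) ^ m = 1 := by rw [← map_pow, hθα, map_one]
  have h2 : (algebraMap R F θβ) ^ m = 1 := by rw [← map_pow, hθβ, map_one]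
  obtain ⟨s, hs0, hsinv, hs₁, hs₂, hs₃, hsm⟩ :=
    exists_multiplier hinc hq hqm hπ hqπ₁ hxq₁ hqπ₂ hxq₂ hqπ₃ hxq₃ h1 h2
  refine ⟨s, hs0, hsinv, ?_, hs₂, ?_, hsm⟩
  · simpa only [map_mul, map_pow] using hs₁
  · simpa only [map_mul, map_pow] using hs₃

end Lift

end Fermat.Agent.ES.P36.TeichLift18
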