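/-
Program P (S36), chapter (SS), brick S6, part 3 (helper18): the output of `GlobMult18.branch_data_mul`
in helper13's bundled form `LocTriple13.TripleDec` (consumer: `LocTripleM13.locStartM_of_tripleDec`).

* `tripleDec_mul` : at a triple point, from a factorisation `u = ε f ^ m` with branch
  representatives `r_j` satisfying the two branch relations (R_α), (R_β) with global constants
  `θα θβ`, and the global multiplier `s` of `GlobMult18.exists_multiplier`: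
  `TripleDec O₁ O₂ O₃ x₁ x₂ x₃ m (u ^ (q ^ 2 - 1) * s ^ m)`.
-/
import Mathlib
import Fermat.Agent.ES.P36.GlobMult18
import Fermat.Agent.ES.P36.LocTriple13

set_option autoImplicit false

namespace Fermat.Agent.ES.P36.TripleDecMul18

open IsLocalRing Fermat.Agent.ES.P36.GlobMult18 Fermat.Agent.ES.P36.LocTriple13

variable {C F : Type*} [CommRing C] [IsLocalRing C] [Field F] [Algebra C F]

/-- **(N3)(g) in bundled form**: the triple-point decomposition of `u ^ (q² − 1) * s ^ m`. -/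
theorem tripleDec_mul (O₁ O₂ O₃ : ValuationSubring F) (x₁ x₂ x₃ : C)
    (hC₁ : ∀ c : C, algebraMap C F c ∈ O₁) (hC₂ : ∀ c : C, algebraMap C F c ∈ O₂)
    (hC₃ : ∀ c : C, algebraMap C F c ∈ O₃)
    (q : ℕ) (hq : 1 ≤ q) {π : F}
    (hπx₁ : ∃ o ∈ O₁, π = algebraMap C F x₁ * o) (hπx₂ : ∃ o ∈ O₂, π = algebraMap C F x₂ * o)
    (hπx₃ : ∃ o ∈ O₃, π = algebraMap C F x₃ * o)
    (m : ℕ) (u : F) (ε : Cˣ) (f : F) (hf0 : f ≠ 0)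
    (huf : u = algebraMap C F (ε : C) * f ^ m)
    (hfinv₁ : f⁻¹ ∈ O₁) (hfinv₂ : f⁻¹ ∈ O₂) (hfinv₃ : f⁻¹ ∈ O₃)
    {r₁ r₂ r₃ : C} (hr₁ : IsUnit r₁) (hr₃ : IsUnit r₃)
    (hfr₁ : ∃ o ∈ O₁, f - algebraMap C F r₁ = algebraMap C F x₁ * o)
    (hfr₂ : ∃ o ∈ O₂, f - algebraMap C F r₂ = algebraMap C F x₂ * o)
    (hfr₃ : ∃ o ∈ O₃, f - algebraMap C F r₃ = algebraMap C F x₃ * o)
    {θα θβ : C}
    (hα : r₁ * r₂ ^ (q - 1) - θα * r₃ ^ q ∈ maximalIdeal C)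
    (hβ : r₃ * r₂ ^ (q - 1) - θβ * r₁ ^ q ∈ maximalIdeal C)
    {s : F} (hs0 : s ≠ 0) (hsinv₁ : s⁻¹ ∈ O₁) (hsinv₂ : s⁻¹ ∈ O₂) (hsinv₃ : s⁻¹ ∈ O₃)
    (hs₁ : ∃ c ∈ O₁, s - algebraMap C F (θα * θβ ^ q) = π * c)
    (hs₂ : ∃ c ∈ O₂, s - 1 = π * c)
    (hs₃ : ∃ c ∈ O₃, s - algebraMap C F (θβ * θα ^ q) = π * c) :
    TripleDec O₁ O₂ O₃ x₁ x₂ x₃ m (u ^ (q ^ 2 - 1) * s ^ m) :=
  branch_data_mul O₁ O₂ O₃ x₁ x₂ x₃ hC₁ hC₂ hC₃ q hq hπx₁ hπx₂ hπx₃ m u ε f hf0 huf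
    hfinv₁ hfinv₂ hfinv₃ hr₁ hr₃ hfr₁ hfr₂ hfr₃ hα hβ hs0 hsinv₁ hsinv₂ hsinv₃ hs₁ hs₂ hs₃

/-- Variant with the constants coming from a base ring `R` (`θα = algebraMap R C Θα`), as
delivered by S5 and consumed together with `TeichLift18.exists_multiplier_lift`. -/
theorem tripleDec_mul_base {R : Type*} [CommRing R] [Algebra R C] [Algebra R F]
    [IsScalarTower R C F]
    (O₁ O₂ O₃ : ValuationSubring F) (x₁ x₂ x₃ : C)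
    (hC₁ : ∀ c : C, algebraMap C F c ∈ O₁) (hC₂ : ∀ c : C, algebraMap C F c ∈ O₂)
    (hC₃ : ∀ c : C, algebraMap C F c ∈ O₃)
    (q : ℕ) (hq : 1 ≤ q) {π : F}
    (hπx₁ : ∃ o ∈ O₁, π = algebraMap C F x₁ * o) (hπx₂ : ∃ o ∈ O₂, π = algebraMap C F x₂ * o)
    (hπx₃ : ∃ o ∈ O₃, π = algebraMap C F x₃ * o)
    (m : ℕ) (u : F) (ε : Cˣ) (f : F) (hf0 : f ≠ 0)
    (huf : u = algebraMap C F (ε : C) * f ^ m)
    (hfinv₁ : f⁻¹ ∈ O₁) (hfinv₂ : f⁻¹ ∈ O₂) (hfinv₃ : f⁻¹ ∈ O₃)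
    {r₁ r₂ r₃ : C} (hr₁ : IsUnit r₁) (hr₃ : IsUnit r₃)
    (hfr₁ : ∃ o ∈ O₁, f - algebraMap C F r₁ = algebraMap C F x₁ * o)
    (hfr₂ : ∃ o ∈ O₂, f - algebraMap C F r₂ = algebraMap C F x₂ * o)
    (hfr₃ : ∃ o ∈ O₃, f - algebraMap C F r₃ = algebraMap C F x₃ * o)
    {Θα Θβ : R}
    (hα : r₁ * r₂ ^ (q - 1) - algebraMap R C Θα * r₃ ^ q ∈ maximalIdeal C)
    (hβ : r₃ * r₂ ^ (q - 1) - algebraMap R C Θβ * r₁ ^ q ∈ maximalIdeal C)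
    {s : F} (hs0 : s ≠ 0) (hsinv₁ : s⁻¹ ∈ O₁) (hsinv₂ : s⁻¹ ∈ O₂) (hsinv₃ : s⁻¹ ∈ O₃)
    (hs₁ : ∃ c ∈ O₁, s - algebraMap R F (Θα * Θβ ^ q) = π * c)
    (hs₂ : ∃ c ∈ O₂, s - 1 = π * c)
    (hs₃ : ∃ c ∈ O₃, s - algebraMap R F (Θβ * Θα ^ q) = π * c) :
    TripleDec O₁ O₂ O₃ x₁ x₂ x₃ m (u ^ (q ^ 2 - 1) * s ^ m) := by
  refine tripleDec_mul O₁ O₂ O₃ x₁ x₂ x₃ hC₁ hC₂ hC₃ q hq hπx₁ hπx₂ hπx₃ m u ε f hf0 huf
    hfinv₁ hfinv₂ hfinv₃ hr₁ hr₃ hfr₁ hfr₂ hfr₃ hα hβ hs0 hsinv₁ hsinv₂ hsinv₃ ?_ hs₂ ?_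
  · have : algebraMap C F (algebraMap R C Θα * algebraMap R C Θβ ^ q)
        = algebraMap R F (Θα * Θβ ^ q) := by
      rw [← map_pow, ← map_mul, ← IsScalarTower.algebraMap_apply]
    rw [this]; exact hs₁
  · have : algebraMap C F (algebraMap R C Θβ * algebraMap R C Θα ^ q)
        = algebraMap R F (Θβ * Θα ^ q) := by
      rw [← map_pow, ← map_mul, ← IsScalarTower.algebraMap_apply]
    rw [this]; exact hs₃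

end Fermat.Agent.ES.P36.TripleDecMul18
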