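/-
Program P (S36), chapter REG, brick R6α (helper10), sixth file: two GENERIC suppliers of the hypotheses of
`TripleKron10.tripleNode_of_kron`, in chart vocabulary.

* `chart_intClosure` : for `Bq = chart R t ⊂ E` and `B = chart R (α₂ t) ⊂ F` (`α₂ = algebraMap E F`):
  `hB1`, `hB2`, `hB3` (`B` is the integral closure of `Bq` in `F`), literal shapes;
* `exists_hgen` : `hgen1` / `hgen2` — from `CompData.hsurj` for the branch `(W, φ)` (`φ : FM →+* E` one
  degeneracy map of the lower level, `BM ⊂ FM` its chart) and the smoothness of `BM` at closed points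
  (`SmoothChart` unfolded): there is `u : ↥BM` with `φ u ∈ 𝔫` and `𝔪_S ≤ (p) ⊔ (φ u)`, where `(p)` is the
  centre of `W` on `S = (Bq)_𝔫`.
-/
import Mathlib
import Fermat.Agent.RED.PUR.ChartGeneric22
import Fermat.Agent.ES.N34.NodalSmooth13
import Fermat.Agent.ES.P36.PtsAsm9

set_option autoImplicit false
set_option linter.unusedSectionVars false
set_option linter.style.haveILetI false

namespace Fermat.Agent.ES.P36.TripleFeed10

open IsLocalRing Polynomial Fermat.Agent.RED.PUR.ChartGeneric22 Fermat.Agent.ES.N34.NodalCore13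
  Fermat.Agent.ES.N34.NodalSmooth13 Fermat.Agent.ES.P36.PtsAsm9

section Chart

variable {R E F : Type*} [CommRing R] [Field E] [Field F] [Algebra R E] [Algebra R F] [Algebra E F]
  [IsScalarTower R E F]

/-- `R[t] → R[α₂ t]`. -/
noncomputable def adjoinMap (t : E) :
    ↥(Algebra.adjoin R {t}) →+* ↥(Algebra.adjoin R {algebraMap E F t}) where
  toFun a := ⟨algebraMap E F (a : E), by
    have h := a.2
    have hmap : (Algebra.adjoin R {t}).map (IsScalarTower.toAlgHom R E F) =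
        Algebra.adjoin R {algebraMap E F t} := by
      rw [AlgHom.map_adjoin, Set.image_singleton]; rfl
    rw [← hmap]
    exact ⟨a, h, rfl⟩⟩
  map_one' := Subtype.ext (map_one _)
  map_mul' _ _ := Subtype.ext (map_mul _ _ _)
  map_zero' := Subtype.ext (map_zero _)
  map_add' _ _ := Subtype.ext (map_add _ _ _)

theorem adjoinMap_surjective (t : E) : Function.Surjective (adjoinMap (R := R) (F := F) t) := by
  rintro ⟨b, hb⟩
  have hmap : (Algebra.adjoin R {t}).map (IsScalarTower.toAlgHom R E F) =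
      Algebra.adjoin R {algebraMap E F t} := by
    rw [AlgHom.map_adjoin, Set.image_singleton]; rfl
  rw [← hmap] at hb
  obtain ⟨a, ha, hab⟩ := hb
  exact ⟨⟨a, ha⟩, Subtype.ext hab⟩

/-- integrality over `R[α₂ t] ⊂ F` is integrality over `R[t] ⊂ E` (through `α₂`). -/
theorem isIntegral_adjoin_iff (t : E) (x : F) :
    IsIntegral ↥(Algebra.adjoin R {algebraMap E F t}) x ↔ IsIntegral ↥(Algebra.adjoin R {t}) x := by
  have hcomp : (algebraMap ↥(Algebra.adjoin R {algebraMap E F t}) F).comp (adjoinMap t) =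
      algebraMap ↥(Algebra.adjoin R {t}) F := RingHom.ext fun a => rfl
  constructor
  · rintro ⟨P, hP, hPx⟩
    obtain ⟨Q, hQ, -, hQm⟩ := lifts_and_natDegree_eq_and_monic
      ((mem_lifts P).mpr (map_surjective _ (adjoinMap_surjective (R := R) (F := F) t) P)) hP
    refine ⟨Q, hQm, ?_⟩
    rw [← hcomp, ← eval₂_map, hQ]
    exact hPx
  · rintro ⟨Q, hQ, hQx⟩
    refine ⟨Q.map (adjoinMap t), hQ.map _, ?_⟩
    rw [eval₂_map, hcomp]
    exact hQx

/-- **`chart R (α₂ t)` is the integral closure of `chart R t` in `F`.** -/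
theorem chart_intClosure (t : E) :
    (∀ b ∈ chart R t, algebraMap E F b ∈ chart R (algebraMap E F t)) ∧
      (∀ b ∈ chart R (algebraMap E F t), IsIntegral ↥(chart R t) b) ∧
      (∀ x : F, IsIntegral ↥(chart R t) x → x ∈ chart R (algebraMap E F t)) := by
  -- `R[t] → chart R t`
  let incl : ↥(Algebra.adjoin R {t}) →+* ↥(chart R t) :=
    (Subalgebra.inclusion (adjoin_le_chart (R := R) t)).toRingHom
  have hincl : (algebraMap ↥(chart R t) F).comp incl = algebraMap ↥(Algebra.adjoin R {t}) F :=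
    RingHom.ext fun a => rfl
  refine ⟨fun b hb => ?_, fun b hb => ?_, fun x hx => ?_⟩
  · rw [mem_chart_iff, isIntegral_adjoin_iff]
    have hb' : IsIntegral ↥(Algebra.adjoin R {t}) b := mem_chart_iff.mp hb
    exact hb'.map (IsScalarTower.toAlgHom ↥(Algebra.adjoin R {t}) E F)
  · have h1 : IsIntegral ↥(Algebra.adjoin R {t}) b :=
      (isIntegral_adjoin_iff t b).mp (mem_chart_iff.mp hb)
    exact IsIntegral.map_of_comp_eq incl (RingHom.id F) (by rw [hincl]; rfl) h1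
  · rw [mem_chart_iff, isIntegral_adjoin_iff]
    -- transitivity through `chart R t = integralClosure R[t] E`, which is integral over `R[t]`
    let ρ : ↥(chart R t) →+* ↥(integralClosure ↥(Algebra.adjoin R {t}) E) :=
      { toFun := fun c => ⟨(c : E), c.2⟩
        map_one' := rfl
        map_mul' := fun _ _ => rfl
        map_zero' := rfl
        map_add' := fun _ _ => rfl }
    have hx' : IsIntegral ↥(integralClosure ↥(Algebra.adjoin R {t}) E) x :=
      IsIntegral.map_of_comp_eq ρ (RingHom.id F) (RingHom.ext fun c => rfl) hx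
    exact isIntegral_trans x hx'

end Chart

section Hgen

variable {R FM E : Type*} [CommRing R] [Field FM] [Field E] [Algebra R FM] [Algebra R E]

/-- The contraction of a maximal ideal along a chart map which is surjective modulo the centre of a
component through the point is maximal. -/
theorem contract_isMaximal (π : R) (φ : FM →+* E) (BM : Subalgebra R FM) (Bq : Subalgebra R E)
    (hφB : ∀ b ∈ BM, φ b ∈ Bq) (W : ValuationSubring E) (𝔫 : Ideal Bq) [h𝔫 : 𝔫.IsMaximal]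
    (hon : ∀ b : Bq, (∃ c ∈ W, (b : E) = algebraMap R E π * c) → b ∈ 𝔫)
    (hsurj : ∀ y ∈ Bq, ∃ b : BM, ∃ c ∈ W, y - φ (b : FM) = algebraMap R E π * c) :
    (contract φ BM Bq hφB 𝔫).IsMaximal := by
  rw [Ideal.isMaximal_iff]
  refine ⟨fun h1 => ?_, fun J b hle hb hbJ => ?_⟩
  · rw [mem_contract] at h1
    apply h𝔫.ne_top
    rw [Ideal.eq_top_iff_one]
    have : (⟨φ ((1 : ↥BM) : FM), hφB _ (1 : ↥BM).2⟩ : ↥Bq) = 1 := Subtype.ext (map_one φ)
    rwa [this] at h1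
  · rw [mem_contract] at hb
    obtain ⟨y, m, hm, hym⟩ := h𝔫.exists_inv hb
    obtain ⟨b', c, hc, hb'c⟩ := hsurj y y.2
    -- `b' * b - 1 ∈ 𝔭`
    have hmem : b' * b - 1 ∈ contract φ BM Bq hφB 𝔫 := by
      rw [mem_contract]
      have hdiff : y - ⟨φ (b' : FM), hφB _ b'.2⟩ ∈ 𝔫 := hon _ ⟨c, hc, hb'c⟩
      have heq : (⟨φ ((b' * b - 1 : ↥BM) : FM), hφB _ (b' * b - 1 : ↥BM).2⟩ : ↥Bq) =
          -(y - ⟨φ (b' : FM), hφB _ b'.2⟩) * ⟨φ (b : FM), hφB _ b.2⟩ - m := by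
        apply Subtype.ext
        have h1 : (y : E) * φ (b : FM) + (m : E) = 1 := by
          have := congrArg (fun z : ↥Bq => (z : E)) hym
          simpa using this
        show φ ((b' : FM) * (b : FM) - 1) = -((y : E) - φ (b' : FM)) * φ (b : FM) - (m : E)
        rw [map_sub, map_mul, map_one]
        linear_combination h1
      rw [heq]
      exact Ideal.sub_mem _ (Ideal.mul_mem_right _ _ (neg_mem hdiff)) hm
    have h1J : b' * b - (b' * b - 1) ∈ J := Ideal.sub_mem _ (Ideal.mul_mem_left _ _ hbJ) (hle hmem)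
    rwa [sub_sub_cancel] at h1J

/-- **`hgen1` / `hgen2` of `tripleNode_of_kron`.** -/
theorem exists_hgen (π : R) (φ : FM →+* E)
    (hφR : ∀ r : R, φ (algebraMap R FM r) = algebraMap R E r)
    (BM : Subalgebra R FM) (Bq : Subalgebra R E) (hφB : ∀ b ∈ BM, φ b ∈ Bq)
    (W : ValuationSubring E) (𝔫 : Ideal Bq) [h𝔫 : 𝔫.IsMaximal]
    (hπ𝔫 : algebraMap R Bq π ∈ 𝔫)
    (hon : ∀ b : Bq, (∃ c ∈ W, (b : E) = algebraMap R E π * c) → b ∈ 𝔫)
    (hsurj : ∀ y ∈ Bq, ∃ b : BM, ∃ c ∈ W, y - φ (b : FM) = algebraMap R E π * c)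
    (hsmM : ∀ x : Ideal BM, x.IsMaximal → algebraMap R BM π ∈ x →
      ∃ s₀ ∈ x, ∀ y ∈ x, ∃ d : BM, d ∉ x ∧ d * y ∈ Ideal.span {algebraMap R BM π, s₀})
    {p : ↥(locSub Bq 𝔫)}
    (hO : ∀ c : ↥(locSub Bq 𝔫), (∃ o ∈ W, (c : E) = algebraMap R E π * o) ↔ p ∣ c) :
    ∃ u : ↥BM, (⟨φ (u : FM), hφB _ u.2⟩ : ↥Bq) ∈ 𝔫 ∧
      maximalIdeal ↥(locSub Bq 𝔫) ≤ Ideal.span {p} ⊔
        Ideal.span {algebraMap ↥Bq ↥(locSub Bq 𝔫) ⟨φ (u : FM), hφB _ u.2⟩} := by
  haveI hmax := contract_isMaximal π φ BM Bq hφB W 𝔫 hon hsurj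
  have hπ𝔭 : algebraMap R ↥BM π ∈ contract φ BM Bq hφB 𝔫 := pi_mem_contract φ hφR BM Bq hφB 𝔫 hπ𝔫
  obtain ⟨u, hu, hgenM⟩ := hsmM _ hmax hπ𝔭
  rw [mem_contract] at hu
  refine ⟨u, hu, ?_⟩
  set ι : ↥Bq →+* ↥(locSub Bq 𝔫) := algebraMap ↥Bq ↥(locSub Bq 𝔫) with hι
  set I : Ideal ↥(locSub Bq 𝔫) := Ideal.span {p} ⊔ Ideal.span {ι ⟨φ (u : FM), hφB _ u.2⟩} with hI
  have hpI : ∀ c : ↥(locSub Bq 𝔫), (∃ o ∈ W, (c : E) = algebraMap R E π * o) → c ∈ I := fun c hc =>
    Ideal.mem_sup_left (Ideal.mem_span_singleton.mpr ((hO c).mp hc))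
  have huI : ι ⟨φ (u : FM), hφB _ u.2⟩ ∈ I := Ideal.mem_sup_right (Ideal.mem_span_singleton_self _)
  -- the image of `π` lies in `(p)`
  have hπI : ι (algebraMap R ↥Bq π) ∈ I := hpI _ ⟨1, W.one_mem, by rw [mul_one]; rfl⟩
  -- images of elements of `𝔫`
  have hkey : ∀ a : ↥Bq, a ∈ 𝔫 → ι a ∈ I := by
    intro a ha
    obtain ⟨b, c, hc, hbc⟩ := hsurj a a.2
    have hdiffI : ι (a - ⟨φ (b : FM), hφB _ b.2⟩) ∈ I := hpI _ ⟨c, hc, hbc⟩
    have hdiff𝔫 : a - ⟨φ (b : FM), hφB _ b.2⟩ ∈ 𝔫 := hon _ ⟨c, hc, hbc⟩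
    have hb𝔭 : b ∈ contract φ BM Bq hφB 𝔫 := by
      rw [mem_contract]
      have := Ideal.sub_mem _ ha hdiff𝔫
      rwa [sub_sub_cancel] at this
    obtain ⟨d, hd, hspan⟩ := hgenM b hb𝔭
    obtain ⟨a₁, a₂, h12⟩ := Ideal.mem_span_pair.mp hspan
    rw [mem_contract] at hd
    -- `φ d` is a unit of `S`
    have hdu : IsUnit (ι ⟨φ (d : FM), hφB _ d.2⟩) :=
      (IsLocalization.AtPrime.isUnit_to_map_iff ↥(locSub Bq 𝔫) 𝔫 _).mpr hd
    obtain ⟨v, hv⟩ := hdu.exists_left_inv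
    have hφeq : (⟨φ (d : FM), hφB _ d.2⟩ : ↥Bq) * ⟨φ (b : FM), hφB _ b.2⟩ =
        ⟨φ (a₁ : FM), hφB _ a₁.2⟩ * algebraMap R ↥Bq π +
          ⟨φ (a₂ : FM), hφB _ a₂.2⟩ * ⟨φ (u : FM), hφB _ u.2⟩ := by
      apply Subtype.ext
      have := congrArg (fun z : ↥BM => φ (z : FM)) h12
      simp only [Subalgebra.coe_add, Subalgebra.coe_mul, map_add, map_mul] at this
      show φ (d : FM) * φ (b : FM) = φ (a₁ : FM) * algebraMap R E π + φ (a₂ : FM) * φ (u : FM)
      rw [← this, ← hφR]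
      rfl
    have hbI : ι ⟨φ (b : FM), hφB _ b.2⟩ ∈ I := by
      have h1 : ι ⟨φ (b : FM), hφB _ b.2⟩ = v * (ι ⟨φ (d : FM), hφB _ d.2⟩ *
          ι ⟨φ (b : FM), hφB _ b.2⟩) := by
        rw [← mul_assoc, hv, one_mul]
      rw [h1, ← map_mul, hφeq, map_add, map_mul, map_mul]
      exact Ideal.mul_mem_left _ _ (Ideal.add_mem _ (Ideal.mul_mem_left _ _ hπI)
        (Ideal.mul_mem_left _ _ huI))
    have : ι a = ι (a - ⟨φ (b : FM), hφB _ b.2⟩) + ι ⟨φ (b : FM), hφB _ b.2⟩ := by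
      rw [← map_add, sub_add_cancel]
    rw [this]
    exact Ideal.add_mem _ hdiffI hbI
  -- every non-unit of `S` is `ι a / ι d₀` with `a ∈ 𝔫`
  intro z hz
  obtain ⟨a, d₀, hd₀, had⟩ := z.2
  have ha : a ∈ 𝔫 := num_mem_of_not_isUnit Bq 𝔫 ((mem_maximalIdeal _).mp hz) hd₀ had
  have hdu : IsUnit (ι d₀) := (IsLocalization.AtPrime.isUnit_to_map_iff ↥(locSub Bq 𝔫) 𝔫 _).mpr hd₀
  obtain ⟨v, hv⟩ := hdu.exists_left_inv
  have hz' : z = v * ι a := by
    have h1 : z * ι d₀ = ι a := Subtype.ext had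
    rw [← h1, mul_comm z, ← mul_assoc, hv, one_mul]
  rw [hz']
  exact Ideal.mul_mem_left _ _ (hkey a ha)

end Hgen

end Fermat.Agent.ES.P36.TripleFeed10
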