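/-
Program P (S36), chapter REG, brick R6α (helper10), fourth file: THE POINT OF LEVEL `q²` OVER A NODE, in
CHART FORM (`EisIdent10` ∘ `IntClLoc10`).

`E ⊂ F` (`Algebra E F` = the degeneracy map `α₂`), `Bq ⊂ E` the chart of level `q`, `𝔫` a node of `Bq`,
`S := locSub Bq 𝔫` with the output of R3 (`𝔪_S = (x, y)`, `x`, `y` prime) and Program N's Kronecker
parameters `s`, `s'`; `B ⊂ F` the chart of level `q²` = integral closure of `Bq` in `F`
(`hB1`, `hB2`, `hB3`), `𝔪` a maximal ideal of `B` with `𝔪 ∩ Bq ⊆ 𝔫`, `z ∈ B` lying in every prime of `B`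
containing the image of `𝔫`, and the two norm congruences for `N = N_{F/E}(z)`.

`tripleNode_chart` : in `C := locSub B 𝔪`: `𝔪_C = (α₂ s, z)`, `z` is a prime element, every element of `C`
is integral over `S` (so `C` is the integral closure of `S` in `F` and `𝔪` is the ONLY point over `𝔫`),
and `F = E(z)` (degree form).

`span_pair_of_kron` : change of generators `𝔪_C = (X, Z)`, `X = g A₃ + c ^ q`, `Z = g' A₁ + c' ^ q`
(`g`, `g'` units, `c`, `c' ∈ 𝔪_C`, `q ≥ 2`) ⇒ `𝔪_C = (A₁, A₃)` — the input `hm` of helper29's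
`TripleTrans29.triple_reg_gen` (with `A₃ = α₂ x_α`, `A₁ = β₂ y_β`).
-/
import Mathlib
import Fermat.Agent.ES.P36.EisIdent10
import Fermat.Agent.ES.P36.IntClLoc10

set_option autoImplicit false
set_option linter.unusedSectionVars false
set_option linter.style.haveILetI false

namespace Fermat.Agent.ES.P36.TripleNode10

open IsLocalRing Fermat.Agent.ES.N34.NodalCore13 Fermat.Agent.ES.N34.NodalSmooth13
  Fermat.Agent.ES.P36.IntClLoc10

section Nakayama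

variable {C : Type*} [CommRing C] [IsLocalRing C] [IsNoetherianRing C]

/-- Nakayama for two generators: `𝔪 = (X, Z)`, `X ∈ (a, b) + 𝔪²`, `Z ∈ (a, b) + 𝔪²`, `a b ∈ 𝔪`
⇒ `𝔪 = (a, b)`. -/
theorem span_pair_of_mem_sup_sq {X Z a b : C} (hXZ : maximalIdeal C = Ideal.span {X, Z})
    (ha : a ∈ maximalIdeal C) (hb : b ∈ maximalIdeal C)
    (hX : X ∈ Ideal.span {a, b} ⊔ maximalIdeal C ^ 2)
    (hZ : Z ∈ Ideal.span {a, b} ⊔ maximalIdeal C ^ 2) :
    maximalIdeal C = Ideal.span {a, b} := by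
  apply le_antisymm
  · have hfg : (maximalIdeal C).FG := (isNoetherianRing_iff_ideal_fg C).mp inferInstance _
    have hjac : maximalIdeal C ≤ Ideal.jacobson (⊥ : Ideal C) := by
      rw [IsLocalRing.jacobson_eq_maximalIdeal ⊥ bot_ne_top]
    refine Submodule.le_of_le_smul_of_le_jacobson_bot hfg hjac ?_
    rw [smul_eq_mul, ← pow_two]
    conv_lhs => rw [hXZ]
    rw [Ideal.span_le]
    rintro w (rfl | rfl)
    · exact hX
    · exact hZ
  · rw [Ideal.span_le]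
    rintro w (rfl | rfl)
    · exact ha
    · exact hb

/-- **Change of generators along the Kronecker relations.** -/
theorem span_pair_of_kron {X Z A₁ A₃ g g' c c' : C} {q : ℕ} (hq : 2 ≤ q)
    (hXZ : maximalIdeal C = Ideal.span {X, Z})
    (hg : IsUnit g) (hg' : IsUnit g') (hc : c ∈ maximalIdeal C) (hc' : c' ∈ maximalIdeal C)
    (hX : X = g * A₃ + c ^ q) (hZ : Z = g' * A₁ + c' ^ q) :
    maximalIdeal C = Ideal.span {A₁, A₃} := by
  have hpowsq : ∀ {w : C}, w ∈ maximalIdeal C → w ^ q ∈ maximalIdeal C ^ 2 := fun hw =>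
    Ideal.pow_le_pow_right hq (Ideal.pow_mem_pow hw q)
  have hsqle : maximalIdeal C ^ 2 ≤ maximalIdeal C := Ideal.pow_le_self two_ne_zero
  have hXm : X ∈ maximalIdeal C := by rw [hXZ]; exact Ideal.subset_span (by simp)
  have hZm : Z ∈ maximalIdeal C := by rw [hXZ]; exact Ideal.subset_span (by simp)
  have hA₃ : A₃ ∈ maximalIdeal C := by
    obtain ⟨u, hu⟩ := hg.exists_left_inv
    have : A₃ = u * (X - c ^ q) := by rw [hX]; linear_combination (-A₃) * hu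
    rw [this]
    exact Ideal.mul_mem_left _ _ (Ideal.sub_mem _ hXm (hsqle (hpowsq hc)))
  have hA₁ : A₁ ∈ maximalIdeal C := by
    obtain ⟨u, hu⟩ := hg'.exists_left_inv
    have : A₁ = u * (Z - c' ^ q) := by rw [hZ]; linear_combination (-A₁) * hu
    rw [this]
    exact Ideal.mul_mem_left _ _ (Ideal.sub_mem _ hZm (hsqle (hpowsq hc')))
  refine span_pair_of_mem_sup_sq hXZ hA₁ hA₃ ?_ ?_
  · rw [hX]
    exact Submodule.add_mem_sup (Ideal.mul_mem_left _ _ (Ideal.subset_span (by simp))) (hpowsq hc)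
  · rw [hZ]
    exact Submodule.add_mem_sup (Ideal.mul_mem_left _ _ (Ideal.subset_span (by simp))) (hpowsq hc')

end Nakayama

section Chart

variable {R E F : Type*} [CommRing R] [Field E] [Field F] [Algebra R E] [Algebra R F] [Algebra E F]
  [IsScalarTower R E F] [FiniteDimensional E F]

variable (Bq : Subalgebra R E) (𝔫 : Ideal Bq) [h𝔫 : 𝔫.IsPrime] (B : Subalgebra R F) (𝔪 : Ideal B)
  [h𝔪 : 𝔪.IsMaximal]

/-- `Frac (Bq)_𝔫 = E`. -/
theorem isFractionRing_locSub (frac : ∀ x : E, ∃ a ∈ Bq, ∃ b ∈ Bq, b ≠ 0 ∧ x * b = a) :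
    IsFractionRing ↥(locSub Bq 𝔫) E := by
  refine IsFractionRing.of_field ↥(locSub Bq 𝔫) E fun z => ?_
  obtain ⟨a, ha, b, hb, hb0, hab⟩ := frac z
  refine ⟨⟨a, le_locSub Bq 𝔫 ha⟩, ⟨b, le_locSub Bq 𝔫 hb⟩, ?_⟩
  show z = a / b
  rw [eq_div_iff hb0, hab]

/-- **R6α in chart form: the point of level `q²` over a node.** -/
theorem tripleNode_chart {q : ℕ} (hq : 2 ≤ q) (noethBq : IsNoetherianRing Bq)
    (frac : ∀ x : E, ∃ a ∈ Bq, ∃ b ∈ Bq, b ≠ 0 ∧ x * b = a)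
    (hB1 : ∀ b ∈ Bq, algebraMap E F b ∈ B)
    (hB2 : ∀ b ∈ B, IsIntegral ↥Bq b)
    (hB3 : ∀ x : F, IsIntegral ↥Bq x → x ∈ B)
    (hcontr : ∀ b : Bq, (⟨algebraMap E F b, hB1 b b.2⟩ : B) ∈ 𝔪 → b ∈ 𝔫)
    {x y s s' c c' N a : ↥(locSub Bq 𝔫)}
    (hx : Prime x) (hy : Prime y) (hxy : ¬ x ∣ y) (hyx : ¬ y ∣ x)
    (hmax : maximalIdeal ↥(locSub Bq 𝔫) = Ideal.span {x, y})
    (hc : c ∈ maximalIdeal ↥(locSub Bq 𝔫)) (hc' : c' ∈ maximalIdeal ↥(locSub Bq 𝔫))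
    (hs : x ∣ s - c ^ q) (hs' : y ∣ s' - c' ^ q)
    (hgen1 : maximalIdeal ↥(locSub Bq 𝔫) ≤ Ideal.span {y} ⊔ Ideal.span {s})
    (hgen2 : maximalIdeal ↥(locSub Bq 𝔫) ≤ Ideal.span {x} ⊔ Ideal.span {s'})
    {z : F} (hzB : z ∈ B)
    (hzP : ∀ P : Ideal B, P.IsPrime →
      (∀ a : Bq, a ∈ 𝔫 → (⟨algebraMap E F a, hB1 a a.2⟩ : B) ∈ P) → (⟨z, hzB⟩ : B) ∈ P)
    (hN : ((N : ↥(locSub Bq 𝔫)) : E) = Algebra.norm E z)
    (hN2 : x ∣ N - s') (hN1 : y ∣ N - a) (ha : a ∈ maximalIdeal ↥(locSub Bq 𝔫) ^ 2) :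
    maximalIdeal ↥(locSub B 𝔪) =
        Ideal.span {(⟨algebraMap E F (s : E), hmap_locSub Bq 𝔫 B 𝔪 hB1 hcontr s s.2⟩ : ↥(locSub B 𝔪)),
          ⟨z, le_locSub B 𝔪 hzB⟩} ∧
      Prime (⟨z, le_locSub B 𝔪 hzB⟩ : ↥(locSub B 𝔪)) ∧
      (∀ w ∈ locSub B 𝔪, IsIntegral ↥(locSub Bq 𝔫) w) ∧
      (minpoly ↥(locSub Bq 𝔫) z).natDegree = Module.finrank E F := by
  haveI : IsNoetherianRing ↥(locSub Bq 𝔫) :=
    IsLocalization.isNoetherianRing 𝔫.primeCompl _ noethBq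
  haveI : IsFractionRing ↥(locSub Bq 𝔫) E := isFractionRing_locSub Bq 𝔫 frac
  have hzint : IsIntegral ↥(locSub Bq 𝔫) z := (hB2 z hzB).tower_top
  have hzrad := mem_maximal_of_forall_prime Bq 𝔫 B hB1 hB2 hzB hzP hzint
  obtain ⟨hdeg, hloc, hmaxT, hprimeT, -⟩ :=
    EisIdent10.integralClosure_eisenstein (S := ↥(locSub Bq 𝔫)) (E := E) (F := F) hq hx hy hxy hyx
      hmax hc hc' hs hs' hgen1 hgen2 z hzint hzrad hN hN2 hN1 ha
  haveI := hloc
  have hiff : ∀ w : F, w ∈ integralClosure ↥(locSub Bq 𝔫) F ↔ w ∈ locSub B 𝔪 := fun w =>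
    ⟨fun hw => mem_locSub_of_isIntegral Bq 𝔫 B 𝔪 hB1 hB3 hcontr hw,
      fun hw => isIntegral_of_mem_locSub Bq 𝔫 B 𝔪 hB1 hB2 hB3 hcontr hw⟩
  obtain ⟨h1, h2⟩ := transport Bq 𝔫 B 𝔪 hiff _ _ hmaxT hprimeT
  exact ⟨h1, h2, fun w hw => (hiff w).mpr hw, hdeg⟩

end Chart

end Fermat.Agent.ES.P36.TripleNode10
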