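/-
Program P (S36), chapter REG, brick R6α (helper10), fifth file: THE HYPOTHESES OF `tripleNode_chart`
FROM ELEMENTWISE KRONECKER CONGRUENCES (chart vocabulary, no modular curves).

Three levels `FM —α,β→ E —α₂,β₂→ F` (`α₂ = algebraMap E F`, `α₂ ∘ β = β₂ ∘ α`), charts `Bq ⊂ E`, `B ⊂ F`,
vertical valuation rings `W1 W2` of `E`, `V1 V2 V3` of `F` in the position table (G2)

      along `α₂`:  `V1 ↦ W1`, `V2 ↦ W1`, `V3 ↦ W2`;      along `β₂`:  `V1 ↦ W1`, `V2 ↦ W2`, `V3 ↦ W2`.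

Elements `u₀ v₀ u₁ v₁ w₁ : FM` (model: `u₀`, `u₁` local generators of the two points of level `M'` below
the node, `v₀ = ψ u₀`, `v₁ = ψ u₁`, `w₁ = ψ² u₁`, `ψ` the coefficientwise Frobenius inverse) with the
Kronecker congruences (`KronChart15.kron_one / kron_two'`)

      `α u₀ − (β v₀)^q ∈ π W2`,  `β u₁ − (α v₁)^q ∈ π W1`,  `α u₁ − (β v₁)^q ∈ π W2`,
      `β v₁ − (α w₁)^q ∈ π W1`,  `α v₁ − (β w₁)^q ∈ π W2`.

Then with `s := α u₀`, `s' := β u₁`, `z := β₂ (β v₁)` ALL hypotheses of `TripleNode10.tripleNode_chart`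
hold: no rationality of the supersingular points, no polynomial Kronecker congruence, no explicit
coordinates.  The two norm congruences are `NormRam20.norm_congr_single_insep` (on `V3`) and
`NormRam20.norm_congr_ram` (on `V1`, `V2`).
-/
import Mathlib
import Fermat.Agent.ES.P36.TripleNode10
import Fermat.Agent.ES.P36.NormRam20

set_option autoImplicit false
set_option linter.unusedSectionVars false
set_option linter.style.haveILetI false

namespace Fermat.Agent.ES.P36.TripleKron10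

open IsLocalRing Fermat.Agent.ES.N34.NodalCore13 Fermat.Agent.ES.N34.NodalSmooth13
  Fermat.Agent.ES.P36.IntClLoc10 Fermat.Agent.RED.PUR.UniqueExt20

section Val

variable {F : Type*} [Field F]

/-- Frobenius in a valuation ring of residue characteristic `q`: `a ^ q ≡ b ^ q` ⇒ `a ≡ b`. -/
theorem val_sub_lt_one_of_pow (V : ValuationSubring F) {q : ℕ} (hq : q.Prime)
    (hqV : V.valuation (q : F) < 1) {a b : F} (ha : a ∈ V) (hb : b ∈ V)
    (h : V.valuation (a ^ q - b ^ q) < 1) : V.valuation (a - b) < 1 := by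
  obtain ⟨r, hr⟩ := exists_add_pow_prime_eq hq (⟨a, ha⟩ : V) (-⟨b, hb⟩)
  have hrF : (a + -b) ^ q = a ^ q + (-b) ^ q + (q : F) * a * (-b) * (r : F) := by
    have := congrArg (fun z : V => (z : F)) hr
    simpa using this
  have hneg : V.valuation ((-b) ^ q + b ^ q) < 1 := by
    rcases hq.eq_two_or_odd' with h2 | hodd
    · subst h2
      have : (-b) ^ 2 + b ^ 2 = ((2 : ℕ) : F) * b ^ 2 := by push_cast; ring
      rw [this, map_mul]
      exact mul_lt_one_of_nonneg_of_lt_one_left zero_le hqV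
        ((V.valuation_le_one_iff _).mpr (V.pow_mem hb 2))
    · rw [hodd.neg_pow, neg_add_cancel, map_zero]; exact zero_lt_one
  have hpow : V.valuation ((a - b) ^ q) < 1 := by
    have e : (a - b) ^ q = (a ^ q - b ^ q) + ((-b) ^ q + b ^ q) + (q : F) * (a * (-b) * (r : F)) := by
      rw [sub_eq_add_neg a b, hrF]; ring
    rw [e]
    refine lt_of_le_of_lt (Valuation.map_add _ _ _) (max_lt (lt_of_le_of_lt
      (Valuation.map_add _ _ _) (max_lt h hneg)) ?_)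
    rw [map_mul]
    refine mul_lt_one_of_nonneg_of_lt_one_left zero_le hqV ((V.valuation_le_one_iff _).mpr ?_)
    exact V.mul_mem _ _ (V.mul_mem _ _ ha (V.neg_mem _ hb)) r.2
  by_contra hcon
  rw [not_lt] at hcon
  rw [map_pow] at hpow
  exact absurd hpow (not_lt.mpr (one_le_pow₀ hcon))

/-- an element of `π V` has valuation `< 1` when `π` is a non-unit of `V`. -/
theorem val_pi_mul_lt_one (V : ValuationSubring F) {p o : F} (hp : p⁻¹ ∉ V) (ho : o ∈ V) :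
    V.valuation (p * o) < 1 := by
  rw [map_mul]
  have hpv : V.valuation p < 1 := by rw [val_lt_one_iff]; exact Or.inr hp
  exact mul_lt_one_of_nonneg_of_lt_one_left zero_le hpv ((V.valuation_le_one_iff _).mpr ho)

end Val

section Through

variable {R E F : Type*} [CommRing R] [Field E] [Field F] [Algebra R E] [Algebra R F] [Algebra E F]
  [IsScalarTower R E F]

/-- **All components over a component through the node pass through the point above it**: if `B_𝔪` is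
integral over `(Bq)_𝔫 ⊆ W` and `V` lies over `W`, then `B_𝔪 ⊆ V` (valuation rings are integrally
closed). -/
theorem locSub_le_of_isIntegral (Bq : Subalgebra R E) (𝔫 : Ideal Bq) [𝔫.IsPrime] (B : Subalgebra R F)
    (𝔪 : Ideal B) [𝔪.IsPrime] (W : ValuationSubring E) (V : ValuationSubring F)
    (hVW : V.comap (algebraMap E F) = W) (hSW : ∀ c ∈ locSub Bq 𝔫, c ∈ W)
    (hint : ∀ w ∈ locSub B 𝔪, IsIntegral ↥(locSub Bq 𝔫) w) :
    ∀ w ∈ locSub B 𝔪, w ∈ V := by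
  intro w hw
  obtain ⟨p, hp, hpw⟩ := hint w hw
  -- `w` is integral over `V`
  have hwV : IsIntegral ↥V w := by
    let g : ↥(locSub Bq 𝔫) →+* ↥V :=
      { toFun := fun c => ⟨algebraMap E F (c : E), by
          have : (c : E) ∈ V.comap (algebraMap E F) := by rw [hVW]; exact hSW _ c.2
          exact this⟩
        map_one' := Subtype.ext (by simp)
        map_mul' := fun a b => Subtype.ext (by simp)
        map_zero' := Subtype.ext (by simp)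
        map_add' := fun a b => Subtype.ext (by simp) }
    refine ⟨p.map g, hp.map g, ?_⟩
    rw [Polynomial.eval₂_map]
    have hcomp : (algebraMap ↥V F).comp g = algebraMap ↥(locSub Bq 𝔫) F := RingHom.ext fun c => rfl
    rw [hcomp]
    exact hpw
  obtain ⟨v, hv⟩ := (isIntegrallyClosed_iff F).mp (inferInstance : IsIntegrallyClosed ↥V) hwV
  rw [← hv]
  exact v.2

end Through

section Cofactor

variable {S : Type*} [CommRing S] [IsLocalRing S] [IsNoetherianRing S] [IsDomain S]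

/-- **The cofactor in a Kronecker relation is a unit**: `s = g x + c ^ q` with `g` a unit, when `s` is
a uniformiser of the other branch (`𝔪 ≤ (y) ⊔ (s)`).  [The inputs `hX`, `hZ` of
`TripleNode10.span_pair_of_kron` are the images of this identity under `α₂`, `β₂`.] -/
theorem exists_unit_cofactor {x y s c : S} {q : ℕ} (hq : 2 ≤ q) (hy : Prime y) (hyx : ¬ y ∣ x)
    (hxm : x ∈ maximalIdeal S) (hc : c ∈ maximalIdeal S) (hs : x ∣ s - c ^ q)
    (hgen : maximalIdeal S ≤ Ideal.span {y} ⊔ Ideal.span {s}) :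
    ∃ g : S, IsUnit g ∧ s = g * x + c ^ q := by
  have hpowsq : c ^ q ∈ maximalIdeal S ^ 2 := Ideal.pow_le_pow_right hq (Ideal.pow_mem_pow hc q)
  have hsqle : maximalIdeal S ^ 2 ≤ maximalIdeal S := Ideal.pow_le_self two_ne_zero
  haveI : (Ideal.span {y}).IsPrime := (Ideal.span_singleton_prime hy.ne_zero).mpr hy
  obtain ⟨g, hg⟩ := hs
  have hseq : s = g * x + c ^ q := by linear_combination hg
  have hsm : s ∈ maximalIdeal S := by
    rw [hseq]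
    exact Ideal.add_mem _ (Ideal.mul_mem_left _ _ hxm) (hsqle hpowsq)
  have hsy : s ∉ Ideal.span {y} := by
    intro h
    have hle : maximalIdeal S ≤ Ideal.span {y} := by
      refine hgen.trans (sup_le le_rfl ?_)
      exact (Ideal.span_singleton_le_iff_mem _).mpr h
    exact hyx (Ideal.mem_span_singleton.mp (hle hxm))
  have hns := NodeReg10.notMem_sup_sq (Ideal.span {y}) hsm hsy hgen
  refine ⟨g, ?_, hseq⟩
  by_contra hgu
  apply hns
  rw [hseq]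
  refine Ideal.mem_sup_right (Ideal.add_mem _ ?_ hpowsq)
  rw [pow_two]
  exact Ideal.mul_mem_mul ((mem_maximalIdeal _).mpr hgu) hxm

end Cofactor

section Generators

variable {C : Type*} [CommRing C] [IsLocalRing C] [IsNoetherianRing C]

/-- **Change of generators, no unit hypotheses**: `𝔪 = (X, Z)`, `X = g A₃ + c ^ q`,
`Z = g' A₁ + c' ^ q` with `A₁ A₃ c c' ∈ 𝔪`, `q ≥ 2` ⇒ `𝔪 = (A₁, A₃)` (`g`, `g'` arbitrary: they are then
automatically units).  This is the input `hm` of `TripleTrans29.triple_reg_gen`. -/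
theorem span_pair_of_kron' {X Z A₁ A₃ g g' c c' : C} {q : ℕ} (hq : 2 ≤ q)
    (hXZ : maximalIdeal C = Ideal.span {X, Z})
    (hA₁ : A₁ ∈ maximalIdeal C) (hA₃ : A₃ ∈ maximalIdeal C)
    (hc : c ∈ maximalIdeal C) (hc' : c' ∈ maximalIdeal C)
    (hX : X = g * A₃ + c ^ q) (hZ : Z = g' * A₁ + c' ^ q) :
    maximalIdeal C = Ideal.span {A₁, A₃} := by
  have hpowsq : ∀ {w : C}, w ∈ maximalIdeal C → w ^ q ∈ maximalIdeal C ^ 2 := fun hw =>
    Ideal.pow_le_pow_right hq (Ideal.pow_mem_pow hw q)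
  refine TripleNode10.span_pair_of_mem_sup_sq hXZ hA₁ hA₃ ?_ ?_
  · rw [hX]
    exact Submodule.add_mem_sup (Ideal.mul_mem_left _ _ (Ideal.subset_span (by simp))) (hpowsq hc)
  · rw [hZ]
    exact Submodule.add_mem_sup (Ideal.mul_mem_left _ _ (Ideal.subset_span (by simp))) (hpowsq hc')

end Generators

section Main

variable {R FM E F : Type*} [CommRing R] [CommRing FM] [Field E] [Field F] [Algebra R E] [Algebra R F]
  [Algebra E F] [IsScalarTower R E F] [FiniteDimensional E F]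

variable (π : R) (Bq : Subalgebra R E) (𝔫 : Ideal Bq) [h𝔫 : 𝔫.IsPrime] (B : Subalgebra R F)
  (𝔪 : Ideal B) [h𝔪 : 𝔪.IsMaximal]

/-- in `S = (Bq)_𝔫`: a `q`-th power lies in `𝔪_S` only if its base does. -/
theorem mem_of_pow_sub_mem {S : Type*} [CommRing S] [IsLocalRing S] {a c : S} {q : ℕ}
    (ha : a ∈ maximalIdeal S) (h : a - c ^ q ∈ maximalIdeal S) : c ∈ maximalIdeal S := by
  have hc : c ^ q ∈ maximalIdeal S := by
    have := Ideal.sub_mem _ ha h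
    rwa [sub_sub_cancel] at this
  exact (maximalIdeal.isMaximal S).isPrime.mem_of_pow_mem _ hc

set_option maxHeartbeats 1600000 in
/-- **R6α from elementwise Kronecker congruences (chart form).** -/
theorem tripleNode_of_kron {q k : ℕ} (hq : q.Prime) (hqk : q = k + 2)
    (hn : Module.finrank E F ≤ q)
    (noethBq : IsNoetherianRing Bq)
    (frac : ∀ x : E, ∃ a ∈ Bq, ∃ b ∈ Bq, b ≠ 0 ∧ x * b = a)
    (hB1 : ∀ b ∈ Bq, algebraMap E F b ∈ B)
    (hB2 : ∀ b ∈ B, IsIntegral ↥Bq b)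
    (hB3 : ∀ x : F, IsIntegral ↥Bq x → x ∈ B)
    (hcontr : ∀ b : Bq, (⟨algebraMap E F b, hB1 b b.2⟩ : B) ∈ 𝔪 → b ∈ 𝔫)
    (hπ𝔫 : algebraMap R Bq π ∈ 𝔫)
    (α β : FM →+* E) (β₂ : E →+* F) (hβ₂π : β₂ (algebraMap R E π) = algebraMap R F π)
    (hαβ : ∀ w : FM, algebraMap E F (β w) = β₂ (α w))
    (hβ₂B : ∀ b ∈ Bq, β₂ b ∈ B)
    (W1 W2 : ValuationSubring E) (V1 V2 V3 : ValuationSubring F)
    (hV1α : V1.comap (algebraMap E F) = W1) (hV2α : V2.comap (algebraMap E F) = W1)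
    (hV3α : V3.comap (algebraMap E F) = W2)
    (hV1β : V1.comap β₂ = W1) (hV2β : V2.comap β₂ = W2) (hV3β : V3.comap β₂ = W2)
    (leW1 : ∀ b ∈ Bq, b ∈ W1) (leW2 : ∀ b ∈ Bq, b ∈ W2)
    (hSW1 : ∀ c ∈ locSub Bq 𝔫, c ∈ W1) (hSW2 : ∀ c ∈ locSub Bq 𝔫, c ∈ W2)
    (leV1 : ∀ b ∈ B, b ∈ V1) (leV2 : ∀ b ∈ B, b ∈ V2) (leV3 : ∀ b ∈ B, b ∈ V3)
    (unif1 : ∀ x ∈ W1, x⁻¹ ∉ W1 → ∃ c ∈ W1, x = algebraMap R E π * c)
    (unif2 : ∀ x ∈ W2, x⁻¹ ∉ W2 → ∃ c ∈ W2, x = algebraMap R E π * c)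
    (pi_nonunitV1 : (algebraMap R F π)⁻¹ ∉ V1) (pi_nonunitV2 : (algebraMap R F π)⁻¹ ∉ V2)
    (pi_nonunitV3 : (algebraMap R F π)⁻¹ ∉ V3)
    (hqπ : ∃ r : R, (q : R) = π * r)
    (sat : ∀ b ∈ Bq, ∀ c : E, c ∈ W1 → c ∈ W2 → b = algebraMap R E π * c → c ∈ Bq)
    (h12 : V1 ≠ V2) {t : F} (ht0 : t ≠ 0) (ht2 : V2.valuation t < 1)
    (hram : ∀ a : E, (V1.comap (algebraMap E F)).valuation a < 1 →
      V2.valuation (algebraMap E F a) ≤ V2.valuation t ^ (k + 1))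
    (b : Fin q → F) (hbO : ∀ i, b i ∈ V3)
    (hb : ∀ a : Fin q → E, (∀ i, (V3.comap (algebraMap E F)).valuation (a i) ≤ 1) →
      V3.valuation (∑ i, algebraMap E F (a i) * b i) < 1 →
      ∀ i, (V3.comap (algebraMap E F)).valuation (a i) < 1)
    {x y : ↥(locSub Bq 𝔫)} (hx : Prime x) (hy : Prime y) (hxy : ¬ x ∣ y) (hyx : ¬ y ∣ x)
    (hmax : maximalIdeal ↥(locSub Bq 𝔫) = Ideal.span {x, y})
    (hO2 : ∀ c : ↥(locSub Bq 𝔫), (∃ o ∈ W2, (c : E) = algebraMap R E π * o) ↔ x ∣ c)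
    (hO1 : ∀ c : ↥(locSub Bq 𝔫), (∃ o ∈ W1, (c : E) = algebraMap R E π * o) ↔ y ∣ c)
    (u₀ v₀ u₁ v₁ w₁ : FM)
    (hαu₀ : α u₀ ∈ Bq) (hβv₀ : β v₀ ∈ Bq) (hβu₁ : β u₁ ∈ Bq) (hαv₁ : α v₁ ∈ Bq)
    (hαu₁ : α u₁ ∈ Bq) (hβv₁ : β v₁ ∈ Bq) (hαw₁ : α w₁ ∈ Bq) (hβw₁ : β w₁ ∈ Bq)
    (hu₀𝔫 : (⟨α u₀, hαu₀⟩ : Bq) ∈ 𝔫) (hu₁𝔫 : (⟨β u₁, hβu₁⟩ : Bq) ∈ 𝔫)
    (hgen1 : maximalIdeal ↥(locSub Bq 𝔫) ≤ Ideal.span {y} ⊔
      Ideal.span {algebraMap ↥Bq ↥(locSub Bq 𝔫) ⟨α u₀, hαu₀⟩})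
    (hgen2 : maximalIdeal ↥(locSub Bq 𝔫) ≤ Ideal.span {x} ⊔
      Ideal.span {algebraMap ↥Bq ↥(locSub Bq 𝔫) ⟨β u₁, hβu₁⟩})
    (K2u₀ : ∃ o ∈ W2, α u₀ - (β v₀) ^ q = algebraMap R E π * o)
    (K1u₁ : ∃ o ∈ W1, β u₁ - (α v₁) ^ q = algebraMap R E π * o)
    (K2u₁ : ∃ o ∈ W2, α u₁ - (β v₁) ^ q = algebraMap R E π * o)
    (K1v₁ : ∃ o ∈ W1, β v₁ - (α w₁) ^ q = algebraMap R E π * o)
    (K2v₁ : ∃ o ∈ W2, α v₁ - (β w₁) ^ q = algebraMap R E π * o) :
    maximalIdeal ↥(locSub B 𝔪) =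
        Ideal.span {(⟨algebraMap E F (α u₀), hmap_locSub Bq 𝔫 B 𝔪 hB1 hcontr _
            (le_locSub Bq 𝔫 hαu₀)⟩ : ↥(locSub B 𝔪)),
          ⟨β₂ (β v₁), le_locSub B 𝔪 (hβ₂B _ hβv₁)⟩} ∧
      Prime (⟨β₂ (β v₁), le_locSub B 𝔪 (hβ₂B _ hβv₁)⟩ : ↥(locSub B 𝔪)) ∧
      (∀ w ∈ locSub B 𝔪, IsIntegral ↥(locSub Bq 𝔫) w) ∧
      (minpoly ↥(locSub Bq 𝔫) (β₂ (β v₁))).natDegree = Module.finrank E F := by
  classical
  haveI : Fact q.Prime := ⟨hq⟩
  haveI : IsNoetherianRing ↥(locSub Bq 𝔫) :=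
    IsLocalization.isNoetherianRing 𝔫.primeCompl _ noethBq
  haveI hfracS : IsFractionRing ↥(locSub Bq 𝔫) E := TripleNode10.isFractionRing_locSub Bq 𝔫 frac
  haveI hufd : UniqueFactorizationMonoid ↥(locSub Bq 𝔫) := NodeParam10.ufd hx hmax
  haveI hIC : IsIntegrallyClosed ↥(locSub Bq 𝔫) := inferInstance
  set ι : ↥Bq →+* ↥(locSub Bq 𝔫) := algebraMap ↥Bq ↥(locSub Bq 𝔫) with hι
  have hιcoe : ∀ b : ↥Bq, ((ι b : ↥(locSub Bq 𝔫)) : E) = (b : E) := fun b => rfl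
  have hιmem : ∀ b : ↥Bq, b ∈ 𝔫 → ι b ∈ maximalIdeal ↥(locSub Bq 𝔫) := fun b hb =>
    (mem_maximalIdeal _).mpr (not_isUnit_of_mem Bq 𝔫 hb)
  have hxm : x ∈ maximalIdeal ↥(locSub Bq 𝔫) := by rw [hmax]; exact Ideal.subset_span (by simp)
  have hym : y ∈ maximalIdeal ↥(locSub Bq 𝔫) := by rw [hmax]; exact Ideal.subset_span (by simp)
  have hdvdx : ∀ {c : ↥(locSub Bq 𝔫)}, x ∣ c → c ∈ maximalIdeal ↥(locSub Bq 𝔫) := fun h =>
    Ideal.mem_of_dvd _ h hxm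
  have hdvdy : ∀ {c : ↥(locSub Bq 𝔫)}, y ∣ c → c ∈ maximalIdeal ↥(locSub Bq 𝔫) := fun h =>
    Ideal.mem_of_dvd _ h hym
  -- the elements of `S`
  set s : ↥(locSub Bq 𝔫) := ι ⟨α u₀, hαu₀⟩ with hs_def
  set c : ↥(locSub Bq 𝔫) := ι ⟨β v₀, hβv₀⟩ with hc_def
  set s' : ↥(locSub Bq 𝔫) := ι ⟨β u₁, hβu₁⟩ with hs'_def
  set c' : ↥(locSub Bq 𝔫) := ι ⟨α v₁, hαv₁⟩ with hc'_def
  set d : ↥(locSub Bq 𝔫) := ι ⟨β w₁, hβw₁⟩ with hd_def
  have hsm : s ∈ maximalIdeal ↥(locSub Bq 𝔫) := hιmem _ hu₀𝔫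
  have hs'm : s' ∈ maximalIdeal ↥(locSub Bq 𝔫) := hιmem _ hu₁𝔫
  have hs : x ∣ s - c ^ q := by
    rw [← hO2]
    obtain ⟨o, ho, h⟩ := K2u₀
    exact ⟨o, ho, h⟩
  have hs' : y ∣ s' - c' ^ q := by
    rw [← hO1]
    obtain ⟨o, ho, h⟩ := K1u₁
    exact ⟨o, ho, h⟩
  have hc : c ∈ maximalIdeal ↥(locSub Bq 𝔫) := mem_of_pow_sub_mem hsm (hdvdx hs)
  have hc' : c' ∈ maximalIdeal ↥(locSub Bq 𝔫) := mem_of_pow_sub_mem hs'm (hdvdy hs')
  have hd : d ∈ maximalIdeal ↥(locSub Bq 𝔫) := by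
    have h1 : x ∣ c' - d ^ q := by
      rw [← hO2]
      obtain ⟨o, ho, h⟩ := K2v₁
      exact ⟨o, ho, h⟩
    exact mem_of_pow_sub_mem hc' (hdvdx h1)
  have hd𝔫 : (⟨β w₁, hβw₁⟩ : ↥Bq) ∈ 𝔫 := by
    by_contra hnot
    exact ((mem_maximalIdeal _).mp hd)
      ((IsLocalization.AtPrime.isUnit_to_map_iff ↥(locSub Bq 𝔫) 𝔫 _).mpr hnot)
  -- the element `z`
  set z : F := β₂ (β v₁) with hz_def
  have hzB : z ∈ B := hβ₂B _ hβv₁
  have hπE0 : algebraMap R E π ≠ 0 := by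
    intro h0
    apply pi_nonunitV1
    have : algebraMap R F π = 0 := by
      rw [IsScalarTower.algebraMap_apply R E F, h0, map_zero]
    rw [this, inv_zero]
    exact V1.zero_mem
  have hπB : ∀ P : Ideal B, (∀ a : Bq, a ∈ 𝔫 → (⟨algebraMap E F a, hB1 a a.2⟩ : B) ∈ P) →
      algebraMap R B π ∈ P := by
    intro P hP
    have := hP _ hπ𝔫
    have heq : (⟨algebraMap E F ((algebraMap R ↥Bq π : ↥Bq) : E), hB1 _ (algebraMap R ↥Bq π).2⟩ : B) =
        algebraMap R B π := by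
      apply Subtype.ext
      show algebraMap E F (algebraMap R E π) = algebraMap R F π
      rw [← IsScalarTower.algebraMap_apply]
    rwa [heq] at this
  -- `z` lies in every prime of `B` containing the image of `𝔫`
  have hzP : ∀ P : Ideal B, P.IsPrime →
      (∀ a : Bq, a ∈ 𝔫 → (⟨algebraMap E F a, hB1 a a.2⟩ : B) ∈ P) → (⟨z, hzB⟩ : B) ∈ P := by
    intro P hPprime hP
    have hπP := hπB P hP
    -- one of the two centres maps into `P` under `β₂`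
    have hdich : (∀ p : Bq, (∃ o ∈ W1, (p : E) = algebraMap R E π * o) →
          (⟨β₂ p, hβ₂B p p.2⟩ : B) ∈ P) ∨
        (∀ p : Bq, (∃ o ∈ W2, (p : E) = algebraMap R E π * o) → (⟨β₂ p, hβ₂B p p.2⟩ : B) ∈ P) := by
      by_contra hcon
      push Not at hcon
      obtain ⟨⟨p₁, ⟨o₁, ho₁, hp₁⟩, hp₁P⟩, ⟨p₂, ⟨o₂, ho₂, hp₂⟩, hp₂P⟩⟩ := hcon
      have hcmem : o₁ * (p₂ : E) ∈ Bq := by
        refine sat ((p₁ : E) * (p₂ : E)) (Bq.mul_mem p₁.2 p₂.2) _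
          (W1.mul_mem _ _ ho₁ (leW1 _ p₂.2)) ?_ ?_
        · have : o₁ * (p₂ : E) = (p₁ : E) * o₂ := by
            rw [hp₂, hp₁]; ring
          rw [this]
          exact W2.mul_mem _ _ (leW2 _ p₁.2) ho₂
        · rw [hp₁]; ring
      have hprod : (⟨β₂ p₁, hβ₂B p₁ p₁.2⟩ : B) * ⟨β₂ p₂, hβ₂B p₂ p₂.2⟩ =
          algebraMap R B π * ⟨β₂ (o₁ * (p₂ : E)), hβ₂B _ hcmem⟩ := by
        apply Subtype.ext
        show β₂ (p₁ : E) * β₂ (p₂ : E) = algebraMap R F π * β₂ (o₁ * (p₂ : E))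
        rw [← map_mul, ← hβ₂π, ← map_mul, hp₁]
        congr 1; ring
      have : (⟨β₂ p₁, hβ₂B p₁ p₁.2⟩ : B) * ⟨β₂ p₂, hβ₂B p₂ p₂.2⟩ ∈ P := by
        rw [hprod]; exact Ideal.mul_mem_right _ _ hπP
      exact (hPprime.mem_or_mem this).elim hp₁P hp₂P
    rcases hdich with hP1 | hP2
    · -- case (B): `z ≡ (β₂ α w₁) ^ q`
      obtain ⟨o, ho, h⟩ := K1v₁
      have h1 := hP1 (⟨β v₁, hβv₁⟩ - ⟨α w₁, hαw₁⟩ ^ q) ⟨o, ho, h⟩
      have h2 := hP _ hd𝔫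
      have heq : (⟨z, hzB⟩ : B) = ⟨β₂ ((⟨β v₁, hβv₁⟩ - ⟨α w₁, hαw₁⟩ ^ q : ↥Bq) : E), hβ₂B _
          (⟨β v₁, hβv₁⟩ - ⟨α w₁, hαw₁⟩ ^ q : ↥Bq).2⟩ +
          ⟨algebraMap E F ((⟨β w₁, hβw₁⟩ : ↥Bq) : E), hB1 _ hβw₁⟩ ^ q := by
        apply Subtype.ext
        show z = β₂ (β v₁ - (α w₁) ^ q) + (algebraMap E F (β w₁)) ^ q
        rw [hαβ, map_sub, map_pow]; ring
      rw [heq]
      exact Ideal.add_mem _ h1 (Ideal.pow_mem_of_mem _ h2 q hq.pos)
    · -- case (A): `z ^ q ≡ α₂ (β u₁)`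
      obtain ⟨o, ho, h⟩ := K2u₁
      have h1 := hP2 (⟨α u₁, hαu₁⟩ - ⟨β v₁, hβv₁⟩ ^ q) ⟨o, ho, h⟩
      have h2 := hP _ hu₁𝔫
      have heq : (⟨z, hzB⟩ : B) ^ q = ⟨algebraMap E F ((⟨β u₁, hβu₁⟩ : ↥Bq) : E), hB1 _ hβu₁⟩ -
          ⟨β₂ ((⟨α u₁, hαu₁⟩ - ⟨β v₁, hβv₁⟩ ^ q : ↥Bq) : E), hβ₂B _
            (⟨α u₁, hαu₁⟩ - ⟨β v₁, hβv₁⟩ ^ q : ↥Bq).2⟩ := by
        apply Subtype.ext
        show z ^ q = algebraMap E F (β u₁) - β₂ (α u₁ - (β v₁) ^ q)
        rw [hαβ, map_sub, map_pow]; ring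
      have : (⟨z, hzB⟩ : B) ^ q ∈ P := by
        rw [heq]; exact Ideal.sub_mem _ h2 h1
      exact hPprime.mem_of_pow_mem _ this
  -- the norm of `z`
  have hzint : IsIntegral ↥(locSub Bq 𝔫) z := (hB2 z hzB).tower_top
  have hNint : IsIntegral ↥(locSub Bq 𝔫) (Algebra.norm E z) := Algebra.isIntegral_norm E hzint
  obtain ⟨N, hN⟩ := (isIntegrallyClosed_iff E).mp hIC hNint
  have hN' : ((N : ↥(locSub Bq 𝔫)) : E) = Algebra.norm E z := hN
  -- `q` is a non-unit of the `V_i`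
  obtain ⟨r, hr⟩ := hqπ
  have hqF : (q : F) = algebraMap R F π * algebraMap R F r := by
    rw [← map_mul, ← hr, map_natCast]
  have hqV : ∀ V : ValuationSubring F, (algebraMap R F π)⁻¹ ∉ V → (∀ b ∈ B, b ∈ V) →
      V.valuation (q : F) < 1 := fun V hV hle => by
    rw [hqF]; exact val_pi_mul_lt_one V hV (hle _ (B.algebraMap_mem r))
  -- transport of `π W_j` along `β₂` and `α₂`
  have hβ₂W : ∀ (V : ValuationSubring F) (W : ValuationSubring E), V.comap β₂ = W →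
      (algebraMap R F π)⁻¹ ∉ V → ∀ e : E, (∃ o ∈ W, e = algebraMap R E π * o) →
      V.valuation (β₂ e) < 1 := by
    rintro V W hVW hV e ⟨o, ho, rfl⟩
    rw [map_mul, hβ₂π]
    refine val_pi_mul_lt_one V hV ?_
    rw [← hVW] at ho
    exact ho
  have hα₂W : ∀ (V : ValuationSubring F) (W : ValuationSubring E), V.comap (algebraMap E F) = W →
      (algebraMap R F π)⁻¹ ∉ V → ∀ e : E, (∃ o ∈ W, e = algebraMap R E π * o) →
      V.valuation (algebraMap E F e) < 1 := by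
    rintro V W hVW hV e ⟨o, ho, rfl⟩
    rw [map_mul, ← IsScalarTower.algebraMap_apply]
    refine val_pi_mul_lt_one V hV ?_
    rw [← hVW] at ho
    exact ho
  -- from valuation `< 1` to divisibility in `S`
  have hdvd_of_val : ∀ (W : ValuationSubring E) (p : ↥(locSub Bq 𝔫)),
      (∀ x ∈ W, x⁻¹ ∉ W → ∃ c ∈ W, x = algebraMap R E π * c) → (∀ b ∈ Bq, b ∈ W) →
      (∀ c : ↥(locSub Bq 𝔫), (∃ o ∈ W, (c : E) = algebraMap R E π * o) ↔ p ∣ c) →
      (∀ c : ↥(locSub Bq 𝔫), (c : E) ∈ W) →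
      ∀ c : ↥(locSub Bq 𝔫), W.valuation (c : E) < 1 → p ∣ c := by
    intro W p hunif hle hiff hSW c hc
    rw [← hiff]
    rw [val_lt_one_iff] at hc
    rcases hc with h0 | hinv
    · exact ⟨0, W.zero_mem, by rw [h0, mul_zero]⟩
    · exact hunif _ (hSW c) hinv
  -- the congruence on `V3`: `N ≡ s' mod (x)`
  have hN2 : x ∣ N - s' := by
    refine hdvd_of_val W2 x unif2 leW2 hO2 (fun c => hSW2 _ c.2) _ ?_
    have hcV3 : V3.valuation (z ^ q - algebraMap E F (β u₁)) < 1 := by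
      have e : z ^ q - algebraMap E F (β u₁) = -β₂ (α u₁ - (β v₁) ^ q) := by
        rw [hαβ, map_sub, map_pow]; ring
      rw [e, Valuation.map_neg]
      exact hβ₂W V3 W2 hV3β pi_nonunitV3 _ K2u₁
    have hqE : (V3.comap (algebraMap E F)).valuation (q : E) < 1 := by
      rw [comap_val_lt_one_iff, map_natCast]
      exact hqV V3 pi_nonunitV3 leV3
    have hx3 : (V3.comap (algebraMap E F)).valuation (β u₁) ≤ 1 := by
      rw [hV3α, ValuationSubring.valuation_le_one_iff]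
      exact leW2 _ hβu₁
    have key := NormRam20.norm_congr_single_insep q hn V3 hqE b hbO hb (leV3 _ hzB) hx3 hcV3
    rw [hV3α] at key
    have : ((N - s' : ↥(locSub Bq 𝔫)) : E) = Algebra.norm E z - β u₁ := by
      push_cast; rw [hN']; rfl
    rw [this]
    exact key
  -- the congruence on `V1`, `V2`: `N ≡ a mod (y)`, `a ∈ 𝔪²`
  set a : ↥(locSub Bq 𝔫) := d ^ q * c' ^ (k + 1) with ha_def
  have hN1 : y ∣ N - a := by
    refine hdvd_of_val W1 y unif1 leW1 hO1 (fun c => hSW1 _ c.2) _ ?_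
    have hc1 : V1.valuation (z - algebraMap E F ((β w₁) ^ q)) < 1 := by
      have e : z - algebraMap E F ((β w₁) ^ q) = β₂ (β v₁ - (α w₁) ^ q) := by
        rw [map_pow, hαβ, map_sub, map_pow]
      rw [e]
      exact hβ₂W V1 W1 hV1β pi_nonunitV1 _ K1v₁
    have hc2 : V2.valuation (z - algebraMap E F (α v₁)) < 1 := by
      refine val_sub_lt_one_of_pow V2 hq (hqV V2 pi_nonunitV2 leV2) (leV2 _ hzB)
        (leV2 _ (hB1 _ hαv₁)) ?_
      have e : z ^ q - (algebraMap E F (α v₁)) ^ q =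
          -β₂ (α u₁ - (β v₁) ^ q) + algebraMap E F (β u₁ - (α v₁) ^ q) := by
        rw [map_sub (algebraMap E F), hαβ u₁, map_sub, map_pow, map_pow]; ring
      rw [e]
      refine lt_of_le_of_lt (Valuation.map_add _ _ _) (max_lt ?_ ?_)
      · rw [Valuation.map_neg]
        exact hβ₂W V2 W2 hV2β pi_nonunitV2 _ K2u₁
      · exact hα₂W V2 W1 hV2α pi_nonunitV2 _ K1u₁
    have hx1 : (V1.comap (algebraMap E F)).valuation ((β w₁) ^ q) ≤ 1 := by
      rw [hV1α, ValuationSubring.valuation_le_one_iff]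
      exact W1.pow_mem (leW1 _ hβw₁) q
    have hx2 : (V1.comap (algebraMap E F)).valuation (α v₁) ≤ 1 := by
      rw [hV1α, ValuationSubring.valuation_le_one_iff]
      exact leW1 _ hαv₁
    have hn' : Module.finrank E F ≤ k + 2 := hqk ▸ hn
    have key := NormRam20.norm_congr_ram hn' V1 V2 h12 (hV1α.trans hV2α.symm) ht0 ht2 hram
      (leV1 _ hzB) (leV2 _ hzB) hx1 hx2 hc1 hc2
    rw [hV1α] at key
    have : ((N - a : ↥(locSub Bq 𝔫)) : E) = Algebra.norm E z - (β w₁) ^ q * (α v₁) ^ (k + 1) := by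
      push_cast; rw [hN']; rfl
    rw [this]
    exact key
  have ha : a ∈ maximalIdeal ↥(locSub Bq 𝔫) ^ 2 := by
    refine Ideal.mul_mem_right _ _ ?_
    exact Ideal.pow_le_pow_right hq.two_le (Ideal.pow_mem_pow hd q)
  exact TripleNode10.tripleNode_chart Bq 𝔫 B 𝔪 hq.two_le noethBq frac hB1 hB2 hB3 hcontr hx hy hxy hyx
    hmax hc hc' hs hs' hgen1 hgen2 hzB hzP hN' hN2 hN1 ha

end Main

end Fermat.Agent.ES.P36.TripleKron10
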